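import Mathlib

/-!
# (IH) node IH-4: the two Dirichlet / quadratic-reciprocity lemmas (Lemma A, Lemma D)

Pure elementary number theory (Mathlib only).

* `lemmaA` : for `gcd(a, c) = 1`, `c ≠ 0`, `q ∤ c` there is `a'' ≡ a (mod c)`, prime to `q`,
  and an odd `k` with `q ^ k ≡ 1 (mod a'')`.
* `lemmaD` : for `L` prime to `q` (`4 ∣ L` if `L` is even), a prime `r ∣ L`, a unit class
  `α (mod L)` and any prime `ρ` there are `a'' ≡ α (mod L)` prime to `q`, and `t ≥ 1`, `k`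
  with `ρ ∤ t` and `r ^ t ≡ q ^ k (mod a'')`.
-/

set_option autoImplicit false

namespace Fermat.Agent.S41.H61

/-- CRT over `ℤ` for coprime moduli. -/
theorem int_crt {m n : ℤ} (h : IsCoprime m n) (a b : ℤ) :
    ∃ y : ℤ, y ≡ a [ZMOD m] ∧ y ≡ b [ZMOD n] := by
  obtain ⟨u, v, huv⟩ := h
  refine ⟨a * (v * n) + b * (u * m), ?_, ?_⟩
  · rw [Int.modEq_iff_dvd]
    exact ⟨u * (a - b), by linear_combination (-a) * huv⟩
  · rw [Int.modEq_iff_dvd]
    exact ⟨v * (b - a), by linear_combination (-b) * huv⟩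

/-- In a finite commutative group, some positive power `y ^ t` with `t ∣ |G|` lies in the
cyclic subgroup generated by `x`. -/
theorem exists_pow_eq_pow {G : Type*} [CommGroup G] [Finite G] (x y : G) :
    ∃ t : ℕ, 0 < t ∧ t ∣ Nat.card G ∧ ∃ k : ℕ, y ^ t = x ^ k := by
  classical
  let H : Subgroup G := Subgroup.zpowers x
  let ybar : G ⧸ H := QuotientGroup.mk y
  refine ⟨orderOf ybar, orderOf_pos ybar, ?_, ?_⟩
  · refine (orderOf_dvd_natCard ybar).trans ?_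
    rw [← Subgroup.index_eq_card]
    exact Subgroup.index_dvd_card H
  · have h1 : ybar ^ orderOf ybar = 1 := pow_orderOf_eq_one ybar
    have h2 : y ^ orderOf ybar ∈ H := by
      rw [← QuotientGroup.eq_one_iff]
      simp only [ybar, ← QuotientGroup.mk_pow] at h1
      exact h1
    have h3 : y ^ orderOf ybar ∈ Submonoid.powers x := mem_powers_iff_mem_zpowers.mpr h2
    obtain ⟨k, hk⟩ := h3
    exact ⟨k, hk.symm⟩

/-- In a finite cyclic group, an odd power of any `y` lies in the subgroup generated by a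
non-square `x`. -/
theorem exists_odd_pow_eq_pow {G : Type*} [CommGroup G] [Finite G] [IsCyclic G] {x : G}
    (hx : ¬ IsSquare x) (y : G) : ∃ t k : ℕ, Odd t ∧ y ^ t = x ^ k := by
  obtain ⟨g, hg⟩ := IsCyclic.exists_generator (α := G)
  obtain ⟨e, he⟩ := mem_powers_iff_mem_zpowers.mpr (hg x)
  obtain ⟨f, hf⟩ := mem_powers_iff_mem_zpowers.mpr (hg y)
  have he' : g ^ e = x := he
  have hf' : g ^ f = y := hf
  have hodd : Odd e := by
    by_contra h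
    rw [Nat.not_odd_iff_even] at h
    obtain ⟨e', rfl⟩ := h
    exact hx ⟨g ^ e', by rw [← he', pow_add]⟩
  have hgo : Odd (Nat.gcd e (orderOf g)) := hodd.of_dvd_nat (Nat.gcd_dvd_left _ _)
  have h2 : y ^ Nat.gcd e (orderOf g) ∈ Subgroup.zpowers x := by
    refine ⟨(f : ℤ) * Nat.gcdA e (orderOf g), ?_⟩
    have hb : ((Nat.gcd e (orderOf g) : ℕ) : ℤ)
        = e * Nat.gcdA e (orderOf g) + orderOf g * Nat.gcdB e (orderOf g) :=
      Nat.gcd_eq_gcd_ab e (orderOf g)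
    show x ^ ((f : ℤ) * Nat.gcdA e (orderOf g)) = y ^ Nat.gcd e (orderOf g)
    rw [← he', ← hf', ← zpow_natCast g e, ← zpow_mul, ← pow_mul, ← zpow_natCast g (f * _),
      zpow_eq_zpow_iff_modEq, Int.modEq_iff_dvd]
    refine ⟨(f : ℤ) * Nat.gcdB e (orderOf g), ?_⟩
    push_cast
    rw [hb]
    ring
  obtain ⟨k, hk⟩ := mem_powers_iff_mem_zpowers.mpr h2
  exact ⟨_, k, hgo, hk.symm⟩

/-- Core of Lemma D, odd `ρ`: if `ρ ∤ φ(a)` then `r ^ t ≡ q ^ k (mod a)` with `ρ ∤ t`. -/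
theorem core_of_not_dvd_totient {a q r ρ : ℕ} (ha : a ≠ 0) (hqa : Nat.Coprime q a)
    (hra : Nat.Coprime r a) (hρ : ¬ ρ ∣ Nat.totient a) :
    ∃ t k : ℕ, 0 < t ∧ ¬ ρ ∣ t ∧ r ^ t ≡ q ^ k [MOD a] := by
  have : NeZero a := ⟨ha⟩
  obtain ⟨t, ht0, htd, k, hk⟩ :=
    exists_pow_eq_pow (ZMod.unitOfCoprime q hqa) (ZMod.unitOfCoprime r hra)
  refine ⟨t, k, ht0, fun h => hρ (h.trans ?_), ?_⟩
  · rwa [Nat.card_eq_fintype_card, ZMod.card_units_eq_totient] at htd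
  · have h := congrArg (fun u : (ZMod a)ˣ => (u : ZMod a)) hk
    simp only [Units.val_pow_eq_pow_val, ZMod.coe_unitOfCoprime] at h
    rw [← ZMod.natCast_eq_natCast_iff]
    push_cast
    exact h

/-- Core of Lemma D, `ρ = 2`: if `a` is prime and `q` is a non-residue mod `a`, then
`r ^ t ≡ q ^ k (mod a)` with `t` odd. -/
theorem core_of_nonsquare {a q r : ℕ} (ha : a.Prime) (hra : Nat.Coprime r a)
    (hq : ¬ IsSquare ((q : ℕ) : ZMod a)) :
    ∃ t k : ℕ, Odd t ∧ r ^ t ≡ q ^ k [MOD a] := by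
  have : Fact a.Prime := ⟨ha⟩
  have hqa : Nat.Coprime q a := by
    rw [Nat.coprime_comm, Nat.Prime.coprime_iff_not_dvd ha]
    intro h
    apply hq
    rw [(ZMod.natCast_eq_zero_iff q a).mpr h]
    exact ⟨0, by simp⟩
  have hx : ¬ IsSquare (ZMod.unitOfCoprime q hqa) := by
    rintro ⟨u, hu⟩
    apply hq
    refine ⟨(u : ZMod a), ?_⟩
    have h := congrArg (fun u : (ZMod a)ˣ => (u : ZMod a)) hu
    simpa using h
  obtain ⟨t, k, ht, hk⟩ := exists_odd_pow_eq_pow hx (ZMod.unitOfCoprime r hra)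
  refine ⟨t, k, ht, ?_⟩
  have h := congrArg (fun u : (ZMod a)ˣ => (u : ZMod a)) hk
  simp only [Units.val_pow_eq_pow_val, ZMod.coe_unitOfCoprime] at h
  rw [← ZMod.natCast_eq_natCast_iff]
  push_cast
  exact h

/-- coprimality transfers along a congruence -/
theorem isCoprime_of_modEq {x y m : ℤ} (h : x ≡ y [ZMOD m]) (hy : IsCoprime y m) :
    IsCoprime x m := by
  obtain ⟨d, hd⟩ := Int.modEq_iff_dvd.mp h
  -- y - x = m * d
  have hx : x = y - m * d := by linarith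
  rw [hx]
  have : IsCoprime (y + m * (-d)) m := (IsCoprime.add_mul_left_left_iff).mpr hy
  simpa [sub_eq_add_neg] using this

/-- Lemma D, odd `ρ ∣ L`, `α ≢ 1 (mod ρ)`: a single prime. -/
theorem oddCase_single {L q r ρ : ℕ} (hL : L ≠ 0) (hq : q.Prime) (hr : r.Prime)
    (hρL : ρ ∣ L) {α : ℤ} (hα : IsCoprime α (L : ℤ)) (hα1 : ¬ (ρ : ℤ) ∣ α - 1) :
    ∃ a t k : ℕ, 0 < a ∧ (a : ℤ) ≡ α [ZMOD (L : ℤ)] ∧ Nat.Coprime a q ∧ 0 < t ∧ ¬ ρ ∣ t ∧
      r ^ t ≡ q ^ k [MOD a] := by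
  obtain ⟨a, hagt, hap, haα⟩ := Nat.forall_exists_prime_gt_and_zmodEq (max q r) hL hα
  have haq : q < a := lt_of_le_of_lt (le_max_left _ _) hagt
  have har : r < a := lt_of_le_of_lt (le_max_right _ _) hagt
  have hcq : Nat.Coprime q a := (Nat.coprime_primes hq hap).mpr haq.ne
  have hcr : Nat.Coprime r a := (Nat.coprime_primes hr hap).mpr har.ne
  have hρa : ¬ ρ ∣ Nat.totient a := by
    rw [Nat.totient_prime hap]
    intro h
    apply hα1
    have h1 : (ρ : ℤ) ∣ (a : ℤ) - 1 := by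
      have h' := Int.natCast_dvd_natCast.mpr h
      rwa [Nat.cast_sub hap.one_le, Nat.cast_one] at h'
    have h2 : (ρ : ℤ) ∣ α - a :=
      (Int.natCast_dvd_natCast.mpr hρL).trans (Int.modEq_iff_dvd.mp haα)
    have h3 : α - 1 = (α - a) + (a - 1) := by ring
    rw [h3]
    exact dvd_add h2 h1
  obtain ⟨t, k, ht0, hρt, hmod⟩ := core_of_not_dvd_totient hap.ne_zero hcq hcr hρa
  exact ⟨a, t, k, hap.pos, haα, hcq.symm, ht0, hρt, hmod⟩

/-- Lemma D, odd `ρ ∣ L`, `α ≡ 1 (mod ρ)`: a product of two primes `≡ -1, -α (mod L)`. -/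
theorem oddCase_double {L q r ρ : ℕ} (hL : L ≠ 0) (hq : q.Prime) (hr : r.Prime)
    (hρ : ρ.Prime) (hρ2 : ρ ≠ 2) (hρL : ρ ∣ L) {α : ℤ} (hα : IsCoprime α (L : ℤ))
    (hα1 : (ρ : ℤ) ∣ α - 1) :
    ∃ a t k : ℕ, 0 < a ∧ (a : ℤ) ≡ α [ZMOD (L : ℤ)] ∧ Nat.Coprime a q ∧ 0 < t ∧ ¬ ρ ∣ t ∧
      r ^ t ≡ q ^ k [MOD a] := by
  have hm1 : IsCoprime (-1 : ℤ) (L : ℤ) := isCoprime_one_left.neg_left
  obtain ⟨a1, h1gt, h1p, h1α⟩ := Nat.forall_exists_prime_gt_and_zmodEq (max q r) hL hm1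
  obtain ⟨a2, h2gt, h2p, h2α⟩ := Nat.forall_exists_prime_gt_and_zmodEq a1 hL hα.neg_left
  have h1q : q < a1 := lt_of_le_of_lt (le_max_left _ _) h1gt
  have h1r : r < a1 := lt_of_le_of_lt (le_max_right _ _) h1gt
  have h12 : Nat.Coprime a1 a2 := (Nat.coprime_primes h1p h2p).mpr h2gt.ne
  have hcq : Nat.Coprime q (a1 * a2) :=
    Nat.Coprime.mul_right ((Nat.coprime_primes hq h1p).mpr h1q.ne)
      ((Nat.coprime_primes hq h2p).mpr (h1q.trans h2gt).ne)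
  have hcr : Nat.Coprime r (a1 * a2) :=
    Nat.Coprime.mul_right ((Nat.coprime_primes hr h1p).mpr h1r.ne)
      ((Nat.coprime_primes hr h2p).mpr (h1r.trans h2gt).ne)
  have hρZ : ¬ (ρ : ℤ) ∣ 2 := by
    intro h
    have h' : ρ ∣ 2 := by exact_mod_cast h
    exact hρ2 ((Nat.prime_dvd_prime_iff_eq hρ Nat.prime_two).mp h')
  have hρLZ : (ρ : ℤ) ∣ (L : ℤ) := Int.natCast_dvd_natCast.mpr hρL
  have hρa : ¬ ρ ∣ Nat.totient (a1 * a2) := by
    rw [Nat.totient_mul h12, Nat.totient_prime h1p, Nat.totient_prime h2p]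
    intro h
    rcases (Nat.Prime.dvd_mul hρ).mp h with h | h
    · have h1 : (ρ : ℤ) ∣ (a1 : ℤ) - 1 := by
        have h' := Int.natCast_dvd_natCast.mpr h
        rwa [Nat.cast_sub h1p.one_le, Nat.cast_one] at h'
      have h2 : (ρ : ℤ) ∣ -1 - a1 := hρLZ.trans (Int.modEq_iff_dvd.mp h1α)
      apply hρZ
      have h3 : (2 : ℤ) = -(((a1 : ℤ) - 1) + (-1 - a1)) := by ring
      rw [h3]
      exact (dvd_add h1 h2).neg_right
    · have h1 : (ρ : ℤ) ∣ (a2 : ℤ) - 1 := by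
        have h' := Int.natCast_dvd_natCast.mpr h
        rwa [Nat.cast_sub h2p.one_le, Nat.cast_one] at h'
      have h2 : (ρ : ℤ) ∣ -α - a2 := hρLZ.trans (Int.modEq_iff_dvd.mp h2α)
      apply hρZ
      have h3 : (2 : ℤ) = -((((a2 : ℤ) - 1) + (-α - a2)) + (α - 1)) := by ring
      rw [h3]
      exact (dvd_add (dvd_add h1 h2) hα1).neg_right
  obtain ⟨t, k, ht0, hρt, hmod⟩ :=
    core_of_not_dvd_totient (Nat.mul_ne_zero h1p.ne_zero h2p.ne_zero) hcq hcr hρa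
  refine ⟨a1 * a2, t, k, Nat.mul_pos h1p.pos h2p.pos, ?_, hcq.symm, ht0, hρt, hmod⟩
  have h := Int.ModEq.mul h1α h2α
  push_cast
  simpa using h

/-- Lemma D for odd `ρ` dividing `L` (no hypothesis relating `L` and `q`). -/
theorem oddCase {L q r ρ : ℕ} (hL : L ≠ 0) (hq : q.Prime) (hr : r.Prime)
    (hρ : ρ.Prime) (hρ2 : ρ ≠ 2) (hρL : ρ ∣ L) {α : ℤ} (hα : IsCoprime α (L : ℤ)) :
    ∃ a t k : ℕ, 0 < a ∧ (a : ℤ) ≡ α [ZMOD (L : ℤ)] ∧ Nat.Coprime a q ∧ 0 < t ∧ ¬ ρ ∣ t ∧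
      r ^ t ≡ q ^ k [MOD a] := by
  by_cases hα1 : (ρ : ℤ) ∣ α - 1
  · exact oddCase_double hL hq hr hρ hρ2 hρL hα hα1
  · exact oddCase_single hL hq hr hρL hα hα1

/-- Lemma D for odd `ρ`, any `L ≠ 0`. -/
theorem oddCase' {L q r ρ : ℕ} (hL : L ≠ 0) (hq : q.Prime) (hr : r.Prime)
    (hρ : ρ.Prime) (hρ2 : ρ ≠ 2) {α : ℤ} (hα : IsCoprime α (L : ℤ)) :
    ∃ a t k : ℕ, 0 < a ∧ (a : ℤ) ≡ α [ZMOD (L : ℤ)] ∧ Nat.Coprime a q ∧ 0 < t ∧ ¬ ρ ∣ t ∧
      r ^ t ≡ q ^ k [MOD a] := by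
  by_cases hρL : ρ ∣ L
  · exact oddCase hL hq hr hρ hρ2 hρL hα
  · -- pass to `L * ρ`
    have hcop : IsCoprime (L : ℤ) (ρ : ℤ) := by
      rw [Nat.isCoprime_iff_coprime, Nat.coprime_comm, Nat.Prime.coprime_iff_not_dvd hρ]
      exact hρL
    obtain ⟨α', hα'L, hα'ρ⟩ := int_crt hcop α (-1)
    have h1 : IsCoprime α' (L : ℤ) := isCoprime_of_modEq hα'L hα
    have h2 : IsCoprime α' (ρ : ℤ) := isCoprime_of_modEq hα'ρ isCoprime_one_left.neg_left
    have h3 : IsCoprime α' ((L * ρ : ℕ) : ℤ) := by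
      push_cast
      exact IsCoprime.mul_right h1 h2
    obtain ⟨a, t, k, ha0, haα, haq, ht0, hρt, hmod⟩ :=
      oddCase (Nat.mul_ne_zero hL hρ.ne_zero) hq hr hρ hρ2 (Dvd.intro_left L rfl) h3
    refine ⟨a, t, k, ha0, ?_, haq, ht0, hρt, hmod⟩
    have h4 : (a : ℤ) ≡ α' [ZMOD (L : ℤ)] := by
      refine Int.ModEq.of_mul_right (ρ : ℤ) ?_
      simpa using haα
    exact h4.trans hα'L

theorem isCoprime_natAbs_right {y c : ℤ} (h : IsCoprime y c) : IsCoprime y (c.natAbs : ℤ) := by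
  rcases Int.natAbs_eq c with hc | hc
  · rwa [← hc]
  · have h' : IsCoprime y (-c) := h.neg_right
    rw [hc, neg_neg] at h'
    exact h'

theorem isCoprime_two_of_odd {x : ℤ} (hx : x % 2 = 1) : IsCoprime x 2 :=
  ⟨1, -(x / 2), by omega⟩

/-- a prime `a ≡ α (mod L)`, larger than `n`, modulo which `q` is a non-residue. -/
theorem exists_prime_nonsquare {L q : ℕ} (hL : L ≠ 0) (hq : q.Prime) (hLq : Nat.Coprime L q)
    (hL4 : 2 ∣ L → 4 ∣ L) {α : ℤ} (hα : IsCoprime α (L : ℤ)) (n : ℕ) :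
    ∃ a : ℕ, n < a ∧ a.Prime ∧ (a : ℤ) ≡ α [ZMOD (L : ℤ)] ∧ ¬ IsSquare ((q : ℕ) : ZMod a) := by
  rcases hq.eq_two_or_odd' with rfl | hqodd
  · -- `q = 2`, `L` odd: take `a ≡ 3 (mod 8)`
    have hc8 : IsCoprime (L : ℤ) (8 : ℤ) := by
      have h := Nat.isCoprime_iff_coprime.mpr (Nat.Coprime.pow_right 3 hLq)
      norm_num at h
      exact h
    obtain ⟨y, hyL, hy8⟩ := int_crt hc8 α 3
    have h38 : IsCoprime (3 : ℤ) 8 := ⟨3, -1, by norm_num⟩
    have hycop : IsCoprime y ((L * 8 : ℕ) : ℤ) := by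
      push_cast
      exact IsCoprime.mul_right (isCoprime_of_modEq hyL hα) (isCoprime_of_modEq hy8 h38)
    obtain ⟨a, hagt, hap, hay⟩ :=
      Nat.forall_exists_prime_gt_and_zmodEq (max n 2) (Nat.mul_ne_zero hL (by norm_num)) hycop
    have hay' : (a : ℤ) ≡ y [ZMOD (L : ℤ) * 8] := by simpa using hay
    have ha8 : (a : ℤ) ≡ 3 [ZMOD 8] := (Int.ModEq.of_mul_left _ hay').trans hy8
    have ha8' : a % 8 = 3 := by
      have h : (a : ℤ) % 8 = 3 % 8 := ha8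
      omega
    have ha2 : a ≠ 2 := (lt_of_le_of_lt (le_max_right _ _) hagt).ne'
    refine ⟨a, lt_of_le_of_lt (le_max_left _ _) hagt, hap,
      (Int.ModEq.of_mul_right _ hay').trans hyL, ?_⟩
    have : Fact a.Prime := ⟨hap⟩
    intro hsq
    rw [Nat.cast_ofNat] at hsq
    have h := (ZMod.exists_sq_eq_two_iff ha2).mp hsq
    omega
  · -- `q` odd
    have hq2 : q ≠ 2 := by
      rintro rfl
      exact absurd hqodd (by decide)
    have hq2' : q % 2 = 1 := Nat.odd_iff.mp hqodd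
    have : Fact q.Prime := ⟨hq⟩
    -- normalise to `4 ∣ L'`
    obtain ⟨L', α', hL'0, hLL', h4L', hqL', hα', hαα'⟩ : ∃ (L' : ℕ) (α' : ℤ), L' ≠ 0 ∧ L ∣ L' ∧
        4 ∣ L' ∧ Nat.Coprime L' q ∧ IsCoprime α' (L' : ℤ) ∧ α' ≡ α [ZMOD (L : ℤ)] := by
      by_cases h2 : 2 ∣ L
      · exact ⟨L, α, hL, dvd_rfl, hL4 h2, hLq, hα, Int.ModEq.refl _⟩
      · have hc4 : IsCoprime (L : ℤ) (4 : ℤ) := by
          have h0 : Nat.Coprime L 2 := by
            rw [Nat.coprime_comm, Nat.Prime.coprime_iff_not_dvd Nat.prime_two]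
            exact h2
          have h := Nat.isCoprime_iff_coprime.mpr (Nat.Coprime.pow_right 2 h0)
          norm_num at h
          exact h
        obtain ⟨α', h1, h2'⟩ := int_crt hc4 α 1
        refine ⟨L * 4, α', Nat.mul_ne_zero hL (by norm_num), Dvd.intro _ rfl,
          Dvd.intro_left _ rfl, ?_, ?_, h1⟩
        · refine Nat.Coprime.mul_left hLq ?_
          have h0 : Nat.Coprime 2 q := (Nat.coprime_primes Nat.prime_two hq).mpr (Ne.symm hq2)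
          exact Nat.Coprime.pow_left 2 h0
        · push_cast
          exact IsCoprime.mul_right (isCoprime_of_modEq h1 hα)
            (isCoprime_of_modEq h2' isCoprime_one_left)
    have h4L'Z : (4 : ℤ) ∣ (L' : ℤ) := by exact_mod_cast h4L'
    have hα'4 : α' % 4 = 1 ∨ α' % 4 = 3 := by
      have hodd : α' % 2 ≠ 0 := by
        intro h0
        have hu := hα'.isUnit_of_dvd' (Int.dvd_of_emod_eq_zero h0)
          (Dvd.dvd.trans (by norm_num : (2 : ℤ) ∣ 4) h4L'Z)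
        rw [Int.isUnit_iff] at hu
        omega
      omega
    -- the class modulo `q`
    obtain ⟨ν, hνq, hν⟩ : ∃ ν : ℤ, IsCoprime ν (q : ℤ) ∧
        (if α' % 4 = 3 ∧ q % 4 = 3 then IsSquare ((ν : ℤ) : ZMod q)
          else ¬ IsSquare ((ν : ℤ) : ZMod q)) := by
      by_cases hc : α' % 4 = 3 ∧ q % 4 = 3
      · refine ⟨1, isCoprime_one_left, ?_⟩
        rw [if_pos hc]
        exact ⟨1, by simp⟩
      · obtain ⟨ν0, hν0⟩ := FiniteField.exists_nonsquare (F := ZMod q)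
          (by rw [ZMod.ringChar_zmod_n]; exact hq2)
        refine ⟨(ν0.val : ℤ), ?_, ?_⟩
        · rw [Nat.isCoprime_iff_coprime, Nat.coprime_comm, Nat.Prime.coprime_iff_not_dvd hq]
          intro h
          apply hν0
          have h0 : ν0 = 0 := by
            rw [← ZMod.natCast_zmod_val ν0, (ZMod.natCast_eq_zero_iff _ _).mpr h]
          rw [h0]
          exact ⟨0, by simp⟩
        · rw [if_neg hc]
          simpa using hν0
    have hcq : IsCoprime (L' : ℤ) (q : ℤ) := Nat.isCoprime_iff_coprime.mpr hqL'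
    obtain ⟨y, hyL, hyq⟩ := int_crt hcq α' ν
    have hycop : IsCoprime y ((L' * q : ℕ) : ℤ) := by
      push_cast
      exact IsCoprime.mul_right (isCoprime_of_modEq hyL hα') (isCoprime_of_modEq hyq hνq)
    obtain ⟨a, hagt, hap, hay⟩ := Nat.forall_exists_prime_gt_and_zmodEq (max n (max 2 q))
      (Nat.mul_ne_zero hL'0 hq.ne_zero) hycop
    have : Fact a.Prime := ⟨hap⟩
    have hay' : (a : ℤ) ≡ y [ZMOD (L' : ℤ) * q] := by simpa using hay
    have haL' : (a : ℤ) ≡ α' [ZMOD (L' : ℤ)] := (Int.ModEq.of_mul_right _ hay').trans hyL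
    have haq' : (a : ℤ) ≡ ν [ZMOD (q : ℤ)] := (Int.ModEq.of_mul_left _ hay').trans hyq
    have hcast : ((a : ℕ) : ZMod q) = ((ν : ℤ) : ZMod q) := by
      have h := (ZMod.intCast_eq_intCast_iff _ _ _).mpr haq'
      simpa using h
    have ha4 : (a : ℤ) % 4 = α' % 4 := Int.ModEq.of_dvd h4L'Z haL'
    have hmax : max 2 q < a := lt_of_le_of_lt (le_max_right _ _) hagt
    have ha2 : a ≠ 2 := (lt_of_le_of_lt (le_max_left _ _) hmax).ne'
    have haq : a ≠ q := (lt_of_le_of_lt (le_max_right _ _) hmax).ne'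
    refine ⟨a, lt_of_le_of_lt (le_max_left _ _) hagt, hap, ?_, ?_⟩
    · exact (Int.ModEq.of_dvd (Int.natCast_dvd_natCast.mpr hLL') haL').trans hαα'
    · intro hsq
      by_cases hc : α' % 4 = 3 ∧ q % 4 = 3
      · rw [if_pos hc] at hν
        have ha3 : a % 4 = 3 := by omega
        have h := (ZMod.exists_sq_eq_prime_iff_of_mod_four_eq_three ha3 hc.2 haq).mp hsq
        apply h
        rw [hcast]
        exact hν
      · rw [if_neg hc] at hν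
        rcases hα'4 with h1 | h3
        · have ha1 : a % 4 = 1 := by omega
          have h := (ZMod.exists_sq_eq_prime_iff_of_mod_four_eq_one ha1 hq2).mp hsq
          rw [hcast] at h
          exact hν h
        · have hq1 : q % 4 = 1 := by omega
          have h := (ZMod.exists_sq_eq_prime_iff_of_mod_four_eq_one (p := q) (q := a) hq1 ha2).mpr
            hsq
          rw [hcast] at h
          exact hν h

/-- Lemma D for `ρ = 2`. -/
theorem evenCase {L q r : ℕ} (hL : L ≠ 0) (hq : q.Prime) (hLq : Nat.Coprime L q)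
    (hL4 : 2 ∣ L → 4 ∣ L) (hr : r.Prime) {α : ℤ} (hα : IsCoprime α (L : ℤ)) :
    ∃ a t k : ℕ, 0 < a ∧ (a : ℤ) ≡ α [ZMOD (L : ℤ)] ∧ Nat.Coprime a q ∧ 0 < t ∧ ¬ 2 ∣ t ∧
      r ^ t ≡ q ^ k [MOD a] := by
  obtain ⟨a, har, hap, haα, hns⟩ := exists_prime_nonsquare hL hq hLq hL4 hα r
  have hra : Nat.Coprime r a := (Nat.coprime_primes hr hap).mpr har.ne
  have haq : Nat.Coprime a q := by
    rw [Nat.Prime.coprime_iff_not_dvd hap]
    intro h
    apply hns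
    rw [(ZMod.natCast_eq_zero_iff q a).mpr h]
    exact ⟨0, by simp⟩
  obtain ⟨t, k, ht, hmod⟩ := core_of_nonsquare hap hra hns
  exact ⟨a, t, k, hap.pos, haα, haq, ht.pos, fun h => (Nat.not_even_iff_odd.mpr ht)
    (even_iff_two_dvd.mpr h), hmod⟩

/-- **Lemma D** of the (IH) proof, in the literal shape of the consumer interface
`IhLemmaD q`. -/
theorem lemmaD {q : ℕ} (hq : q.Prime) :
    ∀ L : ℕ, Nat.Coprime L q → (2 ∣ L → 4 ∣ L) → ∀ r : ℕ, r.Prime → r ∣ L →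
      ∀ ρ : ℕ, ρ.Prime → ∀ α : ℤ, IsCoprime α (L : ℤ) →
        ∃ a' t k : ℕ, 0 < a' ∧ (a' : ℤ) ≡ α [ZMOD (L : ℤ)] ∧ Nat.Coprime a' q ∧
          Nat.Coprime a' L ∧ 0 < t ∧ ¬ ρ ∣ t ∧ r ^ t ≡ q ^ k [MOD a'] := by
  intro L hLq hL4 r hr _ ρ hρ α hα
  have hL : L ≠ 0 := by
    rintro rfl
    rw [Nat.coprime_zero_left] at hLq
    exact hq.ne_one hLq
  have key : ∃ a t k : ℕ, 0 < a ∧ (a : ℤ) ≡ α [ZMOD (L : ℤ)] ∧ Nat.Coprime a q ∧ 0 < t ∧
      ¬ ρ ∣ t ∧ r ^ t ≡ q ^ k [MOD a] := by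
    by_cases hρ2 : ρ = 2
    · subst hρ2
      exact evenCase hL hq hLq hL4 hr hα
    · exact oddCase' hL hq hr hρ hρ2 hα
  obtain ⟨a, t, k, ha0, haα, haq, ht0, hρt, hmod⟩ := key
  exact ⟨a, t, k, ha0, haα, haq, Nat.isCoprime_iff_coprime.mp (isCoprime_of_modEq haα hα),
    ht0, hρt, hmod⟩

/-- Euler's criterion packaged: a prime `ℓ > q` modulo which `q` is a square satisfies
`q ^ (ℓ / 2) ≡ 1 (mod ℓ)`. -/
theorem pow_half_modEq_one {q ℓ : ℕ} (hq0 : 0 < q) (hℓ : ℓ.Prime) (hqℓ : q < ℓ)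
    (hsq : IsSquare ((q : ℕ) : ZMod ℓ)) : q ^ (ℓ / 2) ≡ 1 [MOD ℓ] := by
  have : Fact ℓ.Prime := ⟨hℓ⟩
  have hne : ((q : ℕ) : ZMod ℓ) ≠ 0 := by
    intro h
    have h' := (ZMod.natCast_eq_zero_iff q ℓ).mp h
    exact absurd (Nat.le_of_dvd hq0 h') (not_le.mpr hqℓ)
  have h := (ZMod.euler_criterion ℓ hne).mp hsq
  rw [← ZMod.natCast_eq_natCast_iff]
  push_cast
  exact h

/-- a prime `ℓ ≡ x (mod c)`, `ℓ ≡ 3 (mod 4)`, larger than `n`, with
`q ^ (ℓ / 2) ≡ 1 (mod ℓ)`. -/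
theorem exists_good_prime {q : ℕ} (hq : q.Prime) {c x : ℤ} (hc : c ≠ 0) (hqc : ¬ (q : ℤ) ∣ c)
    (hxc : IsCoprime x c) (hx4 : x % 4 = 3) (n : ℕ) :
    ∃ ℓ : ℕ, n < ℓ ∧ q < ℓ ∧ ℓ.Prime ∧ (ℓ : ℤ) ≡ x [ZMOD c] ∧ ℓ % 4 = 3 ∧
      q ^ (ℓ / 2) ≡ 1 [MOD ℓ] := by
  have hcabs : c.natAbs ≠ 0 := Int.natAbs_ne_zero.mpr hc
  have hcdvd : ∀ m : ℤ, c ∣ (c.natAbs : ℤ) * m := fun m =>
    Dvd.dvd.mul_right (Int.dvd_natAbs.mpr dvd_rfl) m
  rcases hq.eq_two_or_odd' with rfl | hqodd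
  · -- `q = 2`: `c` is odd, take `ℓ ≡ 7 (mod 8)`
    have hc2 : c % 2 = 1 := by
      have h : ¬ (2 : ℤ) ∣ c := by simpa using hqc
      omega
    have hc8 : IsCoprime c (8 : ℤ) := by
      have h := IsCoprime.pow_right (n := 3) (isCoprime_two_of_odd hc2)
      norm_num at h
      exact h
    obtain ⟨y, hyc, hy8⟩ := int_crt hc8 x 7
    have h78 : IsCoprime (7 : ℤ) 8 := ⟨-1, 1, by norm_num⟩
    have hycop : IsCoprime y ((c.natAbs * 8 : ℕ) : ℤ) := by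
      rw [Nat.cast_mul, Nat.cast_ofNat]
      exact IsCoprime.mul_right (isCoprime_natAbs_right (isCoprime_of_modEq hyc hxc))
        (isCoprime_of_modEq hy8 h78)
    obtain ⟨ℓ, hℓgt, hℓp, hℓy⟩ :=
      Nat.forall_exists_prime_gt_and_zmodEq (max n 2) (Nat.mul_ne_zero hcabs (by norm_num)) hycop
    have hℓy' : (ℓ : ℤ) ≡ y [ZMOD (c.natAbs : ℤ) * 8] := by
      rw [Nat.cast_mul, Nat.cast_ofNat] at hℓy
      exact hℓy
    have hℓ8 : (ℓ : ℤ) ≡ 7 [ZMOD 8] := (Int.ModEq.of_mul_left _ hℓy').trans hy8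
    have hℓ8' : ℓ % 8 = 7 := by
      have h : (ℓ : ℤ) % 8 = 7 % 8 := hℓ8
      omega
    have hℓ2 : 2 < ℓ := lt_of_le_of_lt (le_max_right _ _) hℓgt
    have : Fact ℓ.Prime := ⟨hℓp⟩
    refine ⟨ℓ, lt_of_le_of_lt (le_max_left _ _) hℓgt, hℓ2, hℓp,
      (Int.ModEq.of_dvd (hcdvd 8) hℓy').trans hyc, by omega, ?_⟩
    apply pow_half_modEq_one (by norm_num) hℓp hℓ2
    rw [Nat.cast_ofNat]
    exact (ZMod.exists_sq_eq_two_iff hℓ2.ne').mpr (Or.inr hℓ8')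
  · -- `q` odd: take `ℓ ≡ x (mod 4c)`, `ℓ ≡ -1 (mod q)`
    have hq2 : q ≠ 2 := by
      rintro rfl
      exact absurd hqodd (by decide)
    have hq2' : q % 2 = 1 := Nat.odd_iff.mp hqodd
    have : Fact q.Prime := ⟨hq⟩
    have hqcZ : IsCoprime (q : ℤ) c :=
      ((Nat.prime_iff_prime_int.mp hq).irreducible.coprime_iff_not_dvd).mpr hqc
    have hq4 : IsCoprime (q : ℤ) (4 : ℤ) := by
      have h0 : Nat.Coprime q 2 := (Nat.coprime_primes hq Nat.prime_two).mpr hq2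
      have h := Nat.isCoprime_iff_coprime.mpr (Nat.Coprime.pow_right 2 h0)
      norm_num at h
      exact h
    have hx2 : IsCoprime x (4 : ℤ) := by
      have h := IsCoprime.pow_right (n := 2) (isCoprime_two_of_odd (x := x) (by omega))
      norm_num at h
      exact h
    have hcop : IsCoprime (4 * c) (q : ℤ) := (IsCoprime.mul_right hq4 hqcZ).symm
    obtain ⟨y, hy4c, hyq⟩ := int_crt hcop x (-1)
    have hy4 : y ≡ x [ZMOD 4] := Int.ModEq.of_mul_right _ hy4c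
    have hyc : y ≡ x [ZMOD c] := Int.ModEq.of_mul_left _ hy4c
    have hycop : IsCoprime y ((4 * c.natAbs * q : ℕ) : ℤ) := by
      rw [Nat.cast_mul, Nat.cast_mul, Nat.cast_ofNat]
      exact IsCoprime.mul_right (IsCoprime.mul_right (isCoprime_of_modEq hy4 hx2)
        (isCoprime_natAbs_right (isCoprime_of_modEq hyc hxc)))
        (isCoprime_of_modEq hyq isCoprime_one_left.neg_left)
    obtain ⟨ℓ, hℓgt, hℓp, hℓy⟩ := Nat.forall_exists_prime_gt_and_zmodEq (max n (max 2 q))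
      (Nat.mul_ne_zero (Nat.mul_ne_zero (by norm_num) hcabs) hq.ne_zero) hycop
    have hℓy' : (ℓ : ℤ) ≡ y [ZMOD 4 * (c.natAbs : ℤ) * q] := by
      rw [Nat.cast_mul, Nat.cast_mul, Nat.cast_ofNat] at hℓy
      exact hℓy
    have hℓ4 : (ℓ : ℤ) ≡ x [ZMOD 4] :=
      (Int.ModEq.of_dvd (Dvd.intro _ (mul_assoc _ _ _).symm) hℓy').trans hy4
    have hℓc : (ℓ : ℤ) ≡ x [ZMOD c] := by
      refine (Int.ModEq.of_dvd ?_ hℓy').trans hyc
      have h := hcdvd (4 * q)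
      have e : (c.natAbs : ℤ) * (4 * q) = 4 * (c.natAbs : ℤ) * q := by ring
      rwa [e] at h
    have hℓq : (ℓ : ℤ) ≡ -1 [ZMOD (q : ℤ)] := (Int.ModEq.of_mul_left _ hℓy').trans hyq
    have hℓ4' : ℓ % 4 = 3 := by
      have h : (ℓ : ℤ) % 4 = x % 4 := hℓ4
      omega
    have hmax : max 2 q < ℓ := lt_of_le_of_lt (le_max_right _ _) hℓgt
    have hℓ2 : ℓ ≠ 2 := (lt_of_le_of_lt (le_max_left _ _) hmax).ne'
    have hqℓ : q < ℓ := lt_of_le_of_lt (le_max_right _ _) hmax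
    have : Fact ℓ.Prime := ⟨hℓp⟩
    have hcast : ((ℓ : ℕ) : ZMod q) = -1 := by
      have h := (ZMod.intCast_eq_intCast_iff _ _ _).mpr hℓq
      simpa using h
    refine ⟨ℓ, lt_of_le_of_lt (le_max_left _ _) hℓgt, hqℓ, hℓp, hℓc, hℓ4', ?_⟩
    apply pow_half_modEq_one hq.pos hℓp hqℓ
    have hq4' : q % 4 = 1 ∨ q % 4 = 3 := by omega
    rcases hq4' with hq1 | hq3
    · refine (ZMod.exists_sq_eq_prime_iff_of_mod_four_eq_one (p := q) (q := ℓ) hq1 hℓ2).mp ?_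
      rw [hcast]
      exact ZMod.exists_sq_eq_neg_one_iff.mpr (by omega)
    · refine (ZMod.exists_sq_eq_prime_iff_of_mod_four_eq_three (p := ℓ) (q := q) hℓ4' hq3
        hqℓ.ne').mpr ?_
      rw [hcast]
      exact fun h => (ZMod.exists_sq_eq_neg_one_iff.mp h) hq3

/-- **Lemma A** of the (IH) proof, in the literal shape of the consumer interface
`IhLemmaA q`. -/
theorem lemmaA {q : ℕ} (hq : q.Prime) :
    ∀ a c : ℤ, c ≠ 0 → IsCoprime a c → ¬ (q : ℤ) ∣ c →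
      ∃ a' k : ℕ, 0 < a' ∧ (a' : ℤ) ≡ a [ZMOD c] ∧ Nat.Coprime a' q ∧ Odd k ∧
        q ^ k ≡ 1 [MOD a'] := by
  intro a c hc hac hqc
  have hpar : ¬ (a % 2 = 0 ∧ c % 2 = 0) := by
    rintro ⟨h1, h2⟩
    have hu := hac.isUnit_of_dvd' (Int.dvd_of_emod_eq_zero h1) (Int.dvd_of_emod_eq_zero h2)
    rw [Int.isUnit_iff] at hu
    omega
  have hcase : (∃ j : ℤ, (a + c * j) % 4 = 3) ∨ (c % 4 = 0 ∧ a % 4 = 1) := by
    have h1 : a % 4 = 0 ∨ a % 4 = 1 ∨ a % 4 = 2 ∨ a % 4 = 3 := by omega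
    have h2 : c % 4 = 0 ∨ c % 4 = 1 ∨ c % 4 = 2 ∨ c % 4 = 3 := by omega
    rcases h1 with h1 | h1 | h1 | h1 <;> rcases h2 with h2 | h2 | h2 | h2 <;>
      first
      | exact Or.inr ⟨h2, h1⟩
      | exact Or.inl ⟨0, by omega⟩
      | exact Or.inl ⟨1, by omega⟩
      | exact Or.inl ⟨2, by omega⟩
      | exact Or.inl ⟨3, by omega⟩
  rcases hcase with ⟨j, hj⟩ | ⟨hc4, ha4⟩
  · -- a single prime
    have hx : IsCoprime (a + c * j) c := hac.add_mul_left_left j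
    obtain ⟨ℓ, -, hqℓ, hℓp, hℓx, hℓ4, hpow⟩ := exists_good_prime hq hc hqc hx hj 0
    refine ⟨ℓ, ℓ / 2, hℓp.pos, ?_, (Nat.coprime_primes hℓp hq).mpr hqℓ.ne', ?_, hpow⟩
    · refine hℓx.trans ?_
      rw [Int.modEq_iff_dvd]
      exact ⟨-j, by ring⟩
    · rw [Nat.odd_iff]
      omega
  · -- a product of two primes `≡ -1, -a (mod c)`
    have hc1 : IsCoprime (-1 : ℤ) c := isCoprime_one_left.neg_left
    obtain ⟨ℓ1, -, h1q, h1p, h1x, h14, hpow1⟩ :=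
      exists_good_prime hq hc hqc hc1 (by norm_num) 0
    obtain ⟨ℓ2, h2gt, h2q, h2p, h2x, h24, hpow2⟩ :=
      exists_good_prime hq hc hqc hac.neg_left (by omega) ℓ1
    have h12 : Nat.Coprime ℓ1 ℓ2 := (Nat.coprime_primes h1p h2p).mpr h2gt.ne
    refine ⟨ℓ1 * ℓ2, (ℓ1 / 2) * (ℓ2 / 2), Nat.mul_pos h1p.pos h2p.pos, ?_, ?_, ?_, ?_⟩
    · have h := Int.ModEq.mul h1x h2x
      push_cast
      simpa using h
    · exact Nat.Coprime.mul_left ((Nat.coprime_primes h1p hq).mpr h1q.ne')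
        ((Nat.coprime_primes h2p hq).mpr h2q.ne')
    · refine Odd.mul ?_ ?_ <;> rw [Nat.odd_iff] <;> omega
    · refine (Nat.modEq_and_modEq_iff_modEq_mul h12).mp ⟨?_, ?_⟩
      · rw [pow_mul]
        simpa using hpow1.pow (ℓ2 / 2)
      · rw [mul_comm, pow_mul]
        simpa using hpow2.pow (ℓ1 / 2)

end Fermat.Agent.S41.H61
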