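import Fermat.Agent.S41.IhTop_helper17
import Fermat.Agent.S41.IHDirichlet_helper61

/-!
# (IH): Ihara's lemma in pair form, unconditionally

`ihStmt : H39.IhStmt` and its instance `ihAt`, from the landed pieces of the IH block:
Lemmas A, D (`H61.lemmaA`, `H61.lemmaD`), Lemmas B, C (`H51.ihLemmaBC`), claims A, B
(`H55.ihClaimA`, `H55.ihClaimB`) and the matrix layer (`H17.ih_neutral`).
-/

namespace Fermat.Agent.S41.H17

/-- Ihara's lemma in pair form (board #2267), the literal `H39.IhStmt`. -/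
theorem ihStmt : H39.IhStmt :=
  ihStmt_of (fun _ hq => H61.lemmaA hq) (fun _ hq => H61.lemmaD hq)

/-- Ihara's lemma in pair form for one triple `(N, q, p)`. -/
theorem ihAt {N q p : ℕ} (hN : 0 < N) (hq : q.Prime) (hqN : ¬ q ∣ N) (hp : p.Prime)
    (hp2 : p ≠ 2) : H39.IhAt N q p :=
  ihStmt N q p hN hq hqN hp hp2

end Fermat.Agent.S41.H17
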