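import Mathlib
import Fermat.Agent.S29.TransferHom_helper6
import Fermat.Agent.S29.TransferPar_helper70
import Fermat.Agent.S41.IhFinal_helper17

/-!
# S41, node (IH-EV) (helper91): from Ihara's lemma to the Eisenstein Hecke eigenvalue

* `isHeckeTr_of_vanish` : an additive character `χ` of `Γ₀(N)` which vanishes on the elements
  with upper left entry `1` modulo `N` satisfies `T_ℓ^tr χ = (ℓ + 1) • χ` (`ℓ` prime, `ℓ ∤ N`).
  (The representatives of `T_ℓ` are upper triangular, so modulo `N` the upper left entry of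
  `g' x` is `u_x * a(γ) / u_(σ x)` with `u_x ∈ {1, ℓ}`; the diagonal factors cancel along the
  permutation `σ`.)
* `ih_heckeTr_zmod` : with Ihara's lemma (`H17.ihAt`), a pair `(φ₁, φ₂)` of characters with values
  in `ZMod p` killing the two unipotent generators and in the kernel of the degeneracy map
  satisfies `φ₁ = φ₂` and `T_r^tr φ₁ = (r + 1) • φ₁`.
* `ih_heckeTr_int` : the integral form, for parabolic characters with values in `ℤ`: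
  if `x₁ g + x₂ (η g η⁻¹) ≡ 0` modulo `p` for all `g`, then `T_r^tr x_i - (r + 1) • x_i` is
  `p` times a parabolic character (`i = 1, 2`).
-/

set_option autoImplicit false

namespace Fermat.Agent.S41.H91

open CongruenceSubgroup
open Fermat.Agent
open Fermat.Agent.S22
open scoped MatrixGroups

/-! ### The upper left entry modulo `N` -/

/-- The upper left entry of `γ ∈ Γ₀(N)` modulo `N`. -/
def aN (N : ℕ) (γ : Gamma0 N) : ZMod N := (((γ : SL(2, ℤ)) 0 0 : ℤ) : ZMod N)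

theorem aN_one (N : ℕ) : aN N 1 = 1 := by
  simp [aN]

theorem lowerLeft_eq_zero (N : ℕ) (γ : Gamma0 N) : (((γ : SL(2, ℤ)) 1 0 : ℤ) : ZMod N) = 0 :=
  Gamma0_mem.mp γ.2

theorem aN_mul (N : ℕ) (α β : Gamma0 N) : aN N (α * β) = aN N α * aN N β := by
  unfold aN
  have h := lowerLeft_eq_zero N β
  rw [Subgroup.coe_mul, Matrix.SpecialLinearGroup.coe_mul, Matrix.mul_apply, Fin.sum_univ_two]
  push_cast
  rw [h, mul_zero, add_zero]

/-- A character vanishing on `{a ≡ 1}` only depends on the upper left entry modulo `N`. -/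
theorem map_eq_of_aN_eq {N : ℕ} {A : Type*} [AddCommGroup A] (χ : Additive (Gamma0 N) →+ A)
    (hχ : ∀ γ : Gamma0 N, aN N γ = 1 → χ (Additive.ofMul γ) = 0) {α β : Gamma0 N}
    (h : aN N α = aN N β) : χ (Additive.ofMul α) = χ (Additive.ofMul β) := by
  have hu : aN N β * aN N β⁻¹ = 1 := by rw [← aN_mul, mul_inv_cancel, aN_one]
  have h1 : aN N (α * β⁻¹) = 1 := by rw [aN_mul, h, hu]
  have h2 := hχ _ h1
  rw [ofMul_mul, map_add, ofMul_inv, map_neg] at h2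
  exact sub_eq_zero.mp (by rw [sub_eq_add_neg]; exact h2)

/-! ### The upper left entries of the representatives -/

/-- The upper left entry of `repT ℓ x` modulo `N`. -/
def uN (N ℓ : ℕ) (x : Option (Fin ℓ)) : ZMod N := x.elim (ℓ : ZMod N) fun _ => 1

theorem repT_row_zero (N : ℕ) {ℓ : ℕ} (hℓ0 : ℓ ≠ 0) (x : Option (Fin ℓ)) :
    ∃ u j : ℤ, H56.repT ℓ x 0 0 = (u : ℝ) ∧ H56.repT ℓ x 0 1 = (j : ℝ) ∧
      H56.repT ℓ x 1 0 = 0 ∧ ((u : ℤ) : ZMod N) = uN N ℓ x := by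
  cases x with
  | none =>
    obtain ⟨a00, a01, a10, -⟩ : H56.repT ℓ none 0 0 = ℓ ∧ H56.repT ℓ none 0 1 = 0 ∧
        H56.repT ℓ none 1 0 = 0 ∧ H56.repT ℓ none 1 1 = 1 := H56.heckeDiagMatrix_entries hℓ0
    exact ⟨(ℓ : ℤ), 0, by rw [a00]; norm_cast, by rw [a01]; norm_cast, a10, by simp [uN]⟩
  | some j =>
    obtain ⟨a00, a01, a10, -⟩ : H56.repT ℓ (some j) 0 0 = 1 ∧
        H56.repT ℓ (some j) 0 1 = ((j : ℕ) : ℝ) ∧
        H56.repT ℓ (some j) 1 0 = 0 ∧ H56.repT ℓ (some j) 1 1 = ℓ :=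
      H56.heckeMatrix_entries hℓ0 j
    exact ⟨1, ((j : ℕ) : ℤ), by rw [a00]; norm_cast, by rw [a01]; norm_cast, a10, by simp [uN]⟩

/-- The upper left entries in a Hecke coset decomposition, modulo `N`. -/
theorem aN_decomp {N ℓ : ℕ} (hℓ0 : ℓ ≠ 0) {γ : Gamma0 N} {σ : Equiv.Perm (Option (Fin ℓ))}
    {g' : Option (Fin ℓ) → Gamma0 N} (hd : S29.H06.IsDecomp N ℓ γ σ g') (x : Option (Fin ℓ)) :
    uN N ℓ x * aN N γ = aN N (g' x) * uN N ℓ (σ x) := by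
  have e : H56.repT ℓ x 0 0 * (((γ : SL(2, ℤ)) 0 0 : ℤ) : ℝ) +
      H56.repT ℓ x 0 1 * (((γ : SL(2, ℤ)) 1 0 : ℤ) : ℝ) =
      ((((g' x : Gamma0 N) : SL(2, ℤ)) 0 0 : ℤ) : ℝ) * H56.repT ℓ (σ x) 0 0 +
      ((((g' x : Gamma0 N) : SL(2, ℤ)) 0 1 : ℤ) : ℝ) * H56.repT ℓ (σ x) 1 0 := by
    have := congrArg (fun A : GL (Fin 2) ℝ => (A : Matrix (Fin 2) (Fin 2) ℝ) 0 0) (hd x)
    simp only [Matrix.GeneralLinearGroup.coe_mul, Matrix.mul_apply, Fin.sum_univ_two] at this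
    exact this
  obtain ⟨u, j, hu, hj, -, huN⟩ := repT_row_zero N hℓ0 x
  obtain ⟨u', j', hu', -, h10', huN'⟩ := repT_row_zero N hℓ0 (σ x)
  rw [hu, hj, hu', h10', mul_zero, add_zero] at e
  have e' : u * ((γ : SL(2, ℤ)) 0 0 : ℤ) + j * ((γ : SL(2, ℤ)) 1 0 : ℤ) =
      (((g' x : Gamma0 N) : SL(2, ℤ)) 0 0 : ℤ) * u' := by exact_mod_cast e
  have e'' := congrArg (fun z : ℤ => (z : ZMod N)) e'
  simp only [Int.cast_add, Int.cast_mul] at e''
  rw [lowerLeft_eq_zero N γ, mul_zero, add_zero, huN, huN'] at e''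
  exact e''

/-- An element of `Γ₀(N)` with upper left entry `ℓ`, for `ℓ` prime to `N`. -/
theorem exists_aN_eq {N ℓ : ℕ} (h : Nat.Coprime ℓ N) : ∃ δ : Gamma0 N, aN N δ = (ℓ : ZMod N) := by
  have hg : IsCoprime (ℓ : ℤ) (N : ℤ) := Nat.isCoprime_iff_coprime.mpr h
  obtain ⟨a, b, hab⟩ := hg
  refine ⟨⟨H39.mkSL (ℓ : ℤ) (-1) ((N : ℤ) * b) a (by linarith),
    H39.mkSL_mem_Gamma0 N _ _ _ _ _ (Dvd.intro _ rfl)⟩, ?_⟩
  show (((!![(ℓ : ℤ), -1; (N : ℤ) * b, a] : Matrix (Fin 2) (Fin 2) ℤ) 0 0 : ℤ) : ZMod N) = _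
  simp

/-- **The transfer sum of a character vanishing on `{a ≡ 1}`.** -/
theorem sum_decomp_of_vanish {N ℓ : ℕ} {A : Type*} [AddCommGroup A] (hℓ : ℓ.Prime)
    (hℓN : ¬ ℓ ∣ N) (χ : Additive (Gamma0 N) →+ A)
    (hχ : ∀ γ : Gamma0 N, aN N γ = 1 → χ (Additive.ofMul γ) = 0) {γ : Gamma0 N}
    {σ : Equiv.Perm (Option (Fin ℓ))} {g' : Option (Fin ℓ) → Gamma0 N}
    (hd : S29.H06.IsDecomp N ℓ γ σ g') :
    ∑ x, χ (Additive.ofMul (g' x)) = (ℓ + 1) • χ (Additive.ofMul γ) := by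
  obtain ⟨δ, hδ⟩ := exists_aN_eq ((Nat.Prime.coprime_iff_not_dvd hℓ).mpr hℓN)
  set D : Option (Fin ℓ) → Gamma0 N := fun x => x.elim δ fun _ => 1 with hD
  have hDu : ∀ x, aN N (D x) = uN N ℓ x := by
    intro x
    cases x with
    | none => simpa [hD, uN] using hδ
    | some j => simpa [hD, uN] using aN_one N
  have key : ∀ x, χ (Additive.ofMul (g' x)) =
      χ (Additive.ofMul γ) + (χ (Additive.ofMul (D x)) - χ (Additive.ofMul (D (σ x)))) := by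
    intro x
    have h1 : aN N (D x * γ) = aN N (g' x * D (σ x)) := by
      rw [aN_mul, aN_mul, hDu, hDu]
      exact aN_decomp hℓ.ne_zero hd x
    have h2 := map_eq_of_aN_eq χ hχ h1
    rw [ofMul_mul, map_add, ofMul_mul, map_add] at h2
    rw [eq_sub_of_add_eq h2.symm]
    abel
  rw [Finset.sum_congr rfl fun x _ => key x, Finset.sum_add_distrib, Finset.sum_sub_distrib,
    Equiv.sum_comp σ fun x => χ (Additive.ofMul (D x)), sub_self, add_zero, Finset.sum_const,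
    Finset.card_univ, Fintype.card_option, Fintype.card_fin]

/-- **(IH-EV), part 1.**  A character of `Γ₀(N)` which vanishes on the elements with upper left
entry `1` modulo `N` is an eigenvector of the Hecke transfer at `l ∤ N`, with the Eisenstein
eigenvalue `l + 1`. -/
theorem isHeckeTr_of_vanish {N l : ℕ} {A : Type*} [AddCommGroup A] (hl : l.Prime)
    (hlN : ¬ l ∣ N) (χ χ' : Additive (Gamma0 N) →+ A)
    (hχ : ∀ γ : Gamma0 N, (((γ : SL(2, ℤ)) 0 0 : ℤ) : ZMod N) = 1 → χ (Additive.ofMul γ) = 0)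
    (hT : S29.H06.IsHeckeTr N l χ χ') : χ' = (l + 1) • χ := by
  refine AddMonoidHom.ext fun γ => ?_
  obtain ⟨σ, g', hd⟩ := S29.H06.exists_isDecomp hl hlN (Additive.toMul γ)
  have e := hT _ σ g' hd
  rw [sum_decomp_of_vanish hl hlN χ hχ hd] at e
  exact e

/-- Operator form of `isHeckeTr_of_vanish`. -/
theorem heckeTr_of_vanish {N l : ℕ} {A : Type*} [AddCommGroup A] (hl : l.Prime)
    (hlN : ¬ l ∣ N) (χ : Additive (Gamma0 N) →+ A)
    (hχ : ∀ γ : Gamma0 N, (((γ : SL(2, ℤ)) 0 0 : ℤ) : ZMod N) = 1 → χ (Additive.ofMul γ) = 0) :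
    S29.H06.heckeTr hl hlN χ = (l + 1) • χ :=
  isHeckeTr_of_vanish hl hlN χ _ hχ (S29.H06.isHeckeTr_heckeTr hl hlN χ)

/-! ### With Ihara's lemma -/

/-- **(IH-EV), part 2.**  Ihara's lemma gives the Eisenstein eigenvalue on the kernel of the
degeneracy map modulo `p`. -/
theorem ih_heckeTr_zmod {N q p r : ℕ} (hN : 0 < N) (hq : q.Prime) (hqN : ¬ q ∣ N)
    (hp : p.Prime) (hp2 : p ≠ 2) (hr : r.Prime) (hrN : ¬ r ∣ N)
    (φ₁ φ₂ : Additive (Gamma0 N) →+ ZMod p)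
    (u1 : φ₁ (Additive.ofMul (H39.x12 N)) = 0) (l1 : φ₁ (Additive.ofMul (H39.x21 N)) = 0)
    (u2 : φ₂ (Additive.ofMul (H39.x12 N)) = 0) (l2 : φ₂ (Additive.ofMul (H39.x21 N)) = 0)
    (hC : ∀ g g' : Gamma0 N, H39.EtaRel q (g : SL(2, ℤ)) (g' : SL(2, ℤ)) →
      φ₁ (Additive.ofMul g) = φ₂ (Additive.ofMul g'))
    {ψ : Additive (Gamma0 N) →+ ZMod p} (hT : S29.H06.IsHeckeTr N r φ₁ ψ) :
    φ₁ = φ₂ ∧ ψ = (r + 1) • φ₁ := by
  obtain ⟨he, hv⟩ := H17.ihAt hN hq hqN hp hp2 φ₁ φ₂ u1 l1 u2 l2 hC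
  exact ⟨he, isHeckeTr_of_vanish hr hrN φ₁ ψ hv hT⟩

/-! ### The integral form -/

theorem x12_trace_sq (N : ℕ) :
    (((H39.x12 N : Gamma0 N) : SL(2, ℤ)) : Matrix (Fin 2) (Fin 2) ℤ).trace ^ 2 = 4 := by
  rw [H39.coe_x12, Matrix.trace_fin_two_of]
  norm_num

theorem x21_trace_sq (N : ℕ) :
    (((H39.x21 N : Gamma0 N) : SL(2, ℤ)) : Matrix (Fin 2) (Fin 2) ℤ).trace ^ 2 = 4 := by
  rw [H39.coe_x21, Matrix.trace_fin_two_of]
  norm_num

/-- Division of an integer valued character by `p`. -/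
theorem exists_eq_nsmul_of_dvd {G : Type*} [AddGroup G] (p : ℕ) (hp : p ≠ 0) (w : G →+ ℤ)
    (h : ∀ g, (p : ℤ) ∣ w g) : ∃ v : G →+ ℤ, w = p • v := by
  have hp' : (p : ℤ) ≠ 0 := by exact_mod_cast hp
  refine ⟨AddMonoidHom.mk' (fun g => w g / (p : ℤ)) fun a b => ?_, ?_⟩
  · rw [map_add]
    exact Int.add_ediv_of_dvd_left (h a)
  · refine AddMonoidHom.ext fun g => ?_
    show w g = p • (w g / (p : ℤ))
    rw [nsmul_eq_mul, Int.mul_ediv_cancel' (h g)]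

/-- **(IH-EV), part 3: the integral form.**  Let `x₁, x₂` be parabolic integer valued characters
of `Γ₀(N)` such that `x₁ g + x₂ (η g η⁻¹)` is divisible by `p` for all `g ∈ Γ₀(N q)`.  Then
`T_r^tr x_i - (r + 1) • x_i` is `p` times a parabolic character, for `i = 1, 2`. -/
theorem ih_heckeTr_int {N q p r : ℕ} (hN : 0 < N) (hq : q.Prime) (hqN : ¬ q ∣ N)
    (hp : p.Prime) (hp2 : p ≠ 2) (hr : r.Prime) (hrN : ¬ r ∣ N)
    (x₁ x₂ y₁ y₂ : Additive (Gamma0 N) →+ ℤ)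
    (hx₁ : ModularCurve.Period.IsParabolicHom (Gamma0 N) x₁)
    (hx₂ : ModularCurve.Period.IsParabolicHom (Gamma0 N) x₂)
    (hC : ∀ g g' : Gamma0 N, H39.EtaRel q (g : SL(2, ℤ)) (g' : SL(2, ℤ)) →
      (p : ℤ) ∣ x₁ (Additive.ofMul g) + x₂ (Additive.ofMul g'))
    (hy₁ : S29.H06.IsHeckeTr N r x₁ y₁) (hy₂ : S29.H06.IsHeckeTr N r x₂ y₂) :
    ∃ v₁ v₂ : Additive (Gamma0 N) →+ ℤ,
      y₁ - (r + 1) • x₁ = p • v₁ ∧ y₂ - (r + 1) • x₂ = p • v₂ ∧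
      ModularCurve.Period.IsParabolicHom (Gamma0 N) v₁ ∧
      ModularCurve.Period.IsParabolicHom (Gamma0 N) v₂ := by
  have hp0 : p ≠ 0 := hp.ne_zero
  have hp' : (p : ℤ) ≠ 0 := by exact_mod_cast hp0
  set c : ℤ →+ ZMod p := Int.castAddHom (ZMod p) with hc
  set φ₁ : Additive (Gamma0 N) →+ ZMod p := c.comp x₁ with hφ₁
  set φ₂ : Additive (Gamma0 N) →+ ZMod p := -(c.comp x₂) with hφ₂
  have u1 : φ₁ (Additive.ofMul (H39.x12 N)) = 0 := by
    simp [hφ₁, hx₁ _ (x12_trace_sq N)]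
  have l1 : φ₁ (Additive.ofMul (H39.x21 N)) = 0 := by
    simp [hφ₁, hx₁ _ (x21_trace_sq N)]
  have u2 : φ₂ (Additive.ofMul (H39.x12 N)) = 0 := by
    simp [hφ₂, hx₂ _ (x12_trace_sq N)]
  have l2 : φ₂ (Additive.ofMul (H39.x21 N)) = 0 := by
    simp [hφ₂, hx₂ _ (x21_trace_sq N)]
  have hC' : ∀ g g' : Gamma0 N, H39.EtaRel q (g : SL(2, ℤ)) (g' : SL(2, ℤ)) →
      φ₁ (Additive.ofMul g) = φ₂ (Additive.ofMul g') := by
    intro g g' hgg
    have h1 : ((x₁ (Additive.ofMul g) + x₂ (Additive.ofMul g') : ℤ) : ZMod p) = 0 :=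
      (ZMod.intCast_zmod_eq_zero_iff_dvd _ p).mpr (hC g g' hgg)
    rw [Int.cast_add] at h1
    show ((x₁ (Additive.ofMul g) : ℤ) : ZMod p) = -((x₂ (Additive.ofMul g') : ℤ) : ZMod p)
    exact eq_neg_of_add_eq_zero_left h1
  have hT₁ : S29.H06.IsHeckeTr N r φ₁ (c.comp y₁) := hy₁.comp c
  have hT₂ : S29.H06.IsHeckeTr N r φ₂ (-(c.comp y₂)) := (hy₂.comp c).neg
  obtain ⟨he, hv⟩ := H17.ihAt hN hq hqN hp hp2 φ₁ φ₂ u1 l1 u2 l2 hC'
  have e₁ : c.comp y₁ = (r + 1) • φ₁ := isHeckeTr_of_vanish hr hrN φ₁ _ hv hT₁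
  have e₂ : -(c.comp y₂) = (r + 1) • φ₂ := isHeckeTr_of_vanish hr hrN φ₂ _ (he ▸ hv) hT₂
  have d₁ : ∀ g, (p : ℤ) ∣ (y₁ - (r + 1) • x₁) g := by
    intro g
    have h := DFunLike.congr_fun e₁ g
    apply (ZMod.intCast_zmod_eq_zero_iff_dvd _ p).mp
    have h' : ((y₁ g : ℤ) : ZMod p) = (r + 1) • ((x₁ g : ℤ) : ZMod p) := h
    simp only [AddMonoidHom.sub_apply, AddMonoidHom.coe_smul, Pi.smul_apply, Int.cast_sub, h']
    simp
  have d₂ : ∀ g, (p : ℤ) ∣ (y₂ - (r + 1) • x₂) g := by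
    intro g
    have h := DFunLike.congr_fun e₂ g
    apply (ZMod.intCast_zmod_eq_zero_iff_dvd _ p).mp
    have h' : -((y₂ g : ℤ) : ZMod p) = (r + 1) • -((x₂ g : ℤ) : ZMod p) := h
    have h'' : ((y₂ g : ℤ) : ZMod p) = (r + 1) • ((x₂ g : ℤ) : ZMod p) := by
      rw [smul_neg] at h'
      exact neg_injective h'
    simp only [AddMonoidHom.sub_apply, AddMonoidHom.coe_smul, Pi.smul_apply, Int.cast_sub, h'']
    simp
  obtain ⟨v₁, hv₁⟩ := exists_eq_nsmul_of_dvd p hp0 _ d₁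
  obtain ⟨v₂, hv₂⟩ := exists_eq_nsmul_of_dvd p hp0 _ d₂
  have par : ∀ (x y v : Additive (Gamma0 N) →+ ℤ),
      ModularCurve.Period.IsParabolicHom (Gamma0 N) x → S29.H06.IsHeckeTr N r x y →
      y - (r + 1) • x = p • v → ModularCurve.Period.IsParabolicHom (Gamma0 N) v := by
    intro x y v hx hy hv γ hγ
    have hy' := S29.H70.IsHeckeTr.isParabolicHom hr hrN hy hx γ hγ
    have h := DFunLike.congr_fun hv (Additive.ofMul γ)
    have h' : y (Additive.ofMul γ) - (r + 1) • x (Additive.ofMul γ) =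
        p • v (Additive.ofMul γ) := h
    rw [hy', hx γ hγ, smul_zero, sub_zero, nsmul_eq_mul] at h'
    exact (mul_eq_zero.mp h'.symm).resolve_left hp'
  exact ⟨v₁, v₂, hv₁, hv₂, par x₁ y₁ v₁ hx₁ hy₁ hv₁, par x₂ y₂ v₂ hx₂ hy₂ hv₂⟩

end Fermat.Agent.S41.H91
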