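import Mathlib

/-!
# S41, node (C) (duality), definitions (helper11): the intrinsic intersection form

Everything is stated with integer vectors `Fin 2 → ℤ` (a nonzero vector `u` stands for the cusp
`u 0 / u 1`), the matrix action `Matrix.mulVec`, and finitely supported sums over a subgroup
`Γ ≤ SL(2, ℤ)`.

* `bform` : the hexagonal positive definite form (base point `e^{2πi/3}`, the centre of the Farey
  triangle `(-1, 0, ∞)`); `det2` : the determinant of two vectors.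
* `sg u w = sign (det2 u w) * sign (bform u w)` : the side of the base point with respect to the
  oriented geodesic from the cusp `[u]` to the cusp `[w]`.
* `isect Γ u w γ = ∑ᶠ δ : Γ, (sg (γ δ u) (γ δ w) - sg (δ u) (δ w))` : (4 times) the intersection
  number of the modular symbol `{[u], [w]}` with the loop `γ` on `Γ \ ℍ`.
* `ipair Γ g γ = isect Γ e₁ (g e₁) γ` : the intersection form on `Γ × Γ`.
* `sgSL z` : `sg` of the two columns of `z ∈ SL(2, ℤ)` (a Farey edge).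
* `pot m x` : the potential of an edge function `m` at the triangle `x • Δ₀`.
-/

set_option autoImplicit false

namespace Fermat.Agent.S41.H11

open Matrix
open scoped MatrixGroups

/-- The hexagonal form `B(u, w) = 2 u₀ w₀ + u₀ w₁ + u₁ w₀ + 2 u₁ w₁`. -/
def bform (u w : Fin 2 → ℤ) : ℤ := 2 * u 0 * w 0 + u 0 * w 1 + u 1 * w 0 + 2 * u 1 * w 1

/-- The determinant of two vectors. -/
def det2 (u w : Fin 2 → ℤ) : ℤ := u 0 * w 1 - u 1 * w 0

/-- The side function of the symbol `{[u], [w]}` at the base point. -/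
def sg (u w : Fin 2 → ℤ) : ℤ := Int.sign (det2 u w) * Int.sign (bform u w)

/-- The summand of the intersection number. -/
def isectTerm (u w : Fin 2 → ℤ) (γ δ : SL(2, ℤ)) : ℤ :=
  sg ((γ * δ).1 *ᵥ u) ((γ * δ).1 *ᵥ w) - sg (δ.1 *ᵥ u) (δ.1 *ᵥ w)

/-- The intersection number of the symbol `{[u], [w]}` with `γ`, relative to `Γ`. -/
noncomputable def isect (Γ : Subgroup SL(2, ℤ)) (u w : Fin 2 → ℤ) (γ : SL(2, ℤ)) : ℤ :=
  ∑ᶠ δ : Γ, isectTerm u w γ (δ : SL(2, ℤ))

/-- The intersection form: the symbol is the loop `{∞, g ∞}`. -/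
noncomputable def ipair (Γ : Subgroup SL(2, ℤ)) (g γ : SL(2, ℤ)) : ℤ :=
  isect Γ ![1, 0] (g.1 *ᵥ ![1, 0]) γ

/-- The side function of the Farey edge `z` (from `z ∞` to `z 0`). -/
def sgSL (z : SL(2, ℤ)) : ℤ :=
  Int.sign (2 * (z 0 0 * z 0 1 + z 1 0 * z 1 1) + (z 0 0 * z 1 1 + z 0 1 * z 1 0))

/-- The potential of an edge function `m : SL(2, ℤ) → ℤ` at the triangle `x • Δ₀`. -/
noncomputable def pot (m : SL(2, ℤ) → ℤ) (x : SL(2, ℤ)) : ℤ :=
  ∑ᶠ y : SL(2, ℤ), m y * (sgSL (x⁻¹ * y) - sgSL y)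

theorem sgSL_eq_sg (z : SL(2, ℤ)) : sgSL z = sg (z.1 *ᵥ ![1, 0]) (z.1 *ᵥ ![0, 1]) := by
  have hdet : z.1 0 0 * z.1 1 1 - z.1 0 1 * z.1 1 0 = 1 := by
    have := z.2
    rw [Matrix.det_fin_two] at this
    exact this
  have hd : det2 (z.1 *ᵥ ![1, 0]) (z.1 *ᵥ ![0, 1]) = 1 := by
    simp [det2, Matrix.mulVec, dotProduct, Fin.sum_univ_two]
    linarith
  have hb : bform (z.1 *ᵥ ![1, 0]) (z.1 *ᵥ ![0, 1]) =
      2 * (z 0 0 * z 0 1 + z 1 0 * z 1 1) + (z 0 0 * z 1 1 + z 0 1 * z 1 0) := by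
    simp [bform, Matrix.mulVec, dotProduct, Fin.sum_univ_two]
    ring
  rw [sgSL, sg, hd, hb]
  simp

end Fermat.Agent.S41.H11
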