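import Mathlib
import Fermat.Agent.S41.IsectDef_helper11

/-!
# S41, node (C), leaf I1 (helper11): calculus of the intrinsic intersection numbers

`isect Γ u w γ` is a homomorphism in `γ ∈ Γ`, antisymmetric, scaling invariant and `Γ`-invariant
in the symbol `(u, w)`, and satisfies the triangle relation.  The two finiteness inputs
(`Fin2Stmt`, `Fin3Stmt`; leaf I2) are hypotheses here.
-/

set_option autoImplicit false

namespace Fermat.Agent.S41.H11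

open Matrix
open scoped MatrixGroups

/-- Leaf I2, first statement: comparison of the base form with a transformed one. -/
def Fin2Stmt : Prop :=
  ∀ (α : Matrix (Fin 2) (Fin 2) ℤ), α.det ≠ 0 → ∀ d : ℤ, d ≠ 0 →
    {p : (Fin 2 → ℤ) × (Fin 2 → ℤ) | det2 p.1 p.2 = d ∧
      Int.sign (bform (α *ᵥ p.1) (α *ᵥ p.2)) ≠ Int.sign (bform p.1 p.2)}.Finite

/-- Leaf I2, second statement: the triangle count. -/
def Fin3Stmt : Prop :=
  ∀ d₁ d₂ d₃ : ℤ, d₁ ≠ 0 → d₂ ≠ 0 → d₃ ≠ 0 →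
    {t : (Fin 2 → ℤ) × (Fin 2 → ℤ) × (Fin 2 → ℤ) | det2 t.1 t.2.1 = d₁ ∧
      det2 t.2.1 t.2.2 = d₂ ∧ det2 t.2.2 t.1 = d₃ ∧
      sg t.1 t.2.1 + sg t.2.1 t.2.2 + sg t.2.2 t.1 ≠ - Int.sign (d₁ * d₂ * d₃)}.Finite

/-! ### elementary identities -/

theorem det2_mulVec (α : Matrix (Fin 2) (Fin 2) ℤ) (u w : Fin 2 → ℤ) :
    det2 (α *ᵥ u) (α *ᵥ w) = α.det * det2 u w := by
  simp only [det2, Matrix.mulVec, dotProduct, Fin.sum_univ_two, Matrix.det_fin_two]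
  ring

theorem det2_sl (g : SL(2, ℤ)) (u w : Fin 2 → ℤ) :
    det2 (g.1 *ᵥ u) (g.1 *ᵥ w) = det2 u w := by
  rw [det2_mulVec, g.2, one_mul]

theorem det2_swap (u w : Fin 2 → ℤ) : det2 w u = - det2 u w := by
  simp only [det2]; ring

theorem bform_swap (u w : Fin 2 → ℤ) : bform w u = bform u w := by
  simp only [bform]; ring

theorem det2_smul_left (a : ℤ) (u w : Fin 2 → ℤ) : det2 (a • u) w = a * det2 u w := by
  simp only [det2, Pi.smul_apply, smul_eq_mul]; ring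

theorem det2_smul_right (a : ℤ) (u w : Fin 2 → ℤ) : det2 u (a • w) = a * det2 u w := by
  simp only [det2, Pi.smul_apply, smul_eq_mul]; ring

theorem bform_smul_left (a : ℤ) (u w : Fin 2 → ℤ) : bform (a • u) w = a * bform u w := by
  simp only [bform, Pi.smul_apply, smul_eq_mul]; ring

theorem bform_smul_right (a : ℤ) (u w : Fin 2 → ℤ) : bform u (a • w) = a * bform u w := by
  simp only [bform, Pi.smul_apply, smul_eq_mul]; ring

theorem sign_mul_self_of_ne {a : ℤ} (ha : a ≠ 0) : Int.sign a * Int.sign a = 1 := by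
  rcases lt_trichotomy a 0 with h | h | h
  · rw [Int.sign_eq_neg_one_of_neg h]; norm_num
  · exact absurd h ha
  · rw [Int.sign_eq_one_of_pos h]; norm_num

theorem sg_swap (u w : Fin 2 → ℤ) : sg w u = - sg u w := by
  simp only [sg, det2_swap u w, bform_swap u w, Int.sign_neg]; ring

theorem sg_smul_left {a : ℤ} (ha : a ≠ 0) (u w : Fin 2 → ℤ) : sg (a • u) w = sg u w := by
  simp only [sg, det2_smul_left, bform_smul_left, Int.sign_mul]
  have := sign_mul_self_of_ne ha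
  linear_combination (Int.sign (det2 u w) * Int.sign (bform u w)) * this

theorem sg_smul_right {a : ℤ} (ha : a ≠ 0) (u w : Fin 2 → ℤ) : sg u (a • w) = sg u w := by
  simp only [sg, det2_smul_right, bform_smul_right, Int.sign_mul]
  have := sign_mul_self_of_ne ha
  linear_combination (Int.sign (det2 u w) * Int.sign (bform u w)) * this

theorem sg_eq_zero_of_det2 {u w : Fin 2 → ℤ} (h : det2 u w = 0) : sg u w = 0 := by
  simp [sg, h]

theorem mulVec_smul_int (α : Matrix (Fin 2) (Fin 2) ℤ) (a : ℤ) (u : Fin 2 → ℤ) :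
    α *ᵥ (a • u) = a • (α *ᵥ u) := Matrix.mulVec_smul α a u

theorem sl_mul_mulVec (γ δ : SL(2, ℤ)) (u : Fin 2 → ℤ) :
    (γ * δ).1 *ᵥ u = γ.1 *ᵥ (δ.1 *ᵥ u) := by
  rw [Matrix.SpecialLinearGroup.coe_mul, Matrix.mulVec_mulVec]

theorem sl_inv_mulVec (γ : SL(2, ℤ)) (u : Fin 2 → ℤ) : γ⁻¹.1 *ᵥ (γ.1 *ᵥ u) = u := by
  rw [← sl_mul_mulVec, inv_mul_cancel]; simp

theorem sl_mulVec_injective (γ : SL(2, ℤ)) : Function.Injective fun u : Fin 2 → ℤ => γ.1 *ᵥ u := by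
  intro u w h
  have h' : γ.1 *ᵥ u = γ.1 *ᵥ w := h
  rw [← sl_inv_mulVec γ u, ← sl_inv_mulVec γ w, h']

/-- Two matrices of `SL(2, ℤ)` agreeing on two independent vectors are equal. -/
theorem sl_eq_of_mulVec_eq {δ₁ δ₂ : SL(2, ℤ)} {u w : Fin 2 → ℤ} (hd : det2 u w ≠ 0)
    (hu : δ₁.1 *ᵥ u = δ₂.1 *ᵥ u) (hw : δ₁.1 *ᵥ w = δ₂.1 *ᵥ w) : δ₁ = δ₂ := by
  apply Subtype.ext
  have h00 := congrFun hu 0
  have h10 := congrFun hu 1
  have h01 := congrFun hw 0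
  have h11 := congrFun hw 1
  simp only [Matrix.mulVec, dotProduct, Fin.sum_univ_two] at h00 h10 h01 h11
  simp only [det2] at hd
  ext i j
  fin_cases i <;> fin_cases j <;> simp only [Fin.zero_eta, Fin.mk_one, Fin.isValue]
  · have : (δ₁.1 0 0 - δ₂.1 0 0) * (u 0 * w 1 - u 1 * w 0) = 0 := by linear_combination w 1 * h00 - u 1 * h01
    have := (mul_eq_zero.mp this).resolve_right hd
    linarith
  · have : (δ₁.1 0 1 - δ₂.1 0 1) * (u 0 * w 1 - u 1 * w 0) = 0 := by linear_combination u 0 * h01 - w 0 * h00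
    have := (mul_eq_zero.mp this).resolve_right hd
    linarith
  · have : (δ₁.1 1 0 - δ₂.1 1 0) * (u 0 * w 1 - u 1 * w 0) = 0 := by linear_combination w 1 * h10 - u 1 * h11
    have := (mul_eq_zero.mp this).resolve_right hd
    linarith
  · have : (δ₁.1 1 1 - δ₂.1 1 1) * (u 0 * w 1 - u 1 * w 0) = 0 := by linear_combination u 0 * h11 - w 0 * h10
    have := (mul_eq_zero.mp this).resolve_right hd
    linarith

/-! ### the summand -/

theorem isectTerm_eq_zero_of_det2 {u w : Fin 2 → ℤ} (h : det2 u w = 0) (γ δ : SL(2, ℤ)) :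
    isectTerm u w γ δ = 0 := by
  simp only [isectTerm]
  rw [sg_eq_zero_of_det2 (by rw [det2_sl, h]), sg_eq_zero_of_det2 (by rw [det2_sl, h]), sub_zero]

theorem isectTerm_mul (u w : Fin 2 → ℤ) (γ₁ γ₂ δ : SL(2, ℤ)) :
    isectTerm u w (γ₁ * γ₂) δ = isectTerm u w γ₁ (γ₂ * δ) + isectTerm u w γ₂ δ := by
  simp only [isectTerm, mul_assoc]; ring

/-- Finite support of the summand (uses `Fin2Stmt`). -/
theorem isectTerm_support_finite (h2 : Fin2Stmt) (Γ : Subgroup SL(2, ℤ)) (u w : Fin 2 → ℤ)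
    (γ : SL(2, ℤ)) : (Function.support fun δ : Γ => isectTerm u w γ (δ : SL(2, ℤ))).Finite := by
  by_cases hd : det2 u w = 0
  · have : (Function.support fun δ : Γ => isectTerm u w γ (δ : SL(2, ℤ))) = ∅ := by
      ext δ; simp [isectTerm_eq_zero_of_det2 hd]
    rw [this]; exact Set.finite_empty
  · have hfin := h2 γ.1 (by rw [γ.2]; exact one_ne_zero) (det2 u w) hd
    let φ : Γ → (Fin 2 → ℤ) × (Fin 2 → ℤ) := fun δ => ((δ : SL(2, ℤ)).1 *ᵥ u, (δ : SL(2, ℤ)).1 *ᵥ w)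
    have hφ : Function.Injective φ := by
      intro δ₁ δ₂ h
      have h1 := congrArg Prod.fst h
      have h2' := congrArg Prod.snd h
      exact Subtype.ext (sl_eq_of_mulVec_eq hd h1 h2')
    refine (hfin.preimage (hφ.injOn)).subset ?_
    intro δ hδ
    simp only [Function.mem_support, ne_eq] at hδ
    show det2 (φ δ).1 (φ δ).2 = det2 u w ∧
      Int.sign (bform (γ.1 *ᵥ (φ δ).1) (γ.1 *ᵥ (φ δ).2)) ≠ Int.sign (bform (φ δ).1 (φ δ).2)
    refine ⟨det2_sl _ _ _, fun hs => hδ ?_⟩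
    simp only [isectTerm, sg, sl_mul_mulVec, det2_sl]
    rw [hs, sub_self]

/-! ### the intersection number as a function of `γ` -/

/-- `isect` is additive in `γ` (the second factor in `Γ`). -/
theorem isect_mul (h2 : Fin2Stmt) (Γ : Subgroup SL(2, ℤ)) (u w : Fin 2 → ℤ) (γ₁ : SL(2, ℤ))
    {γ₂ : SL(2, ℤ)} (hγ₂ : γ₂ ∈ Γ) :
    isect Γ u w (γ₁ * γ₂) = isect Γ u w γ₁ + isect Γ u w γ₂ := by
  simp only [isect]
  have e : ∀ δ : Γ, isectTerm u w (γ₁ * γ₂) (δ : SL(2, ℤ)) =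
      isectTerm u w γ₁ ((Equiv.mulLeft (⟨γ₂, hγ₂⟩ : Γ) δ : Γ) : SL(2, ℤ)) +
        isectTerm u w γ₂ (δ : SL(2, ℤ)) := fun δ => isectTerm_mul u w γ₁ γ₂ δ
  rw [finsum_congr e, finsum_add_distrib]
  · congr 1
    exact finsum_comp_equiv (Equiv.mulLeft (⟨γ₂, hγ₂⟩ : Γ))
      (f := fun δ : Γ => isectTerm u w γ₁ (δ : SL(2, ℤ)))
  · exact ((isectTerm_support_finite h2 Γ u w γ₁).preimage
      ((Equiv.mulLeft (⟨γ₂, hγ₂⟩ : Γ)).injective.injOn)).subset (fun δ hδ => hδ)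
  · exact isectTerm_support_finite h2 Γ u w γ₂

theorem isect_one (Γ : Subgroup SL(2, ℤ)) (u w : Fin 2 → ℤ) : isect Γ u w 1 = 0 := by
  simp [isect, isectTerm]

theorem isect_swap (Γ : Subgroup SL(2, ℤ)) (u w : Fin 2 → ℤ) (γ : SL(2, ℤ)) :
    isect Γ w u γ = - isect Γ u w γ := by
  simp only [isect]
  rw [← finsum_neg_distrib]
  refine finsum_congr fun δ => ?_
  simp only [isectTerm, sg_swap (_ *ᵥ u) (_ *ᵥ w)]; ring

theorem isect_smul_left (Γ : Subgroup SL(2, ℤ)) {a : ℤ} (ha : a ≠ 0) (u w : Fin 2 → ℤ)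
    (γ : SL(2, ℤ)) : isect Γ (a • u) w γ = isect Γ u w γ := by
  simp only [isect]
  refine finsum_congr fun δ => ?_
  simp only [isectTerm, mulVec_smul_int, sg_smul_left ha]

theorem isect_smul_right (Γ : Subgroup SL(2, ℤ)) {a : ℤ} (ha : a ≠ 0) (u w : Fin 2 → ℤ)
    (γ : SL(2, ℤ)) : isect Γ u (a • w) γ = isect Γ u w γ := by
  simp only [isect]
  refine finsum_congr fun δ => ?_
  simp only [isectTerm, mulVec_smul_int, sg_smul_right ha]

/-- `Γ`-invariance in the symbol. -/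
theorem isect_inv (Γ : Subgroup SL(2, ℤ)) {δ₀ : SL(2, ℤ)} (hδ₀ : δ₀ ∈ Γ) (u w : Fin 2 → ℤ)
    (γ : SL(2, ℤ)) : isect Γ (δ₀.1 *ᵥ u) (δ₀.1 *ᵥ w) γ = isect Γ u w γ := by
  simp only [isect]
  have e : ∀ δ : Γ, isectTerm (δ₀.1 *ᵥ u) (δ₀.1 *ᵥ w) γ (δ : SL(2, ℤ)) =
      isectTerm u w γ ((Equiv.mulRight (⟨δ₀, hδ₀⟩ : Γ) δ : Γ) : SL(2, ℤ)) := by
    intro δ
    simp only [isectTerm, Equiv.coe_mulRight, Subgroup.coe_mul, sl_mul_mulVec]
  rw [finsum_congr e]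
  exact finsum_comp_equiv (Equiv.mulRight (⟨δ₀, hδ₀⟩ : Γ))
    (f := fun δ : Γ => isectTerm u w γ (δ : SL(2, ℤ)))

theorem isect_eq_zero_of_det2 (Γ : Subgroup SL(2, ℤ)) {u w : Fin 2 → ℤ} (h : det2 u w = 0)
    (γ : SL(2, ℤ)) : isect Γ u w γ = 0 := by
  simp [isect, isectTerm_eq_zero_of_det2 h]

/-! ### the triangle relation -/

theorem exists_smul_eq_of_det2 {u w : Fin 2 → ℤ} (hu : u ≠ 0) (hw : w ≠ 0) (h : det2 u w = 0) :
    ∃ a b : ℤ, a ≠ 0 ∧ b ≠ 0 ∧ a • w = b • u := by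
  simp only [det2] at h
  by_cases hu0 : u 0 = 0
  · have hu1 : u 1 ≠ 0 := by
      intro hu1
      apply hu
      funext i; fin_cases i <;> simpa
    have hw0 : w 0 = 0 := by
      have : u 1 * w 0 = 0 := by rw [hu0] at h; linarith
      exact (mul_eq_zero.mp this).resolve_left hu1
    have hw1 : w 1 ≠ 0 := by
      intro hw1
      apply hw
      funext i; fin_cases i <;> simpa
    refine ⟨u 1, w 1, hu1, hw1, ?_⟩
    funext i; fin_cases i
    · simp [hu0, hw0]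
    · simp only [Fin.mk_one, Fin.isValue, Pi.smul_apply, smul_eq_mul]; ring
  · have hw0 : w 0 ≠ 0 := by
      intro hw0
      have : u 0 * w 1 = 0 := by rw [hw0] at h; linarith
      have hw1 : w 1 = 0 := (mul_eq_zero.mp this).resolve_left hu0
      apply hw
      funext i; fin_cases i <;> simpa
    refine ⟨u 0, w 0, hu0, hw0, ?_⟩
    funext i; fin_cases i
    · simp only [Fin.zero_eta, Fin.isValue, Pi.smul_apply, smul_eq_mul]; ring
    · simp only [Fin.mk_one, Fin.isValue, Pi.smul_apply, smul_eq_mul]; linarith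

theorem isect_congr_of_det2 (Γ : Subgroup SL(2, ℤ)) {u w : Fin 2 → ℤ} (hu : u ≠ 0) (hw : w ≠ 0)
    (h : det2 u w = 0) (v : Fin 2 → ℤ) (γ : SL(2, ℤ)) : isect Γ v u γ = isect Γ v w γ := by
  obtain ⟨a, b, ha, hb, hab⟩ := exists_smul_eq_of_det2 hu hw h
  rw [← isect_smul_right Γ hb v u γ, ← hab, isect_smul_right Γ ha]

/-- The triangle relation. -/
theorem isect_triangle (h2 : Fin2Stmt) (h3 : Fin3Stmt) (Γ : Subgroup SL(2, ℤ)) {u w v : Fin 2 → ℤ}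
    (hu : u ≠ 0) (hw : w ≠ 0) (hv : v ≠ 0) {γ : SL(2, ℤ)} (hγ : γ ∈ Γ) :
    isect Γ u w γ + isect Γ w v γ + isect Γ v u γ = 0 := by
  by_cases h1 : det2 u w = 0
  · rw [isect_eq_zero_of_det2 Γ h1, isect_congr_of_det2 Γ hu hw h1 v γ, isect_swap Γ w v γ]; ring
  by_cases h2' : det2 w v = 0
  · rw [isect_eq_zero_of_det2 Γ h2', isect_congr_of_det2 Γ hw hv h2' u γ, isect_swap Γ u v γ]; ring
  by_cases h3' : det2 v u = 0
  · rw [isect_eq_zero_of_det2 Γ h3', isect_congr_of_det2 Γ hv hu h3' w γ, isect_swap Γ u w γ]; ring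
  -- the generic case
  set k : ℤ := Int.sign (det2 u w * det2 w v * det2 v u) with hk
  let c : Γ → ℤ := fun δ =>
    sg ((δ : SL(2, ℤ)).1 *ᵥ u) ((δ : SL(2, ℤ)).1 *ᵥ w) +
      sg ((δ : SL(2, ℤ)).1 *ᵥ w) ((δ : SL(2, ℤ)).1 *ᵥ v) +
      sg ((δ : SL(2, ℤ)).1 *ᵥ v) ((δ : SL(2, ℤ)).1 *ᵥ u) + k
  have hc : (Function.support c).Finite := by
    have hfin := h3 (det2 u w) (det2 w v) (det2 v u) h1 h2' h3'
    let φ : Γ → (Fin 2 → ℤ) × (Fin 2 → ℤ) × (Fin 2 → ℤ) := fun δ =>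
      ((δ : SL(2, ℤ)).1 *ᵥ u, (δ : SL(2, ℤ)).1 *ᵥ w, (δ : SL(2, ℤ)).1 *ᵥ v)
    have hφ : Function.Injective φ := by
      intro δ₁ δ₂ h
      have e1 := congrArg Prod.fst h
      have e2 := congrArg (fun t => t.2.1) h
      exact Subtype.ext (sl_eq_of_mulVec_eq h1 e1 e2)
    refine (hfin.preimage (hφ.injOn)).subset ?_
    intro δ hδ
    simp only [Function.mem_support, ne_eq] at hδ
    show det2 (φ δ).1 (φ δ).2.1 = det2 u w ∧ det2 (φ δ).2.1 (φ δ).2.2 = det2 w v ∧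
      det2 (φ δ).2.2 (φ δ).1 = det2 v u ∧
      sg (φ δ).1 (φ δ).2.1 + sg (φ δ).2.1 (φ δ).2.2 + sg (φ δ).2.2 (φ δ).1 ≠
        - Int.sign (det2 u w * det2 w v * det2 v u)
    refine ⟨det2_sl _ _ _, det2_sl _ _ _, det2_sl _ _ _, fun hs => hδ ?_⟩
    show sg _ _ + sg _ _ + sg _ _ + k = 0
    rw [hk]
    linarith
  have hsum : ∀ δ : Γ, isectTerm u w γ (δ : SL(2, ℤ)) + isectTerm w v γ (δ : SL(2, ℤ)) +
      isectTerm v u γ (δ : SL(2, ℤ)) = c (Equiv.mulLeft (⟨γ, hγ⟩ : Γ) δ) - c δ := by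
    intro δ
    simp only [isectTerm, c, Equiv.coe_mulLeft, Subgroup.coe_mul]
    ring
  have hc' : (Function.support fun δ : Γ => c (Equiv.mulLeft (⟨γ, hγ⟩ : Γ) δ)).Finite :=
    (hc.preimage ((Equiv.mulLeft (⟨γ, hγ⟩ : Γ)).injective.injOn)).subset (fun δ hδ => hδ)
  simp only [isect]
  rw [← finsum_add_distrib (isectTerm_support_finite h2 Γ u w γ)
    (isectTerm_support_finite h2 Γ w v γ), ← finsum_add_distrib ?_
    (isectTerm_support_finite h2 Γ v u γ), finsum_congr hsum, finsum_sub_distrib hc' hc,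
    finsum_comp_equiv (Equiv.mulLeft (⟨γ, hγ⟩ : Γ)) (f := c), sub_self]
  exact ((isectTerm_support_finite h2 Γ u w γ).union
    (isectTerm_support_finite h2 Γ w v γ)).subset (Function.support_add _ _)

/-- Chain rule: `{u, v} = {u, w} + {w, v}`. -/
theorem isect_add (h2 : Fin2Stmt) (h3 : Fin3Stmt) (Γ : Subgroup SL(2, ℤ)) {u w v : Fin 2 → ℤ}
    (hu : u ≠ 0) (hw : w ≠ 0) (hv : v ≠ 0) {γ : SL(2, ℤ)} (hγ : γ ∈ Γ) :
    isect Γ u v γ = isect Γ u w γ + isect Γ w v γ := by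
  have := isect_triangle h2 h3 Γ hu hw hv hγ
  rw [isect_swap Γ u v γ] at this
  linarith

/-! ### the intersection form -/

theorem e1_ne_zero : (![1, 0] : Fin 2 → ℤ) ≠ 0 := by
  intro h
  have := congrFun h 0
  simp at this

theorem sl_mulVec_ne_zero (g : SL(2, ℤ)) {u : Fin 2 → ℤ} (hu : u ≠ 0) : g.1 *ᵥ u ≠ 0 := by
  intro h
  apply hu
  have := sl_inv_mulVec g u
  rw [h] at this
  rw [← this]; simp

theorem ipair_mul_right (h2 : Fin2Stmt) (Γ : Subgroup SL(2, ℤ)) (g γ₁ : SL(2, ℤ)) {γ₂ : SL(2, ℤ)}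
    (hγ₂ : γ₂ ∈ Γ) : ipair Γ g (γ₁ * γ₂) = ipair Γ g γ₁ + ipair Γ g γ₂ :=
  isect_mul h2 Γ _ _ γ₁ hγ₂

theorem ipair_one_right (Γ : Subgroup SL(2, ℤ)) (g : SL(2, ℤ)) : ipair Γ g 1 = 0 :=
  isect_one Γ _ _

theorem ipair_mul_left (h2 : Fin2Stmt) (h3 : Fin3Stmt) (Γ : Subgroup SL(2, ℤ)) {g₁ : SL(2, ℤ)}
    (hg₁ : g₁ ∈ Γ) (g₂ : SL(2, ℤ)) {γ : SL(2, ℤ)} (hγ : γ ∈ Γ) :
    ipair Γ (g₁ * g₂) γ = ipair Γ g₁ γ + ipair Γ g₂ γ := by
  simp only [ipair]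
  rw [isect_add h2 h3 Γ e1_ne_zero (sl_mulVec_ne_zero g₁ e1_ne_zero)
    (sl_mulVec_ne_zero (g₁ * g₂) e1_ne_zero) hγ, sl_mul_mulVec g₁ g₂, isect_inv Γ hg₁]

theorem ipair_one_left (Γ : Subgroup SL(2, ℤ)) (γ : SL(2, ℤ)) : ipair Γ 1 γ = 0 := by
  simp only [ipair]
  exact isect_eq_zero_of_det2 Γ (by simp [det2]) γ

theorem ipair_inv_left (h2 : Fin2Stmt) (h3 : Fin3Stmt) (Γ : Subgroup SL(2, ℤ)) {g : SL(2, ℤ)}
    (hg : g ∈ Γ) {γ : SL(2, ℤ)} (hγ : γ ∈ Γ) : ipair Γ g⁻¹ γ = - ipair Γ g γ := by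
  have := ipair_mul_left h2 h3 Γ hg g⁻¹ hγ
  rw [mul_inv_cancel, ipair_one_left] at this
  linarith

/-- The intersection number as a homomorphism `Γ → ℤ`. -/
noncomputable def isectHom (h2 : Fin2Stmt) (Γ : Subgroup SL(2, ℤ)) (u w : Fin 2 → ℤ) :
    Additive Γ →+ ℤ where
  toFun γ := isect Γ u w ((Additive.toMul γ : Γ) : SL(2, ℤ))
  map_zero' := isect_one Γ u w
  map_add' _ b := isect_mul h2 Γ u w _ (Additive.toMul b : Γ).2

@[simp] theorem isectHom_apply (h2 : Fin2Stmt) (Γ : Subgroup SL(2, ℤ)) (u w : Fin 2 → ℤ) (γ : Γ) :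
    isectHom h2 Γ u w (Additive.ofMul γ) = isect Γ u w (γ : SL(2, ℤ)) := rfl

end Fermat.Agent.S41.H11
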