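import Mathlib

/-!
# S41 (level raising): the literal statement of Ihara's lemma in pair form (`IhStmt`)

Interface file (definitions only).  `IhStmt` is the statement proved on paper on the team board
(#2267): two additive characters `φ₁ φ₂` of `Γ₀(N)` with values in `ZMod p` (`p` odd) which kill
`[[1,1],[0,1]]` and `[[1,0],[N,1]]` and satisfy `φ₁ g = φ₂ (η g η⁻¹)` for `g ∈ Γ₀(Nq)`
(`η = diag(q,1)`, so `η g η⁻¹ = [[a, q b],[c / q, d]]`) are equal and vanish on the elements of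
`Γ₀(N)` whose upper left entry is `1` modulo `N`.
-/

set_option autoImplicit false

namespace Fermat.Agent.S41.H39

open CongruenceSubgroup
open scoped MatrixGroups

/-- An element of `SL₂(ℤ)` from its entries. -/
def mkSL (x y z w : ℤ) (hdet : x * w - y * z = 1) : SL(2, ℤ) :=
  ⟨!![x, y; z, w], by rw [Matrix.det_fin_two_of]; exact hdet⟩

theorem mkSL_mem_Gamma0 (N : ℕ) (x y z w : ℤ) (hdet : x * w - y * z = 1) (hz : (N : ℤ) ∣ z) :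
    mkSL x y z w hdet ∈ Gamma0 N := by
  rw [Gamma0_mem]
  show (((!![x, y; z, w] : Matrix (Fin 2) (Fin 2) ℤ) 1 0 : ℤ) : ZMod N) = 0
  simpa using (ZMod.intCast_zmod_eq_zero_iff_dvd z N).mpr hz

/-- `[[1,1],[0,1]] ∈ Γ₀(N)`. -/
def x12 (N : ℕ) : Gamma0 N :=
  ⟨mkSL 1 1 0 1 (by norm_num), mkSL_mem_Gamma0 N 1 1 0 1 (by norm_num) (dvd_zero _)⟩

/-- `[[1,0],[N,1]] ∈ Γ₀(N)`. -/
def x21 (N : ℕ) : Gamma0 N :=
  ⟨mkSL 1 0 (N : ℤ) 1 (by norm_num), mkSL_mem_Gamma0 N 1 0 (N : ℤ) 1 (by norm_num) dvd_rfl⟩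

theorem coe_x12 (N : ℕ) :
    (((x12 N : Gamma0 N) : SL(2, ℤ)) : Matrix (Fin 2) (Fin 2) ℤ) = !![1, 1; 0, 1] := rfl

theorem coe_x21 (N : ℕ) :
    (((x21 N : Gamma0 N) : SL(2, ℤ)) : Matrix (Fin 2) (Fin 2) ℤ) = !![1, 0; (N : ℤ), 1] := rfl

/-- `g' = η g η⁻¹` with `η = diag(q,1)`, entrywise: `g' = [[a, q b],[c / q, d]]` for
`g = [[a,b],[c,d]]`. -/
def EtaRel (q : ℕ) (g g' : SL(2, ℤ)) : Prop :=
  g' 0 0 = g 0 0 ∧ g' 0 1 = (q : ℤ) * g 0 1 ∧ (q : ℤ) * g' 1 0 = g 1 0 ∧ g' 1 1 = g 1 1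

/-- Ihara's lemma, pair form, for one triple `(N, q, p)`. -/
def IhAt (N q p : ℕ) : Prop :=
  ∀ φ₁ φ₂ : Additive (Gamma0 N) →+ ZMod p,
    φ₁ (Additive.ofMul (x12 N)) = 0 → φ₁ (Additive.ofMul (x21 N)) = 0 →
    φ₂ (Additive.ofMul (x12 N)) = 0 → φ₂ (Additive.ofMul (x21 N)) = 0 →
    (∀ g g' : Gamma0 N, EtaRel q (g : SL(2, ℤ)) (g' : SL(2, ℤ)) →
      φ₁ (Additive.ofMul g) = φ₂ (Additive.ofMul g')) →
    φ₁ = φ₂ ∧
      ∀ γ : Gamma0 N, (((γ : SL(2, ℤ)) 0 0 : ℤ) : ZMod N) = 1 → φ₁ (Additive.ofMul γ) = 0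

/-- Ihara's lemma, pair form (board #2267). -/
def IhStmt : Prop :=
  ∀ N q p : ℕ, 0 < N → q.Prime → ¬ q ∣ N → p.Prime → p ≠ 2 → IhAt N q p

end Fermat.Agent.S41.H39
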