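import Mathlib

/-!
# S41, node (TR) (helper6): abstract transfer calculus on additive characters

Every operator of the level-raising argument on `Hom(Γ, A)` (restriction, conjugation,
corestriction, the Hecke operators `T_ℓ`, `U_q`, Atkin-Lehner) is the *transfer along a finite
family* `α : X → G` of elements of an ambient group `G ⊇ Γ, Γ'`:

* `IsDec ι ι' α γ σ g'` : `α x * ι γ = ι' (g' x) * α (σ x)` for all `x` (a decomposition of
  `γ : Γ` along `α`, with `σ` a permutation of `X` and `g' x : Γ'`);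
* `IsTrFam ι ι' α` : every `γ : Γ` has a decomposition;
* `tr hι' h : (Additive Γ' →+ A) →+ (Additive Γ →+ A)`, `tr hι' h χ γ = ∑ x, χ (g' x)` for *any*
  decomposition (`tr_apply`; well-definedness `IsDec.sum_eq` needs only `ι'` injective, the
  cosets `Γ' α x` need not be distinct).

Calculus: `tr_congr` (same cosets, any representatives, any order), `tr_central` (central
factors), `tr_comp` (composition = product family), `tr_sumElim` (sum of families),
`tr_comp_hom` (change of coefficients), `tr_single_apply` (restriction / conjugation),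
`tr_of_range` (a family inside `Γ` acts as `card X`), `tr_comap`, `tr_map` (change of groups).
-/

set_option autoImplicit false

namespace Fermat.Agent.S41.H06

open Finset

variable {G Γ Γ' Γ'' Γ₀ Γ₁ : Type*} [Group G] [Group Γ] [Group Γ'] [Group Γ''] [Group Γ₀]
  [Group Γ₁]
variable {A B : Type*} [AddCommGroup A] [AddCommGroup B]
variable {X Y : Type*}

/-- A decomposition of `γ : Γ` along the family `α : X → G`, with values in `Γ'`. -/
def IsDec (ι : Γ →* G) (ι' : Γ' →* G) (α : X → G) (γ : Γ) (σ : Equiv.Perm X)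
    (g' : X → Γ') : Prop :=
  ∀ x, α x * ι γ = ι' (g' x) * α (σ x)

/-- `α` is a transfer family from `Γ` to `Γ'`: every `γ : Γ` decomposes along `α`. -/
def IsTrFam (ι : Γ →* G) (ι' : Γ' →* G) (α : X → G) : Prop :=
  ∀ γ : Γ, ∃ (σ : Equiv.Perm X) (g' : X → Γ'), IsDec ι ι' α γ σ g'

section Basic

variable {ι : Γ →* G} {ι' : Γ' →* G} {ι'' : Γ'' →* G} {α : X → G} {β : Y → G}

theorem IsDec.one (ι : Γ →* G) (ι' : Γ' →* G) (α : X → G) :
    IsDec ι ι' α 1 (Equiv.refl X) (fun _ => 1) := by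
  intro x
  simp

theorem IsDec.mul {γ δ : Γ} {σ τ : Equiv.Perm X} {g' h' : X → Γ'}
    (h₁ : IsDec ι ι' α γ σ g') (h₂ : IsDec ι ι' α δ τ h') :
    IsDec ι ι' α (γ * δ) (σ.trans τ) (fun x => g' x * h' (σ x)) := by
  intro x
  simp only [Equiv.trans_apply, map_mul]
  rw [← mul_assoc, h₁ x, mul_assoc, h₂ (σ x), ← mul_assoc]

/-- The relation "same `Γ'`-coset" on the index set. -/
def cosetSetoid (ι' : Γ' →* G) (α : X → G) : Setoid X where
  r x y := ∃ k : Γ', α x = ι' k * α y
  iseqv :=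
    ⟨fun x => ⟨1, by simp⟩,
      fun {x y} ⟨k, hk⟩ => ⟨k⁻¹, by
        rw [hk, ← mul_assoc, ← map_mul, inv_mul_cancel, map_one, one_mul]⟩,
      fun {x y z} ⟨k, hk⟩ ⟨l, hl⟩ => ⟨k * l, by rw [hk, hl, map_mul, mul_assoc]⟩⟩

/-- A choice of one representative in every `Γ'`-coset of the family. -/
theorem exists_rep (ι' : Γ' →* G) (α : X → G) :
    ∃ (ρ : X → X) (k : X → Γ'), (∀ x, α x = ι' (k x) * α (ρ x)) ∧
      ∀ x y (l : Γ'), α x = ι' l * α y → ρ x = ρ y := by
  classical
  have h : ∀ x : X, ∃ k : Γ',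
      α x = ι' k * α (Quotient.out (Quotient.mk (cosetSetoid ι' α) x)) := by
    intro x
    have h1 : (cosetSetoid ι' α).r (Quotient.out (Quotient.mk (cosetSetoid ι' α) x)) x :=
      Quotient.mk_out (s := cosetSetoid ι' α) x
    exact (cosetSetoid ι' α).symm h1
  choose k hk using h
  refine ⟨fun x => Quotient.out (Quotient.mk (cosetSetoid ι' α) x), k, hk, ?_⟩
  intro x y l hl
  have e : Quotient.mk (cosetSetoid ι' α) x = Quotient.mk (cosetSetoid ι' α) y :=
    Quotient.sound (s := cosetSetoid ι' α) ⟨l, hl⟩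
  show Quotient.out (Quotient.mk (cosetSetoid ι' α) x) =
    Quotient.out (Quotient.mk (cosetSetoid ι' α) y)
  rw [e]

/-- **Well-definedness of the transfer sum**: two decompositions of the same element give the
same sum of character values. -/
theorem IsDec.sum_eq [Fintype X] (hι' : Function.Injective ι') {γ : Γ}
    {σ τ : Equiv.Perm X} {g' g'' : X → Γ'} (h₁ : IsDec ι ι' α γ σ g')
    (h₂ : IsDec ι ι' α γ τ g'') (χ : Additive Γ' →+ A) :
    ∑ x, χ (Additive.ofMul (g' x)) = ∑ x, χ (Additive.ofMul (g'' x)) := by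
  obtain ⟨ρ, k, hk, hρ⟩ := exists_rep ι' α
  have key : ∀ x, g' x * k (σ x) = g'' x * k (τ x) := by
    intro x
    have e : ι' (g' x) * α (σ x) = ι' (g'' x) * α (τ x) := (h₁ x).symm.trans (h₂ x)
    have hr : ρ (σ x) = ρ (τ x) := by
      refine hρ _ _ ((g' x)⁻¹ * g'' x) ?_
      rw [map_mul, map_inv, mul_assoc, ← e, ← mul_assoc, inv_mul_cancel, one_mul]
    apply hι'
    have e1 := hk (σ x)
    have e2 := hk (τ x)
    rw [hr] at e1
    have e3 : ι' (g' x * k (σ x)) * α (ρ (τ x)) = ι' (g'' x * k (τ x)) * α (ρ (τ x)) := by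
      rw [map_mul, map_mul, mul_assoc, mul_assoc, ← e1, ← e2]
      exact e
    exact mul_right_cancel e3
  have e1 : ∑ x, (χ (Additive.ofMul (g' x)) + χ (Additive.ofMul (k (σ x)))) =
      ∑ x, (χ (Additive.ofMul (g'' x)) + χ (Additive.ofMul (k (τ x)))) := by
    refine Finset.sum_congr rfl fun x _ => ?_
    have e2 := congrArg (fun g => χ (Additive.ofMul g)) (key x)
    simpa only [ofMul_mul, map_add] using e2
  rw [Finset.sum_add_distrib, Finset.sum_add_distrib,
    Equiv.sum_comp σ (fun y => χ (Additive.ofMul (k y))),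
    Equiv.sum_comp τ (fun y => χ (Additive.ofMul (k y)))] at e1
  exact add_right_cancel e1

end Basic

/-! ### The transfer operator -/

section Operator

variable {ι : Γ →* G} {ι' : Γ' →* G} {ι'' : Γ'' →* G} {α : X → G} {β : Y → G}

/-- The chosen decomposition of `γ`. -/
noncomputable def decPerm (h : IsTrFam ι ι' α) (γ : Γ) : Equiv.Perm X :=
  (h γ).choose

/-- The chosen decomposition of `γ`. -/
noncomputable def decFun (h : IsTrFam ι ι' α) (γ : Γ) : X → Γ' :=
  (h γ).choose_spec.choose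

theorem isDec_dec (h : IsTrFam ι ι' α) (γ : Γ) : IsDec ι ι' α γ (decPerm h γ) (decFun h γ) :=
  (h γ).choose_spec.choose_spec

/-- The transfer of a character along a transfer family, as a character. -/
noncomputable def trFun [Fintype X] (hι' : Function.Injective ι') (h : IsTrFam ι ι' α)
    (χ : Additive Γ' →+ A) : Additive Γ →+ A :=
  AddMonoidHom.mk' (fun γ => ∑ x, χ (Additive.ofMul (decFun h (Additive.toMul γ) x))) (by
    intro γ δ
    have hd := (isDec_dec h (Additive.toMul γ)).mul (isDec_dec h (Additive.toMul δ))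
    have e := IsDec.sum_eq hι' (isDec_dec h (Additive.toMul γ * Additive.toMul δ)) hd χ
    simp only [toMul_add]
    rw [e, ← Equiv.sum_comp (decPerm h (Additive.toMul γ))
      (fun y => χ (Additive.ofMul (decFun h (Additive.toMul δ) y))), ← Finset.sum_add_distrib]
    refine Finset.sum_congr rfl fun x _ => ?_
    rw [ofMul_mul, map_add])

/-- The transfer along a transfer family `α` from `Γ` to `Γ'`, as an additive map
`Hom(Γ', A) → Hom(Γ, A)`. -/
noncomputable def tr [Fintype X] (hι' : Function.Injective ι') (h : IsTrFam ι ι' α) :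
    (Additive Γ' →+ A) →+ (Additive Γ →+ A) :=
  AddMonoidHom.mk' (trFun hι' h) (by
    intro χ₁ χ₂
    refine AddMonoidHom.ext fun γ => ?_
    simp only [trFun, AddMonoidHom.mk'_apply, AddMonoidHom.add_apply, Finset.sum_add_distrib])

/-- **Any decomposition computes the transfer.** -/
theorem tr_apply [Fintype X] (hι' : Function.Injective ι') (h : IsTrFam ι ι' α)
    (χ : Additive Γ' →+ A) {γ : Γ} {σ : Equiv.Perm X} {g' : X → Γ'}
    (hd : IsDec ι ι' α γ σ g') :
    tr hι' h χ (Additive.ofMul γ) = ∑ x, χ (Additive.ofMul (g' x)) :=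
  IsDec.sum_eq hι' (isDec_dec h γ) hd χ

/-- Naturality in the coefficient group. -/
theorem tr_comp_hom [Fintype X] (hι' : Function.Injective ι') (h : IsTrFam ι ι' α)
    (f : A →+ B) (χ : Additive Γ' →+ A) :
    tr hι' h (f.comp χ) = f.comp (tr hι' h χ) := by
  refine AddMonoidHom.ext fun γ => ?_
  obtain ⟨σ, g', hd⟩ := h (Additive.toMul γ)
  have e1 := tr_apply hι' h (f.comp χ) hd
  have e2 := tr_apply hι' h χ hd
  simp only [ofMul_toMul] at e1 e2
  rw [e1, AddMonoidHom.comp_apply, e2, map_sum]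
  rfl

/-! ### Same cosets, same operator -/

theorem IsDec.congr (e : X ≃ Y) (k : X → Γ') (hk : ∀ x, β (e x) = ι' (k x) * α x)
    {γ : Γ} {σ : Equiv.Perm X} {g' : X → Γ'} (hd : IsDec ι ι' α γ σ g') :
    IsDec ι ι' β γ (e.symm.trans (σ.trans e))
      (fun y => k (e.symm y) * g' (e.symm y) * (k (σ (e.symm y)))⁻¹) := by
  intro y
  obtain ⟨x, rfl⟩ := e.surjective y
  simp only [Equiv.trans_apply, Equiv.symm_apply_apply, map_mul, map_inv]
  rw [hk x, hk (σ x), mul_assoc, hd x]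
  group

theorem IsTrFam.congr (e : X ≃ Y) (k : X → Γ') (hk : ∀ x, β (e x) = ι' (k x) * α x)
    (h : IsTrFam ι ι' α) : IsTrFam ι ι' β := fun γ =>
  let ⟨_, _, hd⟩ := h γ
  ⟨_, _, hd.congr e k hk⟩

/-- **Same cosets, same transfer**: if `β (e x) ∈ Γ' · α x` for a bijection `e` of the index
sets, the two families define the same operator. -/
theorem tr_congr [Fintype X] [Fintype Y] (hι' : Function.Injective ι')
    (hα : IsTrFam ι ι' α) (hβ : IsTrFam ι ι' β) (e : X ≃ Y) (k : X → Γ')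
    (hk : ∀ x, β (e x) = ι' (k x) * α x) :
    (tr hι' hβ : (Additive Γ' →+ A) →+ (Additive Γ →+ A)) = tr hι' hα := by
  refine AddMonoidHom.ext fun χ => AddMonoidHom.ext fun γ => ?_
  obtain ⟨σ, g', hd⟩ := hα (Additive.toMul γ)
  have h1 := tr_apply hι' hα χ hd
  have h2 := tr_apply hι' hβ χ (hd.congr e k hk)
  simp only [ofMul_toMul] at h1 h2
  rw [h1, h2, ← Equiv.sum_comp e]
  simp only [Equiv.symm_apply_apply, ofMul_mul, ofMul_inv, map_add, map_neg]
  rw [Finset.sum_add_distrib, Finset.sum_add_distrib, Finset.sum_neg_distrib,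
    Equiv.sum_comp σ (fun y => χ (Additive.ofMul (k y)))]
  abel

/-- Reindexing a family. -/
theorem tr_reindex [Fintype X] [Fintype Y] (hι' : Function.Injective ι')
    (hα : IsTrFam ι ι' α) (e : Y ≃ X) (hβ : IsTrFam ι ι' (fun y => α (e y))) :
    (tr hι' hβ : (Additive Γ' →+ A) →+ (Additive Γ →+ A)) = tr hι' hα :=
  tr_congr hι' hα hβ e.symm (fun _ => 1) (fun x => by simp)

theorem IsDec.central (z : G) (hz : ∀ g, z * g = g * z) {γ : Γ} {σ : Equiv.Perm X}
    {g' : X → Γ'} (hd : IsDec ι ι' α γ σ g') : IsDec ι ι' (fun x => z * α x) γ σ g' := by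
  intro x
  rw [mul_assoc, hd x, ← mul_assoc, hz (ι' (g' x)), mul_assoc]

theorem IsTrFam.central (z : G) (hz : ∀ g, z * g = g * z) (h : IsTrFam ι ι' α) :
    IsTrFam ι ι' (fun x => z * α x) := fun γ =>
  let ⟨σ, g', hd⟩ := h γ
  ⟨σ, g', hd.central z hz⟩

/-- A central factor (a scalar matrix) does not change the transfer. -/
theorem tr_central [Fintype X] (hι' : Function.Injective ι') (z : G) (hz : ∀ g, z * g = g * z)
    (h : IsTrFam ι ι' α) (h' : IsTrFam ι ι' (fun x => z * α x)) :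
    (tr hι' h' : (Additive Γ' →+ A) →+ (Additive Γ →+ A)) = tr hι' h := by
  refine AddMonoidHom.ext fun χ => AddMonoidHom.ext fun γ => ?_
  obtain ⟨σ, g', hd⟩ := h (Additive.toMul γ)
  have h1 := tr_apply hι' h χ hd
  have h2 := tr_apply hι' h' χ (hd.central z hz)
  simp only [ofMul_toMul] at h1 h2
  rw [h1, h2]

/-! ### Composition -/

theorem IsDec.comp {γ : Γ} {σ : Equiv.Perm X} {g' : X → Γ'} (hd : IsDec ι ι' α γ σ g')
    {τ : X → Equiv.Perm Y} {h' : X → Y → Γ''} (hτ : ∀ x, IsDec ι' ι'' β (g' x) (τ x) (h' x)) :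
    IsDec ι ι'' (fun p : X × Y => β p.2 * α p.1) γ (Equiv.prodShear σ τ)
      (fun p => h' p.1 p.2) := by
  rintro ⟨x, y⟩
  simp only [Equiv.prodShear_apply]
  rw [mul_assoc, hd x, ← mul_assoc, hτ x y, mul_assoc]

/-- The product family `(x, y) ↦ β y * α x` of a family `α` from `Γ` to `Γ'` and a family `β`
from `Γ'` to `Γ''` is a family from `Γ` to `Γ''`. -/
theorem IsTrFam.comp (hα : IsTrFam ι ι' α) (hβ : IsTrFam ι' ι'' β) :
    IsTrFam ι ι'' (fun p : X × Y => β p.2 * α p.1) := by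
  intro γ
  obtain ⟨σ, g', hd⟩ := hα γ
  choose τ h' hτ using fun x => hβ (g' x)
  exact ⟨_, _, hd.comp hτ⟩

/-- **Composition of transfers = transfer along the product family.** -/
theorem tr_comp [Fintype X] [Fintype Y] (hι' : Function.Injective ι')
    (hι'' : Function.Injective ι'') (hα : IsTrFam ι ι' α) (hβ : IsTrFam ι' ι'' β)
    (hαβ : IsTrFam ι ι'' (fun p : X × Y => β p.2 * α p.1)) (χ : Additive Γ'' →+ A) :
    tr hι' hα (tr hι'' hβ χ) = tr hι'' hαβ χ := by
  refine AddMonoidHom.ext fun γ => ?_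
  obtain ⟨σ, g', hd⟩ := hα (Additive.toMul γ)
  choose τ h' hτ using fun x => hβ (g' x)
  have h1 := tr_apply hι' hα (tr hι'' hβ χ) hd
  have h2 := tr_apply hι'' hαβ χ (hd.comp hτ)
  simp only [ofMul_toMul] at h1 h2
  rw [h1, h2, Fintype.sum_prod_type]
  refine Finset.sum_congr rfl fun x _ => ?_
  exact tr_apply hι'' hβ χ (hτ x)

/-! ### Sums of families -/

theorem IsDec.sumElim {γ : Γ} {σ : Equiv.Perm X} {τ : Equiv.Perm Y} {g' : X → Γ'}
    {h' : Y → Γ'} (hd : IsDec ι ι' α γ σ g') (hd' : IsDec ι ι' β γ τ h') :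
    IsDec ι ι' (Sum.elim α β) γ (Equiv.sumCongr σ τ) (Sum.elim g' h') := by
  rintro (x | y)
  · simpa using hd x
  · simpa using hd' y

theorem IsTrFam.sumElim (hα : IsTrFam ι ι' α) (hβ : IsTrFam ι ι' β) :
    IsTrFam ι ι' (Sum.elim α β) := fun γ =>
  let ⟨_, _, hd⟩ := hα γ
  let ⟨_, _, hd'⟩ := hβ γ
  ⟨_, _, hd.sumElim hd'⟩

/-- The transfer along a disjoint union of families is the sum of the transfers. -/
theorem tr_sumElim [Fintype X] [Fintype Y] (hι' : Function.Injective ι')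
    (hα : IsTrFam ι ι' α) (hβ : IsTrFam ι ι' β) (hαβ : IsTrFam ι ι' (Sum.elim α β))
    (χ : Additive Γ' →+ A) :
    tr hι' hαβ χ = tr hι' hα χ + tr hι' hβ χ := by
  refine AddMonoidHom.ext fun γ => ?_
  obtain ⟨σ, g', hd⟩ := hα (Additive.toMul γ)
  obtain ⟨τ, h', hd'⟩ := hβ (Additive.toMul γ)
  have h1 := tr_apply hι' hα χ hd
  have h2 := tr_apply hι' hβ χ hd'
  have h3 := tr_apply hι' hαβ χ (hd.sumElim hd')
  simp only [ofMul_toMul] at h1 h2 h3
  rw [AddMonoidHom.add_apply, h1, h2, h3, Fintype.sum_sum_type]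
  simp

/-! ### Special families -/

/-- One-element families: restriction (`η = 1`) and conjugation. -/
theorem isTrFam_single {η : G} (h : ∀ γ : Γ, ∃ g' : Γ', η * ι γ = ι' g' * η) :
    IsTrFam ι ι' (fun _ : Unit => η) := fun γ =>
  let ⟨g', hg'⟩ := h γ
  ⟨Equiv.refl _, fun _ => g', fun _ => hg'⟩

theorem tr_single_apply (hι' : Function.Injective ι') {η : G}
    (h : IsTrFam ι ι' (fun _ : Unit => η)) (χ : Additive Γ' →+ A) {γ : Γ} {g' : Γ'}
    (hg : η * ι γ = ι' g' * η) :
    tr hι' h χ (Additive.ofMul γ) = χ (Additive.ofMul g') := by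
  rw [tr_apply hι' h χ (σ := Equiv.refl _) (g' := fun _ => g') (fun _ => hg)]
  simp

/-- A family of elements of `Γ` itself. -/
theorem isTrFam_of_range (ι : Γ →* G) (k : X → Γ) : IsTrFam ι ι (fun x => ι (k x)) :=
  fun γ => ⟨Equiv.refl _, fun x => k x * γ * (k x)⁻¹, fun x => by simp⟩

/-- A family of `card X` elements of `Γ` itself acts as multiplication by `card X`. -/
theorem tr_of_range [Fintype X] {ι : Γ →* G} (hι : Function.Injective ι) (k : X → Γ)
    (h : IsTrFam ι ι (fun x => ι (k x))) (χ : Additive Γ →+ A) :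
    tr hι h χ = Fintype.card X • χ := by
  refine AddMonoidHom.ext fun γ => ?_
  have hd : IsDec ι ι (fun x => ι (k x)) (Additive.toMul γ) (Equiv.refl _)
      (fun x => k x * Additive.toMul γ * (k x)⁻¹) := fun x => by simp
  have h1 := tr_apply hι h χ hd
  simp only [ofMul_toMul] at h1
  rw [h1]
  simp only [ofMul_mul, ofMul_inv, map_add, map_neg, ofMul_toMul, AddMonoidHom.smul_apply]
  rw [Finset.sum_congr rfl (fun x _ => show χ (Additive.ofMul (k x)) + χ γ +
    -χ (Additive.ofMul (k x)) = χ γ by abel)]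
  simp

/-! ### Change of groups -/

/-- Restricting the source group along `φ : Γ₀ →* Γ`. -/
theorem IsTrFam.comap (h : IsTrFam ι ι' α) (φ : Γ₀ →* Γ) : IsTrFam (ι.comp φ) ι' α :=
  fun γ => h (φ γ)

theorem tr_comap [Fintype X] (hι' : Function.Injective ι') (h : IsTrFam ι ι' α)
    (φ : Γ₀ →* Γ) (h' : IsTrFam (ι.comp φ) ι' α) (χ : Additive Γ' →+ A) (γ : Γ₀) :
    tr hι' h' χ (Additive.ofMul γ) = tr hι' h χ (Additive.ofMul (φ γ)) := by
  obtain ⟨σ, g', hd⟩ := h (φ γ)
  have hd' : IsDec (ι.comp φ) ι' α γ σ g' := hd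
  rw [tr_apply hι' h χ hd, tr_apply hι' h' χ hd']

/-- Enlarging the target group along `ψ : Γ' →* Γ₁` (with `ι₁ ∘ ψ = ι'`). -/
theorem IsTrFam.map {ι₁ : Γ₁ →* G} (h : IsTrFam ι ι' α) (ψ : Γ' →* Γ₁)
    (hψ : ∀ g, ι₁ (ψ g) = ι' g) : IsTrFam ι ι₁ α := fun γ =>
  let ⟨σ, g', hd⟩ := h γ
  ⟨σ, fun x => ψ (g' x), fun x => by rw [hψ]; exact hd x⟩

theorem tr_map [Fintype X] {ι₁ : Γ₁ →* G} (hι' : Function.Injective ι')
    (hι₁ : Function.Injective ι₁) (h : IsTrFam ι ι' α) (ψ : Γ' →* Γ₁)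
    (hψ : ∀ g, ι₁ (ψ g) = ι' g) (h₁ : IsTrFam ι ι₁ α) (χ : Additive Γ₁ →+ A) :
    tr hι₁ h₁ χ = tr hι' h (χ.comp (MonoidHom.toAdditive ψ)) := by
  refine AddMonoidHom.ext fun γ => ?_
  obtain ⟨σ, g', hd⟩ := h (Additive.toMul γ)
  have hd₁ : IsDec ι ι₁ α (Additive.toMul γ) σ (fun x => ψ (g' x)) := fun x => by
    rw [hψ]; exact hd x
  have h1 := tr_apply hι' h (χ.comp (MonoidHom.toAdditive ψ)) hd
  have h2 := tr_apply hι₁ h₁ χ hd₁
  simp only [ofMul_toMul] at h1 h2
  rw [h1, h2]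
  rfl

end Operator

end Fermat.Agent.S41.H06
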