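/-
S41 / node (B) (helper19): the concrete operators `res`, `w`, `cores`, `U_q`, `T_q` between the
character groups of `Γ₀(N)` and `Γ₀(N q)` as transfers (`H06.tr`) along explicit families of
matrices, and the identities
  cores ∘ res = q + 1,  cores ∘ w ∘ res = T_q,  w ∘ w = id,  res ∘ cores = id + U_q ∘ w.
-/
import Mathlib
import Fermat.Agent.S22.HeckeDecomp_helper56
import Fermat.Agent.S41.Transfer_helper6
import Fermat.Agent.S41.IhStmt_helper39
import Fermat.Agent.S29.TransferDef_helper6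

set_option autoImplicit false

namespace Fermat.Agent.S41.H19

open Matrix CongruenceSubgroup Fermat.Agent.S41.H06 Fermat.Agent.S22
open scoped MatrixGroups

/-! ### Integer matrices in `GL₂(ℝ)` -/

theorem G2_aux (a b c d : ℤ) : ∃ g : GL (Fin 2) ℝ, a * d - b * c ≠ 0 →
    (g : Matrix (Fin 2) (Fin 2) ℝ) = !![(a : ℝ), b; c, d] := by
  by_cases h : a * d - b * c ≠ 0
  · refine ⟨Matrix.GeneralLinearGroup.mkOfDetNeZero !![(a : ℝ), b; c, d] ?_, fun _ => rfl⟩
    rw [Matrix.det_fin_two_of]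
    exact_mod_cast h
  · exact ⟨1, fun h' => absurd h' h⟩

/-- The matrix `(a b; c d)` with integer entries as an element of `GL₂(ℝ)`
(junk unless `a * d - b * c ≠ 0`). -/
noncomputable def G2 (a b c d : ℤ) : GL (Fin 2) ℝ := (G2_aux a b c d).choose

theorem G2_coe {a b c d : ℤ} (h : a * d - b * c ≠ 0) :
    ((G2 a b c d : GL (Fin 2) ℝ) : Matrix (Fin 2) (Fin 2) ℝ) = !![(a : ℝ), b; c, d] :=
  (G2_aux a b c d).choose_spec h

theorem G2_mul {a b c d a' b' c' d' : ℤ} (h : a * d - b * c ≠ 0) (h' : a' * d' - b' * c' ≠ 0) :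
    G2 a b c d * G2 a' b' c' d'
      = G2 (a * a' + b * c') (a * b' + b * d') (c * a' + d * c') (c * b' + d * d') := by
  have h'' : (a * a' + b * c') * (c * b' + d * d') - (a * b' + b * d') * (c * a' + d * c') ≠ 0 := by
    have : (a * a' + b * c') * (c * b' + d * d') - (a * b' + b * d') * (c * a' + d * c')
        = (a * d - b * c) * (a' * d' - b' * c') := by ring
    rw [this]
    exact mul_ne_zero h h'
  apply Units.ext
  rw [Units.val_mul, G2_coe h, G2_coe h', G2_coe h'']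
  ext i j
  fin_cases i <;> fin_cases j <;> simp [Matrix.mul_apply, Fin.sum_univ_two]

theorem G2_congr {a b c d a' b' c' d' : ℤ} (ha : a = a') (hb : b = b') (hc : c = c')
    (hd : d = d') : G2 a b c d = G2 a' b' c' d' := by
  subst ha hb hc hd; rfl

theorem G2_one : G2 1 0 0 1 = 1 := by
  apply Units.ext
  rw [G2_coe (by norm_num)]
  ext i j
  fin_cases i <;> fin_cases j <;> simp

/-- scalar matrices are central -/
theorem G2_scalar_comm (z : ℤ) (hz : z ≠ 0) (g : GL (Fin 2) ℝ) :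
    G2 z 0 0 z * g = g * G2 z 0 0 z := by
  have h : z * z - 0 * 0 ≠ 0 := by simpa using hz
  apply Units.ext
  rw [Units.val_mul, Units.val_mul, G2_coe h]
  ext i j
  fin_cases i <;> fin_cases j <;> simp [Matrix.mul_apply, Fin.sum_univ_two, mul_comm]

/-! ### `Γ₀(M) → GL₂(ℝ)` -/

/-- The embedding `Γ₀(M) → GL₂(ℝ)`. -/
noncomputable def gl (M : ℕ) : Gamma0 M →* GL (Fin 2) ℝ :=
  (Matrix.SpecialLinearGroup.mapGL ℝ).comp (Gamma0 M).subtype

theorem gl_apply (M : ℕ) (γ : Gamma0 M) : gl M γ = (((γ : SL(2, ℤ)) : GL (Fin 2) ℝ)) := rfl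

theorem gl_injective (M : ℕ) : Function.Injective (gl M) :=
  (Matrix.SpecialLinearGroup.mapGL_injective (R := ℤ) (S := ℝ)).comp Subtype.coe_injective

theorem det_entries (g : SL(2, ℤ)) : g 0 0 * g 1 1 - g 0 1 * g 1 0 = 1 := by
  have h := g.2
  rw [Matrix.det_fin_two] at h
  exact h

theorem mem_Gamma0_iff_dvd {M : ℕ} {g : SL(2, ℤ)} : g ∈ Gamma0 M ↔ (M : ℤ) ∣ g 1 0 := by
  rw [Gamma0_mem, ZMod.intCast_zmod_eq_zero_iff_dvd]

theorem gl_eq_G2 (M : ℕ) (γ : Gamma0 M) :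
    gl M γ = G2 ((γ : SL(2, ℤ)) 0 0) ((γ : SL(2, ℤ)) 0 1) ((γ : SL(2, ℤ)) 1 0)
      ((γ : SL(2, ℤ)) 1 1) := by
  have h := det_entries (γ : SL(2, ℤ))
  apply Units.ext
  rw [G2_coe (by rw [h]; norm_num)]
  show ((Matrix.SpecialLinearGroup.mapGL ℝ (γ : SL(2, ℤ)) : GL (Fin 2) ℝ) :
    Matrix (Fin 2) (Fin 2) ℝ) = _
  rw [Matrix.SpecialLinearGroup.mapGL_coe_matrix]
  ext i j
  fin_cases i <;> fin_cases j <;> simp

theorem g0_aux (M : ℕ) (a b c d : ℤ) : ∃ g : Gamma0 M, a * d - b * c = 1 → (M : ℤ) ∣ c →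
    ((g : SL(2, ℤ)) : Matrix (Fin 2) (Fin 2) ℤ) = !![a, b; c, d] := by
  by_cases h : a * d - b * c = 1 ∧ (M : ℤ) ∣ c
  · exact ⟨⟨H39.mkSL a b c d h.1, H39.mkSL_mem_Gamma0 M a b c d h.1 h.2⟩, fun _ _ => rfl⟩
  · exact ⟨1, fun h1 h2 => absurd ⟨h1, h2⟩ h⟩

/-- The element `(a b; c d)` of `Γ₀(M)` (junk unless `a * d - b * c = 1` and `M ∣ c`). -/
noncomputable def g0 (M : ℕ) (a b c d : ℤ) : Gamma0 M := (g0_aux M a b c d).choose

theorem g0_coe {M : ℕ} {a b c d : ℤ} (h : a * d - b * c = 1) (hc : (M : ℤ) ∣ c) :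
    (((g0 M a b c d : Gamma0 M) : SL(2, ℤ)) : Matrix (Fin 2) (Fin 2) ℤ) = !![a, b; c, d] :=
  (g0_aux M a b c d).choose_spec h hc

theorem gl_g0 {M : ℕ} {a b c d : ℤ} (h : a * d - b * c = 1) (hc : (M : ℤ) ∣ c) :
    gl M (g0 M a b c d) = G2 a b c d := by
  rw [gl_eq_G2]
  have e := g0_coe h hc
  have e00 : ((g0 M a b c d : Gamma0 M) : SL(2, ℤ)) 0 0 = a := by
    have := congrFun (congrFun e 0) 0; simpa using this
  have e01 : ((g0 M a b c d : Gamma0 M) : SL(2, ℤ)) 0 1 = b := by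
    have := congrFun (congrFun e 0) 1; simpa using this
  have e10 : ((g0 M a b c d : Gamma0 M) : SL(2, ℤ)) 1 0 = c := by
    have := congrFun (congrFun e 1) 0; simpa using this
  have e11 : ((g0 M a b c d : Gamma0 M) : SL(2, ℤ)) 1 1 = d := by
    have := congrFun (congrFun e 1) 1; simpa using this
  rw [e00, e01, e10, e11]

/-- entries of an element of `Γ₀(M)` -/
theorem exists_entries {M : ℕ} (γ : Gamma0 M) :
    ∃ a b c d : ℤ, a * d - b * c = 1 ∧ (M : ℤ) ∣ c ∧ gl M γ = G2 a b c d ∧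
      (γ : SL(2, ℤ)) 0 0 = a ∧ (γ : SL(2, ℤ)) 0 1 = b ∧ (γ : SL(2, ℤ)) 1 0 = c ∧
      (γ : SL(2, ℤ)) 1 1 = d :=
  ⟨_, _, _, _, det_entries _, mem_Gamma0_iff_dvd.mp γ.2, gl_eq_G2 M γ, rfl, rfl, rfl, rfl⟩

/-- an element of `GL₂(ℝ)` with the entries of a matrix of `Γ₀(M)` comes from `Γ₀(M)` -/
theorem G2_eq_gl {M : ℕ} {a b c d : ℤ} (h : a * d - b * c = 1) (hc : (M : ℤ) ∣ c) :
    G2 a b c d = gl M (g0 M a b c d) := (gl_g0 h hc).symm

theorem repT_none {q : ℕ} (hq : q ≠ 0) : H56.repT q none = G2 q 0 0 1 := by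
  have h : (q : ℤ) * 1 - 0 * 0 ≠ 0 := by simpa using hq
  apply Units.ext
  rw [G2_coe h]
  show ((ModularForm.heckeDiagMatrix q : GL (Fin 2) ℝ) : Matrix (Fin 2) (Fin 2) ℝ) = _
  rw [ModularForm.val_heckeDiagMatrix hq]
  ext i j
  fin_cases i <;> fin_cases j <;> simp

theorem repT_some {q : ℕ} (hq : q ≠ 0) (j : Fin q) : H56.repT q (some j) = G2 1 (j : ℕ) 0 q := by
  have h : (1 : ℤ) * q - ((j : ℕ) : ℤ) * 0 ≠ 0 := by simpa using hq
  apply Units.ext
  rw [G2_coe h]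
  show ((ModularForm.heckeMatrix q j : GL (Fin 2) ℝ) : Matrix (Fin 2) (Fin 2) ℝ) = _
  rw [ModularForm.val_heckeMatrix hq]
  ext i j
  fin_cases i <;> fin_cases j <;> simp

theorem repU_eq {q : ℕ} (hq : q ≠ 0) (j : Fin q) : H56.repU q j = G2 1 (j : ℕ) 0 q :=
  repT_some hq j


/-! ### A criterion for transfer families -/

/-- A family which is stable under right multiplication by `Γ` up to `Γ'` and whose `Γ'`-cosets
are pairwise distinct is a transfer family. -/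
theorem isTrFam_of_cover_inj {G Γ Γ' X : Type*} [Group G] [Group Γ] [Group Γ'] [Finite X]
    {ι : Γ →* G} {ι' : Γ' →* G} {α : X → G}
    (cover : ∀ (x : X) (γ : Γ), ∃ (y : X) (g' : Γ'), α x * ι γ = ι' g' * α y)
    (inj : ∀ (x y : X) (g' : Γ'), α x = ι' g' * α y → x = y) : IsTrFam ι ι' α := by
  intro γ
  choose σ g' h using fun x => cover x γ
  have hσ : Function.Injective σ := by
    intro x x' hxx
    have h1 := h x
    have h2 := h x'
    rw [hxx] at h1
    apply inj x x' (g' x * (g' x')⁻¹)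
    have e : α x * ι γ = ι' (g' x * (g' x')⁻¹) * α x' * ι γ := by
      rw [map_mul, map_inv, mul_assoc, mul_assoc, h2, ← mul_assoc ((ι' (g' x'))⁻¹),
        inv_mul_cancel, one_mul]
      exact h1
    exact mul_right_cancel e
  exact ⟨Equiv.ofBijective σ (Finite.injective_iff_bijective.mp hσ), g', fun x => h x⟩

/-! ### Bezout data and the matrices `γ₁`, `γ₂`, `ω` -/

/-- `d₀` with `q d₀ - N b₀ = 1`. -/
def d0 (N q : ℕ) : ℤ := Int.gcdA q N

/-- `b₀` with `q d₀ - N b₀ = 1`. -/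
def b0 (N q : ℕ) : ℤ := -Int.gcdB q N

theorem bez {N q : ℕ} (hq : q.Prime) (hqN : ¬ q ∣ N) : (q : ℤ) * d0 N q - N * b0 N q = 1 := by
  have h := Int.gcd_eq_gcd_ab (q : ℤ) (N : ℤ)
  have hc : Int.gcd (q : ℤ) (N : ℤ) = 1 := by
    rw [Int.gcd_natCast_natCast]
    exact (Nat.Prime.coprime_iff_not_dvd hq).mpr hqN
  rw [hc] at h
  unfold d0 b0
  push_cast at h ⊢
  linarith

theorem q_ne_zero {q : ℕ} (hq : q.Prime) : (q : ℤ) ≠ 0 := by exact_mod_cast hq.ne_zero

theorem not_dvd_N {N q : ℕ} (hqN : ¬ q ∣ N) : ¬ (q : ℤ) ∣ (N : ℤ) := by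
  intro h
  exact hqN (Int.natCast_dvd_natCast.mp h)

theorem prime_q {q : ℕ} (hq : q.Prime) : Prime (q : ℤ) := Nat.prime_iff_prime_int.mp hq

/-- `N q ∣ c` from `N ∣ c` and `q ∣ c`. -/
theorem Nq_dvd {N q : ℕ} (hq : q.Prime) (hqN : ¬ q ∣ N) {c : ℤ} (h1 : (N : ℤ) ∣ c)
    (h2 : (q : ℤ) ∣ c) : ((N * q : ℕ) : ℤ) ∣ c := by
  have hcop : IsCoprime (N : ℤ) (q : ℤ) := by
    rw [Int.isCoprime_iff_gcd_eq_one, Int.gcd_natCast_natCast]
    exact Nat.Coprime.symm ((Nat.Prime.coprime_iff_not_dvd hq).mpr hqN)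
  push_cast
  exact hcop.mul_dvd h1 h2

theorem Gamma0_mul_le (N q : ℕ) : Gamma0 (N * q) ≤ Gamma0 N := by
  intro g hg
  rw [mem_Gamma0_iff_dvd] at hg ⊢
  exact (Dvd.intro _ (by push_cast; rfl)).trans hg

/-- The inclusion `Γ₀(N q) → Γ₀(N)`. -/
def incl (N q : ℕ) : Gamma0 (N * q) →* Gamma0 N := Subgroup.inclusion (Gamma0_mul_le N q)

theorem gl_incl (N q : ℕ) (γ : Gamma0 (N * q)) : gl N (incl N q γ) = gl (N * q) γ := rfl

/-- Coset representatives of `Γ₀(N q) \ Γ₀(N)`: `none ↦ 1`, `some j ↦ γ₂ * [[1,j],[0,1]]`. -/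
noncomputable def beta (N q : ℕ) : Option (Fin q) → Gamma0 N
  | none => 1
  | some j => g0 N 1 (((j : ℕ) : ℤ) + b0 N q) N (N * ((j : ℕ) : ℤ) + q * d0 N q)

/-- The corestriction family. -/
noncomputable def coresFam (N q : ℕ) (x : Option (Fin q)) : GL (Fin 2) ℝ := gl N (beta N q x)

/-- The Atkin–Lehner matrix `ω = [[q, b₀],[q N, q d₀]]`. -/
noncomputable def omega (N q : ℕ) : GL (Fin 2) ℝ := G2 q (b0 N q) (q * N) (q * d0 N q)

theorem det_omega {N q : ℕ} (hq : q.Prime) (hqN : ¬ q ∣ N) :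
    (q : ℤ) * (q * d0 N q) - b0 N q * (q * N) ≠ 0 := by
  have h0 := bez hq hqN
  have : (q : ℤ) * (q * d0 N q) - b0 N q * (q * N) = q := by linear_combination (q : ℤ) * h0
  rw [this]
  exact q_ne_zero hq

theorem det_beta {N q : ℕ} (hq : q.Prime) (hqN : ¬ q ∣ N) (j : ℤ) :
    (1 : ℤ) * (N * j + q * d0 N q) - (j + b0 N q) * N = 1 := by
  linear_combination bez hq hqN

theorem gl_beta_some {N q : ℕ} (hq : q.Prime) (hqN : ¬ q ∣ N) (j : Fin q) :
    gl N (beta N q (some j))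
      = G2 1 (((j : ℕ) : ℤ) + b0 N q) N (N * ((j : ℕ) : ℤ) + q * d0 N q) :=
  gl_g0 (det_beta hq hqN _) dvd_rfl

/-! ### The transfer families -/

theorem isTrFam_res (N q : ℕ) :
    IsTrFam (gl (N * q)) (gl N) (fun _ : Unit => (1 : GL (Fin 2) ℝ)) :=
  isTrFam_single (fun γ => ⟨incl N q γ, by rw [one_mul, mul_one, gl_incl]⟩)

theorem isTrFam_T {N q : ℕ} (hq : q.Prime) (hqN : ¬ q ∣ N) :
    IsTrFam (gl N) (gl N) (H56.repT q) := by
  intro γ
  obtain ⟨σ, g', hg', h⟩ := H56.repT_decomp hq hqN (γ : SL(2, ℤ)) γ.2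
  exact ⟨σ, fun x => ⟨g' x, hg' x⟩, h⟩

theorem isTrFam_U (N : ℕ) {q : ℕ} (hq : q ≠ 0) :
    IsTrFam (gl (N * q)) (gl (N * q)) (H56.repU q) := by
  intro γ
  obtain ⟨σ, g', hg', h⟩ := H56.repU_decomp hq (Dvd.intro_left N rfl) (γ : SL(2, ℤ)) γ.2
  exact ⟨σ, fun x => ⟨g' x, hg' x⟩, h⟩

/-- `ω γ = g' ω` for `γ ∈ Γ₀(N q)`, with `g' ∈ Γ₀(N q)`. -/
theorem omega_conj {N q : ℕ} (hq : q.Prime) (hqN : ¬ q ∣ N) (γ : Gamma0 (N * q)) :
    ∃ g' : Gamma0 (N * q), omega N q * gl (N * q) γ = gl (N * q) g' * omega N q := by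
  obtain ⟨a, b, c, d, hdet, hc, hγ, -⟩ := exists_entries γ
  obtain ⟨c', rfl⟩ := hc
  have h0 := bez hq hqN
  set B0 := b0 N q with hB0
  set D0 := d0 N q with hD0
  have hdet' : ((q : ℤ) * a + B0 * (((N * q : ℕ) : ℤ) * c')) * D0 - (q * b + B0 * d) * N
      = ((q : ℤ) * a + B0 * (N * q * c')) * D0 - (q * b + B0 * d) * N := by push_cast; ring
  have hg' : (((q : ℤ) * a + B0 * (N * q * c')) * D0 - (q * b + B0 * d) * N)
        * (-(N * a + D0 * (N * q * c')) * B0 + (N * b + D0 * d) * q)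
      - (-a * B0 + q * b + B0 * d - B0 * B0 * N * c')
        * (((N * q : ℕ) : ℤ) * (a * D0 + D0 * D0 * q * c' - N * b - D0 * d)) = 1 := by
    push_cast at hdet ⊢
    linear_combination ((q : ℤ) * D0 - N * B0) ^ 2 * hdet + ((q : ℤ) * D0 - N * B0 + 1) * h0
  refine ⟨g0 (N * q) (((q : ℤ) * a + B0 * (N * q * c')) * D0 - (q * b + B0 * d) * N)
    (-a * B0 + q * b + B0 * d - B0 * B0 * N * c')
    (((N * q : ℕ) : ℤ) * (a * D0 + D0 * D0 * q * c' - N * b - D0 * d))
    (-(N * a + D0 * (N * q * c')) * B0 + (N * b + D0 * d) * q), ?_⟩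
  rw [hγ, gl_g0 hg' (dvd_mul_right _ _), omega, G2_mul (det_omega hq hqN) (by rw [hdet]; norm_num),
    G2_mul (by rw [hg']; norm_num) (det_omega hq hqN)]
  push_cast
  refine G2_congr ?_ ?_ ?_ ?_
  · linear_combination (-((q : ℤ) * a + B0 * (N * q * c'))) * h0
  · linear_combination (-((q : ℤ) * b + B0 * d)) * h0
  · linear_combination (-((q : ℤ) * N * a + q * D0 * (N * q * c'))) * h0
  · linear_combination (-((q : ℤ) * N * b + q * D0 * d)) * h0

theorem isTrFam_w {N q : ℕ} (hq : q.Prime) (hqN : ¬ q ∣ N) :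
    IsTrFam (gl (N * q)) (gl (N * q)) (fun _ : Unit => omega N q) :=
  isTrFam_single (omega_conj hq hqN)


/-! ### The corestriction family -/

theorem sl_mul_apply (A B : SL(2, ℤ)) (i j : Fin 2) :
    (A * B) i j = A i 0 * B 0 j + A i 1 * B 1 j := by
  show ((A * B : SL(2, ℤ)) : Matrix (Fin 2) (Fin 2) ℤ) i j = _
  rw [Matrix.SpecialLinearGroup.coe_mul, Matrix.mul_apply, Fin.sum_univ_two]

theorem beta_some_entries {N q : ℕ} (hq : q.Prime) (hqN : ¬ q ∣ N) (j : Fin q) :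
    ((beta N q (some j) : Gamma0 N) : SL(2, ℤ)) 0 0 = 1 ∧
    ((beta N q (some j) : Gamma0 N) : SL(2, ℤ)) 0 1 = ((j : ℕ) : ℤ) + b0 N q ∧
    ((beta N q (some j) : Gamma0 N) : SL(2, ℤ)) 1 0 = N ∧
    ((beta N q (some j) : Gamma0 N) : SL(2, ℤ)) 1 1 = N * ((j : ℕ) : ℤ) + q * d0 N q := by
  have e : (((beta N q (some j) : Gamma0 N) : SL(2, ℤ)) : Matrix (Fin 2) (Fin 2) ℤ)
      = !![1, ((j : ℕ) : ℤ) + b0 N q; (N : ℤ), N * ((j : ℕ) : ℤ) + q * d0 N q] :=
    g0_coe (M := N) (det_beta hq hqN ((j : ℕ) : ℤ)) dvd_rfl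
  refine ⟨?_, ?_, ?_, ?_⟩
  · have := congrFun (congrFun e 0) 0; simpa using this
  · have := congrFun (congrFun e 0) 1; simpa using this
  · have := congrFun (congrFun e 1) 0; simpa using this
  · have := congrFun (congrFun e 1) 1; simpa using this

/-- every element of `Γ₀(N)` lies in `Γ₀(N q) β_y` for some `y` -/
theorem cores_cover {N q : ℕ} (hq : q.Prime) (hqN : ¬ q ∣ N) (m : Gamma0 N) :
    ∃ (y : Option (Fin q)) (g' : Gamma0 (N * q)), gl N m = gl (N * q) g' * coresFam N q y := by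
  obtain ⟨a, b, c, d, hdet, hc, hm, -⟩ := exists_entries m
  have h0 := bez hq hqN
  by_cases hqc : (q : ℤ) ∣ c
  · refine ⟨none, g0 (N * q) a b c d, ?_⟩
    rw [gl_g0 hdet (Nq_dvd hq hqN hc hqc), hm]
    show _ = _ * gl N 1
    rw [map_one, mul_one]
  · have hcop : IsCoprime (q : ℤ) c := (prime_q hq).irreducible.coprime_iff_not_dvd.mpr hqc
    obtain ⟨v, u, huv⟩ := hcop
    have hq0 : (0 : ℤ) < q := by exact_mod_cast hq.pos
    have hnn : 0 ≤ (d * u) % (q : ℤ) := Int.emod_nonneg _ (q_ne_zero hq)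
    have hlt : (d * u) % (q : ℤ) < q := Int.emod_lt_of_pos _ hq0
    have hjlt : ((d * u) % (q : ℤ)).toNat < q := by omega
    have hjcast : ((((d * u) % (q : ℤ)).toNat : ℕ) : ℤ) = (d * u) % (q : ℤ) :=
      Int.toNat_of_nonneg hnn
    obtain ⟨t, ht⟩ : (q : ℤ) ∣ d - c * ((d * u) % (q : ℤ)) := by
      refine ⟨d * v + c * (d * u / q), ?_⟩
      rw [Int.emod_def]
      linear_combination (-d) * huv
    obtain ⟨c1, hc1⟩ := hc
    set J : ℤ := (d * u) % (q : ℤ) with hJ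
    set B0 := b0 N q with hB0
    set D0 := d0 N q with hD0
    have hg'det : (a * q * D0 - N * (b - a * J)) * (-c * B0 + d - c * J)
        - (-a * B0 + b - a * J) * (c * q * D0 - N * (d - c * J)) = 1 := by
      linear_combination ((q : ℤ) * D0 - N * B0) * hdet + h0
    have hg'dvd : ((N * q : ℕ) : ℤ) ∣ c * q * D0 - N * (d - c * J) :=
      ⟨c1 * D0 - t, by push_cast; rw [ht, hc1]; ring⟩
    refine ⟨some ⟨J.toNat, hjlt⟩,
      g0 (N * q) (a * q * D0 - N * (b - a * J)) (-a * B0 + b - a * J)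
        (c * q * D0 - N * (d - c * J)) (-c * B0 + d - c * J), ?_⟩
    rw [gl_g0 hg'det hg'dvd, hm]
    show _ = _ * gl N (beta N q (some _))
    rw [gl_beta_some hq hqN]
    simp only [hjcast]
    rw [G2_mul (by rw [hg'det]; norm_num) (by rw [det_beta hq hqN]; norm_num)]
    refine G2_congr ?_ ?_ ?_ ?_
    · linear_combination (-a) * h0
    · linear_combination (-b) * h0
    · linear_combination (-c) * h0
    · linear_combination (-d) * h0

theorem cores_inj {N q : ℕ} (hq : q.Prime) (hqN : ¬ q ∣ N) (x y : Option (Fin q))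
    (g' : Gamma0 (N * q)) (h : coresFam N q x = gl (N * q) g' * coresFam N q y) : x = y := by
  have h1 : beta N q x = incl N q g' * beta N q y := by
    apply gl_injective N
    rw [map_mul, gl_incl]
    exact h
  have hrow : ∀ j : Fin 2, ((beta N q x : Gamma0 N) : SL(2, ℤ)) 1 j
      = (g' : SL(2, ℤ)) 1 0 * ((beta N q y : Gamma0 N) : SL(2, ℤ)) 0 j
        + (g' : SL(2, ℤ)) 1 1 * ((beta N q y : Gamma0 N) : SL(2, ℤ)) 1 j := by
    intro j
    rw [h1]
    exact sl_mul_apply (g' : SL(2, ℤ)) ((beta N q y : Gamma0 N) : SL(2, ℤ)) 1 j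
  have hq' := prime_q hq
  have hqc : (q : ℤ) ∣ (g' : SL(2, ℤ)) 1 0 :=
    (Dvd.intro_left (N : ℤ) (by push_cast; rfl)).trans (mem_Gamma0_iff_dvd.mp g'.2)
  have hdet := det_entries (g' : SL(2, ℤ))
  have h0 := bez hq hqN
  have hone : ∀ i j : Fin 2, ((beta N q none : Gamma0 N) : SL(2, ℤ)) i j
      = (1 : Matrix (Fin 2) (Fin 2) ℤ) i j := fun i j => rfl
  cases x with
  | none =>
    cases y with
    | none => rfl
    | some j =>
      exfalso
      have e := hrow 0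
      rw [hone, (beta_some_entries hq hqN j).1, (beta_some_entries hq hqN j).2.2.1] at e
      simp only [Matrix.one_apply_ne (show (1 : Fin 2) ≠ 0 by decide), mul_one] at e
      have hd : (q : ℤ) ∣ (g' : SL(2, ℤ)) 1 1 * N := by
        have : (g' : SL(2, ℤ)) 1 1 * N = -(g' : SL(2, ℤ)) 1 0 := by linear_combination -e
        rw [this]
        exact (dvd_neg).mpr hqc
      have hd' : (q : ℤ) ∣ (g' : SL(2, ℤ)) 1 1 :=
        (hq'.dvd_or_dvd hd).resolve_right (not_dvd_N hqN)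
      have : (q : ℤ) ∣ 1 := by
        rw [← hdet]
        exact dvd_sub (Dvd.dvd.mul_left hd' _) (Dvd.dvd.mul_left hqc _)
      exact hq'.not_dvd_one this
  | some j =>
    cases y with
    | none =>
      exfalso
      have e := hrow 0
      rw [hone, hone, (beta_some_entries hq hqN j).2.2.1] at e
      simp only [Matrix.one_apply_ne (show (1 : Fin 2) ≠ 0 by decide), Matrix.one_apply_eq,
        mul_one, mul_zero, add_zero] at e
      rw [← e] at hqc
      exact not_dvd_N hqN hqc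
    | some j2 =>
      have e0 := hrow 0
      have e1 := hrow 1
      rw [(beta_some_entries hq hqN j).2.2.1, (beta_some_entries hq hqN j2).1,
        (beta_some_entries hq hqN j2).2.2.1] at e0
      rw [(beta_some_entries hq hqN j).2.2.2, (beta_some_entries hq hqN j2).2.1,
        (beta_some_entries hq hqN j2).2.2.2] at e1
      have key : (N : ℤ) * N * (((j : ℕ) : ℤ) - ((j2 : ℕ) : ℤ)) = -(g' : SL(2, ℤ)) 1 0 := by
        linear_combination (N : ℤ) * e1 - ((N : ℤ) * ((j2 : ℕ) : ℤ) + q * d0 N q) * e0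
          - (g' : SL(2, ℤ)) 1 0 * h0
      have hd : (q : ℤ) ∣ (N : ℤ) * N * (((j : ℕ) : ℤ) - ((j2 : ℕ) : ℤ)) := by
        rw [key]
        exact (dvd_neg).mpr hqc
      have hd' : (q : ℤ) ∣ ((j : ℕ) : ℤ) - ((j2 : ℕ) : ℤ) := by
        rcases hq'.dvd_or_dvd hd with h | h
        · rcases hq'.dvd_or_dvd h with h | h <;> exact absurd h (not_dvd_N hqN)
        · exact h
      have hz : ((j : ℕ) : ℤ) - ((j2 : ℕ) : ℤ) = 0 := by
        apply Int.eq_zero_of_abs_lt_dvd hd'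
        have hj := j.2
        have hj2 := j2.2
        rw [abs_lt]
        constructor <;> omega
      have : (j : ℕ) = (j2 : ℕ) := by omega
      exact congrArg some (Fin.ext this)

theorem isTrFam_cores {N q : ℕ} (hq : q.Prime) (hqN : ¬ q ∣ N) :
    IsTrFam (gl N) (gl (N * q)) (coresFam N q) := by
  apply isTrFam_of_cover_inj
  · intro x γ
    obtain ⟨y, g', h⟩ := cores_cover hq hqN (beta N q x * γ)
    refine ⟨y, g', ?_⟩
    rw [← h, map_mul]
    rfl
  · exact cores_inj hq hqN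


/-! ### The operators -/

section Ops

variable {A : Type*} [AddCommGroup A]

/-- Restriction `Hom(Γ₀(N), A) → Hom(Γ₀(N q), A)`. -/
noncomputable def resOp (N q : ℕ) :
    (Additive (Gamma0 N) →+ A) →+ (Additive (Gamma0 (N * q)) →+ A) :=
  tr (gl_injective N) (isTrFam_res N q)

/-- The Atkin–Lehner operator on `Hom(Γ₀(N q), A)` (transfer along `ω`). -/
noncomputable def wOp {N q : ℕ} (hq : q.Prime) (hqN : ¬ q ∣ N) :
    (Additive (Gamma0 (N * q)) →+ A) →+ (Additive (Gamma0 (N * q)) →+ A) :=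
  tr (gl_injective (N * q)) (isTrFam_w hq hqN)

/-- Corestriction `Hom(Γ₀(N q), A) → Hom(Γ₀(N), A)`. -/
noncomputable def coresOp {N q : ℕ} (hq : q.Prime) (hqN : ¬ q ∣ N) :
    (Additive (Gamma0 (N * q)) →+ A) →+ (Additive (Gamma0 N) →+ A) :=
  tr (gl_injective (N * q)) (isTrFam_cores hq hqN)

/-- `U_q` on `Hom(Γ₀(N q), A)` (transfer along `H56.repU q`). -/
noncomputable def uOp (N : ℕ) {q : ℕ} (hq : q ≠ 0) :
    (Additive (Gamma0 (N * q)) →+ A) →+ (Additive (Gamma0 (N * q)) →+ A) :=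
  tr (gl_injective (N * q)) (isTrFam_U N hq)

/-- `T_q` on `Hom(Γ₀(N), A)` (transfer along `H56.repT q`). -/
noncomputable def tOp {N q : ℕ} (hq : q.Prime) (hqN : ¬ q ∣ N) :
    (Additive (Gamma0 N) →+ A) →+ (Additive (Gamma0 N) →+ A) :=
  tr (gl_injective N) (isTrFam_T hq hqN)

theorem resOp_apply (N q : ℕ) (χ : Additive (Gamma0 N) →+ A) (g : Gamma0 (N * q)) :
    resOp N q χ (Additive.ofMul g) = χ (Additive.ofMul (incl N q g)) :=
  tr_single_apply (gl_injective N) (isTrFam_res N q) χ (by rw [one_mul, mul_one, gl_incl])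

/-- `tOp` is the Hecke transfer of the landed S29 files. -/
theorem isHeckeTr_tOp {N q : ℕ} (hq : q.Prime) (hqN : ¬ q ∣ N) (χ : Additive (Gamma0 N) →+ A) :
    Fermat.Agent.S29.H06.IsHeckeTr N q χ (tOp hq hqN χ) := by
  intro γ σ g' hd
  exact tr_apply (gl_injective N) (isTrFam_T hq hqN) χ hd

/-- The matrix `γ₂ = [[1, b₀],[N, q d₀]]`. -/
noncomputable def gam2 (N q : ℕ) : Gamma0 N := g0 N 1 (b0 N q) N (q * d0 N q)

/-- The matrix `γ₂ γ₁ = [[q + b₀ N, b₀ + b₀ d₀],[N q + q d₀ N, N b₀ + q d₀²]]`, in `Γ₀(N q)`. -/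
noncomputable def gam21 (N q : ℕ) : Gamma0 (N * q) :=
  g0 (N * q) (q + b0 N q * N) (b0 N q + b0 N q * d0 N q) (N * q + q * d0 N q * N)
    (N * b0 N q + q * d0 N q * d0 N q)

theorem det_gam2 {N q : ℕ} (hq : q.Prime) (hqN : ¬ q ∣ N) :
    (1 : ℤ) * (q * d0 N q) - b0 N q * N = 1 := by
  linear_combination bez hq hqN

theorem gl_gam2 {N q : ℕ} (hq : q.Prime) (hqN : ¬ q ∣ N) :
    gl N (gam2 N q) = G2 1 (b0 N q) N (q * d0 N q) :=
  gl_g0 (det_gam2 hq hqN) dvd_rfl

theorem det_gam21 {N q : ℕ} (hq : q.Prime) (hqN : ¬ q ∣ N) :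
    ((q : ℤ) + b0 N q * N) * (N * b0 N q + q * d0 N q * d0 N q)
      - (b0 N q + b0 N q * d0 N q) * (N * q + q * d0 N q * N) = 1 := by
  have h0 := bez hq hqN
  linear_combination ((q : ℤ) * d0 N q - N * b0 N q + 1) * h0

theorem dvd_gam21 (N q : ℕ) : ((N * q : ℕ) : ℤ) ∣ (N : ℤ) * q + q * d0 N q * N :=
  ⟨1 + d0 N q, by push_cast; ring⟩

theorem gl_gam21 {N q : ℕ} (hq : q.Prime) (hqN : ¬ q ∣ N) :
    gl (N * q) (gam21 N q) = G2 (q + b0 N q * N) (b0 N q + b0 N q * d0 N q)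
      (N * q + q * d0 N q * N) (N * b0 N q + q * d0 N q * d0 N q) :=
  gl_g0 (det_gam21 hq hqN) (dvd_gam21 N q)

/-- `ω = γ₂ η`. -/
theorem omega_eq {N q : ℕ} (hq : q.Prime) (hqN : ¬ q ∣ N) :
    omega N q = gl N (gam2 N q) * H56.repT q none := by
  rw [gl_gam2 hq hqN, repT_none hq.ne_zero, omega,
    G2_mul (by rw [det_gam2 hq hqN]; norm_num) (by simpa using q_ne_zero hq)]
  exact G2_congr (by ring) (by ring) (by ring) (by ring)

/-- `η g = g' η` for `g' = η g η⁻¹`. -/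
theorem eta_mul {N q : ℕ} (hq : q.Prime) (g : Gamma0 (N * q)) (g' : Gamma0 N)
    (h : H39.EtaRel q (g : SL(2, ℤ)) (g' : SL(2, ℤ))) :
    H56.repT q none * gl (N * q) g = gl N g' * H56.repT q none := by
  have hq0 : (q : ℤ) * 1 - 0 * 0 ≠ 0 := by simpa using q_ne_zero hq
  have hd := det_entries (g : SL(2, ℤ))
  have hd' := det_entries (g' : SL(2, ℤ))
  obtain ⟨h00, h01, h10, h11⟩ := h
  rw [gl_eq_G2, gl_eq_G2, repT_none hq.ne_zero, G2_mul hq0 (by rw [hd]; norm_num),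
    G2_mul (by rw [hd']; norm_num) hq0]
  refine G2_congr ?_ ?_ ?_ ?_
  · rw [h00]; ring
  · rw [h01]; ring
  · linear_combination -h10
  · rw [h11]; ring

/-- `(w (res χ))(g) = χ(η g η⁻¹)`: the second component of the hypothesis (C) of `H39.IhAt`. -/
theorem wOp_resOp_apply {N q : ℕ} (hq : q.Prime) (hqN : ¬ q ∣ N) (χ : Additive (Gamma0 N) →+ A)
    (g : Gamma0 (N * q)) (g' : Gamma0 N) (h : H39.EtaRel q (g : SL(2, ℤ)) (g' : SL(2, ℤ))) :
    wOp hq hqN (resOp N q χ) (Additive.ofMul g) = χ (Additive.ofMul g') := by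
  have h1 := (isTrFam_w hq hqN).comp (isTrFam_res N q)
  have e1 : wOp hq hqN (resOp N q χ) = tr (gl_injective N) h1 χ :=
    tr_comp (gl_injective (N * q)) (gl_injective N) (isTrFam_w hq hqN) (isTrFam_res N q) h1 χ
  have hd : IsDec (gl (N * q)) (gl N) (fun p : Unit × Unit => (1 : GL (Fin 2) ℝ) * omega N q) g
      (Equiv.refl _) (fun _ => gam2 N q * g' * (gam2 N q)⁻¹) := by
    intro p
    show 1 * omega N q * gl (N * q) g = gl N (gam2 N q * g' * (gam2 N q)⁻¹) * (1 * omega N q)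
    rw [one_mul, omega_eq hq hqN, mul_assoc, eta_mul hq g g' h, map_mul, map_mul, map_inv]
    group
  rw [e1, tr_apply (gl_injective N) h1 χ hd]
  simp only [ofMul_mul, ofMul_inv, map_add, map_neg]
  rw [Finset.sum_const, Finset.card_univ]
  simp

/-- `X ≃ X × (Unit × Unit)`. -/
def eqvUU (X : Type*) : X ≃ X × (Unit × Unit) where
  toFun x := (x, ((), ()))
  invFun p := p.1
  left_inv _ := rfl
  right_inv _ := rfl

/-- (1) `cores ∘ res = q + 1`. -/
theorem coresOp_resOp {N q : ℕ} (hq : q.Prime) (hqN : ¬ q ∣ N) (χ : Additive (Gamma0 N) →+ A) :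
    coresOp hq hqN (resOp N q χ) = (q + 1) • χ := by
  have h1 := (isTrFam_cores hq hqN).comp (isTrFam_res N q)
  have e1 : coresOp hq hqN (resOp N q χ) = tr (gl_injective N) h1 χ :=
    tr_comp (gl_injective (N * q)) (gl_injective N) (isTrFam_cores hq hqN) (isTrFam_res N q) h1 χ
  have hr : IsTrFam (gl N) (gl N) (fun p : Option (Fin q) × Unit => gl N (beta N q p.1)) :=
    isTrFam_of_range (gl N) (fun p : Option (Fin q) × Unit => beta N q p.1)
  have e2 : (tr (gl_injective N) h1 : (Additive (Gamma0 N) →+ A) →+ _) = tr (gl_injective N) hr :=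
    tr_congr (gl_injective N) hr h1 (Equiv.refl _) (fun _ => 1) (fun p => by
      show 1 * coresFam N q p.1 = gl N 1 * gl N (beta N q p.1)
      rw [map_one]; rfl)
  rw [e1, e2, tr_of_range (gl_injective N) (fun p : Option (Fin q) × Unit => beta N q p.1) hr χ]
  simp [Fintype.card_prod, Fintype.card_option]

/-- (2) `cores ∘ w ∘ res = T_q`. -/
theorem coresOp_wOp_resOp {N q : ℕ} (hq : q.Prime) (hqN : ¬ q ∣ N)
    (χ : Additive (Gamma0 N) →+ A) :
    coresOp hq hqN (wOp hq hqN (resOp N q χ)) = tOp hq hqN χ := by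
  have h0 := bez hq hqN
  have h1 := (isTrFam_w hq hqN).comp (isTrFam_res N q)
  have h2 := (isTrFam_cores hq hqN).comp h1
  have e1 : wOp hq hqN (resOp N q χ) = tr (gl_injective N) h1 χ :=
    tr_comp (gl_injective (N * q)) (gl_injective N) (isTrFam_w hq hqN) (isTrFam_res N q) h1 χ
  have e2 : coresOp hq hqN (tr (gl_injective N) h1 χ) = tr (gl_injective N) h2 χ :=
    tr_comp (gl_injective (N * q)) (gl_injective N) (isTrFam_cores hq hqN) h1 h2 χ
  have e3 : (tr (gl_injective N) h2 : (Additive (Gamma0 N) →+ A) →+ _)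
      = tr (gl_injective N) (isTrFam_T hq hqN) :=
    tr_congr (gl_injective N) (isTrFam_T hq hqN) h2
      (eqvUU (Option (Fin q)))
      (fun x => x.elim (gam2 N q) (fun _ => incl N q (gam21 N q))) (fun x => by
        show 1 * omega N q * coresFam N q x = _
        cases x with
        | none =>
          show 1 * omega N q * gl N 1 = gl N (gam2 N q) * H56.repT q none
          rw [map_one, mul_one, one_mul, omega_eq hq hqN]
        | some j =>
          show 1 * omega N q * gl N (beta N q (some j))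
            = gl N (incl N q (gam21 N q)) * H56.repT q (some j)
          rw [one_mul, gl_beta_some hq hqN, gl_incl, gl_gam21 hq hqN, repT_some hq.ne_zero, omega,
            G2_mul (det_omega hq hqN) (by rw [det_beta hq hqN]; norm_num),
            G2_mul (by rw [det_gam21 hq hqN]; norm_num) (by simpa using q_ne_zero hq)]
          exact G2_congr (by ring) (by ring) (by ring) (by ring))
  rw [e1, e2, e3]
  rfl

/-- `ω² = q · γ₂γ₁`. -/
theorem omega_sq {N q : ℕ} (hq : q.Prime) (hqN : ¬ q ∣ N) :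
    omega N q * omega N q = G2 q 0 0 q * gl (N * q) (gam21 N q) := by
  have hqq : (q : ℤ) * q - 0 * 0 ≠ 0 := by
    simpa using mul_ne_zero (q_ne_zero hq) (q_ne_zero hq)
  rw [gl_gam21 hq hqN, omega, G2_mul (det_omega hq hqN) (det_omega hq hqN),
    G2_mul hqq (by rw [det_gam21 hq hqN]; norm_num)]
  exact G2_congr (by ring) (by ring) (by ring) (by ring)

/-- (3) `w ∘ w = id`. -/
theorem wOp_wOp {N q : ℕ} (hq : q.Prime) (hqN : ¬ q ∣ N)
    (ψ : Additive (Gamma0 (N * q)) →+ A) : wOp hq hqN (wOp hq hqN ψ) = ψ := by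
  have h1 := (isTrFam_w hq hqN).comp (isTrFam_w hq hqN)
  have e1 : wOp hq hqN (wOp hq hqN ψ) = tr (gl_injective (N * q)) h1 ψ :=
    tr_comp (gl_injective (N * q)) (gl_injective (N * q)) (isTrFam_w hq hqN) (isTrFam_w hq hqN)
      h1 ψ
  have hr : IsTrFam (gl (N * q)) (gl (N * q)) (fun _ : Unit × Unit => gl (N * q) (gam21 N q)) :=
    isTrFam_of_range (gl (N * q)) (fun _ : Unit × Unit => gam21 N q)
  have hcomm := G2_scalar_comm (q : ℤ) (q_ne_zero hq)
  have hz := hr.central (G2 q 0 0 q) hcomm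
  have e2 : (tr (gl_injective (N * q)) h1 : (Additive (Gamma0 (N * q)) →+ A) →+ _)
      = tr (gl_injective (N * q)) hz :=
    tr_congr (gl_injective (N * q)) hz h1 (Equiv.refl _) (fun _ => 1) (fun p => by
      show omega N q * omega N q = gl (N * q) 1 * (G2 q 0 0 q * gl (N * q) (gam21 N q))
      rw [map_one, one_mul, omega_sq hq hqN])
  have e3 : (tr (gl_injective (N * q)) hz : (Additive (Gamma0 (N * q)) →+ A) →+ _)
      = tr (gl_injective (N * q)) hr :=
    tr_central (gl_injective (N * q)) (G2 q 0 0 q) hcomm hr hz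
  rw [e1, e2, e3, tr_of_range (gl_injective (N * q)) (fun _ : Unit × Unit => gam21 N q) hr ψ]
  simp

/-- `Unit ⊕ (Fin q × Unit) ≃ Unit × Option (Fin q)`. -/
def eqvSum (q : ℕ) : Unit ⊕ (Fin q × Unit) ≃ Unit × Option (Fin q) where
  toFun x := x.elim (fun _ => ((), none)) (fun p => ((), some p.1))
  invFun p := p.2.elim (Sum.inl ()) (fun j => Sum.inr (j, ()))
  left_inv x := by
    rcases x with ⟨⟩ | ⟨j, ⟨⟩⟩ <;> rfl
  right_inv p := by
    rcases p with ⟨⟨⟩, _ | j⟩ <;> rfl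

/-- `ω · repU j = q · β_j`. -/
theorem omega_repU {N q : ℕ} (hq : q.Prime) (hqN : ¬ q ∣ N) (j : Fin q) :
    omega N q * H56.repU q j = G2 q 0 0 q * coresFam N q (some j) := by
  have hqq : (q : ℤ) * q - 0 * 0 ≠ 0 := by
    simpa using mul_ne_zero (q_ne_zero hq) (q_ne_zero hq)
  show _ = _ * gl N (beta N q (some j))
  rw [gl_beta_some hq hqN, repU_eq hq.ne_zero, omega,
    G2_mul (det_omega hq hqN) (by simpa using q_ne_zero hq),
    G2_mul hqq (by rw [det_beta hq hqN]; norm_num)]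
  exact G2_congr (by ring) (by ring) (by ring) (by ring)

/-- (4) Mackey: `res ∘ cores = id + U_q ∘ w`. -/
theorem resOp_coresOp {N q : ℕ} (hq : q.Prime) (hqN : ¬ q ∣ N)
    (ψ : Additive (Gamma0 (N * q)) →+ A) :
    resOp N q (coresOp hq hqN ψ) = ψ + uOp N hq.ne_zero (wOp hq hqN ψ) := by
  have h1 := (isTrFam_res N q).comp (isTrFam_cores hq hqN)
  have h2 := (isTrFam_U N hq.ne_zero).comp (isTrFam_w hq hqN)
  have e1 : resOp N q (coresOp hq hqN ψ) = tr (gl_injective (N * q)) h1 ψ :=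
    tr_comp (gl_injective N) (gl_injective (N * q)) (isTrFam_res N q) (isTrFam_cores hq hqN) h1 ψ
  have e2 : uOp N hq.ne_zero (wOp hq hqN ψ) = tr (gl_injective (N * q)) h2 ψ :=
    tr_comp (gl_injective (N * q)) (gl_injective (N * q)) (isTrFam_U N hq.ne_zero)
      (isTrFam_w hq hqN) h2 ψ
  have hcomm := G2_scalar_comm (q : ℤ) (q_ne_zero hq)
  have hcomm' : ∀ g : GL (Fin 2) ℝ, (G2 q 0 0 q)⁻¹ * g = g * (G2 q 0 0 q)⁻¹ := by
    intro g
    rw [eq_mul_inv_iff_mul_eq, mul_assoc, ← hcomm g, ← mul_assoc, inv_mul_cancel, one_mul]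
  -- the family `q · β_j`
  have hF1z : IsTrFam (gl (N * q)) (gl (N * q))
      (fun p : Fin q × Unit => G2 q 0 0 q * coresFam N q (some p.1)) :=
    h2.congr (Equiv.refl _) (fun _ => 1) (fun p => by
      show G2 q 0 0 q * coresFam N q (some p.1) = gl (N * q) 1 * (omega N q * H56.repU q p.1)
      rw [map_one, one_mul, omega_repU hq hqN])
  -- the family `β_j`
  have hF1 : IsTrFam (gl (N * q)) (gl (N * q))
      (fun p : Fin q × Unit => coresFam N q (some p.1)) :=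
    (hF1z.central (G2 q 0 0 q)⁻¹ hcomm').congr (Equiv.refl _) (fun _ => 1) (fun p => by
      show coresFam N q (some p.1)
        = gl (N * q) 1 * ((G2 q 0 0 q)⁻¹ * (G2 q 0 0 q * coresFam N q (some p.1)))
      rw [map_one, one_mul, inv_mul_cancel_left])
  have hF1z' := hF1.central (G2 q 0 0 q) hcomm
  have hone : IsTrFam (gl (N * q)) (gl (N * q)) (fun _ : Unit => gl (N * q) 1) :=
    isTrFam_of_range (gl (N * q)) (fun _ : Unit => (1 : Gamma0 (N * q)))
  have hsum := hone.sumElim hF1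
  have e3 : (tr (gl_injective (N * q)) h1 : (Additive (Gamma0 (N * q)) →+ A) →+ _)
      = tr (gl_injective (N * q)) hsum :=
    tr_congr (gl_injective (N * q)) hsum h1 (eqvSum q) (fun _ => 1) (fun x => by
      rcases x with ⟨⟩ | ⟨j, ⟨⟩⟩
      · show coresFam N q none * 1 = gl (N * q) 1 * gl (N * q) 1
        show gl N 1 * 1 = _
        rw [map_one, map_one]
      · show coresFam N q (some j) * 1 = gl (N * q) 1 * coresFam N q (some j)
        rw [map_one, one_mul, mul_one])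
  have e4 : tr (gl_injective (N * q)) hone ψ = ψ := by
    rw [tr_of_range (gl_injective (N * q)) (fun _ : Unit => (1 : Gamma0 (N * q))) hone ψ]
    simp
  have e5 : (tr (gl_injective (N * q)) hF1z' : (Additive (Gamma0 (N * q)) →+ A) →+ _)
      = tr (gl_injective (N * q)) hF1 :=
    tr_central (gl_injective (N * q)) (G2 q 0 0 q) hcomm hF1 hF1z'
  have e6 : (tr (gl_injective (N * q)) hF1z' : (Additive (Gamma0 (N * q)) →+ A) →+ _)
      = tr (gl_injective (N * q)) h2 :=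
    tr_congr (gl_injective (N * q)) h2 hF1z' (Equiv.refl _) (fun _ => 1) (fun p => by
      show G2 q 0 0 q * coresFam N q (some p.1) = gl (N * q) 1 * (omega N q * H56.repU q p.1)
      rw [map_one, one_mul, omega_repU hq hqN])
  rw [e1, e3, tr_sumElim (gl_injective (N * q)) hone hF1 hsum ψ, e4, e2, ← e6, e5]

/-- `U_q² = 1` on the kernel of `j = (cores, cores ∘ w)`. -/
theorem uOp_uOp_of_ker {N q : ℕ} (hq : q.Prime) (hqN : ¬ q ∣ N)
    (ψ : Additive (Gamma0 (N * q)) →+ A) (h1 : coresOp hq hqN ψ = 0)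
    (h2 : coresOp hq hqN (wOp hq hqN ψ) = 0) :
    uOp N hq.ne_zero (uOp N hq.ne_zero ψ) = ψ := by
  have e1 := resOp_coresOp hq hqN ψ
  have e2 := resOp_coresOp hq hqN (wOp hq hqN ψ)
  rw [h1, map_zero] at e1
  rw [h2, map_zero, wOp_wOp] at e2
  -- e1 : 0 = ψ + U (w ψ),  e2 : 0 = w ψ + U ψ
  have e3 : wOp hq hqN ψ = -uOp N hq.ne_zero ψ := eq_neg_of_add_eq_zero_left e2.symm
  rw [e3, map_neg] at e1
  exact (sub_eq_zero.mp (by rw [sub_eq_add_neg]; exact e1.symm)).symm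

/-- `j ∘ i`, first component: `cores (res x + w (res y)) = (q+1) x + T_q y`. -/
theorem coresOp_i {N q : ℕ} (hq : q.Prime) (hqN : ¬ q ∣ N) (x y : Additive (Gamma0 N) →+ A) :
    coresOp hq hqN (resOp N q x + wOp hq hqN (resOp N q y)) = (q + 1) • x + tOp hq hqN y := by
  rw [map_add, coresOp_resOp, coresOp_wOp_resOp]

/-- `j ∘ i`, second component: `cores (w (res x + w (res y))) = T_q x + (q+1) y`. -/
theorem coresOp_wOp_i {N q : ℕ} (hq : q.Prime) (hqN : ¬ q ∣ N) (x y : Additive (Gamma0 N) →+ A) :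
    coresOp hq hqN (wOp hq hqN (resOp N q x + wOp hq hqN (resOp N q y)))
      = tOp hq hqN x + (q + 1) • y := by
  rw [map_add, map_add, wOp_wOp, coresOp_resOp, coresOp_wOp_resOp]

end Ops

end Fermat.Agent.S41.H19
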