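import Mathlib
import Fermat.Prelude.Def_ModularCurve_PeriodMap
import Fermat.Agent.S41.Isect_helper11
import Fermat.Agent.S41.LevelOps_helper19
import Fermat.Agent.S41.IhEigen_helper91

/-!
# S41, node (C), route C-I, top: the evaluation form of the dual of Ihara's lemma (`hkey`)

`Γ = Γ₀(N)`, `Γ' = Γ₀(N q)`, `⟨g, γ⟩_Γ = H11.ipair Γ g γ` the intersection form.

* `zR h2 Γ g₀ = ⟨g₀, ·⟩_Γ` (second slot, a homomorphism by `H11.isect_mul`);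
  `zL h2 h3 Γ γ = ⟨·, γ⟩_Γ` (first slot, a homomorphism by `H11.ipair_mul_left`).
* the leaves, as literal `Prop`s: `ParRStmt`, `ParLStmt` (the form kills parabolic elements in
  the second / first slot), `CoresStmt`, `CoresWStmt` (the two adjunctions for `cores` and
  `cores ∘ w`), `SAStmt` (`T_r` is self-adjoint), `InjRStmt` (non-degeneracy modulo `p` against
  the parabolic characters).
* `hkey_concrete`: from the leaves and Ihara's lemma (`H91.ih_heckeTr_int`): if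
  `(cores z)(γ₁) + (cores (w z))(γ₂) ≡ 0 (p)` for all parabolic `z` on `Γ'`, then
  `((T_r - (r+1)) lam₁)(γ₁) + ((T_r - (r+1)) lam₂)(γ₂) ≡ 0 (p)` for all parabolic `lam₁ lam₂`
  on `Γ`.  This is the hypothesis `hkey` of `H39.hDual_of_eval`.
-/

set_option autoImplicit false

namespace Fermat.Agent.S41.H39

open CongruenceSubgroup Matrix
open scoped MatrixGroups
open Fermat.Agent
open ModularCurve.Period

/-- The intersection form as a character in the second slot: `γ ↦ ⟨g₀, γ⟩_Γ`. -/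
noncomputable def zR (h2 : H11.Fin2Stmt) (Γ : Subgroup SL(2, ℤ)) (g₀ : SL(2, ℤ)) :
    Additive Γ →+ ℤ :=
  H11.isectHom h2 Γ ![1, 0] (g₀.1 *ᵥ ![1, 0])

theorem zR_apply (h2 : H11.Fin2Stmt) (Γ : Subgroup SL(2, ℤ)) (g₀ : SL(2, ℤ)) (γ : Γ) :
    zR h2 Γ g₀ (Additive.ofMul γ) = H11.ipair Γ g₀ (γ : SL(2, ℤ)) := rfl

/-- The intersection form as a character in the first slot: `g ↦ ⟨g, γ⟩_Γ`. -/
noncomputable def zL (h2 : H11.Fin2Stmt) (h3 : H11.Fin3Stmt) (Γ : Subgroup SL(2, ℤ)) (γ : Γ) :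
    Additive Γ →+ ℤ :=
  AddMonoidHom.mk'
    (fun g => H11.ipair Γ ((Additive.toMul g : Γ) : SL(2, ℤ)) (γ : SL(2, ℤ)))
    (fun a _ => H11.ipair_mul_left h2 h3 Γ (Additive.toMul a : Γ).2 _ γ.2)

theorem zL_apply (h2 : H11.Fin2Stmt) (h3 : H11.Fin3Stmt) (Γ : Subgroup SL(2, ℤ)) (γ g : Γ) :
    zL h2 h3 Γ γ (Additive.ofMul g) = H11.ipair Γ (g : SL(2, ℤ)) (γ : SL(2, ℤ)) := rfl

/-- (PAR-R) at level `M`: the form kills the parabolic elements in the second slot. -/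
def ParRStmt (M : ℕ) : Prop :=
  ∀ g π : Gamma0 M, ((π : SL(2, ℤ)) : Matrix (Fin 2) (Fin 2) ℤ).trace ^ 2 = 4 →
    H11.ipair (Gamma0 M) (g : SL(2, ℤ)) (π : SL(2, ℤ)) = 0

/-- (PAR-L) at level `M`: the form kills the parabolic elements in the first slot. -/
def ParLStmt (M : ℕ) : Prop :=
  ∀ π γ : Gamma0 M, ((π : SL(2, ℤ)) : Matrix (Fin 2) (Fin 2) ℤ).trace ^ 2 = 4 →
    H11.ipair (Gamma0 M) (π : SL(2, ℤ)) (γ : SL(2, ℤ)) = 0

/-- (ADJ-cores): `cores ⟨g₀, ·⟩_Γ' = ⟨g₀, ·⟩_Γ`. -/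
def CoresStmt (h2 : H11.Fin2Stmt) {N q : ℕ} (hq : q.Prime) (hqN : ¬ q ∣ N) : Prop :=
  ∀ (g₀ : Gamma0 (N * q)) (γ : Gamma0 N),
    H19.coresOp hq hqN (zR h2 (Gamma0 (N * q)) (g₀ : SL(2, ℤ))) (Additive.ofMul γ) =
      H11.ipair (Gamma0 N) (g₀ : SL(2, ℤ)) (γ : SL(2, ℤ))

/-- (ADJ-cores) + (ADJ-conj): `cores (w ⟨g₀, ·⟩_Γ') = ⟨ω⁻¹ g₀ ω, ·⟩_Γ`. -/
def CoresWStmt (h2 : H11.Fin2Stmt) {N q : ℕ} (hq : q.Prime) (hqN : ¬ q ∣ N) : Prop :=
  ∀ g₀ g₁ : Gamma0 (N * q),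
    H19.omega N q * H19.gl (N * q) g₁ = H19.gl (N * q) g₀ * H19.omega N q →
    ∀ γ : Gamma0 N,
      H19.coresOp hq hqN (H19.wOp hq hqN (zR h2 (Gamma0 (N * q)) (g₀ : SL(2, ℤ))))
          (Additive.ofMul γ) =
        H11.ipair (Gamma0 N) (g₁ : SL(2, ℤ)) (γ : SL(2, ℤ))

/-- (SA): `T_r` in the first slot is `T_r` in the second slot. -/
def SAStmt (h2 : H11.Fin2Stmt) (h3 : H11.Fin3Stmt) {N r : ℕ} (hr : r.Prime) (hrN : ¬ r ∣ N) :
    Prop :=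
  ∀ g₀ γ : Gamma0 N,
    S29.H06.heckeTr hr hrN (zL h2 h3 (Gamma0 N) γ) (Additive.ofMul g₀) =
      S29.H06.heckeTr hr hrN (zR h2 (Gamma0 N) (g₀ : SL(2, ℤ))) (Additive.ofMul γ)

/-- (INJ-right): non-degeneracy of the form modulo `p` against the parabolic characters. -/
def InjRStmt (N p : ℕ) : Prop :=
  ∀ w : Gamma0 N,
    (∀ δ : Gamma0 N, (p : ℤ) ∣ H11.ipair (Gamma0 N) (δ : SL(2, ℤ)) (w : SL(2, ℤ))) →
    ∀ ψ : Additive (Gamma0 N) →+ ℤ, IsParabolicHom (Gamma0 N) ψ →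
      (p : ℤ) ∣ ψ (Additive.ofMul w)

/-- A transfer computes as the value at one group element: for a `T_r`-decomposition `(σ, g')`
of `γ` there is `w` with `χ w = (T_r χ)(γ) - (r+1) χ(γ)` for every character `χ`. -/
theorem exists_heckeElt {N r : ℕ} (hr : r.Prime) (hrN : ¬ r ∣ N) (γ : Gamma0 N) :
    ∃ w : Gamma0 N, ∀ χ : Additive (Gamma0 N) →+ ℤ,
      χ (Additive.ofMul w) =
        S29.H06.heckeTr hr hrN χ (Additive.ofMul γ) - ((r : ℤ) + 1) * χ (Additive.ofMul γ) := by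
  obtain ⟨σ, g', hd⟩ := S29.H06.exists_isDecomp hr hrN γ
  let W : Additive (Gamma0 N) :=
    ((Finset.univ : Finset (Option (Fin r))).toList.map fun x => Additive.ofMul (g' x)).sum +
      (r + 1) • (-Additive.ofMul γ)
  refine ⟨Additive.toMul W, fun χ => ?_⟩
  have h1 := S29.H06.isHeckeTr_heckeTr hr hrN χ γ σ g' hd
  rw [h1]
  show χ W = _
  rw [map_add, map_list_sum, List.map_map, map_nsmul, map_neg]
  have h2 : (List.map (⇑χ ∘ fun x => Additive.ofMul (g' x))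
      (Finset.univ : Finset (Option (Fin r))).toList).sum =
      ∑ x, χ (Additive.ofMul (g' x)) :=
    Finset.sum_map_toList _ (fun x => χ (Additive.ofMul (g' x)))
  rw [h2, nsmul_eq_mul]
  push_cast
  ring

/-- **The evaluation form of dual Ihara** (`hkey` of `H39.hDual_of_eval`) from the leaves of
route C-I and Ihara's lemma. -/
theorem hkey_concrete (h2 : H11.Fin2Stmt) (h3 : H11.Fin3Stmt) {N q p r : ℕ} (hN : 0 < N)
    (hq : q.Prime) (hqN : ¬ q ∣ N) (hp : p.Prime) (hp2 : p ≠ 2) (hr : r.Prime) (hrN : ¬ r ∣ N)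
    (hParR : ParRStmt (N * q)) (hParL : ParLStmt N)
    (hC1 : CoresStmt h2 hq hqN) (hC2 : CoresWStmt h2 hq hqN) (hSA : SAStmt h2 h3 hr hrN)
    (hInj : InjRStmt N p) (γ₁ γ₂ : Gamma0 N)
    (h : ∀ z : Additive (Gamma0 (N * q)) →+ ℤ, IsParabolicHom (Gamma0 (N * q)) z →
      (p : ℤ) ∣ H19.coresOp hq hqN z (Additive.ofMul γ₁) +
        H19.coresOp hq hqN (H19.wOp hq hqN z) (Additive.ofMul γ₂))
    (lam₁ lam₂ : Additive (Gamma0 N) →+ ℤ) (hl₁ : IsParabolicHom (Gamma0 N) lam₁)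
    (hl₂ : IsParabolicHom (Gamma0 N) lam₂) :
    (p : ℤ) ∣
      (S29.H06.heckeTr hr hrN lam₁ (Additive.ofMul γ₁) - ((r : ℤ) + 1) * lam₁ (Additive.ofMul γ₁)) +
      (S29.H06.heckeTr hr hrN lam₂ (Additive.ofMul γ₂) - ((r : ℤ) + 1) * lam₂ (Additive.ofMul γ₂))
    := by
  set x₁ : Additive (Gamma0 N) →+ ℤ := zL h2 h3 (Gamma0 N) γ₁ with hx₁
  set x₂ : Additive (Gamma0 N) →+ ℤ := zL h2 h3 (Gamma0 N) γ₂ with hx₂
  have hpar₁ : IsParabolicHom (Gamma0 N) x₁ := fun π hπ => hParL π γ₁ hπ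
  have hpar₂ : IsParabolicHom (Gamma0 N) x₂ := fun π hπ => hParL π γ₂ hπ
  -- Step A: the hypothesis, tested against `z = ⟨g₀, ·⟩_Γ'`
  have hA : ∀ g₁ : Gamma0 (N * q),
      (p : ℤ) ∣ x₂ (Additive.ofMul (H19.incl N q g₁)) +
        H19.wOp hq hqN (H19.resOp N q x₁) (Additive.ofMul g₁) := by
    intro g₁
    obtain ⟨g₀, hω⟩ := H19.omega_conj hq hqN g₁
    have hz : IsParabolicHom (Gamma0 (N * q)) (zR h2 (Gamma0 (N * q)) (g₀ : SL(2, ℤ))) :=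
      fun π hπ => hParR g₀ π hπ
    have h1 := h _ hz
    rw [hC1 g₀ γ₁, hC2 g₀ g₁ hω γ₂] at h1
    have e1 : H19.wOp hq hqN (H19.resOp N q x₁) (Additive.ofMul g₁) =
        H11.ipair (Gamma0 N) (g₀ : SL(2, ℤ)) (γ₁ : SL(2, ℤ)) := by
      have := H06.tr_single_apply (H19.gl_injective (N * q)) (H19.isTrFam_w hq hqN)
        (H19.resOp N q x₁) hω
      rw [H19.wOp, this, H19.resOp_apply]
      rfl
    rw [e1, add_comm]
    exact h1
  -- Step B: the hypothesis of Ihara's lemma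
  have hC : ∀ g g' : Gamma0 N, EtaRel q (g : SL(2, ℤ)) (g' : SL(2, ℤ)) →
      (p : ℤ) ∣ x₂ (Additive.ofMul g) + x₁ (Additive.ofMul g') := by
    intro g g' hgg'
    have hmem : (g : SL(2, ℤ)) ∈ Gamma0 (N * q) := by
      rw [H19.mem_Gamma0_iff_dvd]
      exact H19.Nq_dvd hq hqN (H19.mem_Gamma0_iff_dvd.mp g.2) ⟨_, hgg'.2.2.1.symm⟩
    have h1 := hA ⟨(g : SL(2, ℤ)), hmem⟩
    have e1 : H19.incl N q ⟨(g : SL(2, ℤ)), hmem⟩ = g := Subtype.ext rfl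
    rw [e1, H19.wOp_resOp_apply hq hqN x₁ ⟨(g : SL(2, ℤ)), hmem⟩ g' hgg'] at h1
    exact h1
  -- Step C: Ihara
  obtain ⟨v₂, v₁, hv₂, hv₁, -, -⟩ := H91.ih_heckeTr_int hN hq hqN hp hp2 hr hrN x₂ x₁
    (S29.H06.heckeTr hr hrN x₂) (S29.H06.heckeTr hr hrN x₁) hpar₂ hpar₁ hC
    (S29.H06.isHeckeTr_heckeTr hr hrN x₂) (S29.H06.isHeckeTr_heckeTr hr hrN x₁)
  -- Steps D, E for one index
  have key : ∀ (γ : Gamma0 N) (v : Additive (Gamma0 N) →+ ℤ),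
      S29.H06.heckeTr hr hrN (zL h2 h3 (Gamma0 N) γ) - (r + 1) • zL h2 h3 (Gamma0 N) γ = p • v →
      ∀ lam : Additive (Gamma0 N) →+ ℤ, IsParabolicHom (Gamma0 N) lam →
        (p : ℤ) ∣ S29.H06.heckeTr hr hrN lam (Additive.ofMul γ) -
          ((r : ℤ) + 1) * lam (Additive.ofMul γ) := by
    intro γ v hv lam hlam
    obtain ⟨w, hw⟩ := exists_heckeElt hr hrN γ
    rw [← hw lam]
    refine hInj w (fun δ => ?_) lam hlam
    have h1 := hw (zR h2 (Gamma0 N) (δ : SL(2, ℤ)))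
    rw [zR_apply] at h1
    rw [h1, ← hSA δ γ, zR_apply]
    have h3' := congrArg (fun f : Additive (Gamma0 N) →+ ℤ => f (Additive.ofMul δ)) hv
    simp only [AddMonoidHom.sub_apply, AddMonoidHom.nsmul_apply, nsmul_eq_mul, zL_apply] at h3'
    push_cast at h3'
    rw [h3']
    exact dvd_mul_right _ _
  exact dvd_add (key γ₁ v₁ hv₁ lam₁ hl₁) (key γ₂ v₂ hv₂ lam₂ hl₂)

end Fermat.Agent.S41.H39
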