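import Mathlib
import Fermat.Agent.S41.IsectDef_helper11

/-!
# S41, node (C), leaf I2 (helper69): the two finiteness lemmas of the intersection form

Pure integer arithmetic on pairs of vectors of `ℤ²` and positive definite binary forms
`Q(u, w) = A u₀w₀ + B (u₀w₁ + u₁w₀) + C u₁w₁` (`0 < A`, `0 < A C - B²`).

* `finite_sign_ne` **(FIN)** : two positive definite forms give the same sign on all but finitely
  many pairs `(u, w)` of a fixed nonzero determinant (linear interpolation of the two forms plus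
  the Gram identity; no real numbers).
* `finite_tri_ne` **(TRI)** : for fixed nonzero pairwise determinants the three side signs of a
  triangle `(u, v, w)` add up to `- sign (d₁ d₂ d₃)` for all but finitely many triangles.
* `fin2`, `fin3` : the same in the literal shapes of `IsectDef_helper11` (`Fin 2 → ℤ`, `bform`,
  `det2`, `sg`, a second base point `α *ᵥ ·`).
-/

set_option autoImplicit false

namespace Fermat.Agent.S41.H69

/-- The symmetric bilinear form `A u₀w₀ + B (u₀w₁ + u₁w₀) + C u₁w₁` on `ℤ²`. -/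
def qf (A B C : ℤ) (u w : ℤ × ℤ) : ℤ :=
  A * (u.1 * w.1) + B * (u.1 * w.2 + u.2 * w.1) + C * (u.2 * w.2)

/-- The determinant of two integer vectors. -/
def dt (u w : ℤ × ℤ) : ℤ := u.1 * w.2 - u.2 * w.1

theorem qf_comm (A B C : ℤ) (u w : ℤ × ℤ) : qf A B C u w = qf A B C w u := by
  unfold qf; ring

theorem dt_swap (u w : ℤ × ℤ) : dt w u = - dt u w := by
  unfold dt; ring

theorem qf_gram (A B C : ℤ) (u w : ℤ × ℤ) :
    qf A B C u u * qf A B C w w - qf A B C u w ^ 2 = (A * C - B ^ 2) * dt u w ^ 2 := by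
  unfold qf dt; ring

theorem mul_qf_self (A B C : ℤ) (v : ℤ × ℤ) :
    A * qf A B C v v = (A * v.1 + B * v.2) ^ 2 + (A * C - B ^ 2) * v.2 ^ 2 := by
  unfold qf; ring

theorem mul_qf_self' (A B C : ℤ) (v : ℤ × ℤ) :
    C * qf A B C v v = (B * v.1 + C * v.2) ^ 2 + (A * C - B ^ 2) * v.1 ^ 2 := by
  unfold qf; ring

theorem qf_self_nonneg {A B C : ℤ} (hA : 0 < A) (hd : 0 < A * C - B ^ 2) (v : ℤ × ℤ) :
    0 ≤ qf A B C v v := by
  have h := mul_qf_self A B C v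
  have h2 : 0 ≤ A * qf A B C v v := by
    rw [h]; positivity
  exact nonneg_of_mul_nonneg_right h2 hA

theorem pos_C {A B C : ℤ} (hA : 0 < A) (hd : 0 < A * C - B ^ 2) : 0 < C := by
  by_contra hC
  rw [not_lt] at hC
  have : A * C ≤ 0 := mul_nonpos_of_nonneg_of_nonpos hA.le hC
  nlinarith [sq_nonneg B]

theorem qf_self_pos {A B C : ℤ} (hA : 0 < A) (hd : 0 < A * C - B ^ 2) {v : ℤ × ℤ} (hv : v ≠ 0) :
    0 < qf A B C v v := by
  rcases (qf_self_nonneg hA hd v).lt_or_eq with h | h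
  · exact h
  · exfalso
    have h1 := mul_qf_self A B C v
    rw [← h, mul_zero] at h1
    have h2 : (A * C - B ^ 2) * v.2 ^ 2 = 0 := by nlinarith [sq_nonneg (A * v.1 + B * v.2), mul_nonneg hd.le (sq_nonneg v.2)]
    have h3 : v.2 = 0 := by
      rcases mul_eq_zero.mp h2 with h | h
      · omega
      · exact pow_eq_zero_iff (two_ne_zero) |>.mp h
    have h4 : (A * v.1 + B * v.2) ^ 2 = 0 := by nlinarith [sq_nonneg (A * v.1 + B * v.2), mul_nonneg hd.le (sq_nonneg v.2)]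
    have h5 : A * v.1 + B * v.2 = 0 := pow_eq_zero_iff (two_ne_zero) |>.mp h4
    rw [h3, mul_zero, add_zero] at h5
    have h6 : v.1 = 0 := by
      rcases mul_eq_zero.mp h5 with h | h
      · omega
      · exact h
    exact hv (Prod.ext h6 h3)

/-- Coordinates are bounded by the value of a positive definite form. -/
theorem coord_sq_le {A B C : ℤ} (hd : 0 < A * C - B ^ 2) (v : ℤ × ℤ) :
    v.1 ^ 2 ≤ C * qf A B C v v ∧ v.2 ^ 2 ≤ A * qf A B C v v := by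
  constructor
  · rw [mul_qf_self']
    nlinarith [sq_nonneg (B * v.1 + C * v.2), sq_nonneg v.1]
  · rw [mul_qf_self]
    nlinarith [sq_nonneg (A * v.1 + B * v.2), sq_nonneg v.2]

theorem abs_le_of_sq_le_int {x K : ℤ} (h : x ^ 2 ≤ K) : |x| ≤ K := by
  have h1 : |x| ≤ x ^ 2 := by
    rcases abs_cases x with ⟨h, _⟩ | ⟨h, _⟩ <;> rw [h] <;> nlinarith
  exact h1.trans h

theorem qf_lin (r s A₀ B₀ C₀ A₁ B₁ C₁ : ℤ) (u w : ℤ × ℤ) :
    qf (r * A₀ + s * A₁) (r * B₀ + s * B₁) (r * C₀ + s * C₁) u w =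
      r * qf A₀ B₀ C₀ u w + s * qf A₁ B₁ C₁ u w := by
  unfold qf; ring

/-- Arithmetic core of the comparison lemma. -/
theorem cmp_aux {r s P0 P1 W0 W1 M D2 G : ℤ} (hr : 0 ≤ r) (hs : 0 ≤ s) (hrs : 0 < r + s)
    (hP0 : 0 ≤ P0) (hP1 : 0 ≤ P1) (hW0 : 1 ≤ W0) (hW1 : 1 ≤ W1) (hD2 : 0 ≤ D2)
    (hG : G ≤ (r + s) ^ 2 * M) (h : (r * P0 + s * P1) * (r * W0 + s * W1) = G * D2) :
    P0 ≤ M * D2 ∨ P1 ≤ M * D2 := by
  have hww : r + s ≤ r * W0 + s * W1 := by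
    have h1 : r * 1 ≤ r * W0 := mul_le_mul_of_nonneg_left hW0 hr
    have h2 : s * 1 ≤ s * W1 := mul_le_mul_of_nonneg_left hW1 hs
    linarith
  have hrs2 : 0 < (r + s) ^ 2 := by positivity
  have hGD : G * D2 ≤ (r + s) ^ 2 * M * D2 := mul_le_mul_of_nonneg_right hG hD2
  have key : ∀ P : ℤ, 0 ≤ P → (r + s) * P ≤ r * P0 + s * P1 → P ≤ M * D2 := by
    intro P hP h1
    have h2 : (r + s) * P * (r + s) ≤ (r * P0 + s * P1) * (r * W0 + s * W1) :=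
      mul_le_mul h1 hww hrs.le (le_trans (mul_nonneg hrs.le hP) h1)
    have h3 : (r + s) ^ 2 * P ≤ (r + s) ^ 2 * (M * D2) := by
      calc (r + s) ^ 2 * P = (r + s) * P * (r + s) := by ring
        _ ≤ (r * P0 + s * P1) * (r * W0 + s * W1) := h2
        _ = G * D2 := h
        _ ≤ (r + s) ^ 2 * M * D2 := hGD
        _ = (r + s) ^ 2 * (M * D2) := by ring
    exact le_of_mul_le_mul_left h3 hrs2
  rcases le_total P0 P1 with hle | hle
  · left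
    apply key P0 hP0
    have : s * P0 ≤ s * P1 := mul_le_mul_of_nonneg_left hle hs
    linarith
  · right
    apply key P1 hP1
    have : r * P1 ≤ r * P0 := mul_le_mul_of_nonneg_left hle hr
    linarith

/-- The constant of the comparison lemma. -/
def cmpM (A₀ B₀ C₀ A₁ B₁ C₁ : ℤ) : ℤ :=
  (A₀ * C₀ - B₀ ^ 2) + (A₁ * C₁ - B₁ ^ 2) + |A₀ * C₁ + A₁ * C₀ - 2 * B₀ * B₁|

/-- Core of (FIN): if two positive definite forms give values of different sign on `(u, w)`,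
then one of them is small on `u`. -/
theorem min_self_le {A₀ B₀ C₀ A₁ B₁ C₁ : ℤ} (hA₀ : 0 < A₀) (hd₀ : 0 < A₀ * C₀ - B₀ ^ 2)
    (hA₁ : 0 < A₁) (hd₁ : 0 < A₁ * C₁ - B₁ ^ 2) {u w : ℤ × ℤ} (hw : w ≠ 0)
    (hab : |qf A₁ B₁ C₁ u w| * qf A₀ B₀ C₀ u w + |qf A₀ B₀ C₀ u w| * qf A₁ B₁ C₁ u w = 0)
    (hpos : 0 < |qf A₁ B₁ C₁ u w| + |qf A₀ B₀ C₀ u w|) :
    qf A₀ B₀ C₀ u u ≤ cmpM A₀ B₀ C₀ A₁ B₁ C₁ * dt u w ^ 2 ∨
      qf A₁ B₁ C₁ u u ≤ cmpM A₀ B₀ C₀ A₁ B₁ C₁ * dt u w ^ 2 := by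
  set r := |qf A₁ B₁ C₁ u w| with hr
  set s := |qf A₀ B₀ C₀ u w| with hs
  have hr0 : 0 ≤ r := abs_nonneg _
  have hs0 : 0 ≤ s := abs_nonneg _
  set M := cmpM A₀ B₀ C₀ A₁ B₁ C₁ with hM
  set E := A₀ * C₁ + A₁ * C₀ - 2 * B₀ * B₁ with hE
  -- the combined form
  have hQ'uw : qf (r * A₀ + s * A₁) (r * B₀ + s * B₁) (r * C₀ + s * C₁) u w = 0 := by
    rw [qf_lin]; exact hab
  have hgram := qf_gram (r * A₀ + s * A₁) (r * B₀ + s * B₁) (r * C₀ + s * C₁) u w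
  rw [hQ'uw, qf_lin, qf_lin] at hgram
  have hdisc : (r * A₀ + s * A₁) * (r * C₀ + s * C₁) - (r * B₀ + s * B₁) ^ 2 =
      r ^ 2 * (A₀ * C₀ - B₀ ^ 2) + s ^ 2 * (A₁ * C₁ - B₁ ^ 2) + r * s * E := by
    rw [hE]; ring
  rw [hdisc] at hgram
  have hdisc_le : r ^ 2 * (A₀ * C₀ - B₀ ^ 2) + s ^ 2 * (A₁ * C₁ - B₁ ^ 2) + r * s * E ≤
      (r + s) ^ 2 * M := by
    have hEabs : E ≤ |E| := le_abs_self E
    have h1 : r ^ 2 * (A₀ * C₀ - B₀ ^ 2) ≤ (r + s) ^ 2 * (A₀ * C₀ - B₀ ^ 2) := by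
      apply mul_le_mul_of_nonneg_right _ hd₀.le
      nlinarith
    have h2 : s ^ 2 * (A₁ * C₁ - B₁ ^ 2) ≤ (r + s) ^ 2 * (A₁ * C₁ - B₁ ^ 2) := by
      apply mul_le_mul_of_nonneg_right _ hd₁.le
      nlinarith
    have h3 : r * s * E ≤ (r + s) ^ 2 * |E| := by
      have h31 : r * s * E ≤ r * s * |E| := mul_le_mul_of_nonneg_left hEabs (mul_nonneg hr0 hs0)
      have h32 : r * s * |E| ≤ (r + s) ^ 2 * |E| := by
        apply mul_le_mul_of_nonneg_right _ (abs_nonneg E)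
        nlinarith
      exact h31.trans h32
    have hMe : M = (A₀ * C₀ - B₀ ^ 2) + (A₁ * C₁ - B₁ ^ 2) + |E| := rfl
    rw [hMe]
    nlinarith
  have hw0 : 1 ≤ qf A₀ B₀ C₀ w w := qf_self_pos hA₀ hd₀ hw
  have hw1 : 1 ≤ qf A₁ B₁ C₁ w w := qf_self_pos hA₁ hd₁ hw
  have hu0 : 0 ≤ qf A₀ B₀ C₀ u u := qf_self_nonneg hA₀ hd₀ u
  have hu1 : 0 ≤ qf A₁ B₁ C₁ u u := qf_self_nonneg hA₁ hd₁ u
  have hgram' : (r * qf A₀ B₀ C₀ u u + s * qf A₁ B₁ C₁ u u) *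
      (r * qf A₀ B₀ C₀ w w + s * qf A₁ B₁ C₁ w w) =
      (r ^ 2 * (A₀ * C₀ - B₀ ^ 2) + s ^ 2 * (A₁ * C₁ - B₁ ^ 2) + r * s * E) * dt u w ^ 2 := by
    rw [← hgram]; ring
  exact cmp_aux hr0 hs0 hpos hu0 hu1 hw0 hw1 (sq_nonneg _) hdisc_le hgram'

theorem sign_ne_cases {a b : ℤ} (h : Int.sign a ≠ Int.sign b) :
    |b| * a + |a| * b = 0 ∧ 0 < |b| + |a| := by
  rcases lt_trichotomy a 0 with ha | ha | ha <;> rcases lt_trichotomy b 0 with hb | hb | hb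
  · exact absurd (by rw [Int.sign_eq_neg_one_of_neg ha, Int.sign_eq_neg_one_of_neg hb]) h
  · subst hb
    rw [abs_of_neg ha]
    constructor <;> simp <;> omega
  · rw [abs_of_neg ha, abs_of_pos hb]
    constructor
    · ring
    · omega
  · subst ha
    rw [abs_of_neg hb]
    constructor <;> simp <;> omega
  · subst ha; subst hb
    exact absurd rfl h
  · subst ha
    rw [abs_of_pos hb]
    constructor <;> simp <;> omega
  · rw [abs_of_pos ha, abs_of_neg hb]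
    constructor
    · ring
    · omega
  · subst hb
    rw [abs_of_pos ha]
    constructor <;> simp <;> omega
  · exact absurd (by rw [Int.sign_eq_one_of_pos ha, Int.sign_eq_one_of_pos hb]) h

theorem ne_zero_of_dt_left {u w : ℤ × ℤ} (h : dt u w ≠ 0) : u ≠ 0 := by
  rintro rfl
  exact h (by simp [dt])

theorem ne_zero_of_dt_right {u w : ℤ × ℤ} (h : dt u w ≠ 0) : w ≠ 0 := by
  rintro rfl
  exact h (by simp [dt])

/-- A vector on which a positive definite form is at most `X` lies in an explicit box. -/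
theorem coord_abs_le {A B C : ℤ} (hA : 0 < A) (hd : 0 < A * C - B ^ 2) {v : ℤ × ℤ} {X K : ℤ}
    (hX : qf A B C v v ≤ X) (hK : (A + C) * X ≤ K) : |v.1| ≤ K ∧ |v.2| ≤ K := by
  have hC := pos_C hA hd
  have hX0 : 0 ≤ X := (qf_self_nonneg hA hd v).trans hX
  obtain ⟨h1, h2⟩ := coord_sq_le hd v
  have e1 : C * qf A B C v v ≤ (A + C) * X := by
    have := mul_le_mul_of_nonneg_left hX hC.le
    nlinarith
  have e2 : A * qf A B C v v ≤ (A + C) * X := by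
    have := mul_le_mul_of_nonneg_left hX hA.le
    nlinarith
  exact ⟨abs_le_of_sq_le_int (h1.trans (e1.trans hK)), abs_le_of_sq_le_int (h2.trans (e2.trans hK))⟩

theorem cmpM_pos {A₀ B₀ C₀ A₁ B₁ C₁ : ℤ} (hd₀ : 0 < A₀ * C₀ - B₀ ^ 2)
    (hd₁ : 0 < A₁ * C₁ - B₁ ^ 2) : 0 < cmpM A₀ B₀ C₀ A₁ B₁ C₁ := by
  unfold cmpM
  have := abs_nonneg (A₀ * C₁ + A₁ * C₀ - 2 * B₀ * B₁)
  linarith

/-- **(FIN)** Two positive definite integer forms give the same sign on all but finitely many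
pairs of integer vectors of a fixed nonzero determinant. -/
theorem finite_sign_ne {A₀ B₀ C₀ A₁ B₁ C₁ : ℤ} (hA₀ : 0 < A₀) (hd₀ : 0 < A₀ * C₀ - B₀ ^ 2)
    (hA₁ : 0 < A₁) (hd₁ : 0 < A₁ * C₁ - B₁ ^ 2) {D : ℤ} (hD : D ≠ 0) :
    {p : (ℤ × ℤ) × (ℤ × ℤ) | dt p.1 p.2 = D ∧
      Int.sign (qf A₀ B₀ C₀ p.1 p.2) ≠ Int.sign (qf A₁ B₁ C₁ p.1 p.2)}.Finite := by
  set M := cmpM A₀ B₀ C₀ A₁ B₁ C₁ with hM
  have hMpos : 0 < M := cmpM_pos hd₀ hd₁
  have hC₀ := pos_C hA₀ hd₀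
  have hC₁ := pos_C hA₁ hd₁
  set K := (A₀ + A₁ + C₀ + C₁) * (M * D ^ 2) with hK
  have hMD : 0 ≤ M * D ^ 2 := by positivity
  have hK0 : (A₀ + C₀) * (M * D ^ 2) ≤ K := by
    rw [hK]; apply mul_le_mul_of_nonneg_right _ hMD; linarith
  have hK1 : (A₁ + C₁) * (M * D ^ 2) ≤ K := by
    rw [hK]; apply mul_le_mul_of_nonneg_right _ hMD; linarith
  have box : ∀ v : ℤ × ℤ, (qf A₀ B₀ C₀ v v ≤ M * D ^ 2 ∨ qf A₁ B₁ C₁ v v ≤ M * D ^ 2) →
      v ∈ Set.Icc (-K) K ×ˢ Set.Icc (-K) K := by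
    intro v hv
    rcases hv with hv | hv
    · obtain ⟨h1, h2⟩ := coord_abs_le hA₀ hd₀ hv hK0
      exact ⟨abs_le.mp h1, abs_le.mp h2⟩
    · obtain ⟨h1, h2⟩ := coord_abs_le hA₁ hd₁ hv hK1
      exact ⟨abs_le.mp h1, abs_le.mp h2⟩
  refine Set.Finite.subset (((Set.finite_Icc (-K) K).prod (Set.finite_Icc (-K) K)).prod
    ((Set.finite_Icc (-K) K).prod (Set.finite_Icc (-K) K))) ?_
  rintro ⟨u, w⟩ ⟨hdt, hsg⟩
  simp only at hdt hsg
  have hdt0 : dt u w ≠ 0 := hdt ▸ hD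
  obtain ⟨e1, e2⟩ := sign_ne_cases hsg
  have hu := min_self_le hA₀ hd₀ hA₁ hd₁ (ne_zero_of_dt_right hdt0) e1 e2
  rw [hdt] at hu
  have hsg' : Int.sign (qf A₀ B₀ C₀ w u) ≠ Int.sign (qf A₁ B₁ C₁ w u) := by
    rwa [qf_comm A₀ B₀ C₀ w u, qf_comm A₁ B₁ C₁ w u]
  obtain ⟨e1', e2'⟩ := sign_ne_cases hsg'
  have hw := min_self_le hA₀ hd₀ hA₁ hd₁ (ne_zero_of_dt_left hdt0) e1' e2'
  rw [dt_swap, neg_sq, hdt] at hw
  exact ⟨box u hu, box w hw⟩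

/-- The side sign: on which side of the geodesic from the cusp `[u]` to the cusp `[w]` the base
point of the positive definite form `(A, B, C)` lies. -/
def sg (A B C : ℤ) (u w : ℤ × ℤ) : ℤ := Int.sign (dt u w) * Int.sign (qf A B C u w)

theorem tri_identity (A B C : ℤ) (u v w : ℤ × ℤ) :
    dt v w ^ 2 * (dt u v * qf A B C u v) + dt u v ^ 2 * (dt v w * qf A B C v w) +
      dt u v * dt v w * dt w u * qf A B C v v = 0 := by
  unfold qf dt; ring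

theorem le_of_mul_le_of_one_le {a b c K : ℤ} (ha : 0 ≤ a) (hb : 1 ≤ b) (hc : 1 ≤ c)
    (h : c * b * a ≤ K) : a ≤ K := by
  have h1 : 1 * a ≤ c * b * a := by
    apply mul_le_mul_of_nonneg_right _ ha
    nlinarith
  linarith

/-- Arithmetic core of the triangle lemma. -/
theorem tri_core_pos {d₁ d₂ d₃ X Y Z Pu Pv Pw disc D' : ℤ} (h₁ : d₁ ≠ 0) (h₂ : d₂ ≠ 0)
    (h₃ : d₃ ≠ 0) (hX : 0 ≤ X) (hY : 0 ≤ Y) (hZ : 0 ≤ Z) (hD' : 0 < D')
    (hD2 : D' ^ 2 = (d₁ * d₂ * d₃) ^ 2) (hPu : 0 < Pu) (hPv : 0 < Pv) (hPw : 0 < Pw)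
    (Iv : d₂ ^ 2 * X + d₁ ^ 2 * Y = D' * Pv) (Iw : d₃ ^ 2 * Y + d₂ ^ 2 * Z = D' * Pw)
    (Iu : d₁ ^ 2 * Z + d₃ ^ 2 * X = D' * Pu)
    (gram : Pu * Pv * d₁ ^ 2 - X ^ 2 = disc * d₁ ^ 4) :
    Pu ≤ (d₁ ^ 2 + d₂ ^ 2 + d₃ ^ 2) * ((d₁ * d₂ * d₃) ^ 2 * disc) ∧
    Pv ≤ (d₁ ^ 2 + d₂ ^ 2 + d₃ ^ 2) * ((d₁ * d₂ * d₃) ^ 2 * disc) ∧
    Pw ≤ (d₁ ^ 2 + d₂ ^ 2 + d₃ ^ 2) * ((d₁ * d₂ * d₃) ^ 2 * disc) := by
  set K0 := (d₁ * d₂ * d₃) ^ 2 * disc with hK0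
  have e₁ : 1 ≤ d₁ ^ 2 := by have := sq_nonneg d₁; have : d₁ ^ 2 ≠ 0 := pow_ne_zero 2 h₁; omega
  have e₂ : 1 ≤ d₂ ^ 2 := by have := sq_nonneg d₂; have : d₂ ^ 2 ≠ 0 := pow_ne_zero 2 h₂; omega
  have e₃ : 1 ≤ d₃ ^ 2 := by have := sq_nonneg d₃; have : d₃ ^ 2 ≠ 0 := pow_ne_zero 2 h₃; omega
  -- the key identity (*)
  have star : d₂ ^ 2 * Z * X + d₁ ^ 2 * Y * Z + d₃ ^ 2 * X * Y = K0 := by
    have h4 : d₁ ^ 4 ≠ 0 := pow_ne_zero 4 h₁
    apply mul_left_cancel₀ h4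
    have e : (D' * Pu) * (D' * Pv) * d₁ ^ 2 - D' ^ 2 * X ^ 2 = D' ^ 2 * (disc * d₁ ^ 4) := by
      rw [← gram]; ring
    rw [← Iv, ← Iu, hD2] at e
    rw [hK0]
    linear_combination e
  have t1 : 0 ≤ d₂ ^ 2 * Z * X := by positivity
  have t2 : 0 ≤ d₁ ^ 2 * Y * Z := by positivity
  have t3 : 0 ≤ d₃ ^ 2 * X * Y := by positivity
  have hDPv : 0 < D' * Pv := mul_pos hD' hPv
  have hDPw : 0 < D' * Pw := mul_pos hD' hPw
  have hDPu : 0 < D' * Pu := mul_pos hD' hPu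
  have hXK : X ≤ K0 := by
    rcases hY.lt_or_eq with hY1 | hY0
    · exact le_of_mul_le_of_one_le hX hY1 e₃ (by nlinarith)
    · have hZ1 : 1 ≤ Z := by
        by_contra hcon
        have hZ0 : Z = 0 := by omega
        rw [← hY0, hZ0] at Iw
        simp at Iw
        omega
      exact le_of_mul_le_of_one_le hX hZ1 e₂ (by nlinarith)
  have hYK : Y ≤ K0 := by
    rcases hX.lt_or_eq with hX1 | hX0
    · exact le_of_mul_le_of_one_le hY hX1 e₃ (by nlinarith)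
    · have hZ1 : 1 ≤ Z := by
        by_contra hcon
        have hZ0 : Z = 0 := by omega
        rw [← hX0, hZ0] at Iu
        simp at Iu
        omega
      exact le_of_mul_le_of_one_le hY hZ1 e₁ (by nlinarith)
  have hZK : Z ≤ K0 := by
    rcases hX.lt_or_eq with hX1 | hX0
    · exact le_of_mul_le_of_one_le hZ hX1 e₂ (by nlinarith)
    · have hY1 : 1 ≤ Y := by
        by_contra hcon
        have hY0 : Y = 0 := by omega
        rw [← hX0, hY0] at Iv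
        simp at Iv
        omega
      exact le_of_mul_le_of_one_le hZ hY1 e₁ (by nlinarith)
  have hK0n : 0 ≤ K0 := le_trans hX hXK
  have b : ∀ P a b' U V : ℤ, 0 < P → 1 ≤ a → 1 ≤ b' → 0 ≤ U → 0 ≤ V → U ≤ K0 → V ≤ K0 →
      a * U + b' * V = D' * P → P ≤ (a + b') * K0 := by
    intro P a b' U V hP ha hb hU hV hUK hVK hI
    have h1 : P ≤ D' * P := by nlinarith
    have h2 : a * U ≤ a * K0 := mul_le_mul_of_nonneg_left hUK (by linarith)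
    have h3 : b' * V ≤ b' * K0 := mul_le_mul_of_nonneg_left hVK (by linarith)
    nlinarith
  have bu := b Pu (d₁ ^ 2) (d₃ ^ 2) Z X hPu e₁ e₃ hZ hX hZK hXK Iu
  have bv := b Pv (d₂ ^ 2) (d₁ ^ 2) X Y hPv e₂ e₁ hX hY hXK hYK Iv
  have bw := b Pw (d₃ ^ 2) (d₂ ^ 2) Y Z hPw e₃ e₂ hY hZ hYK hZK Iw
  refine ⟨?_, ?_, ?_⟩
  · have : (d₁ ^ 2 + d₃ ^ 2) * K0 ≤ (d₁ ^ 2 + d₂ ^ 2 + d₃ ^ 2) * K0 :=
      mul_le_mul_of_nonneg_right (by linarith) hK0n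
    linarith
  · have : (d₂ ^ 2 + d₁ ^ 2) * K0 ≤ (d₁ ^ 2 + d₂ ^ 2 + d₃ ^ 2) * K0 :=
      mul_le_mul_of_nonneg_right (by linarith) hK0n
    linarith
  · have : (d₃ ^ 2 + d₂ ^ 2) * K0 ≤ (d₁ ^ 2 + d₂ ^ 2 + d₃ ^ 2) * K0 :=
      mul_le_mul_of_nonneg_right (by linarith) hK0n
    linarith

theorem sign_tri {a b c : ℤ} (ha : 0 < a → b < 0 ∧ c < 0) (hb : 0 < b → a < 0 ∧ c < 0)
    (hc : 0 < c → a < 0 ∧ b < 0) (hs : Int.sign a + Int.sign b + Int.sign c ≠ -1) :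
    a ≤ 0 ∧ b ≤ 0 ∧ c ≤ 0 := by
  refine ⟨?_, ?_, ?_⟩
  · by_contra h
    rw [not_le] at h
    obtain ⟨h1, h2⟩ := ha h
    apply hs
    rw [Int.sign_eq_one_of_pos h, Int.sign_eq_neg_one_of_neg h1, Int.sign_eq_neg_one_of_neg h2]
    norm_num
  · by_contra h
    rw [not_le] at h
    obtain ⟨h1, h2⟩ := hb h
    apply hs
    rw [Int.sign_eq_one_of_pos h, Int.sign_eq_neg_one_of_neg h1, Int.sign_eq_neg_one_of_neg h2]
    norm_num
  · by_contra h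
    rw [not_le] at h
    obtain ⟨h1, h2⟩ := hc h
    apply hs
    rw [Int.sign_eq_one_of_pos h, Int.sign_eq_neg_one_of_neg h1, Int.sign_eq_neg_one_of_neg h2]
    norm_num

theorem neg_of_lin {a b x y t : ℤ} (ha : 0 < a) (hb : 0 < b) (h : a * x + b * y + t = 0)
    (ht : 0 < t) (hx : 0 < x) : y < 0 := by
  by_contra hy
  have h1 : 0 ≤ b * y := mul_nonneg hb.le (not_lt.mp hy)
  have h2 : 0 < a * x := mul_pos ha hx
  linarith

theorem tri_signs {d₁ d₂ d₃ x y z Pu Pv Pw D : ℤ} (e₁ : 0 < d₁ ^ 2) (e₂ : 0 < d₂ ^ 2)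
    (e₃ : 0 < d₃ ^ 2) (hD : 0 < D) (hPu : 0 < Pu) (hPv : 0 < Pv) (hPw : 0 < Pw)
    (Iv : d₂ ^ 2 * x + d₁ ^ 2 * y + D * Pv = 0) (Iw : d₃ ^ 2 * y + d₂ ^ 2 * z + D * Pw = 0)
    (Iu : d₁ ^ 2 * z + d₃ ^ 2 * x + D * Pu = 0)
    (hs : Int.sign x + Int.sign y + Int.sign z ≠ -1) : x ≤ 0 ∧ y ≤ 0 ∧ z ≤ 0 := by
  have hDv : 0 < D * Pv := mul_pos hD hPv
  have hDw : 0 < D * Pw := mul_pos hD hPw
  have hDu : 0 < D * Pu := mul_pos hD hPu
  refine sign_tri (fun h => ⟨neg_of_lin e₂ e₁ Iv hDv h, neg_of_lin e₃ e₁ (by linarith) hDu h⟩)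
    (fun h => ⟨neg_of_lin e₁ e₂ (by linarith) hDv h, neg_of_lin e₃ e₂ Iw hDw h⟩)
    (fun h => ⟨neg_of_lin e₁ e₃ Iu hDu h, neg_of_lin e₂ e₃ (by linarith) hDw h⟩) hs

theorem sg_eq_sign (A B C : ℤ) (u w : ℤ × ℤ) :
    sg A B C u w = Int.sign (dt u w * qf A B C u w) := by
  unfold sg
  rw [Int.sign_mul]

/-- The constant of the triangle lemma. -/
def triK (A B C d₁ d₂ d₃ : ℤ) : ℤ :=
  (d₁ ^ 2 + d₂ ^ 2 + d₃ ^ 2) * ((d₁ * d₂ * d₃) ^ 2 * (A * C - B ^ 2))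

/-- **(TRI), pointwise**: if the three side signs of the triangle `(u, v, w)` do not add up to the
generic value `- sign (d(u,v) d(v,w) d(w,u))`, then the form is bounded on `u, v, w`
(the base point lies in the closed ideal triangle). -/
theorem tri_bound {A B C : ℤ} (hA : 0 < A) (hd : 0 < A * C - B ^ 2) {u v w : ℤ × ℤ}
    (h₁ : dt u v ≠ 0) (h₂ : dt v w ≠ 0) (h₃ : dt w u ≠ 0)
    (hs : sg A B C u v + sg A B C v w + sg A B C w u ≠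
      - Int.sign (dt u v * dt v w * dt w u)) :
    qf A B C u u ≤ triK A B C (dt u v) (dt v w) (dt w u) ∧
    qf A B C v v ≤ triK A B C (dt u v) (dt v w) (dt w u) ∧
    qf A B C w w ≤ triK A B C (dt u v) (dt v w) (dt w u) := by
  have hu : u ≠ 0 := ne_zero_of_dt_left h₁
  have hv : v ≠ 0 := ne_zero_of_dt_left h₂
  have hw : w ≠ 0 := ne_zero_of_dt_left h₃
  have hPu := qf_self_pos hA hd hu
  have hPv := qf_self_pos hA hd hv
  have hPw := qf_self_pos hA hd hw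
  have Iv := tri_identity A B C u v w
  have Iw := tri_identity A B C v w u
  have Iu := tri_identity A B C w u v
  have gram := qf_gram A B C u v
  rw [sg_eq_sign, sg_eq_sign, sg_eq_sign] at hs
  set d₁ := dt u v with hd₁
  set d₂ := dt v w with hd₂
  set d₃ := dt w u with hd₃
  set x := d₁ * qf A B C u v with hx
  set y := d₂ * qf A B C v w with hy
  set z := d₃ * qf A B C w u with hz
  set Pu := qf A B C u u
  set Pv := qf A B C v v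
  set Pw := qf A B C w w
  have e₁ : 0 < d₁ ^ 2 := by positivity
  have e₂ : 0 < d₂ ^ 2 := by positivity
  have e₃ : 0 < d₃ ^ 2 := by positivity
  have hD : d₁ * d₂ * d₃ ≠ 0 := mul_ne_zero (mul_ne_zero h₁ h₂) h₃
  have gram' : Pu * Pv * d₁ ^ 2 - x ^ 2 = (A * C - B ^ 2) * d₁ ^ 4 := by
    rw [hx]; linear_combination d₁ ^ 2 * gram
  unfold triK
  have Iv' : d₂ ^ 2 * x + d₁ ^ 2 * y + (d₁ * d₂ * d₃) * Pv = 0 := by linear_combination Iv
  have Iw' : d₃ ^ 2 * y + d₂ ^ 2 * z + (d₁ * d₂ * d₃) * Pw = 0 := by linear_combination Iw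
  have Iu' : d₁ ^ 2 * z + d₃ ^ 2 * x + (d₁ * d₂ * d₃) * Pu = 0 := by linear_combination Iu
  rcases lt_or_gt_of_ne hD with hneg | hpos
  · -- D < 0: x, y, z ≥ 0
    rw [Int.sign_eq_neg_one_of_neg hneg, neg_neg] at hs
    have hs' : Int.sign (-x) + Int.sign (-y) + Int.sign (-z) ≠ -1 := by
      rw [Int.sign_neg, Int.sign_neg, Int.sign_neg]
      intro h
      apply hs
      linarith
    obtain ⟨hx0, hy0, hz0⟩ := tri_signs (x := -x) (y := -y) (z := -z) (D := -(d₁ * d₂ * d₃))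
      e₁ e₂ e₃ (by linarith) hPu hPv hPw (by linear_combination -Iv')
      (by linear_combination -Iw') (by linear_combination -Iu') hs'
    exact tri_core_pos (X := x) (Y := y) (Z := z) (D' := -(d₁ * d₂ * d₃)) h₁ h₂ h₃
      (by linarith) (by linarith) (by linarith) (by linarith) (by ring) hPu hPv hPw
      (by linear_combination Iv') (by linear_combination Iw') (by linear_combination Iu') gram'
  · -- D > 0: x, y, z ≤ 0
    rw [Int.sign_eq_one_of_pos hpos] at hs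
    obtain ⟨hx0, hy0, hz0⟩ := tri_signs e₁ e₂ e₃ hpos hPu hPv hPw Iv' Iw' Iu' hs
    exact tri_core_pos (X := -x) (Y := -y) (Z := -z) (D' := d₁ * d₂ * d₃) h₁ h₂ h₃
      (by linarith) (by linarith) (by linarith) hpos rfl hPu hPv hPw
      (by linear_combination -Iv') (by linear_combination -Iw') (by linear_combination -Iu')
      (by rw [neg_sq]; exact gram')

/-- **(TRI)** For a positive definite form and fixed nonzero pairwise determinants, the three side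
signs of an integer triangle `(u, v, w)` add up to `- sign (d₁ d₂ d₃)` for all but finitely many
triangles. -/
theorem finite_tri_ne {A B C : ℤ} (hA : 0 < A) (hd : 0 < A * C - B ^ 2) {d₁ d₂ d₃ : ℤ}
    (h₁ : d₁ ≠ 0) (h₂ : d₂ ≠ 0) (h₃ : d₃ ≠ 0) :
    {t : (ℤ × ℤ) × (ℤ × ℤ) × (ℤ × ℤ) | dt t.1 t.2.1 = d₁ ∧ dt t.2.1 t.2.2 = d₂ ∧
      dt t.2.2 t.1 = d₃ ∧
      sg A B C t.1 t.2.1 + sg A B C t.2.1 t.2.2 + sg A B C t.2.2 t.1 ≠
        - Int.sign (d₁ * d₂ * d₃)}.Finite := by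
  set K := (A + C) * triK A B C d₁ d₂ d₃ with hK
  refine Set.Finite.subset (((Set.finite_Icc (-K) K).prod (Set.finite_Icc (-K) K)).prod
    (((Set.finite_Icc (-K) K).prod (Set.finite_Icc (-K) K)).prod
      ((Set.finite_Icc (-K) K).prod (Set.finite_Icc (-K) K)))) ?_
  rintro ⟨u, v, w⟩ ⟨e₁, e₂, e₃, hs⟩
  simp only at e₁ e₂ e₃ hs
  subst e₁ e₂ e₃
  obtain ⟨bu, bv, bw⟩ := tri_bound hA hd h₁ h₂ h₃ hs
  have box : ∀ v' : ℤ × ℤ, qf A B C v' v' ≤ triK A B C (dt u v) (dt v w) (dt w u) →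
      v' ∈ Set.Icc (-K) K ×ˢ Set.Icc (-K) K := by
    intro v' hv'
    obtain ⟨h1, h2⟩ := coord_abs_le hA hd hv' le_rfl
    exact ⟨abs_le.mp h1, abs_le.mp h2⟩
  exact ⟨box u bu, box v bv, box w bw⟩

/-! ### The literal shapes of `IsectDef_helper11` -/

open Matrix in
/-- The pair of coordinates of a vector. -/
def toPair (u : Fin 2 → ℤ) : ℤ × ℤ := (u 0, u 1)

theorem toPair_injective : Function.Injective toPair := by
  intro u w h
  have h0 : u 0 = w 0 := congrArg Prod.fst h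
  have h1 : u 1 = w 1 := congrArg Prod.snd h
  funext i
  fin_cases i
  · exact h0
  · exact h1

theorem det2_eq_dt (u w : Fin 2 → ℤ) : H11.det2 u w = dt (toPair u) (toPair w) := rfl

theorem bform_eq_qf (u w : Fin 2 → ℤ) : H11.bform u w = qf 2 1 2 (toPair u) (toPair w) := by
  unfold H11.bform qf toPair
  ring

theorem sg_eq_sg (u w : Fin 2 → ℤ) : H11.sg u w = sg 2 1 2 (toPair u) (toPair w) := by
  unfold H11.sg sg
  rw [det2_eq_dt, bform_eq_qf]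

open Matrix in
theorem bform_mulVec_eq_qf (α : Matrix (Fin 2) (Fin 2) ℤ) (u w : Fin 2 → ℤ) :
    H11.bform (α *ᵥ u) (α *ᵥ w) =
      qf (2 * (α 0 0 ^ 2 + α 0 0 * α 1 0 + α 1 0 ^ 2))
        (2 * α 0 0 * α 0 1 + α 0 0 * α 1 1 + α 1 0 * α 0 1 + 2 * α 1 0 * α 1 1)
        (2 * (α 0 1 ^ 2 + α 0 1 * α 1 1 + α 1 1 ^ 2)) (toPair u) (toPair w) := by
  simp only [H11.bform, qf, toPair, Matrix.mulVec, dotProduct, Fin.sum_univ_two]
  ring

open Matrix in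
/-- **(FIN2)**, literal shape of the C-PROOF post. -/
theorem fin2 (α : Matrix (Fin 2) (Fin 2) ℤ) (hα : α.det ≠ 0) (d : ℤ) (hd : d ≠ 0) :
    {p : (Fin 2 → ℤ) × (Fin 2 → ℤ) | H11.det2 p.1 p.2 = d ∧
      Int.sign (H11.bform (α *ᵥ p.1) (α *ᵥ p.2)) ≠ Int.sign (H11.bform p.1 p.2)}.Finite := by
  rw [Matrix.det_fin_two] at hα
  have hA : 0 < 2 * (α 0 0 ^ 2 + α 0 0 * α 1 0 + α 1 0 ^ 2) := by
    have h : ¬ (α 0 0 = 0 ∧ α 1 0 = 0) := by
      rintro ⟨h1, h2⟩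
      apply hα
      rw [h1, h2]
      ring
    have h2 : 0 ≤ α 0 0 ^ 2 + α 0 0 * α 1 0 + α 1 0 ^ 2 := by
      nlinarith [sq_nonneg (α 0 0 + α 1 0), sq_nonneg (α 0 0), sq_nonneg (α 1 0)]
    rcases h2.lt_or_eq with h3 | h3
    · linarith
    · exfalso
      apply h
      have e1 : (α 0 0 + α 1 0) ^ 2 + α 0 0 ^ 2 + α 1 0 ^ 2 = 0 := by nlinarith
      have e2 : α 0 0 ^ 2 = 0 := by
        nlinarith [sq_nonneg (α 0 0 + α 1 0), sq_nonneg (α 0 0), sq_nonneg (α 1 0)]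
      have e3 : α 1 0 ^ 2 = 0 := by
        nlinarith [sq_nonneg (α 0 0 + α 1 0), sq_nonneg (α 0 0), sq_nonneg (α 1 0)]
      exact ⟨pow_eq_zero_iff (two_ne_zero) |>.mp e2, pow_eq_zero_iff (two_ne_zero) |>.mp e3⟩
  have hdisc : 0 < 2 * (α 0 0 ^ 2 + α 0 0 * α 1 0 + α 1 0 ^ 2) *
      (2 * (α 0 1 ^ 2 + α 0 1 * α 1 1 + α 1 1 ^ 2)) -
      (2 * α 0 0 * α 0 1 + α 0 0 * α 1 1 + α 1 0 * α 0 1 + 2 * α 1 0 * α 1 1) ^ 2 := by
    have e : 2 * (α 0 0 ^ 2 + α 0 0 * α 1 0 + α 1 0 ^ 2) *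
        (2 * (α 0 1 ^ 2 + α 0 1 * α 1 1 + α 1 1 ^ 2)) -
        (2 * α 0 0 * α 0 1 + α 0 0 * α 1 1 + α 1 0 * α 0 1 + 2 * α 1 0 * α 1 1) ^ 2 =
        3 * (α 0 0 * α 1 1 - α 0 1 * α 1 0) ^ 2 := by ring
    rw [e]
    have : 0 < (α 0 0 * α 1 1 - α 0 1 * α 1 0) ^ 2 := by positivity
    linarith
  have hfin := finite_sign_ne hA hdisc (A₁ := 2) (B₁ := 1) (C₁ := 2) (by norm_num) (by norm_num) hd
  have hpre := hfin.preimage
    (f := fun p : (Fin 2 → ℤ) × (Fin 2 → ℤ) => (toPair p.1, toPair p.2))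
    (fun p _ q _ h => Prod.ext (toPair_injective (congrArg Prod.fst h))
      (toPair_injective (congrArg Prod.snd h)))
  refine hpre.subset ?_
  rintro ⟨u, w⟩ ⟨h1, h2⟩
  refine ⟨h1, ?_⟩
  simp only
  rwa [← bform_mulVec_eq_qf, ← bform_eq_qf]

/-- **(FIN3)**, literal shape of the C-PROOF post. -/
theorem fin3 (d₁ d₂ d₃ : ℤ) (h₁ : d₁ ≠ 0) (h₂ : d₂ ≠ 0) (h₃ : d₃ ≠ 0) :
    {t : (Fin 2 → ℤ) × (Fin 2 → ℤ) × (Fin 2 → ℤ) | H11.det2 t.1 t.2.1 = d₁ ∧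
      H11.det2 t.2.1 t.2.2 = d₂ ∧ H11.det2 t.2.2 t.1 = d₃ ∧
      H11.sg t.1 t.2.1 + H11.sg t.2.1 t.2.2 + H11.sg t.2.2 t.1 ≠
        - Int.sign (d₁ * d₂ * d₃)}.Finite := by
  have hfin := finite_tri_ne (A := 2) (B := 1) (C := 2) (by norm_num) (by norm_num) h₁ h₂ h₃
  have hpre := hfin.preimage
    (f := fun t : (Fin 2 → ℤ) × (Fin 2 → ℤ) × (Fin 2 → ℤ) =>
      (toPair t.1, toPair t.2.1, toPair t.2.2))
    (fun p _ q _ h => by
      have h1 := toPair_injective (congrArg Prod.fst h)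
      have h2 := toPair_injective (congrArg (fun x => x.2.1) h)
      have h3 := toPair_injective (congrArg (fun x => x.2.2) h)
      exact Prod.ext h1 (Prod.ext h2 h3))
  refine hpre.subset ?_
  rintro ⟨u, v, w⟩ ⟨e₁, e₂, e₃, hs⟩
  refine ⟨e₁, e₂, e₃, ?_⟩
  simp only
  rwa [← sg_eq_sg, ← sg_eq_sg, ← sg_eq_sg]

end Fermat.Agent.S41.H69
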