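import Mathlib
import Fermat.Agent.S41.IsectDef_helper11

/-!
# S41, node (C), route C-I, leaf I3, part 1 (helper4): the key sign lemma

* `sgSL_S_inv_mul` (KEY): `sgSL (S⁻¹ * z) = sgSL z` unless `z ∈ {1, -1, S, -S}`, where the sign flips.
* `sgSL_neg`, `sgSL_rho_inv_mul`: invariance under `-1` and under `ρ = S * T`.
* `Fin2Stmt` : the finiteness statement of leaf I2, as a hypothesis;
  `sgSL_mul_support_finite`, `pot_support_finite` (POT a).
* `pot_mul_rho`, `pot_neg` (POT c).
-/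

set_option autoImplicit false

namespace Fermat.Agent.S41.H04

open Matrix Fermat.Agent.S41.H11
open scoped MatrixGroups

/-! ### Integer arithmetic behind (KEY) -/

theorem sign_eq_of_mul_pos {p q : ℤ} (h : 0 < p * q) : Int.sign p = Int.sign q := by
  rcases lt_trichotomy p 0 with hp | hp | hp
  · rcases lt_trichotomy q 0 with hq | hq | hq
    · rw [Int.sign_eq_neg_one_of_neg hp, Int.sign_eq_neg_one_of_neg hq]
    · subst hq; simp at h
    · nlinarith
  · subst hp; simp at h
  · rcases lt_trichotomy q 0 with hq | hq | hq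
    · nlinarith
    · subst hq; simp at h
    · rw [Int.sign_eq_one_of_pos hp, Int.sign_eq_one_of_pos hq]

/-- If `ad - bc = 1` and `ab + cd ≠ 0` then `2(ab+cd) + (ad+bc)` and `2(ab+cd) - (ad+bc)`
have the same sign. -/
theorem key_sign_ne {a b c d : ℤ} (hdet : a * d - b * c = 1) (hx : a * b + c * d ≠ 0) :
    Int.sign (2 * (a * b + c * d) - (a * d + b * c)) =
      Int.sign (2 * (a * b + c * d) + (a * d + b * c)) := by
  apply sign_eq_of_mul_pos
  have h1 : (a * b + c * d) ^ 2 - ((a * d + b * c) ^ 2 - 1) = (a * b - c * d) ^ 2 := by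
    have : (a * d + b * c) ^ 2 - 1 = 4 * (a * b * (c * d)) := by
      have h2 : (a * d + b * c) ^ 2 - (a * d - b * c) ^ 2 = 4 * (a * b * (c * d)) := by ring
      rw [hdet] at h2; linarith
    rw [this]; ring
  have h2 : 1 ≤ (a * b + c * d) ^ 2 := by
    have := sq_nonneg (a * b + c * d)
    have h3 : (a * b + c * d) ^ 2 ≠ 0 := pow_ne_zero 2 hx
    omega
  nlinarith [sq_nonneg (a * b - c * d)]

/-- If `ad - bc = 1` and `ab + cd = 0` then `ab = 0`, `cd = 0`. -/
theorem key_zero {a b c d : ℤ} (hdet : a * d - b * c = 1) (hx : a * b + c * d = 0) :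
    a * b = 0 ∧ c * d = 0 := by
  have h1 : (a * d + b * c) ^ 2 - 1 = 4 * (a * b * (c * d)) := by
    have h2 : (a * d + b * c) ^ 2 - (a * d - b * c) ^ 2 = 4 * (a * b * (c * d)) := by ring
    rw [hdet] at h2; linarith
  have h3 : c * d = -(a * b) := by linarith
  rw [h3] at h1
  have h4 : 4 * (a * b) ^ 2 ≤ 1 := by nlinarith [sq_nonneg (a * d + b * c)]
  have h5 : a * b = 0 := by
    by_contra hne
    have : 1 ≤ (a * b) ^ 2 := by
      have := sq_nonneg (a * b)
      have h6 : (a * b) ^ 2 ≠ 0 := pow_ne_zero 2 hne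
      omega
    omega
  exact ⟨h5, by rw [h3, h5]; simp⟩

/-! ### Entries -/

theorem det_entries (z : SL(2, ℤ)) : z 0 0 * z 1 1 - z 0 1 * z 1 0 = 1 := by
  have := z.2
  rw [Matrix.det_fin_two] at this
  exact this

theorem S_inv_mul_entries (z : SL(2, ℤ)) :
    (ModularGroup.S⁻¹ * z) 0 0 = z 1 0 ∧ (ModularGroup.S⁻¹ * z) 0 1 = z 1 1 ∧
      (ModularGroup.S⁻¹ * z) 1 0 = - z 0 0 ∧ (ModularGroup.S⁻¹ * z) 1 1 = - z 0 1 := by
  simp [ModularGroup.coe_S, Matrix.SpecialLinearGroup.coe_mul, Matrix.SpecialLinearGroup.coe_inv,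
    Matrix.adjugate_fin_two, Matrix.mul_apply, Fin.sum_univ_two]

theorem sgSL_neg (z : SL(2, ℤ)) : sgSL (-z) = sgSL z := by
  simp [sgSL, Matrix.SpecialLinearGroup.coe_neg]

theorem sgSL_one : sgSL 1 = 1 := by
  simp [sgSL]

theorem sgSL_S : sgSL ModularGroup.S = -1 := by
  simp [sgSL, ModularGroup.coe_S]

theorem eq_one_or_S_iff (z : SL(2, ℤ)) :
    (z = 1 ∨ z = -1 ∨ z = ModularGroup.S ∨ z = -ModularGroup.S) ↔
      z 0 0 * z 0 1 + z 1 0 * z 1 1 = 0 := by
  constructor
  · rintro (rfl | rfl | rfl | rfl) <;>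
      simp [ModularGroup.coe_S, Matrix.SpecialLinearGroup.coe_neg]
  · intro hx
    have hdet := det_entries z
    obtain ⟨hab, hcd⟩ := key_zero (a := z 0 0) (b := z 0 1) (c := z 1 0) (d := z 1 1)
      (by linarith) hx
    rcases mul_eq_zero.mp hab with ha | hb
    · -- a = 0, so b c = -1 and d = 0
      have hbc : z 0 1 * z 1 0 = -1 := by rw [ha] at hdet; linarith
      have hc : z 1 0 ≠ 0 := by rintro h; rw [h] at hbc; simp at hbc
      have hd : z 1 1 = 0 := by
        rcases mul_eq_zero.mp hcd with h | h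
        · exact absurd h hc
        · exact h
      have hb' : z 0 1 = 1 ∨ z 0 1 = -1 := Int.eq_one_or_neg_one_of_mul_eq_neg_one hbc
      rcases hb' with hb1 | hb1
      · -- b = 1, c = -1 : z = -S
        right; right; right
        have hc1 : z 1 0 = -1 := by rw [hb1] at hbc; linarith
        ext i j
        fin_cases i <;> fin_cases j <;>
          simp [ModularGroup.coe_S, Matrix.SpecialLinearGroup.coe_neg, ha, hb1, hc1, hd]
      · right; right; left
        have hc1 : z 1 0 = 1 := by rw [hb1] at hbc; linarith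
        ext i j
        fin_cases i <;> fin_cases j <;>
          simp [ModularGroup.coe_S, ha, hb1, hc1, hd]
    · -- b = 0, so a d = 1 and c = 0
      have had : z 0 0 * z 1 1 = 1 := by rw [hb] at hdet; linarith
      have hd : z 1 1 ≠ 0 := by rintro h; rw [h] at had; simp at had
      have hc : z 1 0 = 0 := by
        rcases mul_eq_zero.mp hcd with h | h
        · exact h
        · exact absurd h hd
      have ha' : z 0 0 = 1 ∨ z 0 0 = -1 := Int.eq_one_or_neg_one_of_mul_eq_one had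
      rcases ha' with ha1 | ha1
      · left
        have hd1 : z 1 1 = 1 := by rw [ha1] at had; linarith
        ext i j
        fin_cases i <;> fin_cases j <;> simp [ha1, hb, hc, hd1]
      · right; left
        have hd1 : z 1 1 = -1 := by rw [ha1] at had; linarith
        ext i j
        fin_cases i <;> fin_cases j <;>
          simp [Matrix.SpecialLinearGroup.coe_neg, ha1, hb, hc, hd1]

/-- (KEY) adjacent Farey triangles are separated by their common edge only. -/
theorem sgSL_S_inv_mul (z : SL(2, ℤ)) :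
    sgSL (ModularGroup.S⁻¹ * z) =
      if z = 1 ∨ z = -1 ∨ z = ModularGroup.S ∨ z = -ModularGroup.S then - sgSL z else sgSL z := by
  obtain ⟨h00, h01, h10, h11⟩ := S_inv_mul_entries z
  have hdet := det_entries z
  have hL : sgSL (ModularGroup.S⁻¹ * z) =
      Int.sign (2 * (z 0 0 * z 0 1 + z 1 0 * z 1 1) - (z 0 0 * z 1 1 + z 0 1 * z 1 0)) := by
    rw [sgSL, h00, h01, h10, h11]
    congr 1; ring
  rw [hL]
  split_ifs with hz
  · have hx := (eq_one_or_S_iff z).mp hz
    rw [sgSL, hx]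
    rw [← Int.sign_neg]
    congr 1; ring
  · have hx : z 0 0 * z 0 1 + z 1 0 * z 1 1 ≠ 0 := fun h => hz ((eq_one_or_S_iff z).mpr h)
    rw [sgSL]
    exact key_sign_ne (a := z 0 0) (b := z 0 1) (c := z 1 0) (d := z 1 1) (by linarith) hx

/-- `sgSL` is invariant under left multiplication by `ρ⁻¹`, `ρ = S * T` (the form is
`ρ`-invariant). -/
theorem sgSL_rho_inv_mul (z : SL(2, ℤ)) :
    sgSL ((ModularGroup.S * ModularGroup.T)⁻¹ * z) = sgSL z := by
  have hdet := det_entries z
  have h : ((ModularGroup.S * ModularGroup.T)⁻¹ * z) 0 0 = z 0 0 + z 1 0 ∧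
      ((ModularGroup.S * ModularGroup.T)⁻¹ * z) 0 1 = z 0 1 + z 1 1 ∧
      ((ModularGroup.S * ModularGroup.T)⁻¹ * z) 1 0 = - z 0 0 ∧
      ((ModularGroup.S * ModularGroup.T)⁻¹ * z) 1 1 = - z 0 1 := by
    simp [ModularGroup.coe_S, ModularGroup.coe_T, Matrix.SpecialLinearGroup.coe_mul,
      Matrix.SpecialLinearGroup.coe_inv, Matrix.adjugate_fin_two, Matrix.mul_apply,
      Fin.sum_univ_two]
  obtain ⟨h00, h01, h10, h11⟩ := h
  rw [sgSL, sgSL, h00, h01, h10, h11]
  congr 1; ring

/-! ### (POT a): finiteness -/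

/-- The statement of leaf I2 (`fin2` of the C-PROOF), taken as a hypothesis. -/
def Fin2Stmt : Prop :=
  ∀ α : Matrix (Fin 2) (Fin 2) ℤ, α.det ≠ 0 → ∀ d : ℤ, d ≠ 0 →
    {p : (Fin 2 → ℤ) × (Fin 2 → ℤ) | det2 p.1 p.2 = d ∧
      Int.sign (bform (α *ᵥ p.1) (α *ᵥ p.2)) ≠ Int.sign (bform p.1 p.2)}.Finite

theorem det2_cols (z : SL(2, ℤ)) : det2 (z.1 *ᵥ ![1, 0]) (z.1 *ᵥ ![0, 1]) = 1 := by
  have hdet := det_entries z
  simp [det2, Matrix.mulVec, dotProduct, Fin.sum_univ_two]
  linarith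

theorem sgSL_eq_sign_bform (z : SL(2, ℤ)) :
    sgSL z = Int.sign (bform (z.1 *ᵥ ![1, 0]) (z.1 *ᵥ ![0, 1])) := by
  rw [sgSL_eq_sg, sg, det2_cols]
  simp

theorem cols_injective :
    Function.Injective fun z : SL(2, ℤ) => ((z.1 *ᵥ ![1, 0], z.1 *ᵥ ![0, 1]) :
      (Fin 2 → ℤ) × (Fin 2 → ℤ)) := by
  intro z z' h
  simp only [Prod.mk.injEq] at h
  obtain ⟨h1, h2⟩ := h
  have e00 := congrFun h1 0
  have e10 := congrFun h1 1
  have e01 := congrFun h2 0
  have e11 := congrFun h2 1
  simp [Matrix.mulVec, dotProduct, Fin.sum_univ_two] at e00 e10 e01 e11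
  ext i j
  fin_cases i <;> fin_cases j <;> assumption

/-- (POT a) for every `x`, only finitely many Farey edges `y` change side under `x`. -/
theorem sgSL_mul_support_finite (h : Fin2Stmt) (x : SL(2, ℤ)) :
    {y : SL(2, ℤ) | sgSL (x * y) ≠ sgSL y}.Finite := by
  have hfin := h x.1 (by rw [x.2]; exact one_ne_zero) 1 one_ne_zero
  refine (hfin.preimage (cols_injective.injOn)).subset ?_
  intro y hy
  simp only [Set.mem_ofPred_eq] at hy
  simp only [Set.mem_preimage, Set.mem_ofPred_eq]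
  refine ⟨det2_cols y, ?_⟩
  rw [sgSL_eq_sign_bform, sgSL_eq_sign_bform, Matrix.SpecialLinearGroup.coe_mul,
    ← Matrix.mulVec_mulVec, ← Matrix.mulVec_mulVec] at hy
  exact hy

theorem pot_support_finite (h : Fin2Stmt) (m : SL(2, ℤ) → ℤ) (x : SL(2, ℤ)) :
    (Function.support fun y : SL(2, ℤ) => m y * (sgSL (x⁻¹ * y) - sgSL y)).Finite := by
  refine (sgSL_mul_support_finite h x⁻¹).subset ?_
  intro y hy
  simp only [Function.mem_support] at hy
  simp only [Set.mem_ofPred_eq]
  intro heq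
  apply hy
  rw [heq, sub_self, mul_zero]

/-! ### (POT c): invariance under `ρ` and `-1` (termwise) -/

theorem pot_mul_rho (m : SL(2, ℤ) → ℤ) (x : SL(2, ℤ)) :
    pot m (x * (ModularGroup.S * ModularGroup.T)) = pot m x := by
  unfold pot
  refine finsum_congr fun y => ?_
  rw [_root_.mul_inv_rev, mul_assoc, sgSL_rho_inv_mul]

theorem pot_neg (m : SL(2, ℤ) → ℤ) (x : SL(2, ℤ)) : pot m (-x) = pot m x := by
  unfold pot
  refine finsum_congr fun y => ?_
  have : (-x)⁻¹ * y = -(x⁻¹ * y) := by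
    rw [inv_neg, neg_mul]
  rw [this, sgSL_neg]

end Fermat.Agent.S41.H04
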