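import Mathlib
import Fermat.Agent.S41.IsectKey_helper4

/-!
# S41, node (C), route C-I, leaf I3, part 2 (helper4): potentials

* `pot_mul_S` (POT b): `pot m (x * S) - pot m x = 2 * (m (x * S) + m (-(x * S)) - m x - m (-x))`.
* `pot_smul` (POT d): for `m` left-invariant under `γ`,
  `pot m (γ * x) - pot m x = - ∑ᶠ y, m y * (sgSL (γ * y) - sgSL y)`.
* `finsum_avg_mul_eq_isect`: for the `Γ`-average of a finitely supported `m0` the right-hand side
  is a combination of intersection numbers of Farey edges.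
-/

set_option autoImplicit false

namespace Fermat.Agent.S41.H04

open Matrix Fermat.Agent.S41.H11
open scoped MatrixGroups

/-! ### The four special elements are distinct -/

theorem one_ne_neg_one : (1 : SL(2, ℤ)) ≠ -1 := by
  intro h
  have := congrArg (fun z : SL(2, ℤ) => z 0 0) h
  simp [Matrix.SpecialLinearGroup.coe_neg] at this

theorem one_ne_S : (1 : SL(2, ℤ)) ≠ ModularGroup.S := by
  intro h
  have := congrArg (fun z : SL(2, ℤ) => z 0 0) h
  simp [ModularGroup.coe_S] at this

theorem one_ne_neg_S : (1 : SL(2, ℤ)) ≠ -ModularGroup.S := by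
  intro h
  have := congrArg (fun z : SL(2, ℤ) => z 0 0) h
  simp [ModularGroup.coe_S, Matrix.SpecialLinearGroup.coe_neg] at this

theorem neg_one_ne_S : (-1 : SL(2, ℤ)) ≠ ModularGroup.S := by
  intro h
  have := congrArg (fun z : SL(2, ℤ) => z 0 0) h
  simp [ModularGroup.coe_S, Matrix.SpecialLinearGroup.coe_neg] at this

theorem neg_one_ne_neg_S : (-1 : SL(2, ℤ)) ≠ -ModularGroup.S := by
  intro h
  have := congrArg (fun z : SL(2, ℤ) => z 0 0) h
  simp [ModularGroup.coe_S, Matrix.SpecialLinearGroup.coe_neg] at this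

theorem S_ne_neg_S : ModularGroup.S ≠ -ModularGroup.S := by
  intro h
  have := congrArg (fun z : SL(2, ℤ) => z 1 0) h
  simp [ModularGroup.coe_S, Matrix.SpecialLinearGroup.coe_neg] at this

theorem sgSL_neg_one : sgSL (-1) = 1 := by rw [sgSL_neg, sgSL_one]

theorem sgSL_neg_S : sgSL (-ModularGroup.S) = -1 := by rw [sgSL_neg, sgSL_S]

/-- (KEY), difference form: the jump of `sgSL` across `S⁻¹` is supported on `{1, -1, S, -S}`. -/
theorem sgSL_S_inv_mul_sub (z : SL(2, ℤ)) :
    sgSL (ModularGroup.S⁻¹ * z) - sgSL z =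
      (if z = 1 then -2 else 0) + (if z = -1 then -2 else 0) +
        (if z = ModularGroup.S then 2 else 0) + (if z = -ModularGroup.S then 2 else 0) := by
  rw [sgSL_S_inv_mul]
  by_cases h1 : z = 1
  · subst h1
    simp [sgSL_one, one_ne_neg_one, one_ne_S, one_ne_neg_S]
  by_cases h2 : z = -1
  · subst h2
    simp [sgSL_neg_one, one_ne_neg_one.symm, neg_one_ne_S, one_ne_S]
  by_cases h3 : z = ModularGroup.S
  · subst h3
    simp [sgSL_S, one_ne_S.symm, neg_one_ne_S.symm, S_ne_neg_S]
  by_cases h4 : z = -ModularGroup.S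
  · subst h4
    simp [sgSL_neg_S, one_ne_neg_S.symm, one_ne_S.symm, S_ne_neg_S.symm]
  simp [h1, h2, h3, h4]

theorem finsum_ite_single {α : Type*} [DecidableEq α] (a : α) (c : ℤ) :
    ∑ᶠ z : α, (if z = a then c else 0) = c := by
  rw [finsum_eq_single _ a (fun x hx => if_neg hx), if_pos rfl]

theorem support_ite_single_finite {α : Type*} [DecidableEq α] (a : α) (c : ℤ) :
    (Function.support fun z : α => if z = a then c else 0).Finite := by
  refine (Set.finite_singleton a).subset ?_
  intro z hz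
  simp only [Function.mem_support, ne_eq, ite_eq_right_iff, Classical.not_imp] at hz
  exact hz.1

/-- (POT b) the jump of the potential across the edge `x` (Farey edge from `x ∞` to `x 0`). -/
theorem pot_mul_S (h : Fin2Stmt) (m : SL(2, ℤ) → ℤ) (x : SL(2, ℤ)) :
    pot m (x * ModularGroup.S) - pot m x =
      2 * (m (x * ModularGroup.S) + m (-(x * ModularGroup.S)) - m x - m (-x)) := by
  unfold pot
  rw [← finsum_sub_distrib (pot_support_finite h m _) (pot_support_finite h m _)]
  have h1 : ∀ y : SL(2, ℤ),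
      m y * (sgSL ((x * ModularGroup.S)⁻¹ * y) - sgSL y) - m y * (sgSL (x⁻¹ * y) - sgSL y) =
        (fun z : SL(2, ℤ) => m (x * z) * (sgSL (ModularGroup.S⁻¹ * z) - sgSL z)) (x⁻¹ * y) := by
    intro y
    simp only [_root_.mul_inv_rev, mul_assoc, mul_inv_cancel_left]
    ring
  rw [finsum_congr h1]
  have h3 := finsum_comp_equiv (Equiv.mulLeft x⁻¹)
    (f := fun z : SL(2, ℤ) => m (x * z) * (sgSL (ModularGroup.S⁻¹ * z) - sgSL z))
  simp only [Equiv.coe_mulLeft] at h3
  rw [h3]
  have h2 : ∀ z : SL(2, ℤ), m (x * z) * (sgSL (ModularGroup.S⁻¹ * z) - sgSL z) =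
      (if z = 1 then -2 * m x else 0) + (if z = -1 then -2 * m (-x) else 0) +
        (if z = ModularGroup.S then 2 * m (x * ModularGroup.S) else 0) +
        (if z = -ModularGroup.S then 2 * m (-(x * ModularGroup.S)) else 0) := by
    intro z
    rw [sgSL_S_inv_mul_sub]
    by_cases h1 : z = 1
    · subst h1
      simp [one_ne_neg_one, one_ne_S, one_ne_neg_S]; ring
    by_cases h2 : z = -1
    · subst h2
      simp [one_ne_neg_one.symm, neg_one_ne_S, one_ne_S]; ring
    by_cases h3 : z = ModularGroup.S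
    · subst h3
      simp [one_ne_S.symm, neg_one_ne_S.symm, S_ne_neg_S]; ring
    by_cases h4 : z = -ModularGroup.S
    · subst h4
      simp [one_ne_neg_S.symm, one_ne_S.symm, S_ne_neg_S.symm]; ring
    simp [h1, h2, h3, h4]
  rw [finsum_congr h2]
  rw [finsum_add_distrib, finsum_add_distrib, finsum_add_distrib, finsum_ite_single,
    finsum_ite_single, finsum_ite_single, finsum_ite_single]
  · ring
  · exact support_ite_single_finite _ _
  · exact support_ite_single_finite _ _
  · exact (support_ite_single_finite _ _).union (support_ite_single_finite _ _) |>.subset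
      (Function.support_add _ _)
  · exact support_ite_single_finite _ _
  · exact ((support_ite_single_finite _ _).union (support_ite_single_finite _ _) |>.subset
      (Function.support_add _ _)).union (support_ite_single_finite _ _) |>.subset
      (Function.support_add _ _)
  · exact support_ite_single_finite _ _

/-- (POT d) the `Γ`-quasi-invariance of the potential of a left-invariant edge function. -/
theorem pot_smul (h : Fin2Stmt) (m : SL(2, ℤ) → ℤ) (γ x : SL(2, ℤ))
    (hm : ∀ y, m (γ * y) = m y) :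
    pot m (γ * x) - pot m x = - ∑ᶠ y : SL(2, ℤ), m y * (sgSL (γ * y) - sgSL y) := by
  have e1 : pot m (γ * x) = ∑ᶠ y : SL(2, ℤ), m y * (sgSL (x⁻¹ * y) - sgSL (γ * y)) := by
    unfold pot
    have h3 := finsum_comp_equiv (Equiv.mulLeft γ)
      (f := fun y : SL(2, ℤ) => m y * (sgSL ((γ * x)⁻¹ * y) - sgSL y))
    simp only [Equiv.coe_mulLeft] at h3
    rw [← h3]
    refine finsum_congr fun y => ?_
    rw [hm, _root_.mul_inv_rev, mul_assoc, inv_mul_cancel_left]
  have hfin1 : (Function.support fun y : SL(2, ℤ) =>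
      m y * (sgSL (x⁻¹ * y) - sgSL (γ * y))).Finite := by
    refine ((sgSL_mul_support_finite h x⁻¹).union (sgSL_mul_support_finite h γ)).subset ?_
    intro y hy
    simp only [Function.mem_support] at hy
    by_contra hcon
    simp only [Set.mem_union, Set.mem_ofPred_eq, not_or, not_not] at hcon
    apply hy
    rw [hcon.1, hcon.2, sub_self, mul_zero]
  rw [e1]
  unfold pot
  rw [← finsum_sub_distrib hfin1 (pot_support_finite h m x), ← finsum_neg_distrib]
  refine finsum_congr fun y => ?_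
  ring

theorem isectTerm_cols (y γ δ : SL(2, ℤ)) :
    isectTerm (y.1 *ᵥ ![1, 0]) (y.1 *ᵥ ![0, 1]) γ δ = sgSL (γ * (δ * y)) - sgSL (δ * y) := by
  unfold isectTerm
  rw [sgSL_eq_sg, sgSL_eq_sg]
  simp only [Matrix.SpecialLinearGroup.coe_mul, Matrix.mulVec_mulVec, mul_assoc]

theorem isect_cols (Γ : Subgroup SL(2, ℤ)) (y γ : SL(2, ℤ)) :
    isect Γ (y.1 *ᵥ ![1, 0]) (y.1 *ᵥ ![0, 1]) γ =
      ∑ᶠ δ : Γ, (sgSL (γ * ((δ : SL(2, ℤ)) * y)) - sgSL ((δ : SL(2, ℤ)) * y)) := by
  unfold isect
  exact finsum_congr fun δ => isectTerm_cols y γ δ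

/-- (POT d), second half: for the `Γ`-average `m = ∑_δ m0 (δ ·)` of a finitely supported `m0`,
the defect `∑ m y (sgSL (γ y) - sgSL y)` is the `m0`-combination of the intersection numbers of the
Farey edges `{y ∞, y 0}` with `γ`. -/
theorem finsum_avg_mul_eq_isect (h : Fin2Stmt) (Γ : Subgroup SL(2, ℤ)) (m0 : SL(2, ℤ) → ℤ)
    (hm0 : (Function.support m0).Finite) (γ : SL(2, ℤ)) :
    ∑ᶠ y : SL(2, ℤ), (∑ᶠ δ : Γ, m0 ((δ : SL(2, ℤ)) * y)) * (sgSL (γ * y) - sgSL y) =
      ∑ᶠ y : SL(2, ℤ), m0 y * isect Γ (y.1 *ᵥ ![1, 0]) (y.1 *ᵥ ![0, 1]) γ := by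
  set G' : SL(2, ℤ) × Γ → ℤ := fun p =>
    m0 p.1 * (sgSL (γ * ((p.2 : SL(2, ℤ)) * p.1)) - sgSL ((p.2 : SL(2, ℤ)) * p.1)) with hG'
  set G : SL(2, ℤ) × Γ → ℤ := fun p =>
    m0 ((p.2 : SL(2, ℤ)) * p.1) * (sgSL (γ * p.1) - sgSL p.1) with hG
  let e : SL(2, ℤ) × Γ ≃ SL(2, ℤ) × Γ :=
    { toFun := fun p => ((p.2 : SL(2, ℤ)) * p.1, p.2⁻¹)
      invFun := fun p => ((p.2 : SL(2, ℤ)) * p.1, p.2⁻¹)
      left_inv := by
        intro p
        ext1
        · simp
        · simp
      right_inv := by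
        intro p
        ext1
        · simp
        · simp }
  have hGe : ∀ p, G p = G' (e p) := by
    intro p
    simp only [hG, hG', e, Equiv.coe_fn_mk, Subgroup.coe_inv, inv_mul_cancel_left]
  -- finiteness of the support of G'
  have hfinG' : (Function.support G').Finite := by
    have hinj : Function.Injective fun p : SL(2, ℤ) × Γ =>
        ((p.1, (p.2 : SL(2, ℤ)) * p.1) : SL(2, ℤ) × SL(2, ℤ)) := by
      intro p p' hpp
      simp only [Prod.mk.injEq] at hpp
      obtain ⟨h1, h2⟩ := hpp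
      rw [h1] at h2
      have h3 : (p.2 : SL(2, ℤ)) = p'.2 := mul_right_cancel h2
      exact Prod.ext h1 (Subtype.ext h3)
    refine ((hm0.prod (sgSL_mul_support_finite h γ)).preimage hinj.injOn).subset ?_
    intro p hp
    simp only [Function.mem_support, hG'] at hp
    simp only [Set.mem_preimage, Set.mem_prod, Function.mem_support, Set.mem_ofPred_eq]
    refine ⟨fun h0 => hp (by rw [h0, zero_mul]), fun h0 => hp ?_⟩
    rw [h0, sub_self, mul_zero]
  have hfinG : (Function.support G).Finite := by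
    have : Function.support G = e ⁻¹' Function.support G' := by
      ext p
      simp only [Function.mem_support, Set.mem_preimage, hGe p]
    rw [this]
    exact hfinG'.preimage e.injective.injOn
  have hL : ∑ᶠ y : SL(2, ℤ), (∑ᶠ δ : Γ, m0 ((δ : SL(2, ℤ)) * y)) * (sgSL (γ * y) - sgSL y) =
      ∑ᶠ p, G p := by
    rw [finsum_curry G hfinG]
    refine finsum_congr fun y => ?_
    rw [finsum_mul]
  have hR : ∑ᶠ y : SL(2, ℤ), m0 y * isect Γ (y.1 *ᵥ ![1, 0]) (y.1 *ᵥ ![0, 1]) γ =
      ∑ᶠ p, G' p := by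
    rw [finsum_curry G' hfinG']
    refine finsum_congr fun y => ?_
    rw [isect_cols, mul_finsum]
  rw [hL, hR, finsum_congr hGe]
  exact finsum_comp_equiv e (f := G')

end Fermat.Agent.S41.H04
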