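import Mathlib
import Fermat.Prelude.Def_ModularCurve_PeriodMap
import Fermat.Agent.S41.Isect_helper11
import Fermat.Agent.S41.IsectPot_helper4
import Fermat.Agent.S41.IsectFin_helper69

/-!
# S41, node (C), route C-I, leaf I5 (helper27): (INJ), right slot

If `w ∈ Γ` pairs to `0` mod `p` (`p` an odd prime) with every `δ ∈ Γ` in the intersection form
`ipair Γ δ w`, then every parabolic homomorphism `ψ : Γ → ℤ` is divisible by `p` at `w`.

Proof (Farey walk formula).  Let `f` be a potential of `ψ` which is right invariant under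
`ρ = S * T` and `n x = f (x * S) - f x`.  With `edge Γ x b` the intersection number of the
Farey edge `x` with `b`, the sum `R b = ∑_{x ∈ Γ \ G} n x * edge Γ x b` satisfies
`R b + 8 * f b⁻¹ = const`, so `R w = 8 * ψ w`.  On the other hand
`edge Γ x w = U (x * S) - U x` with `U x = isect Γ e₁ (x e₁) w`, and `U` is `Γ`-invariant mod `p`
and right `T`-invariant, while `n x = d (x * T) - d x` for a `Γ`-invariant `d`
(here parabolicity of `ψ` enters); reindexing the finite sum gives `R w ≡ 0` mod `p`.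
-/

set_option autoImplicit false

namespace Fermat.Agent.S41.H27

open Matrix
open scoped MatrixGroups
open Fermat.Agent.S41

/-! ### potentials of a homomorphism on double cosets -/

section Potential

variable {G : Type*} [Group G]

/-- A potential of `ψ`: left `Γ`-equivariant, right `K`-invariant, provided `ψ` kills the elements
of `Γ` conjugate to elements of `K`. -/
theorem exists_potential (Γ K : Subgroup G) (ψ : Additive Γ →+ ℤ)
    (hK : ∀ (γ : Γ) (x k : G), k ∈ K → (γ : G) = x * k * x⁻¹ → ψ (Additive.ofMul γ) = 0) :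
    ∃ f : G → ℤ, (∀ (γ : Γ) (x : G), f ((γ : G) * x) = f x + ψ (Additive.ofMul γ)) ∧
      (∀ (x k : G), k ∈ K → f (x * k) = f x) := by
  classical
  have hrep : ∀ g : G, ∃ h : Γ, ∃ k : G, k ∈ K ∧
      (DoubleCoset.mk Γ K g).out = (h : G) * g * k := by
    intro g
    obtain ⟨h, k, hh, hk, e⟩ := DoubleCoset.mk_out_eq_mul Γ K g
    exact ⟨⟨h, hh⟩, k, hk, e⟩
  choose h k hk he using hrep
  refine ⟨fun g => - ψ (Additive.ofMul (h g)), ?_, ?_⟩
  · intro γ x
    have hq : DoubleCoset.mk Γ K ((γ : G) * x) = DoubleCoset.mk Γ K x := by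
      rw [DoubleCoset.eq]
      exact ⟨(γ : G)⁻¹, Γ.inv_mem γ.2, 1, K.one_mem, by simp⟩
    have e1 := he ((γ : G) * x)
    rw [hq, he x] at e1
    have e3 : ((h ((γ : G) * x) : Γ) : G) =
        (h x : G) * x * k x * (k ((γ : G) * x))⁻¹ * x⁻¹ * (γ : G)⁻¹ := by
      rw [e1]; group
    have key : (((h x)⁻¹ * h ((γ : G) * x) * γ : Γ) : G) =
        x * (k x * (k ((γ : G) * x))⁻¹) * x⁻¹ := by
      push_cast
      rw [e3]; group
    have h0 := hK _ x _ (K.mul_mem (hk x) (K.inv_mem (hk _))) key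
    simp only [ofMul_mul, map_add, ofMul_inv, map_neg] at h0
    show - ψ (Additive.ofMul (h ((γ : G) * x))) = - ψ (Additive.ofMul (h x)) + ψ (Additive.ofMul γ)
    linarith
  · intro x k' hk'
    have hq : DoubleCoset.mk Γ K (x * k') = DoubleCoset.mk Γ K x := by
      rw [DoubleCoset.eq]
      exact ⟨1, Γ.one_mem, k'⁻¹, K.inv_mem hk', by simp⟩
    have e1 := he (x * k')
    rw [hq, he x] at e1
    have e3 : ((h (x * k') : Γ) : G) =
        (h x : G) * x * k x * (k (x * k'))⁻¹ * k'⁻¹ * x⁻¹ := by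
      rw [e1]; group
    have key : (((h x)⁻¹ * h (x * k') : Γ) : G) =
        x * (k x * (k (x * k'))⁻¹ * k'⁻¹) * x⁻¹ := by
      push_cast
      rw [e3]; group
    have h0 := hK _ x _ (K.mul_mem (K.mul_mem (hk x) (K.inv_mem (hk _))) (K.inv_mem hk')) key
    simp only [ofMul_mul, map_add, ofMul_inv, map_neg] at h0
    show - ψ (Additive.ofMul (h (x * k'))) = - ψ (Additive.ofMul (h x))
    linarith

end Potential

/-! ### finite sums over `Γ \ G` of left `Γ`-invariant functions -/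

section RSum

variable {G : Type*} [Group G] (Γ : Subgroup G) [Γ.FiniteIndex]

/-- The sum of `F` over the inverses of a set of representatives of `G ⧸ Γ`, i.e. over `Γ \ G`
if `F` is left `Γ`-invariant. -/
noncomputable def rsum (F : G → ℤ) : ℤ :=
  @Finset.sum (G ⧸ Γ) ℤ _ (@Finset.univ _ (Fintype.ofFinite _)) fun q => F (q.out)⁻¹

theorem rsum_add (F F' : G → ℤ) :
    rsum Γ (fun x => F x + F' x) = rsum Γ F + rsum Γ F' :=
  Finset.sum_add_distrib

theorem rsum_sub (F F' : G → ℤ) :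
    rsum Γ (fun x => F x - F' x) = rsum Γ F - rsum Γ F' :=
  Finset.sum_sub_distrib _ _

theorem rsum_neg (F : G → ℤ) : rsum Γ (fun x => - F x) = - rsum Γ F :=
  Finset.sum_neg_distrib _

theorem rsum_zero : rsum Γ (fun _ => (0 : ℤ)) = 0 :=
  Finset.sum_const_zero

theorem rsum_dvd (a : ℤ) (F : G → ℤ) (h : ∀ x, a ∣ F x) : a ∣ rsum Γ F :=
  Finset.dvd_sum fun _ _ => h _

theorem rsum_translate (F : G → ℤ) (hF : ∀ (γ : Γ) (x : G), F ((γ : G) * x) = F x) (g : G) :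
    rsum Γ (fun x => F (x * g)) = rsum Γ F := by
  classical
  letI : Fintype (G ⧸ Γ) := Fintype.ofFinite _
  show ∑ q : G ⧸ Γ, F ((q.out)⁻¹ * g) = ∑ q : G ⧸ Γ, F (q.out)⁻¹
  rw [← Equiv.sum_comp (MulAction.toPerm (g⁻¹ : G)) (fun q : G ⧸ Γ => F (q.out)⁻¹)]
  refine Finset.sum_congr rfl fun q _ => ?_
  have hex : ∃ γ : Γ, (g⁻¹ • q).out = g⁻¹ * q.out * γ := by
    have hq : g⁻¹ • q = (QuotientGroup.mk (g⁻¹ * q.out) : G ⧸ Γ) := by
      conv_lhs => rw [← QuotientGroup.out_eq' q]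
      rfl
    rw [hq]
    exact QuotientGroup.mk_out_eq_mul Γ (g⁻¹ * q.out)
  obtain ⟨γ, hγ⟩ := hex
  simp only [MulAction.toPerm_apply]
  rw [hγ]
  have e : (g⁻¹ * q.out * (γ : G))⁻¹ = ((γ⁻¹ : Γ) : G) * (q.out⁻¹ * g) := by
    push_cast; group
  rw [e, hF]

theorem rsum_indicator [DecidablePred (· ∈ Γ)] (F : G → ℤ)
    (hF : ∀ (γ : Γ) (x : G), F ((γ : G) * x) = F x) (x0 : G) (c : ℤ) :
    rsum Γ (fun x => F x * (if x0 * x⁻¹ ∈ Γ then c else 0)) = F x0 * c := by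
  letI : Fintype (G ⧸ Γ) := Fintype.ofFinite _
  show ∑ q : G ⧸ Γ, F (q.out)⁻¹ * (if x0 * ((q.out)⁻¹)⁻¹ ∈ Γ then c else 0) = F x0 * c
  rw [Finset.sum_eq_single (QuotientGroup.mk x0⁻¹ : G ⧸ Γ)]
  · obtain ⟨γ, hγ⟩ := QuotientGroup.mk_out_eq_mul Γ x0⁻¹
    rw [hγ]
    have h1 : x0 * ((x0⁻¹ * (γ : G))⁻¹)⁻¹ = γ := by group
    have h2 : (x0⁻¹ * (γ : G))⁻¹ = ((γ⁻¹ : Γ) : G) * x0 := by push_cast; group
    rw [h1, if_pos γ.2, h2, hF]
  · intro q _ hq
    rw [if_neg, mul_zero]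
    intro hmem
    apply hq
    rw [← QuotientGroup.out_eq' q]
    symm
    rw [QuotientGroup.eq]
    simpa using hmem
  · intro hn; exact absurd (Finset.mem_univ _) hn

theorem rsum_four [DecidablePred (· ∈ Γ)] (F : G → ℤ)
    (hF : ∀ (γ : Γ) (x : G), F ((γ : G) * x) = F x) (a₁ a₂ a₃ a₄ : G) (c₁ c₂ c₃ c₄ : ℤ) :
    rsum Γ (fun x => F x * ((if a₁ * x⁻¹ ∈ Γ then c₁ else 0) + (if a₂ * x⁻¹ ∈ Γ then c₂ else 0) +
      (if a₃ * x⁻¹ ∈ Γ then c₃ else 0) + (if a₄ * x⁻¹ ∈ Γ then c₄ else 0))) =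
      F a₁ * c₁ + F a₂ * c₂ + F a₃ * c₃ + F a₄ * c₄ := by
  simp only [mul_add]
  rw [rsum_add, rsum_add, rsum_add, rsum_indicator Γ F hF, rsum_indicator Γ F hF,
    rsum_indicator Γ F hF, rsum_indicator Γ F hF]

end RSum

/-! ### sums of point masses over a subgroup -/

section Point

variable {G : Type*} [Group G] [DecidableEq G]

theorem finsum_ite_coe (Γ : Subgroup G) [DecidablePred (· ∈ Γ)] (g : G) (c : ℤ) :
    ∑ᶠ δ : Γ, (if (δ : G) = g then c else 0) = if g ∈ Γ then c else 0 := by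
  by_cases hg : g ∈ Γ
  · rw [if_pos hg, finsum_eq_single _ (⟨g, hg⟩ : Γ)
      (fun δ hδ => if_neg (fun h => hδ (Subtype.ext h))), if_pos rfl]
  · rw [if_neg hg]
    exact finsum_eq_zero_of_forall_eq_zero fun δ => if_neg (fun h : (δ : G) = g => hg (h ▸ δ.2))

theorem support_ite_coe_finite (Γ : Subgroup G) (g : G) (c : ℤ) :
    (Function.support fun δ : Γ => if (δ : G) = g then c else 0).Finite := by
  refine Set.Subsingleton.finite ?_
  intro δ₁ h₁ δ₂ h₂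
  simp only [Function.mem_support, ne_eq, ite_eq_right_iff, Classical.not_imp] at h₁ h₂
  exact Subtype.ext (h₁.1.trans h₂.1.symm)

end Point

theorem finsum_add_four {α : Type*} (f₁ f₂ f₃ f₄ : α → ℤ) (h₁ : (Function.support f₁).Finite)
    (h₂ : (Function.support f₂).Finite) (h₃ : (Function.support f₃).Finite)
    (h₄ : (Function.support f₄).Finite) :
    ∑ᶠ i, (f₁ i + f₂ i + f₃ i + f₄ i) = ∑ᶠ i, f₁ i + ∑ᶠ i, f₂ i + ∑ᶠ i, f₃ i + ∑ᶠ i, f₄ i := by
  have h12 : (Function.support fun i => f₁ i + f₂ i).Finite :=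
    (h₁.union h₂).subset (Function.support_add _ _)
  have h123 : (Function.support fun i => f₁ i + f₂ i + f₃ i).Finite :=
    (h12.union h₃).subset (Function.support_add _ _)
  rw [finsum_add_distrib h123 h₄, finsum_add_distrib h12 h₃, finsum_add_distrib h₁ h₂]

/-! ### facts on `S`, `T` -/

section ST

open ModularGroup

theorem S_mul_S : (S : SL(2, ℤ)) * S = -1 := by
  ext i j
  fin_cases i <;> fin_cases j <;>
    simp [ModularGroup.coe_S, Matrix.SpecialLinearGroup.coe_mul, Matrix.mul_apply,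
      Fin.sum_univ_two]

theorem rho_cube : ((S : SL(2, ℤ)) * T) ^ 3 = -1 := by
  ext i j
  fin_cases i <;> fin_cases j <;>
    simp [pow_succ, ModularGroup.coe_S, ModularGroup.coe_T, Matrix.SpecialLinearGroup.coe_mul,
      Matrix.mul_apply, Fin.sum_univ_two]

theorem rho_pow_six : ((S : SL(2, ℤ)) * T) ^ 6 = 1 := by
  have h : ((S : SL(2, ℤ)) * T) ^ 6 = (((S : SL(2, ℤ)) * T) ^ 3) ^ 2 := by rw [← pow_mul]
  rw [h, rho_cube]
  simp

theorem S_mulVec_e1 : (S : SL(2, ℤ)).1 *ᵥ ![1, 0] = ![0, 1] := by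
  ext i
  fin_cases i <;> simp [ModularGroup.coe_S, Matrix.mulVec, dotProduct, Fin.sum_univ_two]

theorem T_mulVec_e1 : (T : SL(2, ℤ)).1 *ᵥ ![1, 0] = ![1, 0] := by
  ext i
  fin_cases i <;> simp [ModularGroup.coe_T, Matrix.mulVec, dotProduct, Fin.sum_univ_two]

theorem e2_ne_zero : (![0, 1] : Fin 2 → ℤ) ≠ 0 := by
  intro h
  have := congrFun h 1
  simp at this

theorem trace_conj_T_zpow (x : SL(2, ℤ)) (m : ℤ) :
    ((x * T ^ m * x⁻¹ : SL(2, ℤ)) : Matrix (Fin 2) (Fin 2) ℤ).trace = 2 := by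
  rw [Matrix.SpecialLinearGroup.coe_mul, Matrix.SpecialLinearGroup.coe_mul, Matrix.trace_mul_comm,
    ← Matrix.mul_assoc, ← Matrix.SpecialLinearGroup.coe_mul, inv_mul_cancel,
    Matrix.SpecialLinearGroup.coe_one, Matrix.one_mul, ModularGroup.coe_T_zpow]
  simp [Matrix.trace_fin_two]

end ST

/-! ### the edge function -/

section Edge

open ModularGroup

/-- The intersection number of the Farey edge `x` (from `x ∞` to `x 0`) with `b`. -/
noncomputable def edge (Γ : Subgroup SL(2, ℤ)) (x b : SL(2, ℤ)) : ℤ :=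
  H11.isect Γ (x.1 *ᵥ ![1, 0]) (x.1 *ᵥ ![0, 1]) b

theorem edge_eq (Γ : Subgroup SL(2, ℤ)) (x b : SL(2, ℤ)) :
    edge Γ x b =
      ∑ᶠ δ : Γ, (H11.sgSL (b * ((δ : SL(2, ℤ)) * x)) - H11.sgSL ((δ : SL(2, ℤ)) * x)) :=
  H04.isect_cols Γ x b

theorem edge_left (Γ : Subgroup SL(2, ℤ)) {γ : SL(2, ℤ)} (hγ : γ ∈ Γ) (x b : SL(2, ℤ)) :
    edge Γ (γ * x) b = edge Γ x b := by
  unfold edge
  rw [H11.sl_mul_mulVec, H11.sl_mul_mulVec]
  exact H11.isect_inv Γ hγ _ _ b

theorem edge_one (Γ : Subgroup SL(2, ℤ)) (x : SL(2, ℤ)) : edge Γ x 1 = 0 :=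
  H11.isect_one Γ _ _

theorem edge_rho (Γ : Subgroup SL(2, ℤ)) (x b : SL(2, ℤ)) :
    edge Γ x ((S * T)⁻¹ * b) = edge Γ x b := by
  rw [edge_eq, edge_eq]
  refine finsum_congr fun δ => ?_
  rw [mul_assoc, H04.sgSL_rho_inv_mul]

theorem edge_S (h2 : H11.Fin2Stmt) (Γ : Subgroup SL(2, ℤ)) [DecidablePred (· ∈ Γ)]
    (x b : SL(2, ℤ)) :
    edge Γ x (S⁻¹ * b) - edge Γ x b =
      (if b⁻¹ * x⁻¹ ∈ Γ then -2 else 0) + (if b⁻¹ * (-1) * x⁻¹ ∈ Γ then -2 else 0) +
        (if b⁻¹ * S * x⁻¹ ∈ Γ then 2 else 0) + (if b⁻¹ * (-S) * x⁻¹ ∈ Γ then 2 else 0) := by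
  rw [edge_eq, edge_eq]
  have hfin : ∀ c : SL(2, ℤ), (Function.support fun δ : Γ =>
      H11.sgSL (c * ((δ : SL(2, ℤ)) * x)) - H11.sgSL ((δ : SL(2, ℤ)) * x)).Finite := by
    intro c
    have := H11.isectTerm_support_finite h2 Γ (x.1 *ᵥ ![1, 0]) (x.1 *ᵥ ![0, 1]) c
    simpa only [H04.isectTerm_cols] using this
  rw [← finsum_sub_distrib (hfin _) (hfin _)]
  have c1 : ∀ (δ : Γ) (q : SL(2, ℤ)),
      (b * ((δ : SL(2, ℤ)) * x) = q) ↔ ((δ : SL(2, ℤ)) = b⁻¹ * q * x⁻¹) := by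
    intro δ q
    constructor
    · intro h; rw [← h]; group
    · intro h; rw [h]; group
  have e : ∀ δ : Γ, (H11.sgSL (S⁻¹ * b * ((δ : SL(2, ℤ)) * x)) - H11.sgSL ((δ : SL(2, ℤ)) * x)) -
      (H11.sgSL (b * ((δ : SL(2, ℤ)) * x)) - H11.sgSL ((δ : SL(2, ℤ)) * x)) =
      (if (δ : SL(2, ℤ)) = b⁻¹ * x⁻¹ then -2 else 0) +
        (if (δ : SL(2, ℤ)) = b⁻¹ * (-1) * x⁻¹ then -2 else 0) +
        (if (δ : SL(2, ℤ)) = b⁻¹ * S * x⁻¹ then 2 else 0) +
        (if (δ : SL(2, ℤ)) = b⁻¹ * (-S) * x⁻¹ then 2 else 0) := by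
    intro δ
    rw [mul_assoc S⁻¹ b, sub_sub_sub_cancel_right, H04.sgSL_S_inv_mul_sub]
    simp only [c1, mul_one]
  rw [finsum_congr e, finsum_add_four _ _ _ _ (support_ite_coe_finite Γ _ _)
    (support_ite_coe_finite Γ _ _) (support_ite_coe_finite Γ _ _) (support_ite_coe_finite Γ _ _),
    finsum_ite_coe, finsum_ite_coe, finsum_ite_coe, finsum_ite_coe]

end Edge

/-! ### the walk formula -/

section Walk

open ModularGroup

/-- The walk formula: for a `ρ`-invariant potential `f` of `ψ`, the `Γ \ G`-sum of the edge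
function against the coboundary of `f` computes `8 ψ`. -/
theorem walk (h2 : H11.Fin2Stmt) (Γ : Subgroup SL(2, ℤ)) [Γ.FiniteIndex] (ψ : Additive Γ →+ ℤ)
    (f : SL(2, ℤ) → ℤ)
    (hf1 : ∀ (γ : Γ) (x : SL(2, ℤ)), f ((γ : SL(2, ℤ)) * x) = f x + ψ (Additive.ofMul γ))
    (hfρ : ∀ x : SL(2, ℤ), f (x * (S * T)) = f x)
    (hfneg : ∀ x : SL(2, ℤ), f (-x) = f x) (w : Γ) :
    rsum Γ (fun x => (f (x * S) - f x) * edge Γ x (w : SL(2, ℤ))) =
      8 * ψ (Additive.ofMul w) := by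
  classical
  set n : SL(2, ℤ) → ℤ := fun x => f (x * S) - f x with hn
  have hnΓ : ∀ (γ : Γ) (x : SL(2, ℤ)), n ((γ : SL(2, ℤ)) * x) = n x := by
    intro γ x
    simp only [hn, mul_assoc, hf1]; ring
  set R : SL(2, ℤ) → ℤ := fun b => rsum Γ (fun x => n x * edge Γ x b) with hR
  have hn1 : ∀ x : SL(2, ℤ), n (x * (-1)) = n x := by
    intro x
    simp only [hn, mul_neg, mul_one, neg_mul, hfneg]
  have hn2 : ∀ x : SL(2, ℤ), n (x * S) = - n x := by
    intro x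
    simp only [hn]
    rw [mul_assoc, S_mul_S, mul_neg, mul_one, hfneg]; ring
  have hn3 : ∀ x : SL(2, ℤ), n (x * (-S)) = - n x := by
    intro x
    simp only [hn, mul_neg, neg_mul, hfneg]
    rw [mul_assoc, S_mul_S, mul_neg, mul_one, hfneg]; ring
  have hRS : ∀ b : SL(2, ℤ), R (S⁻¹ * b) - R b = -8 * n b⁻¹ := by
    intro b
    simp only [hR]
    rw [← rsum_sub]
    have e : ∀ x : SL(2, ℤ), n x * edge Γ x (S⁻¹ * b) - n x * edge Γ x b =
        n x * ((if b⁻¹ * x⁻¹ ∈ Γ then -2 else 0) + (if b⁻¹ * (-1) * x⁻¹ ∈ Γ then -2 else 0) +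
          (if b⁻¹ * S * x⁻¹ ∈ Γ then 2 else 0) + (if b⁻¹ * (-S) * x⁻¹ ∈ Γ then 2 else 0)) := by
      intro x
      rw [← mul_sub, edge_S h2]
    rw [show (fun x : SL(2, ℤ) => n x * edge Γ x (S⁻¹ * b) - n x * edge Γ x b) = _ from funext e,
      rsum_four Γ n hnΓ, hn1, hn2, hn3]
    ring
  have hRρ : ∀ b : SL(2, ℤ), R ((S * T)⁻¹ * b) = R b := by
    intro b
    simp only [hR, edge_rho]
  have hR1 : R 1 = 0 := by
    simp only [hR, edge_one, mul_zero]
    exact rsum_zero Γ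
  set Q : SL(2, ℤ) → ℤ := fun b => R b + 8 * f b⁻¹ with hQ
  have hQS : ∀ b : SL(2, ℤ), Q (S⁻¹ * b) = Q b := by
    intro b
    have h := hRS b
    simp only [hQ, hn] at h ⊢
    rw [_root_.mul_inv_rev, inv_inv]
    linarith
  have hQρ : ∀ b : SL(2, ℤ), Q ((S * T)⁻¹ * b) = Q b := by
    intro b
    simp only [hQ]
    rw [hRρ, _root_.mul_inv_rev, inv_inv, hfρ]
  let H : Subgroup SL(2, ℤ) :=
    { carrier := {g | ∀ b, Q (g * b) = Q b}
      mul_mem' := by
        intro a c ha hc b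
        rw [mul_assoc, ha, hc]
      one_mem' := by
        intro b
        rw [one_mul]
      inv_mem' := by
        intro a ha b
        have h := ha (a⁻¹ * b)
        rw [mul_inv_cancel_left] at h
        exact h.symm }
  have hSH : S ∈ H := by
    have h : S⁻¹ ∈ H := hQS
    simpa using H.inv_mem h
  have hρH : S * T ∈ H := by
    have h : (S * T)⁻¹ ∈ H := hQρ
    have h' := H.inv_mem h
    rwa [inv_inv] at h'
  have hTH : T ∈ H := by
    have h := H.mul_mem (H.inv_mem hSH) hρH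
    rwa [inv_mul_cancel_left] at h
  have htop : H = ⊤ := by
    apply top_le_iff.mp
    rw [← SpecialLinearGroup.SL2Z_generators]
    apply (Subgroup.closure_le H).mpr
    intro g hg
    rcases hg with rfl | rfl
    · exact hSH
    · exact hTH
  have hw : (w : SL(2, ℤ)) ∈ H := by
    rw [htop]; trivial
  have hQw : Q w = Q 1 := by
    have h := hw 1
    rwa [mul_one] at h
  simp only [hQ] at hQw
  rw [hR1, inv_one] at hQw
  have hfw : f ((w : SL(2, ℤ))⁻¹) = f 1 - ψ (Additive.ofMul w) := by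
    have h := hf1 w⁻¹ 1
    rw [mul_one] at h
    simp only [InvMemClass.coe_inv, ofMul_inv, map_neg] at h
    linarith
  show R (w : SL(2, ℤ)) = 8 * ψ (Additive.ofMul w)
  linarith

end Walk

/-! ### (INJ), right slot -/

section Inj

open ModularGroup

/-- `ψ` kills the elements of `Γ` conjugate to a power of `ρ = S * T` (they are torsion). -/
theorem kill_torsion (Γ : Subgroup SL(2, ℤ)) (ψ : Additive Γ →+ ℤ) (γ : Γ) (x k : SL(2, ℤ))
    (hk : k ∈ Subgroup.zpowers ((S : SL(2, ℤ)) * T)) (hγ : (γ : SL(2, ℤ)) = x * k * x⁻¹) :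
    ψ (Additive.ofMul γ) = 0 := by
  obtain ⟨m, rfl⟩ := Subgroup.mem_zpowers_iff.mp hk
  have h6 : (γ : SL(2, ℤ)) ^ 6 = 1 := by
    rw [hγ, conj_pow, ← zpow_natCast, ← _root_.zpow_mul, mul_comm, _root_.zpow_mul, zpow_natCast,
      rho_pow_six,
      _root_.one_zpow, mul_one, mul_inv_cancel]
  have h6' : γ ^ 6 = 1 := Subtype.ext (by simpa using h6)
  have h := congrArg (fun g => ψ (Additive.ofMul g)) h6'
  simp only [ofMul_pow, map_nsmul, ofMul_one, map_zero, nsmul_eq_mul, Nat.cast_ofNat] at h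
  omega

/-- A parabolic `ψ` kills the elements of `Γ` conjugate to a power of `T`. -/
theorem kill_parabolic (Γ : Subgroup SL(2, ℤ)) (ψ : Additive Γ →+ ℤ)
    (hψ : ModularCurve.Period.IsParabolicHom Γ ψ) (γ : Γ) (x k : SL(2, ℤ))
    (hk : k ∈ Subgroup.zpowers (T : SL(2, ℤ))) (hγ : (γ : SL(2, ℤ)) = x * k * x⁻¹) :
    ψ (Additive.ofMul γ) = 0 := by
  obtain ⟨m, rfl⟩ := Subgroup.mem_zpowers_iff.mp hk
  apply hψ γ
  rw [hγ, trace_conj_T_zpow]
  norm_num

/-- **(INJ), right slot.**  If `w ∈ Γ` pairs to `0` mod an odd prime `p` with every `δ ∈ Γ`, then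
every parabolic homomorphism `Γ → ℤ` is divisible by `p` at `w`. -/
theorem inj_right (h2 : H11.Fin2Stmt) (h3 : H11.Fin3Stmt) (Γ : Subgroup SL(2, ℤ)) [Γ.FiniteIndex]
    {p : ℕ} (hp : p.Prime) (hp2 : p ≠ 2) (w : Γ)
    (h : ∀ δ : Γ, (p : ℤ) ∣ H11.ipair Γ (δ : SL(2, ℤ)) (w : SL(2, ℤ)))
    (ψ : Additive Γ →+ ℤ) (hψ : ModularCurve.Period.IsParabolicHom Γ ψ) :
    (p : ℤ) ∣ ψ (Additive.ofMul w) := by
  classical
  obtain ⟨f, hf1, hf2⟩ := exists_potential Γ (Subgroup.zpowers ((S : SL(2, ℤ)) * T)) ψ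
    (kill_torsion Γ ψ)
  obtain ⟨u, hu1, hu2⟩ := exists_potential Γ (Subgroup.zpowers (T : SL(2, ℤ))) ψ
    (kill_parabolic Γ ψ hψ)
  have hfρ : ∀ x : SL(2, ℤ), f (x * (S * T)) = f x :=
    fun x => hf2 x _ (Subgroup.mem_zpowers _)
  have hfneg : ∀ x : SL(2, ℤ), f (-x) = f x := by
    intro x
    have h0 := hf2 x (((S : SL(2, ℤ)) * T) ^ 3) (Subgroup.pow_mem _ (Subgroup.mem_zpowers _) 3)
    rw [rho_cube, mul_neg, mul_one] at h0
    exact h0
  have huT : ∀ x : SL(2, ℤ), u (x * T) = u x := fun x => hu2 x _ (Subgroup.mem_zpowers _)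
  have hwalk := walk h2 Γ ψ f hf1 hfρ hfneg w
  set n : SL(2, ℤ) → ℤ := fun x => f (x * S) - f x with hn
  -- the function `U` and its reduction
  set U : SL(2, ℤ) → ℤ := fun x => H11.ipair Γ x (w : SL(2, ℤ)) with hU
  have hUT : ∀ x : SL(2, ℤ), U (x * T) = U x := by
    intro x
    simp only [hU, H11.ipair]
    rw [H11.sl_mul_mulVec, T_mulVec_e1]
  have hUΓ : ∀ (γ : Γ) (x : SL(2, ℤ)), U ((γ : SL(2, ℤ)) * x) = U (γ : SL(2, ℤ)) + U x :=
    fun γ x => H11.ipair_mul_left h2 h3 Γ γ.2 x w.2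
  have hE : ∀ x : SL(2, ℤ), edge Γ x (w : SL(2, ℤ)) = U (x * S) - U x := by
    intro x
    simp only [hU, H11.ipair, edge]
    rw [H11.isect_add h2 h3 Γ (H11.sl_mulVec_ne_zero x H11.e1_ne_zero) H11.e1_ne_zero
      (H11.sl_mulVec_ne_zero x e2_ne_zero) w.2, H11.isect_swap Γ ![1, 0] (x.1 *ᵥ ![1, 0]),
      H11.sl_mul_mulVec x S, S_mulVec_e1]
    ring
  set V : SL(2, ℤ) → ℤ := fun x => U x % (p : ℤ) with hV
  have hVΓ : ∀ (γ : Γ) (x : SL(2, ℤ)), V ((γ : SL(2, ℤ)) * x) = V x := by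
    intro γ x
    obtain ⟨k, hk⟩ := h γ
    simp only [hV]
    rw [hUΓ]
    have hk' : U (γ : SL(2, ℤ)) = (p : ℤ) * k := hk
    rw [hk', add_comm, Int.add_mul_emod_self_left]
  have hVT : ∀ x : SL(2, ℤ), V (x * T) = V x := by
    intro x
    simp only [hV, hUT]
  have hnΓ : ∀ (γ : Γ) (x : SL(2, ℤ)), n ((γ : SL(2, ℤ)) * x) = n x := by
    intro γ x
    simp only [hn, mul_assoc, hf1]; ring
  have hn2 : ∀ x : SL(2, ℤ), n (x * S) = - n x := by
    intro x
    simp only [hn]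
    rw [mul_assoc, S_mul_S, mul_neg, mul_one, hfneg]; ring
  -- `n` is the `T`-coboundary of a `Γ`-invariant function
  set d : SL(2, ℤ) → ℤ := fun x => f x - u x with hd
  have hdΓ : ∀ (γ : Γ) (x : SL(2, ℤ)), d ((γ : SL(2, ℤ)) * x) = d x := by
    intro γ x
    simp only [hd, hf1, hu1]; ring
  have hfT : ∀ x : SL(2, ℤ), f (x * T) = f (x * S) := by
    intro x
    have e : x * T = -(x * S) * (S * T) := by
      rw [neg_mul, ← mul_assoc, mul_assoc x S S, S_mul_S, mul_neg, mul_one, neg_mul, neg_neg]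
    rw [e, hfρ, hfneg]
  have hnd : ∀ x : SL(2, ℤ), n x = d (x * T) - d x := by
    intro x
    simp only [hn, hd, hfT, huT]; ring
  -- the two vanishing sums
  have hB : rsum Γ (fun x => n x * V x) = 0 := by
    have e : (fun x : SL(2, ℤ) => n x * V x) =
        fun x => (fun y => d y * V y) (x * T) - (fun y => d y * V y) x := by
      funext x
      simp only [hnd, hVT]; ring
    rw [e, rsum_sub, rsum_translate Γ (fun y => d y * V y)
      (fun γ y => by simp only [hdΓ, hVΓ]) T, sub_self]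
  have hC : rsum Γ (fun x => n x * V (x * S)) = 0 := by
    have e : (fun x : SL(2, ℤ) => n x * V (x * S)) =
        fun x => - (fun y => n y * V y) (x * S) := by
      funext x
      simp only [hn2]; ring
    rw [e, rsum_neg, rsum_translate Γ (fun y => n y * V y)
      (fun γ y => by simp only [hnΓ, hVΓ]) S, hB, neg_zero]
  have hA : rsum Γ (fun x => n x * (V (x * S) - V x)) = 0 := by
    have e : (fun x : SL(2, ℤ) => n x * (V (x * S) - V x)) =
        fun x => n x * V (x * S) - n x * V x := by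
      funext x; ring
    rw [e, rsum_sub, hB, hC, sub_zero]
  -- comparison mod `p`
  have hdiv : (p : ℤ) ∣ rsum Γ (fun x => n x * edge Γ x (w : SL(2, ℤ))) -
      rsum Γ (fun x => n x * (V (x * S) - V x)) := by
    rw [← rsum_sub]
    refine rsum_dvd Γ _ _ fun x => ?_
    rw [← mul_sub, hE]
    refine Dvd.dvd.mul_left ?_ _
    have e : U (x * S) - U x - (V (x * S) - V x) = (U (x * S) - V (x * S)) - (U x - V x) := by
      ring
    rw [e]
    exact dvd_sub (Int.mod_modEq (U (x * S)) p).dvd (Int.mod_modEq (U x) p).dvd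
  rw [hA, sub_zero] at hdiv
  have h8 : (p : ℤ) ∣ 8 * ψ (Additive.ofMul w) := by
    rw [← hwalk]; exact hdiv
  have hcop : IsCoprime (p : ℤ) ((8 : ℕ) : ℤ) := by
    rw [Nat.isCoprime_iff_coprime]
    have h28 : (8 : ℕ) = 2 ^ 3 := by norm_num
    rw [h28]
    exact Nat.Coprime.pow_right 3 ((Nat.coprime_primes hp Nat.prime_two).mpr hp2)
  exact hcop.dvd_of_dvd_mul_left (by simpa using h8)

/-- (INJ), right slot, with the two finiteness statements discharged (helper69's `fin2`,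
`fin3`). -/
theorem inj_right' (Γ : Subgroup SL(2, ℤ)) [Γ.FiniteIndex] {p : ℕ} (hp : p.Prime) (hp2 : p ≠ 2)
    (w : Γ) (h : ∀ δ : Γ, (p : ℤ) ∣ H11.ipair Γ (δ : SL(2, ℤ)) (w : SL(2, ℤ)))
    (ψ : Additive Γ →+ ℤ) (hψ : ModularCurve.Period.IsParabolicHom Γ ψ) :
    (p : ℤ) ∣ ψ (Additive.ofMul w) :=
  inj_right (fun α hα d hd => H69.fin2 α hα d hd)
    (fun d₁ d₂ d₃ h₁ h₂ h₃ => H69.fin3 d₁ d₂ d₃ h₁ h₂ h₃) Γ hp hp2 w h ψ hψ

end Inj

end Fermat.Agent.S41.H27
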