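import Mathlib
import Fermat.Agent.S41.CITop_helper39
import Fermat.Agent.S41.IsectInj_helper27

/-!
# S41, route C-I: the leaf `H39.InjRStmt` of `H39.hkey_concrete`, closed (helper27)

`injRStmt N p : H39.InjRStmt N p` for every level `N` and every odd prime `p`, without
hypotheses: for `N ≠ 0` this is `H27.inj_right'` (the subgroup `Gamma0 N` has finite index); for
`N = 0` every element of `Gamma0 0` is parabolic, so a parabolic character vanishes identically.
-/

set_option autoImplicit false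

namespace Fermat.Agent.S41.H27

open CongruenceSubgroup Matrix
open scoped MatrixGroups

/-- Every element of `Gamma0 0` has trace `± 2`. -/
theorem trace_sq_of_mem_Gamma0_zero (w : Gamma0 0) :
    ((w : SL(2, ℤ)) : Matrix (Fin 2) (Fin 2) ℤ).trace ^ 2 = 4 := by
  have hw := w.2
  rw [Gamma0_mem] at hw
  have h10 : (w : SL(2, ℤ)) 1 0 = 0 := by
    have h := (ZMod.intCast_zmod_eq_zero_iff_dvd ((w : SL(2, ℤ)) 1 0) 0).mp hw
    simpa using h
  have hdet : (w : SL(2, ℤ)) 0 0 * (w : SL(2, ℤ)) 1 1 - (w : SL(2, ℤ)) 0 1 * (w : SL(2, ℤ)) 1 0 = 1 := by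
    have h := (w : SL(2, ℤ)).2
    rw [Matrix.det_fin_two] at h
    exact h
  rw [h10, mul_zero, sub_zero] at hdet
  rw [Matrix.trace_fin_two]
  rcases Int.eq_one_or_neg_one_of_mul_eq_one' hdet with ⟨h0, h1⟩ | ⟨h0, h1⟩
  · show ((w : SL(2, ℤ)) 0 0 + (w : SL(2, ℤ)) 1 1) ^ 2 = 4
    rw [h0, h1]; norm_num
  · show ((w : SL(2, ℤ)) 0 0 + (w : SL(2, ℤ)) 1 1) ^ 2 = 4
    rw [h0, h1]; norm_num

/-- (INJ-right), literal leaf `H39.InjRStmt N p`, for every level `N` and every odd prime `p`. -/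
theorem injRStmt (N p : ℕ) (hp : p.Prime) (hp2 : p ≠ 2) : H39.InjRStmt N p := by
  intro w h ψ hψ
  rcases Nat.eq_zero_or_pos N with hN | hN
  · subst hN
    rw [hψ w (trace_sq_of_mem_Gamma0_zero w)]
    exact dvd_zero _
  · haveI : NeZero N := ⟨hN.ne'⟩
    exact inj_right' (Gamma0 N) hp hp2 w h ψ hψ

end Fermat.Agent.S41.H27
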