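import Mathlib
import Fermat.Prelude.Def_ModularCurve_PeriodMap
import Fermat.Agent.S41.Isect_helper11
import Fermat.Agent.S41.IsectFin_helper69

/-!
# S41, node (C), route C-I: the trivial half of (PAR) — left-slot parabolic vanishing (helper17)

`ipair Γ g γ = isect Γ e₁ (g e₁) γ` vanishes as soon as `g ∈ Γ` fixes a cusp, i.e. as soon as
`trace(g)² = 4`: such a `g` has a nonzero integer eigenvector `c` (eigenvalue `±1`), and
`{e₁, g e₁} = {e₁, c} + {c, g e₁} = {e₁, c} + {g c, g e₁} = {e₁, c} + {c, e₁} = 0`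
by the triangle relation, sign invariance and `Γ`-invariance of the symbol.

Consequently the first-slot maps `g ↦ ipair Γ g γ` (`γ ∈ Γ`) are parabolic homomorphisms
`Additive Γ →+ ℤ` (`ipairHomLeft`, `isParabolicHom_ipairHomLeft`, `ipairHomLeft_mem`).
The second-slot maps `γ ↦ ipair Γ g γ` are homomorphisms as well (`ipairHomRight`); their
parabolicity is the non-formal leaf (PAR-R), taken here as a hypothesis in
`isParabolicHom_ipairHomRight`.

The finiteness statements `H11.Fin2Stmt`, `H11.Fin3Stmt` are closed with `H69.fin2`, `H69.fin3`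
(`fin2Stmt`, `fin3Stmt`).
-/

set_option autoImplicit false

namespace Fermat.Agent.S41.H17

open Matrix
open scoped MatrixGroups
open Fermat.Agent.S41.H11

/-- `H11.Fin2Stmt`, closed by helper69's `fin2`. -/
theorem fin2Stmt : Fin2Stmt := fun α hα d hd => H69.fin2 α hα d hd

/-- `H11.Fin3Stmt`, closed by helper69's `fin3`. -/
theorem fin3Stmt : Fin3Stmt := fun d₁ d₂ d₃ h₁ h₂ h₃ => H69.fin3 d₁ d₂ d₃ h₁ h₂ h₃

/-- A matrix of `SL(2, ℤ)` with `trace² = 4` has a nonzero integer eigenvector with eigenvalue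
`ε = ±1` (it fixes a cusp). -/
theorem exists_eigenvec_of_trace_sq (g : SL(2, ℤ)) (htr : g.1.trace ^ 2 = 4) :
    ∃ (c : Fin 2 → ℤ) (ε : ℤ), c ≠ 0 ∧ ε ≠ 0 ∧ g.1 *ᵥ c = ε • c := by
  have hdet : g.1 0 0 * g.1 1 1 - g.1 0 1 * g.1 1 0 = 1 := by
    have := g.2
    rw [Matrix.det_fin_two] at this
    exact this
  have htr' : (g.1 0 0 + g.1 1 1) ^ 2 = 4 := by
    rw [Matrix.trace_fin_two] at htr
    exact htr
  obtain ⟨ε, hε, hε2⟩ : ∃ ε : ℤ, ε * ε = 1 ∧ g.1 0 0 + g.1 1 1 = 2 * ε := by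
    have h : (g.1 0 0 + g.1 1 1 - 2) * (g.1 0 0 + g.1 1 1 + 2) = 0 := by nlinarith
    rcases mul_eq_zero.mp h with h | h
    · exact ⟨1, by norm_num, by linarith⟩
    · exact ⟨-1, by norm_num, by linarith⟩
  have hε0 : ε ≠ 0 := by
    rintro rfl
    norm_num at hε
  by_cases hb : g.1 0 1 = 0 ∧ g.1 0 0 = ε
  · obtain ⟨hb0, ha⟩ := hb
    have hd : g.1 1 1 = ε := by linarith
    refine ⟨![0, 1], ε, ?_, hε0, ?_⟩
    · intro h
      have := congrFun h 1
      simp at this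
    · funext i
      fin_cases i
      · simp [Matrix.mulVec, dotProduct, Fin.sum_univ_two, hb0]
      · simp [Matrix.mulVec, dotProduct, Fin.sum_univ_two, hd]
  · refine ⟨![g.1 0 1, ε - g.1 0 0], ε, ?_, hε0, ?_⟩
    · intro h
      apply hb
      have h0 := congrFun h 0
      have h1 := congrFun h 1
      simp only [Fin.isValue, Matrix.cons_val_zero, Pi.zero_apply, Matrix.cons_val_one] at h0 h1
      exact ⟨h0, by linarith⟩
    · funext i
      fin_cases i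
      · simp only [Matrix.mulVec, dotProduct, Fin.sum_univ_two, Fin.zero_eta, Fin.isValue,
          Matrix.cons_val_zero, Matrix.cons_val_one, Pi.smul_apply, smul_eq_mul]
        ring
      · simp only [Matrix.mulVec, dotProduct, Fin.sum_univ_two, Fin.mk_one, Fin.isValue,
          Matrix.cons_val_zero, Matrix.cons_val_one, Pi.smul_apply, smul_eq_mul]
        have e1 : g.1 1 1 = 2 * ε - g.1 0 0 := by linarith
        rw [e1] at hdet ⊢
        linear_combination (-1 : ℤ) * hdet + (1 : ℤ) * hε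

/-- The symbol `{u, g u}` is trivial when `g ∈ Γ` fixes a cusp (`trace(g)² = 4`). -/
theorem isect_parabolic_left (h2 : Fin2Stmt) (h3 : Fin3Stmt) (Γ : Subgroup SL(2, ℤ))
    {g γ : SL(2, ℤ)} (hg : g ∈ Γ) (hγ : γ ∈ Γ) (htr : g.1.trace ^ 2 = 4) {u : Fin 2 → ℤ}
    (hu : u ≠ 0) : isect Γ u (g.1 *ᵥ u) γ = 0 := by
  obtain ⟨c, ε, hc, hε, hgc⟩ := exists_eigenvec_of_trace_sq g htr
  have h1 := isect_add h2 h3 Γ hu hc (sl_mulVec_ne_zero g hu) hγ
  have h2' : isect Γ c (g.1 *ᵥ u) γ = isect Γ c u γ := by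
    rw [← isect_inv Γ hg c u γ, hgc, isect_smul_left Γ hε]
  rw [h1, h2', isect_swap Γ u c γ]
  ring

/-- **(PAR-left)**: `ipair Γ g γ = 0` when `g ∈ Γ` has `trace² = 4` (`γ ∈ Γ` arbitrary). -/
theorem ipair_parabolic_left_of (h2 : Fin2Stmt) (h3 : Fin3Stmt) (Γ : Subgroup SL(2, ℤ))
    {g γ : SL(2, ℤ)} (hg : g ∈ Γ) (hγ : γ ∈ Γ) (htr : g.1.trace ^ 2 = 4) : ipair Γ g γ = 0 :=
  isect_parabolic_left h2 h3 Γ hg hγ htr e1_ne_zero

/-- **(PAR-left)**, unconditional. -/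
theorem ipair_parabolic_left (Γ : Subgroup SL(2, ℤ)) {g γ : SL(2, ℤ)} (hg : g ∈ Γ) (hγ : γ ∈ Γ)
    (htr : g.1.trace ^ 2 = 4) : ipair Γ g γ = 0 :=
  ipair_parabolic_left_of fin2Stmt fin3Stmt Γ hg hγ htr

/-- Bi-additivity of the intersection form on `Γ × Γ`, unconditional (left slot). -/
theorem ipair_mul_left' (Γ : Subgroup SL(2, ℤ)) {g₁ g₂ γ : SL(2, ℤ)} (hg₁ : g₁ ∈ Γ)
    (hγ : γ ∈ Γ) : ipair Γ (g₁ * g₂) γ = ipair Γ g₁ γ + ipair Γ g₂ γ :=
  ipair_mul_left fin2Stmt fin3Stmt Γ hg₁ g₂ hγ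

/-- Bi-additivity of the intersection form on `Γ × Γ`, unconditional (right slot). -/
theorem ipair_mul_right' (Γ : Subgroup SL(2, ℤ)) (g γ₁ : SL(2, ℤ)) {γ₂ : SL(2, ℤ)}
    (hγ₂ : γ₂ ∈ Γ) : ipair Γ g (γ₁ * γ₂) = ipair Γ g γ₁ + ipair Γ g γ₂ :=
  ipair_mul_right fin2Stmt Γ g γ₁ hγ₂

/-- The first-slot homomorphism `g ↦ ipair Γ g γ` for `γ ∈ Γ`. -/
noncomputable def ipairHomLeft (Γ : Subgroup SL(2, ℤ)) (γ : Γ) : Additive Γ →+ ℤ where
  toFun g := ipair Γ ((Additive.toMul g : Γ) : SL(2, ℤ)) (γ : SL(2, ℤ))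
  map_zero' := ipair_one_left Γ _
  map_add' a _ := ipair_mul_left' Γ (Additive.toMul a : Γ).2 γ.2

@[simp] theorem ipairHomLeft_apply (Γ : Subgroup SL(2, ℤ)) (γ g : Γ) :
    ipairHomLeft Γ γ (Additive.ofMul g) = ipair Γ (g : SL(2, ℤ)) (γ : SL(2, ℤ)) := rfl

/-- The first-slot homomorphisms are parabolic. -/
theorem isParabolicHom_ipairHomLeft (Γ : Subgroup SL(2, ℤ)) (γ : Γ) :
    ModularCurve.Period.IsParabolicHom Γ (ipairHomLeft Γ γ) := fun g hg =>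
  ipair_parabolic_left Γ g.2 γ.2 hg

theorem ipairHomLeft_mem (Γ : Subgroup SL(2, ℤ)) (γ : Γ) :
    ipairHomLeft Γ γ ∈ ModularCurve.Period.parabolicHoms ℤ Γ ℤ :=
  isParabolicHom_ipairHomLeft Γ γ

/-- The first-slot homomorphism is additive in the parameter `γ`. -/
theorem ipairHomLeft_mul (Γ : Subgroup SL(2, ℤ)) (γ₁ γ₂ : Γ) :
    ipairHomLeft Γ (γ₁ * γ₂) = ipairHomLeft Γ γ₁ + ipairHomLeft Γ γ₂ := by
  apply AddMonoidHom.ext
  intro g
  exact ipair_mul_right' Γ _ _ γ₂.2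

/-- The second-slot homomorphism `γ ↦ ipair Γ g γ` (any `g`). -/
noncomputable def ipairHomRight (Γ : Subgroup SL(2, ℤ)) (g : SL(2, ℤ)) : Additive Γ →+ ℤ where
  toFun γ := ipair Γ g ((Additive.toMul γ : Γ) : SL(2, ℤ))
  map_zero' := ipair_one_right Γ _
  map_add' _ b := ipair_mul_right' Γ g _ (Additive.toMul b : Γ).2

@[simp] theorem ipairHomRight_apply (Γ : Subgroup SL(2, ℤ)) (g : SL(2, ℤ)) (γ : Γ) :
    ipairHomRight Γ g (Additive.ofMul γ) = ipair Γ g (γ : SL(2, ℤ)) := rfl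

/-- The second-slot homomorphism is additive in the parameter `g ∈ Γ`. -/
theorem ipairHomRight_mul (Γ : Subgroup SL(2, ℤ)) (g₁ g₂ : Γ) :
    ipairHomRight Γ ((g₁ * g₂ : Γ) : SL(2, ℤ)) =
      ipairHomRight Γ (g₁ : SL(2, ℤ)) + ipairHomRight Γ (g₂ : SL(2, ℤ)) := by
  apply AddMonoidHom.ext
  intro γ
  exact ipair_mul_left' Γ g₁.2 (Additive.toMul γ : Γ).2

/-- The second-slot homomorphisms are parabolic, given the leaf (PAR-R) (right-slot parabolic
vanishing) as a hypothesis in its literal board shape. -/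
theorem isParabolicHom_ipairHomRight (Γ : Subgroup SL(2, ℤ))
    (hparR : ∀ {g π : SL(2, ℤ)}, g ∈ Γ → π ∈ Γ → π.1.trace ^ 2 = 4 → ipair Γ g π = 0)
    (g : Γ) : ModularCurve.Period.IsParabolicHom Γ (ipairHomRight Γ (g : SL(2, ℤ))) :=
  fun γ hγ => hparR g.2 γ.2 hγ

end Fermat.Agent.S41.H17
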