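import Mathlib
import Fermat.Agent.S41.IsectDef_helper11
import Fermat.Agent.S41.IsectFin_helper69

/-!
# S41, node (C), route C-I, leaf (PAR-R) (helper32): right-slot parabolic vanishing

For an ARBITRARY subgroup `Γ ≤ SL(2, ℤ)` and `g, π ∈ Γ` with `(trace π)² = 4`:

* `isect_parabolic_right` : `isect Γ u (g u) π = 0` for every `u` with `det2 u t ≠ 0` for some `t`;
* `ipair_parabolic_right` : `ipair Γ g π = 0`.

Proof.  `ε := trace / 2 = ±1`, `N := ε π - 1` is nilpotent and `(ε π)^k = 1 + k N`.  Along a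
`π`-orbit `k ↦ π^k δ` the side function `sg (π^k a) (π^k b)` is the sign of a polynomial of degree
`≤ 2` in `k`; its two limits at `±∞` agree unless exactly one of `a, b` lies on the fixed line of
`π`, where the jump is `∓ 2σ` with a universal sign `σ` (`orb_limits`).  Subtracting the
correction `corr δ - corr (δ g)` (a side function of the auxiliary symbol `{[u], [t]}` cut off to
the fixed line) gives a function `hfun` whose limits agree on every orbit (`orbit_limit`), so its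
increments sum to zero (`finsum_shift_sub_eq_zero`); the increments of the two correction terms
have the same sum by reindexing `δ ↦ δ g`.  Finiteness of all supports is `H69.fin2`.
-/

set_option autoImplicit false

namespace Fermat.Agent.S41.H32

open Matrix
open scoped MatrixGroups
open Fermat.Agent.S41.H11

/-! ### (T) the telescoping lemma -/

theorem finsum_shift_sub_eq_zero {X : Type*} (τ : X ≃ X) (h : X → ℤ)
    (hD : (Function.support fun x => h (τ x) - h x).Finite)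
    (hlim : ∀ x, ∃ (s : ℤ) (K : ℕ), ∀ k : ℕ, K ≤ k → h (τ^[k] x) = s ∧ h (τ.symm^[k] x) = s) :
    ∑ᶠ x, (h (τ x) - h x) = 0 := by
  choose s K hs using hlim
  have hsτ : ∀ x, s (τ x) = s x := by
    intro x
    have h1 := (hs (τ x) (max (K x) (K (τ x))) (le_max_right _ _)).1
    have h2 := (hs x (max (K x) (K (τ x)) + 1) (by
      have := le_max_left (K x) (K (τ x)); omega)).1
    rw [Function.iterate_succ_apply] at h2
    exact h1.symm.trans h2
  have hsτk : ∀ (k : ℕ) (x : X), s (τ^[k] x) = s x := by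
    intro k
    induction k with
    | zero => intro x; rfl
    | succ n ih => intro x; rw [Function.iterate_succ_apply, ih, hsτ]
  have hc : ∀ x, (h (τ x) - s (τ x)) - (h x - s x) = h (τ x) - h x := by
    intro x; rw [hsτ]; ring
  have key : ∀ x, h x - s x ≠ 0 → ∃ k : ℕ, h (τ (τ^[k] x)) - h (τ^[k] x) ≠ 0 := by
    intro x hx
    by_contra hcon
    have hcon' : ∀ k : ℕ, h (τ (τ^[k] x)) - h (τ^[k] x) = 0 :=
      fun k => by_contra fun hk => hcon ⟨k, hk⟩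
    have hall : ∀ k : ℕ, h (τ^[k] x) = h x := by
      intro k
      induction k with
      | zero => rfl
      | succ n ih =>
        rw [Function.iterate_succ_apply']
        have := hcon' n
        linarith
    have h1 := (hs x (K x) le_rfl).1
    rw [hall (K x)] at h1
    exact hx (by rw [h1]; ring)
  have hfin : (Function.support fun x => h x - s x).Finite := by
    refine Set.Finite.subset
      (hD.biUnion (fun y _ => (Set.finite_Iio (K y)).image (fun k => τ.symm^[k] y))) ?_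
    intro x hx
    obtain ⟨k, hk⟩ := key x hx
    have hback : τ.symm^[k] (τ^[k] x) = x :=
      (Function.LeftInverse.iterate τ.left_inv k) x
    refine Set.mem_biUnion (x := τ^[k] x) hk ⟨k, ?_, hback⟩
    by_contra hge
    have hge' : K (τ^[k] x) ≤ k := not_lt.mp hge
    have h2 := (hs (τ^[k] x) k hge').2
    rw [hback, hsτk] at h2
    exact hx (by show h x - s x = 0; rw [h2]; ring)
  have hfin' : (Function.support fun x => h (τ x) - s (τ x)).Finite := by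
    have : (Function.support fun x => h (τ x) - s (τ x)) =
        τ ⁻¹' (Function.support fun x => h x - s x) := by
      ext x; simp
    rw [this]
    exact hfin.preimage τ.injective.injOn
  calc ∑ᶠ x, (h (τ x) - h x) = ∑ᶠ x, ((h (τ x) - s (τ x)) - (h x - s x)) :=
        finsum_congr (fun x => (hc x).symm)
    _ = ∑ᶠ x, (h (τ x) - s (τ x)) - ∑ᶠ x, (h x - s x) := finsum_sub_distrib hfin' hfin
    _ = 0 := by
        rw [finsum_comp_equiv τ (f := fun x => h x - s x)]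
        ring


/-! ### sign lemmas -/

theorem sign_lin_pos (q0 q1 : ℤ) (h1 : q1 ≠ 0) (k : ℤ) (hk : |q0| + 1 ≤ k) :
    Int.sign (q0 + k * q1) = Int.sign q1 := by
  have hk0 : 0 < k := by have := abs_nonneg q0; linarith
  have hq0 := abs_le.mp (le_refl |q0|)
  rcases lt_or_gt_of_ne h1 with h | h
  · have h' : q1 ≤ -1 := by omega
    have : q0 + k * q1 < 0 := by nlinarith
    rw [Int.sign_eq_neg_one_of_neg this, Int.sign_eq_neg_one_of_neg h]
  · have h' : 1 ≤ q1 := by omega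
    have : 0 < q0 + k * q1 := by nlinarith
    rw [Int.sign_eq_one_of_pos this, Int.sign_eq_one_of_pos h]

theorem sign_lin_neg (q0 q1 : ℤ) (h1 : q1 ≠ 0) (k : ℤ) (hk : |q0| + 1 ≤ k) :
    Int.sign (q0 + (-k) * q1) = - Int.sign q1 := by
  have := sign_lin_pos q0 (-q1) (neg_ne_zero.mpr h1) k hk
  rw [Int.sign_neg] at this
  rw [← this]
  congr 1
  ring

theorem sign_quad (q0 q1 q2 : ℤ) (h2 : q2 ≠ 0) (k : ℤ) (hk : |q0| + |q1| + 1 ≤ |k|) :
    Int.sign (q0 + k * q1 + k ^ 2 * q2) = Int.sign q2 := by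
  have hq0 := abs_le.mp (le_refl |q0|)
  have hq1 := abs_nonneg q1
  have hq0' := abs_nonneg q0
  have hm1 : 1 ≤ |k| := by linarith
  have hkk : k ^ 2 = |k| * |k| := by rw [abs_mul_abs_self]; ring
  have hkq : |k * q1| = |k| * |q1| := abs_mul k q1
  have hkq' := abs_le.mp (le_refl |k * q1|)
  rw [hkq] at hkq'
  have hbig : |q0| + |k| * |q1| < k ^ 2 := by
    rw [hkk]; nlinarith
  rcases lt_or_gt_of_ne h2 with h | h
  · have h' : q2 ≤ -1 := by omega
    have hk2 : 0 ≤ k ^ 2 := sq_nonneg k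
    have : q0 + k * q1 + k ^ 2 * q2 < 0 := by nlinarith
    rw [Int.sign_eq_neg_one_of_neg this, Int.sign_eq_neg_one_of_neg h]
  · have h' : 1 ≤ q2 := by omega
    have hk2 : 0 ≤ k ^ 2 := sq_nonneg k
    have : 0 < q0 + k * q1 + k ^ 2 * q2 := by nlinarith
    rw [Int.sign_eq_one_of_pos this, Int.sign_eq_one_of_pos h]

/-! ### the nilpotent part -/

/-- The nilpotent map `N v` for `N = [[x, y], [z, -x]]`. -/
def nv (x y z : ℤ) (v : Fin 2 → ℤ) : Fin 2 → ℤ := ![x * v 0 + y * v 1, z * v 0 - x * v 1]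

/-- `(1 + k N) v`. -/
def sh (x y z : ℤ) (k : ℤ) (v : Fin 2 → ℤ) : Fin 2 → ℤ := v + k • nv x y z v

/-- `det2 v (N v)`. -/
def tauN (x y z : ℤ) (v : Fin 2 → ℤ) : ℤ := det2 v (nv x y z v)

variable {x y z : ℤ}

@[simp] theorem nv_zero_apply (v : Fin 2 → ℤ) : nv x y z v 0 = x * v 0 + y * v 1 := rfl
@[simp] theorem nv_one_apply (v : Fin 2 → ℤ) : nv x y z v 1 = z * v 0 - x * v 1 := rfl

theorem vec_ext {a b : Fin 2 → ℤ} (h0 : a 0 = b 0) (h1 : a 1 = b 1) : a = b := by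
  ext i; fin_cases i
  · exact h0
  · exact h1

theorem vec_eq_zero_iff {a : Fin 2 → ℤ} : a = 0 ↔ a 0 = 0 ∧ a 1 = 0 := by
  constructor
  · rintro rfl; exact ⟨rfl, rfl⟩
  · rintro ⟨h0, h1⟩; exact vec_ext h0 h1

theorem nv_nv (hN : x * x + y * z = 0) (v : Fin 2 → ℤ) : nv x y z (nv x y z v) = 0 := by
  apply vec_ext
  · simp only [nv_zero_apply, nv_one_apply, Pi.zero_apply]; linear_combination (v 0) * hN
  · simp only [nv_zero_apply, nv_one_apply, Pi.zero_apply]; linear_combination (v 1) * hN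

theorem nv_smul (c : ℤ) (v : Fin 2 → ℤ) : nv x y z (c • v) = c • nv x y z v := by
  apply vec_ext <;> simp [nv] <;> ring

theorem nv_add (v w : Fin 2 → ℤ) : nv x y z (v + w) = nv x y z v + nv x y z w := by
  apply vec_ext <;> simp [nv] <;> ring

theorem sh_zero (v : Fin 2 → ℤ) : sh x y z 0 v = v := by simp [sh]

theorem sh_smul (k c : ℤ) (v : Fin 2 → ℤ) : sh x y z k (c • v) = c • sh x y z k v := by
  rw [sh, sh, nv_smul, smul_add, smul_comm]

theorem nv_sh (hN : x * x + y * z = 0) (k : ℤ) (v : Fin 2 → ℤ) :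
    nv x y z (sh x y z k v) = nv x y z v := by
  rw [sh, nv_add, nv_smul, nv_nv hN, smul_zero, add_zero]

theorem sh_sh (hN : x * x + y * z = 0) (k l : ℤ) (v : Fin 2 → ℤ) :
    sh x y z k (sh x y z l v) = sh x y z (k + l) v := by
  rw [sh, nv_sh hN, sh, sh, add_smul]; abel

theorem sh_of_nv_eq_zero {v : Fin 2 → ℤ} (h : nv x y z v = 0) (k : ℤ) : sh x y z k v = v := by
  rw [sh, h, smul_zero, add_zero]

@[simp] theorem sh_zero_apply (k : ℤ) (v : Fin 2 → ℤ) :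
    sh x y z k v 0 = v 0 + k * (x * v 0 + y * v 1) := by simp [sh]
@[simp] theorem sh_one_apply (k : ℤ) (v : Fin 2 → ℤ) :
    sh x y z k v 1 = v 1 + k * (z * v 0 - x * v 1) := by simp [sh]

theorem det2_sh (hN : x * x + y * z = 0) (k : ℤ) (a b : Fin 2 → ℤ) :
    det2 (sh x y z k a) (sh x y z k b) = det2 a b := by
  simp only [det2, sh_zero_apply, sh_one_apply]
  linear_combination (k ^ 2 * (a 1 * b 0 - a 0 * b 1)) * hN

theorem bform_sh (k : ℤ) (a b : Fin 2 → ℤ) :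
    bform (sh x y z k a) (sh x y z k b) =
      bform a b + k * (bform (nv x y z a) b + bform a (nv x y z b)) +
        k ^ 2 * bform (nv x y z a) (nv x y z b) := by
  simp only [bform, sh_zero_apply, sh_one_apply, nv_zero_apply, nv_one_apply]
  ring

theorem bform_self_pos {a : Fin 2 → ℤ} (ha : a ≠ 0) : 0 < bform a a := by
  have h : ¬ (a 0 = 0 ∧ a 1 = 0) := fun h => ha (vec_eq_zero_iff.mpr h)
  simp only [bform]
  by_contra hle
  have hle' : 2 * a 0 * a 0 + a 0 * a 1 + a 1 * a 0 + 2 * a 1 * a 1 ≤ 0 := not_lt.mp hle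
  have h0 : a 0 = 0 := by nlinarith [sq_nonneg (a 0 + a 1), sq_nonneg (a 0), sq_nonneg (a 1)]
  have h1 : a 1 = 0 := by nlinarith [sq_nonneg (a 0 + a 1), sq_nonneg (a 0), sq_nonneg (a 1)]
  exact h ⟨h0, h1⟩

theorem sg_swap (a b : Fin 2 → ℤ) : sg b a = - sg a b := by
  have h1 : det2 b a = - det2 a b := by simp only [det2]; ring
  have h2 : bform b a = bform a b := by simp only [bform]; ring
  rw [sg, sg, h1, h2, Int.sign_neg]; ring

theorem sg_smul_unit (c : ℤ) (hc : c * c = 1) (a b : Fin 2 → ℤ) : sg (c • a) (c • b) = sg a b := by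
  have h1 : det2 (c • a) (c • b) = det2 a b := by
    simp only [det2, Pi.smul_apply, smul_eq_mul]; linear_combination (a 0 * b 1 - a 1 * b 0) * hc
  have h2 : bform (c • a) (c • b) = bform a b := by
    simp only [bform, Pi.smul_apply, smul_eq_mul]
    linear_combination (2 * a 0 * b 0 + a 0 * b 1 + a 1 * b 0 + 2 * a 1 * b 1) * hc
  rw [sg, sg, h1, h2]

/-- The two-sided orbit function `k ↦ sg ((1 + kN) a) ((1 + kN) b)`. -/
def orb (x y z : ℤ) (a b : Fin 2 → ℤ) (k : ℤ) : ℤ := sg (sh x y z k a) (sh x y z k b)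

theorem orb_eq (hN : x * x + y * z = 0) (a b : Fin 2 → ℤ) (k : ℤ) :
    orb x y z a b k = Int.sign (det2 a b) *
      Int.sign (bform a b + k * (bform (nv x y z a) b + bform a (nv x y z b)) +
        k ^ 2 * bform (nv x y z a) (nv x y z b)) := by
  rw [orb, sg, det2_sh hN, bform_sh]

theorem orb_swap (a b : Fin 2 → ℤ) (k : ℤ) : orb x y z b a k = - orb x y z a b k := sg_swap _ _

/-- Two-sided eventual values. -/
def TwoSided (G : ℤ → ℤ) (sp sm : ℤ) : Prop :=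
  ∃ K : ℕ, ∀ k : ℤ, (K : ℤ) ≤ k → G k = sp ∧ G (-k) = sm

theorem TwoSided.neg {G : ℤ → ℤ} {sp sm : ℤ} (h : TwoSided G sp sm) :
    TwoSided (fun k => - G k) (-sp) (-sm) := by
  obtain ⟨K, hK⟩ := h
  exact ⟨K, fun k hk => ⟨by show - G k = - sp; rw [(hK k hk).1], by show - G (-k) = - sm; rw [(hK k hk).2]⟩⟩

theorem TwoSided.add {G H : ℤ → ℤ} {sp sm tp tm : ℤ} (h : TwoSided G sp sm)
    (h' : TwoSided H tp tm) : TwoSided (fun k => G k + H k) (sp + tp) (sm + tm) := by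
  obtain ⟨K, hK⟩ := h
  obtain ⟨K', hK'⟩ := h'
  refine ⟨max K K', fun k hk => ?_⟩
  have h1 : (K : ℤ) ≤ k := le_trans (by exact_mod_cast le_max_left K K') hk
  have h2 : (K' : ℤ) ≤ k := le_trans (by exact_mod_cast le_max_right K K') hk
  exact ⟨by show G k + H k = sp + tp; rw [(hK k h1).1, (hK' k h2).1], by show G (-k) + H (-k) = sm + tm; rw [(hK k h1).2, (hK' k h2).2]⟩

theorem TwoSided.const (c : ℤ) : TwoSided (fun _ => c) c c := ⟨0, fun _ _ => ⟨rfl, rfl⟩⟩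

/-- generic case: both limits agree. -/
theorem orb_generic (hN : x * x + y * z = 0) {a b : Fin 2 → ℤ}
    (ha : nv x y z a ≠ 0) (hb : nv x y z b ≠ 0) : ∃ s : ℤ, TwoSided (orb x y z a b) s s := by
  -- `N a` and `N b` are parallel, hence `bform (N a) (N b) ≠ 0`
  have hpar : det2 (nv x y z a) (nv x y z b) = 0 := by
    simp only [det2, nv_zero_apply, nv_one_apply]
    linear_combination (a 1 * b 0 - a 0 * b 1) * hN
  have hlag : bform (nv x y z a) (nv x y z a) * bform (nv x y z b) (nv x y z b)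
      - bform (nv x y z a) (nv x y z b) ^ 2 = 3 * det2 (nv x y z a) (nv x y z b) ^ 2 := by
    simp only [bform, det2]; ring
  have hq2 : bform (nv x y z a) (nv x y z b) ≠ 0 := by
    intro h0
    rw [hpar, h0] at hlag
    have := mul_pos (bform_self_pos ha) (bform_self_pos hb)
    linarith
  set q0 := bform a b
  set q1 := bform (nv x y z a) b + bform a (nv x y z b)
  set q2 := bform (nv x y z a) (nv x y z b)
  refine ⟨Int.sign (det2 a b) * Int.sign q2, (|q0| + |q1| + 1).toNat, fun k hk => ?_⟩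
  have hk' : |q0| + |q1| + 1 ≤ k := by
    have := Int.self_le_toNat (|q0| + |q1| + 1); linarith
  have hk0 : 0 ≤ k := by have := abs_nonneg q0; have := abs_nonneg q1; linarith
  constructor
  · rw [orb_eq hN, sign_quad q0 q1 q2 hq2 k (by rw [abs_of_nonneg hk0]; exact hk')]
  · rw [orb_eq hN, sign_quad q0 q1 q2 hq2 (-k) (by rw [abs_neg, abs_of_nonneg hk0]; exact hk')]

theorem tauN_mul_nonneg (hN : x * x + y * z = 0) (v w : Fin 2 → ℤ) :
    0 ≤ tauN x y z v * tauN x y z w := by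
  have : tauN x y z v * tauN x y z w =
      (z * v 0 * w 0 - x * (v 0 * w 1 + v 1 * w 0) - y * v 1 * w 1) ^ 2 := by
    simp only [tauN, det2, nv_zero_apply, nv_one_apply]
    linear_combination (-(v 0 * w 1 - v 1 * w 0) ^ 2) * hN
  rw [this]; positivity

theorem nv_eq_zero_of_tauN (hN : x * x + y * z = 0) {v : Fin 2 → ℤ} (h : tauN x y z v = 0) :
    nv x y z v = 0 := by
  have h1 : z * tauN x y z v = (z * v 0 - x * v 1) ^ 2 := by
    simp only [tauN, det2, nv_zero_apply, nv_one_apply]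
    linear_combination (- v 1 ^ 2) * hN
  have h2 : - y * tauN x y z v = (x * v 0 + y * v 1) ^ 2 := by
    simp only [tauN, det2, nv_zero_apply, nv_one_apply]
    linear_combination (- v 0 ^ 2) * hN
  rw [h, mul_zero] at h1 h2
  apply vec_ext
  · simpa using (pow_eq_zero_iff (n := 2) (by norm_num)).mp h2.symm
  · simpa using (pow_eq_zero_iff (n := 2) (by norm_num)).mp h1.symm

theorem exists_sigma (hN : x * x + y * z = 0) :
    ∃ σ : ℤ, ∀ v : Fin 2 → ℤ, nv x y z v ≠ 0 → Int.sign (tauN x y z v) = σ := by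
  by_cases hex : ∃ v0 : Fin 2 → ℤ, nv x y z v0 ≠ 0
  · obtain ⟨v0, hv0⟩ := hex
    refine ⟨Int.sign (tauN x y z v0), fun v hv => ?_⟩
    have h1 : tauN x y z v ≠ 0 := fun h => hv (nv_eq_zero_of_tauN hN h)
    have h2 : tauN x y z v0 ≠ 0 := fun h => hv0 (nv_eq_zero_of_tauN hN h)
    have h3 := tauN_mul_nonneg hN v v0
    rcases lt_or_gt_of_ne h1 with h | h <;> rcases lt_or_gt_of_ne h2 with h' | h'
    · rw [Int.sign_eq_neg_one_of_neg h, Int.sign_eq_neg_one_of_neg h']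
    · exfalso; nlinarith
    · exfalso; nlinarith
    · rw [Int.sign_eq_one_of_pos h, Int.sign_eq_one_of_pos h']
  · exact ⟨0, fun v hv => absurd ⟨v, hv⟩ hex⟩

/-- kernel case: `N a = 0 ≠ N b`: the universal jump. -/
theorem orb_ker_left (hN : x * x + y * z = 0) {σ : ℤ}
    (hσ : ∀ v : Fin 2 → ℤ, nv x y z v ≠ 0 → Int.sign (tauN x y z v) = σ) {a b : Fin 2 → ℤ}
    (ha0 : a ≠ 0) (ha : nv x y z a = 0) (hb : nv x y z b ≠ 0) :
    TwoSided (orb x y z a b) (-σ) σ := by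
  have hτ : tauN x y z b ≠ 0 := fun h => hb (nv_eq_zero_of_tauN hN h)
  have ha' := vec_eq_zero_iff.mp ha
  simp only [nv_zero_apply, nv_one_apply] at ha'
  -- Cramer
  have hcr : det2 a b * bform a (nv x y z b) = - tauN x y z b * bform a a := by
    simp only [tauN, det2, bform, nv_zero_apply, nv_one_apply]
    linear_combination (-(b 1) * (2 * a 0 * b 0 + a 0 * b 1 + a 1 * b 0 + 2 * a 1 * b 1)) * ha'.1
      + (b 0 * (2 * a 0 * b 0 + a 0 * b 1 + a 1 * b 0 + 2 * a 1 * b 1)) * ha'.2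
  have hpos := bform_self_pos ha0
  have hq1 : bform a (nv x y z b) ≠ 0 := by
    intro h0
    rw [h0, mul_zero] at hcr
    have : tauN x y z b * bform a a = 0 := by linarith
    rcases mul_eq_zero.mp this with h | h
    · exact hτ h
    · exact absurd h hpos.ne'
  have hsgn : Int.sign (det2 a b) * Int.sign (bform a (nv x y z b)) = -σ := by
    rw [← Int.sign_mul, hcr, Int.sign_mul, Int.sign_neg, hσ b hb, Int.sign_eq_one_of_pos hpos]
    ring
  have hb0 : bform (nv x y z a) b = 0 := by rw [ha]; simp [bform]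
  have hb2 : bform (nv x y z a) (nv x y z b) = 0 := by rw [ha]; simp [bform]
  set q0 := bform a b
  set q1 := bform a (nv x y z b)
  refine ⟨(|q0| + 1).toNat, fun k hk => ?_⟩
  have hk' : |q0| + 1 ≤ k := by
    have := Int.self_le_toNat (|q0| + 1); linarith
  constructor
  · rw [orb_eq hN, hb0, hb2, mul_zero, add_zero, zero_add, sign_lin_pos q0 q1 hq1 k hk', hsgn]
  · rw [orb_eq hN, hb0, hb2, mul_zero, add_zero, zero_add, sign_lin_neg q0 q1 hq1 k hk', mul_neg,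
      hsgn, neg_neg]

/-- the jump of a vector: `σ` on the kernel of `N`, `0` elsewhere. -/
def jump (x y z : ℤ) (σ : ℤ) (v : Fin 2 → ℤ) : ℤ := if nv x y z v = 0 then σ else 0

/-- the limits of the orbit function of a pair: the difference is `2 (jump b - jump a)`. -/
theorem orb_limits (hN : x * x + y * z = 0) {σ : ℤ}
    (hσ : ∀ v : Fin 2 → ℤ, nv x y z v ≠ 0 → Int.sign (tauN x y z v) = σ) {a b : Fin 2 → ℤ}
    (ha0 : a ≠ 0) (hb0 : b ≠ 0) :
    ∃ sp sm : ℤ, TwoSided (orb x y z a b) sp sm ∧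
      sp - sm = 2 * (jump x y z σ b - jump x y z σ a) := by
  by_cases ha : nv x y z a = 0 <;> by_cases hb : nv x y z b = 0
  · refine ⟨sg a b, sg a b, ⟨0, fun k _ => ?_⟩, ?_⟩
    · simp only [orb, sh_of_nv_eq_zero ha, sh_of_nv_eq_zero hb, and_self]
    · simp [jump, ha, hb]
  · refine ⟨-σ, σ, orb_ker_left hN hσ ha0 ha hb, ?_⟩
    simp [jump, ha, hb]; ring
  · refine ⟨σ, -σ, ?_, ?_⟩
    · have h := (orb_ker_left hN hσ hb0 hb ha).neg
      rw [neg_neg] at h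
      have hfun : (fun k => - orb x y z b a k) = orb x y z a b := by
        funext k; rw [orb_swap a b k, neg_neg]
      rwa [hfun] at h
    · simp [jump, ha, hb]; ring
  · obtain ⟨s, hs⟩ := orb_generic hN ha hb
    exact ⟨s, s, hs, by simp [jump, ha, hb]⟩

/-- the limits of the correction term. -/
theorem corr_limits (hN : x * x + y * z = 0) {σ : ℤ}
    (hσ : ∀ v : Fin 2 → ℤ, nv x y z v ≠ 0 → Int.sign (tauN x y z v) = σ) {a t : Fin 2 → ℤ}
    (ha0 : a ≠ 0) (hat : nv x y z a = 0 → nv x y z t ≠ 0) :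
    TwoSided (fun k => if nv x y z a = 0 then orb x y z a t k else 0)
      (- jump x y z σ a) (jump x y z σ a) := by
  by_cases ha : nv x y z a = 0
  · simp only [ha, if_true, jump]
    exact orb_ker_left hN hσ ha0 ha (hat ha)
  · simp only [ha, if_false, jump, neg_zero]
    exact TwoSided.const 0

/-- two kernel vectors of a nonzero `N` are parallel. -/
theorem det2_eq_zero_of_nv (hne : ¬ (x = 0 ∧ y = 0 ∧ z = 0)) {a t : Fin 2 → ℤ}
    (ha : nv x y z a = 0) (ht : nv x y z t = 0) : det2 a t = 0 := by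
  have ha' := vec_eq_zero_iff.mp ha
  have ht' := vec_eq_zero_iff.mp ht
  simp only [nv_zero_apply, nv_one_apply] at ha' ht'
  have hx : x * det2 a t = 0 := by
    simp only [det2]; linear_combination (t 1) * ha'.1 - (a 1) * ht'.1
  have hy : y * det2 a t = 0 := by
    simp only [det2]; linear_combination (a 0) * ht'.1 - (t 0) * ha'.1
  have hz : z * det2 a t = 0 := by
    simp only [det2]; linear_combination (t 1) * ha'.2 - (a 1) * ht'.2
  by_contra hd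
  exact hne ⟨(mul_eq_zero.mp hx).resolve_right hd, (mul_eq_zero.mp hy).resolve_right hd,
    (mul_eq_zero.mp hz).resolve_right hd⟩

/-! ### the action of a matrix of trace `±2` -/

theorem mulVec_zero_apply (A : Matrix (Fin 2) (Fin 2) ℤ) (v : Fin 2 → ℤ) :
    (A *ᵥ v) 0 = A 0 0 * v 0 + A 0 1 * v 1 := by
  simp [Matrix.mulVec, dotProduct, Fin.sum_univ_two]

theorem mulVec_one_apply (A : Matrix (Fin 2) (Fin 2) ℤ) (v : Fin 2 → ℤ) :
    (A *ᵥ v) 1 = A 1 0 * v 0 + A 1 1 * v 1 := by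
  simp [Matrix.mulVec, dotProduct, Fin.sum_univ_two]

theorem det2_mulVec (δ : SL(2, ℤ)) (a b : Fin 2 → ℤ) :
    det2 (δ.1 *ᵥ a) (δ.1 *ᵥ b) = det2 a b := by
  have hdet : δ.1 0 0 * δ.1 1 1 - δ.1 0 1 * δ.1 1 0 = 1 := by
    have := δ.2
    rw [Matrix.det_fin_two] at this
    exact this
  simp only [det2, mulVec_zero_apply, mulVec_one_apply]
  linear_combination (a 0 * b 1 - a 1 * b 0) * hdet

theorem mulVec_ne_zero (δ : SL(2, ℤ)) {a b : Fin 2 → ℤ} (h : det2 a b ≠ 0) : δ.1 *ᵥ a ≠ 0 := by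
  intro h0
  have := det2_mulVec δ a b
  rw [h0] at this
  apply h
  rw [← this]
  simp [det2]

section trace

variable {π : SL(2, ℤ)} {ε : ℤ}

theorem nil_of_trace (hε : ε * ε = 1) (htr : π.1 0 0 + π.1 1 1 = 2 * ε) :
    (ε * π.1 0 0 - 1) * (ε * π.1 0 0 - 1) + (ε * π.1 0 1) * (ε * π.1 1 0) = 0 := by
  have hdet : π.1 0 0 * π.1 1 1 - π.1 0 1 * π.1 1 0 = 1 := by
    have := π.2
    rw [Matrix.det_fin_two] at this
    exact this
  linear_combination (π.1 0 0 ^ 2 + π.1 0 1 * π.1 1 0) * hε + (π.1 0 0) * htr - hdet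

theorem mulVec_eq_sh (hε : ε * ε = 1) (htr : π.1 0 0 + π.1 1 1 = 2 * ε) (v : Fin 2 → ℤ) :
    π.1 *ᵥ v = ε • sh (ε * π.1 0 0 - 1) (ε * π.1 0 1) (ε * π.1 1 0) 1 v := by
  apply vec_ext
  · simp only [mulVec_zero_apply, Pi.smul_apply, smul_eq_mul, sh_zero_apply]
    linear_combination (-(π.1 0 0 * v 0) - π.1 0 1 * v 1) * hε
  · simp only [mulVec_one_apply, Pi.smul_apply, smul_eq_mul, sh_one_apply]
    linear_combination (-(π.1 1 0 * v 0) + π.1 0 0 * v 1) * hε + (v 1) * htr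

theorem pow_mulVec_eq_sh (hε : ε * ε = 1) (htr : π.1 0 0 + π.1 1 1 = 2 * ε) (k : ℕ)
    (v : Fin 2 → ℤ) :
    (π ^ k).1 *ᵥ v = ε ^ k • sh (ε * π.1 0 0 - 1) (ε * π.1 0 1) (ε * π.1 1 0) (k : ℤ) v := by
  have hN := nil_of_trace hε htr
  induction k generalizing v with
  | zero => simp [sh_zero]
  | succ n ih =>
    have h1 : (π ^ (n + 1)).1 *ᵥ v = (π ^ n).1 *ᵥ (π.1 *ᵥ v) := by
      rw [pow_succ, Matrix.SpecialLinearGroup.coe_mul, Matrix.mulVec_mulVec]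
    rw [h1, ih, mulVec_eq_sh hε htr v, sh_smul, sh_sh hN, smul_smul, pow_succ]
    push_cast
    rfl

theorem inv_mulVec_eq_sh (hε : ε * ε = 1) (htr : π.1 0 0 + π.1 1 1 = 2 * ε) (v : Fin 2 → ℤ) :
    (π⁻¹).1 *ᵥ v = ε • sh (ε * π.1 0 0 - 1) (ε * π.1 0 1) (ε * π.1 1 0) (-1) v := by
  have hN := nil_of_trace hε htr
  have h1 : π.1 *ᵥ (ε • sh (ε * π.1 0 0 - 1) (ε * π.1 0 1) (ε * π.1 1 0) (-1) v) = v := by
    rw [mulVec_eq_sh hε htr, sh_smul, sh_sh hN, smul_smul, hε]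
    simp [sh_zero]
  have h2 : (π⁻¹).1 *ᵥ (π.1 *ᵥ (ε • sh (ε * π.1 0 0 - 1) (ε * π.1 0 1) (ε * π.1 1 0) (-1) v))
      = ε • sh (ε * π.1 0 0 - 1) (ε * π.1 0 1) (ε * π.1 1 0) (-1) v := by
    rw [Matrix.mulVec_mulVec, ← Matrix.SpecialLinearGroup.coe_mul, inv_mul_cancel]
    simp
  rw [h1] at h2
  exact h2

theorem inv_pow_mulVec_eq_sh (hε : ε * ε = 1) (htr : π.1 0 0 + π.1 1 1 = 2 * ε) (k : ℕ)
    (v : Fin 2 → ℤ) :
    (π⁻¹ ^ k).1 *ᵥ v = ε ^ k • sh (ε * π.1 0 0 - 1) (ε * π.1 0 1) (ε * π.1 1 0) (-(k : ℤ)) v := by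
  have hN := nil_of_trace hε htr
  induction k generalizing v with
  | zero => simp [sh_zero]
  | succ n ih =>
    have h1 : (π⁻¹ ^ (n + 1)).1 *ᵥ v = (π⁻¹ ^ n).1 *ᵥ ((π⁻¹).1 *ᵥ v) := by
      rw [pow_succ, Matrix.SpecialLinearGroup.coe_mul, Matrix.mulVec_mulVec]
    rw [h1, ih, inv_mulVec_eq_sh hε htr v, sh_smul, sh_sh hN, smul_smul, pow_succ]
    push_cast
    congr 2
    ring

theorem pow_unit (hε : ε * ε = 1) (k : ℕ) : ε ^ k * ε ^ k = 1 := by
  rw [← mul_pow, hε, one_pow]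

end trace

/-! ### finiteness of the supports -/

theorem finite_sg_ne (Γ : Subgroup SL(2, ℤ)) (π : SL(2, ℤ)) (u w : Fin 2 → ℤ)
    (hd : det2 u w ≠ 0) :
    {δ : Γ | sg ((π * (δ : SL(2, ℤ))).1 *ᵥ u) ((π * (δ : SL(2, ℤ))).1 *ᵥ w) ≠
      sg ((δ : SL(2, ℤ)).1 *ᵥ u) ((δ : SL(2, ℤ)).1 *ᵥ w)}.Finite := by
  have hfin := H69.fin2 π.1 (by rw [π.2]; exact one_ne_zero) (det2 u w) hd
  have hinj : Function.Injective
      (fun δ : Γ => ((δ : SL(2, ℤ)).1 *ᵥ u, (δ : SL(2, ℤ)).1 *ᵥ w)) := by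
    intro δ δ' h
    simp only [Prod.mk.injEq] at h
    obtain ⟨h1, h2⟩ := h
    have e1 := congrFun h1 0
    have e2 := congrFun h1 1
    have e3 := congrFun h2 0
    have e4 := congrFun h2 1
    simp only [mulVec_zero_apply, mulVec_one_apply] at e1 e2 e3 e4
    have hd' : u 0 * w 1 - u 1 * w 0 ≠ 0 := hd
    have k00 : (δ : SL(2, ℤ)).1 0 0 = (δ' : SL(2, ℤ)).1 0 0 := by
      have h0 : ((δ : SL(2, ℤ)).1 0 0 - (δ' : SL(2, ℤ)).1 0 0) * (u 0 * w 1 - u 1 * w 0) = 0 := by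
        linear_combination (w 1) * e1 - (u 1) * e3
      have := (mul_eq_zero.mp h0).resolve_right hd'
      linarith
    have k01 : (δ : SL(2, ℤ)).1 0 1 = (δ' : SL(2, ℤ)).1 0 1 := by
      have h0 : ((δ : SL(2, ℤ)).1 0 1 - (δ' : SL(2, ℤ)).1 0 1) * (u 0 * w 1 - u 1 * w 0) = 0 := by
        linear_combination (u 0) * e3 - (w 0) * e1
      have := (mul_eq_zero.mp h0).resolve_right hd'
      linarith
    have k10 : (δ : SL(2, ℤ)).1 1 0 = (δ' : SL(2, ℤ)).1 1 0 := by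
      have h0 : ((δ : SL(2, ℤ)).1 1 0 - (δ' : SL(2, ℤ)).1 1 0) * (u 0 * w 1 - u 1 * w 0) = 0 := by
        linear_combination (w 1) * e2 - (u 1) * e4
      have := (mul_eq_zero.mp h0).resolve_right hd'
      linarith
    have k11 : (δ : SL(2, ℤ)).1 1 1 = (δ' : SL(2, ℤ)).1 1 1 := by
      have h0 : ((δ : SL(2, ℤ)).1 1 1 - (δ' : SL(2, ℤ)).1 1 1) * (u 0 * w 1 - u 1 * w 0) = 0 := by
        linear_combination (u 0) * e4 - (w 0) * e2
      have := (mul_eq_zero.mp h0).resolve_right hd'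
      linarith
    apply Subtype.ext
    apply Subtype.ext
    ext i j
    fin_cases i <;> fin_cases j
    · exact k00
    · exact k01
    · exact k10
    · exact k11
  refine (hfin.preimage hinj.injOn).subset ?_
  intro δ hδ
  have hδ' : sg ((π * (δ : SL(2, ℤ))).1 *ᵥ u) ((π * (δ : SL(2, ℤ))).1 *ᵥ w) ≠
      sg ((δ : SL(2, ℤ)).1 *ᵥ u) ((δ : SL(2, ℤ)).1 *ᵥ w) := hδ
  refine ⟨det2_mulVec _ u w, fun heq => hδ' ?_⟩
  rw [Matrix.SpecialLinearGroup.coe_mul, ← Matrix.mulVec_mulVec, ← Matrix.mulVec_mulVec, sg, sg,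
    det2_mulVec, heq]

/-! ### the main argument -/

/-- the correction term. -/
def corr (π : SL(2, ℤ)) (ε : ℤ) (u t : Fin 2 → ℤ) (δ : SL(2, ℤ)) : ℤ :=
  if nv (ε * π.1 0 0 - 1) (ε * π.1 0 1) (ε * π.1 1 0) (δ.1 *ᵥ u) = 0 then
    sg (δ.1 *ᵥ u) (δ.1 *ᵥ t) else 0

/-- the corrected side function. -/
def hfun (π : SL(2, ℤ)) (ε : ℤ) (g : SL(2, ℤ)) (u t : Fin 2 → ℤ) (δ : SL(2, ℤ)) : ℤ :=
  sg (δ.1 *ᵥ u) ((δ * g).1 *ᵥ u) - corr π ε u t δ + corr π ε u t (δ * g)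

section orbit

variable {π : SL(2, ℤ)} {ε : ℤ}

theorem sg_mul_of_sh {M : SL(2, ℤ)} {c j : ℤ} (hc : c * c = 1)
    (hM : ∀ v : Fin 2 → ℤ, M.1 *ᵥ v = c • sh (ε * π.1 0 0 - 1) (ε * π.1 0 1) (ε * π.1 1 0) j v)
    (δ δ' : SL(2, ℤ)) (v v' : Fin 2 → ℤ) :
    sg ((M * δ).1 *ᵥ v) ((M * δ').1 *ᵥ v') =
      orb (ε * π.1 0 0 - 1) (ε * π.1 0 1) (ε * π.1 1 0) (δ.1 *ᵥ v) (δ'.1 *ᵥ v') j := by
  rw [Matrix.SpecialLinearGroup.coe_mul, Matrix.SpecialLinearGroup.coe_mul,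
    ← Matrix.mulVec_mulVec, ← Matrix.mulVec_mulVec, hM, hM, sg_smul_unit c hc, orb]

theorem corr_mul_of_sh (hN : (ε * π.1 0 0 - 1) * (ε * π.1 0 0 - 1) + (ε * π.1 0 1) * (ε * π.1 1 0) = 0)
    {M : SL(2, ℤ)} {c j : ℤ} (hc : c * c = 1)
    (hM : ∀ v : Fin 2 → ℤ, M.1 *ᵥ v = c • sh (ε * π.1 0 0 - 1) (ε * π.1 0 1) (ε * π.1 1 0) j v)
    (u t : Fin 2 → ℤ) (δ : SL(2, ℤ)) :
    corr π ε u t (M * δ) =
      if nv (ε * π.1 0 0 - 1) (ε * π.1 0 1) (ε * π.1 1 0) (δ.1 *ᵥ u) = 0 then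
        orb (ε * π.1 0 0 - 1) (ε * π.1 0 1) (ε * π.1 1 0) (δ.1 *ᵥ u) (δ.1 *ᵥ t) j else 0 := by
  have hc0 : c ≠ 0 := by rintro rfl; simp at hc
  have hiff : nv (ε * π.1 0 0 - 1) (ε * π.1 0 1) (ε * π.1 1 0) ((M * δ).1 *ᵥ u) = 0 ↔
      nv (ε * π.1 0 0 - 1) (ε * π.1 0 1) (ε * π.1 1 0) (δ.1 *ᵥ u) = 0 := by
    rw [Matrix.SpecialLinearGroup.coe_mul, ← Matrix.mulVec_mulVec, hM, nv_smul, nv_sh hN,
      smul_eq_zero]
    exact ⟨fun h => h.resolve_left hc0, fun h => Or.inr h⟩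
  rw [corr, sg_mul_of_sh hc hM]
  simp only [hiff]

theorem orbit_limit {g : SL(2, ℤ)} (hε : ε * ε = 1) (htr : π.1 0 0 + π.1 1 1 = 2 * ε)
    (hne : ¬ (ε * π.1 0 0 - 1 = 0 ∧ ε * π.1 0 1 = 0 ∧ ε * π.1 1 0 = 0))
    (u t : Fin 2 → ℤ) (hut : det2 u t ≠ 0) (δ : SL(2, ℤ)) :
    ∃ (s : ℤ) (K : ℕ), ∀ k : ℕ, K ≤ k →
      hfun π ε g u t (π ^ k * δ) = s ∧ hfun π ε g u t (π⁻¹ ^ k * δ) = s := by
  have hN := nil_of_trace hε htr
  obtain ⟨σ, hσ⟩ := exists_sigma hN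
  have ha0 : δ.1 *ᵥ u ≠ 0 := mulVec_ne_zero δ hut
  have hb0 : (δ * g).1 *ᵥ u ≠ 0 := mulVec_ne_zero (δ * g) hut
  have hat : nv (ε * π.1 0 0 - 1) (ε * π.1 0 1) (ε * π.1 1 0) (δ.1 *ᵥ u) = 0 →
      nv (ε * π.1 0 0 - 1) (ε * π.1 0 1) (ε * π.1 1 0) (δ.1 *ᵥ t) ≠ 0 := by
    intro h h'
    have := det2_eq_zero_of_nv hne h h'
    rw [det2_mulVec] at this
    exact hut this
  have hbt : nv (ε * π.1 0 0 - 1) (ε * π.1 0 1) (ε * π.1 1 0) ((δ * g).1 *ᵥ u) = 0 →
      nv (ε * π.1 0 0 - 1) (ε * π.1 0 1) (ε * π.1 1 0) ((δ * g).1 *ᵥ t) ≠ 0 := by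
    intro h h'
    have := det2_eq_zero_of_nv hne h h'
    rw [det2_mulVec] at this
    exact hut this
  obtain ⟨sp, sm, hab, hdiff⟩ := orb_limits hN hσ ha0 hb0
  have hca := corr_limits hN hσ ha0 hat
  have hcb := corr_limits hN hσ hb0 hbt
  obtain ⟨K, hK⟩ := (hab.add hca.neg).add hcb
  refine ⟨sp + jump (ε * π.1 0 0 - 1) (ε * π.1 0 1) (ε * π.1 1 0) σ (δ.1 *ᵥ u) -
    jump (ε * π.1 0 0 - 1) (ε * π.1 0 1) (ε * π.1 1 0) σ ((δ * g).1 *ᵥ u), K, fun k hk => ?_⟩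
  have hkz : (K : ℤ) ≤ (k : ℤ) := by exact_mod_cast hk
  obtain ⟨h1, h2⟩ := hK k hkz
  have hc := pow_unit hε k
  constructor
  · rw [hfun, mul_assoc, sg_mul_of_sh hc (pow_mulVec_eq_sh hε htr k),
      corr_mul_of_sh hN hc (pow_mulVec_eq_sh hε htr k),
      corr_mul_of_sh hN hc (pow_mulVec_eq_sh hε htr k)]
    simp only at h1
    linarith
  · rw [hfun, mul_assoc, sg_mul_of_sh hc (inv_pow_mulVec_eq_sh hε htr k),
      corr_mul_of_sh hN hc (inv_pow_mulVec_eq_sh hε htr k),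
      corr_mul_of_sh hN hc (inv_pow_mulVec_eq_sh hε htr k)]
    simp only at h2
    linarith

end orbit

theorem iterate_mulLeft {G : Type*} [Group G] (P δ : G) (k : ℕ) :
    (Equiv.mulLeft P)^[k] δ = P ^ k * δ := by
  induction k with
  | zero => simp
  | succ n ih => rw [Function.iterate_succ_apply', ih, pow_succ', mul_assoc]; rfl

theorem iterate_mulLeft_symm {G : Type*} [Group G] (P δ : G) (k : ℕ) :
    (Equiv.mulLeft P).symm^[k] δ = P⁻¹ ^ k * δ := by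
  rw [Equiv.mulLeft_symm]; exact iterate_mulLeft P⁻¹ δ k

/-- **(PAR-R), symbol form.** For `g, π ∈ Γ` with `π` of trace `±2`, the closed symbol
`{[u], [g u]}` has intersection number zero with `π`. -/
theorem isect_parabolic_right (Γ : Subgroup SL(2, ℤ)) {g π : SL(2, ℤ)} (hg : g ∈ Γ) (hπ : π ∈ Γ)
    (htr : (π.1.trace) ^ 2 = 4) (u t : Fin 2 → ℤ) (hut : det2 u t ≠ 0) :
    isect Γ u (g.1 *ᵥ u) π = 0 := by
  have htr' : π.1 0 0 + π.1 1 1 = 2 ∨ π.1 0 0 + π.1 1 1 = -2 := by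
    rw [Matrix.trace_fin_two] at htr
    have h0 : (π.1 0 0 + π.1 1 1 - 2) * (π.1 0 0 + π.1 1 1 + 2) = 0 := by
      linear_combination htr
    rcases mul_eq_zero.mp h0 with h | h
    · left; linarith
    · right; linarith
  obtain ⟨ε, hε, htrε⟩ : ∃ ε : ℤ, ε * ε = 1 ∧ π.1 0 0 + π.1 1 1 = 2 * ε := by
    rcases htr' with h | h
    · exact ⟨1, by norm_num, by linarith⟩
    · exact ⟨-1, by norm_num, by linarith⟩
  have hN := nil_of_trace hε htrε
  by_cases hne : (ε * π.1 0 0 - 1 = 0 ∧ ε * π.1 0 1 = 0 ∧ ε * π.1 1 0 = 0)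
  · -- `π = ε`: every term vanishes
    have hπv : ∀ v : Fin 2 → ℤ, π.1 *ᵥ v = ε • v := by
      intro v
      rw [mulVec_eq_sh hε htrε v, sh_of_nv_eq_zero]
      obtain ⟨hx, hy, hz⟩ := hne
      apply vec_ext <;> simp [hx, hy, hz]
    unfold isect
    apply finsum_eq_zero_of_forall_eq_zero
    intro δ
    rw [isectTerm, Matrix.SpecialLinearGroup.coe_mul, ← Matrix.mulVec_mulVec,
      ← Matrix.mulVec_mulVec, hπv, hπv, sg_smul_unit ε hε, sub_self]
  · -- the main case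
    let P : Γ := ⟨π, hπ⟩
    let Gg : Γ := ⟨g, hg⟩
    let τ : Γ ≃ Γ := Equiv.mulLeft P
    let fΓ : Γ → ℤ := fun δ => sg ((δ : SL(2, ℤ)).1 *ᵥ u) (((δ : SL(2, ℤ)) * g).1 *ᵥ u)
    let aΓ : Γ → ℤ := fun δ => corr π ε u t (δ : SL(2, ℤ))
    let hΓ : Γ → ℤ := fun δ => hfun π ε g u t (δ : SL(2, ℤ))
    have hτ : ∀ δ : Γ, ((τ δ : Γ) : SL(2, ℤ)) = π * (δ : SL(2, ℤ)) := fun δ => rfl
    have hGg : ∀ δ : Γ, ((δ * Gg : Γ) : SL(2, ℤ)) = (δ : SL(2, ℤ)) * g := fun δ => rfl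
    have hM1 : ∀ v : Fin 2 → ℤ, π.1 *ᵥ v =
        ε • sh (ε * π.1 0 0 - 1) (ε * π.1 0 1) (ε * π.1 1 0) 1 v := mulVec_eq_sh hε htrε
    -- the three finiteness statements
    have hDf : (Function.support fun δ : Γ => fΓ (τ δ) - fΓ δ).Finite := by
      by_cases hd : det2 u (g.1 *ᵥ u) = 0
      · have hz : ∀ δ : Γ, fΓ δ = 0 := by
          intro δ
          show sg ((δ : SL(2, ℤ)).1 *ᵥ u) (((δ : SL(2, ℤ)) * g).1 *ᵥ u) = 0
          rw [Matrix.SpecialLinearGroup.coe_mul, ← Matrix.mulVec_mulVec, sg, det2_mulVec, hd]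
          simp
        have : (Function.support fun δ : Γ => fΓ (τ δ) - fΓ δ) = ∅ := by
          ext δ; simp [hz]
        rw [this]; exact Set.finite_empty
      · refine (finite_sg_ne Γ π u (g.1 *ᵥ u) hd).subset ?_
        intro δ hδ
        have hδ' : fΓ (τ δ) - fΓ δ ≠ 0 := hδ
        show sg ((π * (δ : SL(2, ℤ))).1 *ᵥ u) ((π * (δ : SL(2, ℤ))).1 *ᵥ (g.1 *ᵥ u)) ≠
          sg ((δ : SL(2, ℤ)).1 *ᵥ u) ((δ : SL(2, ℤ)).1 *ᵥ (g.1 *ᵥ u))
        intro heq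
        apply hδ'
        show sg ((τ δ : SL(2, ℤ)).1 *ᵥ u) (((τ δ : SL(2, ℤ)) * g).1 *ᵥ u) -
          sg ((δ : SL(2, ℤ)).1 *ᵥ u) (((δ : SL(2, ℤ)) * g).1 *ᵥ u) = 0
        rw [hτ, Matrix.SpecialLinearGroup.coe_mul (π * (δ : SL(2, ℤ))) g,
          Matrix.SpecialLinearGroup.coe_mul (δ : SL(2, ℤ)) g, ← Matrix.mulVec_mulVec,
          ← Matrix.mulVec_mulVec, heq, sub_self]
    have hDa : (Function.support fun δ : Γ => aΓ (τ δ) - aΓ δ).Finite := by
      refine (finite_sg_ne Γ π u t hut).subset ?_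
      intro δ hδ
      have hδ' : aΓ (τ δ) - aΓ δ ≠ 0 := hδ
      show sg ((π * (δ : SL(2, ℤ))).1 *ᵥ u) ((π * (δ : SL(2, ℤ))).1 *ᵥ t) ≠
          sg ((δ : SL(2, ℤ)).1 *ᵥ u) ((δ : SL(2, ℤ)).1 *ᵥ t)
      intro heq
      apply hδ'
      show corr π ε u t ((τ δ : Γ) : SL(2, ℤ)) - corr π ε u t (δ : SL(2, ℤ)) = 0
      rw [hτ, corr_mul_of_sh hN hε hM1, ← sg_mul_of_sh hε hM1, heq, corr, sub_self]
    have hDb : (Function.support fun δ : Γ => aΓ (τ δ * Gg) - aΓ (δ * Gg)).Finite := by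
      have : (Function.support fun δ : Γ => aΓ (τ δ * Gg) - aΓ (δ * Gg)) =
          (Equiv.mulRight Gg) ⁻¹' (Function.support fun δ : Γ => aΓ (τ δ) - aΓ δ) := by
        ext δ
        simp only [Function.mem_support, Set.mem_preimage, Equiv.coe_mulRight, τ,
          Equiv.coe_mulLeft, mul_assoc]
      rw [this]
      exact hDa.preimage (Equiv.mulRight Gg).injective.injOn
    have hsplit : ∀ δ : Γ, fΓ (τ δ) - fΓ δ =
        (hΓ (τ δ) - hΓ δ) + (aΓ (τ δ) - aΓ δ) - (aΓ (τ δ * Gg) - aΓ (δ * Gg)) := by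
      intro δ
      show fΓ (τ δ) - fΓ δ =
        ((fΓ (τ δ) - aΓ (τ δ) + aΓ (τ δ * Gg)) - (fΓ δ - aΓ δ + aΓ (δ * Gg))) +
          (aΓ (τ δ) - aΓ δ) - (aΓ (τ δ * Gg) - aΓ (δ * Gg))
      ring
    have hDh : (Function.support fun δ : Γ => hΓ (τ δ) - hΓ δ).Finite := by
      refine ((hDf.union hDa).union hDb).subset ?_
      intro δ hδ
      by_contra hcon
      simp only [Set.mem_union, Function.mem_support, not_or, not_not] at hcon
      apply hδ
      show hΓ (τ δ) - hΓ δ = 0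
      have := hsplit δ
      rw [hcon.1.1, hcon.1.2, hcon.2] at this
      linarith
    -- the telescoping lemma
    have hT : ∑ᶠ δ : Γ, (hΓ (τ δ) - hΓ δ) = 0 := by
      apply finsum_shift_sub_eq_zero τ hΓ hDh
      intro δ
      obtain ⟨s, K, hK⟩ := orbit_limit (g := g) hε htrε hne u t hut (δ : SL(2, ℤ))
      refine ⟨s, K, fun k hk => ?_⟩
      rw [iterate_mulLeft, iterate_mulLeft_symm]
      exact hK k hk
    -- reindexing by right multiplication by `g`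
    have hre : ∑ᶠ δ : Γ, (aΓ (τ δ * Gg) - aΓ (δ * Gg)) = ∑ᶠ δ : Γ, (aΓ (τ δ) - aΓ δ) := by
      rw [← finsum_comp_equiv (Equiv.mulRight Gg) (f := fun δ : Γ => aΓ (τ δ) - aΓ δ)]
      apply finsum_congr
      intro δ
      simp only [Equiv.coe_mulRight, τ, Equiv.coe_mulLeft, mul_assoc]
    have hstart : isect Γ u (g.1 *ᵥ u) π = ∑ᶠ δ : Γ, (fΓ (τ δ) - fΓ δ) := by
      unfold isect
      apply finsum_congr
      intro δ
      show isectTerm u (g.1 *ᵥ u) π (δ : SL(2, ℤ)) =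
        sg ((τ δ : SL(2, ℤ)).1 *ᵥ u) (((τ δ : SL(2, ℤ)) * g).1 *ᵥ u) -
          sg ((δ : SL(2, ℤ)).1 *ᵥ u) (((δ : SL(2, ℤ)) * g).1 *ᵥ u)
      rw [isectTerm, hτ, Matrix.SpecialLinearGroup.coe_mul (π * (δ : SL(2, ℤ))) g,
        Matrix.SpecialLinearGroup.coe_mul (δ : SL(2, ℤ)) g, ← Matrix.mulVec_mulVec _ _ g.1,
        ← Matrix.mulVec_mulVec _ _ g.1]
    calc isect Γ u (g.1 *ᵥ u) π = ∑ᶠ δ : Γ, (fΓ (τ δ) - fΓ δ) := hstart
      _ = ∑ᶠ δ : Γ, ((hΓ (τ δ) - hΓ δ) + (aΓ (τ δ) - aΓ δ) - (aΓ (τ δ * Gg) - aΓ (δ * Gg))) :=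
          finsum_congr hsplit
      _ = (∑ᶠ δ : Γ, (hΓ (τ δ) - hΓ δ) + ∑ᶠ δ : Γ, (aΓ (τ δ) - aΓ δ)) -
            ∑ᶠ δ : Γ, (aΓ (τ δ * Gg) - aΓ (δ * Gg)) := by
          rw [finsum_sub_distrib ((hDh.union hDa).subset (Function.support_add _ _)) hDb,
            finsum_add_distrib hDh hDa]
      _ = 0 := by rw [hT, hre]; ring

/-- **(PAR-R).** The intersection form vanishes when the second slot is `±` parabolic
(or `±1`): for `g, π ∈ Γ` with `(trace π)² = 4`, `ipair Γ g π = 0`. No hypothesis on `Γ`. -/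
theorem ipair_parabolic_right (Γ : Subgroup SL(2, ℤ)) {g π : SL(2, ℤ)} (hg : g ∈ Γ) (hπ : π ∈ Γ)
    (htr : (π.1.trace) ^ 2 = 4) : ipair Γ g π = 0 :=
  isect_parabolic_right Γ hg hπ htr ![1, 0] ![0, 1] (by simp [det2])

end Fermat.Agent.S41.H32
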