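import Mathlib
import Fermat.Agent.S41.CITop_helper39
import Fermat.Agent.S41.IsectParR_helper32
import Fermat.Agent.S41.IsectParL_helper17

/-!
# S41, route C-I: the two parabolic leaves of `H39.hkey_concrete`, closed

`parRStmt M : H39.ParRStmt M` (the intersection form kills parabolic elements in the second
slot; from `H32.ipair_parabolic_right`) and `parLStmt M : H39.ParLStmt M` (first slot; from
`H17.ipair_parabolic_left`), for every level `M`, without hypotheses.
-/

set_option autoImplicit false

namespace Fermat.Agent.S41.H69

open CongruenceSubgroup Matrix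
open scoped MatrixGroups

/-- (PAR-R), literal leaf `H39.ParRStmt M`, for every level `M`. -/
theorem parRStmt (M : ℕ) : H39.ParRStmt M := fun g π hπ =>
  H32.ipair_parabolic_right (Gamma0 M) g.2 π.2 hπ

/-- (PAR-L), literal leaf `H39.ParLStmt M`, for every level `M`. -/
theorem parLStmt (M : ℕ) : H39.ParLStmt M := fun π γ hπ =>
  H17.ipair_parabolic_left (Gamma0 M) π.2 γ.2 hπ

end Fermat.Agent.S41.H69
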