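import Mathlib

/-!
# (LR), dual side, evaluation form for a NON-COMMUTATIVE group of functionals

`hDual` of `H71.lr_core` from evaluation functionals, with the group `G` of functionals only an
`AddGroup` (not necessarily commutative): the intended instance is
`G = Additive Γ × Additive Γ` for `Γ = Γ₀(N)`, which is an `AddGroup` but not an `AddCommGroup`.

* `exists_sep_of_eval`, `hDual_of_eval_gen`, `hDual_of_eval`: separation modulo `p` and the dual
  statement, for `[AddGroup G]` and a bi-additive `Q : G →+ Λ →+ ℤ`.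
* `hDual_of_groupEval`: the instance for a lattice `L` of characters of an arbitrary group `Γ`,
  given through any additive map `e : L →+ (Additive Γ →+ ℤ)` (for instance the inclusion of a
  submodule or of an additive subgroup of `Hom(Γ, ℤ)`).
-/

set_option autoImplicit false

namespace Fermat.Agent.S41.H56

/-- Separation modulo `p` by a family of functionals indexed by an additive (possibly
non-commutative) group: `Q : G →+ Λ →+ ℤ` with `(∀ g, p ∣ Q g x) → x ∈ p Λ`, `W` a subgroup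
containing `p Λ`, `x ∉ W`.  Then some `Q g ·` vanishes modulo `p` on `W` but not at `x`. -/
theorem exists_sep_of_eval {G Λ : Type*} [AddGroup G] [AddCommGroup Λ]
    [Module.Finite ℤ Λ] (p : ℕ) [Fact p.Prime] (Q : G →+ Λ →+ ℤ)
    (hQ : ∀ x : Λ, (∀ g : G, (p : ℤ) ∣ Q g x) → ∃ w : Λ, x = (p : ℤ) • w)
    (W : AddSubgroup Λ) (hW : ∀ v : Λ, (p : ℤ) • v ∈ W) (x : Λ) (hx : x ∉ W) :
    ∃ g : G, (∀ w ∈ W, (p : ℤ) ∣ Q g w) ∧ ¬ (p : ℤ) ∣ Q g x := by
  classical
  have hp0 : p ≠ 0 := (Fact.out : p.Prime).ne_zero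
  have hmk0 : ∀ k : Λ, ModN.mkQ p k = 0 ↔ ∃ w : Λ, k = (p : ℤ) • w := by
    intro k
    show Submodule.Quotient.mk k = 0 ↔ _
    rw [Submodule.Quotient.mk_eq_zero, LinearMap.mem_range]
    constructor
    · rintro ⟨w, hw⟩
      exact ⟨w, hw.symm⟩
    · rintro ⟨w, hw⟩
      exact ⟨w, hw.symm⟩
  have hmksurj : Function.Surjective (ModN.mkQ p : Λ →+ ModN Λ p) :=
    Submodule.mkQ_surjective _
  have hfin : Finite (ModN Λ p) := by
    have : Module.Finite ℤ (ModN Λ p) :=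
      Module.Finite.of_surjective (Submodule.mkQ _) (Submodule.mkQ_surjective _)
    apply Module.finite_of_fg_torsion
    intro y
    obtain ⟨u, rfl⟩ := hmksurj y
    refine ⟨⟨(p : ℤ), mem_nonZeroDivisors_of_ne_zero (by exact_mod_cast hp0)⟩, ?_⟩
    show (p : ℤ) • ModN.mkQ p u = 0
    rw [← map_zsmul, hmk0]
    exact ⟨u, rfl⟩
  have hfd : Module.Finite (ZMod p) (ModN Λ p) := Module.Finite.of_finite
  have hpz : ∀ a : ZMod p, p • a = 0 := fun a => by
    rw [nsmul_eq_mul, ZMod.natCast_self, zero_mul]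
  -- the map `Ψ : G → V^*`
  let Ψ₀ : G → (ModN Λ p →ₗ[ZMod p] ZMod p) := fun k =>
    ModN.liftEquiv'.symm ⟨(Int.castAddHom (ZMod p)).comp (Q k), fun g => hpz _⟩
  have hΨ₀ : ∀ k v, Ψ₀ k (ModN.mkQ p v) = ((Q k v : ℤ) : ZMod p) := fun k v => rfl
  let Ψ : G →+ (ModN Λ p →ₗ[ZMod p] ZMod p) := AddMonoidHom.mk' Ψ₀ (by
    intro a b
    apply LinearMap.ext
    intro y
    obtain ⟨v, rfl⟩ := hmksurj y
    rw [LinearMap.add_apply, hΨ₀, hΨ₀, hΨ₀, map_add, AddMonoidHom.add_apply, Int.cast_add])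
  have hΨ : ∀ k v, Ψ k (ModN.mkQ p v) = ((Q k v : ℤ) : ZMod p) := fun k v => rfl
  -- its range is a subspace which separates points, hence everything
  let S : Submodule (ZMod p) (Module.Dual (ZMod p) (ModN Λ p)) :=
    AddSubgroup.toZModSubmodule p Ψ.range
  have hS : ∀ f, f ∈ S ↔ ∃ g : G, Ψ g = f := fun f => Iff.rfl
  have hco : S.dualCoannihilator = ⊥ := by
    rw [eq_bot_iff]
    intro y hy
    rw [Submodule.mem_dualCoannihilator] at hy
    obtain ⟨k, rfl⟩ := hmksurj y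
    rw [Submodule.mem_bot, hmk0]
    apply hQ
    intro g
    have h1 := hy (Ψ g) ((hS _).mpr ⟨g, rfl⟩)
    rw [hΨ] at h1
    exact (ZMod.intCast_zmod_eq_zero_iff_dvd _ _).mp h1
  have hStop : S = ⊤ := by
    have h1 := Subspace.dualCoannihilator_dualAnnihilator_eq (W := S)
    rw [hco, Submodule.dualAnnihilator_bot] at h1
    exact h1.symm
  -- the subspace `W̄`
  let Wbar : Submodule (ZMod p) (ModN Λ p) := AddSubgroup.toZModSubmodule p (W.map (ModN.mkQ p))
  have hWbar : ∀ y, y ∈ Wbar ↔ ∃ w ∈ W, ModN.mkQ p w = y := fun y => Iff.rfl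
  have hxW : ModN.mkQ p x ∉ Wbar := by
    rw [hWbar]
    rintro ⟨w, hw, hwx⟩
    apply hx
    have h1 : ModN.mkQ p (x - w) = 0 := by rw [map_sub, hwx, sub_self]
    obtain ⟨z, hz⟩ := (hmk0 _).mp h1
    have h2 : x = w + (p : ℤ) • z := by rw [← hz]; abel
    rw [h2]
    exact W.add_mem hw (hW z)
  obtain ⟨f, hfx, hfW⟩ := Submodule.exists_dual_map_eq_bot_of_notMem hxW inferInstance
  have hfS : f ∈ S := by rw [hStop]; exact Submodule.mem_top
  obtain ⟨g, rfl⟩ := (hS f).mp hfS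
  refine ⟨g, ?_, ?_⟩
  · intro w hw
    have h1 : Ψ g (ModN.mkQ p w) ∈ Wbar.map (Ψ g) :=
      Submodule.mem_map_of_mem ((hWbar _).mpr ⟨w, hw, rfl⟩)
    rw [hfW, Submodule.mem_bot, hΨ] at h1
    exact (ZMod.intCast_zmod_eq_zero_iff_dvd _ _).mp h1
  · intro hdiv
    apply hfx
    rw [hΨ]
    exact (ZMod.intCast_zmod_eq_zero_iff_dvd _ _).mpr hdiv

/-- **Dual Ihara, evaluation form** (general `Λ`, `G` any additive group).  If every functional
`Q g` which vanishes modulo `p` on the image of `j` also vanishes modulo `p` on `r₁ Λ`, then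
`r₁ Λ ⊆ j L' + p Λ`. -/
theorem hDual_of_eval_gen {R : Type*} [CommRing R] {Λ L' G : Type*} [AddCommGroup Λ] [Module R Λ]
    [AddCommGroup L'] [Module R L'] [Module.Finite ℤ Λ] [AddGroup G] (p : ℕ) [Fact p.Prime]
    (j : L' →ₗ[R] Λ) (Q : G →+ Λ →+ ℤ)
    (hQ : ∀ x : Λ, (∀ g : G, (p : ℤ) ∣ Q g x) → ∃ w : Λ, x = (p : ℤ) • w)
    (r₁ : R)
    (hkey : ∀ g : G, (∀ z : L', (p : ℤ) ∣ Q g (j z)) → ∀ u : Λ, (p : ℤ) ∣ Q g (r₁ • u)) :
    ∀ u : Λ, ∃ (y : L') (v : Λ), r₁ • u = j y + (p : ℤ) • v := by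
  intro u
  by_contra hcon
  let W : AddSubgroup Λ := j.toAddMonoidHom.range ⊔ (zsmulAddGroupHom (p : ℤ) : Λ →+ Λ).range
  have hWmem : ∀ x, x ∈ W ↔ ∃ y v, x = j y + (p : ℤ) • v := by
    intro x
    rw [AddSubgroup.mem_sup]
    constructor
    · rintro ⟨_, ⟨y, rfl⟩, _, ⟨v, rfl⟩, h⟩
      exact ⟨y, v, h.symm⟩
    · rintro ⟨y, v, rfl⟩
      exact ⟨_, ⟨y, rfl⟩, _, ⟨v, rfl⟩, rfl⟩
  have hx : r₁ • u ∉ W := fun h => hcon ((hWmem _).mp h)
  obtain ⟨g, hgW, hgx⟩ := exists_sep_of_eval p Q hQ W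
    (fun v => (hWmem _).mpr ⟨0, v, by rw [map_zero, zero_add]⟩) (r₁ • u) hx
  exact hgx (hkey g (fun z => hgW (j z) ((hWmem _).mpr ⟨z, 0, by rw [smul_zero, add_zero]⟩)) u)

/-- **Dual Ihara, evaluation form**, in the literal shape of the hypothesis `hDual` of
`H71.lr_core` (for a given `r₁`), `G` any additive group. -/
theorem hDual_of_eval {R : Type*} [CommRing R] {L L' G : Type*} [AddCommGroup L] [Module R L]
    [AddCommGroup L'] [Module R L'] [Module.Finite ℤ L] [AddGroup G] (p : ℕ) [Fact p.Prime]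
    (j : L' →ₗ[R] (L × L)) (Q : G →+ (L × L) →+ ℤ)
    (hQ : ∀ u : L × L, (∀ g : G, (p : ℤ) ∣ Q g u) → ∃ w : L × L, u = (p : ℤ) • w)
    (r₁ : R)
    (hkey : ∀ g : G, (∀ z : L', (p : ℤ) ∣ Q g (j z)) → ∀ u : L × L, (p : ℤ) ∣ Q g (r₁ • u)) :
    ∀ u : L × L, ∃ (y : L') (v : L × L), r₁ • u = j y + (p : ℤ) • v :=
  hDual_of_eval_gen p j Q hQ r₁ hkey

/-- The evaluation pairing of a lattice `L` of characters of a group `Γ`, the characters being
given through an additive map `e : L →+ (Additive Γ →+ ℤ)`: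
`((γ₁, γ₂), (x₁, x₂)) ↦ x₁ γ₁ + x₂ γ₂`. -/
def groupEval {Γ L : Type*} [Group Γ] [AddCommGroup L] (e : L →+ (Additive Γ →+ ℤ)) :
    (Additive Γ × Additive Γ) →+ (L × L) →+ ℤ :=
  AddMonoidHom.mk'
    (fun g => AddMonoidHom.mk' (fun u => e u.1 g.1 + e u.2 g.2)
      (by
        intro a b
        simp only [Prod.fst_add, Prod.snd_add, map_add, AddMonoidHom.add_apply]
        abel))
    (by
      intro a b
      apply AddMonoidHom.ext
      intro u
      simp only [AddMonoidHom.mk'_apply, AddMonoidHom.add_apply, Prod.fst_add, Prod.snd_add,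
        map_add]
      abel)

theorem groupEval_apply {Γ L : Type*} [Group Γ] [AddCommGroup L] (e : L →+ (Additive Γ →+ ℤ))
    (g : Additive Γ × Additive Γ) (u : L × L) :
    groupEval e g u = e u.1 g.1 + e u.2 g.2 := rfl

/-- **Dual Ihara from evaluations at group elements**, in the literal shape of the hypothesis
`hDual` of `H71.lr_core`.  `L` is any `R`-module, finite over `ℤ`, with an additive map `e` to the
characters of a group `Γ` (e.g. the inclusion of the parabolic lattice), saturated at `p`.  If for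
all `γ₁ γ₂ : Γ` the congruences `(j z).1 γ₁ + (j z).2 γ₂ ≡ 0` (all `z : L'`) imply
`(r₁ u).1 γ₁ + (r₁ u).2 γ₂ ≡ 0` (all `u`), then `r₁ (L × L) ⊆ j L' + p (L × L)`. -/
theorem hDual_of_groupEval {R : Type*} [CommRing R] {Γ L L' : Type*} [Group Γ]
    [AddCommGroup L] [Module R L] [AddCommGroup L'] [Module R L'] [Module.Finite ℤ L]
    (p : ℕ) [Fact p.Prime] (e : L →+ (Additive Γ →+ ℤ)) (j : L' →ₗ[R] (L × L))
    (hsat : ∀ x : L, (∀ γ : Γ, (p : ℤ) ∣ e x (Additive.ofMul γ)) → ∃ w : L, x = (p : ℤ) • w)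
    (r₁ : R)
    (hkey : ∀ γ₁ γ₂ : Γ,
      (∀ z : L', (p : ℤ) ∣ e (j z).1 (Additive.ofMul γ₁) + e (j z).2 (Additive.ofMul γ₂)) →
      ∀ u : L × L,
        (p : ℤ) ∣ e (r₁ • u).1 (Additive.ofMul γ₁) + e (r₁ • u).2 (Additive.ofMul γ₂)) :
    ∀ u : L × L, ∃ (y : L') (v : L × L), r₁ • u = j y + (p : ℤ) • v := by
  refine hDual_of_eval p j (groupEval e) ?_ r₁ ?_
  · intro u hu
    obtain ⟨w₁, hw₁⟩ := hsat u.1 (fun γ => by
      have h := hu (Additive.ofMul γ, 0)
      rwa [groupEval_apply, map_zero, add_zero] at h)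
    obtain ⟨w₂, hw₂⟩ := hsat u.2 (fun γ => by
      have h := hu (0, Additive.ofMul γ)
      rwa [groupEval_apply, map_zero, zero_add] at h)
    exact ⟨(w₁, w₂), Prod.ext hw₁ hw₂⟩
  · intro g hg u
    obtain ⟨g₁, g₂⟩ := g
    obtain ⟨γ₁, rfl⟩ := Additive.ofMul.surjective g₁
    obtain ⟨γ₂, rfl⟩ := Additive.ofMul.surjective g₂
    exact hkey γ₁ γ₂ hg u

end Fermat.Agent.S41.H56
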