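/-
S41 node (LAT) (helper34): the Betti lattice.

* `fg_of_finiteIndex` : a finite-index subgroup of `SL(2, ℤ)` is finitely generated.
* `finite_hom`, `finite_parabolicHoms` : `Hom(Γ, ℤ)` and its parabolic part are finite `ℤ`-modules.
* `exists_int_span_of_mem_parabolicHoms` : a parabolic hom with values in a field of
  characteristic zero is a finite combination of `ℤ`-valued parabolic homs.
-/
import Mathlib
import Fermat.Prelude.Def_ModularCurve_PeriodMap

set_option autoImplicit false

open scoped MatrixGroups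
open ModularCurve.Period

namespace Fermat.Agent.S41.H34

/-- `SL(2, ℤ)` is finitely generated (by `S` and `T`). -/
theorem fg_SL2Z : Group.FG SL(2, ℤ) := by
  rw [Group.fg_def]
  refine ⟨{ModularGroup.S, ModularGroup.T}, ?_⟩
  simpa using SpecialLinearGroup.SL2Z_generators

/-- A finite-index subgroup of `SL(2, ℤ)` is finitely generated (Schreier). -/
theorem fg_of_finiteIndex (Γ : Subgroup SL(2, ℤ)) [Γ.FiniteIndex] : Group.FG Γ := by
  have := fg_SL2Z
  exact Subgroup.fg_of_index_ne_zero Γ

/-- Two additive characters agreeing on a generating set are equal. -/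
theorem hom_ext_of_closure {G A : Type*} [Group G] [AddCommGroup A] {S : Set G}
    (hS : Subgroup.closure S = ⊤) {φ ψ : Additive G →+ A}
    (h : ∀ s ∈ S, φ (Additive.ofMul s) = ψ (Additive.ofMul s)) : φ = ψ := by
  ext x
  have hx : Additive.toMul x ∈ Subgroup.closure S := by rw [hS]; exact Subgroup.mem_top _
  have key : ∀ g : G, g ∈ Subgroup.closure S → φ (Additive.ofMul g) = ψ (Additive.ofMul g) := by
    intro g hg
    induction hg using Subgroup.closure_induction with
    | mem s hs => exact h s hs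
    | one => rw [ofMul_one, map_zero, map_zero]
    | mul a b _ _ ha hb => rw [ofMul_mul, map_add, map_add, ha, hb]
    | inv a _ ha => rw [ofMul_inv, map_neg, map_neg, ha]
  exact key _ hx

/-- For a finitely generated group `G`, `Hom(G, ℤ)` is a finite `ℤ`-module. -/
theorem finite_hom_of_fg (G : Type*) [Group G] [hG : Group.FG G] :
    Module.Finite ℤ (Additive G →+ ℤ) := by
  obtain ⟨S, hS⟩ := Group.fg_def.mp hG
  let ev : (Additive G →+ ℤ) →ₗ[ℤ] (S → ℤ) :=
    { toFun := fun φ s => φ (Additive.ofMul s.1)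
      map_add' := fun _ _ => rfl
      map_smul' := fun _ _ => rfl }
  have hinj : Function.Injective ev := by
    intro φ ψ hφψ
    refine hom_ext_of_closure hS ?_
    intro s hs
    exact congrFun hφψ ⟨s, hs⟩
  exact Module.Finite.of_injective ev hinj

theorem finite_hom (Γ : Subgroup SL(2, ℤ)) [Γ.FiniteIndex] :
    Module.Finite ℤ (Additive Γ →+ ℤ) := by
  have := fg_of_finiteIndex Γ
  exact finite_hom_of_fg Γ

theorem finite_parabolicHoms (Γ : Subgroup SL(2, ℤ)) [Γ.FiniteIndex] :
    Module.Finite ℤ (parabolicHoms ℤ Γ ℤ) := by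
  have := finite_hom Γ
  have : IsNoetherian ℤ (Additive Γ →+ ℤ) := isNoetherian_of_isNoetherianRing_of_finite ℤ _
  infer_instance

theorem finite_parabolicHoms_Gamma0 (M : ℕ) [NeZero M] :
    Module.Finite ℤ (parabolicHoms ℤ (CongruenceSubgroup.Gamma0 M) ℤ) :=
  finite_parabolicHoms _

/-- Key lemma: an additive character `v : G → K` of a finitely generated group with values in a
field of characteristic zero is a finite `K`-combination of `ℤ`-valued characters, each of which
vanishes wherever `v` vanishes. -/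
theorem exists_int_span_of_fg {G : Type*} [Group G] [hG : Group.FG G] {K : Type*} [Field K]
    [CharZero K] (v : Additive G →+ K) :
    ∃ (n : ℕ) (c : Fin n → K) (φ : Fin n → (Additive G →+ ℤ)),
      (∀ g : G, v (Additive.ofMul g) = ∑ k, c k * ((φ k (Additive.ofMul g) : ℤ) : K)) ∧
      (∀ g : G, v (Additive.ofMul g) = 0 → ∀ k, φ k (Additive.ofMul g) = 0) := by
  obtain ⟨S, hS⟩ := Group.fg_def.mp hG
  let M : Submodule ℤ K := Submodule.span ℤ (Set.range (fun s : S => v (Additive.ofMul s.1)))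
  have hmem : ∀ g : G, v (Additive.ofMul g) ∈ M := by
    intro g
    have hg : g ∈ Subgroup.closure (S : Set G) := by rw [hS]; exact Subgroup.mem_top _
    induction hg using Subgroup.closure_induction with
    | mem s hs => exact Submodule.subset_span ⟨⟨s, hs⟩, rfl⟩
    | one => rw [ofMul_one, map_zero]; exact M.zero_mem
    | mul a b _ _ ha hb => rw [ofMul_mul, map_add]; exact M.add_mem ha hb
    | inv a _ ha => rw [ofMul_inv, map_neg]; exact M.neg_mem ha
  have hfin : Module.Finite ℤ M := Module.Finite.span_of_finite ℤ (Set.finite_range _)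
  have hfree : Module.Free ℤ M := Module.free_of_finite_type_torsion_free'
  let b := Module.finBasis ℤ M
  let vM : Additive G →+ M :=
    { toFun := fun x => ⟨v x, hmem (Additive.toMul x)⟩
      map_zero' := Subtype.ext (map_zero v)
      map_add' := fun x y => Subtype.ext (map_add v x y) }
  refine ⟨Module.finrank ℤ M, fun k => ((b k : M) : K),
    fun k => (b.coord k).toAddMonoidHom.comp vM, ?_, ?_⟩
  · intro g
    have h1 := b.sum_repr (vM (Additive.ofMul g))
    have h2 := congrArg (fun m : M => (m : K)) h1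
    simp only [Submodule.coe_sum, Submodule.coe_smul] at h2
    have h3 : ((vM (Additive.ofMul g) : M) : K) = v (Additive.ofMul g) := rfl
    rw [h3] at h2
    rw [← h2]
    refine Finset.sum_congr rfl ?_
    intro k _
    rw [zsmul_eq_mul, mul_comm]
    rfl
  · intro g hg k
    have h0 : vM (Additive.ofMul g) = 0 := Subtype.ext hg
    show b.coord k (vM (Additive.ofMul g)) = 0
    rw [h0, map_zero]

/-- (LAT-2) A parabolic hom with values in a field of characteristic zero is a finite
combination of `ℤ`-valued parabolic homs. -/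
theorem exists_int_span_of_mem_parabolicHoms' (Γ : Subgroup SL(2, ℤ)) [Γ.FiniteIndex]
    {K : Type*} [Field K] [CharZero K]
    (v : Additive Γ →+ K) (hv : v ∈ parabolicHoms K Γ K) :
    ∃ (n : ℕ) (c : Fin n → K) (φ : Fin n → (Additive Γ →+ ℤ)),
      (∀ k, φ k ∈ parabolicHoms ℤ Γ ℤ) ∧
      ∀ γ : Γ, v (Additive.ofMul γ) = ∑ k, c k * ((φ k (Additive.ofMul γ) : ℤ) : K) := by
  have := fg_of_finiteIndex Γ
  obtain ⟨n, c, φ, h1, h2⟩ := exists_int_span_of_fg v
  refine ⟨n, c, φ, ?_, h1⟩
  intro k γ hγ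
  exact h2 γ (hv γ hγ) k

theorem exists_int_span_of_mem_parabolicHoms (Γ : Subgroup SL(2, ℤ)) [Γ.FiniteIndex]
    (v : Additive Γ →+ ℂ) (hv : v ∈ parabolicHoms ℂ Γ ℂ) :
    ∃ (n : ℕ) (c : Fin n → ℂ) (φ : Fin n → (Additive Γ →+ ℤ)),
      (∀ k, φ k ∈ parabolicHoms ℤ Γ ℤ) ∧
      ∀ γ : Γ, v (Additive.ofMul γ) = ∑ k, c k * ((φ k (Additive.ofMul γ) : ℤ) : ℂ) :=
  exists_int_span_of_mem_parabolicHoms' Γ v hv

theorem exists_int_span_of_mem_parabolicHoms_Gamma0 (M : ℕ) [NeZero M]
    (v : Additive (CongruenceSubgroup.Gamma0 M) →+ ℂ)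
    (hv : v ∈ parabolicHoms ℂ (CongruenceSubgroup.Gamma0 M) ℂ) :
    ∃ (n : ℕ) (c : Fin n → ℂ) (φ : Fin n → (Additive (CongruenceSubgroup.Gamma0 M) →+ ℤ)),
      (∀ k, φ k ∈ parabolicHoms ℤ (CongruenceSubgroup.Gamma0 M) ℤ) ∧
      ∀ γ : CongruenceSubgroup.Gamma0 M,
        v (Additive.ofMul γ) = ∑ k, c k * ((φ k (Additive.ofMul γ) : ℤ) : ℂ) :=
  exists_int_span_of_mem_parabolicHoms _ v hv

/-! ### Coefficient extension `Hom(G, ℤ) → Hom(G, K)` -/

/-- Coefficient extension of a `ℤ`-valued character (post-composition with `Int.cast`). -/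
def castHom (G : Type*) [Group G] (K : Type*) [Ring K] :
    (Additive G →+ ℤ) →+ (Additive G →+ K) where
  toFun φ := (Int.castAddHom K).comp φ
  map_zero' := by ext x; simp
  map_add' φ ψ := by ext x; simp

theorem castHom_eq_comp (G : Type*) [Group G] (K : Type*) [Ring K] (φ : Additive G →+ ℤ) :
    castHom G K φ = (Int.castAddHom K).comp φ := rfl

@[simp]
theorem castHom_apply (G : Type*) [Group G] (K : Type*) [Ring K] (φ : Additive G →+ ℤ)
    (x : Additive G) : castHom G K φ x = ((φ x : ℤ) : K) := rfl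

theorem castHom_injective (G : Type*) [Group G] (K : Type*) [Ring K] [CharZero K] :
    Function.Injective (castHom G K) := by
  intro φ ψ h
  refine AddMonoidHom.ext fun x => ?_
  have h1 : castHom G K φ x = castHom G K ψ x := DFunLike.congr_fun h x
  have h2 : ((φ x : ℤ) : K) = ((ψ x : ℤ) : K) := h1
  exact Int.cast_injective h2

theorem castHom_zsmul (G : Type*) [Group G] (K : Type*) [Ring K] (n : ℤ) (φ : Additive G →+ ℤ) :
    castHom G K (n • φ) = n • castHom G K φ := map_zsmul _ _ _

/-- The coefficient extension of a `ℤ`-valued parabolic hom is parabolic. -/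
theorem castHom_mem_parabolicHoms {Γ : Subgroup SL(2, ℤ)} (K : Type*) [Ring K]
    {φ : Additive Γ →+ ℤ} (hφ : φ ∈ parabolicHoms ℤ Γ ℤ) :
    castHom Γ K φ ∈ parabolicHoms K Γ K := by
  intro γ hγ
  show ((φ (Additive.ofMul γ) : ℤ) : K) = 0
  rw [hφ γ hγ, Int.cast_zero]

/-- Converse (characteristic zero): if the coefficient extension is parabolic, so is `φ`. -/
theorem mem_parabolicHoms_of_castHom {Γ : Subgroup SL(2, ℤ)} (K : Type*) [Ring K] [CharZero K]
    {φ : Additive Γ →+ ℤ} (hφ : castHom Γ K φ ∈ parabolicHoms K Γ K) :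
    φ ∈ parabolicHoms ℤ Γ ℤ := by
  intro γ hγ
  have h := hφ γ hγ
  have h' : ((φ (Additive.ofMul γ) : ℤ) : K) = 0 := h
  exact_mod_cast h'

/-- (LAT-2), sum form: `v = ∑ k, c k • castHom (φ k)` with `φ k` parabolic. -/
theorem exists_eq_sum_smul_castHom (Γ : Subgroup SL(2, ℤ)) [Γ.FiniteIndex]
    {K : Type*} [Field K] [CharZero K]
    (v : Additive Γ →+ K) (hv : v ∈ parabolicHoms K Γ K) :
    ∃ (n : ℕ) (c : Fin n → K) (φ : Fin n → (Additive Γ →+ ℤ)),
      (∀ k, φ k ∈ parabolicHoms ℤ Γ ℤ) ∧ v = ∑ k, c k • castHom Γ K (φ k) := by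
  obtain ⟨n, c, φ, h1, h2⟩ := exists_int_span_of_mem_parabolicHoms' Γ v hv
  refine ⟨n, c, φ, h1, ?_⟩
  refine AddMonoidHom.ext fun x => ?_
  have hx := h2 (Additive.toMul x)
  rw [show Additive.ofMul (Additive.toMul x) = x from rfl] at hx
  rw [hx, AddMonoidHom.finsetSum_apply]
  refine Finset.sum_congr rfl ?_
  intro k _
  rfl

/-- (LAT-2), span form: `parabolicHoms K Γ K` is spanned over `K` by the coefficient extensions
of the `ℤ`-valued parabolic homs. -/
theorem mem_span_castHom (Γ : Subgroup SL(2, ℤ)) [Γ.FiniteIndex]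
    {K : Type*} [Field K] [CharZero K]
    (v : Additive Γ →+ K) (hv : v ∈ parabolicHoms K Γ K) :
    v ∈ Submodule.span K
      (Set.range (fun φ : parabolicHoms ℤ Γ ℤ => castHom Γ K (φ : Additive Γ →+ ℤ))) := by
  obtain ⟨n, c, φ, h1, rfl⟩ := exists_eq_sum_smul_castHom Γ v hv
  refine Submodule.sum_mem _ ?_
  intro k _
  exact Submodule.smul_mem _ _ (Submodule.subset_span ⟨⟨φ k, h1 k⟩, rfl⟩)

theorem span_castHom_eq (Γ : Subgroup SL(2, ℤ)) [Γ.FiniteIndex]
    {K : Type*} [Field K] [CharZero K] :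
    Submodule.span K
      (Set.range (fun φ : parabolicHoms ℤ Γ ℤ => castHom Γ K (φ : Additive Γ →+ ℤ)))
      = parabolicHoms K Γ K := by
  apply le_antisymm
  · rw [Submodule.span_le]
    rintro _ ⟨φ, rfl⟩
    exact castHom_mem_parabolicHoms K φ.2
  · intro v hv
    exact mem_span_castHom Γ v hv

/-- The Betti lattice is a free `ℤ`-module. -/
theorem free_parabolicHoms (Γ : Subgroup SL(2, ℤ)) [Γ.FiniteIndex] :
    Module.Free ℤ (parabolicHoms ℤ Γ ℤ) := by
  have := finite_parabolicHoms Γ
  have htf : Module.IsTorsionFree ℤ (parabolicHoms ℤ Γ ℤ) := by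
    refine Function.Injective.moduleIsTorsionFree (N := Γ → ℤ)
      (fun φ : parabolicHoms ℤ Γ ℤ => fun γ : Γ => (φ : Additive Γ →+ ℤ) (Additive.ofMul γ)) ?_ ?_
    · intro φ ψ h
      refine Subtype.ext (AddMonoidHom.ext fun x => ?_)
      exact congrFun h (Additive.toMul x)
    · intro r m
      rfl
  exact Module.free_of_finite_type_torsion_free'

end Fermat.Agent.S41.H34
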