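import Mathlib
import Fermat.Agent.S41.Transfer_helper6

/-!
# S41, node (TR), part 2 (helper6): transfer families without explicit permutations

* `isTrFam_of_exists` : if the cosets `Γ' · α x` are pairwise distinct and every `α x * ι γ`
  lies in some `Γ' · α y`, then `α` is a transfer family (the permutation is produced by
  finiteness).
* `tr_congr_of_exists` : two families of the same cardinality, the first with pairwise distinct
  cosets, such that every coset of the first occurs in the second, define the same transfer.
* `tr_unit_of_mem` : a one-element family inside `Γ` acts as the identity.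
-/

set_option autoImplicit false

namespace Fermat.Agent.S41.H06

open Finset

variable {G Γ Γ' : Type*} [Group G] [Group Γ] [Group Γ']
variable {A : Type*} [AddCommGroup A]
variable {X Y : Type*}
variable {ι : Γ →* G} {ι' : Γ' →* G} {α : X → G} {β : Y → G}

/-- A family with pairwise distinct cosets which is stable (up to `Γ'` on the left) under right
multiplication by `Γ` is a transfer family. -/
theorem isTrFam_of_exists [Finite X]
    (hinj : ∀ (x y : X) (k : Γ'), α x = ι' k * α y → x = y)
    (h : ∀ (γ : Γ) (x : X), ∃ (y : X) (g' : Γ'), α x * ι γ = ι' g' * α y) :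
    IsTrFam ι ι' α := by
  intro γ
  choose f g' hfg using h γ
  have hf : Function.Injective f := by
    intro x x' hxx
    refine hinj x x' (g' x * (g' x')⁻¹) ?_
    have e1 := hfg x
    have e2 := hfg x'
    rw [← hxx] at e2
    have e3 : α x = ι' (g' x) * α (f x) * (ι γ)⁻¹ := by rw [← e1]; group
    have e4 : α x' = ι' (g' x') * α (f x) * (ι γ)⁻¹ := by rw [← e2]; group
    rw [e3, e4, map_mul, map_inv]
    group
  exact ⟨Equiv.ofBijective f (Finite.injective_iff_bijective.mp hf), g', hfg⟩

/-- **Same set of cosets, same transfer** (no explicit bijection needed). -/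
theorem tr_congr_of_exists [Fintype X] [Fintype Y] (hι' : Function.Injective ι')
    (hα : IsTrFam ι ι' α) (hβ : IsTrFam ι ι' β)
    (hinj : ∀ (x y : X) (k : Γ'), α x = ι' k * α y → x = y)
    (hcard : Fintype.card X = Fintype.card Y)
    (h : ∀ x : X, ∃ (y : Y) (k : Γ'), β y = ι' k * α x) :
    (tr hι' hβ : (Additive Γ' →+ A) →+ (Additive Γ →+ A)) = tr hι' hα := by
  choose f k hfk using h
  have hf : Function.Injective f := by
    intro x x' hxx
    refine hinj x x' ((k x)⁻¹ * k x') ?_
    have e1 := hfk x
    have e2 := hfk x'
    rw [← hxx] at e2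
    have e3 : α x = (ι' (k x))⁻¹ * β (f x) := by rw [e1]; group
    rw [e3, e2, map_mul, map_inv]
    group
  have hb : Function.Bijective f := (Fintype.bijective_iff_injective_and_card f).mpr ⟨hf, hcard⟩
  exact tr_congr hι' hα hβ (Equiv.ofBijective f hb) k (fun x => hfk x)

/-- A one-element family inside `Γ` acts as the identity. -/
theorem tr_unit_of_mem {ι : Γ →* G} (hι : Function.Injective ι) (k : Γ)
    (h : IsTrFam ι ι (fun _ : Unit => ι k)) (χ : Additive Γ →+ A) :
    tr hι h χ = χ := by
  have := tr_of_range hι (fun _ : Unit => k) h χ
  simpa using this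

end Fermat.Agent.S41.H06
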