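import Mathlib
import Fermat.Agent.S22.HeckeDecomp_helper56
import Fermat.Agent.S29.TransferHom_helper6
import Fermat.Agent.S41.Transfer2_helper6
import Fermat.Agent.S41.IhStmt_helper39

/-!
# S41, node (TR), part 3 (helper6): the transfer calculus for `Γ₀(M) ⊆ GL₂(ℝ)`

* `gl M : Γ₀(M) →* GL₂(ℝ)` (injective), the vocabulary `IsDec (gl M) (gl M') α γ σ g'`.
* `IsInt A P` : the element `A : GL₂(ℝ)` has the integer matrix `P`; `mul_eq_mul_of_isInt`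
  reduces every coset identity `α * gl γ = gl g' * α'` to an identity of integer `2 × 2`
  matrices.  `iG' P` : the integer matrix `P` (nonzero determinant) as an element of `GL₂(ℝ)`.
* Bridge to the landed S29 files: `IsDec (gl N) (gl N) (repT ℓ) = S29.H06.IsDecomp N ℓ`,
  `hecke hℓ hℓN χ = S29.H06.heckeTr hℓ hℓN χ`.
* The families of the level-raising argument: `famOne` (restriction), `eta q` (conjugation by
  `diag(q,1)`), `rho N q b0` (corestriction `Γ₀(Nq) \ Γ₀(N)`), `beta N q b0 d0`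
  (corestriction after conjugation), `wq N q b0 d0` (Atkin-Lehner), `repT`, `repU`.
-/

set_option autoImplicit false

namespace Fermat.Agent.S41.H06

open CongruenceSubgroup
open Fermat.Agent.S22
open scoped MatrixGroups

/-! ### `Γ₀(M)` inside `GL₂(ℝ)` -/

/-- The inclusion `Γ₀(M) → GL₂(ℝ)`. -/
noncomputable def gl (M : ℕ) : Gamma0 M →* GL (Fin 2) ℝ :=
  (Matrix.SpecialLinearGroup.mapGL ℝ).comp (Gamma0 M).subtype

theorem gl_apply (M : ℕ) (γ : Gamma0 M) : gl M γ = ((γ : SL(2, ℤ)) : GL (Fin 2) ℝ) := rfl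

theorem gl_injective (M : ℕ) : Function.Injective (gl M) :=
  Matrix.SpecialLinearGroup.mapGL_injective.comp (Gamma0 M).subtype_injective

/-- `A : GL₂(ℝ)` is the integer matrix `P`. -/
def IsInt (A : GL (Fin 2) ℝ) (P : Matrix (Fin 2) (Fin 2) ℤ) : Prop :=
  (A : Matrix (Fin 2) (Fin 2) ℝ) = P.map (Int.cast : ℤ → ℝ)

theorem isInt_gl (M : ℕ) (γ : Gamma0 M) :
    IsInt (gl M γ) ((γ : SL(2, ℤ)) : Matrix (Fin 2) (Fin 2) ℤ) := by
  unfold IsInt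
  rw [gl_apply]
  ext i j
  simp

theorem isInt_coe (g : SL(2, ℤ)) :
    IsInt (g : GL (Fin 2) ℝ) (g : Matrix (Fin 2) (Fin 2) ℤ) := by
  unfold IsInt
  ext i j
  simp

theorem isInt_one : IsInt 1 1 := by
  unfold IsInt
  ext i j
  simp [Matrix.one_apply]

theorem IsInt.mul {A B : GL (Fin 2) ℝ} {P Q : Matrix (Fin 2) (Fin 2) ℤ} (hA : IsInt A P)
    (hB : IsInt B Q) : IsInt (A * B) (P * Q) := by
  unfold IsInt at *
  rw [Matrix.GeneralLinearGroup.coe_mul, hA, hB]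
  ext i j
  simp [Matrix.mul_apply]

theorem IsInt.eq {A B : GL (Fin 2) ℝ} {P : Matrix (Fin 2) (Fin 2) ℤ} (hA : IsInt A P)
    (hB : IsInt B P) : A = B :=
  Units.ext (hA.trans hB.symm)

theorem IsInt.congr {A : GL (Fin 2) ℝ} {P Q : Matrix (Fin 2) (Fin 2) ℤ} (hA : IsInt A P)
    (h : P = Q) : IsInt A Q := h ▸ hA

/-- **The bookkeeping tool**: an identity in `GL₂(ℝ)` between products of integral elements
follows from the identity of integer matrices. -/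
theorem mul_eq_mul_of_isInt {A₁ A₂ B₁ B₂ : GL (Fin 2) ℝ} {P₁ P₂ Q₁ Q₂ : Matrix (Fin 2) (Fin 2) ℤ}
    (h₁ : IsInt A₁ P₁) (h₂ : IsInt A₂ P₂) (k₁ : IsInt B₁ Q₁) (k₂ : IsInt B₂ Q₂)
    (h : P₁ * P₂ = Q₁ * Q₂) : A₁ * A₂ = B₁ * B₂ :=
  (h₁.mul h₂).eq ((k₁.mul k₂).congr h.symm)

/-- An integer matrix with nonzero determinant as an element of `GL₂(ℝ)` (junk value `1` if the
determinant vanishes). -/
noncomputable def iG' (P : Matrix (Fin 2) (Fin 2) ℤ) : GL (Fin 2) ℝ :=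
  if h : (P.map (Int.cast : ℤ → ℝ)).det ≠ 0 then
    Matrix.GeneralLinearGroup.mkOfDetNeZero (P.map (Int.cast : ℤ → ℝ)) h
  else 1

theorem det_map_intCast (P : Matrix (Fin 2) (Fin 2) ℤ) :
    (P.map (Int.cast : ℤ → ℝ)).det = ((P.det : ℤ) : ℝ) := by
  rw [Matrix.det_fin_two, Matrix.det_fin_two]
  simp

theorem isInt_iG' {P : Matrix (Fin 2) (Fin 2) ℤ} (h : P.det ≠ 0) : IsInt (iG' P) P := by
  have h' : (P.map (Int.cast : ℤ → ℝ)).det ≠ 0 := by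
    rw [det_map_intCast]
    exact_mod_cast h
  unfold IsInt iG'
  rw [dif_pos h']
  rfl

theorem isInt_repT_none {ℓ : ℕ} (hℓ : ℓ ≠ 0) : IsInt (H56.repT ℓ none) !![(ℓ : ℤ), 0; 0, 1] := by
  unfold IsInt
  show ((ModularForm.heckeDiagMatrix ℓ : GL (Fin 2) ℝ) : Matrix (Fin 2) (Fin 2) ℝ) = _
  rw [ModularForm.val_heckeDiagMatrix hℓ]
  ext i j
  fin_cases i <;> fin_cases j <;> simp

theorem isInt_repT_some {ℓ : ℕ} (hℓ : ℓ ≠ 0) (j : Fin ℓ) :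
    IsInt (H56.repT ℓ (some j)) !![1, ((j : ℕ) : ℤ); 0, (ℓ : ℤ)] := by
  unfold IsInt
  show ((ModularForm.heckeMatrix ℓ j : GL (Fin 2) ℝ) : Matrix (Fin 2) (Fin 2) ℝ) = _
  rw [ModularForm.val_heckeMatrix hℓ]
  ext i k
  fin_cases i <;> fin_cases k <;> simp

theorem isInt_repU {ℓ : ℕ} (hℓ : ℓ ≠ 0) (j : Fin ℓ) :
    IsInt (H56.repU ℓ j) !![1, ((j : ℕ) : ℤ); 0, (ℓ : ℤ)] :=
  isInt_repT_some hℓ j

/-! ### Bridge to the landed S29 transfer files -/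

theorem isDec_repT_iff {N ℓ : ℕ} (γ : Gamma0 N) (σ : Equiv.Perm (Option (Fin ℓ)))
    (g' : Option (Fin ℓ) → Gamma0 N) :
    IsDec (gl N) (gl N) (H56.repT ℓ) γ σ g' ↔ Fermat.Agent.S29.H06.IsDecomp N ℓ γ σ g' :=
  Iff.rfl

theorem isTrFam_repT {N ℓ : ℕ} (hℓ : ℓ.Prime) (hℓN : ¬ ℓ ∣ N) :
    IsTrFam (gl N) (gl N) (H56.repT ℓ) := fun γ =>
  Fermat.Agent.S29.H06.exists_isDecomp hℓ hℓN γ

/-- The Hecke operator `T_ℓ` (`ℓ ∤ N`) on `Hom(Γ₀(N), A)` as a transfer. -/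
noncomputable def hecke {N ℓ : ℕ} {A : Type*} [AddCommGroup A] (hℓ : ℓ.Prime) (hℓN : ¬ ℓ ∣ N) :
    (Additive (Gamma0 N) →+ A) →+ (Additive (Gamma0 N) →+ A) :=
  tr (gl_injective N) (isTrFam_repT hℓ hℓN)

theorem hecke_eq_heckeTr {N ℓ : ℕ} {A : Type*} [AddCommGroup A] (hℓ : ℓ.Prime) (hℓN : ¬ ℓ ∣ N)
    (χ : Additive (Gamma0 N) →+ A) :
    hecke hℓ hℓN χ = Fermat.Agent.S29.H06.heckeTr hℓ hℓN χ := by
  refine Fermat.Agent.S29.H06.IsHeckeTr.eq_heckeTr hℓ hℓN ?_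
  intro γ σ g' hd
  exact tr_apply (gl_injective N) (isTrFam_repT hℓ hℓN) χ hd

theorem isHeckeTr_hecke {N ℓ : ℕ} {A : Type*} [AddCommGroup A] (hℓ : ℓ.Prime) (hℓN : ¬ ℓ ∣ N)
    (χ : Additive (Gamma0 N) →+ A) :
    Fermat.Agent.S29.H06.IsHeckeTr N ℓ χ (hecke hℓ hℓN χ) := by
  intro γ σ g' hd
  exact tr_apply (gl_injective N) (isTrFam_repT hℓ hℓN) χ hd

theorem isTrFam_repU {M q : ℕ} (hq : q ≠ 0) (hqM : q ∣ M) :
    IsTrFam (gl M) (gl M) (H56.repU q) := fun γ => by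
  obtain ⟨σ, g', hg', h⟩ := H56.repU_decomp hq hqM (γ : SL(2, ℤ)) γ.2
  exact ⟨σ, fun x => ⟨g' x, hg' x⟩, h⟩

/-- The operator `U_q` (`q ∣ M`) on `Hom(Γ₀(M), A)` as a transfer. -/
noncomputable def heckeU {M q : ℕ} {A : Type*} [AddCommGroup A] (hq : q ≠ 0) (hqM : q ∣ M) :
    (Additive (Gamma0 M) →+ A) →+ (Additive (Gamma0 M) →+ A) :=
  tr (gl_injective M) (isTrFam_repU hq hqM)

/-! ### Restriction -/

theorem gamma0_le_of_dvd {M M' : ℕ} (h : M ∣ M') : Gamma0 M' ≤ Gamma0 M := by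
  intro γ hγ
  rw [Gamma0_mem] at hγ ⊢
  rw [ZMod.intCast_zmod_eq_zero_iff_dvd] at hγ ⊢
  exact (Int.natCast_dvd_natCast.mpr h).trans hγ

/-- The inclusion `Γ₀(M') → Γ₀(M)` for `M ∣ M'`. -/
def incl {M M' : ℕ} (h : M ∣ M') : Gamma0 M' →* Gamma0 M :=
  Subgroup.inclusion (gamma0_le_of_dvd h)

theorem gl_incl {M M' : ℕ} (h : M ∣ M') (γ : Gamma0 M') : gl M (incl h γ) = gl M' γ := rfl

theorem isTrFam_one {M M' : ℕ} (h : M ∣ M') :
    IsTrFam (gl M') (gl M) (fun _ : Unit => (1 : GL (Fin 2) ℝ)) :=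
  isTrFam_single fun γ => ⟨incl h γ, by rw [gl_incl, one_mul, mul_one]⟩

/-- Restriction `Hom(Γ₀(M), A) → Hom(Γ₀(M'), A)` for `M ∣ M'`, as a transfer. -/
noncomputable def res {M M' : ℕ} {A : Type*} [AddCommGroup A] (h : M ∣ M') :
    (Additive (Gamma0 M) →+ A) →+ (Additive (Gamma0 M') →+ A) :=
  tr (gl_injective M) (isTrFam_one h)

theorem res_apply {M M' : ℕ} {A : Type*} [AddCommGroup A] (h : M ∣ M')
    (χ : Additive (Gamma0 M) →+ A) (γ : Gamma0 M') :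
    res h χ (Additive.ofMul γ) = χ (Additive.ofMul (incl h γ)) :=
  tr_single_apply (gl_injective M) (isTrFam_one h) χ (by rw [gl_incl, one_mul, mul_one])

/-! ### Conjugation by `η = diag(q, 1)` -/

/-- `η = diag(q, 1)`. -/
noncomputable def eta (q : ℕ) : GL (Fin 2) ℝ := H56.repT q none

theorem isInt_eta {q : ℕ} (hq : q ≠ 0) : IsInt (eta q) !![(q : ℤ), 0; 0, 1] :=
  isInt_repT_none hq

/-- `η g = g' η` for `g' = η g η⁻¹` (the relation `EtaRel` of the Ihara statement). -/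
theorem eta_mul_gl {N M q : ℕ} (hq : q ≠ 0) (g : Gamma0 M) (g' : Gamma0 N)
    (hrel : H39.EtaRel q (g : SL(2, ℤ)) (g' : SL(2, ℤ))) :
    eta q * gl M g = gl N g' * eta q := by
  obtain ⟨h00, h01, h10, h11⟩ := hrel
  refine mul_eq_mul_of_isInt (isInt_eta hq) (isInt_gl M g) (isInt_gl N g') (isInt_eta hq) ?_
  ext i j
  fin_cases i <;> fin_cases j <;>
    simp [Matrix.mul_apply, Fin.sum_univ_two, h00, h01, ← h10, h11, mul_comm]

theorem exists_etaRel {N q : ℕ} (g : Gamma0 (N * q)) :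
    ∃ g' : Gamma0 N, H39.EtaRel q (g : SL(2, ℤ)) (g' : SL(2, ℤ)) := by
  have hg : (((N * q : ℕ) : ℤ)) ∣ (g : SL(2, ℤ)) 1 0 :=
    (ZMod.intCast_zmod_eq_zero_iff_dvd _ _).mp (Gamma0_mem.mp g.2)
  obtain ⟨c', hc'⟩ := hg
  have hdet : (g : SL(2, ℤ)) 0 0 * (g : SL(2, ℤ)) 1 1 - (g : SL(2, ℤ)) 0 1 * (g : SL(2, ℤ)) 1 0 = 1 := by
    have := (g : SL(2, ℤ)).det_coe
    rw [Matrix.det_fin_two] at this
    exact this
  have hdet' : (g : SL(2, ℤ)) 0 0 * (g : SL(2, ℤ)) 1 1 - ((q : ℤ) * (g : SL(2, ℤ)) 0 1) * ((N : ℤ) * c') = 1 := by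
    have h2 := hc'
    push_cast at h2
    linear_combination hdet + ((g : SL(2, ℤ)) 0 1) * h2
  refine ⟨⟨H39.mkSL ((g : SL(2, ℤ)) 0 0) ((q : ℤ) * (g : SL(2, ℤ)) 0 1) ((N : ℤ) * c')
    ((g : SL(2, ℤ)) 1 1) hdet', H39.mkSL_mem_Gamma0 N _ _ _ _ hdet' (dvd_mul_right _ _)⟩, ?_⟩
  refine ⟨rfl, rfl, ?_, rfl⟩
  show (q : ℤ) * ((N : ℤ) * c') = (g : SL(2, ℤ)) 1 0
  rw [hc']
  push_cast
  ring

theorem isTrFam_eta {N q : ℕ} (hq : q ≠ 0) :
    IsTrFam (gl (N * q)) (gl N) (fun _ : Unit => eta q) :=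
  isTrFam_single fun g =>
    let ⟨g', hrel⟩ := exists_etaRel g
    ⟨g', eta_mul_gl hq g g' hrel⟩

/-- Conjugation by `η`: `(ceta χ) g = χ (η g η⁻¹)` for `g ∈ Γ₀(Nq)`, as a transfer
`Hom(Γ₀(N), A) → Hom(Γ₀(Nq), A)`. -/
noncomputable def ceta {N q : ℕ} {A : Type*} [AddCommGroup A] (hq : q ≠ 0) :
    (Additive (Gamma0 N) →+ A) →+ (Additive (Gamma0 (N * q)) →+ A) :=
  tr (gl_injective N) (isTrFam_eta hq)

theorem ceta_apply {N q : ℕ} {A : Type*} [AddCommGroup A] (hq : q ≠ 0)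
    (χ : Additive (Gamma0 N) →+ A) (g : Gamma0 (N * q)) (g' : Gamma0 N)
    (hrel : H39.EtaRel q (g : SL(2, ℤ)) (g' : SL(2, ℤ))) :
    ceta hq χ (Additive.ofMul g) = χ (Additive.ofMul g') :=
  tr_single_apply (gl_injective N) (isTrFam_eta hq) χ (eta_mul_gl hq g g' hrel)

/-! ### The corestriction families and the Atkin-Lehner element

Parameters: integers `b0, d0` with `q * d0 - N * b0 = 1`. -/

/-- Representatives of `Γ₀(Nq) \ Γ₀(N)`: `none ↦ 1`, `some j ↦ [[1, j], [-N b0, 1 - N b0 j]]`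
(bottom row `≡ (1 : j + 1)` modulo `q`). -/
noncomputable def rho (N q : ℕ) (b0 : ℤ) : Option (Fin q) → GL (Fin 2) ℝ := fun x =>
  x.elim 1 fun j => iG' !![1, ((j : ℕ) : ℤ); -((N : ℤ) * b0), 1 - (N : ℤ) * b0 * ((j : ℕ) : ℤ)]

theorem isInt_rho_none (N q : ℕ) (b0 : ℤ) : IsInt (rho N q b0 none) 1 := isInt_one

theorem isInt_rho_some (N q : ℕ) (b0 : ℤ) (j : Fin q) :
    IsInt (rho N q b0 (some j))
      !![1, ((j : ℕ) : ℤ); -((N : ℤ) * b0), 1 - (N : ℤ) * b0 * ((j : ℕ) : ℤ)] :=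
  isInt_iG' (by rw [Matrix.det_fin_two_of]; ring_nf; norm_num)

/-- The Atkin-Lehner element `W_q = [[q, b0], [N q, q d0]]` (determinant `q`). -/
noncomputable def wq (N q : ℕ) (b0 d0 : ℤ) : GL (Fin 2) ℝ :=
  iG' !![(q : ℤ), b0; (N : ℤ) * q, (q : ℤ) * d0]

theorem isInt_wq {N q : ℕ} (hq : q ≠ 0) {b0 d0 : ℤ} (h0 : (q : ℤ) * d0 - (N : ℤ) * b0 = 1) :
    IsInt (wq N q b0 d0) !![(q : ℤ), b0; (N : ℤ) * q, (q : ℤ) * d0] :=
  isInt_iG' (by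
    rw [Matrix.det_fin_two_of]
    have : (q : ℤ) * ((q : ℤ) * d0) - b0 * ((N : ℤ) * q) = q := by linear_combination (q : ℤ) * h0
    rw [this]
    exact_mod_cast hq)

/-- The family of "corestriction after conjugation": `none ↦ W_q`, `some j ↦ [[1, j], [0, q]]`
(`= η' k_x` with `η' = diag(1, q)` and `k_x` representatives of `(Γ₀(N) ∩ Γ⁰(q)) \ Γ₀(N)`). -/
noncomputable def beta (N q : ℕ) (b0 d0 : ℤ) : Option (Fin q) → GL (Fin 2) ℝ := fun x =>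
  x.elim (wq N q b0 d0) (H56.repU q)

theorem isInt_beta_none {N q : ℕ} (hq : q ≠ 0) {b0 d0 : ℤ}
    (h0 : (q : ℤ) * d0 - (N : ℤ) * b0 = 1) :
    IsInt (beta N q b0 d0 none) !![(q : ℤ), b0; (N : ℤ) * q, (q : ℤ) * d0] :=
  isInt_wq hq h0

theorem isInt_beta_some {N q : ℕ} (hq : q ≠ 0) (b0 d0 : ℤ) (j : Fin q) :
    IsInt (beta N q b0 d0 (some j)) !![1, ((j : ℕ) : ℤ); 0, (q : ℤ)] :=
  isInt_repU hq j

end Fermat.Agent.S41.H06
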