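/-
helper70: (TR-PAR) for the abstract transfer calculus of S41 (A)/(B).

If `al x * i gam = i' (g' x) * al (sig x)` is a decomposition of `gam` along a finite family
`al : X → G`, `P ⊆ G` is stable under conjugation and positive powers, `chi` vanishes on the
elements of `Gam'` lying in `P` and `i gam ∈ P`, then `∑ x, chi (g' x) = 0` (torsion-free
coefficients).  Concretely: every transfer operator between subgroups of `SL(2, ℤ)` inside
`GL₂(ℝ)` maps parabolic homomorphisms to parabolic homomorphisms.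
-/
import Mathlib
import Fermat.Prelude.Def_ModularCurve_PeriodMap

set_option autoImplicit false

namespace Fermat.Agent.S41.H70

open scoped MatrixGroups

section Abstract

variable {G Gam Gam' X A : Type*} [Group G] [Group Gam] [Group Gam'] [AddCommGroup A]

/-- The ordered product `g' x * g' (sig x) * ⋯ * g' (sig ^ (k-1) x)`. -/
def iterProdG (sig : Equiv.Perm X) (g' : X → Gam') : ℕ → X → Gam'
  | 0, _ => 1
  | k + 1, x => g' x * iterProdG sig g' k (sig x)

theorem iterProdG_dec {i : Gam →* G} {i' : Gam' →* G} {al : X → G} {gam : Gam}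
    {sig : Equiv.Perm X} {g' : X → Gam'}
    (hd : ∀ x, al x * i gam = i' (g' x) * al (sig x)) (k : ℕ) (x : X) :
    al x * i gam ^ k = i' (iterProdG sig g' k x) * al ((sig ^ k) x) := by
  induction k generalizing x with
  | zero => simp [iterProdG]
  | succ k ih =>
    rw [pow_succ', ← mul_assoc, hd x, mul_assoc, ih (sig x), iterProdG, map_mul, mul_assoc,
      pow_succ, Equiv.Perm.mul_apply]

theorem map_iterProdG (chi : Additive Gam' →+ A) (sig : Equiv.Perm X) (g' : X → Gam') (k : ℕ)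
    (x : X) :
    chi (Additive.ofMul (iterProdG sig g' k x)) =
      ∑ j ∈ Finset.range k, chi (Additive.ofMul (g' ((sig ^ j) x))) := by
  induction k generalizing x with
  | zero => simp [iterProdG]
  | succ k ih =>
    rw [Finset.sum_range_succ', iterProdG, ofMul_mul, map_add, ih (sig x), add_comm]
    simp [pow_succ, Equiv.Perm.mul_apply]

/-- At `k = orderOf sig` the iterated product is conjugate to `gam ^ k`. -/
theorem iterProdG_orderOf {i : Gam →* G} {i' : Gam' →* G} {al : X → G} {gam : Gam}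
    {sig : Equiv.Perm X} {g' : X → Gam'}
    (hd : ∀ x, al x * i gam = i' (g' x) * al (sig x)) (x : X) :
    i' (iterProdG sig g' (orderOf sig) x) = al x * i gam ^ orderOf sig * (al x)⁻¹ := by
  have h := iterProdG_dec hd (orderOf sig) x
  rw [pow_orderOf_eq_one, Equiv.Perm.one_apply] at h
  rw [h, mul_inv_cancel_right]

variable [Fintype X]

/-- `orderOf sig • ∑ x, chi (g' x)` is the sum of `chi` over the iterated products. -/
theorem orderOf_nsmul_sum (chi : Additive Gam' →+ A) (sig : Equiv.Perm X) (g' : X → Gam') :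
    orderOf sig • ∑ x, chi (Additive.ofMul (g' x)) =
      ∑ x, chi (Additive.ofMul (iterProdG sig g' (orderOf sig) x)) := by
  simp only [map_iterProdG]
  rw [Finset.sum_comm]
  have hre : ∀ j ∈ Finset.range (orderOf sig),
      ∑ x, chi (Additive.ofMul (g' ((sig ^ j) x))) = ∑ x, chi (Additive.ofMul (g' x)) :=
    fun j _ => Equiv.sum_comp (sig ^ j) fun x => chi (Additive.ofMul (g' x))
  rw [Finset.sum_congr rfl hre, Finset.sum_const, Finset.card_range]

/-- **(TR-PAR), abstract form.** -/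
theorem sum_eq_zero_of_dec
    (hA : ∀ (n : ℕ) (a : A), n ≠ 0 → n • a = 0 → a = 0)
    (i : Gam →* G) (i' : Gam' →* G) (al : X → G) (P : Set G)
    (hconj : ∀ g x : G, x ∈ P → g * x * g⁻¹ ∈ P)
    (hpow : ∀ x ∈ P, ∀ n : ℕ, n ≠ 0 → x ^ n ∈ P)
    (chi : Additive Gam' →+ A) (hchi : ∀ g' : Gam', i' g' ∈ P → chi (Additive.ofMul g') = 0)
    {gam : Gam} {sig : Equiv.Perm X} {g' : X → Gam'}
    (hd : ∀ x, al x * i gam = i' (g' x) * al (sig x)) (hgam : i gam ∈ P) :
    ∑ x, chi (Additive.ofMul (g' x)) = 0 := by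
  have hn : orderOf sig ≠ 0 := (orderOf_pos sig).ne'
  apply hA (orderOf sig) _ hn
  rw [orderOf_nsmul_sum]
  refine Finset.sum_eq_zero fun x _ => hchi _ ?_
  rw [iterProdG_orderOf hd x]
  exact hconj _ _ (hpow _ hgam _ hn)

end Abstract

section Concrete

/-- Elements of `GL₂(ℝ)` of determinant one and trace `±2`. -/
def parGL : Set (GL (Fin 2) ℝ) :=
  {g | (g : Matrix (Fin 2) (Fin 2) ℝ).det = 1 ∧ (g : Matrix (Fin 2) (Fin 2) ℝ).trace ^ 2 = 4}

theorem parGL_conj (g x : GL (Fin 2) ℝ) (hx : x ∈ parGL) : g * x * g⁻¹ ∈ parGL := by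
  obtain ⟨h1, h2⟩ := hx
  refine ⟨?_, ?_⟩
  · rw [Units.val_mul, Units.val_mul, Matrix.det_units_conj]
    exact h1
  · rw [Units.val_mul, Units.val_mul, Matrix.trace_units_conj]
    exact h2

/-- Cayley–Hamilton for real `2 × 2` matrices of determinant one. -/
theorem real_sq_eq_of_det_one (B : Matrix (Fin 2) (Fin 2) ℝ) (hB : B.det = 1) :
    B * B = B.trace • B - 1 := by
  rw [Matrix.det_fin_two] at hB
  ext i j
  fin_cases i <;> fin_cases j <;>
    simp [Matrix.mul_apply, Fin.sum_univ_two, Matrix.trace_fin_two] <;>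
    first
      | linear_combination (-1 : ℝ) * hB
      | ring1

theorem real_trace_pow_add_two (B : Matrix (Fin 2) (Fin 2) ℝ) (hB : B.det = 1) (k : ℕ) :
    (B ^ (k + 2)).trace = B.trace * (B ^ (k + 1)).trace - (B ^ k).trace := by
  have h : B ^ (k + 2) = B.trace • B ^ (k + 1) - B ^ k := by
    rw [pow_add, pow_two, real_sq_eq_of_det_one B hB, mul_sub, mul_one, Matrix.mul_smul,
      ← pow_succ]
  rw [h, Matrix.trace_sub, Matrix.trace_smul, smul_eq_mul]

theorem real_trace_pow_sq_eq_four (B : Matrix (Fin 2) (Fin 2) ℝ) (hB : B.det = 1)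
    (ht : B.trace ^ 2 = 4) (k : ℕ) : (B ^ k).trace ^ 2 = 4 := by
  have ht2 : B.trace = 2 ∨ B.trace = -2 := by
    have h0 : (B.trace - 2) * (B.trace + 2) = 0 := by linear_combination ht
    rcases mul_eq_zero.mp h0 with h | h
    · left; linarith
    · right; linarith
  have h0 : (B ^ 0).trace = 2 := by simp
  rcases ht2 with h2 | h2
  · have key : ∀ k : ℕ, (B ^ k).trace = 2 ∧ (B ^ (k + 1)).trace = 2 := by
      intro k
      induction k with
      | zero => exact ⟨h0, by simpa using h2⟩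
      | succ k ih =>
        refine ⟨ih.2, ?_⟩
        rw [real_trace_pow_add_two B hB k, h2, ih.1, ih.2]; norm_num
    rw [(key k).1]; norm_num
  · have key : ∀ k : ℕ, (B ^ k).trace = 2 * (-1) ^ k ∧
        (B ^ (k + 1)).trace = 2 * (-1) ^ (k + 1) := by
      intro k
      induction k with
      | zero => exact ⟨by simp, by simpa using h2⟩
      | succ k ih =>
        refine ⟨ih.2, ?_⟩
        rw [real_trace_pow_add_two B hB k, h2, ih.1, ih.2]; ring
    rw [(key k).1]
    have : ((-1 : ℝ) ^ k) ^ 2 = 1 := by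
      rw [← pow_mul, mul_comm, pow_mul]; norm_num
    linear_combination 4 * this

theorem parGL_pow (x : GL (Fin 2) ℝ) (hx : x ∈ parGL) (n : ℕ) (_hn : n ≠ 0) :
    x ^ n ∈ parGL := by
  obtain ⟨h1, h2⟩ := hx
  refine ⟨?_, ?_⟩
  · rw [Units.val_pow_eq_pow_val, Matrix.det_pow, h1, one_pow]
  · rw [Units.val_pow_eq_pow_val]
    exact real_trace_pow_sq_eq_four _ h1 h2 n

theorem coe_mem_parGL_iff (γ : SL(2, ℤ)) :
    ((γ : GL (Fin 2) ℝ)) ∈ parGL ↔ (γ : Matrix (Fin 2) (Fin 2) ℤ).trace ^ 2 = 4 := by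
  have hdet := γ.2
  rw [Matrix.det_fin_two] at hdet
  have hd' : ((γ : GL (Fin 2) ℝ) : Matrix (Fin 2) (Fin 2) ℝ).det = 1 := by
    simp [Matrix.det_fin_two]
    exact_mod_cast hdet
  have htr : ((γ : GL (Fin 2) ℝ) : Matrix (Fin 2) (Fin 2) ℝ).trace =
      (((γ : Matrix (Fin 2) (Fin 2) ℤ).trace : ℤ) : ℝ) := by
    simp [Matrix.trace_fin_two]
  constructor
  · rintro ⟨-, h⟩
    rw [htr] at h
    exact_mod_cast h
  · intro h
    refine ⟨hd', ?_⟩
    rw [htr]
    exact_mod_cast h

/-- **(TR-PAR) for subgroups of `SL(2, ℤ)`**: an operator given by decompositions along a finite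
family `al : X → GL₂(ℝ)` maps parabolic homomorphisms to parabolic homomorphisms
(torsion-free coefficients). -/
theorem isParabolicHom_of_dec {Γ Γ' : Subgroup SL(2, ℤ)} {X : Type*} [Fintype X]
    {A : Type*} [AddCommGroup A]
    (hA : ∀ (n : ℕ) (a : A), n ≠ 0 → n • a = 0 → a = 0)
    (al : X → GL (Fin 2) ℝ) {chi : Additive Γ' →+ A}
    (hchi : ModularCurve.Period.IsParabolicHom Γ' chi) {chi' : Additive Γ →+ A}
    (h : ∀ γ : Γ, ∃ (sig : Equiv.Perm X) (g' : X → Γ'),
      (∀ x, al x * (((γ : SL(2, ℤ)) : GL (Fin 2) ℝ)) =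
        (((g' x : SL(2, ℤ)) : GL (Fin 2) ℝ)) * al (sig x)) ∧
      chi' (Additive.ofMul γ) = ∑ x, chi (Additive.ofMul (g' x))) :
    ModularCurve.Period.IsParabolicHom Γ chi' := by
  intro γ hγ
  obtain ⟨sig, g', hd, hval⟩ := h γ
  rw [hval]
  exact sum_eq_zero_of_dec hA
    ((Matrix.SpecialLinearGroup.mapGL ℝ).comp Γ.subtype)
    ((Matrix.SpecialLinearGroup.mapGL ℝ).comp Γ'.subtype) al parGL parGL_conj parGL_pow chi
    (fun g'' hg'' => hchi g'' ((coe_mem_parGL_iff _).mp hg'')) (gam := γ) hd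
    ((coe_mem_parGL_iff _).mpr hγ)

/-- Integer coefficients: membership in the Prelude lattice `parabolicHoms ℤ Γ ℤ`. -/
theorem mem_parabolicHoms_of_dec {Γ Γ' : Subgroup SL(2, ℤ)} {X : Type*} [Fintype X]
    (al : X → GL (Fin 2) ℝ) {chi : Additive Γ' →+ ℤ}
    (hchi : chi ∈ ModularCurve.Period.parabolicHoms ℤ Γ' ℤ) {chi' : Additive Γ →+ ℤ}
    (h : ∀ γ : Γ, ∃ (sig : Equiv.Perm X) (g' : X → Γ'),
      (∀ x, al x * (((γ : SL(2, ℤ)) : GL (Fin 2) ℝ)) =
        (((g' x : SL(2, ℤ)) : GL (Fin 2) ℝ)) * al (sig x)) ∧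
      chi' (Additive.ofMul γ) = ∑ x, chi (Additive.ofMul (g' x))) :
    chi' ∈ ModularCurve.Period.parabolicHoms ℤ Γ ℤ :=
  isParabolicHom_of_dec
    (fun n a hn h0 => by
      rcases smul_eq_zero.mp h0 with h1 | h1
      · exact absurd h1 hn
      · exact h1) al hchi h

end Concrete

end Fermat.Agent.S41.H70
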