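import Mathlib
import Fermat.Prelude.Def_ModularCurve_PeriodMap
import Fermat.Agent.S41.TransferGamma0_helper6
import Fermat.Agent.S41.TransferPar_helper70

/-!
# S41, node (PAR-OPS) (helper97): the transfer operators preserve parabolic homomorphisms

Every operator of the level-raising argument (`res`, `ceta`, corestriction, Atkin-Lehner, `T_ℓ`,
`U_q`) is a transfer `H06.tr` along a finite family `α : X → GL₂(ℝ)` between the groups
`Γ₀(M) ⊆ GL₂(ℝ)`.  By helper70's landed `isParabolicHom_of_dec` every such operator maps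
parabolic homomorphisms to parabolic homomorphisms.  This file states this once and for all for
`H06.tr` (any two subgroups of `SL(2, ℤ)`, any family, any torsion-free coefficient group), and
packages the restricted operators on the Betti lattices `parabolicHoms ℤ Γ ℤ`:

* `isParabolicHom_tr`, `tr_mem_parabolicHoms` : the general statement (`gl M`, `gl M'`);
* `trPar h : parabolicHoms ℤ Γ₀(M') ℤ →ₗ[ℤ] parabolicHoms ℤ Γ₀(M) ℤ` with `coe_trPar`,
  `trPar_apply_apply`;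
* the instances for the landed operators `H06.res`, `H06.ceta`, `H06.hecke`, `H06.heckeU`.
-/

set_option autoImplicit false

namespace Fermat.Agent.S41.H97

open CongruenceSubgroup ModularCurve.Period Fermat.Agent.S41.H06
open scoped MatrixGroups

/-! ### General subgroups of `SL(2, ℤ)` -/

/-- The inclusion of a subgroup of `SL(2, ℤ)` into `GL₂(ℝ)`. -/
noncomputable def glOf (Γ : Subgroup SL(2, ℤ)) : Γ →* GL (Fin 2) ℝ :=
  (Matrix.SpecialLinearGroup.mapGL ℝ).comp Γ.subtype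

theorem glOf_injective (Γ : Subgroup SL(2, ℤ)) : Function.Injective (glOf Γ) :=
  Matrix.SpecialLinearGroup.mapGL_injective.comp Γ.subtype_injective

theorem glOf_gamma0 (M : ℕ) : glOf (Gamma0 M) = gl M := rfl

/-- **(PAR-OPS), general form**: the transfer along any finite family between two subgroups of
`SL(2, ℤ)` inside `GL₂(ℝ)` maps parabolic homomorphisms to parabolic homomorphisms
(torsion-free coefficients). -/
theorem isParabolicHom_trOf {Γ Γ' : Subgroup SL(2, ℤ)} {X : Type*} [Fintype X]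
    {A : Type*} [AddCommGroup A] (hA : ∀ (n : ℕ) (a : A), n ≠ 0 → n • a = 0 → a = 0)
    {α : X → GL (Fin 2) ℝ} (h : IsTrFam (glOf Γ) (glOf Γ') α)
    {χ : Additive Γ' →+ A} (hχ : IsParabolicHom Γ' χ) :
    IsParabolicHom Γ (tr (glOf_injective Γ') h χ) := by
  refine H70.isParabolicHom_of_dec hA α hχ (fun γ => ?_)
  obtain ⟨σ, g', hd⟩ := h γ
  exact ⟨σ, g', hd, tr_apply (glOf_injective Γ') h χ hd⟩

/-! ### The groups `Γ₀(M)` -/

section Gamma0

variable {M M' : ℕ} {X : Type*} [Fintype X] {α : X → GL (Fin 2) ℝ}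

/-- **(PAR-OPS)** for `H06.tr` between the groups `Γ₀(M)`: torsion-free coefficients. -/
theorem isParabolicHom_tr {A : Type*} [AddCommGroup A]
    (hA : ∀ (n : ℕ) (a : A), n ≠ 0 → n • a = 0 → a = 0)
    (h : IsTrFam (gl M) (gl M') α) {χ : Additive (Gamma0 M') →+ A}
    (hχ : IsParabolicHom (Gamma0 M') χ) :
    IsParabolicHom (Gamma0 M) (tr (gl_injective M') h χ) :=
  isParabolicHom_trOf (Γ := Gamma0 M) (Γ' := Gamma0 M') hA h hχ

theorem int_torsionFree : ∀ (n : ℕ) (a : ℤ), n ≠ 0 → n • a = 0 → a = 0 := by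
  intro n a hn h0
  rcases smul_eq_zero.mp h0 with h1 | h1
  · exact absurd h1 hn
  · exact h1

theorem complex_torsionFree : ∀ (n : ℕ) (a : ℂ), n ≠ 0 → n • a = 0 → a = 0 := by
  intro n a hn h0
  rcases smul_eq_zero.mp h0 with h1 | h1
  · exact absurd h1 hn
  · exact h1

/-- **(PAR-OPS)** for the Betti lattices: `H06.tr` maps `parabolicHoms ℤ Γ₀(M') ℤ` into
`parabolicHoms ℤ Γ₀(M) ℤ`. -/
theorem tr_mem_parabolicHoms (h : IsTrFam (gl M) (gl M') α) {χ : Additive (Gamma0 M') →+ ℤ}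
    (hχ : χ ∈ parabolicHoms ℤ (Gamma0 M') ℤ) :
    tr (gl_injective M') h χ ∈ parabolicHoms ℤ (Gamma0 M) ℤ :=
  isParabolicHom_tr int_torsionFree h hχ

/-- The same with complex coefficients. -/
theorem tr_mem_parabolicHoms_complex (h : IsTrFam (gl M) (gl M') α)
    {χ : Additive (Gamma0 M') →+ ℂ} (hχ : χ ∈ parabolicHoms ℂ (Gamma0 M') ℂ) :
    tr (gl_injective M') h χ ∈ parabolicHoms ℂ (Gamma0 M) ℂ :=
  isParabolicHom_tr complex_torsionFree h hχ

/-- The transfer along a family, restricted to the Betti lattices. -/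
noncomputable def trPar (h : IsTrFam (gl M) (gl M') α) :
    parabolicHoms ℤ (Gamma0 M') ℤ →ₗ[ℤ] parabolicHoms ℤ (Gamma0 M) ℤ :=
  AddMonoidHom.toIntLinearMap
    { toFun := fun x => ⟨tr (gl_injective M') h x.1, tr_mem_parabolicHoms h x.2⟩
      map_zero' := by
        apply Subtype.ext
        show tr (gl_injective M') h (0 : Additive (Gamma0 M') →+ ℤ) = 0
        exact map_zero _
      map_add' := fun x y => by
        apply Subtype.ext
        show tr (gl_injective M') h (x.1 + y.1) =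
          tr (gl_injective M') h x.1 + tr (gl_injective M') h y.1
        exact map_add _ _ _ }

@[simp] theorem coe_trPar (h : IsTrFam (gl M) (gl M') α) (x : parabolicHoms ℤ (Gamma0 M') ℤ) :
    ((trPar h x : parabolicHoms ℤ (Gamma0 M) ℤ) : Additive (Gamma0 M) →+ ℤ) =
      tr (gl_injective M') h (x : Additive (Gamma0 M') →+ ℤ) := rfl

/-- Any decomposition computes the restricted transfer. -/
theorem trPar_apply_apply (h : IsTrFam (gl M) (gl M') α) (x : parabolicHoms ℤ (Gamma0 M') ℤ)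
    {γ : Gamma0 M} {σ : Equiv.Perm X} {g' : X → Gamma0 M'}
    (hd : IsDec (gl M) (gl M') α γ σ g') :
    (trPar h x : Additive (Gamma0 M) →+ ℤ) (Additive.ofMul γ) =
      ∑ y, (x : Additive (Gamma0 M') →+ ℤ) (Additive.ofMul (g' y)) :=
  tr_apply (gl_injective M') h (x : Additive (Gamma0 M') →+ ℤ) hd

/-- Two families defining the same transfer define the same restricted transfer. -/
theorem trPar_congr {Y : Type*} [Fintype Y] {β : Y → GL (Fin 2) ℝ}
    (h : IsTrFam (gl M) (gl M') α) (h' : IsTrFam (gl M) (gl M') β)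
    (e : (tr (gl_injective M') h : (Additive (Gamma0 M') →+ ℤ) →+ (Additive (Gamma0 M) →+ ℤ)) =
      tr (gl_injective M') h') :
    trPar h = trPar h' := by
  refine LinearMap.ext fun x => Subtype.ext ?_
  rw [coe_trPar, coe_trPar, e]

/-- Composition of restricted transfers is the restricted transfer along the product family. -/
theorem trPar_comp {M'' : ℕ} {Y : Type*} [Fintype Y] {β : Y → GL (Fin 2) ℝ}
    (h : IsTrFam (gl M) (gl M') α) (h' : IsTrFam (gl M') (gl M'') β)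
    (h'' : IsTrFam (gl M) (gl M'') (fun p : X × Y => β p.2 * α p.1))
    (x : parabolicHoms ℤ (Gamma0 M'') ℤ) :
    trPar h (trPar h' x) = trPar h'' x := by
  apply Subtype.ext
  rw [coe_trPar, coe_trPar, coe_trPar]
  exact tr_comp (gl_injective M') (gl_injective M'') h h' h'' _

end Gamma0

/-! ### The landed operators -/

section Landed

variable {A : Type*} [AddCommGroup A]

theorem isParabolicHom_res (hA : ∀ (n : ℕ) (a : A), n ≠ 0 → n • a = 0 → a = 0) {M M' : ℕ}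
    (h : M ∣ M') {χ : Additive (Gamma0 M) →+ A} (hχ : IsParabolicHom (Gamma0 M) χ) :
    IsParabolicHom (Gamma0 M') (res h χ) :=
  isParabolicHom_tr hA (isTrFam_one h) hχ

theorem isParabolicHom_ceta (hA : ∀ (n : ℕ) (a : A), n ≠ 0 → n • a = 0 → a = 0) {N q : ℕ}
    (hq : q ≠ 0) {χ : Additive (Gamma0 N) →+ A} (hχ : IsParabolicHom (Gamma0 N) χ) :
    IsParabolicHom (Gamma0 (N * q)) (ceta hq χ) :=
  isParabolicHom_tr hA (isTrFam_eta hq) hχ

theorem isParabolicHom_hecke (hA : ∀ (n : ℕ) (a : A), n ≠ 0 → n • a = 0 → a = 0) {N ℓ : ℕ}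
    (hℓ : ℓ.Prime) (hℓN : ¬ ℓ ∣ N) {χ : Additive (Gamma0 N) →+ A}
    (hχ : IsParabolicHom (Gamma0 N) χ) : IsParabolicHom (Gamma0 N) (hecke hℓ hℓN χ) :=
  isParabolicHom_tr hA (isTrFam_repT hℓ hℓN) hχ

theorem isParabolicHom_heckeU (hA : ∀ (n : ℕ) (a : A), n ≠ 0 → n • a = 0 → a = 0) {M q : ℕ}
    (hq : q ≠ 0) (hqM : q ∣ M) {χ : Additive (Gamma0 M) →+ A}
    (hχ : IsParabolicHom (Gamma0 M) χ) : IsParabolicHom (Gamma0 M) (heckeU hq hqM χ) :=
  isParabolicHom_tr hA (isTrFam_repU hq hqM) hχ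

theorem res_mem_parabolicHoms {M M' : ℕ} (h : M ∣ M') {χ : Additive (Gamma0 M) →+ ℤ}
    (hχ : χ ∈ parabolicHoms ℤ (Gamma0 M) ℤ) : res h χ ∈ parabolicHoms ℤ (Gamma0 M') ℤ :=
  isParabolicHom_res int_torsionFree h hχ

theorem ceta_mem_parabolicHoms {N q : ℕ} (hq : q ≠ 0) {χ : Additive (Gamma0 N) →+ ℤ}
    (hχ : χ ∈ parabolicHoms ℤ (Gamma0 N) ℤ) :
    ceta hq χ ∈ parabolicHoms ℤ (Gamma0 (N * q)) ℤ :=
  isParabolicHom_ceta int_torsionFree hq hχ

theorem hecke_mem_parabolicHoms {N ℓ : ℕ} (hℓ : ℓ.Prime) (hℓN : ¬ ℓ ∣ N)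
    {χ : Additive (Gamma0 N) →+ ℤ} (hχ : χ ∈ parabolicHoms ℤ (Gamma0 N) ℤ) :
    hecke hℓ hℓN χ ∈ parabolicHoms ℤ (Gamma0 N) ℤ :=
  isParabolicHom_hecke int_torsionFree hℓ hℓN hχ

theorem heckeU_mem_parabolicHoms {M q : ℕ} (hq : q ≠ 0) (hqM : q ∣ M)
    {χ : Additive (Gamma0 M) →+ ℤ} (hχ : χ ∈ parabolicHoms ℤ (Gamma0 M) ℤ) :
    heckeU hq hqM χ ∈ parabolicHoms ℤ (Gamma0 M) ℤ :=
  isParabolicHom_heckeU int_torsionFree hq hqM hχ

/-- Restriction on the Betti lattices. -/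
noncomputable def resPar {M M' : ℕ} (h : M ∣ M') :
    parabolicHoms ℤ (Gamma0 M) ℤ →ₗ[ℤ] parabolicHoms ℤ (Gamma0 M') ℤ :=
  trPar (isTrFam_one h)

theorem coe_resPar {M M' : ℕ} (h : M ∣ M') (x : parabolicHoms ℤ (Gamma0 M) ℤ) :
    ((resPar h x : parabolicHoms ℤ (Gamma0 M') ℤ) : Additive (Gamma0 M') →+ ℤ) =
      res h (x : Additive (Gamma0 M) →+ ℤ) := rfl

/-- Conjugation by `η = diag(q, 1)` on the Betti lattices. -/
noncomputable def cetaPar {N q : ℕ} (hq : q ≠ 0) :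
    parabolicHoms ℤ (Gamma0 N) ℤ →ₗ[ℤ] parabolicHoms ℤ (Gamma0 (N * q)) ℤ :=
  trPar (isTrFam_eta hq)

theorem coe_cetaPar {N q : ℕ} (hq : q ≠ 0) (x : parabolicHoms ℤ (Gamma0 N) ℤ) :
    ((cetaPar hq x : parabolicHoms ℤ (Gamma0 (N * q)) ℤ) : Additive (Gamma0 (N * q)) →+ ℤ) =
      ceta hq (x : Additive (Gamma0 N) →+ ℤ) := rfl

/-- The Hecke operator `T_ℓ` (`ℓ ∤ N`) on the Betti lattice. -/
noncomputable def heckePar {N ℓ : ℕ} (hℓ : ℓ.Prime) (hℓN : ¬ ℓ ∣ N) :
    parabolicHoms ℤ (Gamma0 N) ℤ →ₗ[ℤ] parabolicHoms ℤ (Gamma0 N) ℤ :=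
  trPar (isTrFam_repT hℓ hℓN)

theorem coe_heckePar {N ℓ : ℕ} (hℓ : ℓ.Prime) (hℓN : ¬ ℓ ∣ N)
    (x : parabolicHoms ℤ (Gamma0 N) ℤ) :
    ((heckePar hℓ hℓN x : parabolicHoms ℤ (Gamma0 N) ℤ) : Additive (Gamma0 N) →+ ℤ) =
      hecke hℓ hℓN (x : Additive (Gamma0 N) →+ ℤ) := rfl

/-- The operator `U_q` (`q ∣ M`) on the Betti lattice. -/
noncomputable def heckeUPar {M q : ℕ} (hq : q ≠ 0) (hqM : q ∣ M) :
    parabolicHoms ℤ (Gamma0 M) ℤ →ₗ[ℤ] parabolicHoms ℤ (Gamma0 M) ℤ :=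
  trPar (isTrFam_repU hq hqM)

theorem coe_heckeUPar {M q : ℕ} (hq : q ≠ 0) (hqM : q ∣ M)
    (x : parabolicHoms ℤ (Gamma0 M) ℤ) :
    ((heckeUPar hq hqM x : parabolicHoms ℤ (Gamma0 M) ℤ) : Additive (Gamma0 M) →+ ℤ) =
      heckeU hq hqM (x : Additive (Gamma0 M) →+ ℤ) := rfl

end Landed

end Fermat.Agent.S41.H97
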