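import Mathlib
import Fermat.Prelude.Def_ModularCurve_PeriodMap
import Fermat.Agent.S29.TransferPar_helper70
import Fermat.Agent.S41.CITop_helper39
import Fermat.Agent.S41.DualEvalGrp_helper56
import Fermat.Agent.S41.ParOps_helper97
import Fermat.Agent.S41.Lattice_helper34

/-!
# S41, node (C), route C-I, the last plug (C-OUT): dual Ihara in the shapes consumed by (G)

From the evaluation form `H39.hkey_concrete` (which rests on the six leaf `Prop`s of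
`CITop_helper39`) we derive

* `gdual_of_hkey` / `gdual_of_leaves`: the unbundled contract (G-DUAL): for parabolic integral
  characters `x, y` of `Γ₀(N)` there are a parabolic `z` on `Γ₀(N q)` and parabolic `v₁, v₂` with
  `T_r x - (r+1) x = cores z + p v₁` and `T_r y - (r+1) y = cores (w z) + p v₂`;
* `hDual_CI`: the same statement transported to abstract modules `L`, `L'` (the hypothesis
  `hDual` of `H71.lr_core`).

The separation argument is `H56.exists_sep_of_eval` (functionals indexed by the non-commutative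
group `Additive Γ × Additive Γ`).
-/

set_option autoImplicit false

namespace Fermat.Agent.S41.H77

open CongruenceSubgroup Matrix
open scoped MatrixGroups
open Fermat.Agent
open ModularCurve.Period

/-- Separation, in the form used below: if every functional `Q g` vanishing modulo `p` on the
image of `j` also vanishes modulo `p` at `x`, then `x ∈ j L' + p Λ`. -/
theorem exists_eq_add_of_sep {G Λ L' : Type*} [AddGroup G] [AddCommGroup Λ] [AddCommGroup L']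
    [Module.Finite ℤ Λ] (p : ℕ) [Fact p.Prime] (Q : G →+ Λ →+ ℤ)
    (hQ : ∀ x : Λ, (∀ g : G, (p : ℤ) ∣ Q g x) → ∃ w : Λ, x = (p : ℤ) • w)
    (j : L' →+ Λ) (x : Λ)
    (hkey : ∀ g : G, (∀ z : L', (p : ℤ) ∣ Q g (j z)) → (p : ℤ) ∣ Q g x) :
    ∃ (y : L') (v : Λ), x = j y + (p : ℤ) • v := by
  by_contra hcon
  let W : AddSubgroup Λ := j.range ⊔ (zsmulAddGroupHom (p : ℤ) : Λ →+ Λ).range
  have hWmem : ∀ x, x ∈ W ↔ ∃ y v, x = j y + (p : ℤ) • v := by
    intro x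
    rw [AddSubgroup.mem_sup]
    constructor
    · rintro ⟨_, ⟨y, rfl⟩, _, ⟨v, rfl⟩, h⟩
      exact ⟨y, v, h.symm⟩
    · rintro ⟨y, v, rfl⟩
      exact ⟨_, ⟨y, rfl⟩, _, ⟨v, rfl⟩, rfl⟩
  have hx : x ∉ W := fun h => hcon ((hWmem _).mp h)
  obtain ⟨g, hgW, hgx⟩ := H56.exists_sep_of_eval p Q hQ W
    (fun v => (hWmem _).mpr ⟨0, v, by rw [map_zero, zero_add]⟩) x hx
  exact hgx (hkey g (fun z => hgW (j z) ((hWmem _).mpr ⟨z, 0, by rw [smul_zero, add_zero]⟩)))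

/-- Saturation of the parabolic lattice: a parabolic integral character all of whose values are
divisible by `p` is `p` times a parabolic integral character. -/
theorem exists_parabolic_eq_nsmul {Γ : Subgroup SL(2, ℤ)} {p : ℕ} (hp : p ≠ 0)
    (x : Additive Γ →+ ℤ) (hx : IsParabolicHom Γ x)
    (h : ∀ γ : Γ, (p : ℤ) ∣ x (Additive.ofMul γ)) :
    ∃ v : Additive Γ →+ ℤ, IsParabolicHom Γ v ∧ x = p • v := by
  obtain ⟨v, hv⟩ := H91.exists_eq_nsmul_of_dvd p hp x (fun g => h (Additive.toMul g))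
  refine ⟨v, fun γ hγ => ?_, hv⟩
  have h1 := hx γ hγ
  rw [hv, AddMonoidHom.nsmul_apply, nsmul_eq_mul] at h1
  rcases mul_eq_zero.mp h1 with h2 | h2
  · exact absurd (by exact_mod_cast h2) hp
  · exact h2

/-- `cores` preserves parabolicity. -/
theorem isParabolicHom_coresOp {N q : ℕ} (hq : q.Prime) (hqN : ¬ q ∣ N)
    {z : Additive (Gamma0 (N * q)) →+ ℤ} (hz : IsParabolicHom (Gamma0 (N * q)) z) :
    IsParabolicHom (Gamma0 N) (H19.coresOp hq hqN z) :=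
  H97.isParabolicHom_tr H97.int_torsionFree (H19.isTrFam_cores hq hqN) hz

/-- `w` preserves parabolicity. -/
theorem isParabolicHom_wOp {N q : ℕ} (hq : q.Prime) (hqN : ¬ q ∣ N)
    {z : Additive (Gamma0 (N * q)) →+ ℤ} (hz : IsParabolicHom (Gamma0 (N * q)) z) :
    IsParabolicHom (Gamma0 (N * q)) (H19.wOp hq hqN z) :=
  H97.isParabolicHom_tr H97.int_torsionFree (H19.isTrFam_w hq hqN) hz

/-- `T_r - (r+1)` preserves parabolicity. -/
theorem isParabolicHom_heckeTr_sub {N r : ℕ} (hr : r.Prime) (hrN : ¬ r ∣ N)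
    {x : Additive (Gamma0 N) →+ ℤ} (hx : IsParabolicHom (Gamma0 N) x) :
    IsParabolicHom (Gamma0 N) (S29.H06.heckeTr hr hrN x - (r + 1) • x) := by
  have h1 : IsParabolicHom (Gamma0 N) (S29.H06.heckeTr hr hrN x) :=
    S29.H70.IsHeckeTr.isParabolicHom hr hrN (S29.H06.isHeckeTr_heckeTr hr hrN x) hx
  intro γ hγ
  rw [AddMonoidHom.sub_apply, AddMonoidHom.nsmul_apply, h1 γ hγ, hx γ hγ, smul_zero, sub_zero]

/-- **(G-DUAL), unbundled, from the evaluation form.**  `hkey` is the conclusion of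
`H39.hkey_concrete`. -/
theorem gdual_of_hkey {N q p r : ℕ} (hN : 0 < N) (hq : q.Prime) (hqN : ¬ q ∣ N) (hp : p.Prime)
    (hr : r.Prime) (hrN : ¬ r ∣ N)
    (hkey : ∀ γ₁ γ₂ : Gamma0 N,
      (∀ z : Additive (Gamma0 (N * q)) →+ ℤ, IsParabolicHom (Gamma0 (N * q)) z →
        (p : ℤ) ∣ H19.coresOp hq hqN z (Additive.ofMul γ₁) +
          H19.coresOp hq hqN (H19.wOp hq hqN z) (Additive.ofMul γ₂)) →
      ∀ lam₁ lam₂ : Additive (Gamma0 N) →+ ℤ, IsParabolicHom (Gamma0 N) lam₁ →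
        IsParabolicHom (Gamma0 N) lam₂ →
        (p : ℤ) ∣
          (S29.H06.heckeTr hr hrN lam₁ (Additive.ofMul γ₁) -
              ((r : ℤ) + 1) * lam₁ (Additive.ofMul γ₁)) +
          (S29.H06.heckeTr hr hrN lam₂ (Additive.ofMul γ₂) -
              ((r : ℤ) + 1) * lam₂ (Additive.ofMul γ₂))) :
    ∀ x y : Additive (Gamma0 N) →+ ℤ, IsParabolicHom (Gamma0 N) x → IsParabolicHom (Gamma0 N) y →
      ∃ (z : Additive (Gamma0 (N * q)) →+ ℤ) (v₁ v₂ : Additive (Gamma0 N) →+ ℤ),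
        IsParabolicHom (Gamma0 (N * q)) z ∧ IsParabolicHom (Gamma0 N) v₁ ∧
        IsParabolicHom (Gamma0 N) v₂ ∧
        S29.H06.heckeTr hr hrN x - (r + 1) • x = H19.coresOp hq hqN z + p • v₁ ∧
        S29.H06.heckeTr hr hrN y - (r + 1) • y =
          H19.coresOp hq hqN (H19.wOp hq hqN z) + p • v₂ := by
  intro x y hx hy
  have : NeZero N := ⟨hN.ne'⟩
  have : Fact p.Prime := ⟨hp⟩
  have : Module.Finite ℤ (parabolicHoms ℤ (Gamma0 N) ℤ) := H34.finite_parabolicHoms_Gamma0 N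
  -- the lattices and the maps
  let L : Submodule ℤ (Additive (Gamma0 N) →+ ℤ) := parabolicHoms ℤ (Gamma0 N) ℤ
  let L' : Submodule ℤ (Additive (Gamma0 (N * q)) →+ ℤ) := parabolicHoms ℤ (Gamma0 (N * q)) ℤ
  let e : L →+ (Additive (Gamma0 N) →+ ℤ) := L.subtype.toAddMonoidHom
  let j : L' →+ L × L :=
    AddMonoidHom.mk' (fun z => (⟨H19.coresOp hq hqN z.1, isParabolicHom_coresOp hq hqN z.2⟩,
      ⟨H19.coresOp hq hqN (H19.wOp hq hqN z.1),
        isParabolicHom_coresOp hq hqN (isParabolicHom_wOp hq hqN z.2)⟩)) (by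
      intro a b
      apply Prod.ext
      · apply Subtype.ext
        show H19.coresOp hq hqN (a.1 + b.1) = H19.coresOp hq hqN a.1 + H19.coresOp hq hqN b.1
        rw [map_add]
      · apply Subtype.ext
        show H19.coresOp hq hqN (H19.wOp hq hqN (a.1 + b.1)) =
          H19.coresOp hq hqN (H19.wOp hq hqN a.1) + H19.coresOp hq hqN (H19.wOp hq hqN b.1)
        rw [map_add, map_add])
  let X : L × L := (⟨S29.H06.heckeTr hr hrN x - (r + 1) • x, isParabolicHom_heckeTr_sub hr hrN hx⟩,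
    ⟨S29.H06.heckeTr hr hrN y - (r + 1) • y, isParabolicHom_heckeTr_sub hr hrN hy⟩)
  have hQ : ∀ u : L × L, (∀ g : Additive (Gamma0 N) × Additive (Gamma0 N),
      (p : ℤ) ∣ H56.groupEval e g u) → ∃ w : L × L, u = (p : ℤ) • w := by
    intro u hu
    obtain ⟨w₁, hw₁p, hw₁⟩ := exists_parabolic_eq_nsmul hp.ne_zero u.1.1 u.1.2 (fun γ => by
      have h := hu (Additive.ofMul γ, 0)
      rw [H56.groupEval_apply, map_zero, add_zero] at h
      exact h)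
    obtain ⟨w₂, hw₂p, hw₂⟩ := exists_parabolic_eq_nsmul hp.ne_zero u.2.1 u.2.2 (fun γ => by
      have h := hu (0, Additive.ofMul γ)
      rw [H56.groupEval_apply, map_zero, zero_add] at h
      exact h)
    refine ⟨(⟨w₁, hw₁p⟩, ⟨w₂, hw₂p⟩), Prod.ext (Subtype.ext ?_) (Subtype.ext ?_)⟩
    · show u.1.1 = (p : ℤ) • w₁
      rw [hw₁, natCast_zsmul]
    · show u.2.1 = (p : ℤ) • w₂
      rw [hw₂, natCast_zsmul]
  obtain ⟨z, v, hzv⟩ := exists_eq_add_of_sep p (H56.groupEval e) hQ j X (by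
    rintro ⟨g₁, g₂⟩ hg
    obtain ⟨γ₁, rfl⟩ := Additive.ofMul.surjective g₁
    obtain ⟨γ₂, rfl⟩ := Additive.ofMul.surjective g₂
    have h1 := hkey γ₁ γ₂ (fun z hz => hg ⟨z, hz⟩) x y hx hy
    show (p : ℤ) ∣ (S29.H06.heckeTr hr hrN x - (r + 1) • x) (Additive.ofMul γ₁) +
      (S29.H06.heckeTr hr hrN y - (r + 1) • y) (Additive.ofMul γ₂)
    simp only [AddMonoidHom.sub_apply, AddMonoidHom.nsmul_apply, nsmul_eq_mul]
    push_cast
    exact h1)
  refine ⟨z.1, v.1.1, v.2.1, z.2, v.1.2, v.2.2, ?_, ?_⟩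
  · have h1 := congrArg (fun u : L × L => (u.1 : Additive (Gamma0 N) →+ ℤ)) hzv
    have h2 : ((((p : ℤ) • v).1 : L) : Additive (Gamma0 N) →+ ℤ) = p • v.1.1 := by
      show (p : ℤ) • v.1.1 = p • v.1.1
      rw [natCast_zsmul]
    show S29.H06.heckeTr hr hrN x - (r + 1) • x = H19.coresOp hq hqN z.1 + p • v.1.1
    rw [← h2]
    exact h1
  · have h1 := congrArg (fun u : L × L => (u.2 : Additive (Gamma0 N) →+ ℤ)) hzv
    have h2 : ((((p : ℤ) • v).2 : L) : Additive (Gamma0 N) →+ ℤ) = p • v.2.1 := by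
      show (p : ℤ) • v.2.1 = p • v.2.1
      rw [natCast_zsmul]
    show S29.H06.heckeTr hr hrN y - (r + 1) • y =
      H19.coresOp hq hqN (H19.wOp hq hqN z.1) + p • v.2.1
    rw [← h2]
    exact h1

/-- **(G-DUAL), unbundled, from the six leaves of route C-I.** -/
theorem gdual_of_leaves (h2 : H11.Fin2Stmt) (h3 : H11.Fin3Stmt) {N q p r : ℕ} (hN : 0 < N)
    (hq : q.Prime) (hqN : ¬ q ∣ N) (hp : p.Prime) (hp2 : p ≠ 2) (hr : r.Prime) (hrN : ¬ r ∣ N)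
    (hParR : H39.ParRStmt (N * q)) (hParL : H39.ParLStmt N)
    (hC1 : H39.CoresStmt h2 hq hqN) (hC2 : H39.CoresWStmt h2 hq hqN)
    (hSA : H39.SAStmt h2 h3 hr hrN) (hInj : H39.InjRStmt N p) :
    ∀ x y : Additive (Gamma0 N) →+ ℤ, IsParabolicHom (Gamma0 N) x → IsParabolicHom (Gamma0 N) y →
      ∃ (z : Additive (Gamma0 (N * q)) →+ ℤ) (v₁ v₂ : Additive (Gamma0 N) →+ ℤ),
        IsParabolicHom (Gamma0 (N * q)) z ∧ IsParabolicHom (Gamma0 N) v₁ ∧
        IsParabolicHom (Gamma0 N) v₂ ∧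
        S29.H06.heckeTr hr hrN x - (r + 1) • x = H19.coresOp hq hqN z + p • v₁ ∧
        S29.H06.heckeTr hr hrN y - (r + 1) • y =
          H19.coresOp hq hqN (H19.wOp hq hqN z) + p • v₂ :=
  gdual_of_hkey hN hq hqN hp hr hrN (fun γ₁ γ₂ h lam₁ lam₂ hl₁ hl₂ =>
    H39.hkey_concrete h2 h3 hN hq hqN hp hp2 hr hrN hParR hParL hC1 hC2 hSA hInj γ₁ γ₂ h
      lam₁ lam₂ hl₁ hl₂)

/-- **Dual Ihara in the shape of `hDual` of `H71.lr_core`, abstract modules.**  `L`, `L'` are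
any `R`-modules identified with the parabolic lattices of `Γ₀(N)`, `Γ₀(N q)` through additive
maps `ιL`, `ιL'`; `j = (cores, cores ∘ w)` and `r₁ = T_r - (r+1)` through these identifications.
`hG` is the unbundled statement (the conclusion of `gdual_of_leaves`). -/
theorem hDual_of_gdual {R : Type*} [CommRing R] {L L' : Type*} [AddCommGroup L] [Module R L]
    [AddCommGroup L'] [Module R L'] {N q p r : ℕ} (hq : q.Prime) (hqN : ¬ q ∣ N)
    (hr : r.Prime) (hrN : ¬ r ∣ N)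
    (ιL : L →+ (Additive (Gamma0 N) →+ ℤ)) (hιL : Function.Injective ιL)
    (hL : ∀ φ : Additive (Gamma0 N) →+ ℤ, IsParabolicHom (Gamma0 N) φ ↔ φ ∈ ιL.range)
    (ιL' : L' →+ (Additive (Gamma0 (N * q)) →+ ℤ))
    (hL' : ∀ z : Additive (Gamma0 (N * q)) →+ ℤ, IsParabolicHom (Gamma0 (N * q)) z →
      z ∈ ιL'.range)
    (j : L' →ₗ[R] L × L) (hj1 : ∀ z, ιL (j z).1 = H19.coresOp hq hqN (ιL' z))
    (hj2 : ∀ z, ιL (j z).2 = H19.coresOp hq hqN (H19.wOp hq hqN (ιL' z)))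
    (r₁ : R)
    (hr₁ : ∀ x : L, ιL (r₁ • x) = S29.H06.heckeTr hr hrN (ιL x) - (r + 1) • ιL x)
    (hG : ∀ x y : Additive (Gamma0 N) →+ ℤ, IsParabolicHom (Gamma0 N) x →
      IsParabolicHom (Gamma0 N) y →
      ∃ (z : Additive (Gamma0 (N * q)) →+ ℤ) (v₁ v₂ : Additive (Gamma0 N) →+ ℤ),
        IsParabolicHom (Gamma0 (N * q)) z ∧ IsParabolicHom (Gamma0 N) v₁ ∧
        IsParabolicHom (Gamma0 N) v₂ ∧
        S29.H06.heckeTr hr hrN x - (r + 1) • x = H19.coresOp hq hqN z + p • v₁ ∧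
        S29.H06.heckeTr hr hrN y - (r + 1) • y =
          H19.coresOp hq hqN (H19.wOp hq hqN z) + p • v₂) :
    ∀ u : L × L, ∃ (y : L') (v : L × L), r₁ • u = j y + (p : ℤ) • v := by
  intro u
  obtain ⟨z, v₁, v₂, hz, hv₁, hv₂, e₁, e₂⟩ := hG (ιL u.1) (ιL u.2)
    ((hL _).mpr ⟨u.1, rfl⟩) ((hL _).mpr ⟨u.2, rfl⟩)
  obtain ⟨z', rfl⟩ := hL' z hz
  obtain ⟨w₁, rfl⟩ := (hL v₁).mp hv₁
  obtain ⟨w₂, rfl⟩ := (hL v₂).mp hv₂
  refine ⟨z', (w₁, w₂), Prod.ext (hιL ?_) (hιL ?_)⟩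
  · show ιL (r₁ • u.1) = ιL ((j z').1 + (p : ℤ) • w₁)
    rw [hr₁, e₁, map_add, map_zsmul, hj1, natCast_zsmul]
  · show ιL (r₁ • u.2) = ιL ((j z').2 + (p : ℤ) • w₂)
    rw [hr₁, e₂, map_add, map_zsmul, hj2, natCast_zsmul]

/-- **(C-OUT)**: `hDual` of `H71.lr_core` for `r₁ = T_r - (r+1)` from the six leaves of route
C-I, abstract modules (the literal of board #2500 (3)). -/
theorem hDual_CI (h2 : H11.Fin2Stmt) (h3 : H11.Fin3Stmt) {R : Type*} [CommRing R]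
    {L L' : Type*} [AddCommGroup L] [Module R L] [AddCommGroup L'] [Module R L']
    {N q p r : ℕ} (hN : 0 < N) (hq : q.Prime) (hqN : ¬ q ∣ N) (hp : p.Prime) (hp2 : p ≠ 2)
    (hr : r.Prime) (hrN : ¬ r ∣ N)
    (hParR : H39.ParRStmt (N * q)) (hParL : H39.ParLStmt N)
    (hC1 : H39.CoresStmt h2 hq hqN) (hC2 : H39.CoresWStmt h2 hq hqN)
    (hSA : H39.SAStmt h2 h3 hr hrN) (hInj : H39.InjRStmt N p)
    (ιL : L →+ (Additive (Gamma0 N) →+ ℤ)) (hιL : Function.Injective ιL)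
    (hL : ∀ φ : Additive (Gamma0 N) →+ ℤ, IsParabolicHom (Gamma0 N) φ ↔ φ ∈ ιL.range)
    (ιL' : L' →+ (Additive (Gamma0 (N * q)) →+ ℤ))
    (hL' : ∀ z : Additive (Gamma0 (N * q)) →+ ℤ, IsParabolicHom (Gamma0 (N * q)) z →
      z ∈ ιL'.range)
    (j : L' →ₗ[R] L × L) (hj1 : ∀ z, ιL (j z).1 = H19.coresOp hq hqN (ιL' z))
    (hj2 : ∀ z, ιL (j z).2 = H19.coresOp hq hqN (H19.wOp hq hqN (ιL' z)))
    (r₁ : R)
    (hr₁ : ∀ x : L, ιL (r₁ • x) = S29.H06.heckeTr hr hrN (ιL x) - (r + 1) • ιL x) :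
    ∀ u : L × L, ∃ (y : L') (v : L × L), r₁ • u = j y + (p : ℤ) • v :=
  hDual_of_gdual hq hqN hr hrN ιL hιL hL ιL' hL' j hj1 hj2 r₁ hr₁
    (gdual_of_leaves h2 h3 hN hq hqN hp hp2 hr hrN hParR hParL hC1 hC2 hSA hInj)

/-- The instance of `hDual_of_gdual` for the parabolic lattices themselves, with arbitrary
`R`-module structures on them (e.g. `H50.latModule`). -/
theorem hDual_lat_of_gdual {R : Type*} [CommRing R] {N q p r : ℕ}
    [Module R (parabolicHoms ℤ (Gamma0 N) ℤ)] [Module R (parabolicHoms ℤ (Gamma0 (N * q)) ℤ)]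
    (hq : q.Prime) (hqN : ¬ q ∣ N) (hr : r.Prime) (hrN : ¬ r ∣ N)
    (j : parabolicHoms ℤ (Gamma0 (N * q)) ℤ →ₗ[R]
      parabolicHoms ℤ (Gamma0 N) ℤ × parabolicHoms ℤ (Gamma0 N) ℤ)
    (hj1 : ∀ z, ((j z).1 : Additive (Gamma0 N) →+ ℤ) =
      H19.coresOp hq hqN (z : Additive (Gamma0 (N * q)) →+ ℤ))
    (hj2 : ∀ z, ((j z).2 : Additive (Gamma0 N) →+ ℤ) =
      H19.coresOp hq hqN (H19.wOp hq hqN (z : Additive (Gamma0 (N * q)) →+ ℤ)))
    (r₁ : R)
    (hr₁ : ∀ x : parabolicHoms ℤ (Gamma0 N) ℤ,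
      ((r₁ • x : parabolicHoms ℤ (Gamma0 N) ℤ) : Additive (Gamma0 N) →+ ℤ) =
        S29.H06.heckeTr hr hrN (x : Additive (Gamma0 N) →+ ℤ) -
          (r + 1) • (x : Additive (Gamma0 N) →+ ℤ))
    (hG : ∀ x y : Additive (Gamma0 N) →+ ℤ, IsParabolicHom (Gamma0 N) x →
      IsParabolicHom (Gamma0 N) y →
      ∃ (z : Additive (Gamma0 (N * q)) →+ ℤ) (v₁ v₂ : Additive (Gamma0 N) →+ ℤ),
        IsParabolicHom (Gamma0 (N * q)) z ∧ IsParabolicHom (Gamma0 N) v₁ ∧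
        IsParabolicHom (Gamma0 N) v₂ ∧
        S29.H06.heckeTr hr hrN x - (r + 1) • x = H19.coresOp hq hqN z + p • v₁ ∧
        S29.H06.heckeTr hr hrN y - (r + 1) • y =
          H19.coresOp hq hqN (H19.wOp hq hqN z) + p • v₂) :
    ∀ u : parabolicHoms ℤ (Gamma0 N) ℤ × parabolicHoms ℤ (Gamma0 N) ℤ,
      ∃ (y : parabolicHoms ℤ (Gamma0 (N * q)) ℤ)
        (v : parabolicHoms ℤ (Gamma0 N) ℤ × parabolicHoms ℤ (Gamma0 N) ℤ),
        r₁ • u = j y + (p : ℤ) • v :=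
  hDual_of_gdual hq hqN hr hrN (parabolicHoms ℤ (Gamma0 N) ℤ).subtype.toAddMonoidHom
    Subtype.coe_injective
    (fun φ => ⟨fun h => ⟨⟨φ, h⟩, rfl⟩, by rintro ⟨x, rfl⟩; exact x.2⟩)
    (parabolicHoms ℤ (Gamma0 (N * q)) ℤ).subtype.toAddMonoidHom
    (fun z hz => ⟨⟨z, hz⟩, rfl⟩) j hj1 hj2 r₁ hr₁ hG

end Fermat.Agent.S41.H77
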