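import Mathlib
import Fermat.Agent.S22.HeckeDecomp_helper56
import Fermat.Agent.S29.TransferHom_helper6
import Fermat.Agent.S41.Transfer_helper6
import Fermat.Agent.S41.IhStmt_helper39

/-!
# S41 (level raising): the Hecke operators `T_ℓ` commute with the Atkin–Lehner operator

`ω` is any Atkin–Lehner shaped matrix `[[q x, y],[N q z, q t]]` of determinant `q`
(`q x t - N y z = 1`).  For a prime `ℓ ∤ N q` the representatives `repT ℓ` of `T_ℓ` satisfy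
`repT ℓ (π u) * ω ∈ Γ₀(N q) * (ω * repT ℓ u)` for a permutation `π`, hence the transfers along
`repT ℓ` and along `ω` commute.
-/

set_option autoImplicit false

namespace Fermat.Agent.S41.H35AL

open CongruenceSubgroup Matrix
open Fermat.Agent.S22
open scoped MatrixGroups

/-! ### Entries -/

/-- The matrix `(a, b; c, d)` as an element of `Γ₀(M)`. -/
def mk0 (M : ℕ) (a b c d : ℤ) (hdet : a * d - b * c = 1) (hc : (M : ℤ) ∣ c) : Gamma0 M :=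
  ⟨H39.mkSL a b c d hdet, H39.mkSL_mem_Gamma0 M a b c d hdet hc⟩

/-- `m` has the integer entries `a, b, c, d`. -/
def HasEntries (m : GL (Fin 2) ℝ) (a b c d : ℤ) : Prop :=
  m 0 0 = (a : ℝ) ∧ m 0 1 = (b : ℝ) ∧ m 1 0 = (c : ℝ) ∧ m 1 1 = (d : ℝ)

theorem gl_mul_apply (m m' : GL (Fin 2) ℝ) (i j : Fin 2) :
    (m * m') i j = m i 0 * m' 0 j + m i 1 * m' 1 j := by
  simp [Matrix.GeneralLinearGroup.coe_mul, Matrix.mul_apply, Fin.sum_univ_two]

theorem HasEntries.ext {m m' : GL (Fin 2) ℝ} {a b c d : ℤ} (h : HasEntries m a b c d)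
    (h' : HasEntries m' a b c d) : m = m' := by
  apply Matrix.GeneralLinearGroup.ext
  intro i j
  fin_cases i <;> fin_cases j
  · exact h.1.trans h'.1.symm
  · exact h.2.1.trans h'.2.1.symm
  · exact h.2.2.1.trans h'.2.2.1.symm
  · exact h.2.2.2.trans h'.2.2.2.symm

theorem HasEntries.congr {m : GL (Fin 2) ℝ} {a b c d a' b' c' d' : ℤ} (h : HasEntries m a b c d)
    (ha : a = a') (hb : b = b') (hc : c = c') (hd : d = d') : HasEntries m a' b' c' d' := by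
  subst ha hb hc hd
  exact h

theorem HasEntries.mul {m m' : GL (Fin 2) ℝ} {a b c d a' b' c' d' : ℤ} (h : HasEntries m a b c d)
    (h' : HasEntries m' a' b' c' d') :
    HasEntries (m * m') (a * a' + b * c') (a * b' + b * d') (c * a' + d * c') (c * b' + d * d') := by
  obtain ⟨h00, h01, h10, h11⟩ := h
  obtain ⟨k00, k01, k10, k11⟩ := h'
  refine ⟨?_, ?_, ?_, ?_⟩ <;> rw [gl_mul_apply] <;> simp only [h00, h01, h10, h11, k00, k01, k10, k11] <;>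
    push_cast <;> ring

theorem hasEntries_coe (g : SL(2, ℤ)) :
    HasEntries (g : GL (Fin 2) ℝ) (g 0 0) (g 0 1) (g 1 0) (g 1 1) :=
  ⟨rfl, rfl, rfl, rfl⟩

theorem hasEntries_mk0 (M : ℕ) (a b c d : ℤ) (hdet : a * d - b * c = 1) (hc : (M : ℤ) ∣ c) :
    HasEntries (((mk0 M a b c d hdet hc : Gamma0 M) : SL(2, ℤ)) : GL (Fin 2) ℝ) a b c d :=
  ⟨rfl, rfl, rfl, rfl⟩

theorem det_entries {M : ℕ} (γ : Gamma0 M) :
    (γ : SL(2, ℤ)) 0 0 * (γ : SL(2, ℤ)) 1 1 - (γ : SL(2, ℤ)) 0 1 * (γ : SL(2, ℤ)) 1 0 = 1 := by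
  have h := (γ : SL(2, ℤ)).det_coe
  rw [Matrix.det_fin_two] at h
  exact h

theorem dvd_entry {M : ℕ} (γ : Gamma0 M) : (M : ℤ) ∣ (γ : SL(2, ℤ)) 1 0 := by
  have h := γ.2
  rw [Gamma0_mem] at h
  exact (ZMod.intCast_zmod_eq_zero_iff_dvd _ M).mp h

theorem hasEntries_repT_none {ℓ : ℕ} (hℓ : ℓ ≠ 0) :
    HasEntries (H56.repT ℓ none) ℓ 0 0 1 := by
  obtain ⟨h00, h01, h10, h11⟩ := H56.heckeDiagMatrix_entries hℓ
  refine ⟨?_, ?_, ?_, ?_⟩
  · show ModularForm.heckeDiagMatrix ℓ 0 0 = _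
    rw [h00]; push_cast; rfl
  · show ModularForm.heckeDiagMatrix ℓ 0 1 = _
    rw [h01]; push_cast; rfl
  · show ModularForm.heckeDiagMatrix ℓ 1 0 = _
    rw [h10]; push_cast; rfl
  · show ModularForm.heckeDiagMatrix ℓ 1 1 = _
    rw [h11]; push_cast; rfl

theorem hasEntries_repT_some {ℓ : ℕ} (hℓ : ℓ ≠ 0) (j : Fin ℓ) :
    HasEntries (H56.repT ℓ (some j)) 1 ((j : ℕ) : ℤ) 0 ℓ := by
  obtain ⟨h00, h01, h10, h11⟩ := H56.heckeMatrix_entries hℓ (j : ℕ)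
  refine ⟨?_, ?_, ?_, ?_⟩
  · show ModularForm.heckeMatrix ℓ (j : ℕ) 0 0 = _
    rw [h00]; push_cast; rfl
  · show ModularForm.heckeMatrix ℓ (j : ℕ) 0 1 = _
    rw [h01]; push_cast; rfl
  · show ModularForm.heckeMatrix ℓ (j : ℕ) 1 0 = _
    rw [h10]; push_cast; rfl
  · show ModularForm.heckeMatrix ℓ (j : ℕ) 1 1 = _
    rw [h11]; push_cast; rfl

/-- Integer entries of the representatives of `T_ℓ`, with the determinant. -/
theorem hasEntries_repT {ℓ : ℕ} (hℓ : ℓ ≠ 0) (u : Option (Fin ℓ)) :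
    ∃ a b d : ℤ, a * d = ℓ ∧ HasEntries (H56.repT ℓ u) a b 0 d := by
  cases u with
  | none => exact ⟨ℓ, 0, 1, by ring, hasEntries_repT_none hℓ⟩
  | some j => exact ⟨1, (j : ℕ), ℓ, by ring, hasEntries_repT_some hℓ j⟩

/-! ### Completeness of the representatives of `T_ℓ` -/

theorem isCoprime_of_not_dvd {ℓ : ℕ} (hℓ : ℓ.Prime) {a : ℤ} (h : ¬ (ℓ : ℤ) ∣ a) :
    IsCoprime a (ℓ : ℤ) := by
  rw [Int.isCoprime_iff_gcd_eq_one, Int.gcd_comm]
  have : Nat.Coprime ℓ a.natAbs :=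
    (Nat.Prime.coprime_iff_not_dvd hℓ).mpr (fun hd => h (Int.natCast_dvd.mpr hd))
  simpa [Int.gcd] using this

/-- **Completeness of `repT ℓ`** (entry form): an integral matrix of determinant `ℓ` whose lower
left entry is divisible by `M` (`ℓ ∤ M`) lies in `Γ₀(M) · repT ℓ u` for some `u`. -/
theorem exists_gamma0_mul_repT_entries {M ℓ : ℕ} (hℓ : ℓ.Prime) (hℓM : ¬ ℓ ∣ M) (A B C D : ℤ)
    (hdet : A * D - B * C = ℓ) (hC : (M : ℤ) ∣ C) :
    ∃ (u : Option (Fin ℓ)) (k : Gamma0 M),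
      HasEntries (((k : SL(2, ℤ)) : GL (Fin 2) ℝ) * H56.repT ℓ u) A B C D := by
  have hℓ0 : ℓ ≠ 0 := hℓ.ne_zero
  have hℓz : (ℓ : ℤ) ≠ 0 := by exact_mod_cast hℓ0
  by_cases h : (ℓ : ℤ) ∣ A ∧ (ℓ : ℤ) ∣ C
  · obtain ⟨⟨A', hA'⟩, ⟨C', hC'⟩⟩ := h
    have hd1 : A' * D - B * C' = 1 := by
      apply mul_left_cancel₀ hℓz
      rw [hA', hC'] at hdet
      linear_combination hdet
    have hcop : IsCoprime (M : ℤ) (ℓ : ℤ) := by
      have : Nat.Coprime ℓ M := (Nat.Prime.coprime_iff_not_dvd hℓ).mpr hℓM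
      exact (Nat.isCoprime_iff_coprime.mpr this).symm
    have hMC' : (M : ℤ) ∣ C' := by
      have h1 : (M : ℤ) ∣ C' * ℓ := by rw [mul_comm, ← hC']; exact hC
      exact hcop.dvd_of_dvd_mul_right h1
    refine ⟨none, mk0 M A' B C' D hd1 hMC', ?_⟩
    exact ((hasEntries_mk0 M A' B C' D hd1 hMC').mul (hasEntries_repT_none hℓ0)).congr
      (by rw [hA']; ring) (by ring) (by rw [hC']; ring) (by ring)
  · obtain ⟨s, r, e, h1⟩ : ∃ s r e : ℤ, s * A + r * C + e * ℓ = 1 := by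
      by_cases hA : (ℓ : ℤ) ∣ A
      · have hCn : ¬ (ℓ : ℤ) ∣ C := fun hc => h ⟨hA, hc⟩
        obtain ⟨r, e, hre⟩ := isCoprime_of_not_dvd hℓ hCn
        exact ⟨0, r, e, by linear_combination hre⟩
      · obtain ⟨s, e, hse⟩ := isCoprime_of_not_dvd hℓ hA
        exact ⟨s, 0, e, by linear_combination hse⟩
    have hℓpos : (0 : ℤ) < ℓ := by exact_mod_cast hℓ.pos
    obtain ⟨j₀, hj₀⟩ : ∃ j₀ : ℤ, j₀ = (s * B + r * D) % ℓ := ⟨_, rfl⟩
    have hj₀0 : 0 ≤ j₀ := hj₀ ▸ Int.emod_nonneg _ hℓz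
    have hj₀lt : j₀ < ℓ := hj₀ ▸ Int.emod_lt_of_pos _ hℓpos
    obtain ⟨t, ht⟩ : ∃ t : ℤ, s * B + r * D - j₀ = ℓ * t :=
      ⟨(s * B + r * D) / ℓ, by
        have := Int.emod_add_mul_ediv (s * B + r * D) ℓ
        rw [hj₀]; linarith⟩
    have hjc : ((j₀.toNat : ℕ) : ℤ) = j₀ := Int.toNat_of_nonneg hj₀0
    have hjlt : j₀.toNat < ℓ := by
      have : ((j₀.toNat : ℕ) : ℤ) < (ℓ : ℤ) := by rw [hjc]; exact hj₀lt
      exact_mod_cast this
    have hB' : B - j₀ * A = ℓ * (-r + e * B + t * A) := by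
      linear_combination (-B) * h1 + (-r) * hdet + A * ht
    have hD' : D - j₀ * C = ℓ * (s + e * D + t * C) := by
      linear_combination (-D) * h1 + s * hdet + C * ht
    have hd1 : A * (s + e * D + t * C) - (-r + e * B + t * A) * C = 1 := by
      linear_combination h1 + e * hdet
    refine ⟨some ⟨j₀.toNat, hjlt⟩, mk0 M A (-r + e * B + t * A) C (s + e * D + t * C) hd1 hC, ?_⟩
    exact ((hasEntries_mk0 M A (-r + e * B + t * A) C (s + e * D + t * C) hd1 hC).mul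
      (hasEntries_repT_some hℓ0 ⟨j₀.toNat, hjlt⟩)).congr
      (by ring) (by show A * ((j₀.toNat : ℕ) : ℤ) + _ = B; rw [hjc]; linear_combination (-1 : ℤ) * hB')
      (by ring) (by show C * ((j₀.toNat : ℕ) : ℤ) + _ = D; rw [hjc]; linear_combination (-1 : ℤ) * hD')

/-- **Completeness of `repT ℓ`**. -/
theorem exists_gamma0_mul_repT {M ℓ : ℕ} (hℓ : ℓ.Prime) (hℓM : ¬ ℓ ∣ M) (m : GL (Fin 2) ℝ)
    (A B C D : ℤ) (h00 : m 0 0 = A) (h01 : m 0 1 = B) (h10 : m 1 0 = C) (h11 : m 1 1 = D)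
    (hdet : A * D - B * C = ℓ) (hC : (M : ℤ) ∣ C) :
    ∃ (u : Option (Fin ℓ)) (k : Gamma0 M),
      m = ((k : SL(2, ℤ)) : GL (Fin 2) ℝ) * H56.repT ℓ u := by
  obtain ⟨u, k, hk⟩ := exists_gamma0_mul_repT_entries hℓ hℓM A B C D hdet hC
  exact ⟨u, k, HasEntries.ext ⟨h00, h01, h10, h11⟩ hk⟩

/-! ### Atkin–Lehner matrices -/

/-- `ω = [[q x, y],[N q z, q t]]` with `q x t - N y z = 1` (so `det ω = q`). -/
def IsALMatrix (N q : ℕ) (ω : GL (Fin 2) ℝ) : Prop :=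
  ∃ x y z t : ℤ, (q : ℤ) * x * t - N * y * z = 1 ∧ ω 0 0 = ((q * x : ℤ) : ℝ) ∧
    ω 0 1 = ((y : ℤ) : ℝ) ∧ ω 1 0 = ((N * q * z : ℤ) : ℝ) ∧ ω 1 1 = ((q * t : ℤ) : ℝ)

/-- `ω` normalises `Γ₀(N q)`: `ω Γ₀(N q) ⊆ Γ₀(N q) ω`. -/
theorem IsALMatrix.exists_conj {N q : ℕ} {ω : GL (Fin 2) ℝ} (hω : IsALMatrix N q ω)
    (k : Gamma0 (N * q)) :
    ∃ k' : Gamma0 (N * q),
      ω * ((k : SL(2, ℤ)) : GL (Fin 2) ℝ) = ((k' : SL(2, ℤ)) : GL (Fin 2) ℝ) * ω := by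
  obtain ⟨x, y, z, t, h, hE⟩ := hω
  have hEω : HasEntries ω (q * x) y (N * q * z) (q * t) := hE
  obtain ⟨A, hA⟩ : ∃ A : ℤ, A = (k : SL(2, ℤ)) 0 0 := ⟨_, rfl⟩
  obtain ⟨B, hB⟩ : ∃ B : ℤ, B = (k : SL(2, ℤ)) 0 1 := ⟨_, rfl⟩
  obtain ⟨D, hD⟩ : ∃ D : ℤ, D = (k : SL(2, ℤ)) 1 1 := ⟨_, rfl⟩
  obtain ⟨C0, hC0⟩ := dvd_entry k
  have hC : (k : SL(2, ℤ)) 1 0 = N * q * C0 := by rw [hC0]; push_cast; ring
  have hk : A * D - B * (N * q * C0) = 1 := by rw [hA, hB, hD, ← hC]; exact det_entries k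
  have hEk : HasEntries ((k : SL(2, ℤ)) : GL (Fin 2) ℝ) A B (N * q * C0) D :=
    (hasEntries_coe _).congr hA.symm hB.symm hC hD.symm
  have hd1 : (t * (q * x * A + y * (N * q * C0)) - N * z * (q * x * B + y * D)) *
      (-N * z * A * y - t * (N * q * C0) * y + N * q * z * B * x + q * t * D * x) -
      (-x * A * y - y * y * N * C0 + q * x * x * B + x * y * D) *
      (N * q * (t * z * A + t * t * q * C0 - N * z * z * B - z * t * D)) = 1 := by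
    linear_combination (A * D - A * D * N * y * z + A * D * q * t * x - B * C0 * N * q
      - B * C0 * N * q ^ 2 * t * x + B * C0 * N ^ 2 * q * y * z) * h + hk
  have hc1 : ((N * q : ℕ) : ℤ) ∣
      N * q * (t * z * A + t * t * q * C0 - N * z * z * B - z * t * D) :=
    ⟨t * z * A + t * t * q * C0 - N * z * z * B - z * t * D, by push_cast; ring⟩
  refine ⟨mk0 (N * q) _ _ _ _ hd1 hc1, ?_⟩
  refine (hEω.mul hEk).ext (((hasEntries_mk0 (N * q) _ _ _ _ hd1 hc1).mul hEω).congr ?_ ?_ ?_ ?_)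
  · linear_combination (A * q * x + C0 * N * q * y) * h
  · linear_combination (B * q * x + D * y) * h
  · linear_combination (A * N * q * z + C0 * N * q ^ 2 * t) * h
  · linear_combination (B * N * q * z + D * q * t) * h

/-- `ω` normalises `Γ₀(N q)`: `Γ₀(N q) ω ⊆ ω Γ₀(N q)`. -/
theorem IsALMatrix.exists_conj' {N q : ℕ} {ω : GL (Fin 2) ℝ} (hω : IsALMatrix N q ω)
    (k : Gamma0 (N * q)) :
    ∃ k' : Gamma0 (N * q),
      ((k : SL(2, ℤ)) : GL (Fin 2) ℝ) * ω = ω * ((k' : SL(2, ℤ)) : GL (Fin 2) ℝ) := by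
  obtain ⟨x, y, z, t, h, hE⟩ := hω
  have hEω : HasEntries ω (q * x) y (N * q * z) (q * t) := hE
  obtain ⟨A, hA⟩ : ∃ A : ℤ, A = (k : SL(2, ℤ)) 0 0 := ⟨_, rfl⟩
  obtain ⟨B, hB⟩ : ∃ B : ℤ, B = (k : SL(2, ℤ)) 0 1 := ⟨_, rfl⟩
  obtain ⟨D, hD⟩ : ∃ D : ℤ, D = (k : SL(2, ℤ)) 1 1 := ⟨_, rfl⟩
  obtain ⟨C0, hC0⟩ := dvd_entry k
  have hC : (k : SL(2, ℤ)) 1 0 = N * q * C0 := by rw [hC0]; push_cast; ring
  have hk : A * D - B * (N * q * C0) = 1 := by rw [hA, hB, hD, ← hC]; exact det_entries k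
  have hEk : HasEntries ((k : SL(2, ℤ)) : GL (Fin 2) ℝ) A B (N * q * C0) D :=
    (hasEntries_coe _).congr hA.symm hB.symm hC hD.symm
  have hd1 : (q * x * (t * A - y * N * C0) + N * z * (q * t * B - y * D)) *
      (-N * z * A * y + q * x * N * C0 * y - N * q * z * B * t + q * x * D * t) -
      (t * A * y - y * y * N * C0 + q * t * t * B - y * D * t) *
      (N * q * (x * (-z * A + q * x * C0) + z * (-N * z * B + x * D))) = 1 := by
    linear_combination (A * D - A * D * N * y * z + A * D * q * t * x - B * C0 * N * q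
      - B * C0 * N * q ^ 2 * t * x + B * C0 * N ^ 2 * q * y * z) * h + hk
  have hc1 : ((N * q : ℕ) : ℤ) ∣
      N * q * (x * (-z * A + q * x * C0) + z * (-N * z * B + x * D)) :=
    ⟨x * (-z * A + q * x * C0) + z * (-N * z * B + x * D), by push_cast; ring⟩
  refine ⟨mk0 (N * q) _ _ _ _ hd1 hc1, ?_⟩
  refine (hEk.mul hEω).ext ((hEω.mul (hasEntries_mk0 (N * q) _ _ _ _ hd1 hc1)).congr ?_ ?_ ?_ ?_)
  · linear_combination (A * q * x + B * N * q * z) * h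
  · linear_combination (A * y + B * q * t) * h
  · linear_combination (C0 * N * q ^ 2 * x + D * N * q * z) * h
  · linear_combination (C0 * N * q * y + D * q * t) * h

/-! ### `repT ℓ` and Atkin–Lehner matrices -/

/-- For every `u` there are `u'` and `k ∈ Γ₀(N q)` with `k * repT ℓ u' * ω = ω * repT ℓ u`. -/
theorem IsALMatrix.exists_repT_mul {N q ℓ : ℕ} {ω : GL (Fin 2) ℝ} (hℓ : ℓ.Prime)
    (hℓNq : ¬ ℓ ∣ N * q) (hω : IsALMatrix N q ω) (u : Option (Fin ℓ)) :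
    ∃ (u' : Option (Fin ℓ)) (k : Gamma0 (N * q)),
      ((k : SL(2, ℤ)) : GL (Fin 2) ℝ) * H56.repT ℓ u' * ω = ω * H56.repT ℓ u := by
  obtain ⟨x, y, z, t, h, hE⟩ := hω
  have hEω : HasEntries ω (q * x) y (N * q * z) (q * t) := hE
  obtain ⟨a, b, d, had, hEu⟩ := hasEntries_repT hℓ.ne_zero u
  have hdet : (q * x * a * t - N * z * (q * x * b + y * d)) *
      (q * x * t * d + N * z * (q * b * x - a * y)) -
      (x * (q * x * b + (d - a) * y)) * (N * q * z * ((a - d) * t - N * z * b)) = ℓ := by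
    linear_combination (-N * a * d * y * z + a * d + a * d * q * t * x) * h + had
  have hC : ((N * q : ℕ) : ℤ) ∣ N * q * z * ((a - d) * t - N * z * b) :=
    ⟨z * ((a - d) * t - N * z * b), by push_cast; ring⟩
  obtain ⟨u', k, hk⟩ := exists_gamma0_mul_repT_entries hℓ hℓNq _ _ _ _ hdet hC
  refine ⟨u', k, ?_⟩
  refine (hk.mul hEω).ext ((hEω.mul hEu).congr ?_ ?_ ?_ ?_)
  · linear_combination (-(a * q * x)) * h
  · linear_combination (-(b * q * x + d * y)) * h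
  · linear_combination (-(N * a * q * z)) * h
  · linear_combination (-(N * b * q * z + d * q * t)) * h

/-- **`repT ℓ` is permuted by an Atkin–Lehner matrix**, up to `Γ₀(N q)` on the left. -/
theorem IsALMatrix.exists_perm_repT {N q ℓ : ℕ} {ω : GL (Fin 2) ℝ} (hℓ : ℓ.Prime)
    (hℓNq : ¬ ℓ ∣ N * q) (hω : IsALMatrix N q ω) :
    ∃ (π : Equiv.Perm (Option (Fin ℓ))) (k : Option (Fin ℓ) → Gamma0 (N * q)),
      ∀ u, H56.repT ℓ (π u) * ω = ((k u : SL(2, ℤ)) : GL (Fin 2) ℝ) * (ω * H56.repT ℓ u) := by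
  choose π kf hπ using fun u => hω.exists_repT_mul hℓ hℓNq u
  have hinj : Function.Injective π := by
    intro u₁ u₂ h12
    have e1 := hπ u₁
    have e2 := hπ u₂
    rw [h12] at e1
    obtain ⟨k'', hk''⟩ := hω.exists_conj' (kf u₁ * (kf u₂)⁻¹)
    have hcoe : (((kf u₁ * (kf u₂)⁻¹ : Gamma0 (N * q)) : SL(2, ℤ)) : GL (Fin 2) ℝ) =
        ((kf u₁ : SL(2, ℤ)) : GL (Fin 2) ℝ) * (((kf u₂ : SL(2, ℤ)) : GL (Fin 2) ℝ))⁻¹ := by
      rw [Subgroup.coe_mul, Subgroup.coe_inv, S29.H06.coe_mul_GL, S29.H06.coe_inv_GL]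
    have key : ((k'' : SL(2, ℤ)) : GL (Fin 2) ℝ) * H56.repT ℓ u₂ = H56.repT ℓ u₁ := by
      apply mul_left_cancel (a := ω)
      calc ω * (((k'' : SL(2, ℤ)) : GL (Fin 2) ℝ) * H56.repT ℓ u₂)
          = (ω * ((k'' : SL(2, ℤ)) : GL (Fin 2) ℝ)) * H56.repT ℓ u₂ := by rw [mul_assoc]
        _ = (((kf u₁ : SL(2, ℤ)) : GL (Fin 2) ℝ) * (((kf u₂ : SL(2, ℤ)) : GL (Fin 2) ℝ))⁻¹ * ω) *
              H56.repT ℓ u₂ := by rw [← hk'', hcoe]
        _ = ((kf u₁ : SL(2, ℤ)) : GL (Fin 2) ℝ) * (((kf u₂ : SL(2, ℤ)) : GL (Fin 2) ℝ))⁻¹ *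
              (ω * H56.repT ℓ u₂) := by rw [mul_assoc]
        _ = ((kf u₁ : SL(2, ℤ)) : GL (Fin 2) ℝ) * (((kf u₂ : SL(2, ℤ)) : GL (Fin 2) ℝ))⁻¹ *
              (((kf u₂ : SL(2, ℤ)) : GL (Fin 2) ℝ) * H56.repT ℓ (π u₂) * ω) := by rw [e2]
        _ = ((kf u₁ : SL(2, ℤ)) : GL (Fin 2) ℝ) * H56.repT ℓ (π u₂) * ω := by group
        _ = ω * H56.repT ℓ u₁ := e1
    exact ((S29.H06.repT_eq_of_mul_eq hℓ.two_le _ _ _ key).1).symm
  have hbij : Function.Bijective π := Finite.injective_iff_bijective.mp hinj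
  refine ⟨Equiv.ofBijective π hbij, fun u => (kf u)⁻¹, fun u => ?_⟩
  have e := hπ u
  rw [Equiv.ofBijective_apply, ← e, Subgroup.coe_inv, S29.H06.coe_inv_GL]
  group

/-- An Atkin–Lehner matrix is a one-element transfer family on `Γ₀(N q)`. -/
theorem IsALMatrix.isTrFam {N q : ℕ} {ω : GL (Fin 2) ℝ} (hω : IsALMatrix N q ω)
    (ι : Gamma0 (N * q) →* GL (Fin 2) ℝ)
    (hι : ∀ g : Gamma0 (N * q), ι g = ((g : SL(2, ℤ)) : GL (Fin 2) ℝ)) :
    H06.IsTrFam ι ι (fun _ : Unit => ω) :=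
  H06.isTrFam_single (fun γ => by
    obtain ⟨k', hk'⟩ := hω.exists_conj γ
    exact ⟨k', by rw [hι, hι]; exact hk'⟩)

/-- **`T_ℓ` commutes with the Atkin–Lehner operator** (in the transfer calculus). -/
theorem tr_repT_comm_al {A : Type*} [AddCommGroup A] {N q ℓ : ℕ} {ω : GL (Fin 2) ℝ}
    (hℓ : ℓ.Prime) (hℓNq : ¬ ℓ ∣ N * q) (hω : IsALMatrix N q ω)
    (ι : Gamma0 (N * q) →* GL (Fin 2) ℝ)
    (hι : ∀ g : Gamma0 (N * q), ι g = ((g : SL(2, ℤ)) : GL (Fin 2) ℝ))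
    (hinj : Function.Injective ι) (hT : H06.IsTrFam ι ι (H56.repT ℓ))
    (hW : H06.IsTrFam ι ι (fun _ : Unit => ω)) (χ : Additive (Gamma0 (N * q)) →+ A) :
    H06.tr hinj hT (H06.tr hinj hW χ) = H06.tr hinj hW (H06.tr hinj hT χ) := by
  obtain ⟨π, k, hπ⟩ := hω.exists_perm_repT hℓ hℓNq
  have h1 : H06.IsTrFam ι ι (fun p : Option (Fin ℓ) × Unit => ω * H56.repT ℓ p.1) := hT.comp hW
  have h2 : H06.IsTrFam ι ι (fun p : Unit × Option (Fin ℓ) => H56.repT ℓ p.2 * ω) := hW.comp hT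
  rw [H06.tr_comp hinj hinj hT hW h1 χ, H06.tr_comp hinj hinj hW hT h2 χ]
  have key := H06.tr_congr (A := A) hinj h1 h2
    ((Equiv.prodComm _ _).trans (Equiv.prodCongr (Equiv.refl Unit) π)) (fun p => k p.1)
    (fun p => by
      show H56.repT ℓ (π p.1) * ω = ι (k p.1) * (ω * H56.repT ℓ p.1)
      rw [hι]; exact hπ p.1)
  rw [key]

end Fermat.Agent.S41.H35AL
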