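import Mathlib
import Fermat.Agent.S41.Isect_helper11

/-!
# S41, node (C), route C-I: the three instances of the adjunction theorem (helper60)

helper11's adjunction theorem `isect_adj` is used here through the proposition `AdjStmt`
(its literal statement).  From it we derive the three instances consumed by the top of the
route:

* `ipair_cores` : the projection formula `∑ x, ⟨g₀, g'ₓ(γ)⟩_Γ' = ⟨g₀, γ⟩_Γ` for `Γ' ≤ Γ` and a
  complete irredundant system of representatives of `Γ' \ Γ`;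
* `ipair_conj` : invariance under conjugation by an integer matrix of positive determinant,
  `⟨g₀, ω γ ω⁻¹⟩_Γ' = ⟨ω⁻¹ g₀ ω, γ⟩_Γ`;
* `ipair_hecke_sa` : the Hecke operator `T_r` (`r ∤ N`) is self-adjoint for the intersection
  form of `Γ₀(N)`.

The integer Hecke representatives are `repTI r`; their completeness (`exists_repTI`, Hermite
normal form) and irredundancy (`repTI_inj`) are proved here for integer matrices.
-/

set_option autoImplicit false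

namespace Fermat.Agent.S41.H60

open Matrix
open scoped MatrixGroups
open Fermat.Agent.S41.H11

universe u v

/-- The statement of helper11's adjunction theorem `isect_adj` (literal shape). -/
def AdjStmt : Prop :=
  ∀ (X : Type u) (Y : Type v) [Fintype X] [Fintype Y] (Γ Γ' : Subgroup SL(2, ℤ))
    (α : X → Matrix (Fin 2) (Fin 2) ℤ) (β : Y → Matrix (Fin 2) (Fin 2) ℤ)
    (_ : ∀ x, 0 < (α x).det) (_ : ∀ y, 0 < (β y).det)
    (e : X × Γ' ≃ Y × Γ)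
    (_ : ∀ (x : X) (δ' : Γ'), (α x).adjugate * (δ' : SL(2, ℤ)).1 =
      ((e (x, δ')).2 : SL(2, ℤ)).1 * β (e (x, δ')).1)
    (_ : ∀ (y₁ y₂ : Y) (δ₁ δ₂ : SL(2, ℤ)), δ₁ ∈ Γ → δ₂ ∈ Γ →
      δ₁.1 * β y₁ = δ₂.1 * β y₂ → y₁ = y₂)
    {γ : SL(2, ℤ)} (_ : γ ∈ Γ) (σ : Equiv.Perm X) (g' : X → SL(2, ℤ)) (_ : ∀ x, g' x ∈ Γ')
    (_ : ∀ x, α x * γ.1 = (g' x).1 * α (σ x))
    {g₀ : SL(2, ℤ)} (_ : g₀ ∈ Γ') (τ : Equiv.Perm Y) (g : Y → SL(2, ℤ)) (_ : ∀ y, g y ∈ Γ)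
    (_ : ∀ y, β y * g₀.1 = (g y).1 * β (τ y)),
    ∑ x, ipair Γ' g₀ (g' x) = ∑ y, ipair Γ (g y) γ

/-! ### cancellation for integer `2 × 2` matrices of nonzero determinant -/

theorem mul_left_cancel_of_det {ω A B : Matrix (Fin 2) (Fin 2) ℤ} (hω : ω.det ≠ 0)
    (h : ω * A = ω * B) : A = B := by
  have h1 : ω.adjugate * (ω * A) = ω.adjugate * (ω * B) := by rw [h]
  rw [← Matrix.mul_assoc, ← Matrix.mul_assoc, Matrix.adjugate_mul, Matrix.smul_mul,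
    Matrix.smul_mul, Matrix.one_mul, Matrix.one_mul] at h1
  ext i j
  have h2 := congrFun (congrFun h1 i) j
  simp only [Matrix.smul_apply, smul_eq_mul] at h2
  exact mul_left_cancel₀ hω h2

theorem mul_right_cancel_of_det {ω A B : Matrix (Fin 2) (Fin 2) ℤ} (hω : ω.det ≠ 0)
    (h : A * ω = B * ω) : A = B := by
  have h1 : (A * ω) * ω.adjugate = (B * ω) * ω.adjugate := by rw [h]
  rw [Matrix.mul_assoc, Matrix.mul_assoc, Matrix.mul_adjugate, Matrix.mul_smul,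
    Matrix.mul_smul, Matrix.mul_one, Matrix.mul_one] at h1
  ext i j
  have h2 := congrFun (congrFun h1 i) j
  simp only [Matrix.smul_apply, smul_eq_mul] at h2
  exact mul_left_cancel₀ hω h2

theorem det_adjugate_two (A : Matrix (Fin 2) (Fin 2) ℤ) : A.adjugate.det = A.det := by
  rw [Matrix.det_adjugate]; simp

theorem adjugate_adjugate_two (A : Matrix (Fin 2) (Fin 2) ℤ) : A.adjugate.adjugate = A := by
  rw [Matrix.adjugate_fin_two, Matrix.adjugate_fin_two]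
  ext i j; fin_cases i <;> fin_cases j <;> simp

theorem sl_coe_injective {a b : SL(2, ℤ)} (h : a.1 = b.1) : a = b := Subtype.ext h

/-! ### (A-cores): the projection formula -/

/-- **Projection formula**: for `Γ' ≤ Γ`, a complete irredundant system `al` of representatives
of `Γ' \ Γ`, and the transfer decomposition `al x * γ = g' x * al (σ x)` of `γ ∈ Γ`:
`∑ x, ⟨g₀, g' x⟩_Γ' = ⟨g₀, γ⟩_Γ` for every `g₀ ∈ Γ'`. -/
theorem ipair_cores (hAdj : AdjStmt.{u, 0}) {Γ Γ' : Subgroup SL(2, ℤ)} (hle : Γ' ≤ Γ)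
    {X : Type u} [Fintype X] (al : X → SL(2, ℤ)) (hal : ∀ x, al x ∈ Γ)
    (hcov : ∀ δ ∈ Γ, ∃ x, ∃ δ' ∈ Γ', δ = δ' * al x)
    (hirr : ∀ x y, al x * (al y)⁻¹ ∈ Γ' → x = y)
    {γ : SL(2, ℤ)} (hγ : γ ∈ Γ) (σ : Equiv.Perm X) (g' : X → SL(2, ℤ)) (hg' : ∀ x, g' x ∈ Γ')
    (hdec : ∀ x, al x * γ = g' x * al (σ x)) {g₀ : SL(2, ℤ)} (hg₀ : g₀ ∈ Γ') :
    ∑ x, ipair Γ' g₀ (g' x) = ipair Γ g₀ γ := by
  classical
  let f : X × Γ' → Unit × Γ := fun p =>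
    ((), ⟨(al p.1)⁻¹ * (p.2 : SL(2, ℤ)), Γ.mul_mem (Γ.inv_mem (hal p.1)) (hle p.2.2)⟩)
  have hf : Function.Bijective f := by
    constructor
    · rintro ⟨x, δ₁⟩ ⟨y, δ₂⟩ h
      have h' : (al x)⁻¹ * (δ₁ : SL(2, ℤ)) = (al y)⁻¹ * (δ₂ : SL(2, ℤ)) :=
        congrArg (fun q : Unit × Γ => (q.2 : SL(2, ℤ))) h
      have hyx : y = x := by
        apply hirr y x
        have e1 : al y * (al x)⁻¹ = (δ₂ : SL(2, ℤ)) * (δ₁ : SL(2, ℤ))⁻¹ := by
          calc al y * (al x)⁻¹ = al y * ((al x)⁻¹ * (δ₁ : SL(2, ℤ))) * (δ₁ : SL(2, ℤ))⁻¹ := by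
                group
            _ = al y * ((al y)⁻¹ * (δ₂ : SL(2, ℤ))) * (δ₁ : SL(2, ℤ))⁻¹ := by rw [h']
            _ = (δ₂ : SL(2, ℤ)) * (δ₁ : SL(2, ℤ))⁻¹ := by group
        rw [e1]
        exact Γ'.mul_mem δ₂.2 (Γ'.inv_mem δ₁.2)
      subst hyx
      have e2 : (δ₁ : SL(2, ℤ)) = δ₂ := mul_left_cancel h'
      exact Prod.ext rfl (Subtype.ext e2)
    · rintro ⟨⟨⟩, δ⟩
      obtain ⟨x, δ', hδ', h⟩ := hcov (δ : SL(2, ℤ))⁻¹ (Γ.inv_mem δ.2)
      refine ⟨(x, ⟨δ'⁻¹, Γ'.inv_mem hδ'⟩), ?_⟩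
      refine Prod.ext rfl (Subtype.ext ?_)
      show (al x)⁻¹ * δ'⁻¹ = (δ : SL(2, ℤ))
      rw [← _root_.mul_inv_rev, ← h, inv_inv]
  have key := hAdj X Unit Γ Γ' (fun x => (al x).1) (fun _ => 1)
    (fun x => by rw [(al x).2]; exact one_pos) (fun _ => by simp)
    (Equiv.ofBijective f hf)
    (fun x δ' => by
      show (al x).1.adjugate * (δ' : SL(2, ℤ)).1 = ((al x)⁻¹ * (δ' : SL(2, ℤ))).1 * 1
      rw [Matrix.mul_one, Matrix.SpecialLinearGroup.coe_mul, Matrix.SpecialLinearGroup.coe_inv])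
    (fun _ _ _ _ _ _ _ => rfl)
    hγ σ g' hg'
    (fun x => by
      have := congrArg (fun a : SL(2, ℤ) => a.1) (hdec x)
      simpa only [Matrix.SpecialLinearGroup.coe_mul] using this)
    hg₀ (Equiv.refl Unit) (fun _ => g₀) (fun _ => hle hg₀)
    (fun _ => by rw [Matrix.one_mul, Matrix.mul_one])
  rw [key]
  simp

/-! ### (A-conj): conjugation by an integer matrix -/

/-- **Conjugation invariance**: if `ω` is an integer matrix of positive determinant with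
`ω⁻¹ Γ' ω = Γ` (in the adjugate form below), `ω γ = g' ω` and `ω⁻¹ g₀ ω = g`
(i.e. `adj ω * g₀ = g * adj ω`), then `⟨g₀, g'⟩_Γ' = ⟨g, γ⟩_Γ`. -/
theorem ipair_conj (hAdj : AdjStmt.{0, 0}) (Γ Γ' : Subgroup SL(2, ℤ))
    (ω : Matrix (Fin 2) (Fin 2) ℤ) (hω : 0 < ω.det)
    (h1 : ∀ δ' ∈ Γ', ∃ δ ∈ Γ, ω.adjugate * δ'.1 = δ.1 * ω.adjugate)
    (h2 : ∀ δ ∈ Γ, ∃ δ' ∈ Γ', ω.adjugate * δ'.1 = δ.1 * ω.adjugate)
    {γ g' g₀ g : SL(2, ℤ)} (hγ : γ ∈ Γ) (hg' : g' ∈ Γ') (hdec : ω * γ.1 = g'.1 * ω)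
    (hg₀ : g₀ ∈ Γ') (hg : g ∈ Γ) (hdec' : ω.adjugate * g₀.1 = g.1 * ω.adjugate) :
    ipair Γ' g₀ g' = ipair Γ g γ := by
  classical
  have hadj : ω.adjugate.det ≠ 0 := by rw [det_adjugate_two]; exact hω.ne'
  let c : Γ' → Γ := fun δ' => ⟨(h1 δ' δ'.2).choose, (h1 δ' δ'.2).choose_spec.1⟩
  have hc : ∀ δ' : Γ', ω.adjugate * (δ' : SL(2, ℤ)).1 = ((c δ' : Γ) : SL(2, ℤ)).1 * ω.adjugate :=
    fun δ' => (h1 δ' δ'.2).choose_spec.2
  let f : Unit × Γ' → Unit × Γ := fun p => ((), c p.2)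
  have hf : Function.Bijective f := by
    constructor
    · rintro ⟨⟨⟩, δ₁⟩ ⟨⟨⟩, δ₂⟩ h
      have h' : c δ₁ = c δ₂ := congrArg Prod.snd h
      have e1 : ω.adjugate * (δ₁ : SL(2, ℤ)).1 = ω.adjugate * (δ₂ : SL(2, ℤ)).1 := by
        rw [hc δ₁, hc δ₂, h']
      exact Prod.ext rfl (Subtype.ext (sl_coe_injective (mul_left_cancel_of_det hadj e1)))
    · rintro ⟨⟨⟩, δ⟩
      obtain ⟨δ', hδ', h⟩ := h2 (δ : SL(2, ℤ)) δ.2
      refine ⟨((), ⟨δ', hδ'⟩), Prod.ext rfl (Subtype.ext (sl_coe_injective ?_))⟩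
      have e1 : ((c ⟨δ', hδ'⟩ : Γ) : SL(2, ℤ)).1 * ω.adjugate = (δ : SL(2, ℤ)).1 * ω.adjugate := by
        rw [← hc ⟨δ', hδ'⟩, ← h]
      exact mul_right_cancel_of_det hadj e1
  have key := hAdj Unit Unit Γ Γ' (fun _ => ω) (fun _ => ω.adjugate)
    (fun _ => hω) (fun _ => by rw [det_adjugate_two]; exact hω)
    (Equiv.ofBijective f hf)
    (fun _ δ' => hc δ')
    (fun _ _ _ _ _ _ _ => rfl)
    hγ (Equiv.refl Unit) (fun _ => g') (fun _ => hg')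
    (fun _ => hdec)
    hg₀ (Equiv.refl Unit) (fun _ => g) (fun _ => hg)
    (fun _ => hdec')
  simpa using key

/-! ### the integer Hecke representatives -/

/-- The integer matrices of the Hecke representatives `H56.repT r`:
`none ↦ [[r, 0], [0, 1]]`, `some j ↦ [[1, j], [0, r]]`. -/
def repTI (r : ℕ) : Option (Fin r) → Matrix (Fin 2) (Fin 2) ℤ
  | none => !![(r : ℤ), 0; 0, 1]
  | some j => !![1, ((j : ℕ) : ℤ); 0, (r : ℤ)]

theorem repTI_det (r : ℕ) (x : Option (Fin r)) : (repTI r x).det = r := by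
  cases x <;> simp [repTI, Matrix.det_fin_two]

theorem repTI_one_zero (r : ℕ) (x : Option (Fin r)) : repTI r x 1 0 = 0 := by
  cases x <;> simp [repTI]

/-- Irredundancy: the `SL(2, ℤ)`-cosets of the `repTI r x` are distinct. -/
theorem repTI_inj {r : ℕ} (hr : 2 ≤ r) (δ₁ δ₂ : SL(2, ℤ)) (y₁ y₂ : Option (Fin r))
    (h : δ₁.1 * repTI r y₁ = δ₂.1 * repTI r y₂) : y₁ = y₂ := by
  have d1 : δ₁.1 0 0 * δ₁.1 1 1 - δ₁.1 0 1 * δ₁.1 1 0 = 1 := by
    have := δ₁.2; rwa [Matrix.det_fin_two] at this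
  have d2 : δ₂.1 0 0 * δ₂.1 1 1 - δ₂.1 0 1 * δ₂.1 1 0 = 1 := by
    have := δ₂.2; rwa [Matrix.det_fin_two] at this
  have h00 := congrFun (congrFun h 0) 0
  have h01 := congrFun (congrFun h 0) 1
  have h10 := congrFun (congrFun h 1) 0
  have h11 := congrFun (congrFun h 1) 1
  have hr' : (2 : ℤ) ≤ (r : ℤ) := by exact_mod_cast hr
  rcases y₁ with _ | j₁ <;> rcases y₂ with _ | j₂
  · rfl
  · exfalso
    simp [repTI, Matrix.mul_apply, Fin.sum_univ_two] at h00 h01 h10 h11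
    have e : (r : ℤ) * (δ₁.1 0 0 * δ₂.1 1 1 - δ₂.1 0 1 * δ₁.1 1 0) = 1 := by
      linear_combination d2 + δ₂.1 1 1 * h00 - δ₂.1 0 1 * h10
    have hdvd : (r : ℤ) ∣ 1 := Dvd.intro _ e
    have := Int.le_of_dvd one_pos hdvd
    omega
  · exfalso
    simp [repTI, Matrix.mul_apply, Fin.sum_univ_two] at h00 h01 h10 h11
    have e : (r : ℤ) * (δ₂.1 0 0 * δ₁.1 1 1 - δ₁.1 0 1 * δ₂.1 1 0) = 1 := by
      linear_combination d1 - δ₁.1 1 1 * h00 + δ₁.1 0 1 * h10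
    have hdvd : (r : ℤ) ∣ 1 := Dvd.intro _ e
    have := Int.le_of_dvd one_pos hdvd
    omega
  · simp [repTI, Matrix.mul_apply, Fin.sum_univ_two] at h00 h01 h10 h11
    have e : (r : ℤ) * (δ₁.1 1 1 * (δ₂.1 0 1 - δ₁.1 0 1) - δ₁.1 0 1 * (δ₂.1 1 1 - δ₁.1 1 1))
        = ((j₁ : ℕ) : ℤ) - ((j₂ : ℕ) : ℤ) := by
      have e0 : ((j₁ : ℕ) : ℤ) - ((j₂ : ℕ) : ℤ) = (((j₁ : ℕ) : ℤ) - ((j₂ : ℕ) : ℤ)) *
          (δ₁.1 0 0 * δ₁.1 1 1 - δ₁.1 0 1 * δ₁.1 1 0) := by rw [d1, mul_one]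
      rw [e0]
      linear_combination (-(δ₁.1 1 1)) * h01 + (δ₁.1 0 1) * h11
        + (δ₁.1 1 1 * ((j₂ : ℕ) : ℤ)) * h00 - (δ₁.1 0 1 * ((j₂ : ℕ) : ℤ)) * h10
    have hdvd : (r : ℤ) ∣ ((j₁ : ℕ) : ℤ) - ((j₂ : ℕ) : ℤ) := Dvd.intro _ e
    have hj1 : ((j₁ : ℕ) : ℤ) < r := by exact_mod_cast j₁.2
    have hj2 : ((j₂ : ℕ) : ℤ) < r := by exact_mod_cast j₂.2
    have hj1' : (0 : ℤ) ≤ ((j₁ : ℕ) : ℤ) := Int.natCast_nonneg _
    have hj2' : (0 : ℤ) ≤ ((j₂ : ℕ) : ℤ) := Int.natCast_nonneg _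
    have hz : ((j₁ : ℕ) : ℤ) - ((j₂ : ℕ) : ℤ) = 0 := by
      apply Int.eq_zero_of_abs_lt_dvd hdvd
      rw [abs_lt]; constructor <;> linarith
    have : (j₁ : ℕ) = (j₂ : ℕ) := by exact_mod_cast sub_eq_zero.mp hz
    exact congrArg some (Fin.ext this)

/-- Completeness (Hermite normal form): an integer matrix of determinant `r` (prime, `r ∤ N`)
whose lower left entry is divisible by `N` lies in `Γ₀(N) · repTI r u` for some `u`. -/
theorem exists_repTI {N r : ℕ} (hr : r.Prime) (hrN : ¬ r ∣ N) (m : Matrix (Fin 2) (Fin 2) ℤ)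
    (hdet : m.det = r) (hC : (N : ℤ) ∣ m 1 0) :
    ∃ (u : Option (Fin r)) (k : SL(2, ℤ)), k ∈ CongruenceSubgroup.Gamma0 N ∧
      m = k.1 * repTI r u := by
  have : Fact r.Prime := ⟨hr⟩
  have hr0 : (r : ℤ) ≠ 0 := by exact_mod_cast hr.ne_zero
  rw [Matrix.det_fin_two] at hdet
  have hcop : IsCoprime (N : ℤ) (r : ℤ) := by
    rw [Int.isCoprime_iff_gcd_eq_one, Int.gcd_natCast_natCast]
    exact (Nat.Coprime.symm ((Nat.Prime.coprime_iff_not_dvd hr).mpr hrN))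
  by_cases hcase : (r : ℤ) ∣ m 0 0 ∧ (r : ℤ) ∣ m 1 0
  · obtain ⟨⟨A', hA⟩, ⟨C', hC'⟩⟩ := hcase
    have hd1 : A' * m 1 1 - m 0 1 * C' = 1 := by
      have : (r : ℤ) * (A' * m 1 1 - m 0 1 * C') = r * 1 := by
        linear_combination hdet - m 1 1 * hA + m 0 1 * hC'
      exact mul_left_cancel₀ hr0 this
    have hNC : (N : ℤ) ∣ C' := by
      rw [hC'] at hC
      exact hcop.dvd_of_dvd_mul_left hC
    refine ⟨none, ⟨!![A', m 0 1; C', m 1 1], by rw [Matrix.det_fin_two]; simpa using hd1⟩, ?_, ?_⟩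
    · rw [CongruenceSubgroup.Gamma0_mem]
      simpa using (ZMod.intCast_zmod_eq_zero_iff_dvd C' N).mpr hNC
    · ext i j
      fin_cases i <;> fin_cases j <;>
        simp [repTI, Matrix.mul_apply, Fin.sum_univ_two, hA, hC', mul_comm]
  · -- find `j` with `r ∣ m 0 1 - m 0 0 * j` and `r ∣ m 1 1 - m 1 0 * j`
    have hdetZ : ((m 0 0 : ℤ) : ZMod r) * ((m 1 1 : ℤ) : ZMod r)
        = ((m 0 1 : ℤ) : ZMod r) * ((m 1 0 : ℤ) : ZMod r) := by
      have : (((m 0 0 * m 1 1 - m 0 1 * m 1 0 : ℤ)) : ZMod r) = 0 := by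
        rw [hdet]; simp
      push_cast at this
      exact sub_eq_zero.mp this
    have hex : ∃ j : ZMod r, ((m 0 1 : ℤ) : ZMod r) = ((m 0 0 : ℤ) : ZMod r) * j ∧
        ((m 1 1 : ℤ) : ZMod r) = ((m 1 0 : ℤ) : ZMod r) * j := by
      by_cases hA : (r : ℤ) ∣ m 0 0
      · have hCn : ¬ (r : ℤ) ∣ m 1 0 := fun h => hcase ⟨hA, h⟩
        have hc0 : ((m 1 0 : ℤ) : ZMod r) ≠ 0 := by
          rwa [Ne, ZMod.intCast_zmod_eq_zero_iff_dvd]
        refine ⟨((m 1 1 : ℤ) : ZMod r) * ((m 1 0 : ℤ) : ZMod r)⁻¹, ?_, ?_⟩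
        · field_simp
          linear_combination -hdetZ
        · field_simp
      · have ha0 : ((m 0 0 : ℤ) : ZMod r) ≠ 0 := by
          rwa [Ne, ZMod.intCast_zmod_eq_zero_iff_dvd]
        refine ⟨((m 0 1 : ℤ) : ZMod r) * ((m 0 0 : ℤ) : ZMod r)⁻¹, ?_, ?_⟩
        · field_simp
        · field_simp
          linear_combination hdetZ
    obtain ⟨j, hj1, hj2⟩ := hex
    have hjv : ((j.val : ℕ) : ZMod r) = j := ZMod.natCast_zmod_val j
    have hB : (r : ℤ) ∣ m 0 1 - m 0 0 * (j.val : ℤ) := by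
      rw [← ZMod.intCast_zmod_eq_zero_iff_dvd]
      push_cast
      rw [hjv, hj1, sub_self]
    have hD : (r : ℤ) ∣ m 1 1 - m 1 0 * (j.val : ℤ) := by
      rw [← ZMod.intCast_zmod_eq_zero_iff_dvd]
      push_cast
      rw [hjv, hj2, sub_self]
    obtain ⟨E, hE⟩ := hB
    obtain ⟨F, hF⟩ := hD
    have hd1 : m 0 0 * F - E * m 1 0 = 1 := by
      have : (r : ℤ) * (m 0 0 * F - E * m 1 0) = r * 1 := by
        linear_combination hdet - (m 0 0) * hF + (m 1 0) * hE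
      exact mul_left_cancel₀ hr0 this
    refine ⟨some ⟨j.val, ZMod.val_lt j⟩,
      ⟨!![m 0 0, E; m 1 0, F], by rw [Matrix.det_fin_two]; simpa using hd1⟩, ?_, ?_⟩
    · rw [CongruenceSubgroup.Gamma0_mem]
      simpa using (ZMod.intCast_zmod_eq_zero_iff_dvd (m 1 0) N).mpr hC
    · have ej : ((j.val : ℕ) : ℤ) = (ZMod.cast j : ℤ) := ZMod.natCast_val j
      ext a b
      fin_cases a <;> fin_cases b
      · simp [repTI, Matrix.mul_apply, Fin.sum_univ_two]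
      · simp [repTI, Matrix.mul_apply, Fin.sum_univ_two]
        rw [← ej]
        linear_combination hE
      · simp [repTI, Matrix.mul_apply, Fin.sum_univ_two]
      · simp [repTI, Matrix.mul_apply, Fin.sum_univ_two]
        rw [← ej]
        linear_combination hF

/-! ### (A-SA): the Hecke operator is self-adjoint -/

theorem gamma0_one_zero_dvd {N : ℕ} {δ : SL(2, ℤ)} (hδ : δ ∈ CongruenceSubgroup.Gamma0 N) :
    (N : ℤ) ∣ δ.1 1 0 := by
  rw [CongruenceSubgroup.Gamma0_mem] at hδ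
  exact (ZMod.intCast_zmod_eq_zero_iff_dvd _ N).mp hδ

/-- the lower left entry of `adj (repTI r x) * δ` for `δ ∈ Γ₀(N)`. -/
theorem adj_repTI_mul_one_zero {N r : ℕ} (x : Option (Fin r)) {δ : SL(2, ℤ)}
    (hδ : δ ∈ CongruenceSubgroup.Gamma0 N) : (N : ℤ) ∣ ((repTI r x).adjugate * δ.1) 1 0 := by
  have h := gamma0_one_zero_dvd hδ
  cases x with
  | none =>
    simp only [repTI, Matrix.adjugate_fin_two_of, Matrix.mul_apply, Fin.sum_univ_two]
    simpa using Dvd.dvd.mul_left h _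
  | some j =>
    simp only [repTI, Matrix.adjugate_fin_two_of, Matrix.mul_apply, Fin.sum_univ_two]
    simpa using h

/-- **`T_r` is self-adjoint** for the intersection form of `Γ₀(N)` (`r` prime, `r ∤ N`):
if `repTI r x * γ = g' x * repTI r (σ x)` and `repTI r y * g₀ = g y * repTI r (τ y)` are the
Hecke decompositions of `γ, g₀ ∈ Γ₀(N)`, then `∑ x, ⟨g₀, g' x⟩ = ∑ y, ⟨g y, γ⟩`. -/
theorem ipair_hecke_sa (hAdj : AdjStmt.{0, 0}) {N r : ℕ} (hr : r.Prime) (hrN : ¬ r ∣ N)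
    {γ g₀ : SL(2, ℤ)} (hγ : γ ∈ CongruenceSubgroup.Gamma0 N)
    (hg₀ : g₀ ∈ CongruenceSubgroup.Gamma0 N)
    (σ τ : Equiv.Perm (Option (Fin r))) (g' g : Option (Fin r) → SL(2, ℤ))
    (hg' : ∀ x, g' x ∈ CongruenceSubgroup.Gamma0 N) (hg : ∀ y, g y ∈ CongruenceSubgroup.Gamma0 N)
    (hdec : ∀ x, repTI r x * γ.1 = (g' x).1 * repTI r (σ x))
    (hdec' : ∀ y, repTI r y * g₀.1 = (g y).1 * repTI r (τ y)) :
    ∑ x, ipair (CongruenceSubgroup.Gamma0 N) g₀ (g' x)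
      = ∑ y, ipair (CongruenceSubgroup.Gamma0 N) (g y) γ := by
  classical
  set Γ := CongruenceSubgroup.Gamma0 N with hΓ
  have hr0 : (0 : ℤ) < (r : ℤ) := by exact_mod_cast hr.pos
  have hdetR : ∀ x, (repTI r x).det ≠ 0 := fun x => by rw [repTI_det]; exact hr0.ne'
  have hdetA : ∀ x, (repTI r x).adjugate.det ≠ 0 := fun x => by
    rw [det_adjugate_two]; exact hdetR x
  -- the correspondence `adj (R x) * δ' = δ * R y`
  have hex : ∀ p : Option (Fin r) × Γ, ∃ q : Option (Fin r) × Γ,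
      (repTI r p.1).adjugate * (p.2 : SL(2, ℤ)).1 = (q.2 : SL(2, ℤ)).1 * repTI r q.1 := by
    rintro ⟨x, δ'⟩
    obtain ⟨u, k, hk, hm⟩ := exists_repTI hr hrN ((repTI r x).adjugate * (δ' : SL(2, ℤ)).1)
      (by rw [Matrix.det_mul, det_adjugate_two, repTI_det, (δ' : SL(2, ℤ)).2, mul_one])
      (adj_repTI_mul_one_zero x δ'.2)
    exact ⟨(u, ⟨k, hk⟩), hm⟩
  let f : Option (Fin r) × Γ → Option (Fin r) × Γ := fun p => (hex p).choose
  have hf : ∀ p, (repTI r p.1).adjugate * (p.2 : SL(2, ℤ)).1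
      = ((f p).2 : SL(2, ℤ)).1 * repTI r (f p).1 := fun p => (hex p).choose_spec
  have hfb : Function.Bijective f := by
    constructor
    · rintro ⟨x₁, δ₁⟩ ⟨x₂, δ₂⟩ h
      have e1 : (repTI r x₁).adjugate * (δ₁ : SL(2, ℤ)).1
          = (repTI r x₂).adjugate * (δ₂ : SL(2, ℤ)).1 := by
        have a1 := hf (x₁, δ₁)
        have a2 := hf (x₂, δ₂)
        rw [h] at a1
        exact a1.trans a2.symm
      -- take adjugates
      have e2 : (δ₁ : SL(2, ℤ))⁻¹.1 * repTI r x₁ = (δ₂ : SL(2, ℤ))⁻¹.1 * repTI r x₂ := by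
        have := congrArg Matrix.adjugate e1
        rw [Matrix.adjugate_mul_distrib, Matrix.adjugate_mul_distrib, adjugate_adjugate_two,
          adjugate_adjugate_two] at this
        rw [Matrix.SpecialLinearGroup.coe_inv, Matrix.SpecialLinearGroup.coe_inv]
        exact this
      have hx : x₁ = x₂ := repTI_inj hr.two_le _ _ _ _ e2
      subst hx
      have e3 : (δ₁ : SL(2, ℤ)).1 = (δ₂ : SL(2, ℤ)).1 := mul_left_cancel_of_det (hdetA x₁) e1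
      exact Prod.ext rfl (Subtype.ext (sl_coe_injective e3))
    · rintro ⟨y, δ⟩
      -- `adj (R y) * δ⁻¹ = k' * R x`
      obtain ⟨x, k', hk', hm⟩ := exists_repTI hr hrN
        ((repTI r y).adjugate * ((δ : SL(2, ℤ))⁻¹).1)
        (by rw [Matrix.det_mul, det_adjugate_two, repTI_det, ((δ : SL(2, ℤ))⁻¹).2, mul_one])
        (adj_repTI_mul_one_zero y (Γ.inv_mem δ.2))
      have e1 : (repTI r x).adjugate * (k'⁻¹).1 = (δ : SL(2, ℤ)).1 * repTI r y := by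
        have := congrArg Matrix.adjugate hm
        rw [Matrix.adjugate_mul_distrib, Matrix.adjugate_mul_distrib, adjugate_adjugate_two,
          ← Matrix.SpecialLinearGroup.coe_inv, ← Matrix.SpecialLinearGroup.coe_inv, inv_inv]
          at this
        exact this.symm
      refine ⟨(x, ⟨k'⁻¹, Γ.inv_mem hk'⟩), ?_⟩
      have e2 := hf (x, ⟨k'⁻¹, Γ.inv_mem hk'⟩)
      have e3 : ((f (x, ⟨k'⁻¹, Γ.inv_mem hk'⟩)).2 : SL(2, ℤ)).1
          * repTI r (f (x, ⟨k'⁻¹, Γ.inv_mem hk'⟩)).1 = (δ : SL(2, ℤ)).1 * repTI r y :=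
        e2.symm.trans e1
      have hy : (f (x, ⟨k'⁻¹, Γ.inv_mem hk'⟩)).1 = y := repTI_inj hr.two_le _ _ _ _ e3
      rw [hy] at e3
      have e4 := mul_right_cancel_of_det (hdetR y) e3
      exact Prod.ext hy (Subtype.ext (sl_coe_injective e4))
  exact hAdj (Option (Fin r)) (Option (Fin r)) Γ Γ (repTI r) (repTI r)
    (fun x => by rw [repTI_det]; exact hr0) (fun y => by rw [repTI_det]; exact hr0)
    (Equiv.ofBijective f hfb) (fun x δ' => hf (x, δ'))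
    (fun y₁ y₂ δ₁ δ₂ _ _ h => repTI_inj hr.two_le δ₁ δ₂ y₁ y₂ h)
    hγ σ g' hg' hdec hg₀ τ g hg hdec'

end Fermat.Agent.S41.H60
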