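import Mathlib
import Fermat.Agent.S41.Isect_helper11

/-!
# S41, node (C), leaf I1 (helper11): the adjunction theorem for the intersection form

`isect_adj`: for two finite families of integer matrices `α : X → M₂(ℤ)`, `β : Y → M₂(ℤ)` of
positive determinant whose coset sets `{δ' α_x}` (`δ' ∈ Γ'`) and `{δ β_y}` (`δ ∈ Γ`) are adjugate
to each other, the transfer of `γ ∈ Γ` along `α` in the second slot of the form of `Γ'` equals the
transfer of `g₀ ∈ Γ'` along `β` in the first slot of the form of `Γ`.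
-/

set_option autoImplicit false

namespace Fermat.Agent.S41.H11

open Matrix
open scoped MatrixGroups

/-- `sg` of the images of a pair of vectors under an integer matrix. -/
def sgM (m : Matrix (Fin 2) (Fin 2) ℤ) (u w : Fin 2 → ℤ) : ℤ := sg (m *ᵥ u) (m *ᵥ w)

theorem sgM_smul {c : ℤ} (hc : c ≠ 0) (m : Matrix (Fin 2) (Fin 2) ℤ) (u w : Fin 2 → ℤ) :
    sgM (c • m) u w = sgM m u w := by
  simp only [sgM, Matrix.smul_mulVec]
  rw [sg_smul_left hc, sg_smul_right hc]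

theorem mulVec_ne_zero_of_det {α : Matrix (Fin 2) (Fin 2) ℤ} (hα : α.det ≠ 0) {u : Fin 2 → ℤ}
    (hu : u ≠ 0) : α *ᵥ u ≠ 0 := by
  intro h
  have h1 : α.adjugate *ᵥ (α *ᵥ u) = α.det • u := by
    rw [Matrix.mulVec_mulVec, Matrix.adjugate_mul, Matrix.smul_mulVec, Matrix.one_mulVec]
  rw [h, Matrix.mulVec_zero] at h1
  exact hu ((smul_eq_zero.mp h1.symm).resolve_left hα)

/-- Cancellation of a matrix of nonzero determinant on the right. -/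
theorem mul_right_cancel_of_det {A B β : Matrix (Fin 2) (Fin 2) ℤ} (hβ : β.det ≠ 0)
    (h : A * β = B * β) : A = B := by
  have h1 : (A * β) * β.adjugate = (B * β) * β.adjugate := by rw [h]
  rw [Matrix.mul_assoc, Matrix.mul_assoc, Matrix.mul_adjugate, Matrix.mul_smul, Matrix.mul_smul,
    Matrix.mul_one, Matrix.mul_one] at h1
  exact smul_right_injective _ hβ h1

/-- The sign function at a transformed base point. -/
theorem sgM_mul_of_pos {α : Matrix (Fin 2) (Fin 2) ℤ} (hα : 0 < α.det)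
    (m : Matrix (Fin 2) (Fin 2) ℤ) (u w : Fin 2 → ℤ) :
    sgM (α * m) u w = Int.sign (det2 (m *ᵥ u) (m *ᵥ w)) *
      Int.sign (bform (α *ᵥ (m *ᵥ u)) (α *ᵥ (m *ᵥ w))) := by
  simp only [sgM, sg, ← Matrix.mulVec_mulVec, det2_mulVec α, Int.sign_mul,
    Int.sign_eq_one_of_pos hα, one_mul]

section Adj

variable {X Y : Type*} [Fintype X] [Fintype Y]

/-- The right-hand side of the adjunction as a sum of symbols. -/
theorem adj_rhs (h2 : Fin2Stmt) (h3 : Fin3Stmt) (Γ : Subgroup SL(2, ℤ))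
    (β : Y → Matrix (Fin 2) (Fin 2) ℤ) (hβ : ∀ y, 0 < (β y).det)
    {γ : SL(2, ℤ)} (hγ : γ ∈ Γ) (g₀ : SL(2, ℤ)) (τ : Equiv.Perm Y) (g : Y → SL(2, ℤ))
    (hg : ∀ y, g y ∈ Γ) (hdec' : ∀ y, β y * g₀.1 = (g y).1 * β (τ y)) :
    ∑ y, ipair Γ (g y) γ =
      ∑ y, isect Γ (β y *ᵥ ![1, 0]) (β y *ᵥ (g₀.1 *ᵥ ![1, 0])) γ := by
  have hβe : ∀ y, β y *ᵥ ![1, 0] ≠ 0 := fun y => mulVec_ne_zero_of_det (hβ y).ne' e1_ne_zero
  have hv0 : g₀.1 *ᵥ ![1, 0] ≠ 0 := sl_mulVec_ne_zero g₀ e1_ne_zero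
  have hβv : ∀ y, β y *ᵥ (g₀.1 *ᵥ ![1, 0]) ≠ 0 := fun y => mulVec_ne_zero_of_det (hβ y).ne' hv0
  have hge : ∀ y, (g y).1 *ᵥ ![1, 0] ≠ 0 := fun y => sl_mulVec_ne_zero (g y) e1_ne_zero
  have key : ∀ y, ipair Γ (g y) γ = isect Γ (β y *ᵥ ![1, 0]) (β y *ᵥ (g₀.1 *ᵥ ![1, 0])) γ +
      (isect Γ ![1, 0] (β y *ᵥ ![1, 0]) γ - isect Γ ![1, 0] (β (τ y) *ᵥ ![1, 0]) γ) := by
    intro y
    have e1 := isect_add h2 h3 Γ e1_ne_zero (hβe y) (hge y) hγ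
    have e2 := isect_add h2 h3 Γ (hβe y) (hβv y) (hge y) hγ
    have e3 : β y *ᵥ (g₀.1 *ᵥ ![1, 0]) = (g y).1 *ᵥ (β (τ y) *ᵥ ![1, 0]) := by
      rw [Matrix.mulVec_mulVec, Matrix.mulVec_mulVec, hdec' y]
    have e4 : isect Γ (β y *ᵥ (g₀.1 *ᵥ ![1, 0])) ((g y).1 *ᵥ ![1, 0]) γ =
        - isect Γ ![1, 0] (β (τ y) *ᵥ ![1, 0]) γ := by
      rw [e3, isect_inv Γ (hg y), isect_swap]
    simp only [ipair]
    rw [e1, e2, e4]; ring
  rw [Finset.sum_congr rfl fun y _ => key y, Finset.sum_add_distrib, Finset.sum_sub_distrib,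
    Equiv.sum_comp τ (fun y => isect Γ ![1, 0] (β y *ᵥ ![1, 0]) γ), sub_self, add_zero]

/-- Finite support of the base-change defect. -/
theorem adj_defect_support_finite (h2 : Fin2Stmt) (Γ : Subgroup SL(2, ℤ))
    (α : X → Matrix (Fin 2) (Fin 2) ℤ) (β : Y → Matrix (Fin 2) (Fin 2) ℤ)
    (hα : ∀ x, 0 < (α x).det) (hβ : ∀ y, 0 < (β y).det) (u w : Fin 2 → ℤ) (ξ : Y × Γ → X) :
    (Function.support fun q : Y × Γ =>
      sgM (α (ξ q) * ((q.2 : SL(2, ℤ)).1 * β q.1)) u w -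
        sgM ((q.2 : SL(2, ℤ)).1 * β q.1) u w).Finite := by
  by_cases hd : det2 u w = 0
  · have : (Function.support fun q : Y × Γ =>
        sgM (α (ξ q) * ((q.2 : SL(2, ℤ)).1 * β q.1)) u w -
          sgM ((q.2 : SL(2, ℤ)).1 * β q.1) u w) = ∅ := by
      ext q
      simp only [Function.mem_support, ne_eq, Set.mem_empty_iff_false, iff_false, not_not, sgM]
      rw [sg_eq_zero_of_det2 (by rw [det2_mulVec, hd, mul_zero]),
        sg_eq_zero_of_det2 (by rw [det2_mulVec, hd, mul_zero]), sub_zero]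
    rw [this]; exact Set.finite_empty
  · -- the finite sets
    let T : Y → X → Set Γ := fun y x => {δ : Γ |
      ((δ : SL(2, ℤ)).1 *ᵥ (β y *ᵥ u), (δ : SL(2, ℤ)).1 *ᵥ (β y *ᵥ w)) ∈
        {p : (Fin 2 → ℤ) × (Fin 2 → ℤ) | det2 p.1 p.2 = (β y).det * det2 u w ∧
          Int.sign (bform (α x *ᵥ p.1) (α x *ᵥ p.2)) ≠ Int.sign (bform p.1 p.2)}}
    have hT : ∀ y x, (T y x).Finite := by
      intro y x
      have hne : (β y).det * det2 u w ≠ 0 := mul_ne_zero (hβ y).ne' hd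
      have hfin := h2 (α x) (hα x).ne' _ hne
      have hinj : Function.Injective fun δ : Γ =>
          ((δ : SL(2, ℤ)).1 *ᵥ (β y *ᵥ u), (δ : SL(2, ℤ)).1 *ᵥ (β y *ᵥ w)) := by
        intro δ₁ δ₂ h
        have e1 := congrArg Prod.fst h
        have e2 := congrArg Prod.snd h
        exact Subtype.ext (sl_eq_of_mulVec_eq (by rw [det2_mulVec]; exact hne) e1 e2)
      exact hfin.preimage hinj.injOn
    have hfin : (⋃ y, ⋃ x, (Prod.mk y) '' T y x).Finite :=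
      Set.finite_iUnion fun y => Set.finite_iUnion fun x => (hT y x).image _
    refine hfin.subset ?_
    rintro ⟨y, δ⟩ hq
    simp only [Function.mem_support, ne_eq] at hq
    simp only [Set.mem_iUnion, Set.mem_image]
    refine ⟨y, ξ (y, δ), δ, ?_, rfl⟩
    show det2 ((δ : SL(2, ℤ)).1 *ᵥ (β y *ᵥ u)) ((δ : SL(2, ℤ)).1 *ᵥ (β y *ᵥ w)) =
        (β y).det * det2 u w ∧
      Int.sign (bform (α (ξ (y, δ)) *ᵥ ((δ : SL(2, ℤ)).1 *ᵥ (β y *ᵥ u)))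
        (α (ξ (y, δ)) *ᵥ ((δ : SL(2, ℤ)).1 *ᵥ (β y *ᵥ w)))) ≠
      Int.sign (bform ((δ : SL(2, ℤ)).1 *ᵥ (β y *ᵥ u)) ((δ : SL(2, ℤ)).1 *ᵥ (β y *ᵥ w)))
    refine ⟨by rw [det2_sl, det2_mulVec], fun hs => hq ?_⟩
    rw [sgM_mul_of_pos (hα _)]
    simp only [sgM, sg, ← Matrix.mulVec_mulVec]
    rw [hs, sub_self]

theorem sl_conj_aux {P Q : SL(2, ℤ)} {A B : Matrix (Fin 2) (Fin 2) ℤ}
    (h : P⁻¹.1 * A = B * Q⁻¹.1) : A * Q.1 = P.1 * B := by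
  have hP : P.1 * P⁻¹.1 = 1 := by
    rw [← Matrix.SpecialLinearGroup.coe_mul, mul_inv_cancel, Matrix.SpecialLinearGroup.coe_one]
  have hQ : Q⁻¹.1 * Q.1 = 1 := by
    rw [← Matrix.SpecialLinearGroup.coe_mul, inv_mul_cancel, Matrix.SpecialLinearGroup.coe_one]
  calc A * Q.1 = (P.1 * P⁻¹.1) * A * Q.1 := by rw [hP, Matrix.one_mul]
    _ = P.1 * (P⁻¹.1 * A) * Q.1 := by rw [Matrix.mul_assoc P.1]
    _ = P.1 * (B * Q⁻¹.1) * Q.1 := by rw [h]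
    _ = P.1 * B * (Q⁻¹.1 * Q.1) := by simp only [Matrix.mul_assoc]
    _ = P.1 * B := by rw [hQ, Matrix.mul_one]

/-- **The adjunction theorem** for the intersection form. -/
theorem isect_adj (h2 : Fin2Stmt) (h3 : Fin3Stmt) (Γ Γ' : Subgroup SL(2, ℤ))
    (α : X → Matrix (Fin 2) (Fin 2) ℤ) (β : Y → Matrix (Fin 2) (Fin 2) ℤ)
    (hα : ∀ x, 0 < (α x).det) (hβ : ∀ y, 0 < (β y).det)
    (e : X × Γ' ≃ Y × Γ)
    (he : ∀ (x : X) (δ' : Γ'), (α x).adjugate * (δ' : SL(2, ℤ)).1 =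
      ((e (x, δ')).2 : SL(2, ℤ)).1 * β (e (x, δ')).1)
    (hinj : ∀ (y₁ y₂ : Y) (δ₁ δ₂ : SL(2, ℤ)), δ₁ ∈ Γ → δ₂ ∈ Γ →
      δ₁.1 * β y₁ = δ₂.1 * β y₂ → y₁ = y₂)
    {γ : SL(2, ℤ)} (hγ : γ ∈ Γ) (σ : Equiv.Perm X) (g' : X → SL(2, ℤ)) (hg' : ∀ x, g' x ∈ Γ')
    (hdec : ∀ x, α x * γ.1 = (g' x).1 * α (σ x))
    (g₀ : SL(2, ℤ)) (τ : Equiv.Perm Y) (g : Y → SL(2, ℤ)) (hg : ∀ y, g y ∈ Γ)
    (hdec' : ∀ y, β y * g₀.1 = (g y).1 * β (τ y)) :
    ∑ x, ipair Γ' g₀ (g' x) = ∑ y, ipair Γ (g y) γ := by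
  classical
  rw [adj_rhs h2 h3 Γ β hβ hγ g₀ τ g hg hdec']
  set v0 : Fin 2 → ℤ := g₀.1 *ᵥ ![1, 0] with hv0
  let ξ : Y × Γ → X := fun q => (e.symm q).1
  let Hq : Y × Γ → ℤ := fun q =>
    sgM (α (ξ q) * ((q.2 : SL(2, ℤ)).1 * β q.1)) ![1, 0] v0 -
      sgM ((q.2 : SL(2, ℤ)).1 * β q.1) ![1, 0] v0
  let mulγ : Y × Γ ≃ Y × Γ := Equiv.prodCongr (Equiv.refl Y) (Equiv.mulLeft (⟨γ, hγ⟩ : Γ))
  let K2 : Y × Γ → ℤ := fun q =>
    isectTerm (β q.1 *ᵥ ![1, 0]) (β q.1 *ᵥ v0) γ (q.2 : SL(2, ℤ))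
  have hH : (Function.support Hq).Finite :=
    adj_defect_support_finite h2 Γ α β hα hβ ![1, 0] v0 ξ
  have hHγ : (Function.support fun q => Hq (mulγ q)).Finite :=
    (hH.preimage mulγ.injective.injOn).subset (fun q hq => hq)
  have hK2 : (Function.support K2).Finite := by
    have : (⋃ y, (Prod.mk y) '' (Function.support fun δ : Γ =>
        isectTerm (β y *ᵥ ![1, 0]) (β y *ᵥ v0) γ (δ : SL(2, ℤ)))).Finite :=
      Set.finite_iUnion fun y => (isectTerm_support_finite h2 Γ _ _ γ).image _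
    refine this.subset ?_
    rintro ⟨y, δ⟩ hq
    simp only [Set.mem_iUnion, Set.mem_image]
    exact ⟨y, δ, hq, rfl⟩
  have hB : ∀ (m : SL(2, ℤ)) (y : Y), sgM (m.1 * β y) ![1, 0] v0 =
      sg (m.1 *ᵥ (β y *ᵥ ![1, 0])) (m.1 *ᵥ (β y *ᵥ v0)) := by
    intro m y; simp only [sgM, Matrix.mulVec_mulVec]
  -- the pointwise identity
  have hpt : ∀ (x : X) (δ' : Γ'), isectTerm ![1, 0] v0 (g' x) (δ' : SL(2, ℤ)) =
      (Hq (mulγ (e (σ x, δ'))) - Hq (e (σ x, δ'))) + K2 (e (σ x, δ')) := by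
    intro x δ'
    set q : Y × Γ := e (σ x, δ') with hq
    have hn : (α (σ x)).adjugate * (δ' : SL(2, ℤ)).1 = (q.2 : SL(2, ℤ)).1 * β q.1 := he (σ x) δ'
    have hξ : ξ q = σ x := by
      show (e.symm q).1 = σ x
      rw [hq, Equiv.symm_apply_apply]
    have hadj : (α x).adjugate * (g' x).1 = γ.1 * (α (σ x)).adjugate := by
      have h1 := congrArg Matrix.adjugate (hdec x)
      rw [Matrix.adjugate_mul_distrib, Matrix.adjugate_mul_distrib,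
        ← Matrix.SpecialLinearGroup.coe_inv, ← Matrix.SpecialLinearGroup.coe_inv] at h1
      exact sl_conj_aux h1
    let δ'' : Γ' := ⟨g' x, hg' x⟩ * δ'
    have hq'' : e (x, δ'') = mulγ q := by
      have h1 := he x δ''
      have h3' : ((e (x, δ'')).2 : SL(2, ℤ)).1 * β (e (x, δ'')).1 =
          (γ * (q.2 : SL(2, ℤ))).1 * β q.1 := by
        rw [← h1]
        show (α x).adjugate * (g' x * (δ' : SL(2, ℤ))).1 = _
        rw [Matrix.SpecialLinearGroup.coe_mul (g' x) (δ' : SL(2, ℤ)), ← Matrix.mul_assoc, hadj,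
          Matrix.mul_assoc, hn, Matrix.SpecialLinearGroup.coe_mul γ (q.2 : SL(2, ℤ)),
          Matrix.mul_assoc]
      have hy : (e (x, δ'')).1 = q.1 :=
        hinj _ _ _ _ (e (x, δ'')).2.2 (Γ.mul_mem hγ q.2.2) h3'
      have hδ : ((e (x, δ'')).2 : SL(2, ℤ)) = γ * (q.2 : SL(2, ℤ)) := by
        rw [hy] at h3'
        exact Subtype.ext (mul_right_cancel_of_det (hβ q.1).ne' h3')
      exact Prod.ext (show (e (x, δ'')).1 = (mulγ q).1 from hy)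
        (Subtype.ext (show ((e (x, δ'')).2 : SL(2, ℤ)) = ((mulγ q).2 : SL(2, ℤ)) from hδ))
    have hξ'' : ξ (mulγ q) = x := by
      show (e.symm (mulγ q)).1 = x
      rw [← hq'', Equiv.symm_apply_apply]
    have hm_b : α (σ x) * ((q.2 : SL(2, ℤ)).1 * β q.1) = (α (σ x)).det • (δ' : SL(2, ℤ)).1 := by
      rw [← hn, ← Matrix.mul_assoc, Matrix.mul_adjugate, Matrix.smul_mul, Matrix.one_mul]
    have hm_a : α x * ((γ * (q.2 : SL(2, ℤ))).1 * β q.1) =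
        (α (σ x)).det • (g' x * (δ' : SL(2, ℤ))).1 := by
      rw [Matrix.SpecialLinearGroup.coe_mul γ (q.2 : SL(2, ℤ)), Matrix.mul_assoc, ← hn,
        ← Matrix.mul_assoc (α x), hdec x, Matrix.mul_assoc, ← Matrix.mul_assoc (α (σ x)),
        Matrix.mul_adjugate, Matrix.smul_mul, Matrix.one_mul, Matrix.mul_smul,
        Matrix.SpecialLinearGroup.coe_mul (g' x) (δ' : SL(2, ℤ))]
    have e1 : Hq (mulγ q) = sgM (α x * ((γ * (q.2 : SL(2, ℤ))).1 * β q.1)) ![1, 0] v0 -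
        sgM ((γ * (q.2 : SL(2, ℤ))).1 * β q.1) ![1, 0] v0 := by
      show sgM (α (ξ (mulγ q)) * _) _ _ - _ = _
      rw [hξ'']; rfl
    have e2 : Hq q = sgM (α (σ x) * ((q.2 : SL(2, ℤ)).1 * β q.1)) ![1, 0] v0 -
        sgM ((q.2 : SL(2, ℤ)).1 * β q.1) ![1, 0] v0 := by
      show sgM (α (ξ q) * _) _ _ - _ = _
      rw [hξ]
    have e3 : K2 q = sgM ((γ * (q.2 : SL(2, ℤ))).1 * β q.1) ![1, 0] v0 -
        sgM ((q.2 : SL(2, ℤ)).1 * β q.1) ![1, 0] v0 := by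
      simp only [K2, isectTerm, hB]
    rw [e1, e2, e3, hm_a, hm_b, sgM_smul (hα _).ne', sgM_smul (hα _).ne']
    simp only [isectTerm, sgM]
    ring
  -- the sums
  let E : X × Γ' ≃ Y × Γ := (Equiv.prodCongr σ (Equiv.refl Γ')).trans e
  let K : Y × Γ → ℤ := fun q => (Hq (mulγ q) - Hq q) + K2 q
  have hK1 : (Function.support fun q => Hq (mulγ q) - Hq q).Finite :=
    (hHγ.union hH).subset (Function.support_sub _ _)
  have hK : (Function.support K).Finite := (hK1.union hK2).subset (Function.support_add _ _)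
  have hKE : (Function.support fun p : X × Γ' => K (E p)).Finite :=
    (hK.preimage E.injective.injOn).subset (fun q hq => hq)
  have hL : ∀ x, ipair Γ' g₀ (g' x) = ∑ᶠ δ' : Γ', K (E (x, δ')) := by
    intro x
    simp only [ipair, isect]
    exact finsum_congr fun δ' => hpt x δ'
  calc ∑ x, ipair Γ' g₀ (g' x) = ∑ x, ∑ᶠ δ' : Γ', K (E (x, δ')) :=
        Finset.sum_congr rfl fun x _ => hL x
    _ = ∑ᶠ x, ∑ᶠ δ' : Γ', K (E (x, δ')) := (finsum_eq_sum_of_fintype _).symm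
    _ = ∑ᶠ p : X × Γ', K (E p) := (finsum_curry (fun p => K (E p)) hKE).symm
    _ = ∑ᶠ q, K q := finsum_comp_equiv E
    _ = ∑ᶠ q, (Hq (mulγ q) - Hq q) + ∑ᶠ q, K2 q := finsum_add_distrib hK1 hK2
    _ = ∑ᶠ q, K2 q := by
        rw [finsum_sub_distrib hHγ hH, finsum_comp_equiv mulγ, sub_self, zero_add]
    _ = ∑ᶠ y, ∑ᶠ δ : Γ, K2 (y, δ) := finsum_curry K2 hK2
    _ = ∑ y, ∑ᶠ δ : Γ, K2 (y, δ) := finsum_eq_sum_of_fintype _
    _ = ∑ y, isect Γ (β y *ᵥ ![1, 0]) (β y *ᵥ v0) γ := rfl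

end Adj

end Fermat.Agent.S41.H11
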