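import Mathlib
import Fermat.Agent.S41.IsectAdj_helper11
import Fermat.Agent.S41.IsectFin_helper69

/-!
# The intersection form, hypothesis-free (route C-I of S41)

`Isect_helper11` / `IsectAdj_helper11` carry the two finiteness statements of leaf I2 as
hypotheses `Fin2Stmt`, `Fin3Stmt`.  Here they are discharged by `H69.fin2`, `H69.fin3`
(`IsectFin_helper69`), and the exports are restated without hypotheses in the namespace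
`Fermat.Agent.S41.H11.Cl`.  Also: the adjunction in the literal binder shape posted on the
board, and the (trivial) left-slot parabolic vanishing.
-/

namespace Fermat.Agent.S41.H11

open Matrix MatrixGroups

/-- Leaf I2, first statement, discharged. -/
theorem fin2Stmt : Fin2Stmt := fun α hα d hd => H69.fin2 α hα d hd

/-- Leaf I2, second statement, discharged. -/
theorem fin3Stmt : Fin3Stmt := fun d₁ d₂ d₃ h₁ h₂ h₃ => H69.fin3 d₁ d₂ d₃ h₁ h₂ h₃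

/-- `isect_adj` in the literal binder shape of the board post (implicit `g₀` with a membership
hypothesis, which is not used). -/
theorem isect_adj_lit {X Y : Type*} [Fintype X] [Fintype Y]
    (h2 : Fin2Stmt) (h3 : Fin3Stmt) (Γ Γ' : Subgroup SL(2, ℤ))
    (α : X → Matrix (Fin 2) (Fin 2) ℤ) (β : Y → Matrix (Fin 2) (Fin 2) ℤ)
    (hα : ∀ x, 0 < (α x).det) (hβ : ∀ y, 0 < (β y).det)
    (e : X × Γ' ≃ Y × Γ)
    (he : ∀ (x : X) (δ' : Γ'), (α x).adjugate * (δ' : SL(2, ℤ)).1 =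
      ((e (x, δ')).2 : SL(2, ℤ)).1 * β (e (x, δ')).1)
    (hinj : ∀ (y₁ y₂ : Y) (δ₁ δ₂ : SL(2, ℤ)), δ₁ ∈ Γ → δ₂ ∈ Γ →
      δ₁.1 * β y₁ = δ₂.1 * β y₂ → y₁ = y₂)
    {γ : SL(2, ℤ)} (hγ : γ ∈ Γ) (σ : Equiv.Perm X) (g' : X → SL(2, ℤ)) (hg' : ∀ x, g' x ∈ Γ')
    (hdec : ∀ x, α x * γ.1 = (g' x).1 * α (σ x))
    {g₀ : SL(2, ℤ)} (_hg₀ : g₀ ∈ Γ') (τ : Equiv.Perm Y) (g : Y → SL(2, ℤ)) (hg : ∀ y, g y ∈ Γ)
    (hdec' : ∀ y, β y * g₀.1 = (g y).1 * β (τ y)) :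
    ∑ x, ipair Γ' g₀ (g' x) = ∑ y, ipair Γ (g y) γ :=
  isect_adj h2 h3 Γ Γ' α β hα hβ e he hinj hγ σ g' hg' hdec g₀ τ g hg hdec'

/-- Left-slot parabolic vanishing with the I2 hypotheses: if `g ∈ Γ` fixes a nonzero vector up to
sign, then `ipair Γ g γ = 0` for all `γ ∈ Γ`. -/
theorem ipair_eq_zero_of_fix_left (h2 : Fin2Stmt) (h3 : Fin3Stmt) (Γ : Subgroup SL(2, ℤ))
    {g : SL(2, ℤ)} (hg : g ∈ Γ) {γ : SL(2, ℤ)} (hγ : γ ∈ Γ) {v : Fin 2 → ℤ} (hv : v ≠ 0)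
    (hfix : g.1 *ᵥ v = v ∨ g.1 *ᵥ v = -v) : ipair Γ g γ = 0 := by
  have hge : g.1 *ᵥ ![1, 0] ≠ 0 := sl_mulVec_ne_zero g e1_ne_zero
  have e1 := isect_add h2 h3 Γ e1_ne_zero hv hge hγ
  have e2 : isect Γ v (g.1 *ᵥ ![1, 0]) γ = isect Γ (g.1 *ᵥ v) (g.1 *ᵥ ![1, 0]) γ := by
    rcases hfix with h | h
    · rw [h]
    · rw [h]
      have := isect_smul_left Γ (a := -1) (by norm_num) v (g.1 *ᵥ ![1, 0]) γ
      rw [← this]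
      congr 1
      simp
  simp only [ipair]
  rw [e1, e2, isect_inv Γ hg, isect_swap Γ ![1, 0] v γ]
  ring

namespace Cl

theorem isectTerm_support_finite (Γ : Subgroup SL(2, ℤ)) (u w : Fin 2 → ℤ) (γ : SL(2, ℤ)) :
    (Function.support fun δ : Γ => isectTerm u w γ (δ : SL(2, ℤ))).Finite :=
  H11.isectTerm_support_finite fin2Stmt Γ u w γ

theorem isect_mul (Γ : Subgroup SL(2, ℤ)) (u w : Fin 2 → ℤ) (γ₁ : SL(2, ℤ))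
    {γ₂ : SL(2, ℤ)} (hγ₂ : γ₂ ∈ Γ) :
    isect Γ u w (γ₁ * γ₂) = isect Γ u w γ₁ + isect Γ u w γ₂ :=
  H11.isect_mul fin2Stmt Γ u w γ₁ hγ₂

theorem isect_triangle (Γ : Subgroup SL(2, ℤ)) {u w v : Fin 2 → ℤ}
    (hu : u ≠ 0) (hw : w ≠ 0) (hv : v ≠ 0) {γ : SL(2, ℤ)} (hγ : γ ∈ Γ) :
    isect Γ u w γ + isect Γ w v γ + isect Γ v u γ = 0 :=
  H11.isect_triangle fin2Stmt fin3Stmt Γ hu hw hv hγ

theorem isect_add (Γ : Subgroup SL(2, ℤ)) {u w v : Fin 2 → ℤ}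
    (hu : u ≠ 0) (hw : w ≠ 0) (hv : v ≠ 0) {γ : SL(2, ℤ)} (hγ : γ ∈ Γ) :
    isect Γ u v γ = isect Γ u w γ + isect Γ w v γ :=
  H11.isect_add fin2Stmt fin3Stmt Γ hu hw hv hγ

/-- The intersection form is additive in the second slot. -/
theorem ipair_mul_right (Γ : Subgroup SL(2, ℤ)) (g γ₁ : SL(2, ℤ)) {γ₂ : SL(2, ℤ)}
    (hγ₂ : γ₂ ∈ Γ) : ipair Γ g (γ₁ * γ₂) = ipair Γ g γ₁ + ipair Γ g γ₂ :=
  H11.ipair_mul_right fin2Stmt Γ g γ₁ hγ₂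

/-- The intersection form is additive in the first slot. -/
theorem ipair_mul_left (Γ : Subgroup SL(2, ℤ)) {g₁ : SL(2, ℤ)}
    (hg₁ : g₁ ∈ Γ) (g₂ : SL(2, ℤ)) {γ : SL(2, ℤ)} (hγ : γ ∈ Γ) :
    ipair Γ (g₁ * g₂) γ = ipair Γ g₁ γ + ipair Γ g₂ γ :=
  H11.ipair_mul_left fin2Stmt fin3Stmt Γ hg₁ g₂ hγ

theorem ipair_inv_left (Γ : Subgroup SL(2, ℤ)) {g : SL(2, ℤ)}
    (hg : g ∈ Γ) {γ : SL(2, ℤ)} (hγ : γ ∈ Γ) : ipair Γ g⁻¹ γ = - ipair Γ g γ :=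
  H11.ipair_inv_left fin2Stmt fin3Stmt Γ hg hγ

theorem ipair_inv_right (Γ : Subgroup SL(2, ℤ)) (g : SL(2, ℤ)) {γ : SL(2, ℤ)} (hγ : γ ∈ Γ) :
    ipair Γ g γ⁻¹ = - ipair Γ g γ := by
  have := ipair_mul_right Γ g γ⁻¹ hγ
  rw [inv_mul_cancel, ipair_one_right] at this
  linarith

/-- The second-slot homomorphism `γ ↦ ⟨g, γ⟩_Γ`. -/
noncomputable def ipairHomRight (Γ : Subgroup SL(2, ℤ)) (g : SL(2, ℤ)) : Additive Γ →+ ℤ :=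
  isectHom fin2Stmt Γ ![1, 0] (g.1 *ᵥ ![1, 0])

@[simp] theorem ipairHomRight_apply (Γ : Subgroup SL(2, ℤ)) (g : SL(2, ℤ)) (γ : Γ) :
    ipairHomRight Γ g (Additive.ofMul γ) = ipair Γ g (γ : SL(2, ℤ)) := rfl

/-- The first-slot homomorphism `g ↦ ⟨g, γ⟩_Γ` (for `γ ∈ Γ`). -/
noncomputable def ipairHomLeft (Γ : Subgroup SL(2, ℤ)) (γ : Γ) : Additive Γ →+ ℤ where
  toFun g := ipair Γ ((Additive.toMul g : Γ) : SL(2, ℤ)) (γ : SL(2, ℤ))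
  map_zero' := ipair_one_left Γ _
  map_add' a b := ipair_mul_left Γ (Additive.toMul a : Γ).2 _ γ.2

@[simp] theorem ipairHomLeft_apply (Γ : Subgroup SL(2, ℤ)) (γ g : Γ) :
    ipairHomLeft Γ γ (Additive.ofMul g) = ipair Γ (g : SL(2, ℤ)) (γ : SL(2, ℤ)) := rfl

/-- Left-slot parabolic vanishing: if `g ∈ Γ` fixes a nonzero vector up to sign, then
`ipair Γ g γ = 0` for all `γ ∈ Γ`. -/
theorem ipair_eq_zero_of_fix_left (Γ : Subgroup SL(2, ℤ))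
    {g : SL(2, ℤ)} (hg : g ∈ Γ) {γ : SL(2, ℤ)} (hγ : γ ∈ Γ) {v : Fin 2 → ℤ} (hv : v ≠ 0)
    (hfix : g.1 *ᵥ v = v ∨ g.1 *ᵥ v = -v) : ipair Γ g γ = 0 :=
  H11.ipair_eq_zero_of_fix_left fin2Stmt fin3Stmt Γ hg hγ hv hfix

section Adj

variable {X Y : Type*} [Fintype X] [Fintype Y]

/-- The first-slot transfer formula. -/
theorem adj_rhs (Γ : Subgroup SL(2, ℤ))
    (β : Y → Matrix (Fin 2) (Fin 2) ℤ) (hβ : ∀ y, 0 < (β y).det)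
    {γ : SL(2, ℤ)} (hγ : γ ∈ Γ) (g₀ : SL(2, ℤ)) (τ : Equiv.Perm Y) (g : Y → SL(2, ℤ))
    (hg : ∀ y, g y ∈ Γ) (hdec' : ∀ y, β y * g₀.1 = (g y).1 * β (τ y)) :
    ∑ y, ipair Γ (g y) γ =
      ∑ y, isect Γ (β y *ᵥ ![1, 0]) (β y *ᵥ (g₀.1 *ᵥ ![1, 0])) γ :=
  H11.adj_rhs fin2Stmt fin3Stmt Γ β hβ hγ g₀ τ g hg hdec'

/-- **Adjunction for the intersection form**, hypothesis-free. -/
theorem isect_adj (Γ Γ' : Subgroup SL(2, ℤ))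
    (α : X → Matrix (Fin 2) (Fin 2) ℤ) (β : Y → Matrix (Fin 2) (Fin 2) ℤ)
    (hα : ∀ x, 0 < (α x).det) (hβ : ∀ y, 0 < (β y).det)
    (e : X × Γ' ≃ Y × Γ)
    (he : ∀ (x : X) (δ' : Γ'), (α x).adjugate * (δ' : SL(2, ℤ)).1 =
      ((e (x, δ')).2 : SL(2, ℤ)).1 * β (e (x, δ')).1)
    (hinj : ∀ (y₁ y₂ : Y) (δ₁ δ₂ : SL(2, ℤ)), δ₁ ∈ Γ → δ₂ ∈ Γ →
      δ₁.1 * β y₁ = δ₂.1 * β y₂ → y₁ = y₂)
    {γ : SL(2, ℤ)} (hγ : γ ∈ Γ) (σ : Equiv.Perm X) (g' : X → SL(2, ℤ)) (hg' : ∀ x, g' x ∈ Γ')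
    (hdec : ∀ x, α x * γ.1 = (g' x).1 * α (σ x))
    (g₀ : SL(2, ℤ)) (τ : Equiv.Perm Y) (g : Y → SL(2, ℤ)) (hg : ∀ y, g y ∈ Γ)
    (hdec' : ∀ y, β y * g₀.1 = (g y).1 * β (τ y)) :
    ∑ x, ipair Γ' g₀ (g' x) = ∑ y, ipair Γ (g y) γ :=
  H11.isect_adj fin2Stmt fin3Stmt Γ Γ' α β hα hβ e he hinj hγ σ g' hg' hdec g₀ τ g hg hdec'

end Adj

end Cl

end Fermat.Agent.S41.H11
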