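/-
S41 / node (C), route C-I, leaves (A1) + (A2) (helper6): the two adjunction leaves of
`CITop_helper39` for the concrete operators of `LevelOps_helper19`:

* `coresStmt  : H39.CoresStmt h2 hq hqN`  -- `cores ⟨g₀, ·⟩_Γ' = ⟨g₀, ·⟩_Γ`
* `coresWStmt : H39.CoresWStmt h2 hq hqN` -- `cores (w ⟨g₀, ·⟩_Γ') = ⟨ω⁻¹ g₀ ω, ·⟩_Γ`

from `H60.ipair_cores`, `H60.ipair_conj` and the closed adjunction theorem `H11.Cl.isect_adj`.
-/
import Fermat.Agent.S41.CITop_helper39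
import Fermat.Agent.S41.IsectAdjInst_helper60
import Fermat.Agent.S41.IsectClosed_helper11
import Fermat.Agent.S41.TransferGamma0_helper6
import Fermat.Agent.S41.HeckeAL_helper35

set_option autoImplicit false

namespace Fermat.Agent.S41.H06

open Matrix CongruenceSubgroup
open scoped MatrixGroups

universe u v

/-- The adjunction theorem of `IsectClosed_helper11`, as the `Prop` consumed by
`IsectAdjInst_helper60`. -/
theorem adjStmt_closed : H60.AdjStmt.{u, v} :=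
  fun _ _ _ _ Γ Γ' α β hα hβ e he hinj _ hγ σ g' hg' hdec g₀ _ τ g hg hdec' =>
    H11.Cl.isect_adj Γ Γ' α β hα hβ e he hinj hγ σ g' hg' hdec g₀ τ g hg hdec'

/-- The integer matrix of an element of `GL₂(ℝ)` is unique. -/
theorem IsInt.int_eq {A : GL (Fin 2) ℝ} {P Q : Matrix (Fin 2) (Fin 2) ℤ} (hP : IsInt A P)
    (hQ : IsInt A Q) : P = Q := by
  unfold IsInt at hP hQ
  have h := hP.symm.trans hQ
  ext i j
  have h1 := congrFun (congrFun h i) j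
  simpa using h1

/-- An identity between products in `GL₂(ℝ)` of integral elements is an identity of integer
matrices. -/
theorem int_mul_eq_of_isInt {A₁ A₂ B₁ B₂ : GL (Fin 2) ℝ}
    {P₁ P₂ Q₁ Q₂ : Matrix (Fin 2) (Fin 2) ℤ}
    (h₁ : IsInt A₁ P₁) (h₂ : IsInt A₂ P₂) (k₁ : IsInt B₁ Q₁) (k₂ : IsInt B₂ Q₂)
    (h : A₁ * A₂ = B₁ * B₂) : P₁ * P₂ = Q₁ * Q₂ :=
  (h₁.mul h₂).int_eq (h ▸ k₁.mul k₂)

/-- The integer matrix of the Atkin-Lehner element `H19.omega N q`. -/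
def omegaI (N q : ℕ) : Matrix (Fin 2) (Fin 2) ℤ :=
  !![(q : ℤ), H19.b0 N q; (q : ℤ) * N, (q : ℤ) * H19.d0 N q]

theorem isInt_omega {N q : ℕ} (hq : q.Prime) (hqN : ¬ q ∣ N) :
    IsInt (H19.omega N q) (omegaI N q) := by
  unfold IsInt
  rw [H19.omega, H19.G2_coe (H19.det_omega hq hqN)]
  ext i j
  fin_cases i <;> fin_cases j <;> simp [omegaI]

theorem det_omegaI {N q : ℕ} (hq : q.Prime) (hqN : ¬ q ∣ N) : (omegaI N q).det = q := by
  rw [omegaI, Matrix.det_fin_two_of]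
  linear_combination (q : ℤ) * H19.bez hq hqN

theorem isALMatrix_omega {N q : ℕ} (hq : q.Prime) (hqN : ¬ q ∣ N) :
    H35AL.IsALMatrix N q (H19.omega N q) := by
  have hI := isInt_omega hq hqN
  unfold IsInt at hI
  refine ⟨1, H19.b0 N q, 1, H19.d0 N q, by linear_combination H19.bez hq hqN, ?_, ?_, ?_, ?_⟩
  · have := congrFun (congrFun hI 0) 0
    simpa [omegaI] using this
  · have := congrFun (congrFun hI 0) 1
    simpa [omegaI] using this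
  · have := congrFun (congrFun hI 1) 0
    simpa [omegaI, mul_comm] using this
  · have := congrFun (congrFun hI 1) 1
    simpa [omegaI] using this

/-- `ω a = b ω` gives `adj(ω) b = a adj(ω)` (integer `2 × 2` matrices, `det ω ≠ 0`). -/
theorem adj_comm_of_comm {ω a b : Matrix (Fin 2) (Fin 2) ℤ} (hω : ω.det ≠ 0)
    (h : ω * a = b * ω) : ω.adjugate * b = a * ω.adjugate := by
  have h1 : ω.adjugate * (b * ω) * ω.adjugate = ω.adjugate * (ω * a) * ω.adjugate := by rw [h]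
  have h2 : ω.adjugate * (b * ω) * ω.adjugate = ω.det • (ω.adjugate * b) := by
    rw [Matrix.mul_assoc, Matrix.mul_assoc, Matrix.mul_adjugate, Matrix.mul_smul, Matrix.mul_smul,
      Matrix.mul_one]
  have h3 : ω.adjugate * (ω * a) * ω.adjugate = ω.det • (a * ω.adjugate) := by
    rw [← Matrix.mul_assoc, Matrix.adjugate_mul, Matrix.smul_mul, Matrix.smul_mul, Matrix.one_mul]
  rw [h2, h3] at h1
  exact smul_right_injective _ hω h1

/-- **(A1)** `cores ⟨g₀, ·⟩_{Γ₀(N q)} = ⟨g₀, ·⟩_{Γ₀(N)}`. -/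
theorem coresStmt (h2 : H11.Fin2Stmt) {N q : ℕ} (hq : q.Prime) (hqN : ¬ q ∣ N) :
    H39.CoresStmt h2 hq hqN := by
  intro g₀ γ
  obtain ⟨σ, g', hd⟩ := H19.isTrFam_cores hq hqN γ
  have h1 := tr_apply (H19.gl_injective (N * q)) (H19.isTrFam_cores hq hqN)
    (H39.zR h2 (Gamma0 (N * q)) (g₀ : SL(2, ℤ))) hd
  have h3 : H19.coresOp hq hqN (H39.zR h2 (Gamma0 (N * q)) (g₀ : SL(2, ℤ))) (Additive.ofMul γ)
      = ∑ x, H11.ipair (Gamma0 (N * q)) (g₀ : SL(2, ℤ)) ((g' x : Gamma0 (N * q)) : SL(2, ℤ)) :=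
    h1
  rw [h3]
  refine H60.ipair_cores adjStmt_closed (H19.Gamma0_mul_le N q)
    (fun x => ((H19.beta N q x : Gamma0 N) : SL(2, ℤ))) (fun x => (H19.beta N q x).2) ?_ ?_ γ.2 σ
    (fun x => ((g' x : Gamma0 (N * q)) : SL(2, ℤ))) (fun x => (g' x).2) ?_ g₀.2
  · intro δ hδ
    obtain ⟨y, k, hk⟩ := H19.cores_cover hq hqN ⟨δ, hδ⟩
    have e : (⟨δ, hδ⟩ : Gamma0 N) = H19.incl N q k * H19.beta N q y := by
      apply H19.gl_injective N
      rw [map_mul, H19.gl_incl]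
      exact hk
    exact ⟨y, (k : SL(2, ℤ)), k.2, congrArg Subtype.val e⟩
  · intro x y hxy
    refine H19.cores_inj hq hqN x y ⟨_, hxy⟩ ?_
    show H19.gl N (H19.beta N q x) = H19.gl (N * q) ⟨_, hxy⟩ * H19.gl N (H19.beta N q y)
    have e : H19.gl (N * q) ⟨_, hxy⟩
        = H19.gl N (H19.beta N q x) * (H19.gl N (H19.beta N q y))⁻¹ := by
      rw [← map_inv, ← map_mul]
      rfl
    rw [e, inv_mul_cancel_right]
  · intro x
    have hx := hd x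
    have e : H19.beta N q x * γ = H19.incl N q (g' x) * H19.beta N q (σ x) := by
      apply H19.gl_injective N
      rw [map_mul, map_mul, H19.gl_incl]
      exact hx
    exact congrArg Subtype.val e

/-- `w ⟨g₀, ·⟩_{Γ₀(N q)} = ⟨ω⁻¹ g₀ ω, ·⟩_{Γ₀(N q)}`. -/
theorem wOp_zR (h2 : H11.Fin2Stmt) {N q : ℕ} (hq : q.Prime) (hqN : ¬ q ∣ N)
    (g₀ g₁ : Gamma0 (N * q))
    (hω : H19.omega N q * H19.gl (N * q) g₁ = H19.gl (N * q) g₀ * H19.omega N q) :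
    H19.wOp hq hqN (H39.zR h2 (Gamma0 (N * q)) (g₀ : SL(2, ℤ)))
      = H39.zR h2 (Gamma0 (N * q)) (g₁ : SL(2, ℤ)) := by
  refine AddMonoidHom.ext fun k => ?_
  obtain ⟨k', hk'⟩ := H19.omega_conj hq hqN (Additive.toMul k)
  have h1 := tr_single_apply (H19.gl_injective (N * q)) (H19.isTrFam_w hq hqN)
    (H39.zR h2 (Gamma0 (N * q)) (g₀ : SL(2, ℤ))) hk'
  have h3 : H19.wOp hq hqN (H39.zR h2 (Gamma0 (N * q)) (g₀ : SL(2, ℤ))) k
      = H11.ipair (Gamma0 (N * q)) (g₀ : SL(2, ℤ)) (k' : SL(2, ℤ)) := h1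
  rw [h3]
  show _ = H11.ipair (Gamma0 (N * q)) (g₁ : SL(2, ℤ))
    ((Additive.toMul k : Gamma0 (N * q)) : SL(2, ℤ))
  have hdet : (omegaI N q).det ≠ 0 := by
    rw [det_omegaI hq hqN]
    exact_mod_cast hq.ne_zero
  have hpos : 0 < (omegaI N q).det := by
    rw [det_omegaI hq hqN]
    exact_mod_cast hq.pos
  have hI := isInt_omega hq hqN
  refine H60.ipair_conj adjStmt_closed (Gamma0 (N * q)) (Gamma0 (N * q)) (omegaI N q) hpos ?_ ?_
    (Additive.toMul k).2 k'.2 ?_ g₀.2 g₁.2 ?_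
  · intro δ' hδ'
    obtain ⟨δ, hδ⟩ := (isALMatrix_omega hq hqN).exists_conj' ⟨δ', hδ'⟩
    refine ⟨δ, δ.2, adj_comm_of_comm hdet ?_⟩
    exact int_mul_eq_of_isInt hI (isInt_coe (δ : SL(2, ℤ))) (isInt_coe δ') hI hδ.symm
  · intro δ hδ
    obtain ⟨δ', hδ'⟩ := H19.omega_conj hq hqN ⟨δ, hδ⟩
    refine ⟨δ', δ'.2, adj_comm_of_comm hdet ?_⟩
    exact int_mul_eq_of_isInt hI (isInt_gl (N * q) ⟨δ, hδ⟩) (isInt_gl (N * q) δ') hI hδ'
  · exact int_mul_eq_of_isInt hI (isInt_gl (N * q) (Additive.toMul k)) (isInt_gl (N * q) k') hI hk'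
  · exact adj_comm_of_comm hdet
      (int_mul_eq_of_isInt hI (isInt_gl (N * q) g₁) (isInt_gl (N * q) g₀) hI hω)

/-- **(A2)** `cores (w ⟨g₀, ·⟩_{Γ₀(N q)}) = ⟨ω⁻¹ g₀ ω, ·⟩_{Γ₀(N)}`. -/
theorem coresWStmt (h2 : H11.Fin2Stmt) {N q : ℕ} (hq : q.Prime) (hqN : ¬ q ∣ N) :
    H39.CoresWStmt h2 hq hqN := by
  intro g₀ g₁ hω γ
  rw [wOp_zR h2 hq hqN g₀ g₁ hω]
  exact coresStmt h2 hq hqN g₁ γ

end Fermat.Agent.S41.H06
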