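import Mathlib
import Fermat.Agent.S22.HeckeDecomp_helper56
import Fermat.Agent.S29.CosetReps_helper36
import Fermat.Agent.S29.TransferHom_helper6
import Fermat.Agent.S41.Transfer_helper6

/-!
# S41, node (B5) (helper36): the Hecke transfers `T_ℓ` commute with `res`, `cores` and `w`

In helper6's transfer calculus (`S41.H06.tr`), for `ℓ` prime, `ℓ ∤ N * q`, with arbitrary
embeddings `ι : Γ₀(N) →* GL₂(ℝ)`, `ι' : Γ₀(Nq) →* GL₂(ℝ)` that are pointwise the standard coercion: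

* `tr_repT_res`   : `T_ℓ (res χ) = res (T_ℓ χ)`   (`res` = transfer along the family `{1}`);
* `tr_repT_cores` : `cores (T_ℓ ψ) = T_ℓ (cores ψ)` (`cores` = transfer along any complete
  irredundant system of representatives of `Γ₀(Nq) \ Γ₀(N)`);
* `tr_repT_al`    : `T_ℓ (w ψ) = w (T_ℓ ψ)`        (`w` = transfer along an Atkin-Lehner type
  matrix `ω = [[q x, y], [N q z, q t]]`, `q x t - N y z = 1`).

Tools: `hermite_prime` (Hermite normal form for integer matrices of prime determinant `ℓ` with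
lower left entry divisible by `M`, `ℓ ∤ M`), `isTrFam_repT`, `tr_congr_of_injective`.
-/

set_option autoImplicit false

namespace Fermat.Agent.S41.H36

open CongruenceSubgroup
open Fermat.Agent.S22 Fermat.Agent.S41.H06 Fermat.Agent.S29.H36.Reps
open scoped MatrixGroups

/-! ### Abstract calculus -/

/-- Two families indexed by finite types of the same cardinality, with an injective map `f` of
the index sets such that `β (f x) ∈ Γ' · α x`, define the same transfer. -/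
theorem tr_congr_of_injective {G Γ Γ' A X Y : Type*} [Group G] [Group Γ] [Group Γ']
    [AddCommGroup A] [Fintype X] [Fintype Y] {ι : Γ →* G} {ι' : Γ' →* G} {α : X → G} {β : Y → G}
    (hι' : Function.Injective ι') (hα : IsTrFam ι ι' α) (hβ : IsTrFam ι ι' β)
    (hcard : Fintype.card X = Fintype.card Y) (f : X → Y) (k : X → Γ')
    (hk : ∀ x, β (f x) = ι' (k x) * α x) (hf : Function.Injective f) :
    (tr hι' hβ : (Additive Γ' →+ A) →+ (Additive Γ →+ A)) = tr hι' hα := by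
  have hbij : Function.Bijective f :=
    (Fintype.bijective_iff_injective_and_card f).mpr ⟨hf, hcard⟩
  exact tr_congr hι' hα hβ (Equiv.ofBijective f hbij) k hk

/-! ### `Γ₀` bookkeeping -/

theorem gamma0_dvd_iff {M : ℕ} (g : SL(2, ℤ)) : g ∈ Gamma0 M ↔ (M : ℤ) ∣ g 1 0 := by
  rw [Gamma0_mem]
  exact ZMod.intCast_zmod_eq_zero_iff_dvd _ _

theorem gamma0_mul_le (N q : ℕ) : Gamma0 (N * q) ≤ Gamma0 N := by
  intro g hg
  rw [gamma0_dvd_iff] at hg ⊢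
  exact Dvd.dvd.trans (by push_cast; exact Dvd.intro _ rfl) hg

/-- The inclusion `Γ₀(Nq) → Γ₀(N)`. -/
def incl (N q : ℕ) : Gamma0 (N * q) →* Gamma0 N := Subgroup.inclusion (gamma0_mul_le N q)

@[simp] theorem coe_incl (N q : ℕ) (g : Gamma0 (N * q)) :
    ((incl N q g : Gamma0 N) : SL(2, ℤ)) = (g : SL(2, ℤ)) := rfl

/-- The standard representatives `repT ℓ` form a transfer family at every level prime to `ℓ`. -/
theorem isTrFam_repT {M ℓ : ℕ} (hℓ : ℓ.Prime) (hℓM : ¬ ℓ ∣ M) (ι : Gamma0 M →* GL (Fin 2) ℝ)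
    (hι : ∀ g : Gamma0 M, ι g = ((g : SL(2, ℤ)) : GL (Fin 2) ℝ)) :
    IsTrFam ι ι (H56.repT ℓ) := by
  intro γ
  obtain ⟨σ, g', hg', h⟩ := H56.repT_decomp hℓ hℓM (γ : SL(2, ℤ)) γ.2
  exact ⟨σ, fun x => ⟨g' x, hg' x⟩, fun x => by rw [hι, hι]; exact h x⟩

/-! ### Hermite normal form for prime determinant -/

/-- **Hermite normal form**: an integer matrix of prime determinant `ℓ` whose lower left entry is
divisible by `M` (`ℓ ∤ M`) lies in `Γ₀(M) · cosetMat ℓ y` for some index `y`. -/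
theorem hermite_prime {M ℓ : ℕ} (hℓ : ℓ.Prime) (hℓM : ¬ ℓ ∣ M) (B : Matrix (Fin 2) (Fin 2) ℤ)
    (hdet : B.det = ℓ) (hM : (M : ℤ) ∣ B 1 0) :
    ∃ (h : SL(2, ℤ)) (y : Option (Fin ℓ)), h ∈ Gamma0 M ∧
      B = (h : Matrix (Fin 2) (Fin 2) ℤ) * cosetMat ℓ y := by
  have hB : B = !![B 0 0, B 0 1; B 1 0, B 1 1] := Matrix.eta_fin_two B
  have hd : B 0 0 * B 1 1 - B 0 1 * B 1 0 = ℓ := by rw [← hdet, Matrix.det_fin_two]
  have hℓ0 : (ℓ : ℤ) ≠ 0 := by exact_mod_cast hℓ.ne_zero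
  have hcop : IsCoprime (M : ℤ) (ℓ : ℤ) :=
    (Nat.isCoprime_iff_coprime.mpr ((Nat.Prime.coprime_iff_not_dvd hℓ).mpr hℓM)).symm
  by_cases hA : (ℓ : ℤ) ∣ B 0 0 ∧ (ℓ : ℤ) ∣ B 1 0
  · obtain ⟨⟨a', ha'⟩, ⟨c', hc'⟩⟩ := hA
    have hdet' : a' * B 1 1 - B 0 1 * c' = 1 := by
      have h1 : (ℓ : ℤ) * (a' * B 1 1 - B 0 1 * c') = ℓ * 1 := by
        rw [ha', hc'] at hd
        linear_combination hd
      exact mul_left_cancel₀ hℓ0 h1
    have hMc : (M : ℤ) ∣ c' := by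
      have h1 : (M : ℤ) ∣ c' * ℓ := by
        rw [mul_comm, ← hc']
        exact hM
      exact hcop.dvd_of_dvd_mul_right h1
    refine ⟨mkSL a' (B 0 1) c' (B 1 1) hdet', none, mkSL_mem_Gamma0 M _ _ _ _ _ hMc, ?_⟩
    rw [coe_mkSL]
    show B = !![a', B 0 1; c', B 1 1] * !![(ℓ : ℤ), 0; 0, 1]
    rw [Matrix.mul_fin_two]
    conv_lhs => rw [hB]
    rw [ha', hc']
    congr 1
    simp [mul_comm]
  · have : Fact ℓ.Prime := ⟨hℓ⟩
    have hz : ((B 0 0 : ℤ) : ZMod ℓ) * ((B 1 1 : ℤ) : ZMod ℓ)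
        = ((B 0 1 : ℤ) : ZMod ℓ) * ((B 1 0 : ℤ) : ZMod ℓ) := by
      have h1 := congrArg (Int.cast : ℤ → ZMod ℓ) hd
      push_cast at h1
      rw [ZMod.natCast_self] at h1
      linear_combination h1
    obtain ⟨u, hu1, hu2⟩ : ∃ u : ZMod ℓ, ((B 0 1 : ℤ) : ZMod ℓ) = u * ((B 0 0 : ℤ) : ZMod ℓ) ∧
        ((B 1 1 : ℤ) : ZMod ℓ) = u * ((B 1 0 : ℤ) : ZMod ℓ) := by
      by_cases h0 : ((B 0 0 : ℤ) : ZMod ℓ) = 0
      · have h1 : ((B 1 0 : ℤ) : ZMod ℓ) ≠ 0 := by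
          intro h1
          exact hA ⟨(ZMod.intCast_zmod_eq_zero_iff_dvd _ _).mp h0,
            (ZMod.intCast_zmod_eq_zero_iff_dvd _ _).mp h1⟩
        refine ⟨((B 1 1 : ℤ) : ZMod ℓ) / ((B 1 0 : ℤ) : ZMod ℓ), ?_, ?_⟩
        · rw [h0, mul_zero]
          have h2 : ((B 0 1 : ℤ) : ZMod ℓ) * ((B 1 0 : ℤ) : ZMod ℓ) = 0 := by
            rw [← hz, h0, zero_mul]
          exact (mul_eq_zero.mp h2).resolve_right h1
        · rw [div_mul_cancel₀ _ h1]
      · refine ⟨((B 0 1 : ℤ) : ZMod ℓ) / ((B 0 0 : ℤ) : ZMod ℓ), ?_, ?_⟩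
        · rw [div_mul_cancel₀ _ h0]
        · rw [div_mul_eq_mul_div, eq_div_iff h0]
          linear_combination hz
    have hun : ((u.val : ℕ) : ZMod ℓ) = u := ZMod.natCast_zmod_val u
    have hlt : u.val < ℓ := ZMod.val_lt u
    obtain ⟨b', hb'⟩ : (ℓ : ℤ) ∣ B 0 1 - (u.val : ℤ) * B 0 0 := by
      rw [← ZMod.intCast_zmod_eq_zero_iff_dvd]
      push_cast
      rw [hun, hu1]
      ring
    obtain ⟨d', hd'⟩ : (ℓ : ℤ) ∣ B 1 1 - (u.val : ℤ) * B 1 0 := by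
      rw [← ZMod.intCast_zmod_eq_zero_iff_dvd]
      push_cast
      rw [hun, hu2]
      ring
    have hdet' : B 0 0 * d' - b' * B 1 0 = 1 := by
      have h1 : (ℓ : ℤ) * (B 0 0 * d' - b' * B 1 0) = ℓ * 1 := by
        linear_combination hd - B 0 0 * hd' + B 1 0 * hb'
      exact mul_left_cancel₀ hℓ0 h1
    refine ⟨mkSL (B 0 0) b' (B 1 0) d' hdet', some ⟨u.val, hlt⟩,
      mkSL_mem_Gamma0 M _ _ _ _ _ hM, ?_⟩
    rw [coe_mkSL]
    show B = !![B 0 0, b'; B 1 0, d'] * !![1, ((u.val : ℕ) : ℤ); 0, (ℓ : ℤ)]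
    rw [Matrix.mul_fin_two]
    conv_lhs => rw [hB]
    have e1 : B 0 1 = B 0 0 * (u.val : ℤ) + b' * ℓ := by linear_combination hb'
    have e2 : B 1 1 = B 1 0 * (u.val : ℤ) + d' * ℓ := by linear_combination hd'
    simp only [mul_one, mul_zero, add_zero]
    rw [← e1, ← e2]

section Levels

variable {N q ℓ : ℕ} {A : Type*} [AddCommGroup A]
variable (ι : Gamma0 N →* GL (Fin 2) ℝ) (ι' : Gamma0 (N * q) →* GL (Fin 2) ℝ)

/-! ### (5a): `T_ℓ ∘ res = res ∘ T_ℓ` -/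

/-- **(5a)** `T_ℓ (res χ) = res (T_ℓ χ)`. -/
theorem tr_repT_res
    (hι : ∀ g : Gamma0 N, ι g = ((g : SL(2, ℤ)) : GL (Fin 2) ℝ))
    (hι' : ∀ g : Gamma0 (N * q), ι' g = ((g : SL(2, ℤ)) : GL (Fin 2) ℝ))
    (hinj : Function.Injective ι) (hinj' : Function.Injective ι')
    (hres : IsTrFam ι' ι (fun _ : Unit => (1 : GL (Fin 2) ℝ)))
    (hT : IsTrFam ι ι (H56.repT ℓ)) (hT' : IsTrFam ι' ι' (H56.repT ℓ))
    (χ : Additive (Gamma0 N) →+ A) :
    tr hinj' hT' (tr hinj hres χ) = tr hinj hres (tr hinj hT χ) := by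
  have hone : ∀ g : Gamma0 (N * q), (1 : GL (Fin 2) ℝ) * ι' g = ι (incl N q g) * 1 := by
    intro g
    rw [one_mul, mul_one, hι, hι', coe_incl]
  refine AddMonoidHom.ext fun γ => ?_
  obtain ⟨σ, g', hd⟩ := hT' (Additive.toMul γ)
  have h1 := tr_apply hinj' hT' (tr hinj hres χ) hd
  simp only [ofMul_toMul] at h1
  rw [h1]
  have h2 : tr hinj hres (tr hinj hT χ) γ
      = tr hinj hT χ (Additive.ofMul (incl N q (Additive.toMul γ))) := by
    have := tr_single_apply hinj hres (tr hinj hT χ) (hone (Additive.toMul γ))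
    simpa only [ofMul_toMul] using this
  rw [h2]
  have hd' : IsDec ι ι (H56.repT ℓ) (incl N q (Additive.toMul γ)) σ
      (fun x => incl N q (g' x)) := by
    intro x
    have := hd x
    rw [hι', hι'] at this
    rw [hι, hι, coe_incl, coe_incl]
    exact this
  rw [tr_apply hinj hT χ hd']
  refine Finset.sum_congr rfl fun x _ => ?_
  exact tr_single_apply hinj hres χ (hone (g' x))

/-! ### (5b): `cores ∘ T_ℓ = T_ℓ ∘ cores` -/

/-- Lower left entry of `cosetMat ℓ y₁ * D = H * cosetMat ℓ y₂`: `M ∣ H₁₀` and `ℓ ∤ M` force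
`M ∣ D₁₀`. -/
theorem dvd_of_cosetMat_mul_eq {M : ℕ} (hℓ : ℓ.Prime) (hℓM : ¬ ℓ ∣ M)
    {y₁ y₂ : Option (Fin ℓ)} {D H : Matrix (Fin 2) (Fin 2) ℤ}
    (hE : cosetMat ℓ y₁ * D = H * cosetMat ℓ y₂) (hH : (M : ℤ) ∣ H 1 0) : (M : ℤ) ∣ D 1 0 := by
  have hcop : IsCoprime (M : ℤ) (ℓ : ℤ) :=
    (Nat.isCoprime_iff_coprime.mpr ((Nat.Prime.coprime_iff_not_dvd hℓ).mpr hℓM)).symm
  have h10 := congrFun (congrFun hE 1) 0
  rcases y₁ with _ | u₁ <;> rcases y₂ with _ | u₂ <;>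
    simp only [cosetMat, Matrix.mul_apply, Fin.sum_univ_two, Matrix.of_apply, Matrix.cons_val_zero,
      Matrix.cons_val_one, Matrix.cons_val', Matrix.cons_val_fin_one, zero_mul, one_mul,
      zero_add, mul_zero, add_zero, mul_one] at h10
  · rw [h10]
    exact Dvd.dvd.mul_right hH _
  · rw [h10]
    exact hH
  · have h1 : (M : ℤ) ∣ D 1 0 * ℓ := by
      rw [mul_comm, h10]
      exact Dvd.dvd.mul_right hH _
    exact hcop.dvd_of_dvd_mul_right h1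
  · have h1 : (M : ℤ) ∣ D 1 0 * ℓ := by
      rw [mul_comm, h10]
      exact hH
    exact hcop.dvd_of_dvd_mul_right h1

/-- **(5b)** `cores (T_ℓ ψ) = T_ℓ (cores ψ)`, for any complete irredundant system `k` of
representatives of `Γ₀(Nq) \ Γ₀(N)`. -/
theorem tr_repT_cores (hℓ : ℓ.Prime) (hℓNq : ¬ ℓ ∣ N * q)
    (hι : ∀ g : Gamma0 N, ι g = ((g : SL(2, ℤ)) : GL (Fin 2) ℝ))
    (hι' : ∀ g : Gamma0 (N * q), ι' g = ((g : SL(2, ℤ)) : GL (Fin 2) ℝ))
    (hinj : Function.Injective ι) (hinj' : Function.Injective ι')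
    {X : Type*} [Fintype X] (k : X → Gamma0 N)
    (hk : ∀ γ : Gamma0 N, ∃! x, ∃ h : Gamma0 (N * q),
      (γ : SL(2, ℤ)) = (h : SL(2, ℤ)) * (k x : SL(2, ℤ)))
    (hco : IsTrFam ι ι' (fun x => ι (k x)))
    (hT : IsTrFam ι ι (H56.repT ℓ)) (hT' : IsTrFam ι' ι' (H56.repT ℓ))
    (ψ : Additive (Gamma0 (N * q)) →+ A) :
    tr hinj' hco (tr hinj' hT' ψ) = tr hinj hT (tr hinj' hco ψ) := by
  classical
  have hP : IsTrFam ι ι' (fun p : X × Option (Fin ℓ) => H56.repT ℓ p.2 * ι (k p.1)) :=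
    hco.comp hT'
  have hQ : IsTrFam ι ι' (fun p : Option (Fin ℓ) × X => ι (k p.2) * H56.repT ℓ p.1) :=
    hT.comp hco
  rw [tr_comp hinj' hinj' hco hT' hP ψ, tr_comp hinj hinj' hT hco hQ ψ]
  choose σ g' hσ using fun x => hT (k x)
  choose x' hx' using fun p : X × Option (Fin ℓ) => (hk (g' p.1 p.2)).exists
  choose h hh using hx'
  have key : (tr hinj' hQ : (Additive (Gamma0 (N * q)) →+ A) →+ (Additive (Gamma0 N) →+ A))
      = tr hinj' hP := by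
    refine tr_congr_of_injective hinj' hP hQ (by simp [Fintype.card_prod, mul_comm])
      (fun p => (σ p.1 p.2, x' p)) (fun p => (h p)⁻¹) ?_ ?_
    · rintro ⟨x, y⟩
      show ι (k (x' (x, y))) * H56.repT ℓ (σ x y)
        = ι' ((h (x, y))⁻¹) * (H56.repT ℓ y * ι (k x))
      have e : ι (g' x y) = ι' (h (x, y)) * ι (k (x' (x, y))) := by
        rw [hι, hι, hι', hh (x, y), S29.H06.coe_mul_GL]
      rw [hσ x y, e, map_inv]
      group
    · rintro ⟨x₁, y₁⟩ ⟨x₂, y₂⟩ hf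
      simp only [Prod.mk.injEq] at hf
      obtain ⟨hy, hx⟩ := hf
      have e1 := hσ x₁ y₁
      have e2 := hσ x₂ y₂
      rw [← hy] at e2
      have e2' : H56.repT ℓ (σ x₁ y₁) = (ι (g' x₂ y₂))⁻¹ * (H56.repT ℓ y₂ * ι (k x₂)) := by
        rw [e2, inv_mul_cancel_left]
      have eGL : H56.repT ℓ y₁ * ι (k x₁ * (k x₂)⁻¹)
          = ι (g' x₁ y₁ * (g' x₂ y₂)⁻¹) * H56.repT ℓ y₂ := by
        rw [map_mul, map_inv, ← mul_assoc, e1, e2', map_mul, map_inv]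
        group
      rw [hι, hι] at eGL
      have eInt := (repT_mul_iff hℓ.ne_zero).mp eGL
      -- the right factor lies in `Γ₀(Nq)`
      have hH : (((g' x₁ y₁ * (g' x₂ y₂)⁻¹ : Gamma0 N) : SL(2, ℤ)))
          = (((h (x₁, y₁) * (h (x₂, y₂))⁻¹ : Gamma0 (N * q)) : SL(2, ℤ))) := by
        have a1 := hh (x₁, y₁)
        have a2 := hh (x₂, y₂)
        rw [← hx] at a2
        simp only at a1 a2
        rw [Subgroup.coe_mul, Subgroup.coe_inv, Subgroup.coe_mul, Subgroup.coe_inv, a1, a2]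
        group
      have hH10 : ((N * q : ℕ) : ℤ) ∣
          (((g' x₁ y₁ * (g' x₂ y₂)⁻¹ : Gamma0 N) : SL(2, ℤ)) : Matrix (Fin 2) (Fin 2) ℤ) 1 0 := by
        rw [hH]
        exact (gamma0_dvd_iff _).mp (h (x₁, y₁) * (h (x₂, y₂))⁻¹).2
      have hδ := dvd_of_cosetMat_mul_eq hℓ hℓNq eInt hH10
      have hδmem : ((k x₁ * (k x₂)⁻¹ : Gamma0 N) : SL(2, ℤ)) ∈ Gamma0 (N * q) :=
        (gamma0_dvd_iff _).mpr hδ
      have hxx : x₁ = x₂ := by
        refine (hk (k x₁)).unique ⟨1, by simp⟩ ⟨⟨_, hδmem⟩, ?_⟩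
        simp
      subst hxx
      have hyy : y₁ = y₂ := (σ x₁).injective hy
      rw [hyy]
  rw [key]

/-! ### (5c): `T_ℓ ∘ w = w ∘ T_ℓ` -/

/-- Conjugating an upper triangular integer matrix of determinant `ℓ` by an Atkin-Lehner type
matrix `W = [[q x, y], [N q z, q t]]` (`q x t - N y z = 1`) and reducing to Hermite form. -/
theorem al_conj_hermite (hℓ : ℓ.Prime) (hℓNq : ¬ ℓ ∣ N * q) (x y z t : ℤ)
    (hdet : (q : ℤ) * x * t - N * y * z = 1) (a b d : ℤ) (had : a * d = ℓ) :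
    ∃ (h₀ : Gamma0 (N * q)) (y' : Option (Fin ℓ)),
      !![a, b; 0, d] * !![(q : ℤ) * x, y; (N : ℤ) * q * z, (q : ℤ) * t]
        = !![(q : ℤ) * x, y; (N : ℤ) * q * z, (q : ℤ) * t]
          * (((h₀ : SL(2, ℤ)) : Matrix (Fin 2) (Fin 2) ℤ) * cosetMat ℓ y') := by
  set M : Matrix (Fin 2) (Fin 2) ℤ :=
    !![t * (a * q * x + b * N * q * z) - y * d * N * z, t * (a * y + b * q * t) - y * d * t;
      ((N * q : ℕ) : ℤ) * (z * (d * x - a * x - b * N * z)),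
      -(N * z * (a * y + b * q * t)) + q * x * d * t] with hMdef
  have hWM : !![a, b; 0, d] * !![(q : ℤ) * x, y; (N : ℤ) * q * z, (q : ℤ) * t]
      = !![(q : ℤ) * x, y; (N : ℤ) * q * z, (q : ℤ) * t] * M := by
    rw [hMdef]
    apply two_mul_two_eq
    · push_cast
      linear_combination (-(a * q * x) - b * N * q * z) * hdet
    · linear_combination (-(a * y) - b * q * t) * hdet
    · push_cast
      linear_combination (-(d * N * q * z)) * hdet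
    · linear_combination (-(d * q * t)) * hdet
  have hMdet : M.det = ℓ := by
    rw [hMdef, Matrix.det_fin_two_of, ← had]
    push_cast
    linear_combination (a * d * ((q : ℤ) * x * t - N * y * z + 1)) * hdet
  have hM10 : ((N * q : ℕ) : ℤ) ∣ M 1 0 := by
    rw [hMdef]
    exact Dvd.intro _ rfl
  obtain ⟨h₀, y', hh₀, hM⟩ := hermite_prime hℓ hℓNq M hMdet hM10
  exact ⟨⟨h₀, hh₀⟩, y', by rw [hWM, hM]⟩

/-- **(5c)** `T_ℓ (w ψ) = w (T_ℓ ψ)` for the transfer `w` along an Atkin-Lehner type matrix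
`ω = [[q x, y], [N q z, q t]]`, `q x t - N y z = 1`. -/
theorem tr_repT_al (hℓ : ℓ.Prime) (hℓNq : ¬ ℓ ∣ N * q)
    (hι' : ∀ g : Gamma0 (N * q), ι' g = ((g : SL(2, ℤ)) : GL (Fin 2) ℝ))
    (hinj' : Function.Injective ι')
    (ω : GL (Fin 2) ℝ) (x y z t : ℤ) (hdet : (q : ℤ) * x * t - N * y * z = 1)
    (hω : (ω : Matrix (Fin 2) (Fin 2) ℝ)
      = !![(q : ℝ) * x, (y : ℝ); (N : ℝ) * q * z, (q : ℝ) * t])
    (hw : IsTrFam ι' ι' (fun _ : Unit => ω)) (hT' : IsTrFam ι' ι' (H56.repT ℓ))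
    (ψ : Additive (Gamma0 (N * q)) →+ A) :
    tr hinj' hT' (tr hinj' hw ψ) = tr hinj' hw (tr hinj' hT' ψ) := by
  classical
  have hωW : (ω : Matrix (Fin 2) (Fin 2) ℝ)
      = (!![(q : ℤ) * x, y; (N : ℤ) * q * z, (q : ℤ) * t] :
          Matrix (Fin 2) (Fin 2) ℤ).map (algebraMap ℤ ℝ) := by
    rw [hω]
    ext i j
    fin_cases i <;> fin_cases j <;> simp
  -- `repT y * ω = ι' g * (ω * repT y')`
  have hstep : ∀ yy : Option (Fin ℓ), ∃ (g : Gamma0 (N * q)) (y' : Option (Fin ℓ)),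
      H56.repT ℓ yy * ω = ι' g * (ω * H56.repT ℓ y') := by
    intro yy
    obtain ⟨h₀, y', hE⟩ : ∃ (h₀ : Gamma0 (N * q)) (y' : Option (Fin ℓ)),
        cosetMat ℓ yy * !![(q : ℤ) * x, y; (N : ℤ) * q * z, (q : ℤ) * t]
          = !![(q : ℤ) * x, y; (N : ℤ) * q * z, (q : ℤ) * t]
            * (((h₀ : SL(2, ℤ)) : Matrix (Fin 2) (Fin 2) ℤ) * cosetMat ℓ y') := by
      rcases yy with _ | u
      · exact al_conj_hermite hℓ hℓNq x y z t hdet (ℓ : ℤ) 0 1 (mul_one _)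
      · exact al_conj_hermite hℓ hℓNq x y z t hdet 1 ((u : ℕ) : ℤ) (ℓ : ℤ) (one_mul _)
    have hGL : H56.repT ℓ yy * ω
        = ω * (((h₀ : SL(2, ℤ)) : GL (Fin 2) ℝ) * H56.repT ℓ y') := by
      apply Units.ext
      rw [Units.val_mul, Units.val_mul, Units.val_mul, val_repT hℓ.ne_zero, val_repT hℓ.ne_zero,
        hωW]
      have h1 := congrArg (fun M : Matrix (Fin 2) (Fin 2) ℤ => M.map (algebraMap ℤ ℝ)) hE
      simp only [Matrix.map_mul] at h1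
      exact h1
    obtain ⟨σ, g'', hd⟩ := hw h₀
    have hd1 : ω * ι' h₀ = ι' (g'' ()) * ω := hd ()
    refine ⟨g'' (), y', ?_⟩
    rw [hGL, ← mul_assoc, ← hι' h₀, hd1, mul_assoc]
  choose g y' hgy using hstep
  have hP : IsTrFam ι' ι' (fun p : Option (Fin ℓ) × Unit => ω * H56.repT ℓ p.1) :=
    hT'.comp hw
  have hQ : IsTrFam ι' ι' (fun p : Unit × Option (Fin ℓ) => H56.repT ℓ p.2 * ω) :=
    hw.comp hT'
  rw [tr_comp hinj' hinj' hT' hw hP ψ, tr_comp hinj' hinj' hw hT' hQ ψ]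
  have key : (tr hinj' hP :
      (Additive (Gamma0 (N * q)) →+ A) →+ (Additive (Gamma0 (N * q)) →+ A)) = tr hinj' hQ := by
    refine tr_congr_of_injective hinj' hQ hP (by simp [Fintype.card_prod, mul_comm])
      (fun p => (y' p.2, ())) (fun p => (g p.2)⁻¹) ?_ ?_
    · rintro ⟨⟨⟩, yy⟩
      show ω * H56.repT ℓ (y' yy) = ι' ((g yy)⁻¹) * (H56.repT ℓ yy * ω)
      rw [hgy yy, map_inv, inv_mul_cancel_left]
    · rintro ⟨⟨⟩, y₁⟩ ⟨⟨⟩, y₂⟩ hf
      simp only [Prod.mk.injEq, and_true] at hf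
      have e1 := hgy y₁
      have e2 := hgy y₂
      rw [← hf] at e2
      have e3 : ω * H56.repT ℓ (y' y₁) = (ι' (g y₂))⁻¹ * (H56.repT ℓ y₂ * ω) := by
        rw [e2, inv_mul_cancel_left]
      have e4 : ι' (g y₁ * (g y₂)⁻¹) * H56.repT ℓ y₂ = H56.repT ℓ y₁ := by
        have e5 : H56.repT ℓ y₁ * ω = ι' (g y₁ * (g y₂)⁻¹) * H56.repT ℓ y₂ * ω := by
          rw [e1, e3, map_mul, map_inv]
          group
        exact (mul_right_cancel e5).symm
      rw [hι'] at e4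
      have := (S29.H06.repT_eq_of_mul_eq hℓ.two_le _ _ _ e4).1
      rw [this]
  rw [key]

end Levels

end Fermat.Agent.S41.H36
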