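import Mathlib
import Fermat.Agent.S29.TransferDef_helper6
import Fermat.Agent.S41.HeckeComm_helper36
import Fermat.Agent.S41.IsectAdj_helper11

/-!
# S41, node (C), instance (SA) (helper36): `T_r` is self-adjoint for the intersection form

For `r` prime, `r ∤ N`, the integer matrices `cosetMat r x` (`x : Option (Fin r)`) of the standard
representatives of `T_r` satisfy the "mirror" property required by helper11's adjunction theorem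
`H11.isect_adj` with `Γ = Γ' = Γ₀(N)` and `α = β = cosetMat r`:

* `mirrorEquiv hr hrN : Option (Fin r) × Γ₀(N) ≃ Option (Fin r) × Γ₀(N)` with
  `adjugate (cosetMat r x) * δ' = (mirrorEquiv (x, δ')).2 * cosetMat r (mirrorEquiv (x, δ')).1`
  (`mirrorEquiv_spec`; existence is the Hermite normal form `hermite_prime`);
* `cosetMat_hinj` : the cosets `SL₂(ℤ) · cosetMat r y` are pairwise distinct;
* `ipair_hecke_sa` : `∑ x, ⟨g₀, g'_x⟩ = ∑ y, ⟨g_y, γ⟩` for decompositions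
  `cosetMat r x * γ = g'_x * cosetMat r (σ x)`, `cosetMat r y * g₀ = g_y * cosetMat r (τ y)`;
* `ipair_hecke_sa_decomp` : the same for decompositions in the landed `S29.H06.IsDecomp` shape;
* `heckeTr_sa` : in operator form, `(T_r ⟨g₀, ·⟩)(γ) = (T_r ⟨·, γ⟩)(g₀)` for the relation
  `S29.H06.IsHeckeTr` (so for `heckeTr` and for helper19's `tOp`).
-/

set_option autoImplicit false

namespace Fermat.Agent.S41.H36

open CongruenceSubgroup Matrix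
open Fermat.Agent.S22 Fermat.Agent.S29.H36.Reps Fermat.Agent.S41.H11
open scoped MatrixGroups

theorem cosetMat_det (ℓ : ℕ) (x : Option (Fin ℓ)) : (cosetMat ℓ x).det = (ℓ : ℤ) := by
  rcases x with _ | u
  · show (!![(ℓ : ℤ), 0; 0, 1] : Matrix (Fin 2) (Fin 2) ℤ).det = ℓ
    rw [Matrix.det_fin_two_of]; ring
  · show (!![1, ((u : ℕ) : ℤ); 0, (ℓ : ℤ)] : Matrix (Fin 2) (Fin 2) ℤ).det = ℓ
    rw [Matrix.det_fin_two_of]; ring

theorem cosetMat_one_zero (ℓ : ℕ) (x : Option (Fin ℓ)) : cosetMat ℓ x 1 0 = 0 := by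
  rcases x with _ | u <;> rfl

theorem adjugate_adjugate_two (A : Matrix (Fin 2) (Fin 2) ℤ) : A.adjugate.adjugate = A := by
  ext i j
  fin_cases i <;> fin_cases j <;> simp [Matrix.adjugate_fin_two]

/-- The cosets `SL₂(ℤ) · cosetMat ℓ y` are pairwise distinct. -/
theorem cosetMat_hinj {ℓ : ℕ} (hℓ : 2 ≤ ℓ) (y₁ y₂ : Option (Fin ℓ)) (δ₁ δ₂ : SL(2, ℤ))
    (h : δ₁.1 * cosetMat ℓ y₁ = δ₂.1 * cosetMat ℓ y₂) : y₁ = y₂ := by
  refine (cosetMat_index_eq hℓ (δ₂⁻¹ * δ₁) y₂ y₁ ?_).symm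
  rw [Matrix.SpecialLinearGroup.coe_mul, Matrix.mul_assoc, h, ← Matrix.mul_assoc,
    sl_coe_inv_mul, Matrix.one_mul]

/-- The lower left entry of `adjugate (cosetMat ℓ x) * D`. -/
theorem adjugate_cosetMat_mul_one_zero (ℓ : ℕ) (x : Option (Fin ℓ))
    (D : Matrix (Fin 2) (Fin 2) ℤ) :
    ((cosetMat ℓ x).adjugate * D) 1 0 = cosetMat ℓ x 0 0 * D 1 0 := by
  rw [Matrix.adjugate_fin_two, Matrix.mul_apply, Fin.sum_univ_two, cosetMat_one_zero]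
  simp

/-- Existence of the mirror coset: `adjugate (cosetMat ℓ x) * δ' ∈ Γ₀(M) · cosetMat ℓ y`. -/
theorem exists_mirror {M ℓ : ℕ} (hℓ : ℓ.Prime) (hℓM : ¬ ℓ ∣ M) (x : Option (Fin ℓ))
    (δ' : Gamma0 M) :
    ∃ p : Option (Fin ℓ) × Gamma0 M,
      (cosetMat ℓ x).adjugate * (δ' : SL(2, ℤ)).1 = ((p.2 : SL(2, ℤ))).1 * cosetMat ℓ p.1 := by
  have hdet : ((cosetMat ℓ x).adjugate * (δ' : SL(2, ℤ)).1).det = (ℓ : ℤ) := by
    rw [Matrix.det_mul, Matrix.det_adjugate, cosetMat_det, (δ' : SL(2, ℤ)).2]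
    simp
  have hM : (M : ℤ) ∣ ((cosetMat ℓ x).adjugate * (δ' : SL(2, ℤ)).1) 1 0 := by
    rw [adjugate_cosetMat_mul_one_zero]
    exact Dvd.dvd.mul_left ((gamma0_dvd_iff _).mp δ'.2) _
  obtain ⟨h, y, hh, hB⟩ := hermite_prime hℓ hℓM _ hdet hM
  exact ⟨(y, ⟨h, hh⟩), hB⟩

/-- The mirror map `(x, δ') ↦ (y, δ)` with `adjugate (cosetMat ℓ x) * δ' = δ * cosetMat ℓ y`. -/
noncomputable def mirrorFun {M ℓ : ℕ} (hℓ : ℓ.Prime) (hℓM : ¬ ℓ ∣ M)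
    (p : Option (Fin ℓ) × Gamma0 M) : Option (Fin ℓ) × Gamma0 M :=
  Classical.choose (exists_mirror hℓ hℓM p.1 p.2)

theorem mirrorFun_spec {M ℓ : ℕ} (hℓ : ℓ.Prime) (hℓM : ¬ ℓ ∣ M) (x : Option (Fin ℓ))
    (δ' : Gamma0 M) :
    (cosetMat ℓ x).adjugate * (δ' : SL(2, ℤ)).1 =
      (((mirrorFun hℓ hℓM (x, δ')).2 : SL(2, ℤ))).1 * cosetMat ℓ (mirrorFun hℓ hℓM (x, δ')).1 :=
  Classical.choose_spec (exists_mirror hℓ hℓM x δ')

theorem cosetMat_det_ne_zero {ℓ : ℕ} (hℓ : ℓ.Prime) (x : Option (Fin ℓ)) :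
    (cosetMat ℓ x).det ≠ 0 := by
  rw [cosetMat_det]
  exact_mod_cast hℓ.ne_zero

/-- Uniqueness on the right: `δ₁ * cosetMat ℓ y₁ = δ₂ * cosetMat ℓ y₂` forces equal data. -/
theorem cosetMat_mul_unique {ℓ : ℕ} (hℓ : ℓ.Prime) {y₁ y₂ : Option (Fin ℓ)} {δ₁ δ₂ : SL(2, ℤ)}
    (h : δ₁.1 * cosetMat ℓ y₁ = δ₂.1 * cosetMat ℓ y₂) : y₁ = y₂ ∧ δ₁ = δ₂ := by
  have hy : y₁ = y₂ := cosetMat_hinj hℓ.two_le y₁ y₂ δ₁ δ₂ h
  subst hy
  exact ⟨rfl, Subtype.ext (mul_right_cancel_of_det (cosetMat_det_ne_zero hℓ y₁) h)⟩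

/-- Uniqueness on the left: `adjugate (cosetMat ℓ x₁) * δ₁ = adjugate (cosetMat ℓ x₂) * δ₂`
forces equal data. -/
theorem adjugate_cosetMat_mul_unique {ℓ : ℕ} (hℓ : ℓ.Prime) {x₁ x₂ : Option (Fin ℓ)}
    {δ₁ δ₂ : SL(2, ℤ)}
    (h : (cosetMat ℓ x₁).adjugate * δ₁.1 = (cosetMat ℓ x₂).adjugate * δ₂.1) :
    x₁ = x₂ ∧ δ₁ = δ₂ := by
  have h1 := congrArg Matrix.adjugate h
  rw [Matrix.adjugate_mul_distrib, Matrix.adjugate_mul_distrib, adjugate_adjugate_two,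
    adjugate_adjugate_two, ← Matrix.SpecialLinearGroup.coe_inv,
    ← Matrix.SpecialLinearGroup.coe_inv] at h1
  obtain ⟨hx, hδ⟩ := cosetMat_mul_unique hℓ h1
  exact ⟨hx, inv_injective hδ⟩

theorem mirrorFun_injective {M ℓ : ℕ} (hℓ : ℓ.Prime) (hℓM : ¬ ℓ ∣ M) :
    Function.Injective (mirrorFun (M := M) hℓ hℓM) := by
  rintro ⟨x₁, δ₁⟩ ⟨x₂, δ₂⟩ h
  have e1 := mirrorFun_spec hℓ hℓM x₁ δ₁
  have e2 := mirrorFun_spec hℓ hℓM x₂ δ₂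
  rw [h] at e1
  obtain ⟨hx, hδ⟩ := adjugate_cosetMat_mul_unique hℓ (e1.trans e2.symm)
  exact Prod.ext hx (Subtype.ext hδ)

theorem mirrorFun_surjective {M ℓ : ℕ} (hℓ : ℓ.Prime) (hℓM : ¬ ℓ ∣ M) :
    Function.Surjective (mirrorFun (M := M) hℓ hℓM) := by
  rintro ⟨y, δ⟩
  -- Hermite normal form of `adjugate (δ * cosetMat ℓ y) = adjugate (cosetMat ℓ y) * δ⁻¹`
  obtain ⟨⟨x, h⟩, hx⟩ := exists_mirror hℓ hℓM y δ⁻¹
  -- hence `adjugate (cosetMat ℓ x) * h⁻¹ = δ * cosetMat ℓ y`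
  have h1 := congrArg Matrix.adjugate hx
  rw [Matrix.adjugate_mul_distrib, Matrix.adjugate_mul_distrib, adjugate_adjugate_two] at h1
  have h2 : (cosetMat ℓ x).adjugate * ((h⁻¹ : Gamma0 M) : SL(2, ℤ)).1 =
      (δ : SL(2, ℤ)).1 * cosetMat ℓ y := by
    have e1 : ((h⁻¹ : Gamma0 M) : SL(2, ℤ)).1 = ((h : SL(2, ℤ)).1).adjugate := by
      rw [Subgroup.coe_inv, Matrix.SpecialLinearGroup.coe_inv]
    have e2 : (((δ⁻¹ : Gamma0 M) : SL(2, ℤ)).1).adjugate = (δ : SL(2, ℤ)).1 := by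
      rw [Subgroup.coe_inv, Matrix.SpecialLinearGroup.coe_inv, adjugate_adjugate_two]
    rw [e1, ← h1, e2]
  refine ⟨(x, h⁻¹), ?_⟩
  have e3 := mirrorFun_spec hℓ hℓM x h⁻¹
  obtain ⟨hy, hδ⟩ := cosetMat_mul_unique hℓ (e3.symm.trans h2)
  exact Prod.ext hy (Subtype.ext hδ)

/-- **The mirror bijection** of the `T_ℓ`-cosets of `Γ₀(M)`, `ℓ ∤ M`: the hypothesis `e` of
`H11.isect_adj` for `Γ = Γ' = Γ₀(M)`, `α = β = cosetMat ℓ`. -/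
noncomputable def mirrorEquiv {M ℓ : ℕ} (hℓ : ℓ.Prime) (hℓM : ¬ ℓ ∣ M) :
    Option (Fin ℓ) × Gamma0 M ≃ Option (Fin ℓ) × Gamma0 M :=
  Equiv.ofBijective (mirrorFun hℓ hℓM) ⟨mirrorFun_injective hℓ hℓM, mirrorFun_surjective hℓ hℓM⟩

theorem mirrorEquiv_spec {M ℓ : ℕ} (hℓ : ℓ.Prime) (hℓM : ¬ ℓ ∣ M) (x : Option (Fin ℓ))
    (δ' : Gamma0 M) :
    (cosetMat ℓ x).adjugate * (δ' : SL(2, ℤ)).1 =
      (((mirrorEquiv hℓ hℓM (x, δ')).2 : SL(2, ℤ))).1 *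
        cosetMat ℓ (mirrorEquiv hℓ hℓM (x, δ')).1 :=
  mirrorFun_spec hℓ hℓM x δ'

/-- **(SA)**: `T_r` is self-adjoint for the intersection form of `Γ₀(N)` (`r` prime, `r ∤ N`),
for arbitrary decompositions along the integer matrices `cosetMat r`. -/
theorem ipair_hecke_sa (h2 : Fin2Stmt) (h3 : Fin3Stmt) {N r : ℕ} (hr : r.Prime) (hrN : ¬ r ∣ N)
    {γ : SL(2, ℤ)} (hγ : γ ∈ Gamma0 N) (g₀ : SL(2, ℤ))
    (σ τ : Equiv.Perm (Option (Fin r))) (g' g : Option (Fin r) → SL(2, ℤ))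
    (hg' : ∀ x, g' x ∈ Gamma0 N) (hg : ∀ y, g y ∈ Gamma0 N)
    (hdec : ∀ x, cosetMat r x * γ.1 = (g' x).1 * cosetMat r (σ x))
    (hdec' : ∀ y, cosetMat r y * g₀.1 = (g y).1 * cosetMat r (τ y)) :
    ∑ x, ipair (Gamma0 N) g₀ (g' x) = ∑ y, ipair (Gamma0 N) (g y) γ := by
  have hpos : ∀ x, 0 < (cosetMat r x).det := fun x => by
    rw [cosetMat_det]; exact_mod_cast hr.pos
  exact isect_adj h2 h3 (Gamma0 N) (Gamma0 N) (cosetMat r) (cosetMat r) hpos hpos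
    (mirrorEquiv hr hrN) (mirrorEquiv_spec hr hrN)
    (fun y₁ y₂ δ₁ δ₂ _ _ h => cosetMat_hinj hr.two_le y₁ y₂ δ₁ δ₂ h)
    hγ σ g' hg' hdec g₀ τ g hg hdec'

/-- **(SA)** for decompositions in the landed `S29.H06.IsDecomp` shape. -/
theorem ipair_hecke_sa_decomp (h2 : Fin2Stmt) (h3 : Fin3Stmt) {N r : ℕ} (hr : r.Prime)
    (hrN : ¬ r ∣ N) (γ g₀ : Gamma0 N)
    {σ τ : Equiv.Perm (Option (Fin r))} {g' g : Option (Fin r) → Gamma0 N}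
    (hdec : S29.H06.IsDecomp N r γ σ g') (hdec' : S29.H06.IsDecomp N r g₀ τ g) :
    ∑ x, ipair (Gamma0 N) (g₀ : SL(2, ℤ)) (g' x : SL(2, ℤ)) =
      ∑ y, ipair (Gamma0 N) (g y : SL(2, ℤ)) (γ : SL(2, ℤ)) :=
  ipair_hecke_sa h2 h3 hr hrN γ.2 (g₀ : SL(2, ℤ)) σ τ (fun x => (g' x : SL(2, ℤ)))
    (fun y => (g y : SL(2, ℤ))) (fun x => (g' x).2) (fun y => (g y).2)
    (fun x => (repT_mul_iff hr.ne_zero).mp (hdec x))
    (fun y => (repT_mul_iff hr.ne_zero).mp (hdec' y))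

/-- **(SA), operator form**: if `z` is the second-slot functional `⟨g₀, ·⟩` and `φ` is the
first-slot functional `⟨·, γ⟩` of the intersection form of `Γ₀(N)`, then
`(T_r z)(γ) = (T_r φ)(g₀)` for the Hecke transfers in the sense of `S29.H06.IsHeckeTr`. -/
theorem heckeTr_sa (h2 : Fin2Stmt) (h3 : Fin3Stmt) {N r : ℕ} (hr : r.Prime) (hrN : ¬ r ∣ N)
    (γ g₀ : Gamma0 N) {z z' φ φ' : Additive (Gamma0 N) →+ ℤ}
    (hz : ∀ δ : Gamma0 N, z (Additive.ofMul δ) = ipair (Gamma0 N) (g₀ : SL(2, ℤ)) (δ : SL(2, ℤ)))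
    (hφ : ∀ δ : Gamma0 N, φ (Additive.ofMul δ) = ipair (Gamma0 N) (δ : SL(2, ℤ)) (γ : SL(2, ℤ)))
    (hz' : S29.H06.IsHeckeTr N r z z') (hφ' : S29.H06.IsHeckeTr N r φ φ') :
    z' (Additive.ofMul γ) = φ' (Additive.ofMul g₀) := by
  obtain ⟨σ, g', hdec⟩ := S29.H06.exists_isDecomp hr hrN γ
  obtain ⟨τ, g, hdec'⟩ := S29.H06.exists_isDecomp hr hrN g₀
  rw [hz' γ σ g' hdec, hφ' g₀ τ g hdec']
  simp only [hz, hφ]
  exact ipair_hecke_sa_decomp h2 h3 hr hrN γ g₀ hdec hdec'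

end Fermat.Agent.S41.H36
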