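import Mathlib
import Fermat.Agent.S29.TransferHom_helper6
import Fermat.Agent.S41.HeckeMirror_helper36
import Fermat.Agent.S41.CITop_helper39

/-!
# S41, node (C), route C-I, leaf (SA) closed (helper36)

`saStmt : H39.SAStmt h2 h3 hr hrN` - the literal leaf `SAStmt` of helper39's `hkey_concrete`
(`T_r` in the first slot of the intersection form of `Γ₀(N)` is `T_r` in the second slot), from
`H36.heckeTr_sa` (mirror bijection of the `T_r`-cosets + helper11's adjunction theorem).
-/

set_option autoImplicit false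

namespace Fermat.Agent.S41.H36

open CongruenceSubgroup
open Fermat.Agent
open scoped MatrixGroups

/-- **Leaf (SA) of route C-I**, in helper39's literal shape. -/
theorem saStmt (h2 : H11.Fin2Stmt) (h3 : H11.Fin3Stmt) {N r : ℕ} (hr : r.Prime)
    (hrN : ¬ r ∣ N) : H39.SAStmt h2 h3 hr hrN := fun g₀ γ =>
  (heckeTr_sa h2 h3 hr hrN γ g₀
    (z := H39.zR h2 (Gamma0 N) (g₀ : SL(2, ℤ))) (φ := H39.zL h2 h3 (Gamma0 N) γ)
    (fun δ => H39.zR_apply h2 (Gamma0 N) (g₀ : SL(2, ℤ)) δ)
    (fun δ => H39.zL_apply h2 h3 (Gamma0 N) γ δ)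
    (S29.H06.isHeckeTr_heckeTr hr hrN _) (S29.H06.isHeckeTr_heckeTr hr hrN _)).symm

end Fermat.Agent.S41.H36
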