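/-
S41 / node (C) CLOSED, route C-I (helper6): the six leaf `Prop`s of `CITop_helper39` are all
theorems on main, so the dual of Ihara's lemma holds unconditionally:

* `gDual` : the unbundled contract (G-DUAL) of the top assembly;
* `hDual_lat` : `hDual` of `H71.lr_core` on the parabolic lattices, for any module structures.

Leaves: `H69.parRStmt`, `H69.parLStmt` (PAR), `H06.coresStmt`, `H06.coresWStmt` (ADJ for
cores / cores ∘ w), `H36.saStmt` (SA), `H27.injRStmt` (INJ).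
-/
import Fermat.Agent.S41.COut_helper77
import Fermat.Agent.S41.CILeafPar_helper69
import Fermat.Agent.S41.CILeafInj_helper27
import Fermat.Agent.S41.SAClosed_helper36
import Fermat.Agent.S41.IsectCoresInst_helper6

set_option autoImplicit false

namespace Fermat.Agent.S41.H06

open CongruenceSubgroup ModularCurve.Period
open scoped MatrixGroups

/-- **(G-DUAL), closed**: the dual of Ihara's lemma for `Γ₀(N q) ⊆ Γ₀(N)` and the Hecke
operator `T_r - (r + 1)`, `r ∤ N` prime, modulo an odd prime `p`. -/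
theorem gDual {N q p r : ℕ} (hN : 0 < N) (hq : q.Prime) (hqN : ¬ q ∣ N) (hp : p.Prime)
    (hp2 : p ≠ 2) (hr : r.Prime) (hrN : ¬ r ∣ N) :
    ∀ x y : Additive (Gamma0 N) →+ ℤ, IsParabolicHom (Gamma0 N) x → IsParabolicHom (Gamma0 N) y →
      ∃ (z : Additive (Gamma0 (N * q)) →+ ℤ) (v₁ v₂ : Additive (Gamma0 N) →+ ℤ),
        IsParabolicHom (Gamma0 (N * q)) z ∧ IsParabolicHom (Gamma0 N) v₁ ∧
        IsParabolicHom (Gamma0 N) v₂ ∧
        Fermat.Agent.S29.H06.heckeTr hr hrN x - (r + 1) • x = H19.coresOp hq hqN z + p • v₁ ∧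
        Fermat.Agent.S29.H06.heckeTr hr hrN y - (r + 1) • y =
          H19.coresOp hq hqN (H19.wOp hq hqN z) + p • v₂ :=
  H77.gdual_of_leaves H11.fin2Stmt H11.fin3Stmt hN hq hqN hp hp2 hr hrN
    (H69.parRStmt (N * q)) (H69.parLStmt N) (coresStmt H11.fin2Stmt hq hqN)
    (coresWStmt H11.fin2Stmt hq hqN) (H36.saStmt H11.fin2Stmt H11.fin3Stmt hr hrN)
    (H27.injRStmt N p hp hp2)

/-- **`hDual` of `H71.lr_core`, closed**, on the parabolic lattices with arbitrary `R`-module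
structures: `j = (cores, cores ∘ w)`, `r₁ = T_r - (r + 1)`. -/
theorem hDual_lat {R : Type*} [CommRing R] {N q p r : ℕ}
    [Module R (parabolicHoms ℤ (Gamma0 N) ℤ)] [Module R (parabolicHoms ℤ (Gamma0 (N * q)) ℤ)]
    (hN : 0 < N) (hq : q.Prime) (hqN : ¬ q ∣ N) (hp : p.Prime) (hp2 : p ≠ 2)
    (hr : r.Prime) (hrN : ¬ r ∣ N)
    (j : parabolicHoms ℤ (Gamma0 (N * q)) ℤ →ₗ[R]
      parabolicHoms ℤ (Gamma0 N) ℤ × parabolicHoms ℤ (Gamma0 N) ℤ)
    (hj1 : ∀ z, ((j z).1 : Additive (Gamma0 N) →+ ℤ) =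
      H19.coresOp hq hqN (z : Additive (Gamma0 (N * q)) →+ ℤ))
    (hj2 : ∀ z, ((j z).2 : Additive (Gamma0 N) →+ ℤ) =
      H19.coresOp hq hqN (H19.wOp hq hqN (z : Additive (Gamma0 (N * q)) →+ ℤ)))
    (r₁ : R)
    (hr₁ : ∀ x : parabolicHoms ℤ (Gamma0 N) ℤ,
      ((r₁ • x : parabolicHoms ℤ (Gamma0 N) ℤ) : Additive (Gamma0 N) →+ ℤ) =
        Fermat.Agent.S29.H06.heckeTr hr hrN (x : Additive (Gamma0 N) →+ ℤ) -
          (r + 1) • (x : Additive (Gamma0 N) →+ ℤ)) :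
    ∀ u : parabolicHoms ℤ (Gamma0 N) ℤ × parabolicHoms ℤ (Gamma0 N) ℤ,
      ∃ (y : parabolicHoms ℤ (Gamma0 (N * q)) ℤ)
        (v : parabolicHoms ℤ (Gamma0 N) ℤ × parabolicHoms ℤ (Gamma0 N) ℤ),
        r₁ • u = j y + (p : ℤ) • v :=
  H77.hDual_lat_of_gdual hq hqN hr hrN j hj1 hj2 r₁ hr₁ (gDual hN hq hqN hp hp2 hr hrN)

end Fermat.Agent.S41.H06
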