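import Mathlib
import Fermat.Prelude.Def_ModularCurve_PeriodHomPair
import Fermat.Prelude.Def_ModularForm_HeckeOperatorForms
import Fermat.Prelude.Def_CuspForm_HeckeAlgebra
import Fermat.Prelude.Def_FreyPackage_LevelRaising
import Fermat.Agent.S21
import Fermat.Agent.S21.Prim_helper25
import Fermat.Agent.S21.Injective_helper25
import Fermat.Agent.S21.Bound_helper25
import Fermat.Agent.S22.HeckeDecomp_helper56
import Fermat.Agent.S22.Transform_helper28
import Fermat.Agent.S29.TransferDef_helper6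
import Fermat.Agent.S29.TransferHom_helper6
import Fermat.Agent.S29.PeriodHecke_helper6
import Fermat.Agent.S49.LinAlg_h79
import Fermat.Agent.S49.Recur_h79
import Fermat.Agent.S49.QCoeff_h78

/-!
# S41, node (F-CUSP) (helper50): from a Betti eigenvector to a cusp eigenform new at `q`

* `IsDecompU`, `IsUTr` : the `U_p`-transfer relation on additive characters of `Γ₀(M)`
  (`p ∣ M`), in the relational style of the landed `S29.H06.IsHeckeTr`.
* `isUTr_periodMap` : the period map intertwines `U_p` on cusp forms with the `U_p`-transfer.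
* `IsHeckeTr.charInvolution`, `IsUTr.charInvolution` : the transfers commute with the
  involution `χ ↦ χ ∘ (γ ↦ JγJ⁻¹)`.
* `exists_newAt_eigenform_of_betti` : a nonzero parabolic complex character of `Γ₀(M)` which is
  an eigenvector of the `T_ℓ`-transfers (for the primes `ℓ ∤ M` in a given set) and is fixed by
  the square of the `U_q`-transfer produces a normalized eigenform `g` of level `M` with the
  same `T_ℓ`-eigenvalues and `a_q(g)² = 1`.
-/

set_option autoImplicit false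

namespace Fermat.Agent.S41.H50

open UpperHalfPlane CongruenceSubgroup ModularCurve ModularCurve.Period Filter Topology
open Fermat.Agent.S22 Fermat.Agent.S21 Fermat.Agent.S29 Fermat.Agent.S49
open scoped MatrixGroups ModularForm

/-! ### The `U_p`-transfer relation -/

/-- `U_p`-decomposition of `γ ∈ Γ₀(M)` along the representatives `H56.repU p`
(`j ↦ [[1,j],[0,p]]`). -/
def IsDecompU (M p : ℕ) (γ : Gamma0 M) (σ : Equiv.Perm (Fin p)) (g' : Fin p → Gamma0 M) : Prop :=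
  ∀ x, H56.repU p x * (((γ : SL(2, ℤ)) : GL (Fin 2) ℝ)) =
    (((g' x : SL(2, ℤ)) : GL (Fin 2) ℝ)) * H56.repU p (σ x)

theorem exists_isDecompU {M p : ℕ} (hp : p ≠ 0) (hpM : p ∣ M) (γ : Gamma0 M) :
    ∃ σ g', IsDecompU M p γ σ g' := by
  obtain ⟨σ, g', hg', h⟩ := H56.repU_decomp hp hpM (γ : SL(2, ℤ)) γ.2
  exact ⟨σ, fun x => ⟨g' x, hg' x⟩, h⟩

/-- `χ'` is the `U_p`-transfer of `χ`. -/
def IsUTr (M p : ℕ) {A : Type*} [AddCommGroup A] (χ χ' : Additive (Gamma0 M) →+ A) : Prop :=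
  ∀ (γ : Gamma0 M) (σ : Equiv.Perm (Fin p)) (g' : Fin p → Gamma0 M),
    IsDecompU M p γ σ g' → χ' (Additive.ofMul γ) = ∑ x, χ (Additive.ofMul (g' x))

section Formal

variable {M p : ℕ} {A B : Type*} [AddCommGroup A] [AddCommGroup B]

theorem IsUTr.unique (hp : p ≠ 0) (hpM : p ∣ M) {χ χ' χ'' : Additive (Gamma0 M) →+ A}
    (h' : IsUTr M p χ χ') (h'' : IsUTr M p χ χ'') : χ' = χ'' := by
  refine AddMonoidHom.ext fun γ => ?_
  obtain ⟨σ, g', hd⟩ := exists_isDecompU hp hpM (Additive.toMul γ)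
  have e1 := h' _ σ g' hd
  have e2 := h'' _ σ g' hd
  exact e1.trans e2.symm

theorem IsUTr.zero : IsUTr M p (0 : Additive (Gamma0 M) →+ A) 0 := by
  intro γ σ g' _
  simp

theorem IsUTr.add {χ₁ χ₁' χ₂ χ₂' : Additive (Gamma0 M) →+ A}
    (h₁ : IsUTr M p χ₁ χ₁') (h₂ : IsUTr M p χ₂ χ₂') :
    IsUTr M p (χ₁ + χ₂) (χ₁' + χ₂') := by
  intro γ σ g' hd
  simp only [AddMonoidHom.add_apply, Finset.sum_add_distrib, h₁ γ σ g' hd, h₂ γ σ g' hd]

theorem IsUTr.sub {χ₁ χ₁' χ₂ χ₂' : Additive (Gamma0 M) →+ A}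
    (h₁ : IsUTr M p χ₁ χ₁') (h₂ : IsUTr M p χ₂ χ₂') :
    IsUTr M p (χ₁ - χ₂) (χ₁' - χ₂') := by
  intro γ σ g' hd
  simp only [AddMonoidHom.sub_apply, Finset.sum_sub_distrib, h₁ γ σ g' hd, h₂ γ σ g' hd]

theorem IsUTr.neg {χ χ' : Additive (Gamma0 M) →+ A} (h : IsUTr M p χ χ') :
    IsUTr M p (-χ) (-χ') := by
  intro γ σ g' hd
  simp only [AddMonoidHom.neg_apply, Finset.sum_neg_distrib, h γ σ g' hd]

theorem IsUTr.zsmul {χ χ' : Additive (Gamma0 M) →+ A} (h : IsUTr M p χ χ') (n : ℤ) :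
    IsUTr M p (n • χ) (n • χ') := by
  intro γ σ g' hd
  simp only [AddMonoidHom.smul_apply, ← Finset.smul_sum, h γ σ g' hd]

theorem IsUTr.sum {ι : Type*} (s : Finset ι) {χ χ' : ι → Additive (Gamma0 M) →+ A}
    (h : ∀ i ∈ s, IsUTr M p (χ i) (χ' i)) :
    IsUTr M p (∑ i ∈ s, χ i) (∑ i ∈ s, χ' i) := by
  classical
  induction s using Finset.induction_on with
  | empty => simpa using IsUTr.zero
  | insert a s ha ih =>
    rw [Finset.sum_insert ha, Finset.sum_insert ha]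
    exact (h a (Finset.mem_insert_self a s)).add
      (ih fun i hi => h i (Finset.mem_insert_of_mem hi))

/-- The `U_p`-transfer relation is natural in the coefficient group. -/
theorem IsUTr.comp {χ χ' : Additive (Gamma0 M) →+ A} (h : IsUTr M p χ χ') (f : A →+ B) :
    IsUTr M p (f.comp χ) (f.comp χ') := by
  intro γ σ g' hd
  simp only [AddMonoidHom.comp_apply, h γ σ g' hd, map_sum]

/-- Complex homogeneity. -/
theorem IsUTr.smulC {χ χ' : Additive (Gamma0 M) →+ ℂ} (h : IsUTr M p χ χ') (c : ℂ) :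
    IsUTr M p (c • χ) (c • χ') := by
  intro γ σ g' hd
  simp only [AddMonoidHom.smul_apply, ← Finset.smul_sum, h γ σ g' hd]

theorem isHeckeTr_sub {N ℓ : ℕ}
    {χ₁ χ₁' χ₂ χ₂' : Additive (Gamma0 N) →+ A}
    (h₁ : H06.IsHeckeTr N ℓ χ₁ χ₁') (h₂ : H06.IsHeckeTr N ℓ χ₂ χ₂') :
    H06.IsHeckeTr N ℓ (χ₁ - χ₂) (χ₁' - χ₂') := by
  intro γ σ g' hd
  simp only [AddMonoidHom.sub_apply, Finset.sum_sub_distrib, h₁ γ σ g' hd, h₂ γ σ g' hd]

theorem isHeckeTr_smulC {N ℓ : ℕ}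
    {χ χ' : Additive (Gamma0 N) →+ ℂ} (h : H06.IsHeckeTr N ℓ χ χ') (c : ℂ) :
    H06.IsHeckeTr N ℓ (c • χ) (c • χ') := by
  intro γ σ g' hd
  simp only [AddMonoidHom.smul_apply, ← Finset.smul_sum, h γ σ g' hd]

end Formal

/-! ### Equivariance of the period map for `U_p` -/

/-- The sum of the translates of a primitive of `f` along the representatives of `U_p` is a
primitive of `U_p f`. -/
theorem hasDerivAt_sum_repU {F f : ℍ → ℂ}
    (hF : ∀ τ : ℍ, HasDerivAt (F ∘ ofComplex) (f τ) ↑τ) (p : ℕ) (z : ℍ) :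
    HasDerivAt ((fun w : ℍ => ∑ x : Fin p, F (H56.repU p x • w)) ∘ ofComplex)
      (ModularForm.heckeU 2 p f z) (z : ℂ) := by
  have h := HasDerivAt.fun_sum (u := (Finset.univ : Finset (Fin p)))
    (fun x _ => H06.hasDerivAt_comp_GL hF (H56.repU p x) (H56.repU_det_pos x) z)
  rw [H56.heckeU_eq_sum_repU, Finset.sum_apply]
  refine h.congr_of_eventuallyEq (Eventually.of_forall fun w => ?_)
  simp

/-- **Equivariance of the period map for `U_p`**: the period homomorphism of `U_p f` is the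
`U_p`-transfer of the period homomorphism of `f`. -/
theorem isUTr_periodMap {M p : ℕ} [NeZero M] (hpM : p ∣ M) (f : CuspForm (Gamma0 M) 2) :
    IsUTr M p (periodMap M f) (periodMap M (CuspForm.heckeULin 2 hpM f)) := by
  obtain ⟨F, hF⟩ := H25.exists_hasEquivariantPrimitive M f
  obtain ⟨FT, hFT⟩ := H25.exists_hasEquivariantPrimitive M (CuspForm.heckeULin 2 hpM f)
  set G : ℍ → ℂ := fun w => ∑ x : Fin p, F (H56.repU p x • w) with hG
  have hD : ∀ z : ℍ, HasDerivAt ((fun w : ℍ => G w - FT w) ∘ ofComplex) 0 z := by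
    intro z
    have h1 := hasDerivAt_sum_repU hF.1 p z
    have h2 := hFT.1 z
    have h3 := h1.sub h2
    rw [CuspForm.heckeULin_apply_apply, sub_self] at h3
    exact h3
  have hconst : ∀ w w' : ℍ, G w - FT w = G w' - FT w' := fun w w' =>
    H26.eq_of_hasDerivAt_zero hD w w'
  intro γ σ g' hd
  rw [H25.periodMap_apply hFT γ]
  have hterm : ∀ x : Fin p, periodMap M f (Additive.ofMul (g' x)) =
      F (H56.repU p x • ((γ : SL(2, ℤ)) • I)) - F (H56.repU p (σ x) • I) := by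
    intro x
    rw [H25.periodMap_apply' hF (g' x), ← hF.2.2.1.sub_eq_period (g' x) (H56.repU p (σ x) • I)]
    congr 2
    have e := congrArg (fun M : GL (Fin 2) ℝ => M • (I : ℍ)) (hd x)
    simp only [mul_smul] at e
    exact e.symm
  rw [Finset.sum_congr rfl fun x _ => hterm x, Finset.sum_sub_distrib,
    Equiv.sum_comp σ (fun y => F (H56.repU p y • I))]
  have := hconst ((γ : SL(2, ℤ)) • I) I
  simp only [hG] at this
  linear_combination -this

/-! ### Compatibility with the involution `χ ↦ χ ∘ (γ ↦ JγJ⁻¹)` -/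

/-- `J = diag(1, -1)` in `GL₂(ℝ)`. -/
noncomputable def Jgl : GL (Fin 2) ℝ :=
  Matrix.GeneralLinearGroup.mkOfDetNeZero !![1, 0; 0, -1] (by simp [Matrix.det_fin_two_of])

theorem Jgl_apply : (Jgl : Matrix (Fin 2) (Fin 2) ℝ) = !![1, 0; 0, -1] := rfl

theorem coe_GL_apply (γ : SL(2, ℤ)) (i j : Fin 2) :
    ((γ : GL (Fin 2) ℝ) : Matrix (Fin 2) (Fin 2) ℝ) i j = ((γ i j : ℤ) : ℝ) := by
  rfl

theorem Jgl_mul_coe (γ : SL(2, ℤ)) :
    Jgl * (γ : GL (Fin 2) ℝ) = ((jConjSL γ : SL(2, ℤ)) : GL (Fin 2) ℝ) * Jgl := by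
  apply Matrix.GeneralLinearGroup.ext
  intro i j
  simp only [Matrix.GeneralLinearGroup.coe_mul, Matrix.mul_apply, Fin.sum_univ_two, Jgl_apply,
    coe_GL_apply]
  fin_cases i <;> fin_cases j <;> simp [jConjMat]


/-- Generic compatibility of a transfer family with conjugation by `J`. -/
theorem sum_jConj_of_family {N : ℕ} {X : Type*} [Fintype X] (al : X → GL (Fin 2) ℝ)
    (τ : Equiv.Perm X) (u : X → Gamma0 N)
    (hJ : ∀ x, Jgl * al x = (((u x : Gamma0 N) : SL(2, ℤ)) : GL (Fin 2) ℝ) * al (τ x) * Jgl)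
    {A : Type*} [AddCommGroup A] (χ χ' : Additive (Gamma0 N) →+ A)
    (h : ∀ (γ : Gamma0 N) (σ : Equiv.Perm X) (g' : X → Gamma0 N),
      (∀ x, al x * (((γ : Gamma0 N) : SL(2, ℤ)) : GL (Fin 2) ℝ) =
        (((g' x : Gamma0 N) : SL(2, ℤ)) : GL (Fin 2) ℝ) * al (σ x)) →
      χ' (Additive.ofMul γ) = ∑ x, χ (Additive.ofMul (g' x)))
    (γ : Gamma0 N) (σ : Equiv.Perm X) (g' : X → Gamma0 N)
    (hd : ∀ x, al x * (((γ : Gamma0 N) : SL(2, ℤ)) : GL (Fin 2) ℝ) =
        (((g' x : Gamma0 N) : SL(2, ℤ)) : GL (Fin 2) ℝ) * al (σ x)) :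
    χ' (Additive.ofMul (jConjGamma0 N γ)) =
      ∑ x, χ (Additive.ofMul (jConjGamma0 N (g' x))) := by
  have key : ∀ x, al (τ x) * (((jConjGamma0 N γ : Gamma0 N) : SL(2, ℤ)) : GL (Fin 2) ℝ) =
      ((((u x)⁻¹ * jConjGamma0 N (g' x) * u (σ x) : Gamma0 N) : SL(2, ℤ)) : GL (Fin 2) ℝ) *
        al (τ (σ x)) := by
    intro x
    have e1 : Jgl * al x * (((γ : Gamma0 N) : SL(2, ℤ)) : GL (Fin 2) ℝ) =
        Jgl * ((((g' x : Gamma0 N) : SL(2, ℤ)) : GL (Fin 2) ℝ) * al (σ x)) := by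
      rw [mul_assoc, hd x]
    rw [hJ x, mul_assoc, Jgl_mul_coe, ← mul_assoc Jgl, Jgl_mul_coe, mul_assoc _ Jgl, hJ (σ x)]
      at e1
    have e2 : (((u x : Gamma0 N) : SL(2, ℤ)) : GL (Fin 2) ℝ) * al (τ x) *
        ((jConjSL (γ : SL(2, ℤ)) : SL(2, ℤ)) : GL (Fin 2) ℝ) =
        ((jConjSL ((g' x : Gamma0 N) : SL(2, ℤ)) : SL(2, ℤ)) : GL (Fin 2) ℝ) *
          ((((u (σ x) : Gamma0 N) : SL(2, ℤ)) : GL (Fin 2) ℝ) * al (τ (σ x))) := by
      apply mul_right_cancel (b := Jgl)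
      rw [mul_assoc, e1]
      simp only [mul_assoc]
    simp only [Subgroup.coe_mul, Subgroup.coe_inv, H06.coe_mul_GL, H06.coe_inv_GL,
      jConjGamma0_coe]
    rw [mul_assoc, mul_assoc, ← e2]
    simp only [← mul_assoc, inv_mul_cancel, one_mul]
  have hdec := h (jConjGamma0 N γ) (τ.symm.trans (σ.trans τ))
    (fun y => (u (τ.symm y))⁻¹ * jConjGamma0 N (g' (τ.symm y)) * u (σ (τ.symm y))) (fun y => by
      have := key (τ.symm y)
      simpa using this)
  rw [hdec, ← Equiv.sum_comp τ]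
  simp only [Equiv.symm_apply_apply]
  have hx : ∀ x, χ (Additive.ofMul ((u x)⁻¹ * jConjGamma0 N (g' x) * u (σ x))) =
      χ (Additive.ofMul (jConjGamma0 N (g' x))) +
        (χ (Additive.ofMul (u (σ x))) - χ (Additive.ofMul (u x))) := by
    intro x
    rw [ofMul_mul, ofMul_mul, ofMul_inv, map_add, map_add, map_neg]
    abel
  rw [Finset.sum_congr rfl fun x _ => hx x, Finset.sum_add_distrib, Finset.sum_sub_distrib,
    Equiv.sum_comp σ (fun y => χ (Additive.ofMul (u y))), sub_self, add_zero]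


/-- `[[1,-1],[0,1]]` as an element of `Γ₀(N)`. -/
def tInv (N : ℕ) : Gamma0 N :=
  ⟨ModularGroup.T⁻¹, by
    rw [Gamma0_mem, ModularGroup.coe_T_inv]
    simp⟩

theorem tInv_apply (N : ℕ) : (((tInv N : Gamma0 N) : SL(2, ℤ)) : Matrix (Fin 2) (Fin 2) ℤ) =
    !![1, -1; 0, 1] := ModularGroup.coe_T_inv

/-- The correcting unipotent for the coset `[[1,j],[0,p]]`. -/
noncomputable def uJ (N : ℕ) {p : ℕ} (j : Fin p) : Gamma0 N :=
  if (j : ℕ) = 0 then 1 else tInv N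

theorem Jgl_mul_heckeMatrix (N : ℕ) {p : ℕ} [NeZero p] (j : Fin p) :
    Jgl * ModularForm.heckeMatrix p (j : ℕ) =
      (((uJ N j : Gamma0 N) : SL(2, ℤ)) : GL (Fin 2) ℝ) *
        ModularForm.heckeMatrix p ((-j : Fin p) : ℕ) * Jgl := by
  have hp : p ≠ 0 := NeZero.ne p
  obtain ⟨a00, a01, a10, a11⟩ := H56.heckeMatrix_entries hp (j : ℕ)
  obtain ⟨b00, b01, b10, b11⟩ := H56.heckeMatrix_entries hp ((-j : Fin p) : ℕ)
  apply Matrix.GeneralLinearGroup.ext
  intro i k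
  simp only [Matrix.GeneralLinearGroup.coe_mul, Matrix.mul_apply, Fin.sum_univ_two, Jgl_apply,
    coe_GL_apply]
  by_cases hj : (j : ℕ) = 0
  · have hneg : ((-j : Fin p) : ℕ) = 0 := by
      rw [Fin.val_neg', hj, Nat.sub_zero, Nat.mod_self]
    have hu : (uJ N j : Gamma0 N) = 1 := by simp [uJ, hj]
    have c1 : (((j : ℕ) : ℕ) : ℝ) = 0 := by rw [hj]; simp
    have c2 : ((((-j : Fin p) : ℕ) : ℕ) : ℝ) = 0 := by rw [hneg]; simp
    rw [c1] at a01
    rw [c2] at b01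
    fin_cases i <;> fin_cases k <;>
      simp [hu, a00, a01, a10, a11, b00, b01, b10, b11]
  · have hneg : ((-j : Fin p) : ℕ) = p - (j : ℕ) := by
      rw [Fin.val_neg']
      exact Nat.mod_eq_of_lt (by have := j.isLt; omega)
    have hu : (uJ N j : Gamma0 N) = tInv N := by simp [uJ, hj]
    have c2 : ((((-j : Fin p) : ℕ) : ℕ) : ℝ) = (p : ℝ) - ((j : ℕ) : ℝ) := by
      rw [hneg, Nat.cast_sub j.isLt.le]
    rw [c2] at b01
    have t := tInv_apply N
    have t00 : (((tInv N : Gamma0 N) : SL(2, ℤ)) 0 0 : ℤ) = 1 := by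
      simpa using congrFun (congrFun t 0) 0
    have t01 : (((tInv N : Gamma0 N) : SL(2, ℤ)) 0 1 : ℤ) = -1 := by
      simpa using congrFun (congrFun t 0) 1
    have t10 : (((tInv N : Gamma0 N) : SL(2, ℤ)) 1 0 : ℤ) = 0 := by
      simpa using congrFun (congrFun t 1) 0
    have t11 : (((tInv N : Gamma0 N) : SL(2, ℤ)) 1 1 : ℤ) = 1 := by
      simpa using congrFun (congrFun t 1) 1
    fin_cases i <;> fin_cases k <;>
      simp [hu, a00, a01, a10, a11, b00, b01, b10, b11, t00, t01, t10, t11]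

theorem Jgl_mul_heckeDiagMatrix {p : ℕ} (hp : p ≠ 0) :
    Jgl * ModularForm.heckeDiagMatrix p = ModularForm.heckeDiagMatrix p * Jgl := by
  obtain ⟨a00, a01, a10, a11⟩ := H56.heckeDiagMatrix_entries hp
  apply Matrix.GeneralLinearGroup.ext
  intro i k
  simp only [Matrix.GeneralLinearGroup.coe_mul, Matrix.mul_apply, Fin.sum_univ_two, Jgl_apply]
  fin_cases i <;> fin_cases k <;> simp [a00, a01, a10, a11]


/-- The `T_ℓ`-transfer commutes with the involution `χ ↦ χ ∘ (γ ↦ JγJ⁻¹)`. -/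
theorem isHeckeTr_jConj {N ℓ : ℕ} (hℓ : ℓ ≠ 0) {A : Type*} [AddCommGroup A]
    {χ χ' : Additive (Gamma0 N) →+ A} (h : H06.IsHeckeTr N ℓ χ χ') :
    H06.IsHeckeTr N ℓ (χ.comp (MonoidHom.toAdditive (jConjGamma0 N)))
      (χ'.comp (MonoidHom.toAdditive (jConjGamma0 N))) := by
  have : NeZero ℓ := ⟨hℓ⟩
  intro γ σ g' hd
  refine sum_jConj_of_family (H56.repT ℓ) (Equiv.optionCongr (Equiv.neg (Fin ℓ)))
    (fun x => x.elim 1 (uJ N)) ?_ χ χ' h γ σ g' hd
  intro x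
  cases x with
  | none =>
    show Jgl * ModularForm.heckeDiagMatrix ℓ = _ * ModularForm.heckeDiagMatrix ℓ * Jgl
    rw [Jgl_mul_heckeDiagMatrix hℓ]
    simp
  | some j => exact Jgl_mul_heckeMatrix N j

/-- The `U_p`-transfer commutes with the involution `χ ↦ χ ∘ (γ ↦ JγJ⁻¹)`. -/
theorem isUTr_jConj {N p : ℕ} (hp : p ≠ 0) {A : Type*} [AddCommGroup A]
    {χ χ' : Additive (Gamma0 N) →+ A} (h : IsUTr N p χ χ') :
    IsUTr N p (χ.comp (MonoidHom.toAdditive (jConjGamma0 N)))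
      (χ'.comp (MonoidHom.toAdditive (jConjGamma0 N))) := by
  have : NeZero p := ⟨hp⟩
  intro γ σ g' hd
  exact sum_jConj_of_family (H56.repU p) (Equiv.neg (Fin p)) (uJ N)
    (fun j => Jgl_mul_heckeMatrix N j) χ χ' h γ σ g' hd


/-! ### The pair period map intertwines the Hecke operators with the transfers -/

theorem periodHomPair_eq (N : ℕ) [NeZero N] (f g : CuspForm (Gamma0 N) 2) :
    periodHomPair N (f, g) =
      (periodMap N f + (periodMap N f).comp (MonoidHom.toAdditive (jConjGamma0 N))) +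
      (periodMap N g - (periodMap N g).comp (MonoidHom.toAdditive (jConjGamma0 N))) := by
  refine AddMonoidHom.ext fun γ => ?_
  obtain ⟨γ, rfl⟩ := Additive.ofMul.surjective γ
  rw [H25.periodHomPair_apply]
  rfl

theorem isHeckeTr_periodHomPair {N ℓ : ℕ} [NeZero N] (hℓ : ℓ.Prime) (hℓN : ¬ ℓ ∣ N)
    (f g : CuspForm (Gamma0 N) 2) :
    H06.IsHeckeTr N ℓ (periodHomPair N (f, g))
      (periodHomPair N (CuspForm.heckeTLin 2 hℓ hℓN f, CuspForm.heckeTLin 2 hℓ hℓN g)) := by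
  rw [periodHomPair_eq, periodHomPair_eq]
  have hf := H06.isHeckeTr_periodMap hℓ hℓN f
  have hg := H06.isHeckeTr_periodMap hℓ hℓN g
  exact (hf.add (isHeckeTr_jConj hℓ.ne_zero hf)).add
    (isHeckeTr_sub hg (isHeckeTr_jConj hℓ.ne_zero hg))

theorem isUTr_periodHomPair {N p : ℕ} [NeZero N] (hp : p ≠ 0) (hpN : p ∣ N)
    (f g : CuspForm (Gamma0 N) 2) :
    IsUTr N p (periodHomPair N (f, g))
      (periodHomPair N (CuspForm.heckeULin 2 hpN f, CuspForm.heckeULin 2 hpN g)) := by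
  rw [periodHomPair_eq, periodHomPair_eq]
  have hf := isUTr_periodMap hpN f
  have hg := isUTr_periodMap hpN g
  exact (hf.add (isUTr_jConj hp hf)).add (hg.sub (isUTr_jConj hp hg))

/-! ### The main export -/

/-- **From a Betti eigenvector to a cusp eigenform new at `q`.**  A nonzero parabolic complex
character `v` of `Γ₀(M)` which is an eigenvector of the `T_ℓ`-transfers (for the primes `ℓ ∤ M`
satisfying `P`) with eigenvalues `lam ℓ`, and which is fixed by the square of the `U_q`-transfer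
(`q ∣ M` prime), produces a normalized eigenform `g` of level `M` with `a_ℓ(g) = lam ℓ` for those
`ℓ` and `a_q(g)² = 1`. -/
theorem exists_newAt_eigenform_of_betti {M q : ℕ} [NeZero M] (hq : q.Prime) (hqM : q ∣ M)
    (v : Additive (Gamma0 M) →+ ℂ)
    (hv : v ∈ ModularCurve.Period.parabolicHoms ℂ (Gamma0 M) ℂ) (hv0 : v ≠ 0)
    (P : ℕ → Prop) (lam : ℕ → ℂ)
    (hT : ∀ ℓ : ℕ, ℓ.Prime → ¬ ℓ ∣ M → P ℓ → H06.IsHeckeTr M ℓ v (lam ℓ • v))
    (hU : ∃ v' : Additive (Gamma0 M) →+ ℂ, IsUTr M q v v' ∧ IsUTr M q v' v) :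
    ∃ g : CuspForm (Gamma0 M) 2, g.IsNormalizedEigenform ∧
      (∀ ℓ : ℕ, ℓ.Prime → ¬ ℓ ∣ M → P ℓ → ModularFormClass.qCoeff g ℓ = lam ℓ) ∧
      g.IsNewAt q := by
  classical
  have hfin : FiniteDimensional ℂ (CuspForm (Gamma0 M) 2) := H25.finite_cuspForm M
  obtain ⟨hinj, hrange⟩ := Fermat.Agent.S21.result M
  rw [← hrange] at hv
  obtain ⟨⟨f₁, f₂⟩, hfv⟩ := hv
  -- the `T_ℓ`-eigen relations on the cusp side
  have hTf : ∀ ℓ (hℓ : ℓ.Prime) (hℓM : ¬ ℓ ∣ M), P ℓ →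
      CuspForm.heckeTLin 2 hℓ hℓM f₁ = lam ℓ • f₁ ∧
        CuspForm.heckeTLin 2 hℓ hℓM f₂ = lam ℓ • f₂ := by
    intro ℓ hℓ hℓM hP
    have h1 := isHeckeTr_periodHomPair hℓ hℓM f₁ f₂
    rw [hfv] at h1
    have h3 := H06.IsHeckeTr.unique hℓ hℓM h1 (hT ℓ hℓ hℓM hP)
    have h4 : periodHomPair M (CuspForm.heckeTLin 2 hℓ hℓM f₁, CuspForm.heckeTLin 2 hℓ hℓM f₂) =
        periodHomPair M (lam ℓ • (f₁, f₂)) := by
      rw [map_smul, hfv, h3]
    have h5 := hinj h4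
    rw [Prod.smul_mk] at h5
    exact ⟨(Prod.ext_iff.mp h5).1, (Prod.ext_iff.mp h5).2⟩
  -- the `U_q²`-relation on the cusp side
  have hUf : CuspForm.heckeULin 2 hqM (CuspForm.heckeULin 2 hqM f₁) = f₁ ∧
      CuspForm.heckeULin 2 hqM (CuspForm.heckeULin 2 hqM f₂) = f₂ := by
    obtain ⟨v', hU1, hU2⟩ := hU
    have h1 := isUTr_periodHomPair hq.ne_zero hqM f₁ f₂
    rw [hfv] at h1
    have h2 := IsUTr.unique hq.ne_zero hqM h1 hU1
    have h3 := isUTr_periodHomPair hq.ne_zero hqM (CuspForm.heckeULin 2 hqM f₁)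
      (CuspForm.heckeULin 2 hqM f₂)
    rw [h2] at h3
    have h4 := IsUTr.unique hq.ne_zero hqM h3 hU2
    rw [← hfv] at h4
    have h5 := hinj h4
    exact ⟨(Prod.ext_iff.mp h5).1, (Prod.ext_iff.mp h5).2⟩
  -- the joint eigenspace
  let W : Submodule ℂ (CuspForm (Gamma0 M) 2) :=
    { carrier := {f | (∀ ℓ (hℓ : ℓ.Prime) (hℓM : ¬ ℓ ∣ M), P ℓ →
          CuspForm.heckeTLin 2 hℓ hℓM f = lam ℓ • f) ∧
          CuspForm.heckeULin 2 hqM (CuspForm.heckeULin 2 hqM f) = f}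
      zero_mem' := ⟨fun ℓ hℓ hℓM _ => by rw [map_zero, smul_zero], by rw [map_zero, map_zero]⟩
      add_mem' := fun {a b} ha hb => ⟨fun ℓ hℓ hℓM hP => by
        rw [map_add, ha.1 ℓ hℓ hℓM hP, hb.1 ℓ hℓ hℓM hP, smul_add], by
        rw [map_add, map_add, ha.2, hb.2]⟩
      smul_mem' := fun c a ha => ⟨fun ℓ hℓ hℓM hP => by
        rw [map_smul, ha.1 ℓ hℓ hℓM hP, smul_comm], by
        rw [map_smul, map_smul, ha.2]⟩ }
  have hWmem : ∀ f, f ∈ W ↔ (∀ ℓ (hℓ : ℓ.Prime) (hℓM : ¬ ℓ ∣ M), P ℓ →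
      CuspForm.heckeTLin 2 hℓ hℓM f = lam ℓ • f) ∧
      CuspForm.heckeULin 2 hqM (CuspForm.heckeULin 2 hqM f) = f := fun f => Iff.rfl
  have hf₁W : f₁ ∈ W := (hWmem f₁).mpr ⟨fun ℓ hℓ hℓM hP => (hTf ℓ hℓ hℓM hP).1, hUf.1⟩
  have hf₂W : f₂ ∈ W := (hWmem f₂).mpr ⟨fun ℓ hℓ hℓM hP => (hTf ℓ hℓ hℓM hP).2, hUf.2⟩
  have hW : W ≠ ⊥ := by
    intro hbot
    have e1 : f₁ = 0 := by
      have := hf₁W
      rw [hbot, Submodule.mem_bot] at this
      exact this
    have e2 : f₂ = 0 := by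
      have := hf₂W
      rw [hbot, Submodule.mem_bot] at this
      exact this
    apply hv0
    rw [← hfv, e1, e2]
    exact map_zero (periodHomPair M)
  have hcomm : ∀ s ∈ CuspForm.heckeGenerators M 2 (∅ : Set ℕ),
      ∀ t ∈ CuspForm.heckeGenerators M 2 (∅ : Set ℕ), Commute s t :=
    fun s hs t ht => CuspForm.commute_of_mem_heckeGenerators hs ht
  have hstab : ∀ s ∈ CuspForm.heckeGenerators M 2 (∅ : Set ℕ), ∀ x ∈ W, s x ∈ W := by
    intro s hs x hx
    rw [hWmem] at hx ⊢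
    refine ⟨fun ℓ hℓ hℓM hP => ?_, ?_⟩
    · have hc := hcomm _ (CuspForm.heckeTLin_mem_heckeGenerators hℓ hℓM (Set.notMem_empty ℓ)) s hs
      have h2 := congrArg (fun g : Module.End ℂ (CuspForm (Gamma0 M) 2) => g x) hc.eq
      simp only [Module.End.mul_apply] at h2
      rw [h2, hx.1 ℓ hℓ hℓM hP, map_smul]
    · have hc := hcomm _ (CuspForm.heckeULin_mem_heckeGenerators hq hqM (Set.notMem_empty q)) s hs
      have h2 : ∀ y, CuspForm.heckeULin 2 hqM (s y) = s (CuspForm.heckeULin 2 hqM y) := by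
        intro y
        have h3 := congrArg (fun g : Module.End ℂ (CuspForm (Gamma0 M) 2) => g y) hc.eq
        simpa only [Module.End.mul_apply] using h3
      rw [h2, h2, hx.2]
  obtain ⟨w, hwW, hw0, hev⟩ := H79.exists_common_eigenvector
    (CuspForm.heckeGenerators M 2 (∅ : Set ℕ)) hcomm W hW hstab
  rw [hWmem] at hwW
  have hTe : ∀ p (hp : p.Prime) (hpM : ¬ p ∣ M), ∃ c : ℂ, CuspForm.heckeTLin 2 hp hpM w = c • w :=
    fun p hp hpM => hev _ (CuspForm.heckeTLin_mem_heckeGenerators hp hpM (Set.notMem_empty p))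
  have hUe : ∀ p (_ : p.Prime) (hpM : p ∣ M), ∃ c : ℂ, CuspForm.heckeULin 2 hpM w = c • w :=
    fun p hp hpM => hev _ (CuspForm.heckeULin_mem_heckeGenerators hp hpM (Set.notMem_empty p))
  let mu : ℕ → ℂ := fun p =>
    if hp : p.Prime then
      (if hpM : p ∣ M then (hUe p hp hpM).choose else (hTe p hp hpM).choose)
    else 0
  have hmuT : ∀ p (hp : p.Prime) (hpM : ¬ p ∣ M), CuspForm.heckeTLin 2 hp hpM w = mu p • w :=
    fun p hp hpM => by
      simp only [mu, dif_pos hp, dif_neg hpM]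
      exact (hTe p hp hpM).choose_spec
  have hmuU : ∀ p (hp : p.Prime) (hpM : p ∣ M), CuspForm.heckeULin 2 hpM w = mu p • w :=
    fun p hp hpM => by
      simp only [mu, dif_pos hp, dif_pos hpM]
      exact (hUe p hp hpM).choose_spec
  have hbT : ∀ p, p.Prime → ¬ p ∣ M → ∀ n,
      ModularFormClass.qCoeff ⇑w (n * p) +
        (if p ∣ n then (p : ℂ) * ModularFormClass.qCoeff ⇑w (n / p) else 0) =
        mu p * ModularFormClass.qCoeff ⇑w n := fun p hp hpM n => by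
    have h2 := congrArg (fun g : CuspForm (Gamma0 M) 2 => ModularFormClass.qCoeff ⇑g n)
      (hmuT p hp hpM)
    simp only [H78.qCoeff_smul] at h2
    rw [← h2]
    exact (H78.qCoeff_heckeTLin hp hpM w n).symm
  have hbU : ∀ p, p.Prime → p ∣ M → ∀ n,
      ModularFormClass.qCoeff ⇑w (n * p) = mu p * ModularFormClass.qCoeff ⇑w n :=
      fun p hp hpM n => by
    have h2 := congrArg (fun g : CuspForm (Gamma0 M) 2 => ModularFormClass.qCoeff ⇑g n)
      (hmuU p hp hpM)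
    simp only [H78.qCoeff_smul] at h2
    rw [← h2]
    exact (H78.qCoeff_heckeULin hp hpM w n).symm
  have hb1 : ModularFormClass.qCoeff ⇑w 1 ≠ 0 := fun hb1 => hw0 (H78.eq_zero_of_qCoeff w (fun n => by
    rcases Nat.eq_zero_or_pos n with rfl | hn
    · exact H78.qCoeff_zero_idx w
    · exact H79.coeff_eq_zero_of_one M mu (fun n => ModularFormClass.qCoeff ⇑w n) hb1 hbT hbU n hn))
  set a1 : ℂ := ModularFormClass.qCoeff ⇑w 1 with ha1
  have hc1 : ModularFormClass.qCoeff ⇑(a1⁻¹ • w) 1 = 1 := by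
    rw [H78.qCoeff_smul]
    exact inv_mul_cancel₀ hb1
  have hcT : ∀ p, p.Prime → ¬ p ∣ M → ∀ n,
      ModularFormClass.qCoeff ⇑(a1⁻¹ • w) (n * p) +
        (if p ∣ n then (p : ℂ) * ModularFormClass.qCoeff ⇑(a1⁻¹ • w) (n / p) else 0) =
        mu p * ModularFormClass.qCoeff ⇑(a1⁻¹ • w) n := fun p hp hpM n => by
    simp only [H78.qCoeff_smul]
    have e := hbT p hp hpM n
    by_cases hn : p ∣ n
    · rw [if_pos hn] at e ⊢
      linear_combination a1⁻¹ * e
    · rw [if_neg hn] at e ⊢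
      linear_combination a1⁻¹ * e
  have hcU : ∀ p, p.Prime → p ∣ M → ∀ n,
      ModularFormClass.qCoeff ⇑(a1⁻¹ • w) (n * p) =
        mu p * ModularFormClass.qCoeff ⇑(a1⁻¹ • w) n := fun p hp hpM n => by
    simp only [H78.qCoeff_smul]
    linear_combination a1⁻¹ * hbU p hp hpM n
  have hcp : ∀ p, p.Prime → ModularFormClass.qCoeff ⇑(a1⁻¹ • w) p = mu p := fun p hp => by
    by_cases hpM : p ∣ M
    · have e := hcU p hp hpM 1
      rwa [one_mul, hc1, mul_one] at e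
    · have e := hcT p hp hpM 1
      rwa [one_mul, hc1, mul_one, if_neg (by simpa using hp.one_lt.ne'), add_zero] at e
  obtain ⟨hcmul, hcrec1, hcrec2⟩ := H79.normalizedEigenform_fields M
    (fun n => ModularFormClass.qCoeff ⇑(a1⁻¹ • w) n) hc1
    (fun p hp hpM n => by
      show _ = ModularFormClass.qCoeff ⇑(a1⁻¹ • w) p * _
      rw [hcp p hp]
      exact hcT p hp hpM n)
    (fun p hp hpM n => by
      show _ = ModularFormClass.qCoeff ⇑(a1⁻¹ • w) p * _
      rw [hcp p hp]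
      exact hcU p hp hpM n)
  refine ⟨a1⁻¹ • w, ⟨hc1, hcmul, hcrec1, hcrec2⟩, fun ℓ hℓ hℓM hP => ?_, ?_⟩
  · rw [hcp ℓ hℓ]
    have e1 := hmuT ℓ hℓ hℓM
    rw [hwW.1 ℓ hℓ hℓM hP] at e1
    have e2 : (lam ℓ - mu ℓ) • w = 0 := by rw [sub_smul, e1, sub_self]
    rcases smul_eq_zero.mp e2 with h | h
    · exact (sub_eq_zero.mp h).symm
    · exact absurd h hw0
  · show ModularFormClass.qCoeff ⇑(a1⁻¹ • w) q ^ 2 = 1
    rw [hcp q hq]
    have e1 := hmuU q hq hqM
    have e2 := hwW.2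
    rw [e1, map_smul, e1, smul_smul] at e2
    have e3 : (mu q * mu q - 1) • w = 0 := by rw [sub_smul, e2, one_smul, sub_self]
    rcases smul_eq_zero.mp e3 with h | h
    · rw [pow_two]
      exact sub_eq_zero.mp h
    · exact absurd h hw0

end Fermat.Agent.S41.H50
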