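import Mathlib
import Fermat.Prelude.Def_ModularCurve_PeriodHomPair
import Fermat.Prelude.Def_CuspForm_HeckeAlgebra
import Fermat.Agent.S29.TransferHom_helper6
import Fermat.Agent.S29.TransferPar_helper70
import Fermat.Agent.S41.BettiCusp_helper50

/-!
# S41, nodes (POLY) + (T-COMM) (helper50): the Hecke-module structure on the Betti lattice

* `polyModule t hcomm` : the `MvPolynomial ι ℤ`-module structure on an additive group `L` given
  by a commuting family `t : ι → (L →+ L)` (`X i` acts as `t i`), `polyModule_X_smul`.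
* `map_smul_of_X`, `linearOfX` : an additive map between two `MvPolynomial ι ℤ`-modules which
  commutes with every `X i` is linear.
* `heckeTr_comm_complex`, `latT_comm` : the `T_ℓ`-transfers commute on parabolic characters
  (complex, resp. integral) of `Γ₀(M)` - from the cusp side, through S21.
* `latT`, `latModule` : `T_ℓ` on the lattice `parabolicHoms ℤ Γ₀(M) ℤ` and the resulting module
  structure over `MvPolynomial ι ℤ` for a family of primes `pr : ι → ℕ` not dividing `M`.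
-/

set_option autoImplicit false

namespace Fermat.Agent.S41.H50

open CongruenceSubgroup ModularCurve ModularCurve.Period
open Fermat.Agent.S29
open scoped MatrixGroups

/-! ### Abstract part -/

section Poly

variable {ι L : Type*} [AddCommGroup L]

/-- The ring homomorphism `MvPolynomial ι ℤ →+* Module.End ℤ L` attached to a commuting family
of additive endomorphisms. -/
noncomputable def polyHom (t : ι → (L →+ L)) (hcomm : ∀ i j x, t i (t j x) = t j (t i x)) :
    MvPolynomial ι ℤ →+* Module.End ℤ L :=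
  letI : CommRing (Algebra.adjoin ℤ (Set.range fun i => (t i).toIntLinearMap)) :=
    Algebra.adjoinCommRingOfComm ℤ (by
      rintro _ ⟨i, rfl⟩ _ ⟨j, rfl⟩
      refine LinearMap.ext fun x => ?_
      exact hcomm i j x)
  (Algebra.adjoin ℤ (Set.range fun i => (t i).toIntLinearMap)).val.toRingHom.comp
    (MvPolynomial.aeval (R := ℤ)
      (fun i => (⟨(t i).toIntLinearMap, Algebra.subset_adjoin ⟨i, rfl⟩⟩ :
        Algebra.adjoin ℤ (Set.range fun i => (t i).toIntLinearMap)))).toRingHom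

theorem polyHom_X (t : ι → (L →+ L)) (hcomm : ∀ i j x, t i (t j x) = t j (t i x)) (i : ι) :
    polyHom t hcomm (MvPolynomial.X i) = (t i).toIntLinearMap := by
  simp [polyHom]

/-- The `MvPolynomial ι ℤ`-module structure given by a commuting family of additive
endomorphisms: `X i` acts as `t i`. -/
@[reducible] noncomputable def polyModule (t : ι → (L →+ L)) (hcomm : ∀ i j x, t i (t j x) = t j (t i x)) :
    Module (MvPolynomial ι ℤ) L :=
  Module.compHom L (polyHom t hcomm)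

theorem polyModule_smul (t : ι → (L →+ L)) (hcomm : ∀ i j x, t i (t j x) = t j (t i x))
    (r : MvPolynomial ι ℤ) (x : L) :
    letI := polyModule t hcomm
    r • x = polyHom t hcomm r x := rfl

theorem polyModule_X_smul (t : ι → (L →+ L)) (hcomm : ∀ i j x, t i (t j x) = t j (t i x))
    (i : ι) (x : L) :
    letI := polyModule t hcomm
    (MvPolynomial.X i : MvPolynomial ι ℤ) • x = t i x := by
  show polyHom t hcomm (MvPolynomial.X i) x = t i x
  rw [polyHom_X]
  rfl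

end Poly

section Linear

variable {ι M M' : Type*} [AddCommGroup M] [AddCommGroup M'] [Module (MvPolynomial ι ℤ) M]
  [Module (MvPolynomial ι ℤ) M']

/-- An additive map commuting with all the variables is `MvPolynomial ι ℤ`-linear. -/
theorem map_smul_of_X (f : M →+ M')
    (hf : ∀ i x, f ((MvPolynomial.X i : MvPolynomial ι ℤ) • x) =
      (MvPolynomial.X i : MvPolynomial ι ℤ) • f x)
    (r : MvPolynomial ι ℤ) (x : M) : f (r • x) = r • f x := by
  induction r using MvPolynomial.induction_on generalizing x with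
  | C n =>
    rw [show (MvPolynomial.C n : MvPolynomial ι ℤ) = ((n : ℤ) : MvPolynomial ι ℤ) from
      eq_intCast MvPolynomial.C n, Int.cast_smul_eq_zsmul, Int.cast_smul_eq_zsmul, map_zsmul]
  | add p q hp hq => rw [add_smul, add_smul, map_add, hp, hq]
  | mul_X p i hp => rw [mul_smul, mul_smul, hp, hf]

/-- An additive map commuting with all the variables, as a linear map. -/
def linearOfX (f : M →+ M')
    (hf : ∀ i x, f ((MvPolynomial.X i : MvPolynomial ι ℤ) • x) =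
      (MvPolynomial.X i : MvPolynomial ι ℤ) • f x) : M →ₗ[MvPolynomial ι ℤ] M' where
  toFun := f
  map_add' := f.map_add
  map_smul' := map_smul_of_X f hf

@[simp] theorem linearOfX_apply (f : M →+ M')
    (hf : ∀ i x, f ((MvPolynomial.X i : MvPolynomial ι ℤ) • x) =
      (MvPolynomial.X i : MvPolynomial ι ℤ) • f x) (x : M) : linearOfX f hf x = f x := rfl

end Linear

/-! ### Commutativity of the `T_ℓ`-transfers on parabolic characters -/

section Comm

variable {M ℓ ℓ' : ℕ}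

/-- On complex parabolic characters the Hecke transfers commute. -/
theorem heckeTr_comm_complex [NeZero M] (hℓ : ℓ.Prime) (hℓM : ¬ ℓ ∣ M) (hℓ' : ℓ'.Prime)
    (hℓ'M : ¬ ℓ' ∣ M) (v : Additive (Gamma0 M) →+ ℂ)
    (hv : v ∈ parabolicHoms ℂ (Gamma0 M) ℂ) :
    H06.heckeTr hℓ hℓM (H06.heckeTr hℓ' hℓ'M v) = H06.heckeTr hℓ' hℓ'M (H06.heckeTr hℓ hℓM v) := by
  obtain ⟨-, hrange⟩ := Fermat.Agent.S21.result M
  rw [← hrange] at hv
  obtain ⟨⟨f, g⟩, rfl⟩ := hv
  have key : ∀ {p : ℕ} (hp : p.Prime) (hpM : ¬ p ∣ M) (a b : CuspForm (Gamma0 M) 2),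
      H06.heckeTr hp hpM (periodHomPair M (a, b)) =
        periodHomPair M (CuspForm.heckeTLin 2 hp hpM a, CuspForm.heckeTLin 2 hp hpM b) :=
    fun hp hpM a b => ((isHeckeTr_periodHomPair hp hpM a b).eq_heckeTr hp hpM).symm
  rw [key hℓ' hℓ'M, key hℓ hℓM, key hℓ hℓM, key hℓ' hℓ'M]
  have hc := CuspForm.heckeTLin_comm 2 hℓ hℓM hℓ' hℓ'M
  have hcf : ∀ a : CuspForm (Gamma0 M) 2,
      CuspForm.heckeTLin 2 hℓ hℓM (CuspForm.heckeTLin 2 hℓ' hℓ'M a) =
        CuspForm.heckeTLin 2 hℓ' hℓ'M (CuspForm.heckeTLin 2 hℓ hℓM a) := by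
    intro a
    have h3 := congrArg (fun T : Module.End ℂ (CuspForm (Gamma0 M) 2) => T a) hc.eq
    simpa only [Module.End.mul_apply] using h3
  rw [hcf f, hcf g]

/-- The complexification of an integral parabolic character is parabolic. -/
theorem cast_mem_parabolicHoms {x : Additive (Gamma0 M) →+ ℤ}
    (hx : x ∈ parabolicHoms ℤ (Gamma0 M) ℤ) :
    (Int.castAddHom ℂ).comp x ∈ parabolicHoms ℂ (Gamma0 M) ℂ := by
  intro γ hγ
  show ((x (Additive.ofMul γ) : ℤ) : ℂ) = 0
  rw [hx γ hγ, Int.cast_zero]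

/-- On integral parabolic characters the Hecke transfers commute. -/
theorem heckeTr_comm_int [NeZero M] (hℓ : ℓ.Prime) (hℓM : ¬ ℓ ∣ M) (hℓ' : ℓ'.Prime)
    (hℓ'M : ¬ ℓ' ∣ M) (x : Additive (Gamma0 M) →+ ℤ)
    (hx : x ∈ parabolicHoms ℤ (Gamma0 M) ℤ) :
    H06.heckeTr hℓ hℓM (H06.heckeTr hℓ' hℓ'M x) = H06.heckeTr hℓ' hℓ'M (H06.heckeTr hℓ hℓM x) := by
  have h := heckeTr_comm_complex hℓ hℓM hℓ' hℓ'M _ (cast_mem_parabolicHoms hx)
  rw [H06.heckeTr_comp, H06.heckeTr_comp, H06.heckeTr_comp, H06.heckeTr_comp] at h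
  refine AddMonoidHom.ext fun γ => ?_
  have h2 := DFunLike.congr_fun h γ
  exact Int.cast_injective (α := ℂ) h2

end Comm

/-! ### The lattice and its Hecke-module structure -/

/-- `T_ℓ` on the Betti lattice `parabolicHoms ℤ Γ₀(M) ℤ`. -/
noncomputable def latT {M ℓ : ℕ} (hℓ : ℓ.Prime) (hℓM : ¬ ℓ ∣ M) :
    parabolicHoms ℤ (Gamma0 M) ℤ →+ parabolicHoms ℤ (Gamma0 M) ℤ where
  toFun x := ⟨H06.heckeTr hℓ hℓM (x : Additive (Gamma0 M) →+ ℤ),
    H70.IsHeckeTr.mem_parabolicHoms hℓ hℓM (H06.isHeckeTr_heckeTr hℓ hℓM _) x.2⟩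
  map_zero' := by
    apply Subtype.ext
    show H06.heckeTr hℓ hℓM (0 : Additive (Gamma0 M) →+ ℤ) = 0
    exact map_zero _
  map_add' x y := by
    apply Subtype.ext
    show H06.heckeTr hℓ hℓM ((x : Additive (Gamma0 M) →+ ℤ) + (y : Additive (Gamma0 M) →+ ℤ)) = _
    exact map_add _ _ _

@[simp] theorem coe_latT {M ℓ : ℕ} (hℓ : ℓ.Prime) (hℓM : ¬ ℓ ∣ M)
    (x : parabolicHoms ℤ (Gamma0 M) ℤ) :
    ((latT hℓ hℓM x : parabolicHoms ℤ (Gamma0 M) ℤ) : Additive (Gamma0 M) →+ ℤ) =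
      H06.heckeTr hℓ hℓM (x : Additive (Gamma0 M) →+ ℤ) := rfl

theorem isHeckeTr_latT {M ℓ : ℕ} (hℓ : ℓ.Prime) (hℓM : ¬ ℓ ∣ M)
    (x : parabolicHoms ℤ (Gamma0 M) ℤ) :
    H06.IsHeckeTr M ℓ (x : Additive (Gamma0 M) →+ ℤ)
      ((latT hℓ hℓM x : parabolicHoms ℤ (Gamma0 M) ℤ) : Additive (Gamma0 M) →+ ℤ) :=
  H06.isHeckeTr_heckeTr hℓ hℓM _

theorem latT_comm {M ℓ ℓ' : ℕ} [NeZero M] (hℓ : ℓ.Prime) (hℓM : ¬ ℓ ∣ M) (hℓ' : ℓ'.Prime)
    (hℓ'M : ¬ ℓ' ∣ M) (x : parabolicHoms ℤ (Gamma0 M) ℤ) :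
    latT hℓ hℓM (latT hℓ' hℓ'M x) = latT hℓ' hℓ'M (latT hℓ hℓM x) :=
  Subtype.ext (heckeTr_comm_int hℓ hℓM hℓ' hℓ'M _ x.2)

/-- The Hecke-module structure on the Betti lattice of level `M` over `MvPolynomial ι ℤ`, for a
family `pr : ι → ℕ` of primes not dividing `M`: `X i` acts as `T_{pr i}`. -/
@[reducible] noncomputable def latModule (M : ℕ) [NeZero M] {ι : Type*} (pr : ι → ℕ)
    (hpr : ∀ i, (pr i).Prime) (hprM : ∀ i, ¬ pr i ∣ M) :
    Module (MvPolynomial ι ℤ) (parabolicHoms ℤ (Gamma0 M) ℤ) :=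
  polyModule (fun i => latT (hpr i) (hprM i))
    (fun i j x => latT_comm (hpr i) (hprM i) (hpr j) (hprM j) x)

theorem latModule_X_smul (M : ℕ) [NeZero M] {ι : Type*} (pr : ι → ℕ)
    (hpr : ∀ i, (pr i).Prime) (hprM : ∀ i, ¬ pr i ∣ M) (i : ι)
    (x : parabolicHoms ℤ (Gamma0 M) ℤ) :
    letI := latModule M pr hpr hprM
    (MvPolynomial.X i : MvPolynomial ι ℤ) • x = latT (hpr i) (hprM i) x :=
  polyModule_X_smul _ _ i x

end Fermat.Agent.S41.H50
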