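import Mathlib

/-!
# (LR): the abstract level-raising core (Ribet's argument, module-theoretic form)

`lr_core`: let `L`, `L'` be modules over a commutative ring `R`, finitely generated over `ℤ`,
`i : L × L → L'` and `j : L' → L × L` two `R`-linear maps with
`j ∘ i = [[s, t], [t, s]]` (`s` an integer, `t` an `R`-endomorphism of `L`), `𝔫` a maximal ideal
of `R` containing the prime number `p`.  Assume

* (`hf`)   `L / (𝔫 L + (t - ε s) L) ≠ 0` for a sign `ε`  (the level raising congruence),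
* (`hIh`)  `i` is injective modulo `p` after localising at `𝔫`  (Ihara's lemma),
* (`hDual`) `j` is surjective modulo `p` after localising at `𝔫` (the dual statement).

Then `ker j ⊄ 𝔫 • ker j`, i.e. `𝔫` is in the support of the "new" submodule `ker j`.

`finite_fitting` is the finite Fitting lemma used in the proof.
-/

namespace Fermat.Agent.S41.H71

/-- Finite Fitting lemma: on a finite abelian group, if `c` and `D` are commuting additive
endomorphisms with `ker D ⊆ ker c`, then some power of `c` has image inside the image of `D`. -/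
theorem finite_fitting {X : Type*} [AddCommGroup X] [Finite X] (c D : X →+ X)
    (hcomm : ∀ x, c (D x) = D (c x)) (hker : ∀ x, D x = 0 → c x = 0) :
    ∃ N : ℕ, ∀ x, ∃ y, D y = (c^[N]) x := by
  obtain ⟨m, n, hmn, hEq⟩ :=
    Finite.exists_ne_map_eq_of_infinite (fun n : ℕ => ((c : X → X)^[n] : X → X))
  wlog hlt : m < n generalizing m n
  · exact this n m hmn.symm hEq.symm (lt_of_le_of_ne (not_lt.mp hlt) hmn.symm)
  obtain ⟨k, rfl⟩ := Nat.exists_eq_add_of_lt hlt
  have hfix : ∀ x, (c^[k + 1]) ((c^[m]) x) = (c^[m]) x := by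
    intro x
    have h1 : (c^[m]) x = (c^[m + k + 1]) x := congrFun hEq x
    rw [← Function.iterate_add_apply, show k + 1 + m = m + k + 1 by ring]
    exact h1.symm
  have hinj : ∀ x x', c ((c^[m]) x) = c ((c^[m]) x') → (c^[m]) x = (c^[m]) x' := by
    intro x x' h
    rw [← hfix x, ← hfix x', Function.iterate_succ_apply, Function.iterate_succ_apply, h]
  have hDc : ∀ (l : ℕ) (x : X), D ((c^[l]) x) = (c^[l]) (D x) := by
    intro l
    induction l with
    | zero => intro x; rfl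
    | succ l ih =>
      intro x
      rw [Function.iterate_succ_apply, ih, ← hcomm, ← Function.iterate_succ_apply]
  have hmaps : Set.MapsTo D (Set.range (c^[m])) (Set.range (c^[m])) := by
    rintro _ ⟨x, rfl⟩
    exact ⟨D x, (hDc m x).symm⟩
  have hinjOn : Set.InjOn D (Set.range (c^[m])) := by
    rintro _ ⟨x, rfl⟩ _ ⟨x', rfl⟩ h
    apply hinj
    have h0 : D ((c^[m]) x - (c^[m]) x') = 0 := by rw [map_sub, h, sub_self]
    have h1 := hker _ h0
    rwa [map_sub, sub_eq_zero] at h1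
  have hbij := ((Set.toFinite (Set.range (c^[m]))).injOn_iff_bijOn_of_mapsTo hmaps).mp hinjOn
  refine ⟨m, fun x => ?_⟩
  obtain ⟨y, -, hy⟩ := hbij.surjOn ⟨x, rfl⟩
  exact ⟨y, hy⟩

/-- **Abstract level raising** (Ribet). See the module docstring. -/
theorem lr_core {R : Type*} [CommRing R] {L L' : Type*} [AddCommGroup L] [Module R L]
    [AddCommGroup L'] [Module R L'] [Module.Finite ℤ L] [Module.Finite ℤ L']
    (p : ℕ) (hp : p ≠ 0) (𝔫 : Ideal R) [𝔫.IsMaximal] (hp𝔫 : (p : R) ∈ 𝔫)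
    (i : (L × L) →ₗ[R] L') (j : L' →ₗ[R] (L × L)) (s : ℤ) (t : L →ₗ[R] L)
    (hji : ∀ x y : L, j (i (x, y)) = (s • x + t y, t x + s • y))
    (ε : ℤ) (hε : ε = 1 ∨ ε = -1)
    (hf : ∃ x : L, x ∉ 𝔫 • (⊤ : Submodule R L) ⊔
      LinearMap.range (t - (ε * s) • (LinearMap.id : L →ₗ[R] L)))
    (hIh : ∃ r₀ : R, r₀ ∉ 𝔫 ∧ ∀ u : L × L, (∃ y : L', i u = (p : ℤ) • y) →
      ∃ v : L × L, r₀ • u = (p : ℤ) • v)
    (hDual : ∃ r₁ : R, r₁ ∉ 𝔫 ∧ ∀ u : L × L, ∃ (y : L') (v : L × L),
      r₁ • u = j y + (p : ℤ) • v) :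
    ¬ (LinearMap.ker j ≤ 𝔫 • LinearMap.ker j) := by
  intro hK
  obtain ⟨r₀, hr₀, hIh⟩ := hIh
  obtain ⟨r₁, hr₁, hDual⟩ := hDual
  have hmax : 𝔫.IsMaximal := inferInstance
  have h𝔫prime : 𝔫.IsPrime := hmax.isPrime
  have h1𝔫 : (1 : R) ∉ 𝔫 := (Ideal.ne_top_iff_one 𝔫).mp hmax.ne_top
  have hunit : ∀ r : R, r - 1 ∈ 𝔫 → r ∉ 𝔫 := by
    intro r hr h
    apply h1𝔫
    have h2 := 𝔫.sub_mem h hr
    simpa using h2
  -- conversion of the two scalar multiplications by `p`
  have hpL' : ∀ y : L', ((p : ℤ) • y) = (p : R) • y := by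
    intro y
    rw [← Int.cast_smul_eq_zsmul R (p : ℤ) y, Int.cast_natCast]
  have hpΛ : ∀ v : L × L, ((p : ℤ) • v) = (p : R) • v := by
    intro v
    rw [← Int.cast_smul_eq_zsmul R (p : ℤ) v, Int.cast_natCast]
  -- Step 1: Nakayama on `ker j`
  have : IsNoetherian ℤ L' := isNoetherian_of_isNoetherianRing_of_finite ℤ L'
  have : IsNoetherian R L' := isNoetherian_of_tower ℤ inferInstance
  obtain ⟨a, ha1, haK⟩ :=
    Submodule.exists_sub_one_mem_and_smul_eq_zero_of_fg_of_le_smul 𝔫 (LinearMap.ker j)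
      (IsNoetherian.noetherian _) hK
  have ha : a ∉ 𝔫 := hunit a ha1
  -- Step 2: Nakayama on the cokernel of `j`
  have : Module.Finite R (L × L) := Module.Finite.of_restrictScalars_finite ℤ R (L × L)
  have htop : (⊤ : Submodule R ((L × L) ⧸ LinearMap.range j)) ≤ 𝔫 • ⊤ := by
    intro x _
    obtain ⟨u, rfl⟩ := Submodule.mkQ_surjective _ x
    obtain ⟨b, n₀, hn₀, hb⟩ := hmax.exists_inv hr₁
    obtain ⟨y, v, hyv⟩ := hDual u
    have hu : u = j (b • y) + (b * (p : R)) • v + n₀ • u := by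
      calc u = (b * r₁ + n₀) • u := by rw [hb, one_smul]
        _ = b • (r₁ • u) + n₀ • u := by rw [add_smul, mul_smul]
        _ = _ := by rw [hyv, smul_add, map_smul, mul_smul, hpΛ]
    rw [hu]
    simp only [Submodule.mkQ_apply, Submodule.Quotient.mk_add, Submodule.Quotient.mk_smul]
    have h0 : Submodule.Quotient.mk (p := LinearMap.range j) (j (b • y)) = 0 :=
      (Submodule.Quotient.mk_eq_zero _).mpr ⟨_, rfl⟩
    rw [h0, zero_add]
    exact Submodule.add_mem _
      (Submodule.smul_mem_smul (𝔫.mul_mem_left b hp𝔫) Submodule.mem_top)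
      (Submodule.smul_mem_smul hn₀ Submodule.mem_top)
  obtain ⟨c₁, hc₁1, hc₁⟩ :=
    Submodule.exists_sub_one_mem_and_smul_eq_zero_of_fg_of_le_smul 𝔫
      (⊤ : Submodule R ((L × L) ⧸ LinearMap.range j)) Module.Finite.fg_top htop
  have hc₁𝔫 : c₁ ∉ 𝔫 := hunit c₁ hc₁1
  have hsurj : ∀ u : L × L, ∃ y : L', c₁ • u = j y := by
    intro u
    have h1 := hc₁ (Submodule.Quotient.mk u) Submodule.mem_top
    rw [← Submodule.Quotient.mk_smul, Submodule.Quotient.mk_eq_zero] at h1
    obtain ⟨y, hy⟩ := h1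
    exact ⟨y, hy.symm⟩
  -- Step 3: `j ∘ i` is injective mod `p` up to a unit at `𝔫`
  set c₂ : R := r₀ * (a * c₁) with hc₂def
  have hc₂𝔫 : c₂ ∉ 𝔫 := by
    intro h
    rcases h𝔫prime.mem_or_mem h with h | h
    · exact hr₀ h
    · rcases h𝔫prime.mem_or_mem h with h | h
      · exact ha h
      · exact hc₁𝔫 h
  have hinj : ∀ u w : L × L, j (i u) = (p : R) • w → ∃ v : L × L, c₂ • u = (p : R) • v := by
    intro u w huw
    obtain ⟨y', hy'⟩ := hsurj w
    have hker : c₁ • i u - (p : R) • y' ∈ LinearMap.ker j := by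
      rw [LinearMap.mem_ker, map_sub, map_smul, map_smul, huw, ← hy', smul_comm, sub_self]
    have h0 := haK _ hker
    rw [smul_sub, sub_eq_zero] at h0
    have h1 : i ((a * c₁) • u) = (p : ℤ) • (a • y') := by
      rw [map_smul, mul_smul, h0, hpL', smul_comm]
    obtain ⟨v, hv⟩ := hIh ((a * c₁) • u) ⟨_, h1⟩
    refine ⟨v, ?_⟩
    rw [hc₂def, mul_smul, hv, hpΛ]
  -- Step 4: the finite Fitting lemma on `Λ / pΛ`
  set P : Submodule R (L × L) := LinearMap.range (LinearMap.lsmul R (L × L) (p : R)) with hPdef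
  have hPmem : ∀ u : L × L, u ∈ P ↔ ∃ v : L × L, u = (p : R) • v := by
    intro u
    rw [hPdef, LinearMap.mem_range]
    constructor
    · rintro ⟨v, hv⟩
      exact ⟨v, hv.symm⟩
    · rintro ⟨v, hv⟩
      exact ⟨v, hv.symm⟩
  have : Module.Finite ℤ ((L × L) ⧸ P) :=
    Module.Finite.of_surjective ((Submodule.mkQ P).restrictScalars ℤ) (Submodule.mkQ_surjective P)
  have : Finite ((L × L) ⧸ P) := by
    apply Module.finite_of_fg_torsion
    intro x
    obtain ⟨u, rfl⟩ := Submodule.mkQ_surjective P x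
    refine ⟨⟨(p : ℤ), mem_nonZeroDivisors_of_ne_zero (by exact_mod_cast hp)⟩, ?_⟩
    show (p : ℤ) • Submodule.mkQ P u = 0
    rw [← map_zsmul, Submodule.mkQ_apply, Submodule.Quotient.mk_eq_zero, hPmem]
    exact ⟨u, hpΛ u⟩
  have hPle : P ≤ P.comap (j ∘ₗ i) := by
    intro u hu
    obtain ⟨v, rfl⟩ := (hPmem u).mp hu
    rw [Submodule.mem_comap, map_smul]
    exact (hPmem _).mpr ⟨_, rfl⟩
  obtain ⟨N, hN⟩ := finite_fitting
    (LinearMap.lsmul R ((L × L) ⧸ P) c₂).toAddMonoidHom (P.mapQ P (j ∘ₗ i) hPle).toAddMonoidHom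
    (by
      intro x
      show c₂ • (P.mapQ P (j ∘ₗ i) hPle) x = (P.mapQ P (j ∘ₗ i) hPle) (c₂ • x)
      rw [map_smul])
    (by
      intro x hx
      obtain ⟨u, rfl⟩ := Submodule.mkQ_surjective P x
      have hx' : (P.mapQ P (j ∘ₗ i) hPle) (Submodule.Quotient.mk u) = 0 := hx
      rw [Submodule.mapQ_apply, Submodule.Quotient.mk_eq_zero, hPmem] at hx'
      obtain ⟨w, hw⟩ := hx'
      obtain ⟨v, hv⟩ := hinj u w hw
      show c₂ • Submodule.mkQ P u = 0
      rw [← map_smul, Submodule.mkQ_apply, Submodule.Quotient.mk_eq_zero, hPmem]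
      exact ⟨v, hv⟩)
  set c₃ : R := c₂ ^ N with hc₃def
  have hc₃𝔫 : c₃ ∉ 𝔫 := fun h => hc₂𝔫 (h𝔫prime.mem_of_pow_mem N h)
  have hiter : ∀ (n : ℕ) (x : (L × L) ⧸ P),
      ((LinearMap.lsmul R ((L × L) ⧸ P) c₂).toAddMonoidHom^[n]) x = c₂ ^ n • x := by
    intro n
    induction n with
    | zero => intro x; simp
    | succ n ih =>
      intro x
      rw [Function.iterate_succ_apply', ih, pow_succ', mul_smul]
      rfl
  have hdelta : ∀ u : L × L, ∃ u' v : L × L, c₃ • u = j (i u') + (p : R) • v := by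
    intro u
    obtain ⟨y, hy⟩ := hN (Submodule.Quotient.mk u)
    obtain ⟨u', rfl⟩ := Submodule.mkQ_surjective P y
    rw [hiter] at hy
    have hy' : Submodule.Quotient.mk (p := P) (j (i u')) = Submodule.Quotient.mk (c₂ ^ N • u) := hy
    rw [eq_comm, Submodule.Quotient.eq, hPmem] at hy'
    obtain ⟨v, hv⟩ := hy'
    exact ⟨u', v, by rw [hc₃def, ← hv]; abel⟩
  -- Step 5 and 6: contradiction with `hf`
  obtain ⟨x, hx⟩ := hf
  apply hx
  obtain ⟨b, n₀, hn₀, hb⟩ := hmax.exists_inv hc₃𝔫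
  obtain ⟨⟨u₁, u₂⟩, ⟨v₁, v₂⟩, huv⟩ := hdelta (x, 0)
  rw [hji] at huv
  have e1 : c₃ • x = s • u₁ + t u₂ + (p : R) • v₁ := congrArg Prod.fst huv
  have e2 : (0 : L) = t u₁ + s • u₂ + (p : R) • v₂ := by
    have h2 := congrArg Prod.snd huv
    simpa using h2
  have key : c₃ • x = (t - (ε * s) • (LinearMap.id : L →ₗ[R] L)) (u₂ - ε • u₁) +
      (p : R) • (v₁ - ε • v₂) := by
    have e3 : c₃ • x = (s • u₁ + t u₂ + (p : R) • v₁) - ε • (t u₁ + s • u₂ + (p : R) • v₂) := by
      rw [← e2, smul_zero, sub_zero, e1]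
    rw [e3]
    rcases hε with rfl | rfl
    · simp only [one_mul, one_smul, LinearMap.sub_apply, LinearMap.smul_apply, LinearMap.id_apply,
        map_sub, smul_sub]
      abel
    · simp only [neg_one_mul, neg_smul, one_smul, LinearMap.smul_apply, LinearMap.id_apply,
        sub_neg_eq_add, map_add, smul_add, LinearMap.add_apply]
      abel
  have hxeq : x = (t - (ε * s) • (LinearMap.id : L →ₗ[R] L)) (b • (u₂ - ε • u₁)) +
      ((b * (p : R)) • (v₁ - ε • v₂) + n₀ • x) := by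
    calc x = (b * c₃ + n₀) • x := by rw [hb, one_smul]
      _ = b • (c₃ • x) + n₀ • x := by rw [add_smul, mul_smul]
      _ = _ := by rw [key, smul_add, map_smul, mul_smul b (p : R), add_assoc]
  rw [hxeq]
  refine Submodule.add_mem _ (Submodule.mem_sup_right ⟨_, rfl⟩) (Submodule.mem_sup_left ?_)
  exact Submodule.add_mem _
    (Submodule.smul_mem_smul (𝔫.mul_mem_left b hp𝔫) Submodule.mem_top)
    (Submodule.smul_mem_smul hn₀ Submodule.mem_top)

/-- Restating the conclusion of `lr_core` inside the submodule: `K ⊄ 𝔫 K` says that the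
`R`-module `↥K` is not killed by localising at `𝔫` (Nakayama form `⊤ ⊄ 𝔫 • ⊤`). -/
theorem not_top_le_smul_top_of_not_le {R : Type*} [CommRing R] {M : Type*} [AddCommGroup M]
    [Module R M] (K : Submodule R M) (𝔫 : Ideal R) (h : ¬ (K ≤ 𝔫 • K)) :
    ¬ ((⊤ : Submodule R K) ≤ 𝔫 • (⊤ : Submodule R K)) := by
  intro htop
  apply h
  have h1 := Submodule.map_mono (f := K.subtype) htop
  rwa [Submodule.map_smul'', Submodule.map_subtype_top] at h1

/-- A witness form of the conclusion of `lr_core`. -/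
theorem exists_mem_not_mem_smul_of_not_le {R : Type*} [CommRing R] {M : Type*} [AddCommGroup M]
    [Module R M] (K : Submodule R M) (𝔫 : Ideal R) (h : ¬ (K ≤ 𝔫 • K)) :
    ∃ x ∈ K, x ∉ 𝔫 • K := by
  by_contra hcon
  apply h
  intro x hx
  by_contra hx'
  exact hcon ⟨x, hx, hx'⟩

/-- If `𝔫` is in the support of the finitely generated module `K` (Nakayama form), then the image
of `𝔫` in any commutative ring `A` through which the action on `K` factors *injectively enough*
is a proper ideal.  Precisely: `φ : R →+* A`, `A` acts on an abelian group `V`, `e : K → V` is an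
injective additive map with `e (r • x) = φ r • e x` whose image is stable under `A`.  This is the
hypothesis `I ≠ ⊤` of the Deligne-Serre lifting lemma, for `I = Ideal.map φ 𝔫`. -/
theorem map_ne_top_of_not_top_le {R : Type*} [CommRing R] {K : Type*} [AddCommGroup K]
    [Module R K] (𝔫 : Ideal R) (h : ¬ ((⊤ : Submodule R K) ≤ 𝔫 • (⊤ : Submodule R K)))
    {A : Type*} [CommRing A] (φ : R →+* A) {V : Type*} [AddCommGroup V] [Module A V]
    (e : K →+ V) (he : Function.Injective e) (hcompat : ∀ (r : R) (x : K), e (r • x) = φ r • e x)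
    (hstab : ∀ (a : A) (x : K), ∃ y : K, e y = a • e x) :
    Ideal.map φ 𝔫 ≠ ⊤ := by
  intro htop
  apply h
  -- the set of `a : A` with `a • e K ⊆ e (𝔫 K)` is an ideal containing `φ 𝔫`
  let J : Ideal A :=
    { carrier := {a : A | ∀ x : K, ∃ y ∈ 𝔫 • (⊤ : Submodule R K), e y = a • e x}
      zero_mem' := fun x => ⟨0, Submodule.zero_mem _, by rw [map_zero, zero_smul]⟩
      add_mem' := by
        intro a b ha hb x
        obtain ⟨y, hy, hy'⟩ := ha x
        obtain ⟨z, hz, hz'⟩ := hb x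
        exact ⟨y + z, Submodule.add_mem _ hy hz, by rw [map_add, hy', hz', add_smul]⟩
      smul_mem' := by
        intro c a ha x
        obtain ⟨x', hx'⟩ := hstab c x
        obtain ⟨y, hy, hy'⟩ := ha x'
        exact ⟨y, hy, by rw [hy', hx', smul_eq_mul, mul_smul, smul_comm]⟩ }
  have hJ : Ideal.map φ 𝔫 ≤ J := by
    rw [Ideal.map_le_iff_le_comap]
    intro r hr x
    exact ⟨r • x, Submodule.smul_mem_smul hr Submodule.mem_top, hcompat r x⟩
  have h1 : (1 : A) ∈ J := hJ (htop ▸ Submodule.mem_top)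
  intro x _
  obtain ⟨y, hy, hy'⟩ := h1 x
  rw [one_smul] at hy'
  rwa [← he hy']

end Fermat.Agent.S41.H71
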