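import Mathlib
import Fermat.Agent.S41.BettiCusp_helper50
import Fermat.Agent.S41.HeckeMod_helper50
import Fermat.Agent.S41.LRCore_helper71
import Fermat.Agent.S41.Lattice_helper34
import Fermat.Agent.S49.LinAlg_h79

/-!
# S41, node (DS-BETTI) (helper50): from `K ⊄ 𝔫 K` on the Betti lattice to the eigenform

`exists_newAt_of_not_le_smul` : let `K` be a Hecke-stable submodule of the Betti lattice
`parabolicHoms ℤ Γ₀(M) ℤ` (module over `MvPolynomial ι ℤ`, `X i` acting as `T_{pr i}`) with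
`K ⊄ 𝔫 K` for an ideal `𝔫` containing `p` and the `X i - a i`, and suppose that the square of the
`U_q`-transfer fixes `K` pointwise.  Then there is a normalized eigenform `g` of level `M` and a
maximal ideal `𝔪' ∋ p` of the algebraic integers with `a_{pr i}(g) ≡ a i mod 𝔪'` for all `i` and
`a_q(g)² = 1`.
-/

set_option autoImplicit false

namespace Fermat.Agent.S41.H50

open CongruenceSubgroup ModularCurve ModularCurve.Period
open Fermat.Agent.S29 Fermat.Agent.S49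
open scoped MatrixGroups

/-! ### Complexification and the `ℂ`-linear transfer -/

/-- Complexification of integral characters. -/
noncomputable def castC (M : ℕ) : (Additive (Gamma0 M) →+ ℤ) →+ (Additive (Gamma0 M) →+ ℂ) :=
  AddMonoidHom.compHom (Int.castAddHom ℂ)

theorem castC_apply (M : ℕ) (χ : Additive (Gamma0 M) →+ ℤ) :
    castC M χ = (Int.castAddHom ℂ).comp χ := rfl

theorem castC_injective (M : ℕ) : Function.Injective (castC M) := by
  intro χ χ' h
  refine AddMonoidHom.ext fun γ => ?_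
  have h2 := DFunLike.congr_fun h γ
  exact Int.cast_injective (α := ℂ) h2

theorem heckeTr_congr_prime {M ℓ ℓ' : ℕ} (h : ℓ = ℓ') (hℓ : ℓ.Prime) (hℓM : ¬ ℓ ∣ M)
    (hℓ' : ℓ'.Prime) (hℓ'M : ¬ ℓ' ∣ M) {A : Type*} [AddCommGroup A]
    (χ : Additive (Gamma0 M) →+ A) :
    H06.heckeTr hℓ hℓM χ = H06.heckeTr hℓ' hℓ'M χ := by
  subst h
  rfl

/-- The `T_ℓ`-transfer on complex characters, as a `ℂ`-linear map. -/
noncomputable def heckeTrL {M ℓ : ℕ} (hℓ : ℓ.Prime) (hℓM : ¬ ℓ ∣ M) :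
    (Additive (Gamma0 M) →+ ℂ) →ₗ[ℂ] (Additive (Gamma0 M) →+ ℂ) where
  toFun := H06.heckeTr hℓ hℓM
  map_add' := map_add _
  map_smul' c χ :=
    ((isHeckeTr_smulC (H06.isHeckeTr_heckeTr hℓ hℓM χ) c).eq_heckeTr hℓ hℓM).symm

theorem heckeTrL_apply {M ℓ : ℕ} (hℓ : ℓ.Prime) (hℓM : ¬ ℓ ∣ M) (χ : Additive (Gamma0 M) →+ ℂ) :
    heckeTrL hℓ hℓM χ = H06.heckeTr hℓ hℓM χ := rfl

theorem heckeTrL_castC {M ℓ : ℕ} (hℓ : ℓ.Prime) (hℓM : ¬ ℓ ∣ M)
    (x : parabolicHoms ℤ (Gamma0 M) ℤ) :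
    heckeTrL hℓ hℓM (castC M (x : Additive (Gamma0 M) →+ ℤ)) =
      castC M ((latT hℓ hℓM x : parabolicHoms ℤ (Gamma0 M) ℤ) : Additive (Gamma0 M) →+ ℤ) := by
  rw [heckeTrL_apply, castC_apply, H06.heckeTr_comp]
  rfl

/-! ### The abstract Deligne-Serre step -/

/-- Instance-agnostic: a subgroup of a finitely generated abelian group is finitely generated. -/
theorem finite_int_of_injective {A B : Type*} [AddCommGroup A] [AddCommGroup B]
    (mA : Module ℤ A) (mB : Module ℤ B) (hB : @Module.Finite ℤ B _ _ mB) (f : A →+ B)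
    (hf : Function.Injective f) : @Module.Finite ℤ A _ _ mA := by
  have e1 : mA = AddCommGroup.toIntModule A := Subsingleton.elim _ _
  have e2 : mB = AddCommGroup.toIntModule B := Subsingleton.elim _ _
  subst e1 e2
  haveI := hB
  haveI : IsNoetherian ℤ B := isNoetherian_of_isNoetherianRing_of_finite ℤ B
  exact Module.Finite.of_injective f.toIntLinearMap hf

/-- Abstract form: a `ℤ`-finite module `K` over `MvPolynomial ι ℤ`, embedded as a spanning lattice
in a complex vector space `V` compatibly with commuting operators `g i` (the images of the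
`X i`), with `K ≠ 𝔫 K`.  Then the `g i` have a common eigenvector whose eigenvalues `c i` are
algebraic integers and satisfy `r(c) ∈ 𝔪'` for all `r ∈ 𝔫`, for some maximal ideal `𝔪'`. -/
theorem abstract_ds {ι : Type*} {K : Type*} [AddCommGroup K] [Module (MvPolynomial ι ℤ) K]
    (hfin : Module.Finite ℤ K)
    {V : Type*} [AddCommGroup V] [Module ℂ V] (g : ι → Module.End ℂ V)
    (hcomm : ∀ i j, g i * g j = g j * g i)
    (e : K →+ V) (he : Function.Injective e)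
    (hge : ∀ (i : ι) (x : K), e ((MvPolynomial.X i : MvPolynomial ι ℤ) • x) = g i (e x))
    (hspan : Submodule.span ℂ (Set.range e) = ⊤)
    (𝔫 : Ideal (MvPolynomial ι ℤ))
    (h𝔫 : ¬ ((⊤ : Submodule (MvPolynomial ι ℤ) K) ≤ 𝔫 • (⊤ : Submodule (MvPolynomial ι ℤ) K))) :
    ∃ (f : V) (c : ι → integralClosure ℤ ℂ) (𝔪' : Ideal (integralClosure ℤ ℂ)),
      f ≠ 0 ∧ (∀ i, g i f = ((c i : integralClosure ℤ ℂ) : ℂ) • f) ∧ 𝔪'.IsMaximal ∧
      ∀ r ∈ 𝔫, MvPolynomial.aeval c r ∈ 𝔪' := by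
  classical
  have hcomm' : ∀ s ∈ Set.range g, ∀ t ∈ Set.range g, s * t = t * s := by
    rintro _ ⟨i, rfl⟩ _ ⟨j, rfl⟩
    exact hcomm i j
  let instA : CommRing (Algebra.adjoin ℤ (Set.range g)) :=
    Algebra.adjoinCommRingOfComm ℤ hcomm'
  let φ : Algebra.adjoin ℤ (Set.range g) →+* Module.End ℂ V :=
    (Algebra.adjoin ℤ (Set.range g)).val.toRingHom
  have hφ : Function.Injective φ := Subtype.val_injective
  let gA : ι → Algebra.adjoin ℤ (Set.range g) := fun i => ⟨g i, Algebra.subset_adjoin ⟨i, rfl⟩⟩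
  have hφgA : ∀ i, φ (gA i) = g i := fun _ => rfl
  let ψ : MvPolynomial ι ℤ →+* Algebra.adjoin ℤ (Set.range g) :=
    (MvPolynomial.aeval (R := ℤ) gA).toRingHom
  have hψX : ∀ i, ψ (MvPolynomial.X i) = gA i := fun i => MvPolynomial.aeval_X _ _
  let instMod : Module (Algebra.adjoin ℤ (Set.range g)) V := Module.compHom V φ
  have hsmul : ∀ (t : Algebra.adjoin ℤ (Set.range g)) (v : V), t • v = φ t v := fun _ _ => rfl
  let Lz : Submodule ℤ V := LinearMap.range e.toIntLinearMap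
  have hLzmem : ∀ v, v ∈ Lz ↔ ∃ x : K, e x = v := fun v => Iff.rfl
  have hLstab : ∀ i, ∀ v ∈ Lz, g i v ∈ Lz := by
    rintro i _ ⟨x, rfl⟩
    exact ⟨(MvPolynomial.X i : MvPolynomial ι ℤ) • x, hge i x⟩
  have hstabA : ∀ (t : Algebra.adjoin ℤ (Set.range g)) (v : V), v ∈ Lz → φ t v ∈ Lz := by
    rintro ⟨t, ht⟩ x hx
    show t x ∈ Lz
    induction ht using Algebra.adjoin_induction generalizing x with
    | mem t ht =>
      obtain ⟨i, rfl⟩ := ht
      exact hLstab i x hx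
    | algebraMap n =>
      have h1 : (algebraMap ℤ (Module.End ℂ V) n) x = n • x := by
        rw [Algebra.algebraMap_eq_smul_one, LinearMap.smul_apply, Module.End.one_apply]
      rw [h1]
      exact Lz.smul_mem n hx
    | add s t _ _ hs ht =>
      rw [LinearMap.add_apply]
      exact Lz.add_mem (hs x hx) (ht x hx)
    | mul s t _ _ hs ht =>
      rw [Module.End.mul_apply]
      exact hs _ (ht x hx)
  have hcompat : ∀ (r : MvPolynomial ι ℤ) (x : K), e (r • x) = ψ r • e x := by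
    intro r
    induction r using MvPolynomial.induction_on with
    | C n =>
      intro x
      have h1 : (MvPolynomial.C n : MvPolynomial ι ℤ) = ((n : ℤ) : MvPolynomial ι ℤ) :=
        eq_intCast MvPolynomial.C n
      have h2 : ψ ((n : ℤ) : MvPolynomial ι ℤ) = ((n : ℤ) : Algebra.adjoin ℤ (Set.range g)) :=
        map_intCast ψ n
      have h3 : φ ((n : ℤ) : Algebra.adjoin ℤ (Set.range g)) = ((n : ℤ) : Module.End ℂ V) :=
        map_intCast φ n
      rw [h1, Int.cast_smul_eq_zsmul, map_zsmul, h2, hsmul, h3, Module.End.intCast_apply]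
    | add p q hp hq =>
      intro x
      have h2 : ψ (p + q) = ψ p + ψ q := map_add ψ p q
      rw [add_smul, map_add, hp, hq, h2, hsmul, hsmul, hsmul, map_add, LinearMap.add_apply]
    | mul_X p i hp =>
      intro x
      have h2 : ψ (p * MvPolynomial.X i) = ψ p * gA i := by rw [map_mul, hψX]
      rw [mul_smul, hp, h2, hge, hsmul, hsmul, map_mul, Module.End.mul_apply, hφgA]
  have hstab : ∀ (t : Algebra.adjoin ℤ (Set.range g)) (x : K), ∃ y : K, e y = t • e x :=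
    fun t x => (hLzmem _).mp (hstabA t (e x) ⟨x, rfl⟩)
  have hI : Ideal.map ψ 𝔫 ≠ ⊤ :=
    H71.map_ne_top_of_not_top_le 𝔫 h𝔫 ψ e he hcompat hstab
  have hLfg : Lz.FG := by
    have h1 := (Module.Finite.fg_top (R := ℤ) (M := K)).map e.toIntLinearMap
    rwa [Submodule.map_top] at h1
  have hLspan : Submodule.span ℂ (Lz : Set V) = ⊤ := by
    have h1 : (Lz : Set V) = Set.range e := by
      ext v
      exact Iff.rfl
    rw [h1, hspan]
  obtain ⟨f, θ, 𝔪', hf0, hfθ, h𝔪', hIθ⟩ :=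
    H79.abstract_lift φ hφ Lz hLfg hLspan hstabA (Ideal.map ψ 𝔫) hI
  refine ⟨f, fun i => θ (gA i), 𝔪', hf0, fun i => ?_, h𝔪', fun r hr => ?_⟩
  · have h1 := hfθ (gA i)
    rwa [hφgA] at h1
  · have h1 := hIθ _ (Ideal.mem_map_of_mem ψ hr)
    have h2 : θ.comp ψ = (MvPolynomial.aeval (R := ℤ) fun i => θ (gA i)).toRingHom := by
      refine MvPolynomial.ringHom_ext (fun n => ?_) (fun i => ?_)
      · have h3 : (MvPolynomial.C n : MvPolynomial ι ℤ) = ((n : ℤ) : MvPolynomial ι ℤ) :=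
          eq_intCast MvPolynomial.C n
        rw [h3, map_intCast, map_intCast]
      · show θ (ψ (MvPolynomial.X i)) = MvPolynomial.aeval (R := ℤ) (fun i => θ (gA i))
          (MvPolynomial.X i)
        rw [hψX, MvPolynomial.aeval_X]
    have h4 : θ (ψ r) = MvPolynomial.aeval (R := ℤ) (fun i => θ (gA i)) r :=
      RingHom.congr_fun h2 r
    rwa [h4] at h1

/-! ### The main theorem -/

/-- **(DS-BETTI)**: from `K ⊄ 𝔫 K` on the Betti lattice to the eigenform of the frozen S41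
conclusion. -/
theorem exists_newAt_of_not_le_smul {M q p : ℕ} [NeZero M] (hq : q.Prime) (hqM : q ∣ M)
    {ι : Type*} (pr : ι → ℕ) (hpr : ∀ i, (pr i).Prime) (hprM : ∀ i, ¬ pr i ∣ M)
    [Module (MvPolynomial ι ℤ) (parabolicHoms ℤ (Gamma0 M) ℤ)]
    (hX : ∀ (i : ι) (x : parabolicHoms ℤ (Gamma0 M) ℤ),
      (MvPolynomial.X i : MvPolynomial ι ℤ) • x = latT (hpr i) (hprM i) x)
    (a : ι → ℤ) (𝔫 : Ideal (MvPolynomial ι ℤ)) (hp𝔫 : ((p : ℕ) : MvPolynomial ι ℤ) ∈ 𝔫)
    (h𝔫 : ∀ i, MvPolynomial.X i - MvPolynomial.C (a i) ∈ 𝔫)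
    (K : Submodule (MvPolynomial ι ℤ) (parabolicHoms ℤ (Gamma0 M) ℤ)) (hK : ¬ (K ≤ 𝔫 • K))
    (hU : ∀ x ∈ K, ∃ x' : Additive (Gamma0 M) →+ ℤ,
      IsUTr M q ((x : parabolicHoms ℤ (Gamma0 M) ℤ) : Additive (Gamma0 M) →+ ℤ) x' ∧
        IsUTr M q x' ((x : parabolicHoms ℤ (Gamma0 M) ℤ) : Additive (Gamma0 M) →+ ℤ)) :
    ∃ (g : CuspForm (Gamma0 M) 2) (𝔪' : Ideal (integralClosure ℤ ℂ)),
      g.IsNormalizedEigenform ∧ 𝔪'.IsMaximal ∧ ((p : ℕ) : integralClosure ℤ ℂ) ∈ 𝔪' ∧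
      (∀ i, ∃ c : integralClosure ℤ ℂ, (c : ℂ) = ModularFormClass.qCoeff g (pr i) ∧
        c - ((a i : ℤ) : integralClosure ℤ ℂ) ∈ 𝔪') ∧ g.IsNewAt q := by
  classical
  -- the complexified lattice
  let e₀ : parabolicHoms ℤ (Gamma0 M) ℤ →+ (Additive (Gamma0 M) →+ ℂ) :=
    (castC M).comp (parabolicHoms ℤ (Gamma0 M) ℤ).subtype.toAddMonoidHom
  have he₀ : ∀ x, e₀ x = castC M (x : Additive (Gamma0 M) →+ ℤ) := fun _ => rfl
  let V : Submodule ℂ (Additive (Gamma0 M) →+ ℂ) :=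
    Submodule.span ℂ (e₀ '' (K : Set (parabolicHoms ℤ (Gamma0 M) ℤ)))
  have hVpar : V ≤ parabolicHoms ℂ (Gamma0 M) ℂ := by
    refine Submodule.span_le.mpr ?_
    rintro _ ⟨x, -, rfl⟩
    exact cast_mem_parabolicHoms x.2
  have hXK : ∀ i, ∀ x ∈ K, latT (hpr i) (hprM i) x ∈ K := fun i x hx => by
    rw [← hX i x]
    exact K.smul_mem _ hx
  have hVstab : ∀ i, ∀ v ∈ V, heckeTrL (hpr i) (hprM i) v ∈ V := by
    intro i v hv
    have hle : V.map (heckeTrL (hpr i) (hprM i)) ≤ V := by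
      rw [Submodule.map_span]
      refine Submodule.span_le.mpr ?_
      rintro _ ⟨_, ⟨x, hx, rfl⟩, rfl⟩
      rw [he₀, heckeTrL_castC]
      exact Submodule.subset_span ⟨latT (hpr i) (hprM i) x, hXK i x hx, rfl⟩
    exact hle (Submodule.mem_map_of_mem hv)
  -- restricted operators
  let g : ι → Module.End ℂ V := fun i => (heckeTrL (hpr i) (hprM i)).restrict (hVstab i)
  have hg : ∀ i (v : V), ((g i v : V) : Additive (Gamma0 M) →+ ℂ) =
      H06.heckeTr (hpr i) (hprM i) (v : Additive (Gamma0 M) →+ ℂ) := fun i v => rfl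
  have hcomm : ∀ i j, g i * g j = g j * g i := by
    intro i j
    refine LinearMap.ext fun v => Subtype.ext ?_
    rw [Module.End.mul_apply, Module.End.mul_apply, hg, hg, hg, hg]
    exact heckeTr_comm_complex (hpr i) (hprM i) (hpr j) (hprM j) _ (hVpar v.2)
  -- the embedding of `K`
  let e : K →+ V :=
    { toFun := fun x => ⟨e₀ x.1, Submodule.subset_span ⟨x.1, x.2, rfl⟩⟩
      map_zero' := Subtype.ext (map_zero e₀)
      map_add' := fun x y => Subtype.ext (map_add e₀ x.1 y.1) }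
  have hecoe : ∀ x : K, ((e x : V) : Additive (Gamma0 M) →+ ℂ) =
      castC M ((x : parabolicHoms ℤ (Gamma0 M) ℤ) : Additive (Gamma0 M) →+ ℤ) := fun _ => rfl
  have he : Function.Injective e := by
    intro x y hxy
    have h1 := congrArg (fun v : V => (v : Additive (Gamma0 M) →+ ℂ)) hxy
    simp only [hecoe] at h1
    exact Subtype.ext (Subtype.ext (castC_injective M h1))
  have hge : ∀ (i : ι) (x : K), e ((MvPolynomial.X i : MvPolynomial ι ℤ) • x) = g i (e x) := by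
    intro i x
    apply Subtype.ext
    rw [hg, hecoe, hecoe, Submodule.coe_smul, hX, ← heckeTrL_castC]
    rfl
  -- finiteness and span
  have hfinL : Module.Finite ℤ (parabolicHoms ℤ (Gamma0 M) ℤ) :=
    H34.finite_parabolicHoms_Gamma0 M
  have hfinK : @Module.Finite ℤ K _ _ (AddCommGroup.toIntModule K) :=
    finite_int_of_injective _ _ hfinL K.subtype.toAddMonoidHom (fun x y h => Subtype.ext h)
  have hspan : Submodule.span ℂ (Set.range e) = ⊤ := by
    apply Submodule.map_injective_of_injective V.injective_subtype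
    rw [Submodule.map_span, Submodule.map_subtype_top]
    have himg : (V.subtype '' (Set.range e)) = e₀ '' (K : Set (parabolicHoms ℤ (Gamma0 M) ℤ)) := by
      ext w
      constructor
      · rintro ⟨_, ⟨x, rfl⟩, rfl⟩
        exact ⟨x.1, x.2, rfl⟩
      · rintro ⟨x, hx, rfl⟩
        exact ⟨e ⟨x, hx⟩, ⟨⟨x, hx⟩, rfl⟩, rfl⟩
    rw [himg]
  obtain ⟨f, c, 𝔪', hf0, hfc, h𝔪', hIc⟩ :=
    abstract_ds hfinK g hcomm e he hge hspan 𝔫 (H71.not_top_le_smul_top_of_not_le K 𝔫 hK)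
  -- the eigenvector
  set v : Additive (Gamma0 M) →+ ℂ := (f : Additive (Gamma0 M) →+ ℂ) with hvdef
  have hv : v ∈ parabolicHoms ℂ (Gamma0 M) ℂ := hVpar f.2
  have hv0 : v ≠ 0 := fun h => hf0 (Subtype.ext h)
  have hTv : ∀ i, H06.heckeTr (hpr i) (hprM i) v = ((c i : integralClosure ℤ ℂ) : ℂ) • v := by
    intro i
    have h2 := congrArg (fun w : V => (w : Additive (Gamma0 M) →+ ℂ)) (hfc i)
    simpa only [hg, Submodule.coe_smul] using h2
  have hTi : ∀ i, H06.IsHeckeTr M (pr i) v (((c i : integralClosure ℤ ℂ) : ℂ) • v) := by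
    intro i
    have h1 := H06.isHeckeTr_heckeTr (hpr i) (hprM i) v
    rwa [hTv i] at h1
  have hci : ∀ i, c i - ((a i : ℤ) : integralClosure ℤ ℂ) ∈ 𝔪' := by
    intro i
    have h1 := hIc _ (h𝔫 i)
    rwa [map_sub, MvPolynomial.aeval_X, MvPolynomial.aeval_C, eq_intCast] at h1
  have hp' : ((p : ℕ) : integralClosure ℤ ℂ) ∈ 𝔪' := by
    have h1 := hIc _ hp𝔫
    rwa [map_natCast] at h1
  -- the `U_q`-relation on `V`
  have hUV : ∀ w ∈ V, ∃ w' : Additive (Gamma0 M) →+ ℂ, IsUTr M q w w' ∧ IsUTr M q w' w := by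
    intro w hw
    induction hw using Submodule.span_induction with
    | mem w hw =>
      obtain ⟨x, hx, rfl⟩ := hw
      obtain ⟨x', h1, h2⟩ := hU x hx
      exact ⟨castC M x', h1.comp (Int.castAddHom ℂ), h2.comp (Int.castAddHom ℂ)⟩
    | zero => exact ⟨0, IsUTr.zero, IsUTr.zero⟩
    | add w₁ w₂ _ _ h₁ h₂ =>
      obtain ⟨a₁, ha1, ha2⟩ := h₁
      obtain ⟨b₁, hb1, hb2⟩ := h₂
      exact ⟨a₁ + b₁, ha1.add hb1, ha2.add hb2⟩
    | smul z w _ h =>
      obtain ⟨a₁, ha1, ha2⟩ := h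
      exact ⟨z • a₁, ha1.smulC z, ha2.smulC z⟩
  -- apply the Betti-to-cusp export
  let lam : ℕ → ℂ := fun ℓ =>
    if h : ∃ i, pr i = ℓ then ((c h.choose : integralClosure ℤ ℂ) : ℂ) else 0
  have hlam : ∀ i, lam (pr i) = ((c i : integralClosure ℤ ℂ) : ℂ) := by
    intro i
    have h : ∃ j, pr j = pr i := ⟨i, rfl⟩
    simp only [lam, dif_pos h]
    have h1 := hTv h.choose
    rw [heckeTr_congr_prime h.choose_spec (hpr _) (hprM _) (hpr i) (hprM i), hTv i] at h1
    have h2 : (((c i : integralClosure ℤ ℂ) : ℂ) - ((c h.choose : integralClosure ℤ ℂ) : ℂ)) • v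
        = 0 := by
      rw [sub_smul, h1, sub_self]
    rcases smul_eq_zero.mp h2 with h3 | h3
    · exact (sub_eq_zero.mp h3).symm
    · exact absurd h3 hv0
  have hT : ∀ ℓ : ℕ, ℓ.Prime → ¬ ℓ ∣ M → (∃ i, pr i = ℓ) → H06.IsHeckeTr M ℓ v (lam ℓ • v) := by
    rintro ℓ - - ⟨i, rfl⟩
    rw [hlam i]
    exact hTi i
  obtain ⟨G, hGnorm, hGcoef, hGnew⟩ := exists_newAt_eigenform_of_betti hq hqM v hv hv0
    (fun ℓ => ∃ i, pr i = ℓ) lam hT (hUV v f.2)
  refine ⟨G, 𝔪', hGnorm, h𝔪', hp', fun i => ⟨c i, ?_, hci i⟩, hGnew⟩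
  rw [hGcoef (pr i) (hpr i) (hprM i) ⟨i, rfl⟩, hlam i]

end Fermat.Agent.S41.H50
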