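import Mathlib

/-!
# (LR), dual side, evaluation form: `hDual` of `lr_core` from a right non-degenerate pairing

The functionals on `L / p L` (for a lattice `L` of characters) are the evaluations at group
elements.  So the dual of Ihara's lemma can be tested against an arbitrary additive group `G` of
functionals on `Λ = L × L`, which only has to separate the points of `Λ / p Λ`.

* `exists_sep_of_evalPairing`: separation of a point from a subgroup modulo `p`.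
* `hDual_of_eval_gen` / `hDual_of_eval`: the hypothesis `hDual` of `H71.lr_core`.
-/

set_option autoImplicit false

namespace Fermat.Agent.S41.H39

/-- Separation modulo `p` by a family of functionals: `Q : G →+ Λ →+ ℤ` with
`(∀ g, p ∣ Q g x) → x ∈ p Λ`, `W` a subgroup containing `p Λ`, `x ∉ W`.  Then some `Q g ·`
vanishes modulo `p` on `W` but not at `x`. -/
theorem exists_sep_of_evalPairing {G Λ : Type*} [AddCommGroup G] [AddCommGroup Λ]
    [Module.Finite ℤ Λ] (p : ℕ) [Fact p.Prime] (Q : G →+ Λ →+ ℤ)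
    (hQ : ∀ x : Λ, (∀ g : G, (p : ℤ) ∣ Q g x) → ∃ w : Λ, x = (p : ℤ) • w)
    (W : AddSubgroup Λ) (hW : ∀ v : Λ, (p : ℤ) • v ∈ W) (x : Λ) (hx : x ∉ W) :
    ∃ g : G, (∀ w ∈ W, (p : ℤ) ∣ Q g w) ∧ ¬ (p : ℤ) ∣ Q g x := by
  classical
  have hp0 : p ≠ 0 := (Fact.out : p.Prime).ne_zero
  have hmk0 : ∀ k : Λ, ModN.mkQ p k = 0 ↔ ∃ w : Λ, k = (p : ℤ) • w := by
    intro k
    show Submodule.Quotient.mk k = 0 ↔ _
    rw [Submodule.Quotient.mk_eq_zero, LinearMap.mem_range]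
    constructor
    · rintro ⟨w, hw⟩
      exact ⟨w, hw.symm⟩
    · rintro ⟨w, hw⟩
      exact ⟨w, hw.symm⟩
  have hmksurj : Function.Surjective (ModN.mkQ p : Λ →+ ModN Λ p) :=
    Submodule.mkQ_surjective _
  have hfin : Finite (ModN Λ p) := by
    have : Module.Finite ℤ (ModN Λ p) :=
      Module.Finite.of_surjective (Submodule.mkQ _) (Submodule.mkQ_surjective _)
    apply Module.finite_of_fg_torsion
    intro y
    obtain ⟨u, rfl⟩ := hmksurj y
    refine ⟨⟨(p : ℤ), mem_nonZeroDivisors_of_ne_zero (by exact_mod_cast hp0)⟩, ?_⟩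
    show (p : ℤ) • ModN.mkQ p u = 0
    rw [← map_zsmul, hmk0]
    exact ⟨u, rfl⟩
  have hfd : Module.Finite (ZMod p) (ModN Λ p) := Module.Finite.of_finite
  have hpz : ∀ a : ZMod p, p • a = 0 := fun a => by
    rw [nsmul_eq_mul, ZMod.natCast_self, zero_mul]
  -- the map `Ψ : G → V^*`
  let Ψ₀ : G → (ModN Λ p →ₗ[ZMod p] ZMod p) := fun k =>
    ModN.liftEquiv'.symm ⟨(Int.castAddHom (ZMod p)).comp (Q k), fun g => hpz _⟩
  have hΨ₀ : ∀ k v, Ψ₀ k (ModN.mkQ p v) = ((Q k v : ℤ) : ZMod p) := fun k v => rfl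
  let Ψ : G →+ (ModN Λ p →ₗ[ZMod p] ZMod p) := AddMonoidHom.mk' Ψ₀ (by
    intro a b
    apply LinearMap.ext
    intro y
    obtain ⟨v, rfl⟩ := hmksurj y
    rw [LinearMap.add_apply, hΨ₀, hΨ₀, hΨ₀, map_add, AddMonoidHom.add_apply, Int.cast_add])
  have hΨ : ∀ k v, Ψ k (ModN.mkQ p v) = ((Q k v : ℤ) : ZMod p) := fun k v => rfl
  -- its range is a subspace which separates points, hence everything
  let S : Submodule (ZMod p) (Module.Dual (ZMod p) (ModN Λ p)) :=
    AddSubgroup.toZModSubmodule p Ψ.range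
  have hS : ∀ f, f ∈ S ↔ ∃ g : G, Ψ g = f := fun f => Iff.rfl
  have hco : S.dualCoannihilator = ⊥ := by
    rw [eq_bot_iff]
    intro y hy
    rw [Submodule.mem_dualCoannihilator] at hy
    obtain ⟨k, rfl⟩ := hmksurj y
    rw [Submodule.mem_bot, hmk0]
    apply hQ
    intro g
    have h1 := hy (Ψ g) ((hS _).mpr ⟨g, rfl⟩)
    rw [hΨ] at h1
    exact (ZMod.intCast_zmod_eq_zero_iff_dvd _ _).mp h1
  have hStop : S = ⊤ := by
    have h1 := Subspace.dualCoannihilator_dualAnnihilator_eq (W := S)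
    rw [hco, Submodule.dualAnnihilator_bot] at h1
    exact h1.symm
  -- the subspace `W̄`
  let Wbar : Submodule (ZMod p) (ModN Λ p) := AddSubgroup.toZModSubmodule p (W.map (ModN.mkQ p))
  have hWbar : ∀ y, y ∈ Wbar ↔ ∃ w ∈ W, ModN.mkQ p w = y := fun y => Iff.rfl
  have hxW : ModN.mkQ p x ∉ Wbar := by
    rw [hWbar]
    rintro ⟨w, hw, hwx⟩
    apply hx
    have h1 : ModN.mkQ p (x - w) = 0 := by rw [map_sub, hwx, sub_self]
    obtain ⟨z, hz⟩ := (hmk0 _).mp h1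
    have h2 : x = w + (p : ℤ) • z := by rw [← hz]; abel
    rw [h2]
    exact W.add_mem hw (hW z)
  obtain ⟨f, hfx, hfW⟩ := Submodule.exists_dual_map_eq_bot_of_notMem hxW inferInstance
  have hfS : f ∈ S := by rw [hStop]; exact Submodule.mem_top
  obtain ⟨g, rfl⟩ := (hS f).mp hfS
  refine ⟨g, ?_, ?_⟩
  · intro w hw
    have h1 : Ψ g (ModN.mkQ p w) ∈ Wbar.map (Ψ g) :=
      Submodule.mem_map_of_mem ((hWbar _).mpr ⟨w, hw, rfl⟩)
    rw [hfW, Submodule.mem_bot, hΨ] at h1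
    exact (ZMod.intCast_zmod_eq_zero_iff_dvd _ _).mp h1
  · intro hdiv
    apply hfx
    rw [hΨ]
    exact (ZMod.intCast_zmod_eq_zero_iff_dvd _ _).mpr hdiv

/-- **Dual Ihara, evaluation form** (general `Λ`).  `G` an additive group of functionals on `Λ`
separating the points of `Λ / p Λ`.  If every functional `Q g` which vanishes modulo `p` on the
image of `j` also vanishes modulo `p` on `r₁ Λ`, then `r₁ Λ ⊆ j L' + p Λ`. -/
theorem hDual_of_eval_gen {R : Type*} [CommRing R] {Λ L' G : Type*} [AddCommGroup Λ] [Module R Λ]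
    [AddCommGroup L'] [Module R L'] [Module.Finite ℤ Λ] [AddCommGroup G] (p : ℕ) [Fact p.Prime]
    (j : L' →ₗ[R] Λ) (Q : G →+ Λ →+ ℤ)
    (hQ : ∀ x : Λ, (∀ g : G, (p : ℤ) ∣ Q g x) → ∃ w : Λ, x = (p : ℤ) • w)
    (r₁ : R)
    (hkey : ∀ g : G, (∀ z : L', (p : ℤ) ∣ Q g (j z)) → ∀ u : Λ, (p : ℤ) ∣ Q g (r₁ • u)) :
    ∀ u : Λ, ∃ (y : L') (v : Λ), r₁ • u = j y + (p : ℤ) • v := by
  intro u
  by_contra hcon
  let W : AddSubgroup Λ := j.toAddMonoidHom.range ⊔ (zsmulAddGroupHom (p : ℤ) : Λ →+ Λ).range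
  have hWmem : ∀ x, x ∈ W ↔ ∃ y v, x = j y + (p : ℤ) • v := by
    intro x
    rw [AddSubgroup.mem_sup]
    constructor
    · rintro ⟨_, ⟨y, rfl⟩, _, ⟨v, rfl⟩, h⟩
      exact ⟨y, v, h.symm⟩
    · rintro ⟨y, v, rfl⟩
      exact ⟨_, ⟨y, rfl⟩, _, ⟨v, rfl⟩, rfl⟩
  have hx : r₁ • u ∉ W := fun h => hcon ((hWmem _).mp h)
  obtain ⟨g, hgW, hgx⟩ := exists_sep_of_evalPairing p Q hQ W
    (fun v => (hWmem _).mpr ⟨0, v, by rw [map_zero, zero_add]⟩) (r₁ • u) hx
  exact hgx (hkey g (fun z => hgW (j z) ((hWmem _).mpr ⟨z, 0, by rw [smul_zero, add_zero]⟩)) u)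

/-- **Dual Ihara, evaluation form**, in the literal shape of the hypothesis `hDual` of
`H71.lr_core` (for a given `r₁`). -/
theorem hDual_of_eval {R : Type*} [CommRing R] {L L' G : Type*} [AddCommGroup L] [Module R L]
    [AddCommGroup L'] [Module R L'] [Module.Finite ℤ L] [AddCommGroup G] (p : ℕ) [Fact p.Prime]
    (j : L' →ₗ[R] (L × L)) (Q : G →+ (L × L) →+ ℤ)
    (hQ : ∀ u : L × L, (∀ g : G, (p : ℤ) ∣ Q g u) → ∃ w : L × L, u = (p : ℤ) • w)
    (r₁ : R)
    (hkey : ∀ g : G, (∀ z : L', (p : ℤ) ∣ Q g (j z)) → ∀ u : L × L, (p : ℤ) ∣ Q g (r₁ • u)) :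
    ∀ u : L × L, ∃ (y : L') (v : L × L), r₁ • u = j y + (p : ℤ) • v :=
  hDual_of_eval_gen p j Q hQ r₁ hkey

/-- The evaluation pairing of a pair of subgroups of characters: `G = Additive Γ × Additive Γ`
acts on `L × L`, `L ≤ Hom(Γ, ℤ)`, by `((γ₁, γ₂), (x₁, x₂)) ↦ x₁ γ₁ + x₂ γ₂`. -/
def evalPairing {Γ : Type*} [Group Γ] (L : AddSubgroup (Additive Γ →+ ℤ)) :
    (Additive Γ × Additive Γ) →+ (L × L) →+ ℤ :=
  AddMonoidHom.mk'
    (fun g => AddMonoidHom.mk' (fun u => (u.1 : Additive Γ →+ ℤ) g.1 + (u.2 : Additive Γ →+ ℤ) g.2)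
      (by
        intro a b
        simp only [Prod.fst_add, Prod.snd_add, AddSubgroup.coe_add, AddMonoidHom.add_apply]
        abel))
    (by
      intro a b
      apply AddMonoidHom.ext
      intro u
      simp only [AddMonoidHom.mk'_apply, AddMonoidHom.add_apply, Prod.fst_add, Prod.snd_add,
        map_add]
      abel)

theorem evalPairing_apply {Γ : Type*} [Group Γ] (L : AddSubgroup (Additive Γ →+ ℤ))
    (g : Additive Γ × Additive Γ) (u : L × L) :
    evalPairing L g u = (u.1 : Additive Γ →+ ℤ) g.1 + (u.2 : Additive Γ →+ ℤ) g.2 := rfl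

/-- The evaluation pairing separates the points of `(L × L) / p (L × L)` as soon as `L` is
saturated at `p` (a character in `L` with values divisible by `p` is `p` times an element of `L`).
-/
theorem evalPairing_sep {Γ : Type*} [Group Γ] (L : AddSubgroup (Additive Γ →+ ℤ)) (p : ℕ)
    (hsat : ∀ x : L, (∀ γ : Γ, (p : ℤ) ∣ (x : Additive Γ →+ ℤ) (Additive.ofMul γ)) →
      ∃ w : L, x = (p : ℤ) • w)
    (u : L × L) (hu : ∀ g : Additive Γ × Additive Γ, (p : ℤ) ∣ evalPairing L g u) :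
    ∃ w : L × L, u = (p : ℤ) • w := by
  obtain ⟨w₁, hw₁⟩ := hsat u.1 (fun γ => by
    have h := hu (Additive.ofMul γ, 0)
    rwa [evalPairing_apply, map_zero, add_zero] at h)
  obtain ⟨w₂, hw₂⟩ := hsat u.2 (fun γ => by
    have h := hu (0, Additive.ofMul γ)
    rwa [evalPairing_apply, map_zero, zero_add] at h)
  exact ⟨(w₁, w₂), Prod.ext hw₁ hw₂⟩

end Fermat.Agent.S41.H39
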