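import Mathlib
import Fermat.Agent.S41.LevelOps_helper19
import Fermat.Agent.S41.HeckeComm_helper36

/-!
# S41, node (G-B5): the Hecke transfers commute with the level operators of `LevelOps_helper19`

`T_ℓ = S29.H06.heckeTr` (any level prime to `ℓ`) commutes with `H19.resOp`, `H19.coresOp`,
`H19.wOp` (for `ℓ ∤ N q`), and `H19.tOp = S29.H06.heckeTr` at `q`.  These are the instances of
`H36.tr_repT_res`, `H36.tr_repT_cores`, `H36.tr_repT_al` for the concrete families.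
-/

set_option autoImplicit false

namespace Fermat.Agent.S41.H53

open CongruenceSubgroup
open Fermat.Agent Fermat.Agent.S22
open scoped MatrixGroups

variable {N q ℓ : ℕ} {A : Type*} [AddCommGroup A]

/-- The Hecke transfer of the S29 files is the transfer along `H56.repT ℓ`. -/
theorem heckeTr_eq_tr {M : ℕ} (hℓ : ℓ.Prime) (hℓM : ¬ ℓ ∣ M)
    (hT : H06.IsTrFam (H19.gl M) (H19.gl M) (H56.repT ℓ)) (χ : Additive (Gamma0 M) →+ A) :
    S29.H06.heckeTr hℓ hℓM χ = H06.tr (H19.gl_injective M) hT χ := by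
  symm
  apply S29.H06.IsHeckeTr.eq_heckeTr hℓ hℓM
  intro γ σ g' hd
  exact H06.tr_apply (H19.gl_injective M) hT χ hd

/-- `H19.tOp` is the Hecke transfer `T_q`. -/
theorem tOp_eq_heckeTr (hq : q.Prime) (hqN : ¬ q ∣ N) (χ : Additive (Gamma0 N) →+ A) :
    H19.tOp hq hqN χ = S29.H06.heckeTr hq hqN χ :=
  (heckeTr_eq_tr hq hqN (H19.isTrFam_T hq hqN) χ).symm

/-- **(5a)** `T_ℓ (res χ) = res (T_ℓ χ)`. -/
theorem heckeTr_resOp (hℓ : ℓ.Prime) (hℓN : ¬ ℓ ∣ N) (hℓNq : ¬ ℓ ∣ N * q)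
    (χ : Additive (Gamma0 N) →+ A) :
    S29.H06.heckeTr hℓ hℓNq (H19.resOp N q χ) = H19.resOp N q (S29.H06.heckeTr hℓ hℓN χ) := by
  rw [heckeTr_eq_tr hℓ hℓNq (H19.isTrFam_T hℓ hℓNq), heckeTr_eq_tr hℓ hℓN (H19.isTrFam_T hℓ hℓN)]
  exact H36.tr_repT_res (H19.gl N) (H19.gl (N * q)) (fun _ => rfl) (fun _ => rfl)
    (H19.gl_injective N) (H19.gl_injective (N * q)) (H19.isTrFam_res N q)
    (H19.isTrFam_T hℓ hℓN) (H19.isTrFam_T hℓ hℓNq) χ

/-- The representatives `H19.beta` form a complete irredundant system for `Γ₀(N q) \ Γ₀(N)`. -/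
theorem beta_existsUnique (hq : q.Prime) (hqN : ¬ q ∣ N) (γ : Gamma0 N) :
    ∃! x, ∃ h : Gamma0 (N * q),
      (γ : SL(2, ℤ)) = (h : SL(2, ℤ)) * (H19.beta N q x : SL(2, ℤ)) := by
  obtain ⟨y, g', hy⟩ := H19.cores_cover hq hqN γ
  have h1 : γ = H19.incl N q g' * H19.beta N q y := by
    apply H19.gl_injective N
    rw [map_mul, H19.gl_incl]
    exact hy
  refine ⟨y, ⟨g', ?_⟩, ?_⟩
  · rw [h1]
    rfl
  · rintro x ⟨h, hx⟩
    have h2 : H19.beta N q x = H19.incl N q (h⁻¹ * g') * H19.beta N q y := by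
      apply Subtype.ext
      have h3 : ((H19.incl N q g' * H19.beta N q y : Gamma0 N) : SL(2, ℤ)) =
          (h : SL(2, ℤ)) * (H19.beta N q x : SL(2, ℤ)) := by
        rw [← h1]
        exact hx
      have h4 : ((H19.incl N q (h⁻¹ * g') * H19.beta N q y : Gamma0 N) : SL(2, ℤ)) =
          (h : SL(2, ℤ))⁻¹ * ((H19.incl N q g' * H19.beta N q y : Gamma0 N) : SL(2, ℤ)) := by
        show ((h⁻¹ * g' : Gamma0 (N * q)) : SL(2, ℤ)) * _ = _
        rw [Subgroup.coe_mul, Subgroup.coe_inv, mul_assoc]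
        rfl
      rw [h4, h3, inv_mul_cancel_left]
    refine H19.cores_inj hq hqN x y (h⁻¹ * g') ?_
    show H19.gl N (H19.beta N q x) = _
    rw [h2, map_mul, H19.gl_incl]
    rfl

/-- **(5b)** `cores (T_ℓ ψ) = T_ℓ (cores ψ)`. -/
theorem coresOp_heckeTr (hq : q.Prime) (hqN : ¬ q ∣ N) (hℓ : ℓ.Prime) (hℓN : ¬ ℓ ∣ N)
    (hℓNq : ¬ ℓ ∣ N * q) (ψ : Additive (Gamma0 (N * q)) →+ A) :
    H19.coresOp hq hqN (S29.H06.heckeTr hℓ hℓNq ψ) =
      S29.H06.heckeTr hℓ hℓN (H19.coresOp hq hqN ψ) := by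
  rw [heckeTr_eq_tr hℓ hℓNq (H19.isTrFam_T hℓ hℓNq), heckeTr_eq_tr hℓ hℓN (H19.isTrFam_T hℓ hℓN)]
  exact H36.tr_repT_cores (H19.gl N) (H19.gl (N * q)) hℓ hℓNq (fun _ => rfl) (fun _ => rfl)
    (H19.gl_injective N) (H19.gl_injective (N * q)) (H19.beta N q) (beta_existsUnique hq hqN)
    (H19.isTrFam_cores hq hqN) (H19.isTrFam_T hℓ hℓN) (H19.isTrFam_T hℓ hℓNq) ψ

/-- **(5c)** `T_ℓ (w ψ) = w (T_ℓ ψ)`. -/
theorem heckeTr_wOp (hq : q.Prime) (hqN : ¬ q ∣ N) (hℓ : ℓ.Prime) (hℓNq : ¬ ℓ ∣ N * q)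
    (ψ : Additive (Gamma0 (N * q)) →+ A) :
    S29.H06.heckeTr hℓ hℓNq (H19.wOp hq hqN ψ) =
      H19.wOp hq hqN (S29.H06.heckeTr hℓ hℓNq ψ) := by
  rw [heckeTr_eq_tr hℓ hℓNq (H19.isTrFam_T hℓ hℓNq), heckeTr_eq_tr hℓ hℓNq (H19.isTrFam_T hℓ hℓNq)]
  refine H36.tr_repT_al (H19.gl (N * q)) hℓ hℓNq (fun _ => rfl) (H19.gl_injective (N * q))
    (H19.omega N q) 1 (H19.b0 N q) 1 (H19.d0 N q) ?_ ?_ (H19.isTrFam_w hq hqN)
    (H19.isTrFam_T hℓ hℓNq) ψ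
  · have h0 := H19.bez hq hqN
    linear_combination h0
  · rw [H19.omega, H19.G2_coe (H19.det_omega hq hqN)]
    ext i j
    fin_cases i <;> fin_cases j <;> simp <;> ring

end Fermat.Agent.S41.H53
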