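import Mathlib

/-!
# S41, node (POLY) + (NID) (helper59)

* `polyHom T hT : MvPolynomial I ℤ →+* AddMonoid.End L` : the ring homomorphism attached to a
  commuting family `T : I → AddMonoid.End L` of additive endomorphisms (`X i ↦ T i`).
* `polyModule T hT : Module (MvPolynomial I ℤ) L` : the corresponding module structure
  (use with `letI`); `X i • x = T i x`, `C n • x = n • x`.
* `map_smul_of_forall_X`, `linearOfForallX` : for arbitrary `MvPolynomial I ℤ`-modules, an additive
  map commuting with all `X i` is linear.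
* `restrictFam` : restriction of a family to a stable `ℤ`-submodule / additive subgroup.
* `evalIdeal p a` : the kernel of `MvPolynomial I ℤ → ZMod p`, `X i ↦ a i`; it is maximal for `p`
  prime, contains `p`, `X i - C c ∈ evalIdeal p a ↔ a i = c` in `ZMod p`, and any evaluation
  `aeval b` with `b i ≡ a i` modulo an ideal `𝔪 ∋ p` maps it into `𝔪`.
-/

set_option autoImplicit false

namespace Fermat.Agent.S41.H59

open MvPolynomial

section PolyHom

variable {I : Type*} {L : Type*} [AddCommGroup L]

/-- The family, viewed in the `ℤ`-algebra `Module.End ℤ L`. -/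
noncomputable def famLin (T : I → AddMonoid.End L) : I → Module.End ℤ L :=
  fun i => addMonoidEndRingEquivInt L (T i)

theorem famLin_comm (T : I → AddMonoid.End L) (hT : ∀ i j, T i * T j = T j * T i) :
    ∀ a ∈ Set.range (famLin T), ∀ b ∈ Set.range (famLin T), a * b = b * a := by
  rintro _ ⟨i, rfl⟩ _ ⟨j, rfl⟩
  simp only [famLin, ← map_mul, hT i j]

/-- The ring homomorphism `MvPolynomial I ℤ →+* AddMonoid.End L`, `X i ↦ T i`, attached to a
commuting family of additive endomorphisms. -/
noncomputable def polyHom (T : I → AddMonoid.End L) (hT : ∀ i j, T i * T j = T j * T i) :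
    MvPolynomial I ℤ →+* AddMonoid.End L :=
  letI : CommRing (Algebra.adjoin ℤ (Set.range (famLin T))) :=
    Algebra.adjoinCommRingOfComm ℤ (famLin_comm T hT)
  (((addMonoidEndRingEquivInt L).symm : Module.End ℤ L →+* AddMonoid.End L).comp
      (Algebra.adjoin ℤ (Set.range (famLin T))).val.toRingHom).comp
    (MvPolynomial.aeval (R := ℤ)
      (fun i => (⟨famLin T i, Algebra.subset_adjoin ⟨i, rfl⟩⟩ :
        Algebra.adjoin ℤ (Set.range (famLin T))))).toRingHom

theorem polyHom_X (T : I → AddMonoid.End L) (hT : ∀ i j, T i * T j = T j * T i) (i : I) :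
    polyHom T hT (X i) = T i := by
  have h : polyHom T hT (X i) = (addMonoidEndRingEquivInt L).symm (famLin T i) := by
    letI : CommRing (Algebra.adjoin ℤ (Set.range (famLin T))) :=
      Algebra.adjoinCommRingOfComm ℤ (famLin_comm T hT)
    simp only [polyHom, RingHom.coe_comp, Function.comp_apply, AlgHom.toRingHom_eq_coe,
      RingHom.coe_coe, MvPolynomial.aeval_X, Subalgebra.coe_val]
  rw [h, famLin, RingEquiv.symm_apply_apply]

theorem polyHom_C (T : I → AddMonoid.End L) (hT : ∀ i j, T i * T j = T j * T i) (n : ℤ) (x : L) :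
    polyHom T hT (C n) x = n • x := by
  have h : (C n : MvPolynomial I ℤ) = (n : MvPolynomial I ℤ) := by simp
  rw [h, map_intCast]
  simp

/-- The `MvPolynomial I ℤ`-module structure on `L` attached to a commuting family of additive
endomorphisms.  Use with `letI := polyModule T hT`. -/
@[reducible] noncomputable def polyModule (T : I → AddMonoid.End L)
    (hT : ∀ i j, T i * T j = T j * T i) : Module (MvPolynomial I ℤ) L :=
  Module.compHom L (polyHom T hT)

theorem polyModule_smul (T : I → AddMonoid.End L) (hT : ∀ i j, T i * T j = T j * T i)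
    (r : MvPolynomial I ℤ) (x : L) :
    letI := polyModule T hT
    r • x = polyHom T hT r x := rfl

theorem polyModule_X_smul (T : I → AddMonoid.End L) (hT : ∀ i j, T i * T j = T j * T i)
    (i : I) (x : L) :
    letI := polyModule T hT
    (X i : MvPolynomial I ℤ) • x = T i x := by
  show polyHom T hT (X i) x = T i x
  rw [polyHom_X]

theorem polyModule_C_smul (T : I → AddMonoid.End L) (hT : ∀ i j, T i * T j = T j * T i)
    (n : ℤ) (x : L) :
    letI := polyModule T hT
    (C n : MvPolynomial I ℤ) • x = n • x := by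
  show polyHom T hT (C n) x = n • x
  rw [polyHom_C]

end PolyHom

section Linear

variable {I : Type*} {M M' : Type*} [AddCommGroup M] [AddCommGroup M']
  [Module (MvPolynomial I ℤ) M] [Module (MvPolynomial I ℤ) M']

/-- For arbitrary `MvPolynomial I ℤ`-modules: an additive map commuting with all `X i` commutes
with all scalars. -/
theorem map_smul_of_forall_X (f : M →+ M')
    (hf : ∀ i x, f ((X i : MvPolynomial I ℤ) • x) = (X i : MvPolynomial I ℤ) • f x)
    (r : MvPolynomial I ℤ) (x : M) : f (r • x) = r • f x := by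
  induction r using MvPolynomial.induction_on generalizing x with
  | C n =>
    have h : (C n : MvPolynomial I ℤ) = (n : MvPolynomial I ℤ) := by simp
    rw [h, Int.cast_smul_eq_zsmul, Int.cast_smul_eq_zsmul, map_zsmul]
  | add p q hp hq => rw [add_smul, add_smul, map_add, hp, hq]
  | mul_X p i hp => rw [mul_smul, hp, hf, mul_smul]

/-- An additive map commuting with all `X i` is `MvPolynomial I ℤ`-linear. -/
noncomputable def linearOfForallX (f : M →+ M')
    (hf : ∀ i x, f ((X i : MvPolynomial I ℤ) • x) = (X i : MvPolynomial I ℤ) • f x) :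
    M →ₗ[MvPolynomial I ℤ] M' where
  toFun := f
  map_add' := f.map_add
  map_smul' := fun r x => by
    simpa using map_smul_of_forall_X f hf r x

@[simp]
theorem linearOfForallX_apply (f : M →+ M')
    (hf : ∀ i x, f ((X i : MvPolynomial I ℤ) • x) = (X i : MvPolynomial I ℤ) • f x) (x : M) :
    linearOfForallX f hf x = f x := rfl

end Linear

section Restrict

variable {I : Type*} {M : Type*} [AddCommGroup M]

/-- Restriction of a family of additive endomorphisms to a stable `ℤ`-submodule. -/
def restrictFam (K : Submodule ℤ M) (T : I → AddMonoid.End M)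
    (hK : ∀ i, ∀ x ∈ K, T i x ∈ K) : I → AddMonoid.End K :=
  fun i =>
    { toFun := fun x => ⟨T i x, hK i x x.2⟩
      map_zero' := by
        apply Subtype.ext
        simp
      map_add' := fun x y => by
        apply Subtype.ext
        simp }

@[simp]
theorem coe_restrictFam_apply (K : Submodule ℤ M) (T : I → AddMonoid.End M)
    (hK : ∀ i, ∀ x ∈ K, T i x ∈ K) (i : I) (x : K) :
    ((restrictFam K T hK i x : K) : M) = T i x := rfl

theorem restrictFam_comm (K : Submodule ℤ M) (T : I → AddMonoid.End M)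
    (hK : ∀ i, ∀ x ∈ K, T i x ∈ K) (hT : ∀ i j, T i * T j = T j * T i) (i j : I) :
    restrictFam K T hK i * restrictFam K T hK j = restrictFam K T hK j * restrictFam K T hK i := by
  apply AddMonoidHom.ext
  intro x
  apply Subtype.ext
  exact DFunLike.congr_fun (hT i j) (x : M)

/-- Restriction of a family of additive endomorphisms to a stable additive subgroup. -/
def restrictFamSubgroup (K : AddSubgroup M) (T : I → AddMonoid.End M)
    (hK : ∀ i, ∀ x ∈ K, T i x ∈ K) : I → AddMonoid.End K :=
  fun i =>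
    { toFun := fun x => ⟨T i x, hK i x x.2⟩
      map_zero' := by
        apply Subtype.ext
        simp
      map_add' := fun x y => by
        apply Subtype.ext
        simp }

@[simp]
theorem coe_restrictFamSubgroup_apply (K : AddSubgroup M) (T : I → AddMonoid.End M)
    (hK : ∀ i, ∀ x ∈ K, T i x ∈ K) (i : I) (x : K) :
    ((restrictFamSubgroup K T hK i x : K) : M) = T i x := rfl

theorem restrictFamSubgroup_comm (K : AddSubgroup M) (T : I → AddMonoid.End M)
    (hK : ∀ i, ∀ x ∈ K, T i x ∈ K) (hT : ∀ i j, T i * T j = T j * T i) (i j : I) :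
    restrictFamSubgroup K T hK i * restrictFamSubgroup K T hK j =
      restrictFamSubgroup K T hK j * restrictFamSubgroup K T hK i := by
  apply AddMonoidHom.ext
  intro x
  apply Subtype.ext
  exact DFunLike.congr_fun (hT i j) (x : M)

end Restrict

section EvalIdeal

variable {I : Type*}

/-- The evaluation `MvPolynomial I ℤ →+* ZMod p`, `X i ↦ a i`. -/
noncomputable def evalHom (p : ℕ) (a : I → ℤ) : MvPolynomial I ℤ →+* ZMod p :=
  MvPolynomial.eval₂Hom (Int.castRingHom (ZMod p)) fun i => (a i : ZMod p)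

@[simp]
theorem evalHom_X (p : ℕ) (a : I → ℤ) (i : I) : evalHom p a (X i) = (a i : ZMod p) := by
  simp [evalHom]

@[simp]
theorem evalHom_C (p : ℕ) (a : I → ℤ) (n : ℤ) : evalHom p a (C n) = (n : ZMod p) := by
  simp [evalHom]

theorem evalHom_eq (p : ℕ) (a : I → ℤ) :
    evalHom p a = (Int.castRingHom (ZMod p)).comp (MvPolynomial.eval a) := by
  apply MvPolynomial.ringHom_ext
  · intro n
    simp
  · intro i
    simp

theorem evalHom_surjective (p : ℕ) (a : I → ℤ) : Function.Surjective (evalHom p a) := by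
  intro z
  obtain ⟨n, rfl⟩ := ZMod.intCast_surjective z
  exact ⟨C n, by simp⟩

/-- The ideal `𝔫 = ker (MvPolynomial I ℤ → ZMod p, X i ↦ a i)`. -/
noncomputable def evalIdeal (p : ℕ) (a : I → ℤ) : Ideal (MvPolynomial I ℤ) :=
  RingHom.ker (evalHom p a)

theorem mem_evalIdeal_iff (p : ℕ) (a : I → ℤ) (r : MvPolynomial I ℤ) :
    r ∈ evalIdeal p a ↔ evalHom p a r = 0 := Iff.rfl

theorem mem_evalIdeal_iff_dvd (p : ℕ) (a : I → ℤ) (r : MvPolynomial I ℤ) :
    r ∈ evalIdeal p a ↔ (p : ℤ) ∣ MvPolynomial.eval a r := by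
  rw [mem_evalIdeal_iff, evalHom_eq]
  simpa using (CharP.intCast_eq_zero_iff (ZMod p) p (MvPolynomial.eval a r))

theorem evalIdeal_isMaximal (p : ℕ) [Fact p.Prime] (a : I → ℤ) : (evalIdeal p a).IsMaximal :=
  RingHom.ker_isMaximal_of_surjective (evalHom p a) (evalHom_surjective p a)

theorem evalIdeal_ne_top (p : ℕ) [Fact p.Prime] (a : I → ℤ) : evalIdeal p a ≠ ⊤ :=
  (evalIdeal_isMaximal p a).ne_top

theorem natCast_mem_evalIdeal (p : ℕ) (a : I → ℤ) : (p : MvPolynomial I ℤ) ∈ evalIdeal p a := by
  rw [mem_evalIdeal_iff, map_natCast, ZMod.natCast_self]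

theorem intCast_mem_evalIdeal (p : ℕ) (a : I → ℤ) : ((p : ℤ) : MvPolynomial I ℤ) ∈ evalIdeal p a := by
  have h := natCast_mem_evalIdeal p a
  simpa using h

theorem X_sub_C_mem_evalIdeal_iff (p : ℕ) (a : I → ℤ) (i : I) (c : ℤ) :
    (X i - C c : MvPolynomial I ℤ) ∈ evalIdeal p a ↔ (a i : ZMod p) = (c : ZMod p) := by
  rw [mem_evalIdeal_iff, map_sub, evalHom_X, evalHom_C, sub_eq_zero]

theorem X_sub_C_not_mem_evalIdeal (p : ℕ) (a : I → ℤ) (i : I) (c : ℤ)
    (h : (a i : ZMod p) ≠ (c : ZMod p)) : (X i - C c : MvPolynomial I ℤ) ∉ evalIdeal p a :=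
  fun hmem => h ((X_sub_C_mem_evalIdeal_iff p a i c).1 hmem)

/-- Congruence of evaluations: if `b i ≡ a i` modulo `𝔪` for all `i` then
`aeval b r ≡ eval a r` modulo `𝔪`. -/
theorem aeval_sub_eval_mem {S : Type*} [CommRing S] (𝔪 : Ideal S) (a : I → ℤ) (b : I → S)
    (hb : ∀ i, b i - (a i : S) ∈ 𝔪) (r : MvPolynomial I ℤ) :
    MvPolynomial.aeval b r - ((MvPolynomial.eval a r : ℤ) : S) ∈ 𝔪 := by
  induction r using MvPolynomial.induction_on with
  | C n => simp
  | add p q hp hq =>
    have h : MvPolynomial.aeval b (p + q) - ((MvPolynomial.eval a (p + q) : ℤ) : S) =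
        (MvPolynomial.aeval b p - ((MvPolynomial.eval a p : ℤ) : S)) +
          (MvPolynomial.aeval b q - ((MvPolynomial.eval a q : ℤ) : S)) := by
      simp only [map_add, Int.cast_add]
      ring
    rw [h]
    exact 𝔪.add_mem hp hq
  | mul_X p i hp =>
    have h : MvPolynomial.aeval b (p * X i) - ((MvPolynomial.eval a (p * X i) : ℤ) : S) =
        (MvPolynomial.aeval b p - ((MvPolynomial.eval a p : ℤ) : S)) * b i +
          ((MvPolynomial.eval a p : ℤ) : S) * (b i - (a i : S)) := by
      simp only [map_mul, MvPolynomial.aeval_X, MvPolynomial.eval_X, Int.cast_mul]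
      ring
    rw [h]
    exact 𝔪.add_mem (𝔪.mul_mem_right _ hp) (𝔪.mul_mem_left _ (hb i))

/-- `θ(𝔫) ⊆ 𝔪`: an evaluation `aeval b` whose values are congruent to `a` modulo an ideal `𝔪`
containing `p` maps `evalIdeal p a` into `𝔪`. -/
theorem aeval_mem_of_mem_evalIdeal {S : Type*} [CommRing S] (𝔪 : Ideal S) {p : ℕ}
    (hp : (p : S) ∈ 𝔪) (a : I → ℤ) (b : I → S) (hb : ∀ i, b i - (a i : S) ∈ 𝔪)
    {r : MvPolynomial I ℤ} (hr : r ∈ evalIdeal p a) : MvPolynomial.aeval b r ∈ 𝔪 := by
  obtain ⟨k, hk⟩ := (mem_evalIdeal_iff_dvd p a r).1 hr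
  have h1 := aeval_sub_eval_mem 𝔪 a b hb r
  have h2 : ((MvPolynomial.eval a r : ℤ) : S) ∈ 𝔪 := by
    rw [hk]
    push_cast
    exact 𝔪.mul_mem_right _ hp
  have h3 := 𝔪.add_mem h1 h2
  simpa using h3

/-- The same for an arbitrary ring homomorphism `θ` with prescribed values on the variables. -/
theorem map_mem_of_mem_evalIdeal {S : Type*} [CommRing S] (𝔪 : Ideal S) {p : ℕ}
    (hp : (p : S) ∈ 𝔪) (a : I → ℤ) (θ : MvPolynomial I ℤ →+* S)
    (hθ : ∀ i, θ (X i) - (a i : S) ∈ 𝔪)
    {r : MvPolynomial I ℤ} (hr : r ∈ evalIdeal p a) : θ r ∈ 𝔪 := by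
  have hθ' : θ = (MvPolynomial.aeval (R := ℤ) fun i => θ (X i)).toRingHom := by
    apply MvPolynomial.ringHom_ext
    · intro n
      simp
    · intro i
      simp
  rw [hθ']
  exact aeval_mem_of_mem_evalIdeal 𝔪 hp a (fun i => θ (X i)) hθ hr

end EvalIdeal

end Fermat.Agent.S41.H59
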