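import Mathlib
import Fermat.Prelude.Def_FLTPrelim_Modularity
import Fermat.Agent.S41.HeckeOps_helper53
import Fermat.Agent.S41.HeckeMod_helper50
import Fermat.Agent.S41.ParOps_helper97
import Fermat.Agent.S41.PolyModule_helper59

/-!
# S41, node (G): the set-up of the level raising argument (definitions)

* `Lat M` : the Betti lattice `parabolicHoms ℤ Γ₀(M) ℤ`.
* `Idx W N q p` : the index type of the Hecke variables (good primes `ℓ ∤ N q`, `ℓ ≠ p`);
  `MvPolynomial (Idx W N q p) ℤ` acts on `Lat N` and on `Lat (N * q)` (`X ℓ` acts as `T_ℓ`).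
* `resL`, `wL`, `coresL` : the level operators of `LevelOps_helper19` on the lattices.
* `iMap (x, y) = res x + w (res y)`, `jMap z = (cores z, cores (w z))`, `tMap = T_q` :
  the linear maps of `H71.lr_core`, with `jMap_iMap` (= `hji`).
* `r0 i = X i - C (i + 1)`, `nIdeal` : the Eisenstein element and the maximal ideal of `W` mod `p`.
* `DualStmt` (bundled, literally `hDual` of `H71.lr_core`) and `DualStmtU` (unbundled), with
  `dualStmt_of_unbundled`.
-/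

set_option autoImplicit false

namespace Fermat.Agent.S41.H53

open CongruenceSubgroup ModularCurve.Period
open Fermat.Agent
open scoped MatrixGroups

/-- The Betti lattice of level `M`. -/
abbrev Lat (M : ℕ) : Type := ↥(parabolicHoms ℤ (Gamma0 M) ℤ)

/-- The Hecke variables: good primes `ℓ ∤ N q`, `ℓ ≠ p`. -/
abbrev Idx (W : WeierstrassCurve ℤ) (N q p : ℕ) : Type :=
  {ℓ : ℕ // ℓ.Prime ∧ W.IsGoodPrimeFor ℓ ∧ ¬ ℓ ∣ N * q ∧ ℓ ≠ p}

section Basic

variable {W : WeierstrassCurve ℤ} {N q p : ℕ}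

theorem Idx.prime (i : Idx W N q p) : (i : ℕ).Prime := i.2.1

theorem Idx.good (i : Idx W N q p) : W.IsGoodPrimeFor (i : ℕ) := i.2.2.1

theorem Idx.not_dvd_mul (i : Idx W N q p) : ¬ (i : ℕ) ∣ N * q := i.2.2.2.1

theorem Idx.not_dvd (i : Idx W N q p) : ¬ (i : ℕ) ∣ N :=
  fun h => i.2.2.2.1 (Dvd.dvd.mul_right h q)

theorem Idx.ne (i : Idx W N q p) : (i : ℕ) ≠ p := i.2.2.2.2

/-- `X ℓ` acts on the lattice of level `N` as `T_ℓ`. -/
noncomputable instance instModuleLat [NeZero N] :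
    Module (MvPolynomial (Idx W N q p) ℤ) (Lat N) :=
  H50.latModule N (fun i : Idx W N q p => (i : ℕ)) (fun i => i.prime) (fun i => i.not_dvd)

/-- `X ℓ` acts on the lattice of level `N q` as `T_ℓ`. -/
noncomputable instance instModuleLatMul [NeZero (N * q)] :
    Module (MvPolynomial (Idx W N q p) ℤ) (Lat (N * q)) :=
  H50.latModule (N * q) (fun i : Idx W N q p => (i : ℕ)) (fun i => i.prime)
    (fun i => i.not_dvd_mul)

theorem X_smul_lat [NeZero N] (i : Idx W N q p) (x : Lat N) :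
    (MvPolynomial.X i : MvPolynomial (Idx W N q p) ℤ) • x = H50.latT i.prime i.not_dvd x :=
  H50.latModule_X_smul N (fun i : Idx W N q p => (i : ℕ)) (fun i => i.prime)
    (fun i => i.not_dvd) i x

theorem X_smul_latMul [NeZero (N * q)] (i : Idx W N q p) (z : Lat (N * q)) :
    (MvPolynomial.X i : MvPolynomial (Idx W N q p) ℤ) • z = H50.latT i.prime i.not_dvd_mul z :=
  H50.latModule_X_smul (N * q) (fun i : Idx W N q p => (i : ℕ)) (fun i => i.prime)
    (fun i => i.not_dvd_mul) i z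

/-- Constants act through the `ℤ`-module structure (any `MvPolynomial ι ℤ`-module). -/
theorem C_smul_eq {ι M : Type*} [AddCommGroup M] [Module (MvPolynomial ι ℤ) M] (n : ℤ) (x : M) :
    (MvPolynomial.C n : MvPolynomial ι ℤ) • x = n • x := by
  have h1 : (MvPolynomial.C n : MvPolynomial ι ℤ) = ((n : ℤ) : MvPolynomial ι ℤ) :=
    eq_intCast MvPolynomial.C n
  rw [h1, Int.cast_smul_eq_zsmul]

end Basic

/-! ### The level operators on the lattices -/

section Ops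

variable {N q : ℕ}

/-- Restriction `Lat N → Lat (N q)`. -/
noncomputable def resL (N q : ℕ) : Lat N →+ Lat (N * q) :=
  (H97.trPar (H19.isTrFam_res N q)).toAddMonoidHom

/-- The Atkin–Lehner operator on `Lat (N q)`. -/
noncomputable def wL (hq : q.Prime) (hqN : ¬ q ∣ N) : Lat (N * q) →+ Lat (N * q) :=
  (H97.trPar (H19.isTrFam_w hq hqN)).toAddMonoidHom

/-- Corestriction `Lat (N q) → Lat N`. -/
noncomputable def coresL (hq : q.Prime) (hqN : ¬ q ∣ N) : Lat (N * q) →+ Lat N :=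
  (H97.trPar (H19.isTrFam_cores hq hqN)).toAddMonoidHom

@[simp] theorem coe_resL (x : Lat N) :
    ((resL N q x : Lat (N * q)) : Additive (Gamma0 (N * q)) →+ ℤ) =
      H19.resOp N q (x : Additive (Gamma0 N) →+ ℤ) := rfl

@[simp] theorem coe_wL (hq : q.Prime) (hqN : ¬ q ∣ N) (z : Lat (N * q)) :
    ((wL hq hqN z : Lat (N * q)) : Additive (Gamma0 (N * q)) →+ ℤ) =
      H19.wOp hq hqN (z : Additive (Gamma0 (N * q)) →+ ℤ) := rfl

@[simp] theorem coe_coresL (hq : q.Prime) (hqN : ¬ q ∣ N) (z : Lat (N * q)) :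
    ((coresL hq hqN z : Lat N) : Additive (Gamma0 N) →+ ℤ) =
      H19.coresOp hq hqN (z : Additive (Gamma0 (N * q)) →+ ℤ) := rfl

/-- `T_ℓ (res x) = res (T_ℓ x)` on the lattices. -/
theorem latT_resL {ℓ : ℕ} (hℓ : ℓ.Prime) (hℓN : ¬ ℓ ∣ N) (hℓNq : ¬ ℓ ∣ N * q) (x : Lat N) :
    H50.latT hℓ hℓNq (resL N q x) = resL N q (H50.latT hℓ hℓN x) :=
  Subtype.ext (heckeTr_resOp hℓ hℓN hℓNq _)

/-- `T_ℓ (w z) = w (T_ℓ z)` on the lattice of level `N q`. -/
theorem latT_wL (hq : q.Prime) (hqN : ¬ q ∣ N) {ℓ : ℕ} (hℓ : ℓ.Prime) (hℓNq : ¬ ℓ ∣ N * q)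
    (z : Lat (N * q)) :
    H50.latT hℓ hℓNq (wL hq hqN z) = wL hq hqN (H50.latT hℓ hℓNq z) :=
  Subtype.ext (heckeTr_wOp hq hqN hℓ hℓNq _)

/-- `cores (T_ℓ z) = T_ℓ (cores z)` on the lattices. -/
theorem coresL_latT (hq : q.Prime) (hqN : ¬ q ∣ N) {ℓ : ℕ} (hℓ : ℓ.Prime) (hℓN : ¬ ℓ ∣ N)
    (hℓNq : ¬ ℓ ∣ N * q) (z : Lat (N * q)) :
    coresL hq hqN (H50.latT hℓ hℓNq z) = H50.latT hℓ hℓN (coresL hq hqN z) :=
  Subtype.ext (coresOp_heckeTr hq hqN hℓ hℓN hℓNq _)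

/-- The additive map `(x, y) ↦ res x + w (res y)`. -/
noncomputable def i0 (hq : q.Prime) (hqN : ¬ q ∣ N) : Lat N × Lat N →+ Lat (N * q) :=
  (resL N q).coprod ((wL hq hqN).comp (resL N q))

/-- The additive map `z ↦ (cores z, cores (w z))`. -/
noncomputable def j0 (hq : q.Prime) (hqN : ¬ q ∣ N) : Lat (N * q) →+ Lat N × Lat N :=
  (coresL hq hqN).prod ((coresL hq hqN).comp (wL hq hqN))

theorem i0_apply (hq : q.Prime) (hqN : ¬ q ∣ N) (x y : Lat N) :
    i0 hq hqN (x, y) = resL N q x + wL hq hqN (resL N q y) := rfl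

theorem j0_apply (hq : q.Prime) (hqN : ¬ q ∣ N) (z : Lat (N * q)) :
    j0 hq hqN z = (coresL hq hqN z, coresL hq hqN (wL hq hqN z)) := rfl

end Ops

/-! ### The linear maps of `lr_core` -/

section Linear

variable (W : WeierstrassCurve ℤ) {N q : ℕ} (p : ℕ) [NeZero N] [NeZero (N * q)]

/-- `i (x, y) = res x + w (res y)`, Hecke linear. -/
noncomputable def iMap (hq : q.Prime) (hqN : ¬ q ∣ N) :
    (Lat N × Lat N) →ₗ[MvPolynomial (Idx W N q p) ℤ] Lat (N * q) :=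
  H50.linearOfX (i0 hq hqN) (by
    rintro i ⟨x, y⟩
    rw [Prod.smul_mk, X_smul_lat, X_smul_lat, X_smul_latMul, i0_apply, i0_apply, map_add,
      latT_resL i.prime i.not_dvd i.not_dvd_mul, latT_wL hq hqN i.prime i.not_dvd_mul,
      latT_resL i.prime i.not_dvd i.not_dvd_mul])

/-- `j z = (cores z, cores (w z))`, Hecke linear. -/
noncomputable def jMap (hq : q.Prime) (hqN : ¬ q ∣ N) :
    Lat (N * q) →ₗ[MvPolynomial (Idx W N q p) ℤ] (Lat N × Lat N) :=
  H50.linearOfX (j0 hq hqN) (by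
    intro i z
    rw [X_smul_latMul, j0_apply, j0_apply, Prod.smul_mk, X_smul_lat, X_smul_lat,
      ← latT_wL hq hqN i.prime i.not_dvd_mul,
      coresL_latT hq hqN i.prime i.not_dvd i.not_dvd_mul,
      coresL_latT hq hqN i.prime i.not_dvd i.not_dvd_mul])

omit [NeZero (N * q)] in
/-- `t = T_q` on the lattice of level `N`, Hecke linear. -/
noncomputable def tMap (hq : q.Prime) (hqN : ¬ q ∣ N) :
    Lat N →ₗ[MvPolynomial (Idx W N q p) ℤ] Lat N :=
  H50.linearOfX (H50.latT hq hqN) (by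
    intro i x
    rw [X_smul_lat, X_smul_lat]
    exact (H50.latT_comm i.prime i.not_dvd hq hqN x).symm)

variable {W p}

@[simp] theorem iMap_apply (hq : q.Prime) (hqN : ¬ q ∣ N) (x y : Lat N) :
    iMap W p hq hqN (x, y) = resL N q x + wL hq hqN (resL N q y) := rfl

@[simp] theorem jMap_apply (hq : q.Prime) (hqN : ¬ q ∣ N) (z : Lat (N * q)) :
    jMap W p hq hqN z = (coresL hq hqN z, coresL hq hqN (wL hq hqN z)) := rfl

omit [NeZero (N * q)] in
@[simp] theorem tMap_apply (hq : q.Prime) (hqN : ¬ q ∣ N) (x : Lat N) :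
    tMap W p hq hqN x = H50.latT hq hqN x := rfl

theorem coe_iMap (hq : q.Prime) (hqN : ¬ q ∣ N) (x y : Lat N) :
    ((iMap W p hq hqN (x, y) : Lat (N * q)) : Additive (Gamma0 (N * q)) →+ ℤ) =
      H19.resOp N q (x : Additive (Gamma0 N) →+ ℤ) +
        H19.wOp hq hqN (H19.resOp N q (y : Additive (Gamma0 N) →+ ℤ)) := rfl

theorem coe_jMap_fst (hq : q.Prime) (hqN : ¬ q ∣ N) (z : Lat (N * q)) :
    (((jMap W p hq hqN z).1 : Lat N) : Additive (Gamma0 N) →+ ℤ) =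
      H19.coresOp hq hqN (z : Additive (Gamma0 (N * q)) →+ ℤ) := rfl

theorem coe_jMap_snd (hq : q.Prime) (hqN : ¬ q ∣ N) (z : Lat (N * q)) :
    (((jMap W p hq hqN z).2 : Lat N) : Additive (Gamma0 N) →+ ℤ) =
      H19.coresOp hq hqN (H19.wOp hq hqN (z : Additive (Gamma0 (N * q)) →+ ℤ)) := rfl

/-- **`hji` of `lr_core`**: `j (i (x, y)) = ((q+1) x + T_q y, T_q x + (q+1) y)`. -/
theorem jMap_iMap (hq : q.Prime) (hqN : ¬ q ∣ N) (x y : Lat N) :
    jMap W p hq hqN (iMap W p hq hqN (x, y)) =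
      (((q : ℤ) + 1) • x + tMap W p hq hqN y, tMap W p hq hqN x + ((q : ℤ) + 1) • y) := by
  have e : ((q : ℤ) + 1) = ((q + 1 : ℕ) : ℤ) := by push_cast; ring
  refine Prod.ext (Subtype.ext ?_) (Subtype.ext ?_)
  · rw [coe_jMap_fst, coe_iMap, H19.coresOp_i, tOp_eq_heckeTr, e, natCast_zsmul]
    rfl
  · rw [coe_jMap_snd, coe_iMap, H19.coresOp_wOp_i, tOp_eq_heckeTr, e, natCast_zsmul]
    rfl

end Linear

/-! ### The Eisenstein element and the maximal ideal -/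

section Ideal

variable {W : WeierstrassCurve ℤ} {N q p : ℕ}

/-- `r₀ = T_r - (r + 1)` as an element of the Hecke polynomial ring. -/
noncomputable def r0 (i : Idx W N q p) : MvPolynomial (Idx W N q p) ℤ :=
  MvPolynomial.X i - MvPolynomial.C (((i : ℕ) : ℤ) + 1)

theorem r0_smul_lat [NeZero N] (i : Idx W N q p) (x : Lat N) :
    r0 i • x = H50.latT i.prime i.not_dvd x - (((i : ℕ) : ℤ) + 1) • x := by
  rw [r0, sub_smul, X_smul_lat, C_smul_eq]

theorem coe_r0_smul_lat [NeZero N] (i : Idx W N q p) (x : Lat N) :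
    ((r0 i • x : Lat N) : Additive (Gamma0 N) →+ ℤ) =
      S29.H06.heckeTr i.prime i.not_dvd (x : Additive (Gamma0 N) →+ ℤ) -
        (((i : ℕ) : ℤ) + 1) • (x : Additive (Gamma0 N) →+ ℤ) := by
  rw [r0_smul_lat]
  rfl

theorem r0_smul_prod [NeZero N] (i : Idx W N q p) (x y : Lat N) :
    r0 i • (x, y) = (r0 i • x, r0 i • y) := rfl

variable (W N q p)

/-- The maximal ideal of the Hecke polynomial ring cut out by `W` modulo `p`:
the kernel of `X ℓ ↦ a_ℓ(W) mod p`. -/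
noncomputable def nIdeal : Ideal (MvPolynomial (Idx W N q p) ℤ) :=
  H59.evalIdeal p (fun i : Idx W N q p => W.apOfModel (i : ℕ))

theorem nIdeal_isMaximal [Fact p.Prime] : (nIdeal W N q p).IsMaximal :=
  H59.evalIdeal_isMaximal p _

theorem natCast_mem_nIdeal : ((p : ℕ) : MvPolynomial (Idx W N q p) ℤ) ∈ nIdeal W N q p :=
  H59.natCast_mem_evalIdeal p _

variable {W N q p}

theorem X_sub_C_mem_nIdeal (i : Idx W N q p) :
    MvPolynomial.X i - MvPolynomial.C (W.apOfModel (i : ℕ)) ∈ nIdeal W N q p :=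
  (H59.X_sub_C_mem_evalIdeal_iff p _ i _).mpr rfl

theorem r0_not_mem_nIdeal (i : Idx W N q p)
    (h : ((W.apOfModel (i : ℕ) : ℤ) : ZMod p) ≠ ((i : ℕ) : ZMod p) + 1) :
    r0 i ∉ nIdeal W N q p := by
  intro hmem
  apply h
  have h1 := (H59.X_sub_C_mem_evalIdeal_iff p _ i _).mp hmem
  rw [h1]
  push_cast
  rfl

end Ideal

/-! ### The duality statement (node (C)) -/

section Dual

variable {N q : ℕ}

/-- **(C), unbundled**: for parabolic integral characters `x, y` of `Γ₀(N)`,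
`(T_r - (r+1)) (x, y) ∈ j (L') + p (L × L)`. -/
def DualStmtU (N q p r : ℕ) (hq : q.Prime) (hqN : ¬ q ∣ N) (hr : r.Prime) (hrN : ¬ r ∣ N) : Prop :=
  ∀ x y : Additive (Gamma0 N) →+ ℤ, IsParabolicHom (Gamma0 N) x → IsParabolicHom (Gamma0 N) y →
    ∃ (z : Additive (Gamma0 (N * q)) →+ ℤ) (v₁ v₂ : Additive (Gamma0 N) →+ ℤ),
      IsParabolicHom (Gamma0 (N * q)) z ∧ IsParabolicHom (Gamma0 N) v₁ ∧
      IsParabolicHom (Gamma0 N) v₂ ∧
      S29.H06.heckeTr hr hrN x - ((r : ℤ) + 1) • x = H19.coresOp hq hqN z + (p : ℤ) • v₁ ∧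
      S29.H06.heckeTr hr hrN y - ((r : ℤ) + 1) • y =
        H19.coresOp hq hqN (H19.wOp hq hqN z) + (p : ℤ) • v₂

/-- **(C), bundled**: literally the hypothesis `hDual` of `H71.lr_core` for `r₁ = r0 i`. -/
def DualStmt (W : WeierstrassCurve ℤ) (p : ℕ) [NeZero N] [NeZero (N * q)] (hq : q.Prime)
    (hqN : ¬ q ∣ N) (i : Idx W N q p) : Prop :=
  ∀ u : Lat N × Lat N, ∃ (y : Lat (N * q)) (v : Lat N × Lat N),
    r0 i • u = jMap W p hq hqN y + (p : ℤ) • v

theorem dualStmt_of_unbundled {W : WeierstrassCurve ℤ} {p : ℕ} [NeZero N] [NeZero (N * q)]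
    (hq : q.Prime) (hqN : ¬ q ∣ N) (i : Idx W N q p)
    (h : DualStmtU N q p (i : ℕ) hq hqN i.prime i.not_dvd) : DualStmt W p hq hqN i := by
  rintro ⟨x, y⟩
  obtain ⟨z, v₁, v₂, hz, hv₁, hv₂, h1, h2⟩ := h x.1 y.1 x.2 y.2
  refine ⟨⟨z, hz⟩, (⟨v₁, hv₁⟩, ⟨v₂, hv₂⟩), ?_⟩
  refine Prod.ext (Subtype.ext ?_) (Subtype.ext ?_)
  · show ((r0 i • x : Lat N) : Additive (Gamma0 N) →+ ℤ) = _
    rw [coe_r0_smul_lat, h1]
    rfl
  · show ((r0 i • y : Lat N) : Additive (Gamma0 N) →+ ℤ) = _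
    rw [coe_r0_smul_lat, h2]
    rfl

end Dual

end Fermat.Agent.S41.H53
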