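import Mathlib
import Fermat.Agent.S41.Setup_helper53
import Fermat.Agent.S41.DualEval_helper39
import Fermat.Agent.S41.IhEigen_helper91
import Fermat.Agent.S41.Lattice_helper34

/-!
# S41, node (G)/(C): the duality statement from its evaluation form

`EvalKey N q p r hq hqN hr hrN` is the module-free statement of node (C) in evaluation form:
for `γ₁, γ₂ ∈ Γ₀(N)`, if `(cores z)(γ₁) + (cores (w z))(γ₂) ≡ 0` mod `p` for all parabolic
integral characters `z` of `Γ₀(N q)`, then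
`((T_r - (r+1)) x)(γ₁) + ((T_r - (r+1)) y)(γ₂) ≡ 0` mod `p` for all parabolic integral
characters `x, y` of `Γ₀(N)`.

`dualStmt_of_evalKey` : `EvalKey` implies the bundled `DualStmt` (= `hDual` of `H71.lr_core`),
through `H39.hDual_of_eval` and the saturation of the lattice.
-/

set_option autoImplicit false

namespace Fermat.Agent.S41.H53

open CongruenceSubgroup ModularCurve.Period
open Fermat.Agent
open scoped MatrixGroups

/-- The Betti lattice is saturated: a parabolic integral character with values divisible by `p`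
is `p` times a parabolic integral character. -/
theorem lat_saturated {M : ℕ} (p : ℕ) (hp : p ≠ 0) (x : Lat M)
    (h : ∀ γ : Gamma0 M, (p : ℤ) ∣ (x : Additive (Gamma0 M) →+ ℤ) (Additive.ofMul γ)) :
    ∃ w : Lat M, x = (p : ℤ) • w := by
  obtain ⟨v, hv⟩ := H91.exists_eq_nsmul_of_dvd p hp (x : Additive (Gamma0 M) →+ ℤ)
    (fun g => h (Additive.toMul g))
  have hp' : (p : ℤ) ≠ 0 := by exact_mod_cast hp
  have hvpar : v ∈ parabolicHoms ℤ (Gamma0 M) ℤ := by
    intro γ hγ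
    have h1 := x.2 γ hγ
    rw [hv] at h1
    have h2 : (p : ℤ) * v (Additive.ofMul γ) = 0 := by
      rw [← h1]
      simp
    rcases mul_eq_zero.mp h2 with h3 | h3
    · exact absurd h3 hp'
    · exact h3
  refine ⟨⟨v, hvpar⟩, Subtype.ext ?_⟩
  show (x : Additive (Gamma0 M) →+ ℤ) = (p : ℤ) • v
  rw [hv, natCast_zsmul]

/-- The evaluation pairing `((γ₁, γ₂), (x₁, x₂)) ↦ x₁ γ₁ + x₂ γ₂` on `Lat M × Lat M`. -/
def evalQ (M : ℕ) : (Additive (Gamma0 M) × Additive (Gamma0 M)) →+ (Lat M × Lat M) →+ ℤ :=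
  AddMonoidHom.mk'
    (fun g => AddMonoidHom.mk'
      (fun u => (u.1 : Additive (Gamma0 M) →+ ℤ) g.1 + (u.2 : Additive (Gamma0 M) →+ ℤ) g.2)
      (by
        intro a b
        simp only [Prod.fst_add, Prod.snd_add, Submodule.coe_add, AddMonoidHom.add_apply]
        abel))
    (by
      intro a b
      apply AddMonoidHom.ext
      intro u
      simp only [AddMonoidHom.mk'_apply, AddMonoidHom.add_apply, Prod.fst_add, Prod.snd_add,
        map_add]
      abel)

theorem evalQ_apply (M : ℕ) (g : Additive (Gamma0 M) × Additive (Gamma0 M)) (u : Lat M × Lat M) :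
    evalQ M g u = (u.1 : Additive (Gamma0 M) →+ ℤ) g.1 + (u.2 : Additive (Gamma0 M) →+ ℤ) g.2 :=
  rfl

theorem evalQ_sep (M : ℕ) (p : ℕ) (hp : p ≠ 0) (u : Lat M × Lat M)
    (hu : ∀ g : Additive (Gamma0 M) × Additive (Gamma0 M), (p : ℤ) ∣ evalQ M g u) :
    ∃ w : Lat M × Lat M, u = (p : ℤ) • w := by
  obtain ⟨w₁, hw₁⟩ := lat_saturated p hp u.1 (fun γ => by
    have h := hu (Additive.ofMul γ, 0)
    rwa [evalQ_apply, map_zero, add_zero] at h)
  obtain ⟨w₂, hw₂⟩ := lat_saturated p hp u.2 (fun γ => by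
    have h := hu (0, Additive.ofMul γ)
    rwa [evalQ_apply, map_zero, zero_add] at h)
  exact ⟨(w₁, w₂), Prod.ext hw₁ hw₂⟩

/-- **(C), evaluation form, module-free.** -/
def EvalKey (N q p r : ℕ) (hq : q.Prime) (hqN : ¬ q ∣ N) (hr : r.Prime) (hrN : ¬ r ∣ N) : Prop :=
  ∀ γ₁ γ₂ : Gamma0 N,
    (∀ z : Additive (Gamma0 (N * q)) →+ ℤ, IsParabolicHom (Gamma0 (N * q)) z →
      (p : ℤ) ∣ H19.coresOp hq hqN z (Additive.ofMul γ₁) +
        H19.coresOp hq hqN (H19.wOp hq hqN z) (Additive.ofMul γ₂)) →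
    ∀ x y : Additive (Gamma0 N) →+ ℤ, IsParabolicHom (Gamma0 N) x → IsParabolicHom (Gamma0 N) y →
      (p : ℤ) ∣ (S29.H06.heckeTr hr hrN x - ((r : ℤ) + 1) • x) (Additive.ofMul γ₁) +
        (S29.H06.heckeTr hr hrN y - ((r : ℤ) + 1) • y) (Additive.ofMul γ₂)

/-- **(C)**: the evaluation form implies `hDual` of `lr_core`. -/
theorem dualStmt_of_evalKey {W : WeierstrassCurve ℤ} {N q p : ℕ} [NeZero N] [NeZero (N * q)]
    (hp : p.Prime) (hq : q.Prime) (hqN : ¬ q ∣ N) (i : Idx W N q p)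
    (h : EvalKey N q p (i : ℕ) hq hqN i.prime i.not_dvd) : DualStmt W p hq hqN i := by
  haveI : Fact p.Prime := ⟨hp⟩
  haveI : Module.Finite ℤ (Lat N) := H34.finite_parabolicHoms_Gamma0 N
  -- the commutative group of evaluation functionals
  refine H39.hDual_of_eval (G := ↥(evalQ N).range) p (jMap W p hq hqN)
    (AddSubgroup.subtype (evalQ N).range) (fun u hu => ?_) (r0 i) ?_
  · exact evalQ_sep N p hp.ne_zero u (fun g => hu ⟨evalQ N g, ⟨g, rfl⟩⟩)
  · rintro ⟨_, ⟨⟨g₁, g₂⟩, rfl⟩⟩ hz ⟨x, y⟩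
    have h1 := h (Additive.toMul g₁) (Additive.toMul g₂) (fun z hzpar => hz ⟨z, hzpar⟩)
      x.1 y.1 x.2 y.2
    show (p : ℤ) ∣ evalQ N (g₁, g₂) (r0 i • (x, y))
    rw [evalQ_apply, r0_smul_prod]
    show (p : ℤ) ∣ ((r0 i • x : Lat N) : Additive (Gamma0 N) →+ ℤ) g₁ +
      ((r0 i • y : Lat N) : Additive (Gamma0 N) →+ ℤ) g₂
    rw [coe_r0_smul_lat, coe_r0_smul_lat]
    exact h1

end Fermat.Agent.S41.H53
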