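import Mathlib

/-!
# (LR), congruence side: the hypothesis `hf` of `lr_core` from an eigenvector

`exists_not_mem_of_char`: if a character `Θ` of `R[X]` (with `X` acting on `L` through `t`)
factors through the action on the finitely generated module `L` and sends `𝔫` and `X - c` into a
proper ideal, then `L ≠ 𝔫 L + (t - c) L` (Nakayama over `R[X]`).

`hf_of_eigenvector`, `hf_of_eigenvector_mvPoly`: the character is given by an eigenvector in the
complex span of `L`.
-/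

namespace Fermat.Agent.S41.H71

open Polynomial in
/-- Nakayama over `R[X]`: see the module docstring. -/
theorem exists_not_mem_of_char {R : Type*} [CommRing R] {L : Type*} [AddCommGroup L] [Module R L]
    [Module.Finite R L] (t : L →ₗ[R] L) (c : R) (𝔫 : Ideal R)
    {B : Type*} [CommRing B] (Θ : R[X] →+* B) (𝔪 : Ideal B) (h𝔪 : 𝔪 ≠ ⊤)
    (h𝔫 : ∀ r ∈ 𝔫, Θ (C r) ∈ 𝔪) (hc : Θ (X - C c) ∈ 𝔪)
    (hann : ∀ a : R[X], (∀ x : L, aeval t a x = 0) → Θ a = 0) :
    ∃ x : L, x ∉ 𝔫 • (⊤ : Submodule R L) ⊔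
      LinearMap.range (t - c • (LinearMap.id : L →ₗ[R] L)) := by
  by_contra hcon
  have hall : ∀ x : L, x ∈ 𝔫 • (⊤ : Submodule R L) ⊔
      LinearMap.range (t - c • (LinearMap.id : L →ₗ[R] L)) := by
    intro x
    by_contra hx
    exact hcon ⟨x, hx⟩
  set 𝔫' : Ideal R[X] := Ideal.map C 𝔫 ⊔ Ideal.span {X - C c} with h𝔫'
  have h𝔫'le : 𝔫' ≤ 𝔪.comap Θ := by
    refine sup_le (Ideal.map_le_iff_le_comap.mpr fun r hr => ?_)
      ((Ideal.span_singleton_le_iff_mem _).mpr ?_)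
    · exact h𝔫 r hr
    · exact hc
  -- `L` as an `R[X]`-module
  have h1 : ∀ y ∈ 𝔫 • (⊤ : Submodule R L),
      Module.AEval'.of t y ∈ 𝔫' • (⊤ : Submodule R[X] (Module.AEval' t)) := by
    intro y hy
    refine Submodule.smul_induction_on hy (fun r hr w _ => ?_) (fun y z hy hz => ?_)
    · rw [map_smul, ← Module.AEval.C_smul]
      exact Submodule.smul_mem_smul (Ideal.mem_sup_left (Ideal.mem_map_of_mem C hr))
        Submodule.mem_top
    · rw [map_add]
      exact Submodule.add_mem _ hy hz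
  have htop : (⊤ : Submodule R[X] (Module.AEval' t)) ≤ 𝔫' • ⊤ := by
    intro m _
    obtain ⟨x, rfl⟩ := (Module.AEval'.of t).surjective m
    obtain ⟨y, hy, _, ⟨z, rfl⟩, hyz⟩ := Submodule.mem_sup.mp (hall x)
    rw [← hyz, map_add]
    refine Submodule.add_mem _ (h1 y hy) ?_
    have h2 : Module.AEval'.of t ((t - c • (LinearMap.id : L →ₗ[R] L)) z) =
        (X - C c) • Module.AEval'.of t z := by
      rw [sub_smul, Module.AEval'.X_smul_of, Module.AEval.C_smul, LinearMap.sub_apply,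
        LinearMap.smul_apply, LinearMap.id_apply, map_sub, map_smul]
    rw [h2]
    exact Submodule.smul_mem_smul
      (Ideal.mem_sup_right (Ideal.subset_span (Set.mem_singleton _))) Submodule.mem_top
  obtain ⟨a, ha1, ha⟩ :=
    Submodule.exists_sub_one_mem_and_smul_eq_zero_of_fg_of_le_smul 𝔫'
      (⊤ : Submodule R[X] (Module.AEval' t)) Module.Finite.fg_top htop
  have hΘa : Θ a = 0 := by
    apply hann
    intro x
    have h3 := ha (Module.AEval'.of t x) Submodule.mem_top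
    rw [← Module.AEval.of_aeval_smul] at h3
    have h4 : aeval t a • x = 0 := by
      apply (Module.AEval'.of t).injective
      rw [h3, map_zero]
    exact h4
  have h5 : Θ (a - 1) ∈ 𝔪 := h𝔫'le ha1
  rw [map_sub, hΘa, map_one, zero_sub] at h5
  apply h𝔪
  rw [Ideal.eq_top_iff_one]
  have h6 := 𝔪.neg_mem h5
  rwa [neg_neg] at h6

open Polynomial in
/-- **`hf` of `lr_core` from an eigenvector.**  `L` sits in a complex vector space `H` through an
additive map `e`; `τ` extends `t` and every `r : R` extends to a `ℂ`-linear map acting on the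
vector `v` (in the span of `L`) through the character `θ`; `τ v = α v`.  If `θ 𝔫 ⊆ 𝔪` and
`α ≡ ε s` modulo the proper ideal `𝔪` of the ring of algebraic integers, then
`L ≠ 𝔫 L + (t - ε s) L`. -/
theorem hf_of_eigenvector {R : Type*} [CommRing R] {L : Type*} [AddCommGroup L] [Module R L]
    [Module.Finite ℤ L] (t : L →ₗ[R] L) (s ε : ℤ) (𝔫 : Ideal R)
    {H : Type*} [AddCommGroup H] [Module ℂ H] (e : L →+ H)
    (τ : H →ₗ[ℂ] H) (hτ : ∀ x : L, τ (e x) = e (t x))
    (v : H) (hv : v ≠ 0) (hvspan : v ∈ Submodule.span ℂ (Set.range e))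
    (θ : R →+* integralClosure ℤ ℂ) (α : integralClosure ℤ ℂ)
    (hex : ∀ r : R, ∃ A : H →ₗ[ℂ] H, (∀ x : L, A (e x) = e (r • x)) ∧
      A v = ((θ r : integralClosure ℤ ℂ) : ℂ) • v)
    (hα : τ v = ((α : integralClosure ℤ ℂ) : ℂ) • v)
    (𝔪 : Ideal (integralClosure ℤ ℂ)) (h𝔪 : 𝔪 ≠ ⊤) (h𝔫 : ∀ r ∈ 𝔫, θ r ∈ 𝔪)
    (hαε : α - ((ε * s : ℤ) : integralClosure ℤ ℂ) ∈ 𝔪) :
    ∃ x : L, x ∉ 𝔫 • (⊤ : Submodule R L) ⊔
      LinearMap.range (t - (ε * s) • (LinearMap.id : L →ₗ[R] L)) := by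
  have hfin : Module.Finite R L := Module.Finite.of_restrictScalars_finite ℤ R L
  -- every polynomial in `t` extends to `H` and acts on `v` through `Θ`
  have hpoly : ∀ a : R[X], ∃ A : H →ₗ[ℂ] H, (∀ x : L, A (e x) = e (aeval t a x)) ∧
      A v = ((eval₂RingHom θ α a : integralClosure ℤ ℂ) : ℂ) • v := by
    intro a
    induction a using Polynomial.induction_on with
    | C r =>
      obtain ⟨A, hA, hAv⟩ := hex r
      refine ⟨A, fun x => ?_, ?_⟩
      · rw [hA, aeval_C, Module.algebraMap_end_apply]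
      · rw [hAv, coe_eval₂RingHom, eval₂_C]
    | add a b iha ihb =>
      obtain ⟨A, hA, hAv⟩ := iha
      obtain ⟨A', hA', hAv'⟩ := ihb
      refine ⟨A + A', fun x => ?_, ?_⟩
      · rw [LinearMap.add_apply, hA, hA', map_add, LinearMap.add_apply, map_add]
      · rw [LinearMap.add_apply, hAv, hAv', map_add, ← add_smul]
        rfl
    | monomial n r ih =>
      obtain ⟨A, hA, hAv⟩ := ih
      have h1 : aeval t (C r * X ^ (n + 1)) = aeval t (C r * X ^ n) * t := by
        rw [pow_succ, ← mul_assoc, map_mul, aeval_X]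
      have h2 : eval₂RingHom θ α (C r * X ^ (n + 1)) = eval₂RingHom θ α (C r * X ^ n) * α := by
        rw [pow_succ, ← mul_assoc, map_mul, coe_eval₂RingHom, eval₂_X]
      refine ⟨A ∘ₗ τ, fun x => ?_, ?_⟩
      · rw [LinearMap.comp_apply, hτ, hA, h1, Module.End.mul_apply]
      · rw [LinearMap.comp_apply, hα, map_smul, hAv, smul_smul, h2, MulMemClass.coe_mul, mul_comm]
  have hx := exists_not_mem_of_char t ((ε * s : ℤ) : R) 𝔫 (eval₂RingHom θ α) 𝔪 h𝔪
    (fun r hr => by rw [coe_eval₂RingHom, eval₂_C]; exact h𝔫 r hr)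
    (by
      rw [map_sub, coe_eval₂RingHom, eval₂_X, eval₂_C, map_intCast]
      exact hαε)
    (by
      intro a ha
      obtain ⟨A, hA, hAv⟩ := hpoly a
      have hker : Submodule.span ℂ (Set.range e) ≤ LinearMap.ker A := by
        rw [Submodule.span_le]
        rintro _ ⟨x, rfl⟩
        rw [SetLike.mem_coe, LinearMap.mem_ker, hA, ha, map_zero]
      have h0 : A v = 0 := hker hvspan
      rw [hAv] at h0
      rcases smul_eq_zero.mp h0 with h | h
      · exact Subtype.ext h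
      · exact absurd h hv)
  obtain ⟨x, hx⟩ := hx
  refine ⟨x, ?_⟩
  rwa [Int.cast_smul_eq_zsmul] at hx

/-- `hf_of_eigenvector` for a polynomial ring `R = ℤ[X_i]`: the extension hypothesis is only
needed for the variables. -/
theorem hf_of_eigenvector_mvPoly {ι : Type*} {L : Type*} [AddCommGroup L]
    [Module (MvPolynomial ι ℤ) L] [Module.Finite ℤ L] (t : L →ₗ[MvPolynomial ι ℤ] L) (s ε : ℤ)
    (𝔫 : Ideal (MvPolynomial ι ℤ))
    {H : Type*} [AddCommGroup H] [Module ℂ H] (e : L →+ H)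
    (T : ι → H →ₗ[ℂ] H)
    (hT : ∀ (i : ι) (x : L), T i (e x) = e ((MvPolynomial.X i : MvPolynomial ι ℤ) • x))
    (τ : H →ₗ[ℂ] H) (hτ : ∀ x : L, τ (e x) = e (t x))
    (v : H) (hv : v ≠ 0) (hvspan : v ∈ Submodule.span ℂ (Set.range e))
    (θ : MvPolynomial ι ℤ →+* integralClosure ℤ ℂ) (α : integralClosure ℤ ℂ)
    (hθ : ∀ i : ι, T i v = ((θ (MvPolynomial.X i) : integralClosure ℤ ℂ) : ℂ) • v)
    (hα : τ v = ((α : integralClosure ℤ ℂ) : ℂ) • v)
    (𝔪 : Ideal (integralClosure ℤ ℂ)) (h𝔪 : 𝔪 ≠ ⊤) (h𝔫 : ∀ r ∈ 𝔫, θ r ∈ 𝔪)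
    (hαε : α - ((ε * s : ℤ) : integralClosure ℤ ℂ) ∈ 𝔪) :
    ∃ x : L, x ∉ 𝔫 • (⊤ : Submodule (MvPolynomial ι ℤ) L) ⊔
      LinearMap.range (t - (ε * s) • (LinearMap.id : L →ₗ[MvPolynomial ι ℤ] L)) := by
  refine hf_of_eigenvector t s ε 𝔫 e τ hτ v hv hvspan θ α ?_ hα 𝔪 h𝔪 h𝔫 hαε
  intro r
  induction r using MvPolynomial.induction_on with
  | C n =>
    refine ⟨(n : ℂ) • LinearMap.id, fun x => ?_, ?_⟩
    · have h1 : (MvPolynomial.C n : MvPolynomial ι ℤ) = ((n : ℤ) : MvPolynomial ι ℤ) :=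
        eq_intCast MvPolynomial.C n
      rw [LinearMap.smul_apply, LinearMap.id_apply, h1, Int.cast_smul_eq_zsmul,
        Int.cast_smul_eq_zsmul, map_zsmul]
    · have h1 : (MvPolynomial.C n : MvPolynomial ι ℤ) = ((n : ℤ) : MvPolynomial ι ℤ) :=
        eq_intCast MvPolynomial.C n
      rw [LinearMap.smul_apply, LinearMap.id_apply, h1, map_intCast]
      rfl
  | add a b iha ihb =>
    obtain ⟨A, hA, hAv⟩ := iha
    obtain ⟨A', hA', hAv'⟩ := ihb
    refine ⟨A + A', fun x => ?_, ?_⟩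
    · rw [LinearMap.add_apply, hA, hA', add_smul, map_add]
    · rw [LinearMap.add_apply, hAv, hAv', map_add, ← add_smul]
      rfl
  | mul_X a i ih =>
    obtain ⟨A, hA, hAv⟩ := ih
    refine ⟨A ∘ₗ T i, fun x => ?_, ?_⟩
    · rw [LinearMap.comp_apply, hT, hA, mul_smul]
    · rw [LinearMap.comp_apply, hθ, map_smul, hAv, smul_smul, map_mul, mul_comm]
      rfl

end Fermat.Agent.S41.H71
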