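import Mathlib
import Fermat.Prelude.Def_FreyPackage_LevelRaising
import Fermat.Agent.S29.Eig_helper6
import Fermat.Agent.S29.TransferHom_helper6
import Fermat.Agent.S41.LREigen_helper71
import Fermat.Agent.S41.Lattice_helper34
import Fermat.Agent.S41.PolyModule_helper59

/-!
# S41, node (HF-INST) (helper74): the hypothesis `hf` of `lr_core` from the S41 data

From the hypotheses of the frozen statement S41 (`f` a normalised eigenform of level `N`, the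
maximal ideal `𝔪 ∋ p`, the congruences `hcong` and the level-raising congruence `hLR`) we produce
the sign `ε = ±1` and the hypothesis `hf` of `H71.lr_core` for the Betti lattice
`L = parabolicHoms ℤ Γ₀(N) ℤ`, `s = q' + 1`, `t = T_{q'}`:

* `heckeTrLin` : the Hecke transfer on complex characters as a `ℂ`-linear map;
* `exists_eigen_data` : the raw eigen-data (`v = periodMap N f` is a nonzero complex parabolic
  hom, an eigenvector of every `T_ℓ^tr`, `ℓ ∤ N` prime, with eigenvalue `a_ℓ(f)`), and the sign;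
* `exists_eps` : `a_{q'}(f) ≡ ε (q' + 1)` modulo `𝔪` for a sign `ε`;
* `hf_inst` : `hf` of `lr_core`, for any `MvPolynomial ι ℤ`-module structure on `L` in which the
  variables act through the Hecke transfers at good primes.
-/

set_option autoImplicit false

namespace Fermat.Agent.S41.H74

open CongruenceSubgroup ModularCurve ModularCurve.Period
open Fermat.Agent.S29 Fermat.Agent.S21
open scoped MatrixGroups

/-! ### The Hecke transfer on complex characters is `ℂ`-linear -/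

section Lin

variable {N ℓ : ℕ}

theorem heckeTr_smul_complex (hℓ : ℓ.Prime) (hℓN : ¬ ℓ ∣ N) (c : ℂ)
    (χ : Additive (Gamma0 N) →+ ℂ) :
    H06.heckeTr hℓ hℓN (c • χ) = c • H06.heckeTr hℓ hℓN χ := by
  have h := H06.heckeTr_comp hℓ hℓN (AddMonoidHom.mulLeft c) χ
  have e1 : (AddMonoidHom.mulLeft c).comp χ = c • χ := AddMonoidHom.ext fun x => rfl
  have e2 : (AddMonoidHom.mulLeft c).comp (H06.heckeTr hℓ hℓN χ) = c • H06.heckeTr hℓ hℓN χ :=
    AddMonoidHom.ext fun x => rfl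
  rw [e1, e2] at h
  exact h

/-- The Hecke transfer `T_ℓ^tr` on complex characters of `Γ₀(N)` as a `ℂ`-linear map. -/
noncomputable def heckeTrLin (hℓ : ℓ.Prime) (hℓN : ¬ ℓ ∣ N) :
    (Additive (Gamma0 N) →+ ℂ) →ₗ[ℂ] (Additive (Gamma0 N) →+ ℂ) where
  toFun := H06.heckeTr hℓ hℓN
  map_add' := map_add _
  map_smul' c χ := heckeTr_smul_complex hℓ hℓN c χ

@[simp] theorem heckeTrLin_apply (hℓ : ℓ.Prime) (hℓN : ¬ ℓ ∣ N)
    (χ : Additive (Gamma0 N) →+ ℂ) : heckeTrLin hℓ hℓN χ = H06.heckeTr hℓ hℓN χ := rfl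

/-- The Hecke transfer commutes with the coefficient extension `ℤ → ℂ`. -/
theorem heckeTr_castHom (hℓ : ℓ.Prime) (hℓN : ¬ ℓ ∣ N) (φ : Additive (Gamma0 N) →+ ℤ) :
    H06.heckeTr hℓ hℓN (H34.castHom (Gamma0 N) ℂ φ) =
      H34.castHom (Gamma0 N) ℂ (H06.heckeTr hℓ hℓN φ) := by
  rw [H34.castHom_eq_comp, H34.castHom_eq_comp]
  exact H06.heckeTr_comp hℓ hℓN (Int.castAddHom ℂ) φ

/-- The period homomorphism of a normalised eigenform is an eigenvector of the Hecke transfer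
operator. -/
theorem heckeTr_periodMap_eigen [NeZero N] {g : CuspForm (Gamma0 N) 2}
    (hg : g.IsNormalizedEigenform) (hℓ : ℓ.Prime) (hℓN : ¬ ℓ ∣ N) :
    H06.heckeTr hℓ hℓN (periodMap N g) = ModularFormClass.qCoeff (⇑g) ℓ • periodMap N g :=
  ((H06.isHeckeTr_periodMap_eigen hg hℓ hℓN).eq_heckeTr hℓ hℓN).symm

end Lin

/-! ### The sign -/

/-- `a² ≡ (q'+1)²` modulo a maximal ideal gives `a ≡ ε (q'+1)` for a sign `ε`. -/
theorem exists_eps {S : Type*} [CommRing S] (𝔪 : Ideal S) (hmax : 𝔪.IsMaximal) (q' : ℕ) (a : S)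
    (h : a ^ 2 - ((q' : S) + 1) ^ 2 ∈ 𝔪) :
    ∃ ε : ℤ, (ε = 1 ∨ ε = -1) ∧ a - ((ε * ((q' : ℤ) + 1) : ℤ) : S) ∈ 𝔪 := by
  have hprime : 𝔪.IsPrime := hmax.isPrime
  have hfac : (a - ((q' : S) + 1)) * (a + ((q' : S) + 1)) ∈ 𝔪 := by
    have e : (a - ((q' : S) + 1)) * (a + ((q' : S) + 1)) = a ^ 2 - ((q' : S) + 1) ^ 2 := by ring
    rw [e]
    exact h
  rcases hprime.mem_or_mem hfac with h1 | h1
  · refine ⟨1, Or.inl rfl, ?_⟩
    have e : a - ((1 * ((q' : ℤ) + 1) : ℤ) : S) = a - ((q' : S) + 1) := by push_cast; ring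
    rw [e]
    exact h1
  · refine ⟨-1, Or.inr rfl, ?_⟩
    have e : a - ((-1 * ((q' : ℤ) + 1) : ℤ) : S) = a + ((q' : S) + 1) := by push_cast; ring
    rw [e]
    exact h1

/-! ### The raw eigen-data -/

/-- **(HF-INST), raw data.**  For a normalised eigenform `f` of level `N`: its period
homomorphism is a nonzero complex parabolic hom and an eigenvector of every Hecke transfer
`T_ℓ^tr`, `ℓ ∤ N` prime, with eigenvalue `a_ℓ(f)`; and `hLR` gives a sign `ε` and an algebraic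
integer `α = a_{q'}(f)` with `α ≡ ε (q'+1)` modulo `𝔪`. -/
theorem exists_eigen_data {N q' : ℕ} [NeZero N]
    (f : CuspForm (Gamma0 N) 2) (𝔪 : Ideal (integralClosure ℤ ℂ))
    (hf : f.IsNormalizedEigenform) (hmax : 𝔪.IsMaximal)
    (hLR : ∃ a : integralClosure ℤ ℂ, (a : ℂ) = ModularFormClass.qCoeff f q' ∧
      a ^ 2 - ((q' : integralClosure ℤ ℂ) + 1) ^ 2 ∈ 𝔪) :
    ∃ v : Additive (Gamma0 N) →+ ℂ, v ∈ parabolicHoms ℂ (Gamma0 N) ℂ ∧ v ≠ 0 ∧
      (∀ (ℓ : ℕ) (hℓ : ℓ.Prime) (hℓN : ¬ ℓ ∣ N),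
        H06.IsHeckeTr N ℓ v (ModularFormClass.qCoeff f ℓ • v) ∧
        H06.heckeTr hℓ hℓN v = ModularFormClass.qCoeff f ℓ • v) ∧
      ∃ (ε : ℤ) (α : integralClosure ℤ ℂ), (ε = 1 ∨ ε = -1) ∧
        (α : ℂ) = ModularFormClass.qCoeff f q' ∧
        α - ((ε * ((q' : ℤ) + 1) : ℤ) : integralClosure ℤ ℂ) ∈ 𝔪 := by
  refine ⟨periodMap N f, H23.periodMap_mem_parabolicHoms N f, H06.periodMap_ne_zero hf,
    fun ℓ hℓ hℓN => ⟨H06.isHeckeTr_periodMap_eigen hf hℓ hℓN,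
      heckeTr_periodMap_eigen hf hℓ hℓN⟩, ?_⟩
  obtain ⟨α, hα, hα2⟩ := hLR
  obtain ⟨ε, hε, h⟩ := exists_eps 𝔪 hmax q' α hα2
  exact ⟨ε, α, hε, hα, h⟩

/-! ### `hf` of `lr_core` -/

/-- **(HF-INST).**  The hypothesis `hf` of `H71.lr_core` (together with the sign `ε`) from the
hypotheses of the frozen statement S41.  `L = parabolicHoms ℤ Γ₀(N) ℤ` carries any
`MvPolynomial ι ℤ`-module structure in which `X i` acts as the Hecke transfer at the prime `pr i`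
(`hX`; e.g. `H50.latModule N pr hpr hprN`), `t` is `T_{q'}` (`ht`), and `𝔫` is any ideal contained
in the kernel of `X i ↦ a_{pr i}(W) mod p` (`h𝔫`; e.g. `H59.evalIdeal`). -/
theorem hf_inst {W : WeierstrassCurve ℤ} {p N q' : ℕ} [NeZero N] (hq' : q'.Prime)
    (hq'N : ¬ q' ∣ N)
    (f : CuspForm (Gamma0 N) 2) (𝔪 : Ideal (integralClosure ℤ ℂ))
    (hf : f.IsNormalizedEigenform) (hmax : 𝔪.IsMaximal) (hpm : (p : integralClosure ℤ ℂ) ∈ 𝔪)
    (hcong : ∀ ℓ : ℕ, ℓ.Prime → W.IsGoodPrimeFor ℓ → ¬ ℓ ∣ N → ℓ ≠ p →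
      ∃ a : integralClosure ℤ ℂ, (a : ℂ) = ModularFormClass.qCoeff f ℓ ∧
        a - ((W.apOfModel ℓ : ℤ) : integralClosure ℤ ℂ) ∈ 𝔪)
    (hLR : ∃ a : integralClosure ℤ ℂ, (a : ℂ) = ModularFormClass.qCoeff f q' ∧
      a ^ 2 - ((q' : integralClosure ℤ ℂ) + 1) ^ 2 ∈ 𝔪)
    {ι : Type*} (pr : ι → ℕ) (hpr : ∀ i, (pr i).Prime) (hprN : ∀ i, ¬ pr i ∣ N)
    (hgood : ∀ i, W.IsGoodPrimeFor (pr i)) (hprp : ∀ i, pr i ≠ p)
    [Module (MvPolynomial ι ℤ) (parabolicHoms ℤ (Gamma0 N) ℤ)]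
    (hX : ∀ (i : ι) (x : parabolicHoms ℤ (Gamma0 N) ℤ),
      (((MvPolynomial.X i : MvPolynomial ι ℤ) • x : parabolicHoms ℤ (Gamma0 N) ℤ) :
        Additive (Gamma0 N) →+ ℤ) =
        H06.heckeTr (hpr i) (hprN i) (x : Additive (Gamma0 N) →+ ℤ))
    (t : parabolicHoms ℤ (Gamma0 N) ℤ →ₗ[MvPolynomial ι ℤ] parabolicHoms ℤ (Gamma0 N) ℤ)
    (ht : ∀ x : parabolicHoms ℤ (Gamma0 N) ℤ,
      ((t x : parabolicHoms ℤ (Gamma0 N) ℤ) : Additive (Gamma0 N) →+ ℤ) =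
        H06.heckeTr hq' hq'N (x : Additive (Gamma0 N) →+ ℤ))
    (𝔫 : Ideal (MvPolynomial ι ℤ))
    (h𝔫 : ∀ r ∈ 𝔫, (p : ℤ) ∣ MvPolynomial.eval (fun i => W.apOfModel (pr i)) r) :
    ∃ ε : ℤ, (ε = 1 ∨ ε = -1) ∧ ∃ x : parabolicHoms ℤ (Gamma0 N) ℤ,
      x ∉ 𝔫 • (⊤ : Submodule (MvPolynomial ι ℤ) (parabolicHoms ℤ (Gamma0 N) ℤ)) ⊔
        LinearMap.range (t - (ε * ((q' : ℤ) + 1)) •
          (LinearMap.id : parabolicHoms ℤ (Gamma0 N) ℤ →ₗ[MvPolynomial ι ℤ]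
            parabolicHoms ℤ (Gamma0 N) ℤ)) := by
  classical
  obtain ⟨α, hα, hα2⟩ := hLR
  obtain ⟨ε, hε, hαε⟩ := exists_eps 𝔪 hmax q' α hα2
  refine ⟨ε, hε, ?_⟩
  have hfin : Module.Finite ℤ (parabolicHoms ℤ (Gamma0 N) ℤ) := H34.finite_parabolicHoms_Gamma0 N
  -- the integral eigenvalues
  choose b hb hbW using fun i => hcong (pr i) (hpr i) (hgood i) (hprN i) (hprp i)
  -- the embedding of the lattice
  let e : parabolicHoms ℤ (Gamma0 N) ℤ →+ (Additive (Gamma0 N) →+ ℂ) :=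
    (H34.castHom (Gamma0 N) ℂ).comp (parabolicHoms ℤ (Gamma0 N) ℤ).subtype.toAddMonoidHom
  have he : ∀ x : parabolicHoms ℤ (Gamma0 N) ℤ,
      e x = H34.castHom (Gamma0 N) ℂ (x : Additive (Gamma0 N) →+ ℤ) := fun x => rfl
  have hrange : Set.range e = Set.range (fun φ : parabolicHoms ℤ (Gamma0 N) ℤ =>
      H34.castHom (Gamma0 N) ℂ (φ : Additive (Gamma0 N) →+ ℤ)) := rfl
  let θ : MvPolynomial ι ℤ →+* integralClosure ℤ ℂ := (MvPolynomial.aeval (R := ℤ) b).toRingHom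
  have hθX : ∀ i, θ (MvPolynomial.X i) = b i := fun i => MvPolynomial.aeval_X b i
  refine H71.hf_of_eigenvector_mvPoly t ((q' : ℤ) + 1) ε 𝔫 e
    (fun i => heckeTrLin (hpr i) (hprN i)) ?_ (heckeTrLin hq' hq'N) ?_ (periodMap N f)
    (H06.periodMap_ne_zero hf) ?_ θ α ?_ ?_ 𝔪 hmax.ne_top ?_ hαε
  · intro i x
    rw [heckeTrLin_apply, he, he, heckeTr_castHom, hX]
  · intro x
    rw [heckeTrLin_apply, he, he, heckeTr_castHom, ht]
  · rw [hrange]
    exact H34.mem_span_castHom (Gamma0 N) _ (H23.periodMap_mem_parabolicHoms N f)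
  · intro i
    rw [heckeTrLin_apply, heckeTr_periodMap_eigen hf (hpr i) (hprN i), hθX, hb]
  · rw [heckeTrLin_apply, heckeTr_periodMap_eigen hf hq' hq'N, hα]
  · intro r hr
    obtain ⟨k, hk⟩ := h𝔫 r hr
    have h1 := H59.aeval_sub_eval_mem 𝔪 (fun i => W.apOfModel (pr i)) b hbW r
    have h2 : ((MvPolynomial.eval (fun i => W.apOfModel (pr i)) r : ℤ) : integralClosure ℤ ℂ)
        ∈ 𝔪 := by
      rw [hk]
      push_cast
      exact 𝔪.mul_mem_right _ hpm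
    have h3 := 𝔪.add_mem h1 h2
    rw [sub_add_cancel] at h3
    exact h3

end Fermat.Agent.S41.H74
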