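import Mathlib
import Fermat.Prelude.Def_FLTPrelim_Modularity
import Fermat.Prelude.Def_EllipticCurve_FrobeniusTrace

/-!
# S41, node (E): statements (helper86)

* `FrobQuadStmt E W p` : the interface of node (E1) -- outside a finite set of primes, every
  Frobenius lift `τ` at a good prime `r` satisfies `τ² - a_r τ + r = 0` on the `p`-torsion points
  of `E` over `Qbar`.
* `NonEisStmt W p` : the output of node (E) -- outside any finite set of primes there is a good
  prime `r` with `a_r ≠ r + 1` modulo `p`.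
-/

set_option autoImplicit false

open WeierstrassCurve WeierstrassCurve.Affine WeierstrassCurve.Affine.Point

namespace Fermat.Agent.S41.H86

/-- **(E1)**, interface: the Frobenius quadratic on `E[p]`. -/
def FrobQuadStmt (E : WeierstrassCurve ℚ) (W : WeierstrassCurve ℤ) (p : ℕ) : Prop :=
  ∃ S1 : Finset ℕ, ∀ r : ℕ, r.Prime → r ∉ S1 → W.IsGoodPrimeFor r →
    ∀ A : ValuationSubring (AlgebraicClosure ℚ), A.LiesOverPrime r →
    ∀ τ : AlgebraicClosure ℚ ≃ₐ[ℚ] AlgebraicClosure ℚ, A.IsFrobeniusAt τ r →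
    ∀ P : (E⁄(AlgebraicClosure ℚ)).Point, (p : ℤ) • P = 0 →
      τ • τ • P - W.apOfModel r • τ • P + (r : ℤ) • P = 0

/-- **(E)**, output: `E[p]` is not Eisenstein. -/
def NonEisStmt (W : WeierstrassCurve ℤ) (p : ℕ) : Prop :=
  ∀ S0 : Finset ℕ, ∃ r : ℕ, r.Prime ∧ r ∉ S0 ∧ W.IsGoodPrimeFor r ∧
    ((W.apOfModel r : ℤ) : ZMod p) ≠ (r : ZMod p) + 1

end Fermat.Agent.S41.H86
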