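import Mathlib

/-!
# S41 / (E1-R) (helper28): reduction modulo a valuation subring is a group homomorphism on the
points of a short Weierstrass curve `y² = x³ + a x + b` with good reduction.

Neutral form: `K` any field, `A` any valuation subring, `π : A →+* k` any ring homomorphism onto
a field whose kernel is the maximal ideal, the curves `W` (over `K`) and `W'` (over `k`) are given
by equations on their coefficients.

Main export: `exists_redHom`.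
-/

set_option autoImplicit false

open WeierstrassCurve WeierstrassCurve.Affine

namespace Fermat.Agent.S41.H28

/-! ## Collinear triples on a short curve -/

section Col

variable {F : Type*} [Field F]

/-- three points of `y² = x³ + a x + b` cut out (with multiplicity) by the line `y = l x + n`,
recorded through the elementary symmetric identities. -/
def Col (a b x₁ y₁ x₂ y₂ x₃ y₃ l n : F) : Prop :=
  y₁ = l * x₁ + n ∧ y₂ = l * x₂ + n ∧ y₃ = l * x₃ + n ∧ x₁ + x₂ + x₃ = l ^ 2 ∧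
    x₁ * x₂ + x₁ * x₃ + x₂ * x₃ = a - 2 * l * n ∧ x₁ * x₂ * x₃ = n ^ 2 - b

lemma some_congr {W : WeierstrassCurve F} {x y x' y' : F} {h : W.toAffine.Nonsingular x y}
    {h' : W.toAffine.Nonsingular x' y'} (hx : x = x') (hy : y = y') :
    Point.some x y h = Point.some x' y' h' := by
  subst hx; subst hy; rfl

/-- Vieta relations for the line through two points (general Weierstrass curve). -/
theorem vieta [DecidableEq F] {W : WeierstrassCurve F}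
    {x₁ y₁ x₂ y₂ : F} (h₁ : W.toAffine.Equation x₁ y₁) (h₂ : W.toAffine.Equation x₂ y₂)
    (hxy : ¬(x₁ = x₂ ∧ y₁ = W.toAffine.negY x₂ y₂)) :
    let L := W.toAffine.slope x₁ x₂ y₁ y₂
    let x₃ := W.toAffine.addX x₁ x₂ L
    x₁ + x₂ + x₃ = L ^ 2 + W.a₁ * L - W.a₂ ∧
    x₁ * x₂ + x₁ * x₃ + x₂ * x₃ =
      2 * x₁ * L ^ 2 + (W.a₁ * x₁ - 2 * y₁ - W.a₃) * L + (-W.a₁ * y₁ + W.a₄) ∧
    x₁ * x₂ * x₃ = x₁ ^ 2 * L ^ 2 - (2 * x₁ * y₁ + W.a₃ * x₁) * L + (y₁ ^ 2 + W.a₃ * y₁ - W.a₆) := by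
  intro L x₃
  have key := addPolynomial_slope h₁ h₂ hxy
  rw [addPolynomial_eq, neg_inj, Cubic.prod_X_sub_C_eq, Cubic.toPoly_injective] at key
  have hb := congrArg Cubic.b key
  have hc := congrArg Cubic.c key
  have hd := congrArg Cubic.d key
  simp only at hb hc hd
  refine ⟨?_, ?_, ?_⟩
  · simp only [x₃, L, addX]; ring
  · linear_combination -hc
  · linear_combination hd

/-- three points summing to zero on a short curve are collinear -/
theorem exists_col [DecidableEq F] {W : WeierstrassCurve F}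
    (h₁ : W.a₁ = 0) (h₂ : W.a₂ = 0) (h₃ : W.a₃ = 0)
    {x₁ y₁ x₂ y₂ x₃ y₃ : F} (hP₁ : W.toAffine.Nonsingular x₁ y₁)
    (hP₂ : W.toAffine.Nonsingular x₂ y₂) (hP₃ : W.toAffine.Nonsingular x₃ y₃)
    (h : Point.some x₁ y₁ hP₁ + Point.some x₂ y₂ hP₂ + Point.some x₃ y₃ hP₃ = 0) :
    ∃ l n : F, Col W.a₄ W.a₆ x₁ y₁ x₂ y₂ x₃ y₃ l n := by
  have hxy : ¬(x₁ = x₂ ∧ y₁ = W.toAffine.negY x₂ y₂) := by
    rintro ⟨hx, hy⟩
    rw [Point.add_of_Y_eq hx hy, zero_add] at h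
    exact Point.some_ne_zero hP₃ h
  set L := W.toAffine.slope x₁ x₂ y₁ y₂ with hL
  have hsum : Point.some x₁ y₁ hP₁ + Point.some x₂ y₂ hP₂ = -Point.some x₃ y₃ hP₃ :=
    eq_neg_of_add_eq_zero_left h
  rw [Point.add_some hxy, Point.neg_some] at hsum
  have hx₃ : W.toAffine.addX x₁ x₂ L = x₃ := by
    have := hsum
    simp only [Point.some.injEq] at this
    exact this.1
  have hy₃ : W.toAffine.addY x₁ x₂ y₁ L = W.toAffine.negY x₃ y₃ := by
    have := hsum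
    simp only [Point.some.injEq] at this
    exact this.2
  have hy₃' : y₃ = L * (x₃ - x₁) + y₁ := by
    simp only [addY, negY, negAddY, h₁, h₃] at hy₃
    rw [hx₃] at hy₃
    linear_combination hy₃
  obtain ⟨v1, v2, v3⟩ := vieta hP₁.1 hP₂.1 hxy
  simp only [h₁, h₂, h₃] at v1 v2 v3
  rw [← hL, hx₃] at v1 v2 v3
  have hline₂ : y₂ = L * x₂ + (y₁ - L * x₁) := by
    by_cases hx : x₁ = x₂
    · have hy : y₁ ≠ W.toAffine.negY x₂ y₂ := fun hy => hxy ⟨hx, hy⟩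
      have := Y_eq_of_Y_ne hP₁.1 hP₂.1 hx hy
      rw [← this, hx]; ring
    · have hLs : L = (y₁ - y₂) / (x₁ - x₂) := by rw [hL, slope_of_X_ne hx]
      have hne : x₁ - x₂ ≠ 0 := sub_ne_zero.2 hx
      rw [hLs]
      field_simp
      ring
  refine ⟨L, y₁ - L * x₁, by ring, hline₂, ?_, ?_, ?_, ?_⟩
  · rw [hy₃']; ring
  · linear_combination v1
  · linear_combination v2
  · linear_combination v3

/-- conversely, three collinear nonsingular points of a short curve (char ≠ 2) sum to zero -/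
theorem add_eq_zero_of_col [DecidableEq F] {W : WeierstrassCurve F}
    (h₁ : W.a₁ = 0) (h₂ : W.a₂ = 0) (h₃ : W.a₃ = 0) (h2 : (2 : F) ≠ 0)
    {x₁ y₁ x₂ y₂ x₃ y₃ l n : F} (hP₁ : W.toAffine.Nonsingular x₁ y₁)
    (hP₂ : W.toAffine.Nonsingular x₂ y₂) (hP₃ : W.toAffine.Nonsingular x₃ y₃)
    (hc : Col W.a₄ W.a₆ x₁ y₁ x₂ y₂ x₃ y₃ l n) :
    Point.some x₁ y₁ hP₁ + Point.some x₂ y₂ hP₂ + Point.some x₃ y₃ hP₃ = 0 := by
  obtain ⟨l1, l2, l3, e1, e2, e3⟩ := hc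
  have hneg : ∀ x y : F, W.toAffine.negY x y = -y := by
    intro x y; simp [negY, h₁, h₃]
  -- tangent identity when `x₁ = x₂`
  have htan : x₁ = x₂ → 3 * x₁ ^ 2 + W.a₄ = 2 * l * y₁ := by
    intro hx
    subst hx
    have ex₃ : x₃ = l ^ 2 - 2 * x₁ := by linear_combination e1
    rw [ex₃] at e2
    rw [l1]
    linear_combination -e2
  have hxy : ¬(x₁ = x₂ ∧ y₁ = W.toAffine.negY x₂ y₂) := by
    rintro ⟨hx, hy⟩
    rw [hneg] at hy
    have hyy : y₁ = y₂ := by rw [l1, l2, hx]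
    have hy0 : y₁ = 0 := by
      have h2y : 2 * y₁ = 0 := by rw [← hyy] at hy; linear_combination hy
      rcases mul_eq_zero.mp h2y with h | h
      · exact absurd h h2
      · exact h
    have ht := htan hx
    rw [hy0, mul_zero] at ht
    have hns := (nonsingular_iff _ _).mp hP₁
    rcases hns.2 with h | h
    · apply h
      rw [h₁, h₂]
      linear_combination -ht
    · apply h
      rw [h₁, h₃, hy0]; ring
  have hslope : W.toAffine.slope x₁ x₂ y₁ y₂ = l := by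
    by_cases hx : x₁ = x₂
    · have hy : y₁ ≠ W.toAffine.negY x₂ y₂ := fun hy => hxy ⟨hx, hy⟩
      rw [slope_of_Y_ne hx hy]
      have ht := htan hx
      rw [hneg] at hy ⊢
      have hyy : y₁ = y₂ := by rw [l1, l2, hx]
      have hy0 : y₁ - -y₁ ≠ 0 := by
        intro h
        apply hy
        rw [← hyy]
        linear_combination h
      rw [h₁, h₂, div_eq_iff hy0]
      linear_combination ht
    · rw [slope_of_X_ne hx]
      have hne : x₁ - x₂ ≠ 0 := sub_ne_zero.2 hx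
      rw [div_eq_iff hne, l1, l2]; ring
  have hsum : Point.some x₁ y₁ hP₁ + Point.some x₂ y₂ hP₂ = -Point.some x₃ y₃ hP₃ := by
    rw [Point.add_some hxy, Point.neg_some]
    apply some_congr
    · rw [hslope]; simp only [addX, h₁, h₂]; linear_combination -e1
    · rw [hslope]
      simp only [addY, negY, negAddY, addX, h₁, h₂, h₃]
      rw [l3, l1]
      have ex₃ : x₃ = l ^ 2 - x₁ - x₂ := by linear_combination e1
      rw [ex₃]; ring
  rw [hsum, neg_add_cancel]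

end Col


/-! ## Valuation subring facts -/

section VR

variable {K : Type*} [Field K] (A : ValuationSubring K)

lemma mem_of_sq_mem {x : K} (h : x ^ 2 ∈ A) : x ∈ A := by
  rcases A.mem_or_inv_mem x with hx | hx
  · exact hx
  · by_cases h0 : x = 0
    · rw [h0]; exact A.zero_mem
    · have : x = x ^ 2 * x⁻¹ := by field_simp
      rw [this]; exact mul_mem h hx

lemma inv_mem_of_not_mem {x : K} (h : x ∉ A) : x⁻¹ ∈ A :=
  (A.mem_or_inv_mem x).resolve_left h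

lemma inv_mem_nonunits_of_not_mem {x : K} (h : x ∉ A) : x⁻¹ ∈ A.nonunits := by
  rw [ValuationSubring.mem_nonunits_iff_or]
  right
  rwa [inv_inv]

lemma ne_zero_of_not_mem {x : K} (h : x ∉ A) : x ≠ 0 := fun h0 => h (h0 ▸ A.zero_mem)

end VR

/-! ## The reduction data -/

/-- The data of a short curve `W : y² = x³ + a x + b` over `K` with `a, b ∈ A`, and its
reduction `W'` over `k` along `π : A →+* k` (kernel = maximal ideal), with good reduction. -/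
structure RedData {K : Type*} [Field K] (A : ValuationSubring K) {k : Type*} [Field k]
    (π : A →+* k) (W : WeierstrassCurve K) (W' : WeierstrassCurve k) (a b : A) : Prop where
  hπ : ∀ x : A, π x = 0 ↔ (x : K) ∈ A.nonunits
  h₁ : W.a₁ = 0
  h₂ : W.a₂ = 0
  h₃ : W.a₃ = 0
  h₁' : W'.a₁ = 0
  h₂' : W'.a₂ = 0
  h₃' : W'.a₃ = 0
  ha : W.a₄ = a
  hb : W.a₆ = b
  ha' : W'.a₄ = π a
  hb' : W'.a₆ = π b
  hΔ : W'.Δ ≠ 0

namespace RedData

variable {K : Type*} [Field K] {A : ValuationSubring K} {k : Type*} [Field k]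
  {π : A →+* k} {W : WeierstrassCurve K} {W' : WeierstrassCurve k} {a b : A}
  (S : RedData A π W W' a b)

include S

lemma eqn {x y : K} (h : W.toAffine.Equation x y) : y ^ 2 = x ^ 3 + (a : K) * x + (b : K) := by
  have := (equation_iff _ _).mp h
  rw [S.h₁, S.h₂, S.h₃, S.ha, S.hb] at this
  linear_combination this

lemma equation' {x y : k} (h : y ^ 2 = x ^ 3 + π a * x + π b) : W'.toAffine.Equation x y := by
  rw [equation_iff, S.h₁', S.h₂', S.h₃', S.ha', S.hb']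
  linear_combination h

lemma y_mem {x y : K} (h : W.toAffine.Equation x y) (hx : x ∈ A) : y ∈ A := by
  apply mem_of_sq_mem A
  rw [S.eqn h]
  exact add_mem (add_mem (pow_mem hx 3) (mul_mem a.2 hx)) b.2

lemma two_ne_zero' : (2 : k) ≠ 0 := by
  intro h2
  apply S.hΔ
  have : W'.Δ = 2 * (-8 * (4 * W'.a₄ ^ 3 + 27 * W'.a₆ ^ 2)) := by
    simp only [WeierstrassCurve.Δ, WeierstrassCurve.b₂, WeierstrassCurve.b₄, WeierstrassCurve.b₆,
      WeierstrassCurve.b₈, S.h₁', S.h₂', S.h₃']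
    ring
  rw [this, h2, zero_mul]

lemma nonsingular_red {x y : K} (h : W.toAffine.Equation x y) (hx : x ∈ A) (hy : y ∈ A) :
    W'.toAffine.Nonsingular (π ⟨x, hx⟩) (π ⟨y, hy⟩) := by
  rw [← equation_iff_nonsingular_of_Δ_ne_zero S.hΔ]
  apply S.equation'
  have hA : (⟨y, hy⟩ : A) ^ 2 = ⟨x, hx⟩ ^ 3 + a * ⟨x, hx⟩ + b := Subtype.ext (S.eqn h)
  have := congrArg π hA
  simpa only [map_add, map_mul, map_pow] using this

/-- exactly one integral point among three collinear points is impossible -/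
lemma not_one_integral {x₁ y₁ x₂ y₂ x₃ y₃ l n : K}
    (hc : Col (a : K) (b : K) x₁ y₁ x₂ y₂ x₃ y₃ l n) (hx₁ : x₁ ∈ A) (hx₂ : x₂ ∉ A)
    (hx₃ : x₃ ∉ A) : False := by
  obtain ⟨-, -, -, e1, e2, e3⟩ := hc
  have hsA : x₂⁻¹ ∈ A := inv_mem_of_not_mem A hx₂
  have htA : x₃⁻¹ ∈ A := inv_mem_of_not_mem A hx₃
  have hs1 : x₂ * x₂⁻¹ = 1 := mul_inv_cancel₀ (ne_zero_of_not_mem A hx₂)
  have ht1 : x₃ * x₃⁻¹ = 1 := mul_inv_cancel₀ (ne_zero_of_not_mem A hx₃)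
  have hπs : π ⟨x₂⁻¹, hsA⟩ = 0 := (S.hπ _).mpr (inv_mem_nonunits_of_not_mem A hx₂)
  have hπt : π ⟨x₃⁻¹, htA⟩ = 0 := (S.hπ _).mpr (inv_mem_nonunits_of_not_mem A hx₃)
  generalize x₂⁻¹ = s at hsA hs1 hπs
  generalize x₃⁻¹ = t at htA ht1 hπt
  have hpoly : ((a : K) - (x₁ * x₂ + x₁ * x₃ + x₂ * x₃)) ^ 2 =
      4 * (x₁ + x₂ + x₃) * ((b : K) + x₁ * x₂ * x₃) := by
    rw [e1, e2, e3]; ring
  have h1 : (a : K) * s * t - x₁ * (s + t) - 1 =
      ((a : K) - (x₁ * x₂ + x₁ * x₃ + x₂ * x₃)) * (s * t) := by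
    linear_combination (x₁ * t + x₃ * t) * hs1 + (x₁ * s + 1) * ht1
  have h2 : x₁ * s * t + s + t = (x₁ + x₂ + x₃) * (s * t) := by
    linear_combination (-t) * hs1 + (-s) * ht1
  have h3 : (b : K) * s * t + x₁ = ((b : K) + x₁ * x₂ * x₃) * (s * t) := by
    linear_combination (-x₁ * x₃ * t) * hs1 + (-x₁) * ht1
  have key : ((a : K) * s * t - x₁ * (s + t) - 1) ^ 2 =
      4 * (x₁ * s * t + s + t) * ((b : K) * s * t + x₁) := by
    rw [h1, h2, h3]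
    linear_combination (s * t) ^ 2 * hpoly
  have hA : (a * ⟨s, hsA⟩ * ⟨t, htA⟩ - ⟨x₁, hx₁⟩ * (⟨s, hsA⟩ + ⟨t, htA⟩) - 1 : A) ^ 2 =
      4 * (⟨x₁, hx₁⟩ * ⟨s, hsA⟩ * ⟨t, htA⟩ + ⟨s, hsA⟩ + ⟨t, htA⟩) *
        (b * ⟨s, hsA⟩ * ⟨t, htA⟩ + ⟨x₁, hx₁⟩) := Subtype.ext (by push_cast; exact key)
  have := congrArg π hA
  simp only [map_add, map_mul, map_pow, map_sub, map_one, map_ofNat, hπs, hπt, mul_zero,
    zero_mul, add_zero, zero_sub, sub_zero, zero_add] at this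
  norm_num at this

/-- if the third of three collinear points is not integral, the first two reduce to opposite
points -/
lemma red_eq_of_third_not_mem {x₁ y₁ x₂ y₂ x₃ y₃ l n : K}
    (hc : Col (a : K) (b : K) x₁ y₁ x₂ y₂ x₃ y₃ l n) (hx₁ : x₁ ∈ A) (hx₂ : x₂ ∈ A)
    (hy₁ : y₁ ∈ A) (hy₂ : y₂ ∈ A) (hx₃ : x₃ ∉ A) :
    π ⟨x₁, hx₁⟩ = π ⟨x₂, hx₂⟩ ∧ π ⟨y₁, hy₁⟩ = -π ⟨y₂, hy₂⟩ := by
  obtain ⟨l1, l2, -, e1, e2, -⟩ := hc
  have hl : l ∉ A := by
    intro hl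
    apply hx₃
    have : x₃ = l ^ 2 - x₁ - x₂ := by linear_combination e1
    rw [this]
    exact sub_mem (sub_mem (pow_mem hl 2) hx₁) hx₂
  have huA : l⁻¹ ∈ A := inv_mem_of_not_mem A hl
  have hul : l * l⁻¹ = 1 := mul_inv_cancel₀ (ne_zero_of_not_mem A hl)
  have hπu : π ⟨l⁻¹, huA⟩ = 0 := (S.hπ _).mpr (inv_mem_nonunits_of_not_mem A hl)
  generalize l⁻¹ = u at huA hul hπu
  have hQ : l * (y₁ + y₂) = x₁ ^ 2 + x₁ * x₂ + x₂ ^ 2 + (a : K) := by
    rw [l1, l2]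
    have ex₃ : x₃ = l ^ 2 - x₁ - x₂ := by linear_combination e1
    rw [ex₃] at e2
    linear_combination e2
  have k1 : x₁ - x₂ = u * (y₁ - y₂) := by
    linear_combination (-(x₁ - x₂)) * hul - u * l1 + u * l2
  have k2 : y₁ + y₂ = u * (x₁ ^ 2 + x₁ * x₂ + x₂ ^ 2 + (a : K)) := by
    linear_combination (-(y₁ + y₂)) * hul + u * hQ
  have hA1 : (⟨x₁, hx₁⟩ - ⟨x₂, hx₂⟩ : A) = ⟨u, huA⟩ * (⟨y₁, hy₁⟩ - ⟨y₂, hy₂⟩) :=
    Subtype.ext (by push_cast; exact k1)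
  have hA2 : (⟨y₁, hy₁⟩ + ⟨y₂, hy₂⟩ : A) =
      ⟨u, huA⟩ * (⟨x₁, hx₁⟩ ^ 2 + ⟨x₁, hx₁⟩ * ⟨x₂, hx₂⟩ + ⟨x₂, hx₂⟩ ^ 2 + a) :=
    Subtype.ext (by push_cast; exact k2)
  have p1 := congrArg π hA1
  have p2 := congrArg π hA2
  rw [map_mul, hπu, zero_mul, map_sub] at p1
  rw [map_mul, hπu, zero_mul, map_add] at p2
  exact ⟨sub_eq_zero.mp p1, eq_neg_of_add_eq_zero_left p2⟩

omit S in
/-- three integral collinear points reduce to three collinear points -/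
lemma col_red {x₁ y₁ x₂ y₂ x₃ y₃ l n : K}
    (hc : Col (a : K) (b : K) x₁ y₁ x₂ y₂ x₃ y₃ l n) (hx₁ : x₁ ∈ A) (hx₂ : x₂ ∈ A)
    (hx₃ : x₃ ∈ A) (hy₁ : y₁ ∈ A) (hy₂ : y₂ ∈ A) (hy₃ : y₃ ∈ A) :
    ∃ l' n' : k, Col (π a) (π b) (π ⟨x₁, hx₁⟩) (π ⟨y₁, hy₁⟩) (π ⟨x₂, hx₂⟩) (π ⟨y₂, hy₂⟩)
      (π ⟨x₃, hx₃⟩) (π ⟨y₃, hy₃⟩) l' n' := by
  obtain ⟨l1, l2, l3, e1, e2, e3⟩ := hc
  have hl : l ∈ A := mem_of_sq_mem A (by rw [← e1]; exact add_mem (add_mem hx₁ hx₂) hx₃)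
  have hn : n ∈ A := by
    have : n = y₁ - l * x₁ := by linear_combination -l1
    rw [this]
    exact sub_mem hy₁ (mul_mem hl hx₁)
  have a1 : (⟨y₁, hy₁⟩ : A) = ⟨l, hl⟩ * ⟨x₁, hx₁⟩ + ⟨n, hn⟩ := Subtype.ext l1
  have a2 : (⟨y₂, hy₂⟩ : A) = ⟨l, hl⟩ * ⟨x₂, hx₂⟩ + ⟨n, hn⟩ := Subtype.ext l2
  have a3 : (⟨y₃, hy₃⟩ : A) = ⟨l, hl⟩ * ⟨x₃, hx₃⟩ + ⟨n, hn⟩ := Subtype.ext l3
  have a4 : (⟨x₁, hx₁⟩ + ⟨x₂, hx₂⟩ + ⟨x₃, hx₃⟩ : A) = ⟨l, hl⟩ ^ 2 := Subtype.ext e1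
  have a5 : (⟨x₁, hx₁⟩ * ⟨x₂, hx₂⟩ + ⟨x₁, hx₁⟩ * ⟨x₃, hx₃⟩ + ⟨x₂, hx₂⟩ * ⟨x₃, hx₃⟩ : A) =
      a - 2 * ⟨l, hl⟩ * ⟨n, hn⟩ := Subtype.ext (by push_cast; exact e2)
  have a6 : (⟨x₁, hx₁⟩ * ⟨x₂, hx₂⟩ * ⟨x₃, hx₃⟩ : A) = ⟨n, hn⟩ ^ 2 - b :=
    Subtype.ext (by push_cast; exact e3)
  refine ⟨π ⟨l, hl⟩, π ⟨n, hn⟩, ?_, ?_, ?_, ?_, ?_, ?_⟩
  · simpa only [map_add, map_mul] using congrArg π a1
  · simpa only [map_add, map_mul] using congrArg π a2
  · simpa only [map_add, map_mul] using congrArg π a3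
  · simpa only [map_add, map_pow] using congrArg π a4
  · simpa only [map_add, map_mul, map_sub, map_ofNat] using congrArg π a5
  · simpa only [map_mul, map_sub, map_pow] using congrArg π a6


open Classical in
/-- the reduction map on points -/
noncomputable def redFun : W.toAffine.Point → W'.toAffine.Point
  | .zero => 0
  | .some x y h =>
      if hx : x ∈ A then
        Point.some (π ⟨x, hx⟩) (π ⟨y, S.y_mem h.1 hx⟩) (S.nonsingular_red h.1 hx (S.y_mem h.1 hx))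
      else 0

lemma redFun_zero : S.redFun 0 = 0 := rfl

lemma redFun_of_mem {x y : K} (h : W.toAffine.Nonsingular x y) (hx : x ∈ A) :
    S.redFun (Point.some x y h) =
      Point.some (π ⟨x, hx⟩) (π ⟨y, S.y_mem h.1 hx⟩)
        (S.nonsingular_red h.1 hx (S.y_mem h.1 hx)) := by
  simp only [redFun, dif_pos hx]

lemma redFun_of_not_mem {x y : K} (h : W.toAffine.Nonsingular x y) (hx : x ∉ A) :
    S.redFun (Point.some x y h) = 0 := by
  simp only [redFun, dif_neg hx]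

lemma negY_eq (x y : K) : W.toAffine.negY x y = -y := by
  simp [negY, S.h₁, S.h₃]

lemma negY_eq' (x y : k) : W'.toAffine.negY x y = -y := by
  simp [negY, S.h₁', S.h₃']

variable [DecidableEq K] [DecidableEq k]

omit [DecidableEq K] in
lemma redFun_neg (P : W.toAffine.Point) : S.redFun (-P) = -S.redFun P := by
  rcases P with _ | ⟨x, y, h⟩
  · rfl
  · rw [Point.neg_some]
    by_cases hx : x ∈ A
    · rw [S.redFun_of_mem _ hx, S.redFun_of_mem _ hx, Point.neg_some]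
      apply some_congr rfl
      rw [S.negY_eq', ← map_neg]
      congr 1
      exact Subtype.ext (S.negY_eq x y)
    · rw [S.redFun_of_not_mem _ hx, S.redFun_of_not_mem _ hx, neg_zero]

lemma redFun_two {x₁ y₁ x₂ y₂ x₃ y₃ : K} {h₁ : W.toAffine.Nonsingular x₁ y₁}
    {h₂ : W.toAffine.Nonsingular x₂ y₂} {h₃ : W.toAffine.Nonsingular x₃ y₃}
    (h : Point.some x₁ y₁ h₁ + Point.some x₂ y₂ h₂ + Point.some x₃ y₃ h₃ = 0)
    (hx₁ : x₁ ∈ A) (hx₂ : x₂ ∈ A) (hx₃ : x₃ ∉ A) :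
    S.redFun (Point.some x₁ y₁ h₁) + S.redFun (Point.some x₂ y₂ h₂) = 0 := by
  obtain ⟨l, n, hc⟩ := exists_col S.h₁ S.h₂ S.h₃ h₁ h₂ h₃ h
  rw [S.ha, S.hb] at hc
  obtain ⟨e1, e2⟩ := S.red_eq_of_third_not_mem hc hx₁ hx₂ (S.y_mem h₁.1 hx₁) (S.y_mem h₂.1 hx₂) hx₃
  rw [S.redFun_of_mem _ hx₁, S.redFun_of_mem _ hx₂]
  exact Point.add_of_Y_eq e1 (by rw [S.negY_eq', e2])

omit [DecidableEq k] in
lemma redFun_one {x₁ y₁ x₂ y₂ x₃ y₃ : K} {h₁ : W.toAffine.Nonsingular x₁ y₁}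
    {h₂ : W.toAffine.Nonsingular x₂ y₂} {h₃ : W.toAffine.Nonsingular x₃ y₃}
    (h : Point.some x₁ y₁ h₁ + Point.some x₂ y₂ h₂ + Point.some x₃ y₃ h₃ = 0)
    (hx₁ : x₁ ∈ A) (hx₂ : x₂ ∉ A) (hx₃ : x₃ ∉ A) : False := by
  obtain ⟨l, n, hc⟩ := exists_col S.h₁ S.h₂ S.h₃ h₁ h₂ h₃ h
  rw [S.ha, S.hb] at hc
  exact S.not_one_integral hc hx₁ hx₂ hx₃

lemma redFun_three_mem {x₁ y₁ x₂ y₂ x₃ y₃ : K} {h₁ : W.toAffine.Nonsingular x₁ y₁}
    {h₂ : W.toAffine.Nonsingular x₂ y₂} {h₃ : W.toAffine.Nonsingular x₃ y₃}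
    (h : Point.some x₁ y₁ h₁ + Point.some x₂ y₂ h₂ + Point.some x₃ y₃ h₃ = 0)
    (hx₁ : x₁ ∈ A) (hx₂ : x₂ ∈ A) (hx₃ : x₃ ∈ A) :
    S.redFun (Point.some x₁ y₁ h₁) + S.redFun (Point.some x₂ y₂ h₂) +
      S.redFun (Point.some x₃ y₃ h₃) = 0 := by
  obtain ⟨l, n, hc⟩ := exists_col S.h₁ S.h₂ S.h₃ h₁ h₂ h₃ h
  rw [S.ha, S.hb] at hc
  obtain ⟨l', n', hc'⟩ := col_red (π := π) hc hx₁ hx₂ hx₃ (S.y_mem h₁.1 hx₁) (S.y_mem h₂.1 hx₂)
    (S.y_mem h₃.1 hx₃)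
  rw [← S.ha', ← S.hb'] at hc'
  rw [S.redFun_of_mem _ hx₁, S.redFun_of_mem _ hx₂, S.redFun_of_mem _ hx₃]
  exact add_eq_zero_of_col S.h₁' S.h₂' S.h₃' S.two_ne_zero' _ _ _ hc'

lemma redFun_three_some {x₁ y₁ x₂ y₂ x₃ y₃ : K} {h₁ : W.toAffine.Nonsingular x₁ y₁}
    {h₂ : W.toAffine.Nonsingular x₂ y₂} {h₃ : W.toAffine.Nonsingular x₃ y₃}
    (h : Point.some x₁ y₁ h₁ + Point.some x₂ y₂ h₂ + Point.some x₃ y₃ h₃ = 0) :
    S.redFun (Point.some x₁ y₁ h₁) + S.redFun (Point.some x₂ y₂ h₂) +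
      S.redFun (Point.some x₃ y₃ h₃) = 0 := by
  have h132 : Point.some x₁ y₁ h₁ + Point.some x₃ y₃ h₃ + Point.some x₂ y₂ h₂ = 0 := by
    rw [← h]; abel
  have h231 : Point.some x₂ y₂ h₂ + Point.some x₃ y₃ h₃ + Point.some x₁ y₁ h₁ = 0 := by
    rw [← h]; abel
  have h213 : Point.some x₂ y₂ h₂ + Point.some x₁ y₁ h₁ + Point.some x₃ y₃ h₃ = 0 := by
    rw [← h]; abel
  have h312 : Point.some x₃ y₃ h₃ + Point.some x₁ y₁ h₁ + Point.some x₂ y₂ h₂ = 0 := by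
    rw [← h]; abel
  by_cases hx₁ : x₁ ∈ A <;> by_cases hx₂ : x₂ ∈ A <;> by_cases hx₃ : x₃ ∈ A
  · exact S.redFun_three_mem h hx₁ hx₂ hx₃
  · rw [S.redFun_of_not_mem h₃ hx₃, add_zero]
    exact S.redFun_two h hx₁ hx₂ hx₃
  · have := S.redFun_two h132 hx₁ hx₃ hx₂
    rw [S.redFun_of_not_mem h₂ hx₂, add_zero]
    exact this
  · exact (S.redFun_one h hx₁ hx₂ hx₃).elim
  · have := S.redFun_two h231 hx₂ hx₃ hx₁
    rw [S.redFun_of_not_mem h₁ hx₁, zero_add]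
    exact this
  · exact (S.redFun_one h213 hx₂ hx₁ hx₃).elim
  · exact (S.redFun_one h312 hx₃ hx₁ hx₂).elim
  · rw [S.redFun_of_not_mem h₁ hx₁, S.redFun_of_not_mem h₂ hx₂, S.redFun_of_not_mem h₃ hx₃]
    simp

theorem redFun_three (P₁ P₂ P₃ : W.toAffine.Point) (h : P₁ + P₂ + P₃ = 0) :
    S.redFun P₁ + S.redFun P₂ + S.redFun P₃ = 0 := by
  rcases P₁ with _ | ⟨x₁, y₁, h₁⟩
  · change (0 : W.toAffine.Point) + P₂ + P₃ = 0 at h
    rw [zero_add] at h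
    have h' : P₃ = -P₂ := eq_neg_of_add_eq_zero_right h
    change (0 : W'.toAffine.Point) + S.redFun P₂ + S.redFun P₃ = 0
    rw [h', S.redFun_neg, zero_add, add_neg_cancel]
  rcases P₂ with _ | ⟨x₂, y₂, h₂⟩
  · change Point.some x₁ y₁ h₁ + (0 : W.toAffine.Point) + P₃ = 0 at h
    rw [add_zero] at h
    have h' : P₃ = -Point.some x₁ y₁ h₁ := eq_neg_of_add_eq_zero_right h
    change S.redFun (Point.some x₁ y₁ h₁) + (0 : W'.toAffine.Point) + S.redFun P₃ = 0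
    rw [h', S.redFun_neg, add_zero, add_neg_cancel]
  rcases P₃ with _ | ⟨x₃, y₃, h₃⟩
  · change Point.some x₁ y₁ h₁ + Point.some x₂ y₂ h₂ + (0 : W.toAffine.Point) = 0 at h
    rw [add_zero] at h
    have h' : Point.some x₂ y₂ h₂ = -Point.some x₁ y₁ h₁ := eq_neg_of_add_eq_zero_right h
    change S.redFun (Point.some x₁ y₁ h₁) + S.redFun (Point.some x₂ y₂ h₂) +
      (0 : W'.toAffine.Point) = 0
    rw [h', S.redFun_neg, add_zero, add_neg_cancel]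
  · exact S.redFun_three_some h

/-- the reduction homomorphism -/
noncomputable def redHom : W.toAffine.Point →+ W'.toAffine.Point where
  toFun := S.redFun
  map_zero' := rfl
  map_add' P Q := by
    have h := S.redFun_three P Q (-(P + Q)) (add_neg_cancel _)
    rw [S.redFun_neg, add_neg_eq_zero] at h
    exact h.symm

lemma redHom_apply (P : W.toAffine.Point) : S.redHom P = S.redFun P := rfl

lemma redHom_of_not_mem {x y : K} (h : W.toAffine.Nonsingular x y) (hx : x ∉ A) :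
    S.redHom (Point.some x y h) = 0 :=
  S.redFun_of_not_mem h hx

lemma redHom_of_mem {x y : K} (h : W.toAffine.Nonsingular x y) (hx : x ∈ A) :
    S.redHom (Point.some x y h) =
      Point.some (π ⟨x, hx⟩) (π ⟨y, S.y_mem h.1 hx⟩)
        (S.nonsingular_red h.1 hx (S.y_mem h.1 hx)) :=
  S.redFun_of_mem h hx

/-- **(R2)** the kernel of reduction: `0` and the points with non-integral `x`. -/
theorem redHom_eq_zero_iff (P : W.toAffine.Point) :
    S.redHom P = 0 ↔ P = 0 ∨ ∃ (x y : K) (h : W.toAffine.Nonsingular x y),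
      P = Point.some x y h ∧ x ∉ A := by
  constructor
  · intro hP
    rcases P with _ | ⟨x, y, h⟩
    · exact Or.inl rfl
    · right
      refine ⟨x, y, h, rfl, fun hx => ?_⟩
      rw [S.redHom_of_mem h hx] at hP
      exact Point.some_ne_zero _ hP
  · rintro (rfl | ⟨x, y, h, rfl, hx⟩)
    · exact map_zero _
    · exact S.redHom_of_not_mem h hx

/-- **(R3)** compatibility of reduction with a "Frobenius lift": if `σ` preserves `A` and
induces `x ↦ x ^ r` on the residue field, and `Φ`, `Ψ` are additive maps acting on affine points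
by `(σ x, σ y)` resp. `(x ^ r, y ^ r)`, then `red ∘ Φ = Ψ ∘ red`. -/
theorem redHom_comm (σ : K →+* K) (hσ : ∀ x : K, x ∈ A ↔ σ x ∈ A) (r : ℕ)
    (hσr : ∀ x : K, x ∈ A → σ x - x ^ r ∈ A.nonunits)
    (Φ : W.toAffine.Point →+ W.toAffine.Point) (Ψ : W'.toAffine.Point →+ W'.toAffine.Point)
    (hΦ : ∀ (x y : K) (h : W.toAffine.Nonsingular x y),
      ∃ h' : W.toAffine.Nonsingular (σ x) (σ y), Φ (Point.some x y h) = Point.some (σ x) (σ y) h')
    (hΨ : ∀ (x y : k) (h : W'.toAffine.Nonsingular x y),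
      ∃ h' : W'.toAffine.Nonsingular (x ^ r) (y ^ r),
        Ψ (Point.some x y h) = Point.some (x ^ r) (y ^ r) h')
    (P : W.toAffine.Point) : S.redHom (Φ P) = Ψ (S.redHom P) := by
  have key : ∀ (x : K) (hx : x ∈ A) (hx' : σ x ∈ A), π ⟨σ x, hx'⟩ = π ⟨x, hx⟩ ^ r := by
    intro x hx hx'
    have h0 : π (⟨σ x, hx'⟩ - ⟨x, hx⟩ ^ r) = 0 := (S.hπ _).mpr (by push_cast; exact hσr x hx)
    rw [map_sub, map_pow] at h0
    exact sub_eq_zero.mp h0
  rcases P with _ | ⟨x, y, h⟩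
  · change S.redHom (Φ 0) = Ψ (S.redHom 0)
    rw [map_zero, map_zero, map_zero]
  · obtain ⟨h', e⟩ := hΦ x y h
    rw [e]
    by_cases hx : x ∈ A
    · have hx' : σ x ∈ A := (hσ x).mp hx
      rw [S.redHom_of_mem h' hx', S.redHom_of_mem h hx]
      obtain ⟨h'', e'⟩ := hΨ _ _ (S.nonsingular_red h.1 hx (S.y_mem h.1 hx))
      rw [e']
      exact some_congr (key x hx hx') (key y (S.y_mem h.1 hx) (S.y_mem h'.1 hx'))
    · have hx' : σ x ∉ A := fun hh => hx ((hσ x).mpr hh)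
      rw [S.redHom_of_not_mem h' hx', S.redHom_of_not_mem h hx, map_zero]

end RedData

/-- the residue map of a valuation subring has kernel the nonunits -/
theorem residue_eq_zero_iff_mem_nonunits {K : Type*} [Field K] (A : ValuationSubring K) (x : A) :
    IsLocalRing.residue A x = 0 ↔ (x : K) ∈ A.nonunits :=
  (IsLocalRing.residue_eq_zero_iff x).trans ValuationSubring.coe_mem_nonunits_iff.symm

/-- **(E1-R)**: reduction modulo a valuation subring is a group homomorphism on the points of a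
short Weierstrass curve with good reduction; its kernel consists of `0` and the points with
non-integral `x`-coordinate, and it is given by reducing coordinates on the integral points. -/
theorem exists_redHom {K : Type*} [Field K] [DecidableEq K] (A : ValuationSubring K)
    {k : Type*} [Field k] [DecidableEq k] (π : A →+* k)
    (hπ : ∀ x : A, π x = 0 ↔ (x : K) ∈ A.nonunits)
    (W : WeierstrassCurve K) (W' : WeierstrassCurve k)
    (h₁ : W.a₁ = 0) (h₂ : W.a₂ = 0) (h₃ : W.a₃ = 0)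
    (h₁' : W'.a₁ = 0) (h₂' : W'.a₂ = 0) (h₃' : W'.a₃ = 0)
    (a b : A) (ha : W.a₄ = a) (hb : W.a₆ = b) (ha' : W'.a₄ = π a) (hb' : W'.a₆ = π b)
    (hΔ : W'.Δ ≠ 0) :
    ∃ red : W.toAffine.Point →+ W'.toAffine.Point,
      (∀ (x y : K) (h : W.toAffine.Nonsingular x y), x ∉ A → red (Point.some x y h) = 0) ∧
      (∀ (x y : K) (_h : W.toAffine.Nonsingular x y), x ∈ A → y ∈ A) ∧
      (∀ (x y : A) (h : W.toAffine.Nonsingular (x : K) (y : K)),
        ∃ h' : W'.toAffine.Nonsingular (π x) (π y),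
          red (Point.some (x : K) (y : K) h) = Point.some (π x) (π y) h') := by
  have S : RedData A π W W' a b := ⟨hπ, h₁, h₂, h₃, h₁', h₂', h₃', ha, hb, ha', hb', hΔ⟩
  refine ⟨S.redHom, fun x y h hx => S.redHom_of_not_mem h hx, fun x y h hx => S.y_mem h.1 hx,
    fun x y h => ⟨_, S.redHom_of_mem h x.2⟩⟩

end Fermat.Agent.S41.H28
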