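import Mathlib
import Fermat.Prelude.Def_FLTPrelim_Modularity
import Fermat.Prelude.Def_EllipticCurve_FrobeniusTrace
import Fermat.Agent.S52.Bridge_helper83
import Fermat.Agent.S41.NonEisStmt_helper86

/-!
# S41, node (E1-V) (helper5): the variable-change transfer on affine points

Mathlib has no map on `Affine.Point` induced by a `VariableChange`.  We prove that the
coordinate change `(x, y) ↦ (u²x + r, u³y + u²sx + t)` is an additive equivalence
`(C • W).Point ≃+ W.Point` (`vcEquiv`), that it commutes with the coordinatewise action of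
algebra automorphisms when `C` is defined over the base, and deduce that the points of an
elliptic curve `E/ℚ` with integral model `W` are Galois-equivariantly isomorphic to the points
of the short curve `y² = x³ - 27 c₄ x - 54 c₆` (`exists_equivariant_addEquiv_short`).
-/

set_option autoImplicit false
set_option linter.unusedSectionVars false

open WeierstrassCurve

namespace Fermat.Agent.S41.H05

section VC

variable {F : Type*} [Field F] (W : WeierstrassCurve F) (C : VariableChange F)

/-- `x`-coordinate of the variable change. -/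
def vcX (x : F) : F := (C.u : F) ^ 2 * x + C.r

/-- `y`-coordinate of the variable change. -/
def vcY (x y : F) : F := (C.u : F) ^ 3 * y + (C.u : F) ^ 2 * C.s * x + C.t

lemma vcX_injective : Function.Injective (vcX C) := by
  intro x x' h
  have hu : (C.u : F) ≠ 0 := C.u.ne_zero
  simp only [vcX, add_left_inj] at h
  exact mul_left_cancel₀ (pow_ne_zero 2 hu) h

lemma vcY_injective (x : F) : Function.Injective (vcY C x) := by
  intro y y' h
  have hu : (C.u : F) ≠ 0 := C.u.ne_zero
  simp only [vcY, add_left_inj] at h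
  exact mul_left_cancel₀ (pow_ne_zero 3 hu) h

/-- the Weierstrass polynomial transforms by the factor `u⁶`. -/
lemma vc_poly (x y : F) :
    (vcY C x y) ^ 2 + W.a₁ * (vcX C x) * (vcY C x y) + W.a₃ * (vcY C x y)
        - ((vcX C x) ^ 3 + W.a₂ * (vcX C x) ^ 2 + W.a₄ * (vcX C x) + W.a₆)
      = (C.u : F) ^ 6 * (y ^ 2 + (C • W).a₁ * x * y + (C • W).a₃ * y
        - (x ^ 3 + (C • W).a₂ * x ^ 2 + (C • W).a₄ * x + (C • W).a₆)) := by
  have hu : (C.u : F) ≠ 0 := C.u.ne_zero
  simp only [variableChange_a₁, variableChange_a₂, variableChange_a₃, variableChange_a₄,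
    variableChange_a₆, Units.val_inv_eq_inv_val, vcX, vcY]
  field_simp
  ring

/-- the `Y`-derivative transforms by the factor `u³`. -/
lemma vc_polyY (x y : F) :
    2 * (vcY C x y) + W.a₁ * (vcX C x) + W.a₃
      = (C.u : F) ^ 3 * (2 * y + (C • W).a₁ * x + (C • W).a₃) := by
  have hu : (C.u : F) ≠ 0 := C.u.ne_zero
  simp only [variableChange_a₁, variableChange_a₃, Units.val_inv_eq_inv_val, vcX, vcY]
  field_simp
  ring

/-- the `X`-derivative. -/
lemma vc_polyX (x y : F) :
    W.a₁ * (vcY C x y) - (3 * (vcX C x) ^ 2 + 2 * W.a₂ * (vcX C x) + W.a₄)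
      = (C.u : F) ^ 4 * ((C • W).a₁ * y - (3 * x ^ 2 + 2 * (C • W).a₂ * x + (C • W).a₄))
        - C.s * (C.u : F) ^ 3 * (2 * y + (C • W).a₁ * x + (C • W).a₃) := by
  have hu : (C.u : F) ≠ 0 := C.u.ne_zero
  simp only [variableChange_a₁, variableChange_a₂, variableChange_a₃, variableChange_a₄,
    Units.val_inv_eq_inv_val, vcX, vcY]
  field_simp
  ring

lemma vc_equation_iff (x y : F) :
    W.toAffine.Equation (vcX C x) (vcY C x y) ↔ (C • W).toAffine.Equation x y := by
  have hu : (C.u : F) ≠ 0 := C.u.ne_zero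
  rw [Affine.equation_iff', Affine.equation_iff', vc_poly W C x y, mul_eq_zero]
  constructor
  · rintro (h | h)
    · exact absurd h (pow_ne_zero 6 hu)
    · exact h
  · exact fun h => Or.inr h

lemma vc_nonsingular_iff (x y : F) :
    W.toAffine.Nonsingular (vcX C x) (vcY C x y) ↔ (C • W).toAffine.Nonsingular x y := by
  have hu : (C.u : F) ≠ 0 := C.u.ne_zero
  rw [Affine.nonsingular_iff', Affine.nonsingular_iff', vc_equation_iff W C x y,
    vc_polyX W C x y, vc_polyY W C x y]
  refine and_congr_right fun _ => ?_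
  constructor
  · rintro (h | h)
    · by_cases h' : 2 * y + (C • W).a₁ * x + (C • W).a₃ = 0
      · left
        intro h0
        apply h
        rw [h0, h']
        ring
      · exact Or.inr h'
    · right
      intro h0
      apply h
      rw [h0, mul_zero]
  · rintro (h | h)
    · by_cases h' : 2 * y + (C • W).a₁ * x + (C • W).a₃ = 0
      · left
        rw [h', mul_zero, sub_zero]
        exact mul_ne_zero (pow_ne_zero 4 hu) h
      · right
        exact mul_ne_zero (pow_ne_zero 3 hu) h'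
    · right
      exact mul_ne_zero (pow_ne_zero 3 hu) h

lemma vc_negY (x y : F) :
    W.toAffine.negY (vcX C x) (vcY C x y) = vcY C x ((C • W).toAffine.negY x y) := by
  have hu : (C.u : F) ≠ 0 := C.u.ne_zero
  simp only [Affine.negY, variableChange_a₁, variableChange_a₃, Units.val_inv_eq_inv_val, vcX, vcY]
  field_simp
  ring

lemma vc_addX (x₁ x₂ ℓ : F) :
    W.toAffine.addX (vcX C x₁) (vcX C x₂) ((C.u : F) * ℓ + C.s)
      = vcX C ((C • W).toAffine.addX x₁ x₂ ℓ) := by
  have hu : (C.u : F) ≠ 0 := C.u.ne_zero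
  simp only [Affine.addX, variableChange_a₁, variableChange_a₂, Units.val_inv_eq_inv_val, vcX]
  field_simp
  ring

lemma vc_addY (x₁ x₂ y₁ ℓ : F) :
    W.toAffine.addY (vcX C x₁) (vcX C x₂) (vcY C x₁ y₁) ((C.u : F) * ℓ + C.s)
      = vcY C ((C • W).toAffine.addX x₁ x₂ ℓ) ((C • W).toAffine.addY x₁ x₂ y₁ ℓ) := by
  have hu : (C.u : F) ≠ 0 := C.u.ne_zero
  simp only [Affine.addY, Affine.negAddY, Affine.negY, Affine.addX, variableChange_a₁,
    variableChange_a₂, variableChange_a₃, Units.val_inv_eq_inv_val, vcX, vcY]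
  field_simp
  ring

end VC

section PointMap

variable {F : Type*} [Field F] [DecidableEq F] (W : WeierstrassCurve F) (C : VariableChange F)

lemma vc_slope {x₁ x₂ y₁ y₂ : F} (h₁ : (C • W).toAffine.Equation x₁ y₁)
    (h₂ : (C • W).toAffine.Equation x₂ y₂)
    (hxy : ¬(x₁ = x₂ ∧ y₁ = (C • W).toAffine.negY x₂ y₂)) :
    W.toAffine.slope (vcX C x₁) (vcX C x₂) (vcY C x₁ y₁) (vcY C x₂ y₂)
      = (C.u : F) * (C • W).toAffine.slope x₁ x₂ y₁ y₂ + C.s := by
  have hu : (C.u : F) ≠ 0 := C.u.ne_zero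
  by_cases hx : x₁ = x₂
  · subst hx
    have hy : y₁ ≠ (C • W).toAffine.negY x₁ y₂ := fun h => hxy ⟨rfl, h⟩
    have hy12 : y₁ = y₂ := (Affine.Y_eq_of_X_eq h₁ h₂ rfl).resolve_right hy
    subst hy12
    have hy' : vcY C x₁ y₁ ≠ W.toAffine.negY (vcX C x₁) (vcY C x₁ y₁) := by
      rw [vc_negY]
      exact fun h => hy (vcY_injective C x₁ h)
    rw [Affine.slope_of_Y_ne rfl hy, Affine.slope_of_Y_ne rfl hy']
    have hd : y₁ - (C • W).toAffine.negY x₁ y₁ ≠ 0 := sub_ne_zero.mpr hy
    have hd' : vcY C x₁ y₁ - W.toAffine.negY (vcX C x₁) (vcY C x₁ y₁) ≠ 0 := sub_ne_zero.mpr hy'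
    have eX := vc_polyX W C x₁ y₁
    have eY := vc_polyY W C x₁ y₁
    have e1 : vcY C x₁ y₁ - W.toAffine.negY (vcX C x₁) (vcY C x₁ y₁)
        = 2 * vcY C x₁ y₁ + W.a₁ * vcX C x₁ + W.a₃ := by
      simp only [Affine.negY]; ring
    have e2 : y₁ - (C • W).toAffine.negY x₁ y₁ = 2 * y₁ + (C • W).a₁ * x₁ + (C • W).a₃ := by
      simp only [Affine.negY]; ring
    have hD : vcY C x₁ y₁ - W.toAffine.negY (vcX C x₁) (vcY C x₁ y₁)
        = (C.u : F) ^ 3 * (y₁ - (C • W).toAffine.negY x₁ y₁) := by
      rw [e1, eY, e2]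
    rw [div_eq_iff hd', hD]
    have key : ((C.u : F) * ((3 * x₁ ^ 2 + 2 * (C • W).toAffine.a₂ * x₁ + (C • W).toAffine.a₄
          - (C • W).toAffine.a₁ * y₁) / (y₁ - (C • W).toAffine.negY x₁ y₁)) + C.s)
        * ((C.u : F) ^ 3 * (y₁ - (C • W).toAffine.negY x₁ y₁))
        = (C.u : F) ^ 4 * (3 * x₁ ^ 2 + 2 * (C • W).toAffine.a₂ * x₁ + (C • W).toAffine.a₄
          - (C • W).toAffine.a₁ * y₁)
          + C.s * (C.u : F) ^ 3 * (y₁ - (C • W).toAffine.negY x₁ y₁) := by
      field_simp
    rw [key, e2]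
    linear_combination (-1 : F) * eX
  · have hx' : vcX C x₁ ≠ vcX C x₂ := fun h => hx (vcX_injective C h)
    rw [Affine.slope_of_X_ne hx, Affine.slope_of_X_ne hx']
    have h12 : x₁ - x₂ ≠ 0 := sub_ne_zero.mpr hx
    have h12' : vcX C x₁ - vcX C x₂ ≠ 0 := sub_ne_zero.mpr hx'
    rw [div_eq_iff h12']
    simp only [vcX, vcY]
    field_simp
    ring

/-- The point map of a variable change: `(x, y) ↦ (u²x + r, u³y + u²sx + t)`. -/
noncomputable def vcFun : (C • W).toAffine.Point → W.toAffine.Point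
  | .zero => .zero
  | .some x y h => .some (vcX C x) (vcY C x y) ((vc_nonsingular_iff W C x y).mpr h)

lemma vcFun_zero : vcFun W C 0 = 0 := rfl

lemma vcFun_some {x y : F} (h : (C • W).toAffine.Nonsingular x y) :
    vcFun W C (.some x y h) = .some (vcX C x) (vcY C x y) ((vc_nonsingular_iff W C x y).mpr h) :=
  rfl

theorem vcFun_add (P Q : (C • W).toAffine.Point) :
    vcFun W C (P + Q) = vcFun W C P + vcFun W C Q := by
  rcases P with _ | ⟨x₁, y₁, h₁⟩
  · change vcFun W C (0 + Q) = 0 + vcFun W C Q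
    rw [zero_add, zero_add]
  rcases Q with _ | ⟨x₂, y₂, h₂⟩
  · change vcFun W C (Affine.Point.some x₁ y₁ h₁ + 0) = vcFun W C (Affine.Point.some x₁ y₁ h₁) + 0
    rw [add_zero, add_zero]
  by_cases hxy : x₁ = x₂ ∧ y₁ = (C • W).toAffine.negY x₂ y₂
  · rw [Affine.Point.add_of_Y_eq hxy.1 hxy.2, vcFun_zero, vcFun_some, vcFun_some,
      Affine.Point.add_of_Y_eq (by rw [hxy.1]) (by rw [vc_negY, hxy.2, hxy.1])]
  · have hxy' : ¬(vcX C x₁ = vcX C x₂ ∧
        vcY C x₁ y₁ = W.toAffine.negY (vcX C x₂) (vcY C x₂ y₂)) := by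
      rintro ⟨hx, hy⟩
      have hx' := vcX_injective C hx
      subst hx'
      rw [vc_negY] at hy
      exact hxy ⟨rfl, vcY_injective C _ hy⟩
    rw [Affine.Point.add_some hxy, vcFun_some, vcFun_some, vcFun_some,
      Affine.Point.add_some hxy', Affine.Point.some.injEq, vc_slope W C h₁.1 h₂.1 hxy]
    exact ⟨(vc_addX W C x₁ x₂ _).symm, (vc_addY W C x₁ x₂ y₁ _).symm⟩

/-- The point map of a variable change, as an additive homomorphism. -/
noncomputable def vcHom : (C • W).toAffine.Point →+ W.toAffine.Point where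
  toFun := vcFun W C
  map_zero' := rfl
  map_add' := vcFun_add W C

lemma vcHom_some {x y : F} (h : (C • W).toAffine.Nonsingular x y) :
    vcHom W C (.some x y h) = .some (vcX C x) (vcY C x y) ((vc_nonsingular_iff W C x y).mpr h) :=
  rfl

lemma vcHom_injective : Function.Injective (vcHom W C) := by
  rintro (_ | ⟨x₁, y₁, h₁⟩) (_ | ⟨x₂, y₂, h₂⟩) h
  · rfl
  · exact absurd h (by rw [vcHom_some]; exact fun h' => Affine.Point.some_ne_zero _ h'.symm)
  · exact absurd h (by rw [vcHom_some]; exact Affine.Point.some_ne_zero _)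
  · rw [vcHom_some, vcHom_some, Affine.Point.some.injEq] at h
    obtain ⟨hx, hy⟩ := h
    have hx' := vcX_injective C hx
    subst hx'
    have hy' := vcY_injective C _ hy
    subst hy'
    rfl

lemma vcHom_surjective : Function.Surjective (vcHom W C) := by
  have hu : (C.u : F) ≠ 0 := C.u.ne_zero
  rintro (_ | ⟨X, Y, h⟩)
  · exact ⟨0, rfl⟩
  · have hX : vcX C ((X - C.r) / (C.u : F) ^ 2) = X := by
      simp only [vcX]; field_simp; ring
    have hY : vcY C ((X - C.r) / (C.u : F) ^ 2)
        ((Y - C.s * (X - C.r) - C.t) / (C.u : F) ^ 3) = Y := by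
      simp only [vcY]; field_simp; ring
    have h' : (C • W).toAffine.Nonsingular ((X - C.r) / (C.u : F) ^ 2)
        ((Y - C.s * (X - C.r) - C.t) / (C.u : F) ^ 3) := by
      rw [← vc_nonsingular_iff, hX, hY]; exact h
    refine ⟨.some _ _ h', ?_⟩
    rw [vcHom_some, Affine.Point.some.injEq]
    exact ⟨hX, hY⟩

/-- **(V1)** The point map of a variable change is an additive equivalence. -/
noncomputable def vcEquiv : (C • W).toAffine.Point ≃+ W.toAffine.Point :=
  AddEquiv.ofBijective (vcHom W C) ⟨vcHom_injective W C, vcHom_surjective W C⟩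

lemma vcEquiv_zero : vcEquiv W C 0 = 0 := rfl

lemma vcEquiv_some {x y : F} (h : (C • W).toAffine.Nonsingular x y) :
    vcEquiv W C (.some x y h)
      = .some (vcX C x) (vcY C x y) ((vc_nonsingular_iff W C x y).mpr h) :=
  rfl

/-- transport of points along an equality of curves. -/
noncomputable def pointCast {W₁ W₂ : WeierstrassCurve F} (h : W₁ = W₂) :
    W₁.toAffine.Point ≃+ W₂.toAffine.Point := by
  subst h
  exact AddEquiv.refl _

lemma pointCast_zero {W₁ W₂ : WeierstrassCurve F} (h : W₁ = W₂) : pointCast h 0 = 0 := by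
  subst h; rfl

lemma pointCast_some {W₁ W₂ : WeierstrassCurve F} (h : W₁ = W₂) {x y : F}
    (hxy : W₁.toAffine.Nonsingular x y) :
    pointCast h (.some x y hxy) = .some x y (h ▸ hxy) := by
  subst h; rfl

end PointMap

section Equivariant

open WeierstrassCurve.Affine WeierstrassCurve.Affine.Point

variable {S : Type*} [Field S] {K : Type*} [Field K] [DecidableEq K] [Algebra S K]
  (W : WeierstrassCurve S) (C : VariableChange S)

lemma baseChange_vc : (C • W)⁄K = (C.baseChange K) • (W⁄K) :=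
  (map_variableChange W C (algebraMap S K)).symm

/-- the variable-change equivalence after base change to `K`. -/
noncomputable def vcEquivBC : ((C • W)⁄K).Point ≃+ (W⁄K).Point :=
  (pointCast (baseChange_vc (K := K) W C)).trans (vcEquiv (W⁄K) (C.baseChange K))

lemma vcEquivBC_some {x y : K} (h : ((C • W)⁄K).Nonsingular x y) :
    vcEquivBC W C (Point.some x y h)
      = Point.some (vcX (C.baseChange K) x) (vcY (C.baseChange K) x y)
          ((vc_nonsingular_iff _ _ x y).mpr (baseChange_vc (K := K) W C ▸ h)) := by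
  simp only [vcEquivBC, AddEquiv.trans_apply]
  rw [pointCast_some, vcEquiv_some]

/-- **Galois equivariance** of the variable-change equivalence. -/
theorem vcEquivBC_smul (σ : K ≃ₐ[S] K) (P : ((C • W)⁄K).Point) :
    vcEquivBC W C (σ • P) = σ • vcEquivBC W C P := by
  rcases P with _ | ⟨x, y, h⟩
  · change vcEquivBC W C (σ • (0 : ((C • W)⁄K).Point)) = σ • vcEquivBC W C 0
    rw [smul_zero, _root_.map_zero, smul_zero]
  · rw [vcEquivBC_some, algEquiv_smul_def, algEquiv_smul_def, Point.map_some, Point.map_some,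
      vcEquivBC_some, Point.some.injEq]
    constructor
    · simp only [vcX, VariableChange.baseChange, VariableChange.map, Units.coe_map,
        MonoidHom.coe_coe, map_add, map_mul, map_pow, AlgHom.commutes]
    · simp only [vcY, VariableChange.baseChange, VariableChange.map, Units.coe_map,
        MonoidHom.coe_coe, map_add, map_mul, map_pow, AlgHom.commutes]

end Equivariant

section Short

open WeierstrassCurve.Affine WeierstrassCurve.Affine.Point
open Fermat.Agent.S52

/-- The variable change taking a curve over `ℚ` to its short model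
`y² = x³ - 27 c₄ x - 54 c₆` (the landed `S52.H83.shortCurve`); on points it is the inverse of
the bridge map `(x, y) ↦ (36x + 3b₂, 108(2y + a₁x + a₃))`. -/
noncomputable def shortVC (V : WeierstrassCurve ℚ) : VariableChange ℚ :=
  ⟨Units.mk0 (1 / 6) (by norm_num), -V.b₂ / 12, -V.a₁ / 2, V.a₁ * V.b₂ / 24 - V.a₃ / 2⟩

lemma shortVC_smul (V : WeierstrassCurve ℚ) : shortVC V • V = H83.shortCurve V.c₄ V.c₆ := by
  ext
  · simp only [variableChange_a₁, shortVC, H83.shortCurve_a₁]
    ring
  · simp only [variableChange_a₂, shortVC, H83.shortCurve_a₂, b₂, Units.val_inv_eq_inv_val,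
      Units.val_mk0]
    ring
  · simp only [variableChange_a₃, shortVC, H83.shortCurve_a₃, b₂, Units.val_inv_eq_inv_val,
      Units.val_mk0]
    ring
  · simp only [variableChange_a₄, shortVC, H83.shortCurve_a₄, c₄, b₂, b₄,
      Units.val_inv_eq_inv_val, Units.val_mk0]
    ring
  · simp only [variableChange_a₆, shortVC, H83.shortCurve_a₆, c₆, b₂, b₄, b₆,
      Units.val_inv_eq_inv_val, Units.val_mk0]
    ring

/-- **(V2)** The points over `Qbar` of an elliptic curve `E/ℚ` with integral model `W` are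
Galois-equivariantly isomorphic to the points of the short curve
`y² = x³ - 27 c₄(W) x - 54 c₆(W)`. -/
theorem exists_equivariant_addEquiv_short (E : WeierstrassCurve ℚ) {W : WeierstrassCurve ℤ}
    (hW : W.IsIntegralModelOf E) :
    ∃ f : (E⁄(AlgebraicClosure ℚ)).Point ≃+
        ((H83.shortCurve (W.c₄ : ℚ) (W.c₆ : ℚ))⁄(AlgebraicClosure ℚ)).Point,
      ∀ (τ : AlgebraicClosure ℚ ≃ₐ[ℚ] AlgebraicClosure ℚ) (P : (E⁄(AlgebraicClosure ℚ)).Point),
        f (τ • P) = τ • f P := by
  obtain ⟨C, hC⟩ := hW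
  have h1 : (shortVC (W.map (Int.castRingHom ℚ)) * C) • E
      = H83.shortCurve (W.c₄ : ℚ) (W.c₆ : ℚ) := by
    rw [mul_smul, hC, shortVC_smul, map_c₄, map_c₆]
    rfl
  have key : ∀ Sh : WeierstrassCurve ℚ, (shortVC (W.map (Int.castRingHom ℚ)) * C) • E = Sh →
      ∃ f : (E⁄(AlgebraicClosure ℚ)).Point ≃+ (Sh⁄(AlgebraicClosure ℚ)).Point,
        ∀ (τ : AlgebraicClosure ℚ ≃ₐ[ℚ] AlgebraicClosure ℚ)
          (P : (E⁄(AlgebraicClosure ℚ)).Point), f (τ • P) = τ • f P := by
    rintro _ rfl
    refine ⟨(vcEquivBC E (shortVC (W.map (Int.castRingHom ℚ)) * C)).symm, fun τ P => ?_⟩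
    apply (vcEquivBC E (shortVC (W.map (Int.castRingHom ℚ)) * C)).injective
    rw [AddEquiv.apply_symm_apply, vcEquivBC_smul, AddEquiv.apply_symm_apply]
  exact key _ h1

/-- **(V3)** The interface `(E1)` may be proved on the short model: `FrobQuadStmt` for the
`ℚ`-curve `y² = x³ - 27 c₄(W) x - 54 c₆(W)` implies `FrobQuadStmt` for `E`. -/
theorem frobQuad_of_short (E : WeierstrassCurve ℚ) {W : WeierstrassCurve ℤ}
    (hW : W.IsIntegralModelOf E) (p : ℕ)
    (h : H86.FrobQuadStmt (H83.shortCurve (W.c₄ : ℚ) (W.c₆ : ℚ)) W p) :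
    H86.FrobQuadStmt E W p := by
  obtain ⟨f, hf⟩ := exists_equivariant_addEquiv_short E hW
  obtain ⟨S1, hS1⟩ := h
  refine ⟨S1, fun r hr hrS hgood A hA τ hτ P hP => ?_⟩
  have h0 := hS1 r hr hrS hgood A hA τ hτ (f P) (by rw [← map_zsmul, hP, _root_.map_zero])
  apply f.injective
  rw [_root_.map_zero, map_add, map_sub, map_zsmul, map_zsmul, hf, hf]
  exact h0

end Short

end Fermat.Agent.S41.H05
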