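import Mathlib
import Fermat.Prelude.Def_FLTPrelim_Modularity
import Fermat.Prelude.Def_EllipticCurve_FrobeniusTrace
import Fermat.Agent.S05.Inertia_helper64
import Fermat.Agent.S18.ValRing_helper86
import Fermat.Agent.S29.FrobDensity_helper86
import Fermat.Agent.S52.Bridge_helper83
import Fermat.Agent.S52.FrobChar_helper82
import Fermat.Agent.S41.NonEisStmt_helper86
import Fermat.Agent.S41.VarChange_helper5
import Fermat.Agent.S41.RedHom_helper28
import Fermat.Agent.S41.TorsInt_helper45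

/-!
# S41, node (E1): the Frobenius quadratic on `E[p]` (helper82)

`frobQuad`: for an elliptic curve `E/ℚ` with integral model `W` and an odd prime `p`, outside a
finite set of primes every Frobenius lift `τ` at a good prime `r` satisfies
`τ² - a_r τ + r = 0` on the `p`-torsion points of `E` over `Qbar`
(`H86.FrobQuadStmt E W p`).

Route: transfer to the short model `y² = x³ - 27c₄x - 54c₆` (`H05.frobQuad_of_short`), reduce
modulo the valuation subring (`H28.exists_redHom`), use the characteristic equation of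
Frobenius on the reduced curve (`S52.H82.frobChar` with `H83.apOfModel_eq_short`), and the
integrality of the `p`-torsion points outside a finite set (`H45.exists_finset_torsion_integral`)
to see that the reduction is injective on `E[p]`.
-/

set_option autoImplicit false

namespace Fermat.Agent.S41.H82

open WeierstrassCurve WeierstrassCurve.Affine
open Fermat.Agent.S52

local notation "Qb" => AlgebraicClosure ℚ

/-- `4A³ + 27B²` for the short model `A = -27c₄`, `B = -54c₆` is `-2⁸3¹²Δ`. -/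
lemma short_disc_int (W : WeierstrassCurve ℤ) :
    4 * (-27 * W.c₄) ^ 3 + 27 * (-54 * W.c₆) ^ 2 = -136048896 * W.Δ := by
  have h := W.c_relation
  linear_combination (78732 : ℤ) * h

lemma short_disc_ne_zero {r : ℕ} (hr : r.Prime) (h5 : 5 ≤ r) (W : WeierstrassCurve ℤ)
    (hgood : W.IsGoodPrimeFor r) :
    4 * (((-27 * W.c₄ : ℤ) : ZMod r)) ^ 3 + 27 * (((-54 * W.c₆ : ℤ) : ZMod r)) ^ 2 ≠ 0 := by
  have h1 : (4 * (((-27 * W.c₄ : ℤ) : ZMod r)) ^ 3 + 27 * (((-54 * W.c₆ : ℤ) : ZMod r)) ^ 2)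
      = ((-136048896 * W.Δ : ℤ) : ZMod r) := by
    rw [← short_disc_int]
    push_cast
    ring
  rw [h1, Ne, ZMod.intCast_zmod_eq_zero_iff_dvd]
  intro hdvd
  have hp : Prime (r : ℤ) := Nat.prime_iff_prime_int.mp hr
  rcases hp.dvd_mul.mp hdvd with h | h
  · have h2 : (r : ℤ) ∣ 2 ^ 8 * 3 ^ 12 := by
      have : (-136048896 : ℤ) = -(2 ^ 8 * 3 ^ 12) := by norm_num
      rw [this] at h
      exact (dvd_neg).mp h
    rcases hp.dvd_mul.mp h2 with h3 | h3
    · have h4 := hp.dvd_of_dvd_pow h3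
      have h6 : r ∣ 2 := by exact_mod_cast h4
      have := Nat.le_of_dvd (by norm_num) h6
      omega
    · have h4 := hp.dvd_of_dvd_pow h3
      have h6 : r ∣ 3 := by exact_mod_cast h4
      have := Nat.le_of_dvd (by norm_num) h6
      omega
  · exact hgood h

section Core

variable {A : ValuationSubring Qb} {r : ℕ} [Fact r.Prime]
  [CharP (IsLocalRing.ResidueField A) r] [DecidableEq (IsLocalRing.ResidueField A)]

omit [Fact r.Prime] [CharP (IsLocalRing.ResidueField A) r]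
  [DecidableEq (IsLocalRing.ResidueField A)] in
/-- a Frobenius lift acts as `x ↦ x ^ r` on residues of elements of `A`. -/
lemma residue_frob {τ : Qb ≃ₐ[ℚ] Qb} (hτ : A.IsFrobeniusAt τ r) {x : Qb} (hx : x ∈ A)
    (hx' : τ x ∈ A) :
    IsLocalRing.residue A ⟨τ x, hx'⟩ = (IsLocalRing.residue A ⟨x, hx⟩) ^ r := by
  have h1 := Fermat.Agent.S29.H86.frob_sub_pow_mem_nonunits A hτ hx
  have h2 : ((⟨τ x, hx'⟩ - ⟨x, hx⟩ ^ r : A) : Qb) ∈ A.nonunits := by
    simpa using h1
  rw [ValuationSubring.coe_mem_nonunits_iff, ← IsLocalRing.residue_eq_zero_iff, map_sub,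
    map_pow] at h2
  exact sub_eq_zero.mp h2

/-- **(F)** reduction intertwines a Frobenius lift with the Frobenius of the residue curve. -/
theorem red_frob {τ : Qb ≃ₐ[ℚ] Qb} (hτ : A.IsFrobeniusAt τ r)
    {V : WeierstrassCurve ℚ} {a' b' : IsLocalRing.ResidueField A} (ha : a' ^ r = a')
    (hb : b' ^ r = b')
    (red : (V⁄Qb).Point →+ (H82.sh a' b').toAffine.Point)
    (h1 : ∀ (x y : Qb) (h : (V⁄Qb).Nonsingular x y), x ∉ A → red (Point.some x y h) = 0)
    (h2 : ∀ (x y : Qb) (_ : (V⁄Qb).Nonsingular x y), x ∈ A → y ∈ A)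
    (h3 : ∀ (x y : A) (h : (V⁄Qb).Nonsingular (x : Qb) (y : Qb)),
      ∃ h' : (H82.sh a' b').toAffine.Nonsingular (IsLocalRing.residue A x)
          (IsLocalRing.residue A y),
        red (Point.some (x : Qb) (y : Qb) h) =
          Point.some (IsLocalRing.residue A x) (IsLocalRing.residue A y) h')
    (P : (V⁄Qb).Point) : red (τ • P) = H82.frobPt r ha hb (red P) := by
  have hdec := hτ.mem_decompositionSubgroup
  rcases P with _ | ⟨x, y, h⟩
  · change red (Point.map (W' := V.toAffine) τ.toAlgHom 0) = H82.frobPt r ha hb (red 0)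
    rw [map_zero, map_zero, map_zero]
  · rw [Point.algEquiv_smul_def, Point.map_some]
    by_cases hx : x ∈ A
    · have hy : y ∈ A := h2 x y h hx
      have hx' : τ x ∈ A := Fermat.Agent.S05.H64.apply_mem_of_mem_decomposition hdec hx
      have hy' : τ y ∈ A := Fermat.Agent.S05.H64.apply_mem_of_mem_decomposition hdec hy
      obtain ⟨h0, e⟩ := h3 ⟨x, hx⟩ ⟨y, hy⟩ h
      have e' : red (Point.some x y h) = Point.some (IsLocalRing.residue A ⟨x, hx⟩)
          (IsLocalRing.residue A ⟨y, hy⟩) h0 := e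
      rw [e']
      have key : ∀ (x' y' : Qb) (h' : (V⁄Qb).Nonsingular x' y') (hx' : x' ∈ A) (hy' : y' ∈ A),
          IsLocalRing.residue A ⟨x', hx'⟩ = (IsLocalRing.residue A ⟨x, hx⟩) ^ r →
          IsLocalRing.residue A ⟨y', hy'⟩ = (IsLocalRing.residue A ⟨y, hy⟩) ^ r →
          red (Point.some x' y' h') = H82.frobPt r ha hb
            (Point.some (IsLocalRing.residue A ⟨x, hx⟩) (IsLocalRing.residue A ⟨y, hy⟩) h0) := by
        intro x' y' h' hx' hy' ex ey
        obtain ⟨h'', e2⟩ := h3 ⟨x', hx'⟩ ⟨y', hy'⟩ h'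
        have e2' : red (Point.some x' y' h') = Point.some (IsLocalRing.residue A ⟨x', hx'⟩)
            (IsLocalRing.residue A ⟨y', hy'⟩) h'' := e2
        obtain ⟨h3', e3⟩ := H82.frobPt_some r ha hb h0
        rw [e2', e3, Point.some.injEq]
        exact ⟨ex, ey⟩
      exact key _ _ _ hx' hy' (residue_frob hτ hx hx') (residue_frob hτ hy hy')
    · have hx' : τ x ∉ A := fun hc =>
        hx ((Fermat.Agent.S05.H64.apply_mem_iff_of_mem_decomposition hdec).mp hc)
      rw [h1 x y h hx, map_zero]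
      exact h1 _ _ _ hx'

/-- **(ASM)** the Frobenius quadratic on `p`-torsion points of the short model, from a
reduction homomorphism `red` with the three clauses of `(R)` and integrality `(K)` of the
`p`-torsion points. -/
theorem quad_of_red (hr5 : 5 ≤ r) (W : WeierstrassCurve ℤ) (hgood : W.IsGoodPrimeFor r)
    {τ : Qb ≃ₐ[ℚ] Qb} (hτ : A.IsFrobeniusAt τ r) {p : ℕ} (hp : p.Prime) (hp2 : p ≠ 2)
    (j0 : ZMod r →+* IsLocalRing.ResidueField A)
    (red : ((H83.shortCurve (W.c₄ : ℚ) (W.c₆ : ℚ))⁄Qb).Point →+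
      (H82.sh (j0 ((-27 * W.c₄ : ℤ) : ZMod r)) (j0 ((-54 * W.c₆ : ℤ) : ZMod r))).toAffine.Point)
    (h1 : ∀ (x y : Qb) (h : ((H83.shortCurve (W.c₄ : ℚ) (W.c₆ : ℚ))⁄Qb).Nonsingular x y),
      x ∉ A → red (Point.some x y h) = 0)
    (h2 : ∀ (x y : Qb) (_ : ((H83.shortCurve (W.c₄ : ℚ) (W.c₆ : ℚ))⁄Qb).Nonsingular x y),
      x ∈ A → y ∈ A)
    (h3 : ∀ (x y : A) (h : ((H83.shortCurve (W.c₄ : ℚ) (W.c₆ : ℚ))⁄Qb).Nonsingular
        (x : Qb) (y : Qb)),
      ∃ h' : (H82.sh (j0 ((-27 * W.c₄ : ℤ) : ZMod r))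
          (j0 ((-54 * W.c₆ : ℤ) : ZMod r))).toAffine.Nonsingular (IsLocalRing.residue A x)
          (IsLocalRing.residue A y),
        red (Point.some (x : Qb) (y : Qb) h) =
          Point.some (IsLocalRing.residue A x) (IsLocalRing.residue A y) h')
    (hK : ∀ (x y : Qb) (h : ((H83.shortCurve (W.c₄ : ℚ) (W.c₆ : ℚ))⁄Qb).Nonsingular x y),
      (p : ℤ) • (Point.some x y h : ((H83.shortCurve (W.c₄ : ℚ) (W.c₆ : ℚ))⁄Qb).Point) = 0 →
        x ∈ A)
    (P : ((H83.shortCurve (W.c₄ : ℚ) (W.c₆ : ℚ))⁄Qb).Point) (hP : (p : ℤ) • P = 0) :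
    τ • τ • P - W.apOfModel r • τ • P + (r : ℤ) • P = 0 := by
  have hr : r.Prime := Fact.out
  have hr2 : r ≠ 2 := by omega
  have ha := H82.ringHom_zmod_pow (l := r) j0 ((-27 * W.c₄ : ℤ) : ZMod r)
  have hb := H82.ringHom_zmod_pow (l := r) j0 ((-54 * W.c₆ : ℤ) : ZMod r)
  let T : ((H83.shortCurve (W.c₄ : ℚ) (W.c₆ : ℚ))⁄Qb).Point →+
      ((H83.shortCurve (W.c₄ : ℚ) (W.c₆ : ℚ))⁄Qb).Point :=
    Point.map (W' := (H83.shortCurve (W.c₄ : ℚ) (W.c₆ : ℚ)).toAffine) τ.toAlgHom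
  have hF : ∀ Q, red (T Q) = H82.frobPt r ha hb (red Q) :=
    fun Q => red_frob hτ ha hb red h1 h2 h3 Q
  change T (T P) - W.apOfModel r • T P + (r : ℤ) • P = 0
  generalize hQ : T (T P) - W.apOfModel r • T P + (r : ℤ) • P = Q
  have hpQ : (p : ℤ) • Q = 0 := by
    have e : (p : ℤ) • (T (T P) - W.apOfModel r • T P + (r : ℤ) • P) =
        T (T ((p : ℤ) • P)) - W.apOfModel r • T ((p : ℤ) • P) + (r : ℤ) • ((p : ℤ) • P) := by
      rw [map_zsmul, map_zsmul]
      module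
    rw [← hQ, e, hP, map_zero, map_zero, zsmul_zero, zsmul_zero, sub_zero, add_zero]
  have hap := H83.apOfModel_eq_short W r hr hr5
  have hcurve : H83.shortCurve ((W.c₄ : ℤ) : ZMod r) ((W.c₆ : ℤ) : ZMod r) =
      H82.sh ((-27 * W.c₄ : ℤ) : ZMod r) ((-54 * W.c₆ : ℤ) : ZMod r) := by
    simp [H83.shortCurve, H82.sh]
  have hchar := H82.frobChar r hr2 ((-27 * W.c₄ : ℤ) : ZMod r) ((-54 * W.c₆ : ℤ) : ZMod r)
    (short_disc_ne_zero hr hr5 W hgood) j0 rfl rfl ha hb (red P)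
  have hredQ : (2 : ℕ) • red Q = 0 := by
    rw [← hQ, map_add, map_sub, map_zsmul, map_zsmul, hF, hF, hap, hcurve]
    exact hchar
  have h2Q : (2 : ℕ) • Q = 0 := by
    have h0 : red ((2 : ℕ) • Q) = 0 := by rw [map_nsmul]; exact hredQ
    have hp2Q : (p : ℤ) • ((2 : ℕ) • Q) = 0 := by
      have e : (p : ℤ) • ((2 : ℕ) • Q) = (2 : ℕ) • ((p : ℤ) • Q) := by module
      rw [e, hpQ, nsmul_zero]
    rcases hQ2 : (2 : ℕ) • Q with _ | ⟨x, y, h⟩
    · rfl
    · exfalso
      rw [hQ2] at h0 hp2Q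
      have hx := hK x y h hp2Q
      have hy := h2 x y h hx
      obtain ⟨h', e⟩ := h3 ⟨x, hx⟩ ⟨y, hy⟩ h
      have e' : red (Point.some x y h) = Point.some _ _ h' := e
      rw [e'] at h0
      exact Point.some_ne_zero _ h0
  obtain ⟨m, hm⟩ := hp.odd_of_ne_two hp2
  have hsplit : Q = (p : ℤ) • Q - (m : ℤ) • ((2 : ℕ) • Q) := by
    rw [hm]
    push_cast
    module
  rw [hsplit, hpQ, h2Q, zsmul_zero, sub_zero]

end Core

/-- discriminant of the reduced short curve. -/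
lemma sh_Δ_ne_zero {r : ℕ} [Fact r.Prime] (h5 : 5 ≤ r) {k : Type*} [Field k]
    (j0 : ZMod r →+* k) {A₀ B₀ : ZMod r} (hdisc : 4 * A₀ ^ 3 + 27 * B₀ ^ 2 ≠ 0) :
    (H82.sh (j0 A₀) (j0 B₀)).Δ ≠ 0 := by
  have hr : r.Prime := Fact.out
  have h16 : (16 : ZMod r) ≠ 0 := by
    have h : ((16 : ℕ) : ZMod r) ≠ 0 := by
      rw [Ne, ZMod.natCast_eq_zero_iff]
      intro hd
      have h2 : r ∣ 2 := hr.dvd_of_dvd_pow (show r ∣ 2 ^ 4 by norm_num; exact hd)
      have := Nat.le_of_dvd (by norm_num) h2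
      omega
    exact_mod_cast h
  have e : (H82.sh (j0 A₀) (j0 B₀)).Δ = j0 (-16 * (4 * A₀ ^ 3 + 27 * B₀ ^ 2)) := by
    simp only [WeierstrassCurve.Δ, WeierstrassCurve.b₂, WeierstrassCurve.b₄,
      WeierstrassCurve.b₆, WeierstrassCurve.b₈, map_mul, map_add, map_neg, map_pow, map_ofNat]
    ring
  rw [e]
  exact (map_ne_zero j0).mpr (mul_ne_zero (neg_ne_zero.mpr h16) hdisc)

/-- **(E1) on the short model**, from the reduction homomorphism `(R)` (literal shape of
`H28.exists_redHom`, specialised to `Qbar` and the residue field of `A`) and the integrality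
`(K)` of the `p`-torsion points outside a finite set of primes. -/
theorem frobQuad_short_of (W : WeierstrassCurve ℤ) {p : ℕ} (hp : p.Prime) (hp2 : p ≠ 2)
    (hR : ∀ (A : ValuationSubring Qb) [DecidableEq (IsLocalRing.ResidueField A)]
      (V : WeierstrassCurve Qb) (V' : WeierstrassCurve (IsLocalRing.ResidueField A)),
      V.a₁ = 0 → V.a₂ = 0 → V.a₃ = 0 → V'.a₁ = 0 → V'.a₂ = 0 → V'.a₃ = 0 →
      ∀ a b : A, V.a₄ = a → V.a₆ = b → V'.a₄ = IsLocalRing.residue A a →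
        V'.a₆ = IsLocalRing.residue A b → V'.Δ ≠ 0 →
      ∃ red : V.toAffine.Point →+ V'.toAffine.Point,
        (∀ (x y : Qb) (h : V.toAffine.Nonsingular x y), x ∉ A → red (Point.some x y h) = 0) ∧
        (∀ (x y : Qb) (_ : V.toAffine.Nonsingular x y), x ∈ A → y ∈ A) ∧
        (∀ (x y : A) (h : V.toAffine.Nonsingular (x : Qb) (y : Qb)),
          ∃ h' : V'.toAffine.Nonsingular (IsLocalRing.residue A x) (IsLocalRing.residue A y),
            red (Point.some (x : Qb) (y : Qb) h) =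
              Point.some (IsLocalRing.residue A x) (IsLocalRing.residue A y) h'))
    (hK : ∃ S : Finset ℕ, ∀ r : ℕ, r.Prime → r ∉ S →
      ∀ A : ValuationSubring Qb, A.LiesOverPrime r →
      ∀ (x y : Qb) (h : ((H83.shortCurve (W.c₄ : ℚ) (W.c₆ : ℚ))⁄Qb).Nonsingular x y),
        (p : ℤ) • (Point.some x y h : ((H83.shortCurve (W.c₄ : ℚ) (W.c₆ : ℚ))⁄Qb).Point) = 0 →
          x ∈ A) :
    H86.FrobQuadStmt (H83.shortCurve (W.c₄ : ℚ) (W.c₆ : ℚ)) W p := by
  classical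
  obtain ⟨S, hS⟩ := hK
  refine ⟨{2, 3} ∪ S, fun r hr hrS hgood A hA τ hτ P hP => ?_⟩
  have hr2 : r ≠ 2 := fun h => hrS (by simp [h])
  have hr3 : r ≠ 3 := fun h => hrS (by simp [h])
  have hrS' : r ∉ S := fun h => hrS (Finset.mem_union_right _ h)
  have hr5 : 5 ≤ r := by
    have h2 := hr.two_le
    by_contra hlt
    have h4 : r = 4 := by omega
    rw [h4] at hr
    exact absurd hr (by norm_num)
  have : Fact r.Prime := ⟨hr⟩
  have : CharP (IsLocalRing.ResidueField A) r := Fermat.Agent.S18.H86.charP_residueField A hA hr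
  let j0 : ZMod r →+* IsLocalRing.ResidueField A := ZMod.castHom (dvd_refl r) _
  have ha4 : ∀ (n : ℤ) {z : Qb}, z = (n : Qb) → z = (((n : ℤ) : A) : Qb) := by
    intro n z hz
    rw [hz]
    norm_cast
  obtain ⟨red, h1, h2, h3⟩ := hR A ((H83.shortCurve (W.c₄ : ℚ) (W.c₆ : ℚ)).baseChange Qb)
    (H82.sh (j0 ((-27 * W.c₄ : ℤ) : ZMod r)) (j0 ((-54 * W.c₆ : ℤ) : ZMod r)))
    (by simp [WeierstrassCurve.baseChange]) (by simp [WeierstrassCurve.baseChange])
    (by simp [WeierstrassCurve.baseChange]) rfl rfl rfl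
    ((-27 * W.c₄ : ℤ) : A) ((-54 * W.c₆ : ℤ) : A)
    (ha4 (-27 * W.c₄) (by simp [WeierstrassCurve.baseChange]))
    (ha4 (-54 * W.c₆) (by simp [WeierstrassCurve.baseChange]))
    (by change j0 _ = _; rw [map_intCast, map_intCast])
    (by change j0 _ = _; rw [map_intCast, map_intCast])
    (sh_Δ_ne_zero hr5 j0 (short_disc_ne_zero hr hr5 W hgood))
  exact quad_of_red hr5 W hgood hτ hp hp2 j0 red h1 h2 h3 (hS r hr hrS' A hA) P hP

/-- discriminant of the short model in terms of `c₄`, `c₆`. -/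
lemma shortCurve_Δ_eq {R : Type*} [CommRing R] (c4 c6 : R) :
    (H83.shortCurve c4 c6).Δ = 1259712 * (c4 ^ 3 - c6 ^ 2) := by
  simp only [H83.shortCurve, WeierstrassCurve.Δ, WeierstrassCurve.b₂, WeierstrassCurve.b₄,
    WeierstrassCurve.b₆, WeierstrassCurve.b₈]
  ring

/-- the short model of an integral model of an elliptic curve has nonzero discriminant. -/
lemma shortCurve_Δ_ne_zero (E : WeierstrassCurve ℚ) [E.IsElliptic] {W : WeierstrassCurve ℤ}
    (hW : W.IsIntegralModelOf E) : (H83.shortCurve (W.c₄ : ℚ) (W.c₆ : ℚ)).Δ ≠ 0 := by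
  obtain ⟨C, hC⟩ := hW
  have h1 : ((W.Δ : ℤ) : ℚ) ≠ 0 := by
    have h := congrArg WeierstrassCurve.Δ hC
    rw [WeierstrassCurve.variableChange_Δ, WeierstrassCurve.map_Δ] at h
    have h2 : (Int.castRingHom ℚ) W.Δ ≠ 0 := by
      rw [← h]
      exact mul_ne_zero (pow_ne_zero _ (Units.ne_zero _)) E.isUnit_Δ.ne_zero
    simpa using h2
  have hc : (1728 : ℚ) * (W.Δ : ℚ) = (W.c₄ : ℚ) ^ 3 - (W.c₆ : ℚ) ^ 2 := by
    exact_mod_cast W.c_relation
  rw [shortCurve_Δ_eq, ← hc]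
  exact mul_ne_zero (by norm_num) (mul_ne_zero (by norm_num) h1)

/-- **(E1)**: the Frobenius quadratic on `E[p]`. -/
theorem frobQuad (E : WeierstrassCurve ℚ) [E.IsElliptic] {W : WeierstrassCurve ℤ}
    (hW : W.IsIntegralModelOf E) {p : ℕ} (hp : p.Prime) (hp2 : p ≠ 2) :
    Fermat.Agent.S41.H86.FrobQuadStmt E W p :=
  H05.frobQuad_of_short E hW p
    (frobQuad_short_of W hp hp2
      (fun A _ V V' h₁ h₂ h₃ h₁' h₂' h₃' a b ha hb ha' hb' hΔ =>
        H28.exists_redHom A (IsLocalRing.residue A) (H28.residue_eq_zero_iff_mem_nonunits A)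
          V V' h₁ h₂ h₃ h₁' h₂' h₃' a b ha hb ha' hb' hΔ)
      (H45.exists_finset_torsion_integral _ (shortCurve_Δ_ne_zero E hW) hp hp2))

end Fermat.Agent.S41.H82
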