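import Fermat.Agent.S41.NonEisCard_helper86
import Fermat.Agent.S41.FrobQuad_helper82

/-!
# S41, node (E), closed form (helper86)

`nonEis` : for an elliptic curve `E / ℚ` with integral model `W` and an odd prime `p` with
`E[p]` irreducible, `E[p]` is not Eisenstein: outside every finite set of primes there is a good
prime `r` with `a_r(W) ≠ r + 1` modulo `p`.  No hypothesis left:
(E0) = `H65.card_torsion_of_isElliptic`, (E1) = `H82.frobQuad`, (E2) = `S29.H86.frobenius_power`,
(E3) = `false_of_quadratic`.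

`exists_good_prime_not_dvd` : the same with the finite set given as the prime divisors of a
nonzero integer `M` (consumer form: `M = N * q' * p`).
-/

set_option autoImplicit false

open WeierstrassCurve WeierstrassCurve.Affine WeierstrassCurve.Affine.Point

namespace Fermat.Agent.S41.H86

/-- **(E)**: irreducible ⟹ non-Eisenstein. -/
theorem nonEis (E : WeierstrassCurve ℚ) [E.IsElliptic] {W : WeierstrassCurve ℤ}
    (hW : W.IsIntegralModelOf E) {p : ℕ} (hp : p.Prime) (hp2 : p ≠ 2)
    (hirr : GaloisRepIsIrreducible (K := AlgebraicClosure ℚ) ℚ E p) : NonEisStmt W p :=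
  nonEis_of_frobQuad E hW hp hp2 hirr (Fermat.Agent.S41.H82.frobQuad E hW hp hp2)

/-- **(E)**, consumer form: a good prime `r ∤ M` with `a_r(W) ≠ r + 1` modulo `p`. -/
theorem exists_good_prime_not_dvd (E : WeierstrassCurve ℚ) [E.IsElliptic]
    {W : WeierstrassCurve ℤ} (hW : W.IsIntegralModelOf E) {p : ℕ} (hp : p.Prime) (hp2 : p ≠ 2)
    (hirr : GaloisRepIsIrreducible (K := AlgebraicClosure ℚ) ℚ E p) {M : ℕ} (hM : M ≠ 0) :
    ∃ r : ℕ, r.Prime ∧ ¬ r ∣ M ∧ W.IsGoodPrimeFor r ∧
      ((W.apOfModel r : ℤ) : ZMod p) ≠ (r : ZMod p) + 1 := by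
  obtain ⟨r, hr, hrS, hgood, hne⟩ := nonEis E hW hp hp2 hirr M.primeFactors
  exact ⟨r, hr, fun hdvd => hrS (Nat.mem_primeFactors.mpr ⟨hr, hdvd, hM⟩), hgood, hne⟩

end Fermat.Agent.S41.H86
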