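import Mathlib
import Fermat.Prelude.Def_FLTPrelim_ModularRep
import Fermat.Prelude.Def_FreyPackage_LevelRaising
import Fermat.Agent.S41.Setup_helper53
import Fermat.Agent.S41.LRCore_helper71
import Fermat.Agent.S41.LREigen_helper71
import Fermat.Agent.S41.Lattice_helper34
import Fermat.Agent.S41.NonEisClosed_helper86
import Fermat.Agent.S41.IhEigen_helper91
import Fermat.Agent.S41.BettiCusp_helper50

/-!
# S41, node (G): top assembly of level raising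
-/

set_option autoImplicit false

namespace Fermat.Agent.S41.H53

open CongruenceSubgroup ModularCurve.Period
open Fermat.Agent
open scoped MatrixGroups

/-! ### `hIh` of `lr_core` from Ihara's lemma -/

/-- **`hIh`**: if `i (x, y) = res x + w (res y)` is divisible by `p` in the lattice of level
`N q`, then `(T_r - (r+1)) (x, y)` is divisible by `p`. -/
theorem ih_lat {W : WeierstrassCurve ℤ} {N q p : ℕ} [NeZero N] [NeZero (N * q)] (hN : 0 < N)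
    (hq : q.Prime) (hqN : ¬ q ∣ N) (hp : p.Prime) (hp2 : p ≠ 2) (i : Idx W N q p)
    (u : Lat N × Lat N) (h : ∃ y : Lat (N * q), iMap W p hq hqN u = (p : ℤ) • y) :
    ∃ v : Lat N × Lat N, r0 i • u = (p : ℤ) • v := by
  obtain ⟨x, y⟩ := u
  obtain ⟨z, hz⟩ := h
  have hC : ∀ g g' : Gamma0 N, H39.EtaRel q (g : SL(2, ℤ)) (g' : SL(2, ℤ)) →
      (p : ℤ) ∣ (x : Additive (Gamma0 N) →+ ℤ) (Additive.ofMul g) +
        (y : Additive (Gamma0 N) →+ ℤ) (Additive.ofMul g') := by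
    intro g g' hrel
    have hg : (g : SL(2, ℤ)) ∈ Gamma0 (N * q) := by
      rw [H19.mem_Gamma0_iff_dvd]
      exact H19.Nq_dvd hq hqN (H19.mem_Gamma0_iff_dvd.mp g.2) ⟨_, hrel.2.2.1.symm⟩
    have h1 := congrArg (fun φ : Lat (N * q) =>
      (φ : Additive (Gamma0 (N * q)) →+ ℤ) (Additive.ofMul (⟨(g : SL(2, ℤ)), hg⟩ : Gamma0 (N * q)))) hz
    simp only [coe_iMap, AddMonoidHom.add_apply, H19.resOp_apply] at h1
    rw [H19.wOp_resOp_apply hq hqN _ _ g' hrel] at h1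
    have h2 : H19.incl N q ⟨(g : SL(2, ℤ)), hg⟩ = g := Subtype.ext rfl
    rw [h2] at h1
    rw [h1]
    exact ⟨_, rfl⟩
  obtain ⟨v₁, v₂, e1, e2, hv1, hv2⟩ := H91.ih_heckeTr_int hN hq hqN hp hp2 i.prime i.not_dvd
    (x : Additive (Gamma0 N) →+ ℤ) (y : Additive (Gamma0 N) →+ ℤ) _ _ x.2 y.2 hC
    (S29.H06.isHeckeTr_heckeTr i.prime i.not_dvd _) (S29.H06.isHeckeTr_heckeTr i.prime i.not_dvd _)
  have e : (((i : ℕ) : ℤ) + 1) = (((i : ℕ) + 1 : ℕ) : ℤ) := by push_cast; ring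
  refine ⟨(⟨v₁, hv1⟩, ⟨v₂, hv2⟩), Prod.ext (Subtype.ext ?_) (Subtype.ext ?_)⟩
  · show ((r0 i • x : Lat N) : Additive (Gamma0 N) →+ ℤ) = (p : ℤ) • v₁
    rw [coe_r0_smul_lat, e, natCast_zsmul, natCast_zsmul]
    exact e1
  · show ((r0 i • y : Lat N) : Additive (Gamma0 N) →+ ℤ) = (p : ℤ) • v₂
    rw [coe_r0_smul_lat, e, natCast_zsmul, natCast_zsmul]
    exact e2

/-! ### The front end: `lr_core` -/

/-- **Front end**: the kernel of `j` is not killed at `𝔫`. -/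
theorem not_ker_le {W : WeierstrassCurve ℤ} {N q p : ℕ} [NeZero N] [NeZero (N * q)]
    (hN : 0 < N) (hq : q.Prime) (hqN : ¬ q ∣ N) (hp : p.Prime) (hp2 : p ≠ 2)
    (ε : ℤ) (hε : ε = 1 ∨ ε = -1)
    (hf : ∃ x : Lat N, x ∉ nIdeal W N q p • (⊤ : Submodule (MvPolynomial (Idx W N q p) ℤ) (Lat N)) ⊔
      LinearMap.range (tMap W p hq hqN - (ε * ((q : ℤ) + 1)) •
        (LinearMap.id : Lat N →ₗ[MvPolynomial (Idx W N q p) ℤ] Lat N)))
    (i : Idx W N q p) (hi : ((W.apOfModel (i : ℕ) : ℤ) : ZMod p) ≠ ((i : ℕ) : ZMod p) + 1)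
    (hDual : DualStmt W p hq hqN i) :
    ¬ (LinearMap.ker (jMap W p hq hqN) ≤ nIdeal W N q p • LinearMap.ker (jMap W p hq hqN)) := by
  haveI : Fact p.Prime := ⟨hp⟩
  haveI := nIdeal_isMaximal W N q p
  haveI : Module.Finite ℤ (Lat N) := H34.finite_parabolicHoms_Gamma0 N
  haveI : Module.Finite ℤ (Lat (N * q)) := H34.finite_parabolicHoms_Gamma0 (N * q)
  exact H71.lr_core p hp.ne_zero (nIdeal W N q p) (natCast_mem_nIdeal W N q p)
    (iMap W p hq hqN) (jMap W p hq hqN) ((q : ℤ) + 1) (tMap W p hq hqN)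
    (fun x y => jMap_iMap hq hqN x y) ε hε hf
    ⟨r0 i, r0_not_mem_nIdeal i hi, fun u hu => ih_lat hN hq hqN hp hp2 i u hu⟩
    ⟨r0 i, r0_not_mem_nIdeal i hi, hDual⟩

/-! ### The back end and the top theorem -/

/-- **(U-BRIDGE)**, statement: the transfer `H19.uOp` is the `U_q`-transfer of `BettiCusp`. -/
def UBridge (N q : ℕ) (hq : q ≠ 0) : Prop :=
  ∀ ψ : Additive (Gamma0 (N * q)) →+ ℤ, H50.IsUTr (N * q) q ψ (H19.uOp N hq ψ)

/-- **(DS-BETTI)**, statement: a Hecke submodule of the lattice of level `N q` which is not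
killed at `𝔫` and on which `U_q² = 1` produces a `q`-new eigenform congruent to `W` mod `p`. -/
def BackStmt (W : WeierstrassCurve ℤ) (N q p : ℕ) [NeZero (N * q)] : Prop :=
  ∀ K : Submodule (MvPolynomial (Idx W N q p) ℤ) (Lat (N * q)), ¬ (K ≤ nIdeal W N q p • K) →
    (∀ x ∈ K, ∃ x' : Additive (Gamma0 (N * q)) →+ ℤ,
      H50.IsUTr (N * q) q (x : Additive (Gamma0 (N * q)) →+ ℤ) x' ∧
      H50.IsUTr (N * q) q x' (x : Additive (Gamma0 (N * q)) →+ ℤ)) →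
    ∃ (g : CuspForm (Gamma0 (N * q)) 2) (𝔪' : Ideal (integralClosure ℤ ℂ)),
      g.IsNormalizedEigenform ∧ 𝔪'.IsMaximal ∧ ((p : ℕ) : integralClosure ℤ ℂ) ∈ 𝔪' ∧
      (∀ i : Idx W N q p, ∃ c : integralClosure ℤ ℂ,
        (c : ℂ) = ModularFormClass.qCoeff g (i : ℕ) ∧
        c - ((W.apOfModel (i : ℕ) : ℤ) : integralClosure ℤ ℂ) ∈ 𝔪') ∧
      g.IsNewAt q

/-- On the kernel of `j`, `U_q` is an involution (in the relational form of `BettiCusp`). -/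
theorem isUTr_of_mem_ker {W : WeierstrassCurve ℤ} {N q p : ℕ} [NeZero N] [NeZero (N * q)]
    (hq : q.Prime) (hqN : ¬ q ∣ N) (hUb : UBridge N q hq.ne_zero)
    (x : Lat (N * q)) (hx : x ∈ LinearMap.ker (jMap W p hq hqN)) :
    ∃ x' : Additive (Gamma0 (N * q)) →+ ℤ,
      H50.IsUTr (N * q) q (x : Additive (Gamma0 (N * q)) →+ ℤ) x' ∧
      H50.IsUTr (N * q) q x' (x : Additive (Gamma0 (N * q)) →+ ℤ) := by
  rw [LinearMap.mem_ker] at hx
  have h1 : H19.coresOp hq hqN (x : Additive (Gamma0 (N * q)) →+ ℤ) = 0 := by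
    rw [← coe_jMap_fst (W := W) (p := p), hx]
    rfl
  have h2 : H19.coresOp hq hqN (H19.wOp hq hqN (x : Additive (Gamma0 (N * q)) →+ ℤ)) = 0 := by
    rw [← coe_jMap_snd (W := W) (p := p), hx]
    rfl
  have h3 := H19.uOp_uOp_of_ker hq hqN (x : Additive (Gamma0 (N * q)) →+ ℤ) h1 h2
  refine ⟨H19.uOp N hq.ne_zero (x : Additive (Gamma0 (N * q)) →+ ℤ), hUb _, ?_⟩
  have h4 := hUb (H19.uOp N hq.ne_zero (x : Additive (Gamma0 (N * q)) →+ ℤ))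
  rwa [h3] at h4

/-- **S41 from its named inputs**: (G-HF), (U-BRIDGE), (DS-BETTI) and (C). -/
theorem top_of (E : WeierstrassCurve ℚ) [E.IsElliptic] {W : WeierstrassCurve ℤ}
    (hW : W.IsIntegralModelOf E) {p N q' : ℕ} (hp : p.Prime) (hp2 : p ≠ 2) (hN : 0 < N)
    (hq' : q'.Prime) (hq'N : ¬ q' ∣ N)
    (hirr : WeierstrassCurve.Affine.Point.GaloisRepIsIrreducible (K := AlgebraicClosure ℚ) ℚ E p)
    [NeZero N] [NeZero (N * q')]
    (hHf : ∃ ε : ℤ, (ε = 1 ∨ ε = -1) ∧ ∃ x : Lat N,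
      x ∉ nIdeal W N q' p • (⊤ : Submodule (MvPolynomial (Idx W N q' p) ℤ) (Lat N)) ⊔
        LinearMap.range (tMap W p hq' hq'N - (ε * ((q' : ℤ) + 1)) •
          (LinearMap.id : Lat N →ₗ[MvPolynomial (Idx W N q' p) ℤ] Lat N)))
    (hUb : UBridge N q' hq'.ne_zero)
    (hBack : BackStmt W N q' p)
    (hDual : ∀ i : Idx W N q' p, DualStmt W p hq' hq'N i) :
    ∃ (g : CuspForm (CongruenceSubgroup.Gamma0 (N * q')) 2) (𝔪' : Ideal (integralClosure ℤ ℂ)),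
      g.IsNormalizedEigenform ∧ 𝔪'.IsMaximal ∧ (p : integralClosure ℤ ℂ) ∈ 𝔪' ∧
      (∀ ℓ : ℕ, ℓ.Prime → W.IsGoodPrimeFor ℓ → ¬ ℓ ∣ N * q' → ℓ ≠ p →
        ∃ a : integralClosure ℤ ℂ, (a : ℂ) = ModularFormClass.qCoeff g ℓ ∧
          a - ((W.apOfModel ℓ : ℤ) : integralClosure ℤ ℂ) ∈ 𝔪') ∧
      g.IsNewAt q' := by
  obtain ⟨ε, hε, hfx⟩ := hHf
  have hM : N * q' * p ≠ 0 :=
    Nat.mul_ne_zero (Nat.mul_ne_zero hN.ne' hq'.ne_zero) hp.ne_zero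
  obtain ⟨r, hr, hrM, hgood, hne⟩ := H86.exists_good_prime_not_dvd E hW hp hp2 hirr hM
  have hrNq : ¬ r ∣ N * q' := fun h => hrM (Dvd.dvd.mul_right h p)
  have hrp : r ≠ p := fun h => hrM (h ▸ Dvd.intro_left (N * q') rfl)
  have hK := not_ker_le hN hq' hq'N hp hp2 ε hε hfx (⟨r, hr, hgood, hrNq, hrp⟩ : Idx W N q' p)
    hne (hDual _)
  obtain ⟨g, 𝔪', hg, hmax', hp', hc, hnew⟩ := hBack _ hK
    (fun x hx => isUTr_of_mem_ker hq' hq'N hUb x hx)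
  exact ⟨g, 𝔪', hg, hmax', hp', fun ℓ hℓ hℓg hℓNq hℓp => hc ⟨ℓ, hℓ, hℓg, hℓNq, hℓp⟩, hnew⟩

end Fermat.Agent.S41.H53
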