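/-
S41, node (U-BRIDGE) (helper72): the concrete `U_q`-operators (`H19.uOp`, `H06.heckeU`, both
transfers along `H56.repU q`) satisfy the relational `H50.IsUTr` used by
`H50.exists_newAt_eigenform_of_betti`.
-/
import Mathlib
import Fermat.Agent.S41.Transfer_helper6
import Fermat.Agent.S41.TransferGamma0_helper6
import Fermat.Agent.S41.LevelOps_helper19
import Fermat.Agent.S41.BettiCusp_helper50

set_option autoImplicit false

namespace Fermat.Agent.S41.H72

open CongruenceSubgroup
open scoped MatrixGroups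

/-- A `U`-decomposition in the sense of `H50` is a transfer decomposition in the sense of `H06`
along the family `H56.repU p`. -/
theorem isDec_of_isDecompU {M p : ℕ} {γ : Gamma0 M} {σ : Equiv.Perm (Fin p)}
    {g' : Fin p → Gamma0 M} (hd : H50.IsDecompU M p γ σ g') :
    H06.IsDec (H06.gl M) (H06.gl M) (Fermat.Agent.S22.H56.repU p) γ σ g' := hd

/-- helper6's `heckeU` is the `U_q`-transfer in the relational form of helper50. -/
theorem isUTr_heckeU {M q : ℕ} {A : Type*} [AddCommGroup A] (hq : q ≠ 0) (hqM : q ∣ M)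
    (χ : Additive (Gamma0 M) →+ A) : H50.IsUTr M q χ (H06.heckeU hq hqM χ) := by
  intro γ σ g' hd
  exact H06.tr_apply (H06.gl_injective M) (H06.isTrFam_repU hq hqM) χ (isDec_of_isDecompU hd)

/-- helper19's `uOp` is the `U_q`-transfer in the relational form of helper50. -/
theorem isUTr_uOp (N : ℕ) {q : ℕ} {A : Type*} [AddCommGroup A] (hq : q ≠ 0)
    (ψ : Additive (Gamma0 (N * q)) →+ A) : H50.IsUTr (N * q) q ψ (H19.uOp N hq ψ) := by
  intro γ σ g' hd
  exact H06.tr_apply (H06.gl_injective (N * q)) (H19.isTrFam_U N hq) ψ (isDec_of_isDecompU hd)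

/-- The two concrete `U_q`-operators agree. -/
theorem uOp_eq_heckeU (N : ℕ) {q : ℕ} {A : Type*} [AddCommGroup A] (hq : q ≠ 0)
    (ψ : Additive (Gamma0 (N * q)) →+ A) :
    H19.uOp N hq ψ = H06.heckeU hq (Dvd.intro_left N rfl) ψ :=
  H50.IsUTr.unique hq (Dvd.intro_left N rfl) (isUTr_uOp N hq ψ)
    (isUTr_heckeU hq (Dvd.intro_left N rfl) ψ)

/-- Consumer form for `H50.exists_newAt_eigenform_of_betti`: if `U_q (U_q ψ) = ψ` for helper19's
operator, then `ψ` is fixed by the square of the `U_q`-transfer in relational form. -/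
theorem exists_isUTr_sq_of_uOp_uOp (N : ℕ) {q : ℕ} {A : Type*} [AddCommGroup A] (hq : q ≠ 0)
    (ψ : Additive (Gamma0 (N * q)) →+ A) (h : H19.uOp N hq (H19.uOp N hq ψ) = ψ) :
    ∃ ψ' : Additive (Gamma0 (N * q)) →+ A,
      H50.IsUTr (N * q) q ψ ψ' ∧ H50.IsUTr (N * q) q ψ' ψ :=
  ⟨H19.uOp N hq ψ, isUTr_uOp N hq ψ, by
    have := isUTr_uOp N hq (H19.uOp N hq ψ)
    rwa [h] at this⟩

end Fermat.Agent.S41.H72
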