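import Mathlib
import Fermat.Agent.S41.Top_helper53
import Fermat.Agent.S41.DualBridge_helper53
import Fermat.Agent.S41.HfInst_helper74
import Fermat.Agent.S41.UBridge_helper72
import Fermat.Agent.S41.BettiLift_helper50

/-!
# S41, node (G): level raising from the duality statement alone

The three plugs of `top_of` are closed here:
* `hHf_closed`  : the congruence-side input, from `H74.hf_inst`;
* `uBridge_closed` : from `H72.isUTr_uOp`;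
* `backStmt_closed` : from `H50.exists_newAt_of_not_le_smul`.

`top_of_dual` / `top_of_evalKey` : the frozen conclusion of S41 from the frozen hypotheses and
node (C) (`DualStmt`, resp. its module-free evaluation form `EvalKey`).
-/

set_option autoImplicit false

namespace Fermat.Agent.S41.H53

open CongruenceSubgroup ModularCurve.Period
open Fermat.Agent
open scoped MatrixGroups

/-- The congruence-side input `hf` of `lr_core`, closed. -/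
theorem hHf_closed {W : WeierstrassCurve ℤ} {p N q' : ℕ} [NeZero N] (hq' : q'.Prime)
    (hq'N : ¬ q' ∣ N)
    (f : CuspForm (Gamma0 N) 2) (𝔪 : Ideal (integralClosure ℤ ℂ))
    (hf : f.IsNormalizedEigenform) (hmax : 𝔪.IsMaximal) (hpm : (p : integralClosure ℤ ℂ) ∈ 𝔪)
    (hcong : ∀ ℓ : ℕ, ℓ.Prime → W.IsGoodPrimeFor ℓ → ¬ ℓ ∣ N → ℓ ≠ p →
      ∃ a : integralClosure ℤ ℂ, (a : ℂ) = ModularFormClass.qCoeff f ℓ ∧
        a - ((W.apOfModel ℓ : ℤ) : integralClosure ℤ ℂ) ∈ 𝔪)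
    (hLR : ∃ a : integralClosure ℤ ℂ, (a : ℂ) = ModularFormClass.qCoeff f q' ∧
      a ^ 2 - ((q' : integralClosure ℤ ℂ) + 1) ^ 2 ∈ 𝔪) :
    ∃ ε : ℤ, (ε = 1 ∨ ε = -1) ∧ ∃ x : Lat N,
      x ∉ nIdeal W N q' p • (⊤ : Submodule (MvPolynomial (Idx W N q' p) ℤ) (Lat N)) ⊔
        LinearMap.range (tMap W p hq' hq'N - (ε * ((q' : ℤ) + 1)) •
          (LinearMap.id : Lat N →ₗ[MvPolynomial (Idx W N q' p) ℤ] Lat N)) :=
  H74.hf_inst hq' hq'N f 𝔪 hf hmax hpm hcong hLR (fun i : Idx W N q' p => (i : ℕ))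
    (fun i => i.prime) (fun i => i.not_dvd) (fun i => i.good) (fun i => i.ne)
    (fun i x => by rw [X_smul_lat]; rfl) (tMap W p hq' hq'N) (fun _ => rfl) (nIdeal W N q' p)
    (fun r hr => (H59.mem_evalIdeal_iff_dvd p _ r).mp hr)

/-- (U-BRIDGE), closed. -/
theorem uBridge_closed (N q : ℕ) (hq : q ≠ 0) : UBridge N q hq :=
  fun ψ => H72.isUTr_uOp N hq ψ

/-- (DS-BETTI), closed. -/
theorem backStmt_closed (W : WeierstrassCurve ℤ) (N q p : ℕ) [NeZero (N * q)] (hq : q.Prime) :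
    BackStmt W N q p := by
  intro K hK hU
  exact H50.exists_newAt_of_not_le_smul hq (Dvd.intro_left N rfl)
    (fun i : Idx W N q p => (i : ℕ)) (fun i => i.prime) (fun i => i.not_dvd_mul)
    (fun i x => X_smul_latMul i x) (fun i => W.apOfModel (i : ℕ)) (nIdeal W N q p)
    (natCast_mem_nIdeal W N q p) (fun i => X_sub_C_mem_nIdeal i) K hK hU

/-- **S41 from node (C)** in the bundled form `DualStmt`. -/
theorem top_of_dual (E : WeierstrassCurve ℚ) [E.IsElliptic] {W : WeierstrassCurve ℤ}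
    (hW : W.IsIntegralModelOf E) {p N q' : ℕ} (hp : p.Prime) (hp2 : p ≠ 2) (hN : 0 < N)
    (hq' : q'.Prime) (hq'N : ¬ q' ∣ N)
    (hirr : WeierstrassCurve.Affine.Point.GaloisRepIsIrreducible (K := AlgebraicClosure ℚ) ℚ E p)
    (f : CuspForm (CongruenceSubgroup.Gamma0 N) 2) (𝔪 : Ideal (integralClosure ℤ ℂ))
    (hf : f.IsNormalizedEigenform) (hmax : 𝔪.IsMaximal) (hpm : (p : integralClosure ℤ ℂ) ∈ 𝔪)
    (hcong : ∀ ℓ : ℕ, ℓ.Prime → W.IsGoodPrimeFor ℓ → ¬ ℓ ∣ N → ℓ ≠ p →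
      ∃ a : integralClosure ℤ ℂ, (a : ℂ) = ModularFormClass.qCoeff f ℓ ∧
        a - ((W.apOfModel ℓ : ℤ) : integralClosure ℤ ℂ) ∈ 𝔪)
    (hLR : ∃ a : integralClosure ℤ ℂ, (a : ℂ) = ModularFormClass.qCoeff f q' ∧
      a ^ 2 - ((q' : integralClosure ℤ ℂ) + 1) ^ 2 ∈ 𝔪)
    [NeZero N] [NeZero (N * q')]
    (hDual : ∀ i : Idx W N q' p, DualStmt W p hq' hq'N i) :
    ∃ (g : CuspForm (CongruenceSubgroup.Gamma0 (N * q')) 2) (𝔪' : Ideal (integralClosure ℤ ℂ)),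
      g.IsNormalizedEigenform ∧ 𝔪'.IsMaximal ∧ (p : integralClosure ℤ ℂ) ∈ 𝔪' ∧
      (∀ ℓ : ℕ, ℓ.Prime → W.IsGoodPrimeFor ℓ → ¬ ℓ ∣ N * q' → ℓ ≠ p →
        ∃ a : integralClosure ℤ ℂ, (a : ℂ) = ModularFormClass.qCoeff g ℓ ∧
          a - ((W.apOfModel ℓ : ℤ) : integralClosure ℤ ℂ) ∈ 𝔪') ∧
      g.IsNewAt q' :=
  top_of E hW hp hp2 hN hq' hq'N hirr (hHf_closed hq' hq'N f 𝔪 hf hmax hpm hcong hLR)
    (uBridge_closed N q' hq'.ne_zero) (backStmt_closed W N q' p hq') hDual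

/-- **S41 from node (C)** in the module-free evaluation form `EvalKey`, for every good prime
`r ∤ N q'`, `r ≠ p`. -/
theorem top_of_evalKey (E : WeierstrassCurve ℚ) [E.IsElliptic] {W : WeierstrassCurve ℤ}
    (hW : W.IsIntegralModelOf E) {p N q' : ℕ} (hp : p.Prime) (hp2 : p ≠ 2) (hN : 0 < N)
    (hq' : q'.Prime) (hq'N : ¬ q' ∣ N)
    (hirr : WeierstrassCurve.Affine.Point.GaloisRepIsIrreducible (K := AlgebraicClosure ℚ) ℚ E p)
    (f : CuspForm (CongruenceSubgroup.Gamma0 N) 2) (𝔪 : Ideal (integralClosure ℤ ℂ))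
    (hf : f.IsNormalizedEigenform) (hmax : 𝔪.IsMaximal) (hpm : (p : integralClosure ℤ ℂ) ∈ 𝔪)
    (hcong : ∀ ℓ : ℕ, ℓ.Prime → W.IsGoodPrimeFor ℓ → ¬ ℓ ∣ N → ℓ ≠ p →
      ∃ a : integralClosure ℤ ℂ, (a : ℂ) = ModularFormClass.qCoeff f ℓ ∧
        a - ((W.apOfModel ℓ : ℤ) : integralClosure ℤ ℂ) ∈ 𝔪)
    (hLR : ∃ a : integralClosure ℤ ℂ, (a : ℂ) = ModularFormClass.qCoeff f q' ∧
      a ^ 2 - ((q' : integralClosure ℤ ℂ) + 1) ^ 2 ∈ 𝔪)
    (hKey : ∀ (r : ℕ) (hr : r.Prime) (hrN : ¬ r ∣ N), ¬ r ∣ N * q' → r ≠ p →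
      W.IsGoodPrimeFor r → EvalKey N q' p r hq' hq'N hr hrN) :
    ∃ (g : CuspForm (CongruenceSubgroup.Gamma0 (N * q')) 2) (𝔪' : Ideal (integralClosure ℤ ℂ)),
      g.IsNormalizedEigenform ∧ 𝔪'.IsMaximal ∧ (p : integralClosure ℤ ℂ) ∈ 𝔪' ∧
      (∀ ℓ : ℕ, ℓ.Prime → W.IsGoodPrimeFor ℓ → ¬ ℓ ∣ N * q' → ℓ ≠ p →
        ∃ a : integralClosure ℤ ℂ, (a : ℂ) = ModularFormClass.qCoeff g ℓ ∧
          a - ((W.apOfModel ℓ : ℤ) : integralClosure ℤ ℂ) ∈ 𝔪') ∧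
      g.IsNewAt q' := by
  haveI : NeZero N := ⟨hN.ne'⟩
  haveI : NeZero (N * q') := ⟨Nat.mul_ne_zero hN.ne' hq'.ne_zero⟩
  exact top_of_dual E hW hp hp2 hN hq' hq'N hirr f 𝔪 hf hmax hpm hcong hLR
    (fun i => dualStmt_of_evalKey hp hq' hq'N i
      (hKey (i : ℕ) i.prime i.not_dvd i.not_dvd_mul i.ne i.good))

end Fermat.Agent.S41.H53
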