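import Mathlib
import Fermat.Agent.S41.Top2_helper53
import Fermat.Agent.S41.GDualClosed_helper6

/-!
# S41, node (G): level raising, closed

`dualStmtU_closed` : node (C) in the unbundled form `DualStmtU`, from `H06.gDual` (route C-I).

`levelRaising` : the frozen statement S41 (Ribet's level raising in the form of a congruent
`q'`-new eigenform), with no hypothesis left.
-/

set_option autoImplicit false

namespace Fermat.Agent.S41.H53

open CongruenceSubgroup ModularCurve.Period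
open Fermat.Agent
open scoped MatrixGroups

/-- **(C)**, unbundled, closed. -/
theorem dualStmtU_closed {N q p r : ℕ} (hN : 0 < N) (hq : q.Prime) (hqN : ¬ q ∣ N)
    (hp : p.Prime) (hp2 : p ≠ 2) (hr : r.Prime) (hrN : ¬ r ∣ N) :
    DualStmtU N q p r hq hqN hr hrN := by
  intro x y hx hy
  obtain ⟨z, v₁, v₂, hz, hv₁, hv₂, h1, h2⟩ := H06.gDual hN hq hqN hp hp2 hr hrN x y hx hy
  have e : ((r : ℤ) + 1) = ((r + 1 : ℕ) : ℤ) := by push_cast; ring
  refine ⟨z, v₁, v₂, hz, hv₁, hv₂, ?_, ?_⟩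
  · rw [e, natCast_zsmul, natCast_zsmul]
    exact h1
  · rw [e, natCast_zsmul, natCast_zsmul]
    exact h2

/-- **Level raising** (the frozen statement S41). -/
theorem levelRaising (E : WeierstrassCurve ℚ) [E.IsElliptic] {W : WeierstrassCurve ℤ}
    (hW : W.IsIntegralModelOf E) {p N q' : ℕ} (hp : p.Prime) (hp2 : p ≠ 2) (hN : 0 < N)
    (hq' : q'.Prime) (hq'N : ¬ q' ∣ N)
    (hirr : WeierstrassCurve.Affine.Point.GaloisRepIsIrreducible (K := AlgebraicClosure ℚ) ℚ E p)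
    (f : CuspForm (CongruenceSubgroup.Gamma0 N) 2) (𝔪 : Ideal (integralClosure ℤ ℂ))
    (hf : f.IsNormalizedEigenform) (hmax : 𝔪.IsMaximal) (hpm : (p : integralClosure ℤ ℂ) ∈ 𝔪)
    (hcong : ∀ ℓ : ℕ, ℓ.Prime → W.IsGoodPrimeFor ℓ → ¬ ℓ ∣ N → ℓ ≠ p →
      ∃ a : integralClosure ℤ ℂ, (a : ℂ) = ModularFormClass.qCoeff f ℓ ∧
        a - ((W.apOfModel ℓ : ℤ) : integralClosure ℤ ℂ) ∈ 𝔪)
    (hLR : ∃ a : integralClosure ℤ ℂ, (a : ℂ) = ModularFormClass.qCoeff f q' ∧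
      a ^ 2 - ((q' : integralClosure ℤ ℂ) + 1) ^ 2 ∈ 𝔪) :
    ∃ (g : CuspForm (CongruenceSubgroup.Gamma0 (N * q')) 2) (𝔪' : Ideal (integralClosure ℤ ℂ)),
      g.IsNormalizedEigenform ∧ 𝔪'.IsMaximal ∧ (p : integralClosure ℤ ℂ) ∈ 𝔪' ∧
      (∀ ℓ : ℕ, ℓ.Prime → W.IsGoodPrimeFor ℓ → ¬ ℓ ∣ N * q' → ℓ ≠ p →
        ∃ a : integralClosure ℤ ℂ, (a : ℂ) = ModularFormClass.qCoeff g ℓ ∧
          a - ((W.apOfModel ℓ : ℤ) : integralClosure ℤ ℂ) ∈ 𝔪') ∧
      g.IsNewAt q' := by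
  haveI : NeZero N := ⟨hN.ne'⟩
  haveI : NeZero (N * q') := ⟨Nat.mul_ne_zero hN.ne' hq'.ne_zero⟩
  exact top_of_dual E hW hp hp2 hN hq' hq'N hirr f 𝔪 hf hmax hpm hcong hLR
    (fun i => dualStmt_of_unbundled hq' hq'N i
      (dualStmtU_closed hN hq' hq'N hp hp2 i.prime i.not_dvd))

end Fermat.Agent.S41.H53
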