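import Mathlib
import Fermat.Prelude.Def_FLTPrelim_ModularRep
import Fermat.Prelude.Def_FreyPackage_LevelRaising
import Fermat.Agent.S41.BettiLift_helper50

/-!
# S41, node (G-BACK) (helper50): the back end in the literal frozen shape

* `exists_newAt_of_cover` : `exists_newAt_of_not_le_smul` with the conclusion quantified over all
  primes `ℓ` covered by the index family.
* `exists_newAt_frozen` : the instance with index type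
  `{ℓ // ℓ.Prime ∧ W.IsGoodPrimeFor ℓ ∧ ¬ ℓ ∣ N * q' ∧ ℓ ≠ p}`; the conclusion is literally the
  conclusion of the frozen statement S41.
-/

set_option autoImplicit false

namespace Fermat.Agent.S41.H50

open CongruenceSubgroup ModularCurve ModularCurve.Period
open Fermat.Agent.S29 Fermat.Agent.S49
open scoped MatrixGroups

/-- `exists_newAt_of_not_le_smul`, with the congruences stated for all primes `ℓ` satisfying a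
predicate `good` that is covered by the index family. -/
theorem exists_newAt_of_cover {M q p : ℕ} [NeZero M] (hq : q.Prime) (hqM : q ∣ M)
    {ι : Type*} (pr : ι → ℕ) (hpr : ∀ i, (pr i).Prime) (hprM : ∀ i, ¬ pr i ∣ M)
    [Module (MvPolynomial ι ℤ) (parabolicHoms ℤ (Gamma0 M) ℤ)]
    (hX : ∀ (i : ι) (x : parabolicHoms ℤ (Gamma0 M) ℤ),
      (MvPolynomial.X i : MvPolynomial ι ℤ) • x = latT (hpr i) (hprM i) x)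
    (a : ι → ℤ) (𝔫 : Ideal (MvPolynomial ι ℤ)) (hp𝔫 : ((p : ℕ) : MvPolynomial ι ℤ) ∈ 𝔫)
    (h𝔫 : ∀ i, MvPolynomial.X i - MvPolynomial.C (a i) ∈ 𝔫)
    (K : Submodule (MvPolynomial ι ℤ) (parabolicHoms ℤ (Gamma0 M) ℤ)) (hK : ¬ (K ≤ 𝔫 • K))
    (hU : ∀ x ∈ K, ∃ x' : Additive (Gamma0 M) →+ ℤ,
      IsUTr M q ((x : parabolicHoms ℤ (Gamma0 M) ℤ) : Additive (Gamma0 M) →+ ℤ) x' ∧
        IsUTr M q x' ((x : parabolicHoms ℤ (Gamma0 M) ℤ) : Additive (Gamma0 M) →+ ℤ))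
    (good : ℕ → Prop) (ap : ℕ → ℤ)
    (hcover : ∀ ℓ : ℕ, ℓ.Prime → good ℓ → ¬ ℓ ∣ M → ℓ ≠ p → ∃ i, pr i = ℓ ∧ a i = ap ℓ) :
    ∃ (g : CuspForm (Gamma0 M) 2) (𝔪' : Ideal (integralClosure ℤ ℂ)),
      g.IsNormalizedEigenform ∧ 𝔪'.IsMaximal ∧ ((p : ℕ) : integralClosure ℤ ℂ) ∈ 𝔪' ∧
      (∀ ℓ : ℕ, ℓ.Prime → good ℓ → ¬ ℓ ∣ M → ℓ ≠ p →
        ∃ c : integralClosure ℤ ℂ, (c : ℂ) = ModularFormClass.qCoeff g ℓ ∧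
          c - ((ap ℓ : ℤ) : integralClosure ℤ ℂ) ∈ 𝔪') ∧ g.IsNewAt q := by
  obtain ⟨g, 𝔪', hg, h𝔪', hp', hc, hnew⟩ :=
    exists_newAt_of_not_le_smul hq hqM pr hpr hprM hX a 𝔫 hp𝔫 h𝔫 K hK hU
  refine ⟨g, 𝔪', hg, h𝔪', hp', fun ℓ hℓ hgood hℓM hℓp => ?_, hnew⟩
  obtain ⟨i, rfl, hai⟩ := hcover ℓ hℓ hgood hℓM hℓp
  obtain ⟨c, hc1, hc2⟩ := hc i
  exact ⟨c, hc1, hai ▸ hc2⟩

/-- **(G-BACK), frozen shape.**  Index type = the primes of the frozen S41 conclusion; the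
conclusion is literally the conclusion of the frozen statement S41. -/
theorem exists_newAt_frozen {W : WeierstrassCurve ℤ} {p N q' : ℕ} (hN : 0 < N) (hq' : q'.Prime)
    [Module (MvPolynomial {ℓ : ℕ // ℓ.Prime ∧ W.IsGoodPrimeFor ℓ ∧ ¬ ℓ ∣ N * q' ∧ ℓ ≠ p} ℤ)
      (parabolicHoms ℤ (Gamma0 (N * q')) ℤ)]
    (hX : ∀ (i : {ℓ : ℕ // ℓ.Prime ∧ W.IsGoodPrimeFor ℓ ∧ ¬ ℓ ∣ N * q' ∧ ℓ ≠ p})
      (x : parabolicHoms ℤ (Gamma0 (N * q')) ℤ),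
      (MvPolynomial.X i :
        MvPolynomial {ℓ : ℕ // ℓ.Prime ∧ W.IsGoodPrimeFor ℓ ∧ ¬ ℓ ∣ N * q' ∧ ℓ ≠ p} ℤ) • x =
        latT i.2.1 i.2.2.2.1 x)
    (𝔫 : Ideal (MvPolynomial {ℓ : ℕ // ℓ.Prime ∧ W.IsGoodPrimeFor ℓ ∧ ¬ ℓ ∣ N * q' ∧ ℓ ≠ p} ℤ))
    (hp𝔫 : ((p : ℕ) :
      MvPolynomial {ℓ : ℕ // ℓ.Prime ∧ W.IsGoodPrimeFor ℓ ∧ ¬ ℓ ∣ N * q' ∧ ℓ ≠ p} ℤ) ∈ 𝔫)
    (h𝔫 : ∀ i : {ℓ : ℕ // ℓ.Prime ∧ W.IsGoodPrimeFor ℓ ∧ ¬ ℓ ∣ N * q' ∧ ℓ ≠ p},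
      MvPolynomial.X i - MvPolynomial.C (W.apOfModel i.1) ∈ 𝔫)
    (K : Submodule (MvPolynomial {ℓ : ℕ // ℓ.Prime ∧ W.IsGoodPrimeFor ℓ ∧ ¬ ℓ ∣ N * q' ∧ ℓ ≠ p} ℤ)
      (parabolicHoms ℤ (Gamma0 (N * q')) ℤ)) (hK : ¬ (K ≤ 𝔫 • K))
    (hU : ∀ x ∈ K, ∃ x' : Additive (Gamma0 (N * q')) →+ ℤ,
      IsUTr (N * q') q'
        ((x : parabolicHoms ℤ (Gamma0 (N * q')) ℤ) : Additive (Gamma0 (N * q')) →+ ℤ) x' ∧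
      IsUTr (N * q') q' x'
        ((x : parabolicHoms ℤ (Gamma0 (N * q')) ℤ) : Additive (Gamma0 (N * q')) →+ ℤ)) :
    ∃ (g : CuspForm (CongruenceSubgroup.Gamma0 (N * q')) 2) (𝔪' : Ideal (integralClosure ℤ ℂ)),
      g.IsNormalizedEigenform ∧ 𝔪'.IsMaximal ∧ (p : integralClosure ℤ ℂ) ∈ 𝔪' ∧
      (∀ ℓ : ℕ, ℓ.Prime → W.IsGoodPrimeFor ℓ → ¬ ℓ ∣ N * q' → ℓ ≠ p →
        ∃ a : integralClosure ℤ ℂ, (a : ℂ) = ModularFormClass.qCoeff g ℓ ∧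
          a - ((W.apOfModel ℓ : ℤ) : integralClosure ℤ ℂ) ∈ 𝔪') ∧
      g.IsNewAt q' := by
  have : NeZero (N * q') := ⟨Nat.mul_ne_zero hN.ne' hq'.ne_zero⟩
  exact exists_newAt_of_cover hq' (Dvd.intro_left N rfl)
    (fun i : {ℓ : ℕ // ℓ.Prime ∧ W.IsGoodPrimeFor ℓ ∧ ¬ ℓ ∣ N * q' ∧ ℓ ≠ p} => i.1)
    (fun i => i.2.1) (fun i => i.2.2.2.1) hX (fun i => W.apOfModel i.1) 𝔫 hp𝔫 h𝔫 K hK hU
    (fun ℓ => W.IsGoodPrimeFor ℓ) (fun ℓ => W.apOfModel ℓ)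
    (fun ℓ hℓ hgood hℓM hℓp => ⟨⟨ℓ, hℓ, hgood, hℓM, hℓp⟩, rfl, rfl⟩)

end Fermat.Agent.S41.H50
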