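import Mathlib
import Fermat.Agent.S41.Setup_helper53
import Fermat.Agent.S41.BettiFrozen_helper50
import Fermat.Agent.S41.UBridge_helper72
import Fermat.Agent.S41.LevelOps_helper19

/-!
# S41, node (G), last step (helper50): from the conclusion of `lr_core` to the frozen conclusion

`frozen_of_ker_jMap` : in the vocabulary of `Setup_helper53` (`H53.jMap`, `H53.nIdeal`), the
conclusion `¬ (ker j ≤ 𝔫 • ker j)` of `H71.lr_core` gives literally the conclusion of the frozen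
statement S41.  (`U_q² = 1` on `ker j` is `H19.uOp_uOp_of_ker`, transported by
`H72.exists_isUTr_sq_of_uOp_uOp`.)
-/

set_option autoImplicit false

namespace Fermat.Agent.S41.H50

open CongruenceSubgroup ModularCurve ModularCurve.Period
open Fermat.Agent
open scoped MatrixGroups

/-- `U_q² = 1` on `ker j`, in the relational form consumed by `exists_newAt_of_not_le_smul`. -/
theorem exists_isUTr_of_mem_ker_jMap {W : WeierstrassCurve ℤ} {p N q' : ℕ} [NeZero N]
    [NeZero (N * q')] (hq' : q'.Prime) (hq'N : ¬ q' ∣ N) (x : H53.Lat (N * q'))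
    (hx : x ∈ LinearMap.ker (H53.jMap W p hq' hq'N)) :
    ∃ x' : Additive (Gamma0 (N * q')) →+ ℤ,
      IsUTr (N * q') q' (x : Additive (Gamma0 (N * q')) →+ ℤ) x' ∧
      IsUTr (N * q') q' x' (x : Additive (Gamma0 (N * q')) →+ ℤ) := by
  have hx' : H53.jMap W p hq' hq'N x = 0 := hx
  have h1 : H19.coresOp hq' hq'N (x : Additive (Gamma0 (N * q')) →+ ℤ) = 0 := by
    rw [← H53.coe_jMap_fst (W := W) (p := p) hq' hq'N x, hx']
    rfl
  have h2 : H19.coresOp hq' hq'N (H19.wOp hq' hq'N (x : Additive (Gamma0 (N * q')) →+ ℤ)) = 0 := by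
    rw [← H53.coe_jMap_snd (W := W) (p := p) hq' hq'N x, hx']
    rfl
  exact H72.exists_isUTr_sq_of_uOp_uOp N hq'.ne_zero _ (H19.uOp_uOp_of_ker hq' hq'N _ h1 h2)

/-- **(G), last step.**  The conclusion of `H71.lr_core` for the modules and maps of
`Setup_helper53` implies the conclusion of the frozen statement S41. -/
theorem frozen_of_ker_jMap {W : WeierstrassCurve ℤ} {p N q' : ℕ} [NeZero N] [NeZero (N * q')]
    (hq' : q'.Prime) (hq'N : ¬ q' ∣ N)
    (hK : ¬ (LinearMap.ker (H53.jMap W p hq' hq'N) ≤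
      H53.nIdeal W N q' p • LinearMap.ker (H53.jMap W p hq' hq'N))) :
    ∃ (g : CuspForm (CongruenceSubgroup.Gamma0 (N * q')) 2) (𝔪' : Ideal (integralClosure ℤ ℂ)),
      g.IsNormalizedEigenform ∧ 𝔪'.IsMaximal ∧ (p : integralClosure ℤ ℂ) ∈ 𝔪' ∧
      (∀ ℓ : ℕ, ℓ.Prime → W.IsGoodPrimeFor ℓ → ¬ ℓ ∣ N * q' → ℓ ≠ p →
        ∃ a : integralClosure ℤ ℂ, (a : ℂ) = ModularFormClass.qCoeff g ℓ ∧
          a - ((W.apOfModel ℓ : ℤ) : integralClosure ℤ ℂ) ∈ 𝔪') ∧
      g.IsNewAt q' :=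
  exists_newAt_of_cover hq' (Dvd.intro_left N rfl)
    (fun i : H53.Idx W N q' p => (i : ℕ)) (fun i => i.prime) (fun i => i.not_dvd_mul)
    (fun i x => H53.X_smul_latMul i x) (fun i => W.apOfModel (i : ℕ)) (H53.nIdeal W N q' p)
    (H53.natCast_mem_nIdeal W N q' p) (fun i => H53.X_sub_C_mem_nIdeal i)
    (LinearMap.ker (H53.jMap W p hq' hq'N)) hK
    (fun x hx => exists_isUTr_of_mem_ker_jMap hq' hq'N x hx)
    (fun ℓ => W.IsGoodPrimeFor ℓ) (fun ℓ => W.apOfModel ℓ)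
    (fun ℓ hℓ hgood hℓM hℓp => ⟨⟨ℓ, hℓ, hgood, hℓM, hℓp⟩, rfl, rfl⟩)

end Fermat.Agent.S41.H50
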