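import Fermat.Agent.S41.GSetup_helper54
import Fermat.Agent.S41.NonEisClosed_helper86
import Fermat.Agent.S41.IhEigen_helper91
import Fermat.Agent.S41.HfInst_helper74

/-!
# S41, node (G), insurance copy (helper54): the top assembly

`top` : the frozen statement S41 from the two remaining contracts

* `GDualStmt` : the dual of Ihara's lemma (node (C)), in the unbundled literal shape of the (G)
  plan: `T_r x - (r + 1) x = cores z + p v₁`, `T_r y - (r + 1) y = cores (w z) + p v₂`;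
* `GBackStmt` : the back end (Deligne-Serre lifting + Eichler-Shimura), i.e. helper50's
  `exists_newAt_of_not_le_smul` for the concrete Hecke ring of `GSetup_helper54`.

Everything else is discharged here from landed files: `hf` (helper74), Ihara's lemma in operator
form (`ih_ops`, from helper91 / helper17), the non-Eisenstein prime (helper86), `j ∘ i`
(helper19), `U_q² = 1` on `ker j` (helper19 + helper72), and the abstract core `H71.lr_core`.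
-/

set_option autoImplicit false

namespace Fermat.Agent.S41.H54

open CongruenceSubgroup ModularCurve.Period
open Fermat.Agent.S29
open WeierstrassCurve WeierstrassCurve.Affine WeierstrassCurve.Affine.Point
open scoped MatrixGroups

/-- **(G-DUAL)**, the contract for node (C), unbundled. -/
def GDualStmt (N q p r : ℕ) (hq : q.Prime) (hqN : ¬ q ∣ N) (hr : r.Prime) (hrN : ¬ r ∣ N) :
    Prop :=
  ∀ x y : Additive (Gamma0 N) →+ ℤ, IsParabolicHom (Gamma0 N) x → IsParabolicHom (Gamma0 N) y →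
    ∃ (z : Additive (Gamma0 (N * q)) →+ ℤ) (v₁ v₂ : Additive (Gamma0 N) →+ ℤ),
      IsParabolicHom (Gamma0 (N * q)) z ∧ IsParabolicHom (Gamma0 N) v₁ ∧
      IsParabolicHom (Gamma0 N) v₂ ∧
      H06.heckeTr hr hrN x - (r + 1) • x = H19.coresOp hq hqN z + p • v₁ ∧
      H06.heckeTr hr hrN y - (r + 1) • y = H19.coresOp hq hqN (H19.wOp hq hqN z) + p • v₂

/-- **(G-BACK)**, the contract for the back end, for the concrete Hecke ring. -/
def GBackStmt (W : WeierstrassCurve ℤ) (N q p : ℕ) [NeZero (N * q)] : Prop :=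
  ∀ K : Submodule (MvPolynomial (Idx W N q p) ℤ) (parabolicHoms ℤ (Gamma0 (N * q)) ℤ),
    ¬ (K ≤ nIdeal W N q p • K) →
    (∀ x ∈ K, ∃ x' : Additive (Gamma0 (N * q)) →+ ℤ,
      H50.IsUTr (N * q) q (x : Additive (Gamma0 (N * q)) →+ ℤ) x' ∧
      H50.IsUTr (N * q) q x' (x : Additive (Gamma0 (N * q)) →+ ℤ)) →
    ∃ (g : CuspForm (Gamma0 (N * q)) 2) (𝔪' : Ideal (integralClosure ℤ ℂ)),
      g.IsNormalizedEigenform ∧ 𝔪'.IsMaximal ∧ ((p : ℕ) : integralClosure ℤ ℂ) ∈ 𝔪' ∧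
      (∀ i : Idx W N q p, ∃ c : integralClosure ℤ ℂ,
        (c : ℂ) = ModularFormClass.qCoeff g i.1 ∧
        c - ((W.apOfModel i.1 : ℤ) : integralClosure ℤ ℂ) ∈ 𝔪') ∧ g.IsNewAt q

/-- **(G-IH)**: Ihara's lemma in operator form.  If `res x + w (res y)` is divisible by `p`
then `T_r x - (r + 1) x` and `T_r y - (r + 1) y` are divisible by `p`, with parabolic
quotients. -/
theorem ih_ops {N q p r : ℕ} (hN : 0 < N) (hq : q.Prime) (hqN : ¬ q ∣ N) (hp : p.Prime)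
    (hp2 : p ≠ 2) (hr : r.Prime) (hrN : ¬ r ∣ N) (x y : Additive (Gamma0 N) →+ ℤ)
    (hx : IsParabolicHom (Gamma0 N) x) (hy : IsParabolicHom (Gamma0 N) y)
    (z : Additive (Gamma0 (N * q)) →+ ℤ)
    (h : H19.resOp N q x + H19.wOp hq hqN (H19.resOp N q y) = p • z) :
    ∃ v₁ v₂ : Additive (Gamma0 N) →+ ℤ, IsParabolicHom (Gamma0 N) v₁ ∧
      IsParabolicHom (Gamma0 N) v₂ ∧
      H06.heckeTr hr hrN x - (r + 1) • x = p • v₁ ∧
      H06.heckeTr hr hrN y - (r + 1) • y = p • v₂ := by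
  have hC : ∀ g g' : Gamma0 N, H39.EtaRel q (g : SL(2, ℤ)) (g' : SL(2, ℤ)) →
      (p : ℤ) ∣ x (Additive.ofMul g) + y (Additive.ofMul g') := by
    intro g g' hrel
    have hgN : ((N : ℕ) : ℤ) ∣ (g : SL(2, ℤ)) 1 0 :=
      (ZMod.intCast_zmod_eq_zero_iff_dvd _ _).mp (Gamma0_mem.mp g.2)
    have hgq : (q : ℤ) ∣ (g : SL(2, ℤ)) 1 0 := ⟨(g' : SL(2, ℤ)) 1 0, hrel.2.2.1.symm⟩
    have hmem : (g : SL(2, ℤ)) ∈ Gamma0 (N * q) := by
      rw [Gamma0_mem, ZMod.intCast_zmod_eq_zero_iff_dvd]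
      exact H19.Nq_dvd hq hqN hgN hgq
    have h1 := H19.iOp_apply_apply hq hqN x y ⟨(g : SL(2, ℤ)), hmem⟩ g' hrel
    rw [H19.iOp_apply, h] at h1
    have h2 : H19.incl N q ⟨(g : SL(2, ℤ)), hmem⟩ = g := Subtype.ext rfl
    rw [h2] at h1
    rw [← h1]
    refine ⟨z (Additive.ofMul ⟨(g : SL(2, ℤ)), hmem⟩), ?_⟩
    simp
  obtain ⟨v₁, v₂, e₁, e₂, p₁, p₂⟩ :=
    H91.ih_heckeTr_int hN hq hqN hp hp2 hr hrN x y _ _ hx hy hC
      (H06.isHeckeTr_heckeTr hr hrN x) (H06.isHeckeTr_heckeTr hr hrN y)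
  exact ⟨v₁, v₂, p₁, p₂, e₁, e₂⟩

/-- **The top assembly**: the frozen statement S41 from the contracts (G-DUAL) and (G-BACK). -/
theorem top
    (E : WeierstrassCurve ℚ) [E.IsElliptic] {W : WeierstrassCurve ℤ} (hW : W.IsIntegralModelOf E)
    {p N q' : ℕ} (hp : p.Prime) (hp2 : p ≠ 2) (hN : 0 < N) (hq' : q'.Prime) (hq'N : ¬ q' ∣ N)
    (hirr : GaloisRepIsIrreducible (K := AlgebraicClosure ℚ) ℚ E p)
    (f : CuspForm (CongruenceSubgroup.Gamma0 N) 2) (𝔪 : Ideal (integralClosure ℤ ℂ))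
    (hf : f.IsNormalizedEigenform) (hmax : 𝔪.IsMaximal) (hpm : (p : integralClosure ℤ ℂ) ∈ 𝔪)
    (hcong : ∀ ℓ : ℕ, ℓ.Prime → W.IsGoodPrimeFor ℓ → ¬ ℓ ∣ N → ℓ ≠ p →
      ∃ a : integralClosure ℤ ℂ, (a : ℂ) = ModularFormClass.qCoeff f ℓ ∧
        a - ((W.apOfModel ℓ : ℤ) : integralClosure ℤ ℂ) ∈ 𝔪)
    (hLR : ∃ a : integralClosure ℤ ℂ, (a : ℂ) = ModularFormClass.qCoeff f q' ∧
      a ^ 2 - ((q' : integralClosure ℤ ℂ) + 1) ^ 2 ∈ 𝔪)
    (hDual : ∀ (r : ℕ) (hr : r.Prime) (hrN : ¬ r ∣ N), ¬ r ∣ N * q' → r ≠ p →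
      W.IsGoodPrimeFor r → GDualStmt N q' p r hq' hq'N hr hrN)
    (hBack : ∀ [NeZero (N * q')], GBackStmt W N q' p) :
    ∃ (g : CuspForm (CongruenceSubgroup.Gamma0 (N * q')) 2) (𝔪' : Ideal (integralClosure ℤ ℂ)),
      g.IsNormalizedEigenform ∧ 𝔪'.IsMaximal ∧ (p : integralClosure ℤ ℂ) ∈ 𝔪' ∧
      (∀ ℓ : ℕ, ℓ.Prime → W.IsGoodPrimeFor ℓ → ¬ ℓ ∣ N * q' → ℓ ≠ p →
        ∃ a : integralClosure ℤ ℂ, (a : ℂ) = ModularFormClass.qCoeff g ℓ ∧
          a - ((W.apOfModel ℓ : ℤ) : integralClosure ℤ ℂ) ∈ 𝔪') ∧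
      g.IsNewAt q' := by
  classical
  have : NeZero N := ⟨hN.ne'⟩
  have : NeZero (N * q') := ⟨Nat.mul_ne_zero hN.ne' hq'.ne_zero⟩
  have : Fact p.Prime := ⟨hp⟩
  have := nIdeal_isMaximal W N q' p
  have : Module.Finite ℤ (parabolicHoms ℤ (Gamma0 N) ℤ) := H34.finite_parabolicHoms_Gamma0 N
  have : Module.Finite ℤ (parabolicHoms ℤ (Gamma0 (N * q')) ℤ) :=
    H34.finite_parabolicHoms_Gamma0 (N * q')
  -- the auxiliary non-Eisenstein prime `r`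
  obtain ⟨r, hr, hrM, hrgood, hrne⟩ :=
    H86.exists_good_prime_not_dvd E hW hp hp2 hirr (M := N * q' * p)
      (Nat.mul_ne_zero (Nat.mul_ne_zero hN.ne' hq'.ne_zero) hp.ne_zero)
  have hrNq : ¬ r ∣ N * q' := fun h => hrM (Dvd.dvd.mul_right h p)
  have hrp : r ≠ p := fun h => hrM (h ▸ Dvd.intro_left _ rfl)
  have hrN : ¬ r ∣ N := fun h => hrNq (Dvd.dvd.mul_right h q')
  have hr₀ : rEl W N q' p ⟨r, hr, hrgood, hrNq, hrp⟩ ∉ nIdeal W N q' p :=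
    rEl_not_mem W N q' p ⟨r, hr, hrgood, hrNq, hrp⟩ hrne
  -- `hf`
  obtain ⟨ε, hε, hfx⟩ := H74.hf_inst hq' hq'N f 𝔪 hf hmax hpm hcong hLR
    (fun i : Idx W N q' p => (i.1 : ℕ)) (fun i => i.prime) (fun i => i.not_dvd)
    (fun i => i.good) (fun i => i.ne) (coe_X_smul_low W N q' p) (tMap W p hq' hq'N)
    (coe_tMap W p hq' hq'N) (nIdeal W N q' p)
    (fun r hr => (H59.mem_evalIdeal_iff_dvd p _ r).1 hr)
  -- `hIh`
  have hIh : ∃ r₀ : MvPolynomial (Idx W N q' p) ℤ, r₀ ∉ nIdeal W N q' p ∧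
      ∀ u : parabolicHoms ℤ (Gamma0 N) ℤ × parabolicHoms ℤ (Gamma0 N) ℤ,
        (∃ y : parabolicHoms ℤ (Gamma0 (N * q')) ℤ, iMap W p hq' hq'N u = (p : ℤ) • y) →
        ∃ v : parabolicHoms ℤ (Gamma0 N) ℤ × parabolicHoms ℤ (Gamma0 N) ℤ,
          r₀ • u = (p : ℤ) • v := by
    refine ⟨_, hr₀, ?_⟩
    rintro ⟨x, y⟩ ⟨z, hz⟩
    have h1 : H19.resOp N q' (x : Additive (Gamma0 N) →+ ℤ) +
        H19.wOp hq' hq'N (H19.resOp N q' (y : Additive (Gamma0 N) →+ ℤ)) =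
        p • (z : Additive (Gamma0 (N * q')) →+ ℤ) := by
      have h2 := congrArg Subtype.val hz
      rw [← natCast_zsmul]
      exact h2
    obtain ⟨v₁, v₂, p₁, p₂, e₁, e₂⟩ := ih_ops hN hq' hq'N hp hp2 hr hrN _ _ x.2 y.2 _ h1
    refine ⟨(⟨v₁, p₁⟩, ⟨v₂, p₂⟩), ?_⟩
    apply Prod.ext
    · apply Subtype.ext
      exact (rEl_smul_low W N q' p _ x).trans (e₁.trans (natCast_zsmul v₁ p).symm)
    · apply Subtype.ext
      exact (rEl_smul_low W N q' p _ y).trans (e₂.trans (natCast_zsmul v₂ p).symm)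
  -- `hDual`
  have hDual' : ∃ r₁ : MvPolynomial (Idx W N q' p) ℤ, r₁ ∉ nIdeal W N q' p ∧
      ∀ u : parabolicHoms ℤ (Gamma0 N) ℤ × parabolicHoms ℤ (Gamma0 N) ℤ,
        ∃ (y : parabolicHoms ℤ (Gamma0 (N * q')) ℤ)
          (v : parabolicHoms ℤ (Gamma0 N) ℤ × parabolicHoms ℤ (Gamma0 N) ℤ),
          r₁ • u = jMap W p hq' hq'N y + (p : ℤ) • v := by
    refine ⟨_, hr₀, ?_⟩
    rintro ⟨x, y⟩
    obtain ⟨z, v₁, v₂, hz, p₁, p₂, e₁, e₂⟩ := hDual r hr hrN hrNq hrp hrgood _ _ x.2 y.2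
    refine ⟨⟨z, hz⟩, (⟨v₁, p₁⟩, ⟨v₂, p₂⟩), ?_⟩
    apply Prod.ext
    · apply Subtype.ext
      refine (rEl_smul_low W N q' p _ x).trans (e₁.trans ?_)
      show _ = H19.coresOp hq' hq'N z + (p : ℤ) • v₁
      rw [natCast_zsmul]
    · apply Subtype.ext
      refine (rEl_smul_low W N q' p _ y).trans (e₂.trans ?_)
      show _ = H19.coresOp hq' hq'N (H19.wOp hq' hq'N z) + (p : ℤ) • v₂
      rw [natCast_zsmul]
  -- the abstract core
  have hcore := H71.lr_core p hp.ne_zero (nIdeal W N q' p) (natCast_mem_nIdeal W N q' p)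
    (iMap W p hq' hq'N) (jMap W p hq' hq'N) ((q' : ℤ) + 1) (tMap W p hq' hq'N)
    (jMap_iMap W p hq' hq'N) ε hε hfx hIh hDual'
  -- the back end
  obtain ⟨g, 𝔪', hg, hmax', hp', hcong', hnew⟩ := hBack (LinearMap.ker (jMap W p hq' hq'N)) hcore
    (by
      intro x hx
      have hx0 : jMap W p hq' hq'N x = 0 := hx
      have h1 : H19.coresOp hq' hq'N (x : Additive (Gamma0 (N * q')) →+ ℤ) = 0 := by
        rw [← coe_jMap_fst W p hq' hq'N x, hx0]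
        rfl
      have h2 : H19.coresOp hq' hq'N
          (H19.wOp hq' hq'N (x : Additive (Gamma0 (N * q')) →+ ℤ)) = 0 := by
        rw [← coe_jMap_snd W p hq' hq'N x, hx0]
        rfl
      exact H72.exists_isUTr_sq_of_uOp_uOp N hq'.ne_zero _
        (H19.uOp_uOp_of_ker hq' hq'N _ h1 h2))
  exact ⟨g, 𝔪', hg, hmax', hp', fun ℓ hℓ hgood hℓM hℓp => hcong' ⟨ℓ, hℓ, hgood, hℓM, hℓp⟩, hnew⟩

end Fermat.Agent.S41.H54
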