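import Mathlib
import Fermat.Agent.S41.GTop_helper54
import Fermat.Agent.S41.BettiLift_helper50

/-!
# S41 (G): the contract `H54.GBackStmt` of `GTop_helper54` is a theorem (helper50)
-/

set_option autoImplicit false

namespace Fermat.Agent.S41.H50

open CongruenceSubgroup ModularCurve ModularCurve.Period
open Fermat.Agent

/-- The back-end contract `hBack` of `H54.top`. -/
theorem backStmt_H54 (W : WeierstrassCurve ℤ) (N q p : ℕ) [NeZero (N * q)] (hq : q.Prime) :
    H54.GBackStmt W N q p := by
  intro K hK hU
  exact exists_newAt_of_not_le_smul hq (Dvd.intro_left N rfl)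
    (fun i : H54.Idx W N q p => (i.1 : ℕ)) (fun i => i.prime) (fun i => i.not_dvd_mul)
    (fun i x => H54.X_smul_high W N q p i x) (fun i => W.apOfModel i.1) (H54.nIdeal W N q p)
    (H54.natCast_mem_nIdeal W N q p)
    (fun i => (H59.X_sub_C_mem_evalIdeal_iff p _ i _).mpr rfl) K hK hU

end Fermat.Agent.S41.H50
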