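import Mathlib
import Fermat.Agent.S41.IsectDef_helper11

/-!
# S41, node (C), intersection route, leaf I2 (helper45): the two finiteness lemmas

* `fin2` : for an integer matrix `α` of nonzero determinant and `d ≠ 0` there are only finitely
  many pairs `(u, w)` of integer vectors with `det2 u w = d` for which the signs of
  `bform (α u) (α w)` and `bform u w` differ.
* `fin3` : for `d₁ d₂ d₃ ≠ 0` there are only finitely many triples `(u, w, v)` with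
  `det2 u w = d₁`, `det2 w v = d₂`, `det2 v u = d₃` for which
  `sg u w + sg w v + sg v u ≠ - sign (d₁ d₂ d₃)`.

Both are proved with explicit bounds: `bform u w ^ 2 ≤ 27 M² d²` in the first case
(`M` the sum of the squares of the entries of `α`), and `bform t t ≤ 6 (d₁ d₂ d₃)²` for the three
vectors in the second.
-/

set_option autoImplicit false

namespace Fermat.Agent.S41.H45

open Matrix

/-- The hexagonal form in coordinates. -/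
def bf4 (p0 p1 q0 q1 : ℤ) : ℤ := 2 * p0 * q0 + p0 * q1 + p1 * q0 + 2 * p1 * q1

theorem bform_eq_bf4 (u w : Fin 2 → ℤ) : H11.bform u w = bf4 (u 0) (u 1) (w 0) (w 1) := rfl

theorem det2_eq (u w : Fin 2 → ℤ) : H11.det2 u w = u 0 * w 1 - u 1 * w 0 := rfl

theorem mulVec_zero_eq (α : Matrix (Fin 2) (Fin 2) ℤ) (u : Fin 2 → ℤ) :
    (α *ᵥ u) 0 = α 0 0 * u 0 + α 0 1 * u 1 := by
  simp [Matrix.mulVec, dotProduct, Fin.sum_univ_two]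

theorem mulVec_one_eq (α : Matrix (Fin 2) (Fin 2) ℤ) (u : Fin 2 → ℤ) :
    (α *ᵥ u) 1 = α 1 0 * u 0 + α 1 1 * u 1 := by
  simp [Matrix.mulVec, dotProduct, Fin.sum_univ_two]

/-- `B(u, u) = u₀² + u₁² + (u₀ + u₁)²`. -/
theorem bf4_self (p q : ℤ) : bf4 p q p q = p ^ 2 + q ^ 2 + (p + q) ^ 2 := by
  unfold bf4; ring

theorem bf4_self_nonneg (p q : ℤ) : 0 ≤ bf4 p q p q := by
  rw [bf4_self]; positivity

theorem sq_le_bf4_self_left (p q : ℤ) : p ^ 2 ≤ bf4 p q p q := by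
  rw [bf4_self]; nlinarith [sq_nonneg q, sq_nonneg (p + q)]

theorem sq_le_bf4_self_right (p q : ℤ) : q ^ 2 ≤ bf4 p q p q := by
  rw [bf4_self]; nlinarith [sq_nonneg p, sq_nonneg (p + q)]

/-- Lagrange's identity for the hexagonal form. -/
theorem bf4_lagrange (p0 p1 q0 q1 : ℤ) :
    bf4 p0 p1 p0 p1 * bf4 q0 q1 q0 q1 - bf4 p0 p1 q0 q1 ^ 2 = 3 * (p0 * q1 - p1 * q0) ^ 2 := by
  unfold bf4; ring

theorem lagrange (u w : Fin 2 → ℤ) :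
    H11.bform u u * H11.bform w w - H11.bform u w ^ 2 = 3 * H11.det2 u w ^ 2 := by
  simp only [bform_eq_bf4, det2_eq]
  exact bf4_lagrange _ _ _ _

theorem bf4_self_pos {p q : ℤ} (h : p ≠ 0 ∨ q ≠ 0) : 0 < bf4 p q p q := by
  rw [bf4_self]
  rcases h with h | h
  · have := pow_pos (abs_pos.2 h) 2
    rw [sq_abs] at this
    nlinarith [sq_nonneg q, sq_nonneg (p + q)]
  · have := pow_pos (abs_pos.2 h) 2
    rw [sq_abs] at this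
    nlinarith [sq_nonneg p, sq_nonneg (p + q)]

/-- A vector with a nonzero determinant against something is nonzero. -/
theorem ne_zero_of_det_left {p0 p1 q0 q1 : ℤ} (h : p0 * q1 - p1 * q0 ≠ 0) : p0 ≠ 0 ∨ p1 ≠ 0 := by
  by_contra hc
  push Not at hc
  apply h
  rw [hc.1, hc.2]; ring

theorem ne_zero_of_det_right {p0 p1 q0 q1 : ℤ} (h : p0 * q1 - p1 * q0 ≠ 0) : q0 ≠ 0 ∨ q1 ≠ 0 := by
  by_contra hc
  push Not at hc
  apply h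
  rw [hc.1, hc.2]; ring

theorem abs_le_of_sq_le {x b : ℤ} (h : x ^ 2 ≤ b) : -b ≤ x ∧ x ≤ b := by
  have h1 : |x| ≤ x ^ 2 := by
    rw [← sq_abs]
    have := abs_nonneg x
    nlinarith [sq_nonneg (|x| - 1), Int.emod_emod_of_dvd x (dvd_refl 1)]
  have h2 : |x| ≤ b := le_trans h1 h
  exact abs_le.1 h2

/-- Vectors of bounded norm form a finite set. -/
theorem finite_bform_le (b : ℤ) : {u : Fin 2 → ℤ | H11.bform u u ≤ b}.Finite := by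
  apply Set.Finite.subset (Set.finite_Icc (fun _ => -b : Fin 2 → ℤ) (fun _ => b))
  intro u hu
  change H11.bform u u ≤ b at hu
  rw [bform_eq_bf4] at hu
  have h0 := abs_le_of_sq_le (le_trans (sq_le_bf4_self_left (u 0) (u 1)) hu)
  have h1 := abs_le_of_sq_le (le_trans (sq_le_bf4_self_right (u 0) (u 1)) hu)
  rw [Set.mem_Icc]
  constructor
  · intro i
    fin_cases i
    · exact h0.1
    · exact h1.1
  · intro i
    fin_cases i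
    · exact h0.2
    · exact h1.2

/-! ### `fin2` -/

theorem cs2 (a b p q : ℤ) : (a * p + b * q) ^ 2 ≤ (a ^ 2 + b ^ 2) * (p ^ 2 + q ^ 2) := by
  nlinarith [sq_nonneg (a * q - b * p)]

/-- The sign argument: `P * C = B * N + Z` with `P, N > 0` and `sign C ≠ sign B` forces
`|B N| ≤ |Z|`. -/
theorem sq_le_sq_of_sign_ne {P N Bv Cv Z : ℤ} (hP : 0 < P) (hN : 0 < N)
    (h : P * Cv = Bv * N + Z) (hs : Int.sign Cv ≠ Int.sign Bv) : (Bv * N) ^ 2 ≤ Z ^ 2 := by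
  rcases lt_trichotomy Bv 0 with hB | hB | hB
  · have hC : 0 ≤ Cv := by
      by_contra hc
      push Not at hc
      exact hs (by rw [Int.sign_eq_neg_one_of_neg hc, Int.sign_eq_neg_one_of_neg hB])
    have h0 : 0 ≤ -(Bv * N) := by nlinarith
    have hZ : -(Bv * N) ≤ Z := by nlinarith [mul_nonneg hP.le hC]
    calc (Bv * N) ^ 2 = (-(Bv * N)) ^ 2 := by ring
      _ ≤ Z ^ 2 := pow_le_pow_left₀ h0 hZ 2
  · rw [hB, zero_mul]
    nlinarith [sq_nonneg Z]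
  · have hC : Cv ≤ 0 := by
      by_contra hc
      push Not at hc
      exact hs (by rw [Int.sign_eq_one_of_pos hc, Int.sign_eq_one_of_pos hB])
    have h0 : 0 ≤ Bv * N := by nlinarith
    have hZ : Bv * N ≤ -Z := by nlinarith [mul_nonneg hP.le (neg_nonneg.2 hC)]
    calc (Bv * N) ^ 2 ≤ (-Z) ^ 2 := pow_le_pow_left₀ h0 hZ 2
      _ = Z ^ 2 := by ring

/-- Norm comparison: `C(u', u') ≤ 27 M² C(u, u)` for `u' = (-u₀ - 2u₁, 2u₀ + u₁)` and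
`C = B ∘ α`. -/
theorem bound_core (a b c e u0 u1 : ℤ) (hD : a * e - b * c ≠ 0) :
    bf4 (a * (-u0 - 2 * u1) + b * (2 * u0 + u1)) (c * (-u0 - 2 * u1) + e * (2 * u0 + u1))
        (a * (-u0 - 2 * u1) + b * (2 * u0 + u1)) (c * (-u0 - 2 * u1) + e * (2 * u0 + u1))
      ≤ 27 * (a ^ 2 + b ^ 2 + c ^ 2 + e ^ 2) ^ 2
          * bf4 (a * u0 + b * u1) (c * u0 + e * u1) (a * u0 + b * u1) (c * u0 + e * u1) := by
  set M := a ^ 2 + b ^ 2 + c ^ 2 + e ^ 2 with hM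
  set s0 := -u0 - 2 * u1 with hs0
  set s1 := 2 * u0 + u1 with hs1
  set x0 := a * u0 + b * u1 with hx0
  set x1 := c * u0 + e * u1 with hx1
  set z0 := a * s0 + b * s1 with hz0
  set z1 := c * s0 + e * s1 with hz1
  have hM0 : 0 ≤ M := by rw [hM]; positivity
  have h1 : bf4 z0 z1 z0 z1 ≤ 3 * (z0 ^ 2 + z1 ^ 2) := by
    rw [bf4_self]; nlinarith [sq_nonneg (z0 - z1)]
  have h2 : z0 ^ 2 + z1 ^ 2 ≤ M * (s0 ^ 2 + s1 ^ 2) := by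
    have e1 := cs2 a b s0 s1
    have e2 := cs2 c e s0 s1
    have e3 : M * (s0 ^ 2 + s1 ^ 2)
        = (a ^ 2 + b ^ 2) * (s0 ^ 2 + s1 ^ 2) + (c ^ 2 + e ^ 2) * (s0 ^ 2 + s1 ^ 2) := by
      rw [hM]; ring
    rw [e3]
    exact add_le_add e1 e2
  have h3 : s0 ^ 2 + s1 ^ 2 ≤ 9 * (u0 ^ 2 + u1 ^ 2) := by
    rw [hs0, hs1]; nlinarith [sq_nonneg (u0 - u1)]
  have hDsq : 1 ≤ (a * e - b * c) ^ 2 := by
    have := pow_pos (abs_pos.2 hD) 2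
    rw [sq_abs] at this
    linarith
  have h4 : (a * e - b * c) ^ 2 * (u0 ^ 2 + u1 ^ 2) ≤ M * (x0 ^ 2 + x1 ^ 2) := by
    have e1 := cs2 e (-b) x0 x1
    have e2 := cs2 (-c) a x0 x1
    have e3 : (a * e - b * c) ^ 2 * (u0 ^ 2 + u1 ^ 2)
        = (e * x0 + -b * x1) ^ 2 + (-c * x0 + a * x1) ^ 2 := by
      rw [hx0, hx1]; ring
    have e4 : M * (x0 ^ 2 + x1 ^ 2)
        = (e ^ 2 + (-b) ^ 2) * (x0 ^ 2 + x1 ^ 2) + ((-c) ^ 2 + a ^ 2) * (x0 ^ 2 + x1 ^ 2) := by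
      rw [hM]; ring
    rw [e3, e4]
    exact add_le_add e1 e2
  have h5 : u0 ^ 2 + u1 ^ 2 ≤ (a * e - b * c) ^ 2 * (u0 ^ 2 + u1 ^ 2) := by
    nlinarith [sq_nonneg u0, sq_nonneg u1]
  have h6 : x0 ^ 2 + x1 ^ 2 ≤ bf4 x0 x1 x0 x1 := by
    rw [bf4_self]; nlinarith [sq_nonneg (x0 + x1)]
  calc bf4 z0 z1 z0 z1 ≤ 3 * (z0 ^ 2 + z1 ^ 2) := h1
    _ ≤ 3 * (M * (s0 ^ 2 + s1 ^ 2)) := by gcongr
    _ ≤ 3 * (M * (9 * (u0 ^ 2 + u1 ^ 2))) := by gcongr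
    _ ≤ 3 * (M * (9 * ((a * e - b * c) ^ 2 * (u0 ^ 2 + u1 ^ 2)))) := by gcongr
    _ ≤ 3 * (M * (9 * (M * (x0 ^ 2 + x1 ^ 2)))) := by gcongr
    _ ≤ 3 * (M * (9 * (M * bf4 x0 x1 x0 x1))) := by gcongr
    _ = 27 * M ^ 2 * bf4 x0 x1 x0 x1 := by ring

/-- The scalar core of `fin2`. -/
theorem fin2_core (a b c e u0 u1 w0 w1 : ℤ) (hD : a * e - b * c ≠ 0)
    (hd : u0 * w1 - u1 * w0 ≠ 0)
    (hs : Int.sign (bf4 (a * u0 + b * u1) (c * u0 + e * u1) (a * w0 + b * w1) (c * w0 + e * w1))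
      ≠ Int.sign (bf4 u0 u1 w0 w1)) :
    bf4 u0 u1 w0 w1 ^ 2 ≤ 27 * (a ^ 2 + b ^ 2 + c ^ 2 + e ^ 2) ^ 2 * (u0 * w1 - u1 * w0) ^ 2 := by
  set M := a ^ 2 + b ^ 2 + c ^ 2 + e ^ 2 with hM
  set x0 := a * u0 + b * u1 with hx0
  set x1 := c * u0 + e * u1 with hx1
  set y0 := a * w0 + b * w1 with hy0
  set y1 := c * w0 + e * w1 with hy1
  set z0 := a * (-u0 - 2 * u1) + b * (2 * u0 + u1) with hz0
  set z1 := c * (-u0 - 2 * u1) + e * (2 * u0 + u1) with hz1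
  set d := u0 * w1 - u1 * w0 with hdd
  have hu : u0 ≠ 0 ∨ u1 ≠ 0 := ne_zero_of_det_left hd
  have hQu : 0 < bf4 u0 u1 u0 u1 := bf4_self_pos hu
  -- `α u ≠ 0`
  have hx : x0 ≠ 0 ∨ x1 ≠ 0 := by
    by_contra hc
    push Not at hc
    have e1 : (a * e - b * c) * u0 = e * x0 - b * x1 := by rw [hx0, hx1]; ring
    have e2 : (a * e - b * c) * u1 = -c * x0 + a * x1 := by rw [hx0, hx1]; ring
    rw [hc.1, hc.2] at e1 e2
    simp only [mul_zero, sub_zero, add_zero] at e1 e2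
    rcases hu with h | h
    · exact h ((mul_eq_zero.1 e1).resolve_left hD)
    · exact h ((mul_eq_zero.1 e2).resolve_left hD)
  have hCuu : 0 < bf4 x0 x1 x0 x1 := bf4_self_pos hx
  -- the decomposition `Q(u) C(u, w) = B(u, w) C(u, u) + d C(u, u')`
  have hI : bf4 u0 u1 u0 u1 * bf4 x0 x1 y0 y1
      = bf4 u0 u1 w0 w1 * bf4 x0 x1 x0 x1 + d * bf4 x0 x1 z0 z1 := by
    rw [hx0, hx1, hy0, hy1, hz0, hz1, hdd]; unfold bf4; ring
  have h1 := sq_le_sq_of_sign_ne hQu hCuu hI hs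
  -- Cauchy-Schwarz for `C`
  have hCS : bf4 x0 x1 z0 z1 ^ 2 ≤ bf4 x0 x1 x0 x1 * bf4 z0 z1 z0 z1 := by
    have := bf4_lagrange x0 x1 z0 z1
    nlinarith [sq_nonneg (x0 * z1 - x1 * z0)]
  have hB := bound_core a b c e u0 u1 hD
  rw [← hM, ← hz0, ← hz1, ← hx0, ← hx1] at hB
  have hM2 : 0 ≤ 27 * M ^ 2 := by positivity
  have hd2 : 0 ≤ d ^ 2 := sq_nonneg d
  have h2 : bf4 u0 u1 w0 w1 ^ 2 * bf4 x0 x1 x0 x1 ^ 2
      ≤ 27 * M ^ 2 * d ^ 2 * bf4 x0 x1 x0 x1 ^ 2 := by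
    calc bf4 u0 u1 w0 w1 ^ 2 * bf4 x0 x1 x0 x1 ^ 2 = (bf4 u0 u1 w0 w1 * bf4 x0 x1 x0 x1) ^ 2 := by
          ring
      _ ≤ (d * bf4 x0 x1 z0 z1) ^ 2 := h1
      _ = d ^ 2 * bf4 x0 x1 z0 z1 ^ 2 := by ring
      _ ≤ d ^ 2 * (bf4 x0 x1 x0 x1 * bf4 z0 z1 z0 z1) := by gcongr
      _ ≤ d ^ 2 * (bf4 x0 x1 x0 x1 * (27 * M ^ 2 * bf4 x0 x1 x0 x1)) := by gcongr
      _ = 27 * M ^ 2 * d ^ 2 * bf4 x0 x1 x0 x1 ^ 2 := by ring
  exact le_of_mul_le_mul_right h2 (pow_pos hCuu 2)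

/-- **(FIN2)**. -/
theorem fin2 (α : Matrix (Fin 2) (Fin 2) ℤ) (hα : α.det ≠ 0) (d : ℤ) (hd : d ≠ 0) :
    {p : (Fin 2 → ℤ) × (Fin 2 → ℤ) | H11.det2 p.1 p.2 = d ∧
      Int.sign (H11.bform (α *ᵥ p.1) (α *ᵥ p.2)) ≠ Int.sign (H11.bform p.1 p.2)}.Finite := by
  set M := α 0 0 ^ 2 + α 0 1 ^ 2 + α 1 0 ^ 2 + α 1 1 ^ 2 with hM
  set K := (27 * M ^ 2 + 3) * d ^ 2 with hK
  apply Set.Finite.subset ((finite_bform_le K).prod (finite_bform_le K))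
  rintro ⟨u, w⟩ ⟨hdet, hs⟩
  simp only at hdet hs
  rw [det2_eq] at hdet
  have hD : α 0 0 * α 1 1 - α 0 1 * α 1 0 ≠ 0 := by
    rw [Matrix.det_fin_two] at hα
    exact hα
  have hd' : u 0 * w 1 - u 1 * w 0 ≠ 0 := by rw [hdet]; exact hd
  rw [bform_eq_bf4, bform_eq_bf4, mulVec_zero_eq, mulVec_one_eq, mulVec_zero_eq, mulVec_one_eq] at hs
  have hcore := fin2_core (α 0 0) (α 0 1) (α 1 0) (α 1 1) (u 0) (u 1) (w 0) (w 1) hD hd' hs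
  rw [← hM, hdet] at hcore
  have hL := bf4_lagrange (u 0) (u 1) (w 0) (w 1)
  rw [hdet] at hL
  have hQu : 0 < bf4 (u 0) (u 1) (u 0) (u 1) := bf4_self_pos (ne_zero_of_det_left hd')
  have hQw : 0 < bf4 (w 0) (w 1) (w 0) (w 1) := bf4_self_pos (ne_zero_of_det_right hd')
  have hprod : bf4 (u 0) (u 1) (u 0) (u 1) * bf4 (w 0) (w 1) (w 0) (w 1) ≤ K := by
    rw [hK]; nlinarith
  refine Set.mem_prod.2 ⟨?_, ?_⟩
  · show H11.bform u u ≤ K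
    rw [bform_eq_bf4]
    nlinarith
  · show H11.bform w w ≤ K
    rw [bform_eq_bf4]
    nlinarith

/-! ### `fin3` -/

theorem sign_mul_self_of_ne_zero {d : ℤ} (hd : d ≠ 0) : Int.sign d * Int.sign d = 1 := by
  rcases lt_or_gt_of_ne hd with h | h
  · rw [Int.sign_eq_neg_one_of_neg h]; norm_num
  · rw [Int.sign_eq_one_of_pos h]; norm_num

/-- `sign d₁ * sign b = sign (d₁ d₂ d₃) * sign (d₂ d₃ b)`. -/
theorem sign_rewrite {d1 d2 d3 : ℤ} (h2 : d2 ≠ 0) (h3 : d3 ≠ 0) (b : ℤ) :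
    Int.sign d1 * Int.sign b = Int.sign (d1 * d2 * d3) * Int.sign (d2 * d3 * b) := by
  simp only [Int.sign_mul]
  have e2 := sign_mul_self_of_ne_zero h2
  have e3 := sign_mul_self_of_ne_zero h3
  calc Int.sign d1 * Int.sign b
      = Int.sign d1 * Int.sign b * (Int.sign d2 * Int.sign d2) * (Int.sign d3 * Int.sign d3) := by
        rw [e2, e3]; ring
    _ = Int.sign d1 * Int.sign d2 * Int.sign d3 * (Int.sign d2 * Int.sign d3 * Int.sign b) := by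
        ring

/-- Three integers with negative pairwise sums whose signs do not add up to `-1` are all
nonpositive. -/
theorem nonpos_of_sign_sum {y1 y2 y3 sP : ℤ} (h12 : y1 + y2 < 0) (h13 : y1 + y3 < 0)
    (h23 : y2 + y3 < 0)
    (hs : sP * Int.sign y1 + sP * Int.sign y2 + sP * Int.sign y3 ≠ -sP) :
    y1 ≤ 0 ∧ y2 ≤ 0 ∧ y3 ≤ 0 := by
  refine ⟨?_, ?_, ?_⟩
  · by_contra hc
    push Not at hc
    apply hs
    rw [Int.sign_eq_one_of_pos hc, Int.sign_eq_neg_one_of_neg (by linarith : y2 < 0),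
      Int.sign_eq_neg_one_of_neg (by linarith : y3 < 0)]
    ring
  · by_contra hc
    push Not at hc
    apply hs
    rw [Int.sign_eq_one_of_pos hc, Int.sign_eq_neg_one_of_neg (by linarith : y1 < 0),
      Int.sign_eq_neg_one_of_neg (by linarith : y3 < 0)]
    ring
  · by_contra hc
    push Not at hc
    apply hs
    rw [Int.sign_eq_one_of_pos hc, Int.sign_eq_neg_one_of_neg (by linarith : y1 < 0),
      Int.sign_eq_neg_one_of_neg (by linarith : y2 < 0)]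
    ring

/-- Three nonpositive integers with negative pairwise sums and `e₂ = E` are bounded below by
`-E`. -/
theorem neg_le_of_e2 {y1 y2 y3 E : ℤ} (h1 : y1 ≤ 0) (h2 : y2 ≤ 0) (h3 : y3 ≤ 0)
    (h23 : y2 + y3 < 0) (he : y1 * y2 + y1 * y3 + y2 * y3 = E) : -E ≤ y1 := by
  have e1 : 0 ≤ y2 * y3 := mul_nonneg_of_nonpos_of_nonpos h2 h3
  have e2 : 0 ≤ y1 * (y2 + y3 + 1) := mul_nonneg_of_nonpos_of_nonpos h1 (by linarith)
  nlinarith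

/-- The scalar core of `fin3`. -/
theorem fin3_core (u0 u1 w0 w1 v0 v1 : ℤ)
    (h1 : u0 * w1 - u1 * w0 ≠ 0) (h2 : w0 * v1 - w1 * v0 ≠ 0) (h3 : v0 * u1 - v1 * u0 ≠ 0)
    (hs : Int.sign (u0 * w1 - u1 * w0) * Int.sign (bf4 u0 u1 w0 w1)
        + Int.sign (w0 * v1 - w1 * v0) * Int.sign (bf4 w0 w1 v0 v1)
        + Int.sign (v0 * u1 - v1 * u0) * Int.sign (bf4 v0 v1 u0 u1)
      ≠ - Int.sign ((u0 * w1 - u1 * w0) * (w0 * v1 - w1 * v0) * (v0 * u1 - v1 * u0))) :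
    bf4 u0 u1 u0 u1 ≤ 6 * ((u0 * w1 - u1 * w0) * (w0 * v1 - w1 * v0) * (v0 * u1 - v1 * u0)) ^ 2 ∧
    bf4 w0 w1 w0 w1 ≤ 6 * ((u0 * w1 - u1 * w0) * (w0 * v1 - w1 * v0) * (v0 * u1 - v1 * u0)) ^ 2 ∧
    bf4 v0 v1 v0 v1 ≤ 6 * ((u0 * w1 - u1 * w0) * (w0 * v1 - w1 * v0) * (v0 * u1 - v1 * u0)) ^ 2 := by
  obtain ⟨d1, hd1⟩ : ∃ d1, d1 = u0 * w1 - u1 * w0 := ⟨_, rfl⟩
  obtain ⟨d2, hd2⟩ : ∃ d2, d2 = w0 * v1 - w1 * v0 := ⟨_, rfl⟩
  obtain ⟨d3, hd3⟩ : ∃ d3, d3 = v0 * u1 - v1 * u0 := ⟨_, rfl⟩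
  obtain ⟨y1, hy1⟩ : ∃ y1, y1 = d2 * d3 * bf4 u0 u1 w0 w1 := ⟨_, rfl⟩
  obtain ⟨y2, hy2⟩ : ∃ y2, y2 = d1 * d3 * bf4 w0 w1 v0 v1 := ⟨_, rfl⟩
  obtain ⟨y3, hy3⟩ : ∃ y3, y3 = d1 * d2 * bf4 v0 v1 u0 u1 := ⟨_, rfl⟩
  rw [← hd1] at h1
  rw [← hd2] at h2
  rw [← hd3] at h3
  rw [← hd1, ← hd2, ← hd3] at hs ⊢
  have hQu : 0 < bf4 u0 u1 u0 u1 := bf4_self_pos (ne_zero_of_det_left (by rw [← hd1]; exact h1))
  have hQw : 0 < bf4 w0 w1 w0 w1 := bf4_self_pos (ne_zero_of_det_left (by rw [← hd2]; exact h2))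
  have hQv : 0 < bf4 v0 v1 v0 v1 := bf4_self_pos (ne_zero_of_det_left (by rw [← hd3]; exact h3))
  have hd1sq : 1 ≤ d1 ^ 2 := by
    have := pow_pos (abs_pos.2 h1) 2
    rw [sq_abs] at this
    linarith
  have hd2sq : 1 ≤ d2 ^ 2 := by
    have := pow_pos (abs_pos.2 h2) 2
    rw [sq_abs] at this
    linarith
  have hd3sq : 1 ≤ d3 ^ 2 := by
    have := pow_pos (abs_pos.2 h3) 2
    rw [sq_abs] at this
    linarith
  -- the three relations coming from `d₂ u + d₃ w + d₁ v = 0`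
  have e13 : y1 + y3 = -(d2 ^ 2 * bf4 u0 u1 u0 u1) := by
    rw [hy1, hy3, hd1, hd2, hd3]; unfold bf4; ring
  have e12 : y1 + y2 = -(d3 ^ 2 * bf4 w0 w1 w0 w1) := by
    rw [hy1, hy2, hd1, hd2, hd3]; unfold bf4; ring
  have e23 : y2 + y3 = -(d1 ^ 2 * bf4 v0 v1 v0 v1) := by
    rw [hy2, hy3, hd1, hd2, hd3]; unfold bf4; ring
  have hL := bf4_lagrange u0 u1 w0 w1
  rw [← hd1] at hL
  have he2 : y1 * y2 + y1 * y3 + y2 * y3 = 3 * (d1 * d2 * d3) ^ 2 := by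
    have hy1' : y1 ^ 2 = d2 ^ 2 * d3 ^ 2 * bf4 u0 u1 w0 w1 ^ 2 := by rw [hy1]; ring
    linear_combination (y1 + y2) * e13 - d2 ^ 2 * bf4 u0 u1 u0 u1 * e12 + d2 ^ 2 * d3 ^ 2 * hL
      - hy1'
  have n13 : y1 + y3 < 0 := by rw [e13]; nlinarith
  have n12 : y1 + y2 < 0 := by rw [e12]; nlinarith
  have n23 : y2 + y3 < 0 := by rw [e23]; nlinarith
  -- rewrite the sign condition
  have s1 : Int.sign d1 * Int.sign (bf4 u0 u1 w0 w1) = Int.sign (d1 * d2 * d3) * Int.sign y1 := by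
    rw [hy1]; exact sign_rewrite h2 h3 _
  have s2 : Int.sign d2 * Int.sign (bf4 w0 w1 v0 v1) = Int.sign (d1 * d2 * d3) * Int.sign y2 := by
    rw [hy2, show d1 * d2 * d3 = d2 * d1 * d3 by ring]; exact sign_rewrite h1 h3 _
  have s3 : Int.sign d3 * Int.sign (bf4 v0 v1 u0 u1) = Int.sign (d1 * d2 * d3) * Int.sign y3 := by
    rw [hy3, show d1 * d2 * d3 = d3 * d1 * d2 by ring]; exact sign_rewrite h1 h2 _
  rw [s1, s2, s3] at hs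
  obtain ⟨p1, p2, p3⟩ := nonpos_of_sign_sum n12 n13 n23 hs
  have b1 : -(3 * (d1 * d2 * d3) ^ 2) ≤ y1 := neg_le_of_e2 p1 p2 p3 n23 he2
  have b2 : -(3 * (d1 * d2 * d3) ^ 2) ≤ y2 :=
    neg_le_of_e2 p2 p1 p3 n13 (by rw [← he2]; ring)
  have b3 : -(3 * (d1 * d2 * d3) ^ 2) ≤ y3 :=
    neg_le_of_e2 p3 p1 p2 n12 (by rw [← he2]; ring)
  refine ⟨?_, ?_, ?_⟩
  · nlinarith
  · nlinarith
  · nlinarith

/-- **(FIN3)**. -/
theorem fin3 (d₁ d₂ d₃ : ℤ) (h₁ : d₁ ≠ 0) (h₂ : d₂ ≠ 0) (h₃ : d₃ ≠ 0) :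
    {t : (Fin 2 → ℤ) × (Fin 2 → ℤ) × (Fin 2 → ℤ) | H11.det2 t.1 t.2.1 = d₁ ∧
      H11.det2 t.2.1 t.2.2 = d₂ ∧ H11.det2 t.2.2 t.1 = d₃ ∧
      H11.sg t.1 t.2.1 + H11.sg t.2.1 t.2.2 + H11.sg t.2.2 t.1 ≠ - Int.sign (d₁ * d₂ * d₃)}.Finite := by
  apply Set.Finite.subset ((finite_bform_le (6 * (d₁ * d₂ * d₃) ^ 2)).prod
    ((finite_bform_le (6 * (d₁ * d₂ * d₃) ^ 2)).prod (finite_bform_le (6 * (d₁ * d₂ * d₃) ^ 2))))
  rintro ⟨u, w, v⟩ ⟨e1, e2, e3, hs⟩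
  simp only at e1 e2 e3 hs
  subst e1 e2 e3
  simp only [H11.sg, det2_eq, bform_eq_bf4] at hs h₁ h₂ h₃
  have hcore := fin3_core (u 0) (u 1) (w 0) (w 1) (v 0) (v 1) h₁ h₂ h₃ hs
  refine Set.mem_prod.2 ⟨?_, Set.mem_prod.2 ⟨?_, ?_⟩⟩
  · show H11.bform u u ≤ 6 * (H11.det2 u w * H11.det2 w v * H11.det2 v u) ^ 2
    rw [bform_eq_bf4]; exact hcore.1
  · show H11.bform w w ≤ 6 * (H11.det2 u w * H11.det2 w v * H11.det2 v u) ^ 2
    rw [bform_eq_bf4]; exact hcore.2.1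
  · show H11.bform v v ≤ 6 * (H11.det2 u w * H11.det2 w v * H11.det2 v u) ^ 2
    rw [bform_eq_bf4]; exact hcore.2.2

end Fermat.Agent.S41.H45
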