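import Mathlib
import Fermat.Agent.S41.IsectPot_helper4
import Fermat.Agent.S41.IsectFin_helper45

/-!
# S41, node (C), route C-I, leaf I3 (helper4): hypothesis-free forms

The landed `H45.fin2` (leaf I2) discharges `Fin2Stmt`; this file restates (POT a), (POT b),
(POT d) without any hypothesis.
-/

set_option autoImplicit false

namespace Fermat.Agent.S41.H04

open Matrix Fermat.Agent.S41.H11
open scoped MatrixGroups

theorem fin2Stmt : Fin2Stmt := fun α hα d hd => Fermat.Agent.S41.H45.fin2 α hα d hd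

/-- (POT a), closed. -/
theorem sgSL_mul_support_finite' (x : SL(2, ℤ)) :
    {y : SL(2, ℤ) | sgSL (x * y) ≠ sgSL y}.Finite :=
  sgSL_mul_support_finite fin2Stmt x

/-- (POT a), closed: every potential is a finite sum. -/
theorem pot_support_finite' (m : SL(2, ℤ) → ℤ) (x : SL(2, ℤ)) :
    (Function.support fun y : SL(2, ℤ) => m y * (sgSL (x⁻¹ * y) - sgSL y)).Finite :=
  pot_support_finite fin2Stmt m x

/-- (POT b), closed. -/
theorem pot_mul_S' (m : SL(2, ℤ) → ℤ) (x : SL(2, ℤ)) :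
    pot m (x * ModularGroup.S) - pot m x =
      2 * (m (x * ModularGroup.S) + m (-(x * ModularGroup.S)) - m x - m (-x)) :=
  pot_mul_S fin2Stmt m x

/-- (POT d), closed. -/
theorem pot_smul' (m : SL(2, ℤ) → ℤ) (γ x : SL(2, ℤ)) (hm : ∀ y, m (γ * y) = m y) :
    pot m (γ * x) - pot m x = - ∑ᶠ y : SL(2, ℤ), m y * (sgSL (γ * y) - sgSL y) :=
  pot_smul fin2Stmt m γ x hm

/-- (POT d), second half, closed. -/
theorem finsum_avg_mul_eq_isect' (Γ : Subgroup SL(2, ℤ)) (m0 : SL(2, ℤ) → ℤ)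
    (hm0 : (Function.support m0).Finite) (γ : SL(2, ℤ)) :
    ∑ᶠ y : SL(2, ℤ), (∑ᶠ δ : Γ, m0 ((δ : SL(2, ℤ)) * y)) * (sgSL (γ * y) - sgSL y) =
      ∑ᶠ y : SL(2, ℤ), m0 y * isect Γ (y.1 *ᵥ ![1, 0]) (y.1 *ᵥ ![0, 1]) γ :=
  finsum_avg_mul_eq_isect fin2Stmt Γ m0 hm0 γ

/-- (POT d) combined: the potential of the `Γ`-average of a finitely supported `m0` moves under
`γ ∈ Γ` by the `m0`-combination of intersection numbers of Farey edges. -/
theorem pot_avg_smul (Γ : Subgroup SL(2, ℤ)) (m0 : SL(2, ℤ) → ℤ)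
    (hm0 : (Function.support m0).Finite) (γ : Γ) (x : SL(2, ℤ)) :
    pot (fun y => ∑ᶠ δ : Γ, m0 ((δ : SL(2, ℤ)) * y)) ((γ : SL(2, ℤ)) * x) -
        pot (fun y => ∑ᶠ δ : Γ, m0 ((δ : SL(2, ℤ)) * y)) x =
      - ∑ᶠ y : SL(2, ℤ), m0 y * isect Γ (y.1 *ᵥ ![1, 0]) (y.1 *ᵥ ![0, 1]) (γ : SL(2, ℤ)) := by
  rw [pot_smul' _ (γ : SL(2, ℤ)) x, finsum_avg_mul_eq_isect' Γ m0 hm0]
  intro y
  have h3 := finsum_comp_equiv (Equiv.mulRight γ)
    (f := fun δ : Γ => m0 ((δ : SL(2, ℤ)) * y))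
  simp only [Equiv.coe_mulRight, Subgroup.coe_mul, mul_assoc] at h3
  exact h3

end Fermat.Agent.S41.H04
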