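import Mathlib
import Fermat.Prelude.Def_ModularCurve_PeriodMap
import Fermat.Agent.S41.IsectDef_helper11
import Fermat.Agent.S41.Isect_helper11
import Fermat.Agent.S41.IsectClosed_helper11
import Fermat.Agent.S41.IsectPotClosed_helper4

/-!
# S41, node (C), route C-I, leaf I4 (helper12): (PDS)

Every parabolic homomorphism `ψ : Γ → ℤ` on a finite index subgroup `Γ ≤ SL(2, ℤ)` is, up to the
factor `8`, of the form `γ ↦ ipair Γ g γ` for some `g ∈ Γ`.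

The proof follows the team board (#2362): a triangle potential `f` of `ψ`
(`f (γ x) = f x + ψ γ`, right invariant under `ρ = S T`), its edge jumps `m x = f (x S) - f x`,
the identity `pot m + 8 f = const` (from the `S`- and `ρ`-rules of `pot` and the generation of
`SL(2, ℤ)` by `S`, `T`), the unfolding of the `Γ`-average, and the conversion of the boundary-free
chain `∑ m(r) {r e₁, r e₂}` into a loop by means of a cusp potential.

The symbol calculus of `isect` (leaf I1) and the rules of `pot` (leaf I3) enter `pds_core` as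
explicit hypotheses; `pds` plugs in the landed files `IsectClosed_helper11` (I1, I2) and
`IsectPotClosed_helper4` (I3).
-/

set_option autoImplicit false

namespace Fermat.Agent.S41.H12

open Matrix MatrixGroups ModularGroup
open Fermat.Agent.S41.H11

/-! ### Finite right transversals -/

/-- A finite right transversal of `Γ` with its reduction and cofactor maps. -/
structure IsTransv (Γ : Subgroup SL(2, ℤ)) (R : Finset SL(2, ℤ))
    (red cof : SL(2, ℤ) → SL(2, ℤ)) : Prop where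
  red_mem : ∀ y, red y ∈ R
  cof_mem : ∀ y, cof y ∈ Γ
  eq : ∀ y, y = cof y * red y
  uniq : ∀ r ∈ R, ∀ γ ∈ Γ, red (γ * r) = r

theorem exists_isTransv (Γ : Subgroup SL(2, ℤ)) [Γ.FiniteIndex] :
    ∃ (R : Finset SL(2, ℤ)) (red cof : SL(2, ℤ) → SL(2, ℤ)), IsTransv Γ R red cof := by
  classical
  obtain ⟨T', hT', -⟩ := Subgroup.exists_isComplement_right Γ (1 : SL(2, ℤ))
  have hfin : T'.Finite := hT'.finite_right
  refine ⟨hfin.toFinset, fun y => ((hT'.existsUnique y).choose.2 : SL(2, ℤ)),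
    fun y => ((hT'.existsUnique y).choose.1 : SL(2, ℤ)), ?_, ?_, ?_, ?_⟩
  · intro y
    simp only [Set.Finite.mem_toFinset]
    exact (hT'.existsUnique y).choose.2.2
  · intro y
    exact (hT'.existsUnique y).choose.1.2
  · intro y
    exact ((hT'.existsUnique y).choose_spec.1).symm
  · intro r hr γ hγ
    have hr' : r ∈ T' := by simpa using hr
    have h := (hT'.existsUnique (γ * r)).choose_spec.2 (⟨γ, hγ⟩, ⟨r, hr'⟩) rfl
    rw [← h]

namespace IsTransv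

variable {Γ : Subgroup SL(2, ℤ)} {R : Finset SL(2, ℤ)} {red cof : SL(2, ℤ) → SL(2, ℤ)}

theorem red_mul (h : IsTransv Γ R red cof) {γ : SL(2, ℤ)} (hγ : γ ∈ Γ) (y : SL(2, ℤ)) :
    red (γ * y) = red y := by
  have h1 := h.uniq (red y) (h.red_mem y) (γ * cof y) (Γ.mul_mem hγ (h.cof_mem y))
  rw [mul_assoc, ← h.eq y] at h1
  exact h1

theorem red_self (h : IsTransv Γ R red cof) {r : SL(2, ℤ)} (hr : r ∈ R) : red r = r := by
  have := h.uniq r hr 1 Γ.one_mem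
  rwa [one_mul] at this

/-- The sum of a left `Γ`-invariant function over a transversal is invariant under right
translation. -/
theorem sum_mul_right (h : IsTransv Γ R red cof) (F : SL(2, ℤ) → ℤ)
    (hF : ∀ γ ∈ Γ, ∀ y, F (γ * y) = F y) (a : SL(2, ℤ)) :
    ∑ r ∈ R, F (r * a) = ∑ r ∈ R, F r := by
  have key : ∀ (b : SL(2, ℤ)) (r : SL(2, ℤ)), r ∈ R → red (red (r * b) * b⁻¹) = r := by
    intro b r hr
    have h1 : red (r * b) * b⁻¹ = (cof (r * b))⁻¹ * r := by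
      have h2 := h.eq (r * b)
      have h3 : red (r * b) = (cof (r * b))⁻¹ * (r * b) := by
        rw [eq_inv_mul_iff_mul_eq]; exact h2.symm
      rw [h3]; group
    rw [h1, h.red_mul (Γ.inv_mem (h.cof_mem _)), h.red_self hr]
  refine Finset.sum_nbij' (fun r => red (r * a)) (fun r => red (r * a⁻¹))
    (fun r _ => h.red_mem _) (fun r _ => h.red_mem _) (fun r hr => key a r hr)
    (fun r hr => by simpa using key a⁻¹ r hr) ?_
  intro r _
  conv_lhs => rw [h.eq (r * a)]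
  exact hF _ (h.cof_mem _) _

end IsTransv

/-! ### Extension of a character by zero, double coset data and potentials -/

/-- A character of `Γ`, extended by zero to `SL(2, ℤ)`. -/
noncomputable def extZ (Γ : Subgroup SL(2, ℤ)) (ψ : Additive Γ →+ ℤ) (g : SL(2, ℤ)) : ℤ := by
  classical
  exact if h : g ∈ Γ then ψ (Additive.ofMul ⟨g, h⟩) else 0

section extZ

variable {Γ : Subgroup SL(2, ℤ)} (ψ : Additive Γ →+ ℤ)

theorem extZ_mem {g : SL(2, ℤ)} (h : g ∈ Γ) : extZ Γ ψ g = ψ (Additive.ofMul ⟨g, h⟩) := by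
  simp [extZ, h]

theorem extZ_coe (γ : Γ) : extZ Γ ψ (γ : SL(2, ℤ)) = ψ (Additive.ofMul γ) := by
  rw [extZ_mem ψ γ.2]

theorem extZ_mul {g₁ g₂ : SL(2, ℤ)} (h₁ : g₁ ∈ Γ) (h₂ : g₂ ∈ Γ) :
    extZ Γ ψ (g₁ * g₂) = extZ Γ ψ g₁ + extZ Γ ψ g₂ := by
  rw [extZ_mem ψ h₁, extZ_mem ψ h₂, extZ_mem ψ (Γ.mul_mem h₁ h₂), ← map_add]
  rfl

theorem extZ_one : extZ Γ ψ 1 = 0 := by
  have h := extZ_mul ψ Γ.one_mem Γ.one_mem
  rw [mul_one] at h
  linarith

theorem extZ_inv {g : SL(2, ℤ)} (h : g ∈ Γ) : extZ Γ ψ g⁻¹ = - extZ Γ ψ g := by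
  have h1 := extZ_mul ψ h (Γ.inv_mem h)
  rw [mul_inv_cancel, extZ_one] at h1
  linarith

theorem extZ_pow {g : SL(2, ℤ)} (h : g ∈ Γ) (n : ℕ) : extZ Γ ψ (g ^ n) = n * extZ Γ ψ g := by
  induction n with
  | zero => simp [extZ_one]
  | succ k ih =>
    rw [pow_succ, extZ_mul ψ (Γ.pow_mem h k) h, ih]
    push_cast
    ring

end extZ

/-- The double coset relation `y = γ x h`, `γ ∈ Γ`, `h ∈ H`. -/
def dcSetoid (Γ H : Subgroup SL(2, ℤ)) : Setoid SL(2, ℤ) where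
  r x y := ∃ γ ∈ Γ, ∃ h ∈ H, y = γ * x * h
  iseqv :=
    ⟨fun x => ⟨1, Γ.one_mem, 1, H.one_mem, by simp⟩,
     fun {x y} ⟨γ, hγ, h, hh, e⟩ => ⟨γ⁻¹, Γ.inv_mem hγ, h⁻¹, H.inv_mem hh, by rw [e]; group⟩,
     fun {x y z} ⟨γ, hγ, h, hh, e⟩ ⟨γ', hγ', h', hh', e'⟩ =>
       ⟨γ' * γ, Γ.mul_mem hγ' hγ, h * h', H.mul_mem hh hh', by rw [e', e]; group⟩⟩

/-- Double coset data: a representative `rep y` of `Γ y H` and a cofactor `dc y ∈ Γ`. -/
structure IsDcData (Γ H : Subgroup SL(2, ℤ)) (rep dc : SL(2, ℤ) → SL(2, ℤ)) : Prop where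
  dc_mem : ∀ y, dc y ∈ Γ
  eq : ∀ y, ∃ h ∈ H, y = dc y * rep y * h
  rep_eq : ∀ y, ∀ γ ∈ Γ, ∀ h ∈ H, rep (γ * y * h) = rep y

theorem exists_isDcData (Γ H : Subgroup SL(2, ℤ)) :
    ∃ rep dc : SL(2, ℤ) → SL(2, ℤ), IsDcData Γ H rep dc := by
  classical
  let s := dcSetoid Γ H
  have hout : ∀ y : SL(2, ℤ), ∃ γ ∈ Γ, ∃ h ∈ H, y = γ * (Quotient.mk s y).out * h :=
    fun y => Quotient.mk_out (s := s) y
  refine ⟨fun y => (Quotient.mk s y).out, fun y => (hout y).choose, ?_, ?_, ?_⟩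
  · intro y
    exact (hout y).choose_spec.1
  · intro y
    exact (hout y).choose_spec.2
  · intro y γ hγ h hh
    have : Quotient.mk s (γ * y * h) = Quotient.mk s y := by
      apply Quotient.sound
      exact ⟨γ⁻¹, Γ.inv_mem hγ, h⁻¹, H.inv_mem hh, by group⟩
    show (Quotient.mk s (γ * y * h)).out = (Quotient.mk s y).out
    rw [this]

section potential

variable {Γ H : Subgroup SL(2, ℤ)} (ψ : Additive Γ →+ ℤ)
  (hkill : ∀ r h : SL(2, ℤ), h ∈ H → r * h * r⁻¹ ∈ Γ → extZ Γ ψ (r * h * r⁻¹) = 0)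

include hkill in
theorem extZ_eq_of_dc {γ₁ γ₂ r h₁ h₂ : SL(2, ℤ)} (hγ₁ : γ₁ ∈ Γ) (hγ₂ : γ₂ ∈ Γ) (hh₁ : h₁ ∈ H)
    (hh₂ : h₂ ∈ H) (e : γ₁ * r * h₁ = γ₂ * r * h₂) : extZ Γ ψ γ₁ = extZ Γ ψ γ₂ := by
  have h1 : γ₁ = γ₂ * r * h₂ * h₁⁻¹ * r⁻¹ := by rw [← e]; group
  have key : r * (h₂ * h₁⁻¹) * r⁻¹ = γ₂⁻¹ * γ₁ := by rw [h1]; group
  have hm : r * (h₂ * h₁⁻¹) * r⁻¹ ∈ Γ := by
    rw [key]; exact Γ.mul_mem (Γ.inv_mem hγ₂) hγ₁
  have h0 := hkill r (h₂ * h₁⁻¹) (H.mul_mem hh₂ (H.inv_mem hh₁)) hm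
  have h2 : γ₁ = γ₂ * (r * (h₂ * h₁⁻¹) * r⁻¹) := by rw [key]; group
  rw [h2, extZ_mul ψ hγ₂ hm, h0, add_zero]

include hkill in
/-- The potential `y ↦ ψ (dc y)` attached to double coset data. -/
theorem potential_of_dcData {rep dc : SL(2, ℤ) → SL(2, ℤ)} (hd : IsDcData Γ H rep dc) :
    (∀ γ ∈ Γ, ∀ y, extZ Γ ψ (dc (γ * y)) = extZ Γ ψ (dc y) + extZ Γ ψ γ) ∧
      (∀ h ∈ H, ∀ y, extZ Γ ψ (dc (y * h)) = extZ Γ ψ (dc y)) := by
  constructor
  · intro γ hγ y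
    obtain ⟨h, hh, e⟩ := hd.eq y
    obtain ⟨h', hh', e'⟩ := hd.eq (γ * y)
    have hrep : rep (γ * y) = rep y := by
      have := hd.rep_eq y γ hγ 1 H.one_mem
      rwa [mul_one] at this
    have e2 : dc (γ * y) * rep y * h' = (γ * dc y) * rep y * h := by
      rw [hrep] at e'
      calc dc (γ * y) * rep y * h' = γ * y := e'.symm
        _ = γ * (dc y * rep y * h) := by rw [← e]
        _ = (γ * dc y) * rep y * h := by group
    rw [extZ_eq_of_dc ψ hkill (hd.dc_mem _) (Γ.mul_mem hγ (hd.dc_mem y)) hh' hh e2,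
      extZ_mul ψ hγ (hd.dc_mem y)]
    ring
  · intro h0 hh0 y
    obtain ⟨h, hh, e⟩ := hd.eq y
    obtain ⟨h', hh', e'⟩ := hd.eq (y * h0)
    have hrep : rep (y * h0) = rep y := by
      have := hd.rep_eq y 1 Γ.one_mem h0 hh0
      rwa [one_mul] at this
    have e2 : dc (y * h0) * rep y * h' = dc y * rep y * (h * h0) := by
      rw [hrep] at e'
      calc dc (y * h0) * rep y * h' = y * h0 := e'.symm
        _ = (dc y * rep y * h) * h0 := by rw [← e]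
        _ = dc y * rep y * (h * h0) := by group
    exact extZ_eq_of_dc ψ hkill (hd.dc_mem _) (hd.dc_mem y) hh' (H.mul_mem hh hh0) e2

end potential

/-! ### The two subgroups: `⟨ρ⟩` and the upper triangular matrices -/

theorem rho_pow_six : ((S * T) ^ 6 : SL(2, ℤ)) = 1 := by decide

theorem rho_pow_three : ((S * T) ^ 3 : SL(2, ℤ)) = -1 := by decide

theorem S_mul_S : (S * S : SL(2, ℤ)) = -1 := by decide

theorem kill_rho {Γ : Subgroup SL(2, ℤ)} (ψ : Additive Γ →+ ℤ) (r h : SL(2, ℤ))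
    (hh : h ∈ Subgroup.zpowers (S * T)) (hm : r * h * r⁻¹ ∈ Γ) :
    extZ Γ ψ (r * h * r⁻¹) = 0 := by
  obtain ⟨k, rfl⟩ := Subgroup.mem_zpowers_iff.mp hh
  have h6' : (((S * T : SL(2, ℤ)) ^ k) ^ 6 : SL(2, ℤ)) = 1 := by
    rw [← zpow_natCast, ← _root_.zpow_mul, mul_comm, _root_.zpow_mul, zpow_natCast, rho_pow_six,
      _root_.one_zpow]
  have h6 : (r * (S * T) ^ k * r⁻¹) ^ 6 = 1 := by
    rw [conj_pow, h6']
    simp
  have h1 := extZ_pow ψ hm 6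
  rw [h6, extZ_one] at h1
  have : (6 : ℤ) * extZ Γ ψ (r * (S * T) ^ k * r⁻¹) = 0 := by
    rw [h1]; norm_num
  omega

/-- The upper triangular subgroup `{± T ^ n}` of `SL(2, ℤ)`. -/
def upperTri : Subgroup SL(2, ℤ) where
  carrier := {h | h 1 0 = 0}
  mul_mem' := by
    intro a b ha hb
    have ha' : a.1 1 0 = 0 := ha
    have hb' : b.1 1 0 = 0 := hb
    show (a * b).1 1 0 = 0
    rw [Matrix.SpecialLinearGroup.coe_mul, Matrix.mul_apply, Fin.sum_univ_two, ha', hb']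
    simp
  one_mem' := by
    show (1 : SL(2, ℤ)).1 1 0 = 0
    simp
  inv_mem' := by
    intro a ha
    have ha' : a.1 1 0 = 0 := ha
    show (a⁻¹).1 1 0 = 0
    rw [Matrix.SpecialLinearGroup.coe_inv, Matrix.adjugate_fin_two]
    simp [ha']

theorem mem_upperTri {h : SL(2, ℤ)} : h ∈ upperTri ↔ h 1 0 = 0 := Iff.rfl

theorem T_mem_upperTri : T ∈ upperTri := by
  rw [mem_upperTri, ModularGroup.coe_T]; rfl

theorem diag_of_mem_upperTri {h : SL(2, ℤ)} (hh : h ∈ upperTri) :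
    (h 0 0 = 1 ∧ h 1 1 = 1) ∨ (h 0 0 = -1 ∧ h 1 1 = -1) := by
  have hdet : h.1 0 0 * h.1 1 1 - h.1 0 1 * h.1 1 0 = 1 := by
    have := h.2
    rw [Matrix.det_fin_two] at this
    exact this
  have h10 : h.1 1 0 = 0 := hh
  rw [h10, mul_zero, sub_zero] at hdet
  exact Int.mul_eq_one_iff_eq_one_or_neg_one.mp hdet

theorem kill_upperTri {Γ : Subgroup SL(2, ℤ)} (ψ : Additive Γ →+ ℤ)
    (hψ : ModularCurve.Period.IsParabolicHom Γ ψ) (r h : SL(2, ℤ)) (hh : h ∈ upperTri)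
    (hm : r * h * r⁻¹ ∈ Γ) : extZ Γ ψ (r * h * r⁻¹) = 0 := by
  rw [extZ_mem ψ hm]
  apply hψ ⟨r * h * r⁻¹, hm⟩
  have htr : ((r * h * r⁻¹ : SL(2, ℤ)) : Matrix (Fin 2) (Fin 2) ℤ).trace = h.1.trace := by
    rw [Matrix.SpecialLinearGroup.coe_mul, Matrix.trace_mul_comm, ← Matrix.SpecialLinearGroup.coe_mul]
    simp
  show ((r * h * r⁻¹ : SL(2, ℤ)) : Matrix (Fin 2) (Fin 2) ℤ).trace ^ 2 = 4
  rw [htr, Matrix.trace_fin_two]
  rcases diag_of_mem_upperTri hh with ⟨h0, h1⟩ | ⟨h0, h1⟩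
  · have e0 : h.1 0 0 = 1 := h0
    have e1 : h.1 1 1 = 1 := h1
    rw [e0, e1]; norm_num
  · have e0 : h.1 0 0 = -1 := h0
    have e1 : h.1 1 1 = -1 := h1
    rw [e0, e1]; norm_num

/-! ### Generation -/

theorem const_of_S_rho (c : SL(2, ℤ) → ℤ) (hS : ∀ x, c (x * S) = c x)
    (hρ : ∀ x, c (x * (S * T)) = c x) : ∀ x, c x = c 1 := by
  let K : Subgroup SL(2, ℤ) :=
    { carrier := {a | ∀ x, c (x * a) = c x}
      mul_mem' := by
        intro a b ha hb x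
        rw [← mul_assoc, hb, ha]
      one_mem' := by intro x; rw [mul_one]
      inv_mem' := by
        intro a ha x
        have := ha (x * a⁻¹)
        rw [inv_mul_cancel_right] at this
        exact this.symm }
  have hSK : S ∈ K := hS
  have hTK : T ∈ K := by
    have h1 : (S * T) ∈ K := hρ
    have h2 : T = S⁻¹ * (S * T) := by group
    rw [h2]
    exact K.mul_mem (K.inv_mem hSK) h1
  have htop : K = ⊤ := by
    rw [eq_top_iff, ← SpecialLinearGroup.SL2Z_generators, Subgroup.closure_le]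
    rintro a (rfl | rfl)
    · exact hSK
    · exact hTK
  intro x
  have hx : x ∈ K := by rw [htop]; trivial
  have := hx 1
  rwa [one_mul] at this

/-! ### The edge jumps of a triangle potential -/

section jumps

variable {Γ : Subgroup SL(2, ℤ)} (ψ : Additive Γ →+ ℤ) (f : SL(2, ℤ) → ℤ)
  (hf1 : ∀ γ ∈ Γ, ∀ y, f (γ * y) = f y + extZ Γ ψ γ)
  (hf2 : ∀ h ∈ Subgroup.zpowers (S * T), ∀ y, f (y * h) = f y)

include hf2 in
theorem pot_f_neg (x : SL(2, ℤ)) : f (-x) = f x := by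
  have h : (-1 : SL(2, ℤ)) ∈ Subgroup.zpowers (S * T) :=
    ⟨3, by
      show (S * T : SL(2, ℤ)) ^ (3 : ℤ) = -1
      exact_mod_cast rho_pow_three⟩
  have := hf2 (-1) h x
  rwa [mul_neg, mul_one] at this

include hf2 in
theorem pot_f_T (x : SL(2, ℤ)) : f (x * T) = f (x * S) := by
  have h : ((S * T : SL(2, ℤ)) ^ 4) ∈ Subgroup.zpowers (S * T) :=
    ⟨4, by
      show (S * T : SL(2, ℤ)) ^ (4 : ℤ) = (S * T) ^ 4
      exact_mod_cast rfl⟩
  have h1 := hf2 _ h (x * S)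
  have h2 : (S * (S * T) ^ 4 : SL(2, ℤ)) = T := by decide
  rw [mul_assoc, h2] at h1
  exact h1

include hf1 in
theorem jump_left {γ : SL(2, ℤ)} (hγ : γ ∈ Γ) (y : SL(2, ℤ)) :
    f (γ * y * S) - f (γ * y) = f (y * S) - f y := by
  rw [mul_assoc, hf1 γ hγ, hf1 γ hγ]
  ring

include hf2 in
theorem jump_neg (x : SL(2, ℤ)) : f (-x * S) - f (-x) = f (x * S) - f x := by
  rw [neg_mul, pot_f_neg f hf2, pot_f_neg f hf2]

include hf2 in
theorem jump_S (x : SL(2, ℤ)) : f (x * S * S) - f (x * S) = -(f (x * S) - f x) := by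
  rw [mul_assoc, S_mul_S, mul_neg, mul_one, pot_f_neg f hf2]
  ring

include hf1 hf2 in
/-- `∑ m(y) (sgSL (γ y) - sgSL y) = 8 ψ(γ)` for the jumps `m` of a triangle potential. -/
theorem sum_jump_eq
    (hS : ∀ (m : SL(2, ℤ) → ℤ) (x : SL(2, ℤ)),
      pot m (x * S) - pot m x = 2 * (m (x * S) + m (-(x * S)) - m x - m (-x)))
    (hρ : ∀ (m : SL(2, ℤ) → ℤ) (x : SL(2, ℤ)), pot m (x * (S * T)) = pot m x)
    (hsm : ∀ (m : SL(2, ℤ) → ℤ), (∀ δ ∈ Γ, ∀ y, m (δ * y) = m y) → ∀ γ ∈ Γ,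
      pot m γ - pot m 1 = - ∑ᶠ y : SL(2, ℤ), m y * (sgSL (γ * y) - sgSL y))
    {γ : SL(2, ℤ)} (hγ : γ ∈ Γ) :
    ∑ᶠ y : SL(2, ℤ), (f (y * S) - f y) * (sgSL (γ * y) - sgSL y) = 8 * extZ Γ ψ γ := by
  set m : SL(2, ℤ) → ℤ := fun x => f (x * S) - f x with hm
  have hmS : ∀ x, m (x * S) = - m x := fun x => jump_S f hf2 x
  have hmneg : ∀ x, m (-x) = m x := fun x => jump_neg f hf2 x
  have hmleft : ∀ δ ∈ Γ, ∀ y, m (δ * y) = m y := fun δ hδ y => jump_left ψ f hf1 hδ y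
  have hc := const_of_S_rho (fun x => pot m x + 8 * f x)
    (by
      intro x
      have h1 := hS m x
      rw [hmneg (x * S), hmS x, hmneg x] at h1
      have h2 : m x = f (x * S) - f x := rfl
      show pot m (x * S) + 8 * f (x * S) = pot m x + 8 * f x
      linarith)
    (by
      intro x
      show pot m (x * (S * T)) + 8 * f (x * (S * T)) = pot m x + 8 * f x
      rw [hρ m x, hf2 _ (Subgroup.mem_zpowers _) x])
  have h3 : pot m γ + 8 * f γ = pot m 1 + 8 * f 1 := hc γ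
  have h4 := hsm m hmleft γ hγ
  have h5 := hf1 γ hγ 1
  rw [mul_one] at h5
  linarith

end jumps

/-! ### Unfolding the `Γ`-average -/

theorem unfold_avg {Γ : Subgroup SL(2, ℤ)} {R : Finset SL(2, ℤ)}
    {red cof : SL(2, ℤ) → SL(2, ℤ)} (hR : IsTransv Γ R red cof) (m : SL(2, ℤ) → ℤ)
    (hm : ∀ δ ∈ Γ, ∀ y, m (δ * y) = m y) [DecidablePred (· ∈ R)] :
    (Function.support fun y => if y ∈ R then m y else 0).Finite ∧
      (∀ y, ∑ᶠ δ : Γ, (if (δ : SL(2, ℤ)) * y ∈ R then m ((δ : SL(2, ℤ)) * y) else 0) = m y) ∧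
      ∀ G : SL(2, ℤ) → ℤ,
        ∑ᶠ y : SL(2, ℤ), (if y ∈ R then m y else 0) * G y = ∑ r ∈ R, m r * G r := by
  refine ⟨?_, ?_, ?_⟩
  · apply Set.Finite.subset R.finite_toSet
    intro y hy
    by_contra hyR
    have hyR' : y ∉ R := fun h => hyR (Finset.mem_coe.mpr h)
    exact hy (if_neg hyR')
  · intro y
    have hinv : (cof y)⁻¹ * y = red y := by
      rw [inv_mul_eq_iff_eq_mul]
      exact hR.eq y
    rw [finsum_eq_single _ (⟨(cof y)⁻¹, Γ.inv_mem (hR.cof_mem y)⟩ : Γ)]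
    · show (if (cof y)⁻¹ * y ∈ R then m ((cof y)⁻¹ * y) else 0) = m y
      rw [hinv, if_pos (hR.red_mem y)]
      conv_rhs => rw [hR.eq y]
      exact (hm _ (hR.cof_mem y) _).symm
    · intro δ hδ
      apply if_neg
      intro hmem
      apply hδ
      have h1 := hR.uniq _ hmem (δ : SL(2, ℤ))⁻¹ (Γ.inv_mem δ.2)
      rw [inv_mul_cancel_left] at h1
      apply Subtype.ext
      show (δ : SL(2, ℤ)) = (cof y)⁻¹
      have h2 : (δ : SL(2, ℤ)) * y = (cof y)⁻¹ * y := by rw [hinv, h1]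
      exact mul_right_cancel h2
  · intro G
    rw [finsum_eq_sum_of_support_subset (s := R)]
    · apply Finset.sum_congr rfl
      intro r hr
      rw [if_pos hr]
    · intro y hy
      by_contra hyR
      apply hy
      have hyR' : y ∉ R := fun h => hyR (Finset.mem_coe.mpr h)
      show (if y ∈ R then m y else 0) * G y = 0
      rw [if_neg hyR', zero_mul]

/-! ### The cusp potential of a symbol function -/

section symbol

variable {Γ : Subgroup SL(2, ℤ)} (F : (Fin 2 → ℤ) → (Fin 2 → ℤ) → ℤ)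
  (hA : ∀ u w, F w u = - F u w) (hB : ∀ u w, F (-u) w = F u w)
  (hC : ∀ u w v : Fin 2 → ℤ, u ≠ 0 → w ≠ 0 → v ≠ 0 → F u w + F w v + F v u = 0)
  (hD : ∀ δ ∈ Γ, ∀ u w : Fin 2 → ℤ,
    F ((δ : SL(2, ℤ)).1 *ᵥ u) ((δ : SL(2, ℤ)).1 *ᵥ w) = F u w)

include hA in
theorem sym_self (u : Fin 2 → ℤ) : F u u = 0 := by
  have := hA u u
  omega

include hA hC in
theorem sym_diff {u w : Fin 2 → ℤ} (hu : u ≠ 0) (hw : w ≠ 0) :
    F u w = F ![1, 0] w - F ![1, 0] u := by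
  have h := hC ![1, 0] u w e1_ne_zero hu hw
  have h' := hA ![1, 0] w
  linarith

include hA hB in
theorem sym_neg (v : Fin 2 → ℤ) : F ![1, 0] (-v) = F ![1, 0] v := by
  rw [hA (-v) ![1, 0], hB v ![1, 0], hA ![1, 0] v, neg_neg]

theorem mulS_e1 (y : SL(2, ℤ)) : (y * S).1 *ᵥ ![1, 0] = y.1 *ᵥ ![0, 1] := by
  rw [sl_mul_mulVec]
  congr 1
  rw [ModularGroup.coe_S]
  ext i
  fin_cases i <;> simp [Matrix.mulVec, dotProduct, Fin.sum_univ_two]

theorem e2_ne_zero : (![0, 1] : Fin 2 → ℤ) ≠ 0 := by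
  intro h
  have := congrFun h 1
  simp at this

include hA hC in
theorem kappa_S (y : SL(2, ℤ)) :
    F (y.1 *ᵥ ![1, 0]) (y.1 *ᵥ ![0, 1]) =
      F ![1, 0] ((y * S).1 *ᵥ ![1, 0]) - F ![1, 0] (y.1 *ᵥ ![1, 0]) := by
  rw [mulS_e1]
  exact sym_diff F hA hC (sl_mulVec_ne_zero y e1_ne_zero) (sl_mulVec_ne_zero y e2_ne_zero)

include hA hC hD in
theorem kappa_left {δ : SL(2, ℤ)} (hδ : δ ∈ Γ) (y : SL(2, ℤ)) :
    F ![1, 0] ((δ * y).1 *ᵥ ![1, 0]) =
      F ![1, 0] (y.1 *ᵥ ![1, 0]) + F ![1, 0] (δ.1 *ᵥ ![1, 0]) := by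
  have h1 := hD δ hδ ![1, 0] (y.1 *ᵥ ![1, 0])
  have h2 := sym_diff F hA hC (sl_mulVec_ne_zero δ e1_ne_zero)
    (sl_mulVec_ne_zero δ (sl_mulVec_ne_zero y e1_ne_zero))
  rw [sl_mul_mulVec]
  linarith

include hA hB in
theorem kappa_right {h : SL(2, ℤ)} (hh : h ∈ upperTri) (y : SL(2, ℤ)) :
    F ![1, 0] ((y * h).1 *ᵥ ![1, 0]) = F ![1, 0] (y.1 *ᵥ ![1, 0]) := by
  rw [sl_mul_mulVec]
  have h10 : h.1 1 0 = 0 := hh
  rcases diag_of_mem_upperTri hh with ⟨h0, -⟩ | ⟨h0, -⟩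
  · have e : h.1 *ᵥ ![1, 0] = ![1, 0] := by
      have h0' : h.1 0 0 = 1 := h0
      ext i
      fin_cases i <;> simp [Matrix.mulVec, dotProduct, Fin.sum_univ_two, h0', h10]
    rw [e]
  · have e : h.1 *ᵥ ![1, 0] = - ![1, 0] := by
      have h0' : h.1 0 0 = -1 := h0
      ext i
      fin_cases i <;> simp [Matrix.mulVec, dotProduct, Fin.sum_univ_two, h0', h10]
    rw [e, Matrix.mulVec_neg, sym_neg F hA hB]

include hA in
theorem kappa_one : F ![1, 0] ((1 : SL(2, ℤ)).1 *ᵥ ![1, 0]) = 0 := by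
  have : (1 : SL(2, ℤ)).1 *ᵥ (![1, 0] : Fin 2 → ℤ) = ![1, 0] := by simp
  rw [this, sym_self F hA]

end symbol

/-! ### A boundary-free chain pairs to zero with cusp functions -/

theorem boundary_free {Γ : Subgroup SL(2, ℤ)} {R : Finset SL(2, ℤ)}
    {red cof : SL(2, ℤ) → SL(2, ℤ)} (hR : IsTransv Γ R red cof) (ψ : Additive Γ →+ ℤ)
    (f u lam : SL(2, ℤ) → ℤ)
    (hf1 : ∀ γ ∈ Γ, ∀ y, f (γ * y) = f y + extZ Γ ψ γ)
    (hfT : ∀ x, f (x * T) = f (x * S))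
    (hfSS : ∀ x, f (x * S * S) = f x)
    (hu1 : ∀ γ ∈ Γ, ∀ y, u (γ * y) = u y + extZ Γ ψ γ)
    (hu2 : ∀ h ∈ upperTri, ∀ y, u (y * h) = u y)
    (hl1 : ∀ γ ∈ Γ, ∀ y, lam (γ * y) = lam y)
    (hl2 : ∀ h ∈ upperTri, ∀ y, lam (y * h) = lam y) :
    ∑ r ∈ R, (f (r * S) - f r) * (lam (r * S) - lam r) = 0 := by
  -- `h y = m y * lam y`
  have hh : ∑ r ∈ R, (f (r * S * S) - f (r * S)) * lam (r * S) =
      ∑ r ∈ R, (f (r * S) - f r) * lam r :=
    hR.sum_mul_right (fun y => (f (y * S) - f y) * lam y)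
      (by
        intro γ hγ y
        show (f (γ * y * S) - f (γ * y)) * lam (γ * y) = (f (y * S) - f y) * lam y
        rw [mul_assoc, hf1 γ hγ, hf1 γ hγ, hl1 γ hγ]
        ring) S
  have hk : ∑ r ∈ R, (f (r * T) - u (r * T)) * lam (r * T) = ∑ r ∈ R, (f r - u r) * lam r :=
    hR.sum_mul_right (fun y => (f y - u y) * lam y)
      (by
        intro γ hγ y
        show (f (γ * y) - u (γ * y)) * lam (γ * y) = (f y - u y) * lam y
        rw [hf1 γ hγ, hu1 γ hγ, hl1 γ hγ]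
        ring) T
  have hzero : ∑ r ∈ R, (f (r * S) - f r) * lam r = 0 := by
    have e : ∀ r ∈ R, (f (r * S) - f r) * lam r =
        (f (r * T) - u (r * T)) * lam (r * T) - (f r - u r) * lam r := by
      intro r _
      rw [hu2 T T_mem_upperTri, hl2 T T_mem_upperTri, hfT]
      ring
    rw [Finset.sum_congr rfl e, Finset.sum_sub_distrib, hk, sub_self]
  have e2 : ∀ r ∈ R, (f (r * S) - f r) * (lam (r * S) - lam r) =
      -((f (r * S * S) - f (r * S)) * lam (r * S)) - (f (r * S) - f r) * lam r := by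
    intro r _
    rw [hfSS]
    ring
  rw [Finset.sum_congr rfl e2, Finset.sum_sub_distrib, Finset.sum_neg_distrib, hh, hzero]
  ring

/-! ### Integer combinations inside `Γ` -/

theorem exists_combo {Γ : Subgroup SL(2, ℤ)} {ι : Type*} (s : Finset ι) (δ : ι → Γ)
    (n : ι → ℤ) :
    ∃ g : Γ, ∀ P : Additive Γ →+ ℤ,
      P (Additive.ofMul g) = ∑ i ∈ s, n i * P (Additive.ofMul (δ i)) := by
  classical
  induction s using Finset.induction_on with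
  | empty => exact ⟨1, fun P => by simp⟩
  | insert a s ha ih =>
    obtain ⟨g, hg⟩ := ih
    refine ⟨g * δ a ^ n a, fun P => ?_⟩
    rw [Finset.sum_insert ha, ofMul_mul, map_add, hg P, ofMul_zpow, map_zsmul]
    simp only [smul_eq_mul]
    ring

/-! ### (PDS) from the symbol calculus and the rules of `pot` -/

/-- (PDS), with the inputs of the leaves I1 and I3 as explicit hypotheses. -/
theorem pds_core (Γ : Subgroup SL(2, ℤ)) [Γ.FiniteIndex]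
    (hS : ∀ (m : SL(2, ℤ) → ℤ) (x : SL(2, ℤ)),
      pot m (x * S) - pot m x = 2 * (m (x * S) + m (-(x * S)) - m x - m (-x)))
    (hρ : ∀ (m : SL(2, ℤ) → ℤ) (x : SL(2, ℤ)), pot m (x * (S * T)) = pot m x)
    (hsm : ∀ (m : SL(2, ℤ) → ℤ), (∀ δ ∈ Γ, ∀ y, m (δ * y) = m y) → ∀ γ ∈ Γ,
      pot m γ - pot m 1 = - ∑ᶠ y : SL(2, ℤ), m y * (sgSL (γ * y) - sgSL y))
    (havg : ∀ (m0 : SL(2, ℤ) → ℤ), (Function.support m0).Finite → ∀ γ : SL(2, ℤ),
      ∑ᶠ y : SL(2, ℤ), (∑ᶠ δ : Γ, m0 ((δ : SL(2, ℤ)) * y)) * (sgSL (γ * y) - sgSL y) =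
        ∑ᶠ y : SL(2, ℤ), m0 y * isect Γ (y.1 *ᵥ ![1, 0]) (y.1 *ᵥ ![0, 1]) γ)
    (hswap : ∀ γ ∈ Γ, ∀ u w : Fin 2 → ℤ, isect Γ w u γ = - isect Γ u w γ)
    (hneg : ∀ γ ∈ Γ, ∀ u w : Fin 2 → ℤ, isect Γ (-u) w γ = isect Γ u w γ)
    (htri : ∀ γ ∈ Γ, ∀ u w v : Fin 2 → ℤ, u ≠ 0 → w ≠ 0 → v ≠ 0 →
      isect Γ u w γ + isect Γ w v γ + isect Γ v u γ = 0)
    (hinv : ∀ γ ∈ Γ, ∀ δ ∈ Γ, ∀ u w : Fin 2 → ℤ,
      isect Γ ((δ : SL(2, ℤ)).1 *ᵥ u) ((δ : SL(2, ℤ)).1 *ᵥ w) γ = isect Γ u w γ)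
    (ψ : Additive Γ →+ ℤ) (hψ : ModularCurve.Period.IsParabolicHom Γ ψ) :
    ∃ g : Γ, ∀ γ : Γ, ipair Γ g γ = 8 * ψ (Additive.ofMul γ) := by
  classical
  obtain ⟨R, red, cof, hR⟩ := exists_isTransv Γ
  obtain ⟨repρ, dcρ, hdρ⟩ := exists_isDcData Γ (Subgroup.zpowers (S * T))
  obtain ⟨hf1, hf2⟩ := potential_of_dcData ψ (kill_rho ψ) hdρ
  obtain ⟨repT, dcT, hdT⟩ := exists_isDcData Γ upperTri
  obtain ⟨hu1, hu2⟩ := potential_of_dcData ψ (kill_upperTri ψ hψ) hdT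
  set f : SL(2, ℤ) → ℤ := fun y => extZ Γ ψ (dcρ y) with hfdef
  set u : SL(2, ℤ) → ℤ := fun y => extZ Γ ψ (dcT y) with hudef
  have hfT : ∀ x, f (x * T) = f (x * S) := fun x => pot_f_T f hf2 x
  have hfSS : ∀ x, f (x * S * S) = f x := by
    intro x
    rw [mul_assoc, S_mul_S, mul_neg, mul_one, pot_f_neg f hf2]
  obtain ⟨g, hg⟩ := exists_combo R
    (fun r => (⟨dcT (r * S), hdT.dc_mem _⟩ : Γ) * (⟨dcT r, hdT.dc_mem _⟩ : Γ)⁻¹)
    (fun r => f (r * S) - f r)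
  refine ⟨g, fun γ => ?_⟩
  set F : (Fin 2 → ℤ) → (Fin 2 → ℤ) → ℤ := fun a b => isect Γ a b γ with hF
  have hA : ∀ a b, F b a = - F a b := fun a b => hswap γ γ.2 a b
  have hB : ∀ a b, F (-a) b = F a b := fun a b => hneg γ γ.2 a b
  have hC : ∀ a b c : Fin 2 → ℤ, a ≠ 0 → b ≠ 0 → c ≠ 0 → F a b + F b c + F c a = 0 :=
    fun a b c ha hb hc => htri γ γ.2 a b c ha hb hc
  have hD : ∀ δ ∈ Γ, ∀ a b : Fin 2 → ℤ,
      F ((δ : SL(2, ℤ)).1 *ᵥ a) ((δ : SL(2, ℤ)).1 *ᵥ b) = F a b :=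
    fun δ hδ a b => hinv γ γ.2 δ hδ a b
  set κ : SL(2, ℤ) → ℤ := fun y => F ![1, 0] (y.1 *ᵥ ![1, 0]) with hκ
  set lam : SL(2, ℤ) → ℤ := fun y => κ (repT y) with hlam
  -- step 1: `8 ψ γ` as a combination of intersection numbers of Farey edges
  have h8 : 8 * ψ (Additive.ofMul γ) =
      ∑ r ∈ R, (f (r * S) - f r) * F (r.1 *ᵥ ![1, 0]) (r.1 *ᵥ ![0, 1]) := by
    have h1 := sum_jump_eq ψ f hf1 hf2 hS hρ hsm γ.2
    obtain ⟨hfin, havg', hsum⟩ := unfold_avg hR (fun x => f (x * S) - f x)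
      (fun δ hδ y => jump_left ψ f hf1 hδ y)
    have h2 := havg (fun y => if y ∈ R then (f (y * S) - f y) else 0) hfin γ
    have h3 : ∑ᶠ y : SL(2, ℤ), (f (y * S) - f y) * (sgSL ((γ : SL(2, ℤ)) * y) - sgSL y) =
        ∑ᶠ y : SL(2, ℤ), (∑ᶠ δ : Γ, (if (δ : SL(2, ℤ)) * y ∈ R then
          (f ((δ : SL(2, ℤ)) * y * S) - f ((δ : SL(2, ℤ)) * y)) else 0)) *
            (sgSL ((γ : SL(2, ℤ)) * y) - sgSL y) := by
      refine finsum_congr fun y => ?_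
      rw [havg' y]
    rw [extZ_coe] at h1
    rw [← h1, h3]
    exact h2.trans (hsum _)
  -- step 2: the cusp potential `κ`
  have hκS : ∀ r, F (r.1 *ᵥ ![1, 0]) (r.1 *ᵥ ![0, 1]) = κ (r * S) - κ r :=
    fun r => kappa_S F hA hC r
  have hκleft : ∀ δ ∈ Γ, ∀ y, κ (δ * y) = κ y + κ δ :=
    fun δ hδ y => kappa_left F hA hC hD hδ y
  have hκright : ∀ h ∈ upperTri, ∀ y, κ (y * h) = κ y :=
    fun h hh y => kappa_right F hA hB hh y
  have hκdec : ∀ y, κ y = κ (dcT y) + lam y := by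
    intro y
    obtain ⟨h, hh, e⟩ := hdT.eq y
    conv_lhs => rw [e]
    rw [hκright h hh, hκleft _ (hdT.dc_mem y)]
    ring
  have hl1 : ∀ δ ∈ Γ, ∀ y, lam (δ * y) = lam y := by
    intro δ hδ y
    have := hdT.rep_eq y δ hδ 1 upperTri.one_mem
    rw [mul_one] at this
    show κ (repT (δ * y)) = κ (repT y)
    rw [this]
  have hl2 : ∀ h ∈ upperTri, ∀ y, lam (y * h) = lam y := by
    intro h hh y
    have := hdT.rep_eq y 1 Γ.one_mem h hh
    rw [one_mul] at this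
    show κ (repT (y * h)) = κ (repT y)
    rw [this]
  have hbf := boundary_free hR ψ f u lam hf1 hfT hfSS hu1 hu2 hl1 hl2
  -- step 3: the loop
  let P : Additive Γ →+ ℤ := AddMonoidHom.mk' (fun a => κ ((Additive.toMul a : Γ) : SL(2, ℤ)))
    (by
      intro a b
      show κ (((Additive.toMul a : Γ) : SL(2, ℤ)) * ((Additive.toMul b : Γ) : SL(2, ℤ))) = _
      rw [hκleft _ (Additive.toMul a : Γ).2]
      ring)
  have hP : ∀ δ : Γ, P (Additive.ofMul δ) = κ (δ : SL(2, ℤ)) := fun δ => rfl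
  have hgP := hg P
  have hleft : ipair Γ g γ = P (Additive.ofMul g) := rfl
  rw [hleft, hgP, h8]
  have e : ∀ r ∈ R, (f (r * S) - f r) * P (Additive.ofMul
      ((⟨dcT (r * S), hdT.dc_mem _⟩ : Γ) * (⟨dcT r, hdT.dc_mem _⟩ : Γ)⁻¹)) =
      (f (r * S) - f r) * F (r.1 *ᵥ ![1, 0]) (r.1 *ᵥ ![0, 1]) -
        (f (r * S) - f r) * (lam (r * S) - lam r) := by
    intro r _
    rw [ofMul_mul, ofMul_inv, map_add, map_neg, hP, hP, hκS r, hκdec (r * S), hκdec r]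
    ring
  rw [Finset.sum_congr rfl e, Finset.sum_sub_distrib, hbf, sub_zero]

/-- **(PDS)**: every parabolic homomorphism `ψ : Γ → ℤ` on a finite index subgroup of `SL(2, ℤ)`
is `8 ψ = ipair Γ g ·` for some `g ∈ Γ`. -/
theorem pds (Γ : Subgroup SL(2, ℤ)) [Γ.FiniteIndex] (ψ : Additive Γ →+ ℤ)
    (hψ : ModularCurve.Period.IsParabolicHom Γ ψ) :
    ∃ g : Γ, ∀ γ : Γ, ipair Γ g γ = 8 * ψ (Additive.ofMul γ) :=
  pds_core Γ (fun m x => Fermat.Agent.S41.H04.pot_mul_S' m x)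
    (fun m x => Fermat.Agent.S41.H04.pot_mul_rho m x)
    (fun m hm γ hγ => by
      have := Fermat.Agent.S41.H04.pot_smul' m γ 1 (fun y => hm γ hγ y)
      rwa [mul_one] at this)
    (fun m0 hm0 γ => Fermat.Agent.S41.H04.finsum_avg_mul_eq_isect' Γ m0 hm0 γ)
    (fun γ _ u w => isect_swap Γ u w γ)
    (fun γ _ u w => by
      have := isect_smul_left Γ (a := -1) (by norm_num) u w γ
      simpa using this)
    (fun γ hγ u w v hu hw hv => Fermat.Agent.S41.H11.Cl.isect_triangle Γ hu hw hv hγ)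
    (fun γ _ δ hδ u w => isect_inv Γ hδ u w γ)
    ψ hψ

end Fermat.Agent.S41.H12
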