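import Mathlib

/-!
# S41, node (C), route C-I: two consequences of (PDS) by pure linear algebra (helper62)

Let `I : G → G → ℤ` be a bi-additive form on a finitely generated group `G` (the intersection
form `H11.ipair Γ`), `P ⊆ G` a set of elements (the parabolic ones) with `I π γ = 0` for `π ∈ P`
(the trivial direction: the symbol `{c, π c}` is degenerate), and assume (PDS): every
homomorphism `ψ : G → ℤ` vanishing on `P` satisfies `c ψ = I g ·` for some `g`.  Then

* `rpar_of_pds` : `I g π = 0` for all `g` and all `π ∈ P` (the form is parabolic in the second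
  variable as well);
* `inj_of_pds` : if a prime `p ∤ c` divides `I g γ` for all `γ`, then `p ∣ ψ g` for every
  homomorphism `ψ : G → ℤ` vanishing on `P`.

Both are the statement "row space = column space = span of the parabolic homs" for the Gram
matrix of `I` on a finite generating set, over `ℚ` and over `ZMod p` respectively
(`span_col_eq_span_row`, rank of a matrix = rank of its transpose).
-/

set_option autoImplicit false

namespace Fermat.Agent.S41.H62

open Matrix

section Master

variable {G : Type*} [Group G] {K : Type*} [Field K]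

/-- `γ ↦ I g γ`, with values in `K`. -/
def rowK (K : Type*) [Field K] (I : G → G → ℤ) (hr : ∀ a b c, I a (b * c) = I a b + I a c)
    (g : G) : Additive G →+ K :=
  AddMonoidHom.mk' (fun γ => ((I g (Additive.toMul γ) : ℤ) : K)) (by
    intro a b
    rw [toMul_add, hr, Int.cast_add])

/-- `g ↦ I g γ`, with values in `K`. -/
def colK (K : Type*) [Field K] (I : G → G → ℤ) (hl : ∀ a b c, I (a * b) c = I a c + I b c)
    (γ : G) : Additive G →+ K :=
  AddMonoidHom.mk' (fun g => ((I (Additive.toMul g) γ : ℤ) : K)) (by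
    intro a b
    rw [toMul_add, hl, Int.cast_add])

/-- `g ↦ I g γ`, with values in `ℤ`. -/
def colZ (I : G → G → ℤ) (hl : ∀ a b c, I (a * b) c = I a c + I b c)
    (γ : G) : Additive G →+ ℤ :=
  AddMonoidHom.mk' (fun g => I (Additive.toMul g) γ) (by
    intro a b
    rw [toMul_add, hl])

@[simp] theorem rowK_apply (I : G → G → ℤ) (hr : ∀ a b c, I a (b * c) = I a b + I a c)
    (g γ : G) : rowK K I hr g (Additive.ofMul γ) = ((I g γ : ℤ) : K) := rfl

@[simp] theorem colK_apply (I : G → G → ℤ) (hl : ∀ a b c, I (a * b) c = I a c + I b c)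
    (γ g : G) : colK K I hl γ (Additive.ofMul g) = ((I g γ : ℤ) : K) := rfl

/-- The `K`-span of the reductions of the integral homs vanishing on `P`. -/
def parSpan (K : Type*) [Field K] (P : Set G) : Submodule K (Additive G →+ K) :=
  Submodule.span K {φ | ∃ ψ : Additive G →+ ℤ, (∀ π ∈ P, ψ (Additive.ofMul π) = 0) ∧
    φ = (Int.castAddHom K).comp ψ}

theorem parSpan_apply_eq_zero {P : Set G} {φ : Additive G →+ K} (hφ : φ ∈ parSpan K P)
    {π : G} (hπ : π ∈ P) : φ (Additive.ofMul π) = 0 := by
  induction hφ using Submodule.span_induction with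
  | mem x hx =>
    obtain ⟨ψ, hψ, rfl⟩ := hx
    simp [hψ π hπ]
  | zero => rfl
  | add x y _ _ hx hy => simp [hx, hy]
  | smul a x _ hx => simp [hx]

/-- Evaluation on a finite set of group elements. -/
def evS (K : Type*) [Field K] (S : Finset G) : (Additive G →+ K) →ₗ[K] (S → K) where
  toFun φ := fun s => φ (Additive.ofMul (s : G))
  map_add' _ _ := rfl
  map_smul' _ _ := rfl

theorem evS_injective (S : Finset G) (hS : Subgroup.closure (S : Set G) = ⊤) :
    Function.Injective (evS K S) := by
  intro φ ψ h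
  refine AddMonoidHom.ext fun γ => ?_
  have hγ : Additive.toMul γ ∈ Subgroup.closure (S : Set G) := by rw [hS]; trivial
  have key : ∀ g : G, g ∈ Subgroup.closure (S : Set G) →
      φ (Additive.ofMul g) = ψ (Additive.ofMul g) := by
    intro g hg
    induction hg using Subgroup.closure_induction with
    | mem x hx => exact congrFun h ⟨x, hx⟩
    | one => simp
    | mul x y _ _ hx hy => rw [ofMul_mul, map_add, map_add, hx, hy]
    | inv x _ hx => rw [ofMul_inv, map_neg, map_neg, hx]
  exact key _ hγ

theorem rowK_mem_span (I : G → G → ℤ) (hl : ∀ a b c, I (a * b) c = I a c + I b c)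
    (hr : ∀ a b c, I a (b * c) = I a b + I a c)
    (S : Finset G) (hS : Subgroup.closure (S : Set G) = ⊤) (g : G) :
    rowK K I hr g ∈ Submodule.span K (Set.range fun s : S => rowK K I hr (s : G)) := by
  have h1 : ∀ γ : G, I 1 γ = 0 := fun γ => by
    have := hl 1 1 γ
    rw [one_mul] at this
    linarith
  have hmul : ∀ a b : G, rowK K I hr (a * b) = rowK K I hr a + rowK K I hr b := by
    intro a b
    refine AddMonoidHom.ext fun γ => ?_
    show ((I (a * b) (Additive.toMul γ) : ℤ) : K) = _
    rw [hl, Int.cast_add]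
    rfl
  have hone : rowK K I hr 1 = 0 := by
    refine AddMonoidHom.ext fun γ => ?_
    show ((I 1 (Additive.toMul γ) : ℤ) : K) = 0
    rw [h1, Int.cast_zero]
  have hinv : ∀ a : G, rowK K I hr a⁻¹ = - rowK K I hr a := by
    intro a
    have := hmul a a⁻¹
    rw [mul_inv_cancel, hone] at this
    exact eq_neg_of_add_eq_zero_right this.symm
  have hg : g ∈ Subgroup.closure (S : Set G) := by rw [hS]; trivial
  induction hg using Subgroup.closure_induction with
  | mem x hx => exact Submodule.subset_span ⟨⟨x, hx⟩, rfl⟩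
  | one => rw [hone]; exact Submodule.zero_mem _
  | mul x y _ _ hx hy => rw [hmul]; exact Submodule.add_mem _ hx hy
  | inv x _ hx => rw [hinv]; exact Submodule.neg_mem _ hx

/-- **Master lemma.**  Row space = column space = span of the parabolic homs. -/
theorem span_col_eq_span_row (I : G → G → ℤ) (hl : ∀ a b c, I (a * b) c = I a c + I b c)
    (hr : ∀ a b c, I a (b * c) = I a b + I a c) (P : Set G)
    (hlp : ∀ π ∈ P, ∀ γ, I π γ = 0) (c : ℤ) (hc : (c : K) ≠ 0)
    (hpds : ∀ ψ : Additive G →+ ℤ, (∀ π ∈ P, ψ (Additive.ofMul π) = 0) →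
      ∃ g : G, ∀ γ : G, I g γ = c * ψ (Additive.ofMul γ))
    (S : Finset G) (hS : Subgroup.closure (S : Set G) = ⊤) :
    Submodule.span K (Set.range fun t : S => colK K I hl (t : G)) = parSpan K P ∧
      Submodule.span K (Set.range fun s : S => rowK K I hr (s : G)) = parSpan K P := by
  classical
  set R : Submodule K (Additive G →+ K) :=
    Submodule.span K (Set.range fun s : S => rowK K I hr (s : G)) with hR
  set C : Submodule K (Additive G →+ K) :=
    Submodule.span K (Set.range fun t : S => colK K I hl (t : G)) with hC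
  -- columns are parabolic
  have hCL : C ≤ parSpan K P := by
    refine Submodule.span_le.mpr ?_
    rintro _ ⟨t, rfl⟩
    refine Submodule.subset_span ⟨colZ I hl (t : G), fun π hπ => hlp π hπ _, ?_⟩
    refine AddMonoidHom.ext fun γ => ?_
    rfl
  -- parabolic homs are rows
  have hLR : parSpan K P ≤ R := by
    refine Submodule.span_le.mpr ?_
    rintro _ ⟨ψ, hψ, rfl⟩
    obtain ⟨g, hg⟩ := hpds ψ hψ
    have e : (Int.castAddHom K).comp ψ = (c : K)⁻¹ • rowK K I hr g := by
      refine AddMonoidHom.ext fun γ => ?_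
      show ((ψ γ : ℤ) : K) = (c : K)⁻¹ * ((I g (Additive.toMul γ) : ℤ) : K)
      rw [hg, Int.cast_mul, ← mul_assoc, inv_mul_cancel₀ hc, one_mul]
      rfl
    rw [SetLike.mem_coe, e]
    exact Submodule.smul_mem _ _ (rowK_mem_span I hl hr S hS g)
  -- ranks
  let M : Matrix S S K := Matrix.of fun s t => ((I (s : G) (t : G) : ℤ) : K)
  let A : (S → K) →ₗ[K] (Additive G →+ K) :=
    Fintype.linearCombination K fun s : S => rowK K I hr (s : G)
  let A' : (S → K) →ₗ[K] (Additive G →+ K) :=
    Fintype.linearCombination K fun t : S => colK K I hl (t : G)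
  have hA : LinearMap.range A = R := Fintype.range_linearCombination K _
  have hA' : LinearMap.range A' = C := Fintype.range_linearCombination K _
  have hevA : (evS K S) ∘ₗ A = Mᵀ.mulVecLin := by
    refine LinearMap.ext fun x => funext fun t => ?_
    simp only [LinearMap.comp_apply, A, Fintype.linearCombination_apply, evS, LinearMap.coe_mk,
      AddHom.coe_mk, Matrix.mulVecLin_apply, Matrix.mulVec, dotProduct, Matrix.transpose_apply, M,
      Matrix.of_apply]
    rw [AddMonoidHom.finsetSum_apply]
    refine Finset.sum_congr rfl fun s _ => ?_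
    rw [AddMonoidHom.smul_apply, rowK_apply, smul_eq_mul, mul_comm]
  have hevA' : (evS K S) ∘ₗ A' = M.mulVecLin := by
    refine LinearMap.ext fun x => funext fun s => ?_
    simp only [LinearMap.comp_apply, A', Fintype.linearCombination_apply, evS, LinearMap.coe_mk,
      AddHom.coe_mk, Matrix.mulVecLin_apply, Matrix.mulVec, dotProduct, M, Matrix.of_apply]
    rw [AddMonoidHom.finsetSum_apply]
    refine Finset.sum_congr rfl fun t _ => ?_
    rw [AddMonoidHom.smul_apply, colK_apply, smul_eq_mul, mul_comm]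
  have hinj := evS_injective (K := K) S hS
  have hfr : ∀ B : (S → K) →ₗ[K] (Additive G →+ K),
      Module.finrank K (LinearMap.range B) = Module.finrank K (LinearMap.range ((evS K S) ∘ₗ B)) := by
    intro B
    rw [LinearMap.range_comp]
    exact (Submodule.equivMapOfInjective (evS K S) hinj (LinearMap.range B)).finrank_eq
  have hrank : Module.finrank K R = Module.finrank K C := by
    rw [← hA, ← hA', hfr A, hfr A', hevA, hevA']
    exact Matrix.rank_transpose M
  have hCR : C ≤ R := hCL.trans hLR
  have : FiniteDimensional K R := by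
    rw [← hA]; infer_instance
  have hCeqR : C = R := Submodule.eq_of_le_of_finrank_le hCR hrank.le
  refine ⟨le_antisymm hCL (hLR.trans hCeqR.ge), le_antisymm (hCeqR ▸ hCL) hLR⟩

end Master

section Consequences

variable {G : Type*} [Group G]

/-- **(RPAR) from (PDS).**  The form is parabolic in the second variable. -/
theorem rpar_of_pds [Group.FG G] (I : G → G → ℤ) (hl : ∀ a b c, I (a * b) c = I a c + I b c)
    (hr : ∀ a b c, I a (b * c) = I a b + I a c) (P : Set G)
    (hlp : ∀ π ∈ P, ∀ γ, I π γ = 0) (c : ℤ) (hc : c ≠ 0)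
    (hpds : ∀ ψ : Additive G →+ ℤ, (∀ π ∈ P, ψ (Additive.ofMul π) = 0) →
      ∃ g : G, ∀ γ : G, I g γ = c * ψ (Additive.ofMul γ)) :
    ∀ g : G, ∀ π ∈ P, I g π = 0 := by
  intro g π hπ
  obtain ⟨S, hS⟩ := Group.FG.out (G := G)
  have hcQ : ((c : ℤ) : ℚ) ≠ 0 := by exact_mod_cast hc
  obtain ⟨-, h2⟩ := span_col_eq_span_row (K := ℚ) I hl hr P hlp c hcQ hpds S hS
  have hmem : rowK ℚ I hr g ∈ parSpan ℚ P := h2 ▸ rowK_mem_span I hl hr S hS g
  have h0 := parSpan_apply_eq_zero hmem hπ
  rw [rowK_apply] at h0
  exact_mod_cast h0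

/-- **(INJ) from (PDS).**  Non-degeneracy modulo `p` of the form against the parabolic homs. -/
theorem inj_of_pds [Group.FG G] (I : G → G → ℤ) (hl : ∀ a b c, I (a * b) c = I a c + I b c)
    (hr : ∀ a b c, I a (b * c) = I a b + I a c) (P : Set G)
    (hlp : ∀ π ∈ P, ∀ γ, I π γ = 0) (c : ℤ)
    (hpds : ∀ ψ : Additive G →+ ℤ, (∀ π ∈ P, ψ (Additive.ofMul π) = 0) →
      ∃ g : G, ∀ γ : G, I g γ = c * ψ (Additive.ofMul γ))
    {p : ℕ} (hp : p.Prime) (hpc : ¬ (p : ℤ) ∣ c) (g : G) (h : ∀ γ : G, (p : ℤ) ∣ I g γ)
    (ψ : Additive G →+ ℤ) (hψ : ∀ π ∈ P, ψ (Additive.ofMul π) = 0) :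
    (p : ℤ) ∣ ψ (Additive.ofMul g) := by
  classical
  have : Fact p.Prime := ⟨hp⟩
  obtain ⟨S, hS⟩ := Group.FG.out (G := G)
  have hcp : ((c : ℤ) : ZMod p) ≠ 0 := by
    rw [Ne, ZMod.intCast_zmod_eq_zero_iff_dvd]
    exact hpc
  obtain ⟨h1, -⟩ := span_col_eq_span_row (K := ZMod p) I hl hr P hlp c hcp hpds S hS
  have hmem : (Int.castAddHom (ZMod p)).comp ψ ∈
      Submodule.span (ZMod p) (Set.range fun t : S => colK (ZMod p) I hl (t : G)) := by
    rw [h1]
    exact Submodule.subset_span ⟨ψ, hψ, rfl⟩
  -- every element of the column span vanishes at `g`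
  have hzero : ∀ φ ∈ Submodule.span (ZMod p) (Set.range fun t : S => colK (ZMod p) I hl (t : G)),
      φ (Additive.ofMul g) = 0 := by
    intro φ hφ
    induction hφ using Submodule.span_induction with
    | mem x hx =>
      obtain ⟨t, rfl⟩ := hx
      rw [colK_apply, ZMod.intCast_zmod_eq_zero_iff_dvd]
      exact h _
    | zero => rfl
    | add x y _ _ hx hy => simp [hx, hy]
    | smul a x _ hx => simp [hx]
  have h0 := hzero _ hmem
  have h0' : ((ψ (Additive.ofMul g) : ℤ) : ZMod p) = 0 := h0
  rwa [ZMod.intCast_zmod_eq_zero_iff_dvd] at h0'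

end Consequences

end Fermat.Agent.S41.H62
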