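import Mathlib
import Fermat.Prelude.Def_ModularCurve_PeriodMap
import Fermat.Agent.S41.Isect_helper11
import Fermat.Agent.S41.IsectAlg_helper62
import Fermat.Agent.S41.Lattice_helper34

/-!
# S41, node (C), route C-I: what (PDS) gives for the concrete intersection form (helper62)

`PdsStmt Γ c` is the literal statement of leaf I4 (PDS) for one subgroup `Γ` and one constant `c`:
every parabolic homomorphism `ψ : Γ → ℤ` satisfies `c ψ = ipair Γ g ·` for some `g ∈ Γ`.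
From it, and the symbol calculus of `Isect_helper11`, we get for every finite-index `Γ`:

* `ipair_parabolic_left` (no PDS): `ipair Γ π γ = 0` if `π ∈ Γ` has `trace ^ 2 = 4`;
* `ipair_parabolic_right_of_pds` : `ipair Γ g π = 0` if `π ∈ Γ` has `trace ^ 2 = 4` (PAR-R);
* `inj_of_pdsStmt` : (INJ), hypothesis in the second variable of the form;
* `inj_right_of_pdsStmt` : (INJ-right), hypothesis in the first variable of the form.

The second and third are the instances of `rpar_of_pds` / `inj_of_pds` of `IsectAlg_helper62`.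
-/

set_option autoImplicit false

namespace Fermat.Agent.S41.H62

open Matrix
open scoped MatrixGroups
open Fermat.Agent.S41.H11

/-- Leaf I4 (PDS) for the subgroup `Γ`, with constant `c`. -/
def PdsStmt (Γ : Subgroup SL(2, ℤ)) (c : ℤ) : Prop :=
  ∀ ψ : Additive Γ →+ ℤ, ModularCurve.Period.IsParabolicHom Γ ψ →
    ∃ g : Γ, ∀ γ : Γ, ipair Γ (g : SL(2, ℤ)) (γ : SL(2, ℤ)) = c * ψ (Additive.ofMul γ)

theorem mulVec_vec2 (A : Matrix (Fin 2) (Fin 2) ℤ) (x y : ℤ) :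
    A *ᵥ ![x, y] = ![A 0 0 * x + A 0 1 * y, A 1 0 * x + A 1 1 * y] := by
  funext i
  fin_cases i <;> simp [Matrix.mulVec, dotProduct, Fin.sum_univ_two]

theorem vec2_ne_zero {x y : ℤ} (h : x ≠ 0 ∨ y ≠ 0) : (![x, y] : Fin 2 → ℤ) ≠ 0 := by
  intro h0
  have h1 := congrFun h0 0
  have h2 := congrFun h0 1
  simp at h1 h2
  rcases h with h | h
  · exact h h1
  · exact h h2

theorem vec2_eq {x y x' y' : ℤ} (hx : x = x') (hy : y = y') :
    (![x, y] : Fin 2 → ℤ) = ![x', y'] := by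
  rw [hx, hy]

theorem neg_vec2 (x y : ℤ) : -(![x, y] : Fin 2 → ℤ) = ![-x, -y] := by
  funext i
  fin_cases i <;> simp

/-- A matrix of `SL(2, ℤ)` with `trace ^ 2 = 4` fixes a nonzero integer vector up to sign. -/
theorem exists_fixed_vector (π : SL(2, ℤ)) (htr : π.1.trace ^ 2 = 4) :
    ∃ v : Fin 2 → ℤ, v ≠ 0 ∧ (π.1 *ᵥ v = v ∨ π.1 *ᵥ v = -v) := by
  have hdet : π.1 0 0 * π.1 1 1 - π.1 0 1 * π.1 1 0 = 1 := by
    have := π.2
    rw [Matrix.det_fin_two] at this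
    exact this
  have htr' : (π.1 0 0 + π.1 1 1) ^ 2 = 4 := by
    rw [Matrix.trace_fin_two] at htr
    exact htr
  have hε : π.1 0 0 + π.1 1 1 = 2 ∨ π.1 0 0 + π.1 1 1 = -2 := by
    have : (π.1 0 0 + π.1 1 1 - 2) * (π.1 0 0 + π.1 1 1 + 2) = 0 := by nlinarith
    rcases mul_eq_zero.mp this with h | h
    · left; linarith
    · right; linarith
  rcases hε with h | h
  · by_cases hb : π.1 0 1 = 0 ∧ π.1 0 0 = 1
    · obtain ⟨hb1, hb2⟩ := hb
      refine ⟨![0, 1], vec2_ne_zero (Or.inr one_ne_zero), Or.inl ?_⟩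
      rw [mulVec_vec2]
      refine vec2_eq ?_ ?_
      · rw [hb1]; ring
      · linarith
    · refine ⟨![π.1 0 1, 1 - π.1 0 0], vec2_ne_zero ?_, Or.inl ?_⟩
      · by_contra hcon
        rw [not_or, not_not, not_not] at hcon
        exact hb ⟨hcon.1, by linarith [hcon.2]⟩
      · rw [mulVec_vec2]
        refine vec2_eq ?_ ?_
        · ring
        · have hd : π.1 1 1 = 2 - π.1 0 0 := by linarith
          rw [hd] at hdet ⊢
          linear_combination -hdet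
  · by_cases hb : π.1 0 1 = 0 ∧ π.1 0 0 = -1
    · obtain ⟨hb1, hb2⟩ := hb
      refine ⟨![0, 1], vec2_ne_zero (Or.inr one_ne_zero), Or.inr ?_⟩
      rw [mulVec_vec2, neg_vec2]
      refine vec2_eq ?_ ?_
      · rw [hb1]; ring
      · linarith
    · refine ⟨![π.1 0 1, -1 - π.1 0 0], vec2_ne_zero ?_, Or.inr ?_⟩
      · by_contra hcon
        rw [not_or, not_not, not_not] at hcon
        exact hb ⟨hcon.1, by linarith [hcon.2]⟩
      · rw [mulVec_vec2, neg_vec2]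
        refine vec2_eq ?_ ?_
        · ring
        · have hd : π.1 1 1 = -2 - π.1 0 0 := by linarith
          rw [hd] at hdet ⊢
          linear_combination -hdet

/-- The trivial direction: a parabolic element in the symbol variable pairs to zero. -/
theorem ipair_parabolic_left (h2 : Fin2Stmt) (h3 : Fin3Stmt) (Γ : Subgroup SL(2, ℤ))
    {π γ : SL(2, ℤ)} (hπ : π ∈ Γ) (hγ : γ ∈ Γ) (htr : π.1.trace ^ 2 = 4) : ipair Γ π γ = 0 := by
  obtain ⟨v, hv0, hv⟩ := exists_fixed_vector π htr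
  have hπe1 : π.1 *ᵥ ![1, 0] ≠ 0 := sl_mulVec_ne_zero π e1_ne_zero
  simp only [ipair]
  rw [isect_add h2 h3 Γ e1_ne_zero hv0 hπe1 hγ]
  have key : isect Γ v (π.1 *ᵥ ![1, 0]) γ = isect Γ v ![1, 0] γ := by
    have h1 : isect Γ (π.1 *ᵥ v) (π.1 *ᵥ ![1, 0]) γ = isect Γ v ![1, 0] γ :=
      isect_inv Γ hπ v _ γ
    rcases hv with hv | hv
    · rw [hv] at h1
      exact h1
    · rw [hv] at h1
      have hneg : (-v) = (-1 : ℤ) • v := by simp
      rw [hneg, isect_smul_left Γ (by norm_num : (-1 : ℤ) ≠ 0)] at h1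
      exact h1
  rw [key, isect_swap Γ ![1, 0] v γ]
  ring

section Instance

/-- **(PAR-R) from (PDS)**, for every finite-index subgroup: a parabolic element in the loop
variable pairs to zero. -/
theorem ipair_parabolic_right_of_pds (h2 : Fin2Stmt) (h3 : Fin3Stmt)
    (Γ : Subgroup SL(2, ℤ)) [Γ.FiniteIndex] {c : ℤ} (hc : c ≠ 0)
    (hpds : PdsStmt Γ c) (g π : Γ)
    (htr : ((π : SL(2, ℤ)) : Matrix (Fin 2) (Fin 2) ℤ).trace ^ 2 = 4) :
    ipair Γ (g : SL(2, ℤ)) (π : SL(2, ℤ)) = 0 := by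
  have := H34.fg_of_finiteIndex Γ
  exact rpar_of_pds (G := Γ) (fun a b => ipair Γ (a : SL(2, ℤ)) (b : SL(2, ℤ)))
    (fun a b c => ipair_mul_left h2 h3 Γ a.2 b c.2) (fun a b c => ipair_mul_right h2 Γ a b c.2)
    {π : Γ | ((π : SL(2, ℤ)) : Matrix (Fin 2) (Fin 2) ℤ).trace ^ 2 = 4}
    (fun π hπ γ => ipair_parabolic_left h2 h3 Γ π.2 γ.2 hπ) c hc (fun ψ hψ => hpds ψ hψ) g π htr

/-- The same with elements of `SL(2, ℤ)` and membership hypotheses. -/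
theorem ipair_parabolic_right_of_pds' (h2 : Fin2Stmt) (h3 : Fin3Stmt)
    (Γ : Subgroup SL(2, ℤ)) [Γ.FiniteIndex] {c : ℤ} (hc : c ≠ 0)
    (hpds : PdsStmt Γ c) {g π : SL(2, ℤ)} (hg : g ∈ Γ) (hπ : π ∈ Γ)
    (htr : π.1.trace ^ 2 = 4) : ipair Γ g π = 0 :=
  ipair_parabolic_right_of_pds h2 h3 Γ hc hpds ⟨g, hg⟩ ⟨π, hπ⟩ htr

/-- **(PAR-R) from (PDS)**, hom form: `γ ↦ ipair Γ g γ` is a parabolic homomorphism. -/
theorem isParabolicHom_isectHom_of_pds (h2 : Fin2Stmt) (h3 : Fin3Stmt)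
    (Γ : Subgroup SL(2, ℤ)) [Γ.FiniteIndex] {c : ℤ} (hc : c ≠ 0)
    (hpds : PdsStmt Γ c) (g : Γ) :
    ModularCurve.Period.IsParabolicHom Γ
      (isectHom h2 Γ ![1, 0] ((g : SL(2, ℤ)).1 *ᵥ ![1, 0])) := by
  intro π htr
  exact ipair_parabolic_right_of_pds h2 h3 Γ hc hpds g π htr

/-- **(INJ) from (PDS)** (hypothesis in the loop variable): helper11's literal `inj`. -/
theorem inj_of_pdsStmt (h2 : Fin2Stmt) (h3 : Fin3Stmt) (Γ : Subgroup SL(2, ℤ))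
    [Γ.FiniteIndex] {c : ℤ} (hpds : PdsStmt Γ c) {p : ℕ} (hp : p.Prime)
    (hpc : ¬ (p : ℤ) ∣ c) (g : Γ)
    (h : ∀ γ : Γ, (p : ℤ) ∣ ipair Γ (g : SL(2, ℤ)) (γ : SL(2, ℤ)))
    (ψ : Additive Γ →+ ℤ) (hψ : ModularCurve.Period.IsParabolicHom Γ ψ) :
    (p : ℤ) ∣ ψ (Additive.ofMul g) := by
  have := H34.fg_of_finiteIndex Γ
  exact inj_of_pds (G := Γ) (fun a b => ipair Γ (a : SL(2, ℤ)) (b : SL(2, ℤ)))
    (fun a b c => ipair_mul_left h2 h3 Γ a.2 b c.2) (fun a b c => ipair_mul_right h2 Γ a b c.2)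
    {π : Γ | ((π : SL(2, ℤ)) : Matrix (Fin 2) (Fin 2) ℤ).trace ^ 2 = 4}
    (fun π hπ γ => ipair_parabolic_left h2 h3 Γ π.2 γ.2 hπ) c (fun ψ hψ => hpds ψ hψ) hp hpc g h
    ψ hψ

/-- **(INJ-right) from (PDS)** (hypothesis in the symbol variable): one line. -/
theorem inj_right_of_pdsStmt (Γ : Subgroup SL(2, ℤ)) {c : ℤ} (hpds : PdsStmt Γ c) {p : ℕ} (hp : p.Prime)
    (hpc : ¬ (p : ℤ) ∣ c) (w : Γ)
    (h : ∀ δ : Γ, (p : ℤ) ∣ ipair Γ (δ : SL(2, ℤ)) (w : SL(2, ℤ)))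
    (ψ : Additive Γ →+ ℤ) (hψ : ModularCurve.Period.IsParabolicHom Γ ψ) :
    (p : ℤ) ∣ ψ (Additive.ofMul w) := by
  obtain ⟨g, hg⟩ := hpds ψ hψ
  have h1 : (p : ℤ) ∣ c * ψ (Additive.ofMul w) := hg w ▸ h g
  exact ((Nat.prime_iff_prime_int.mp hp).dvd_or_dvd h1).resolve_left hpc

/-- (INJ) and (INJ-right) for `c = 8` and odd `p`, in the literal shapes of the C-I route. -/
theorem inj_of_pds8 (h2 : Fin2Stmt) (h3 : Fin3Stmt) (Γ : Subgroup SL(2, ℤ)) [Γ.FiniteIndex]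
    (hpds : PdsStmt Γ 8) {p : ℕ} (hp : p.Prime) (hp2 : p ≠ 2)
    (g : Γ) (h : ∀ γ : Γ, (p : ℤ) ∣ ipair Γ (g : SL(2, ℤ)) (γ : SL(2, ℤ)))
    (ψ : Additive Γ →+ ℤ) (hψ : ModularCurve.Period.IsParabolicHom Γ ψ) :
    (p : ℤ) ∣ ψ (Additive.ofMul g) := by
  refine inj_of_pdsStmt h2 h3 Γ hpds hp ?_ g h ψ hψ
  intro hdvd
  have h8 : p ∣ 2 ^ 3 := by
    have : (p : ℤ) ∣ ((2 ^ 3 : ℕ) : ℤ) := by simpa using hdvd
    exact Int.natCast_dvd_natCast.mp this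
  exact hp2 ((Nat.prime_dvd_prime_iff_eq hp Nat.prime_two).mp (hp.dvd_of_dvd_pow h8))

theorem inj_right_of_pds8 (Γ : Subgroup SL(2, ℤ)) (hpds : PdsStmt Γ 8) {p : ℕ} (hp : p.Prime) (hp2 : p ≠ 2)
    (w : Γ) (h : ∀ δ : Γ, (p : ℤ) ∣ ipair Γ (δ : SL(2, ℤ)) (w : SL(2, ℤ)))
    (ψ : Additive Γ →+ ℤ) (hψ : ModularCurve.Period.IsParabolicHom Γ ψ) :
    (p : ℤ) ∣ ψ (Additive.ofMul w) := by
  refine inj_right_of_pdsStmt Γ hpds hp ?_ w h ψ hψ
  intro hdvd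
  have h8 : p ∣ 2 ^ 3 := by
    have : (p : ℤ) ∣ ((2 ^ 3 : ℕ) : ℤ) := by simpa using hdvd
    exact Int.natCast_dvd_natCast.mp this
  exact hp2 ((Nat.prime_dvd_prime_iff_eq hp Nat.prime_two).mp (hp.dvd_of_dvd_pow h8))

end Instance

end Fermat.Agent.S41.H62
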