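import Mathlib
import Fermat.Agent.S41.CITop_helper39
import Fermat.Agent.S41.IsectPdsInst_helper62
import Fermat.Agent.S41.IsectPDS_helper12

/-!
# S41, route C-I: the leaf `H39.InjRStmt` of `H39.hkey_concrete`, closed

`injRStmt hN hp hp2 : H39.InjRStmt N p` for `0 < N` and an odd prime `p`, from (PDS)
(`H12.pds`) through `H62.inj_right_of_pds8`.
-/

set_option autoImplicit false

namespace Fermat.Agent.S41.H69

open CongruenceSubgroup Matrix
open scoped MatrixGroups

/-- (PDS) for `Γ₀(N)`, `0 < N`, in the shape `H62.PdsStmt`. -/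
theorem pdsStmt_Gamma0 {N : ℕ} (hN : 0 < N) : H62.PdsStmt (Gamma0 N) 8 := by
  have : NeZero N := ⟨hN.ne'⟩
  intro ψ hψ
  exact H12.pds (Gamma0 N) ψ hψ

/-- (INJ-right), literal leaf `H39.InjRStmt N p`, for `0 < N` and `p` an odd prime. -/
theorem injRStmt {N p : ℕ} (hN : 0 < N) (hp : p.Prime) (hp2 : p ≠ 2) : H39.InjRStmt N p :=
  fun w h ψ hψ => H62.inj_right_of_pds8 (Gamma0 N) (pdsStmt_Gamma0 hN) hp hp2 w h ψ hψ

end Fermat.Agent.S41.H69
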