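import Mathlib
import Fermat.Agent.S41.CITop_helper39
import Fermat.Agent.S41.DualEvalGrp_helper56
import Fermat.Agent.S41.ParOps_helper97
import Fermat.Agent.S41.Lattice_helper34

/-!
# S41, node (C), route C-I, output: the dual of Ihara's lemma in the unbundled form `(G-DUAL)`

`gDual_CI`: for parabolic characters `x y` of `Γ₀(N)` there are a parabolic character `z` of
`Γ₀(N q)` and parabolic `v₁ v₂` with
`T_r x - (r+1) x = cores z + p v₁` and `T_r y - (r+1) y = cores (w z) + p v₂`,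
from `hkey_concrete` (the six leaves of route C-I) by duality over `𝔽_p`
(`H56.exists_sep_of_eval`: the functionals on the lattice modulo `p` are the evaluations at
group elements).
-/

set_option autoImplicit false

namespace Fermat.Agent.S41.H39

open CongruenceSubgroup Matrix
open scoped MatrixGroups
open Fermat.Agent
open ModularCurve.Period

/-- The lattice of parabolic characters is saturated. -/
theorem exists_parabolic_of_dvd {Γ : Subgroup SL(2, ℤ)} (p : ℕ) (hp : p ≠ 0)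
    (x : parabolicHoms ℤ Γ ℤ)
    (h : ∀ γ : Γ, (p : ℤ) ∣ (x : Additive Γ →+ ℤ) (Additive.ofMul γ)) :
    ∃ w : parabolicHoms ℤ Γ ℤ, x = (p : ℤ) • w := by
  obtain ⟨v, hv⟩ := H91.exists_eq_nsmul_of_dvd p hp (x : Additive Γ →+ ℤ) (fun g => h (Additive.toMul g))
  have hvpar : v ∈ parabolicHoms ℤ Γ ℤ := by
    intro γ hγ
    have h1 : (x : Additive Γ →+ ℤ) (Additive.ofMul γ) = 0 := x.2 γ hγ
    rw [hv, AddMonoidHom.nsmul_apply, nsmul_eq_mul] at h1
    rcases mul_eq_zero.mp h1 with h2 | h2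
    · exact absurd (by exact_mod_cast h2) hp
    · exact h2
  refine ⟨⟨v, hvpar⟩, Subtype.ext ?_⟩
  rw [hv]
  show p • v = (p : ℤ) • v
  rw [natCast_zsmul]

/-- **(G-DUAL) from route C-I**: the dual of Ihara's lemma, unbundled. -/
theorem gDual_CI (h2 : H11.Fin2Stmt) (h3 : H11.Fin3Stmt) {N q p r : ℕ} (hN : 0 < N)
    (hq : q.Prime) (hqN : ¬ q ∣ N) (hp : p.Prime) (hp2 : p ≠ 2) (hr : r.Prime) (hrN : ¬ r ∣ N)
    (hParR : ParRStmt (N * q)) (hParL : ParLStmt N)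
    (hC1 : CoresStmt h2 hq hqN) (hC2 : CoresWStmt h2 hq hqN) (hSA : SAStmt h2 h3 hr hrN)
    (hInj : InjRStmt N p)
    (x y : Additive (Gamma0 N) →+ ℤ) (hx : IsParabolicHom (Gamma0 N) x)
    (hy : IsParabolicHom (Gamma0 N) y) :
    ∃ (z : Additive (Gamma0 (N * q)) →+ ℤ) (v₁ v₂ : Additive (Gamma0 N) →+ ℤ),
      IsParabolicHom (Gamma0 (N * q)) z ∧ IsParabolicHom (Gamma0 N) v₁ ∧
      IsParabolicHom (Gamma0 N) v₂ ∧
      S29.H06.heckeTr hr hrN x - (r + 1) • x = H19.coresOp hq hqN z + p • v₁ ∧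
      S29.H06.heckeTr hr hrN y - (r + 1) • y = H19.coresOp hq hqN (H19.wOp hq hqN z) + p • v₂ := by
  classical
  have : NeZero N := ⟨hN.ne'⟩
  have : Fact p.Prime := ⟨hp⟩
  have : Module.Finite ℤ (parabolicHoms ℤ (Gamma0 N) ℤ) := H34.finite_parabolicHoms_Gamma0 N
  -- parabolicity of the operators
  have hcores : ∀ z : Additive (Gamma0 (N * q)) →+ ℤ, IsParabolicHom (Gamma0 (N * q)) z →
      IsParabolicHom (Gamma0 N) (H19.coresOp hq hqN z) := fun z hz =>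
    H97.isParabolicHom_tr H97.int_torsionFree (H19.isTrFam_cores hq hqN) hz
  have hw : ∀ z : Additive (Gamma0 (N * q)) →+ ℤ, IsParabolicHom (Gamma0 (N * q)) z →
      IsParabolicHom (Gamma0 (N * q)) (H19.wOp hq hqN z) := fun z hz =>
    H97.isParabolicHom_tr H97.int_torsionFree (H19.isTrFam_w hq hqN) hz
  have hT : ∀ x : Additive (Gamma0 N) →+ ℤ, IsParabolicHom (Gamma0 N) x →
      IsParabolicHom (Gamma0 N) (S29.H06.heckeTr hr hrN x - (r + 1) • x) := by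
    intro x hx γ hγ
    have h1 := S29.H70.IsHeckeTr.isParabolicHom hr hrN (S29.H06.isHeckeTr_heckeTr hr hrN x) hx γ hγ
    rw [AddMonoidHom.sub_apply, AddMonoidHom.nsmul_apply, h1, hx γ hγ, smul_zero, sub_zero]
  -- the evaluation pairing and the subgroup `j L' + p Λ`
  let e : parabolicHoms ℤ (Gamma0 N) ℤ →+ (Additive (Gamma0 N) →+ ℤ) :=
    (parabolicHoms ℤ (Gamma0 N) ℤ).subtype.toAddMonoidHom
  let Q := H56.groupEval e
  have hQ : ∀ u : parabolicHoms ℤ (Gamma0 N) ℤ × parabolicHoms ℤ (Gamma0 N) ℤ,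
      (∀ g, (p : ℤ) ∣ Q g u) → ∃ w, u = (p : ℤ) • w := by
    intro u hu
    obtain ⟨w₁, hw₁⟩ := exists_parabolic_of_dvd p hp.ne_zero u.1 (fun γ => by
      have h := hu (Additive.ofMul γ, 0)
      rw [H56.groupEval_apply, map_zero, add_zero] at h
      exact h)
    obtain ⟨w₂, hw₂⟩ := exists_parabolic_of_dvd p hp.ne_zero u.2 (fun γ => by
      have h := hu (0, Additive.ofMul γ)
      rw [H56.groupEval_apply, map_zero, zero_add] at h
      exact h)
    exact ⟨(w₁, w₂), Prod.ext hw₁ hw₂⟩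
  let W : AddSubgroup (parabolicHoms ℤ (Gamma0 N) ℤ × parabolicHoms ℤ (Gamma0 N) ℤ) :=
    { carrier := {u | ∃ (z : Additive (Gamma0 (N * q)) →+ ℤ) (v₁ v₂ : Additive (Gamma0 N) →+ ℤ),
        IsParabolicHom (Gamma0 (N * q)) z ∧ IsParabolicHom (Gamma0 N) v₁ ∧
        IsParabolicHom (Gamma0 N) v₂ ∧
        (u.1 : Additive (Gamma0 N) →+ ℤ) = H19.coresOp hq hqN z + p • v₁ ∧
        (u.2 : Additive (Gamma0 N) →+ ℤ) = H19.coresOp hq hqN (H19.wOp hq hqN z) + p • v₂}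
      zero_mem' := ⟨0, 0, 0, fun _ _ => rfl, fun _ _ => rfl, fun _ _ => rfl, by simp, by simp⟩
      add_mem' := by
        rintro a b ⟨z, v₁, v₂, hz, hv₁, hv₂, e₁, e₂⟩ ⟨z', v₁', v₂', hz', hv₁', hv₂', e₁', e₂'⟩
        refine ⟨z + z', v₁ + v₁', v₂ + v₂', (parabolicHoms ℤ (Gamma0 (N * q)) ℤ).add_mem hz hz',
          (parabolicHoms ℤ (Gamma0 N) ℤ).add_mem hv₁ hv₁',
          (parabolicHoms ℤ (Gamma0 N) ℤ).add_mem hv₂ hv₂', ?_, ?_⟩
        · show (a.1 : Additive (Gamma0 N) →+ ℤ) + (b.1 : Additive (Gamma0 N) →+ ℤ) = _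
          rw [e₁, e₁', map_add, smul_add]
          abel
        · show (a.2 : Additive (Gamma0 N) →+ ℤ) + (b.2 : Additive (Gamma0 N) →+ ℤ) = _
          rw [e₂, e₂', map_add, map_add, smul_add]
          abel
      neg_mem' := by
        rintro a ⟨z, v₁, v₂, hz, hv₁, hv₂, e₁, e₂⟩
        refine ⟨-z, -v₁, -v₂, (parabolicHoms ℤ (Gamma0 (N * q)) ℤ).neg_mem hz,
          (parabolicHoms ℤ (Gamma0 N) ℤ).neg_mem hv₁,
          (parabolicHoms ℤ (Gamma0 N) ℤ).neg_mem hv₂, ?_, ?_⟩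
        · show -(a.1 : Additive (Gamma0 N) →+ ℤ) = _
          rw [e₁, map_neg, smul_neg]
          abel
        · show -(a.2 : Additive (Gamma0 N) →+ ℤ) = _
          rw [e₂, map_neg, map_neg, smul_neg]
          abel }
  have hWp : ∀ v : parabolicHoms ℤ (Gamma0 N) ℤ × parabolicHoms ℤ (Gamma0 N) ℤ,
      (p : ℤ) • v ∈ W := by
    intro v
    refine ⟨0, v.1, v.2, fun _ _ => rfl, v.1.2, v.2.2, ?_, ?_⟩
    · show (((p : ℤ) • v.1 : parabolicHoms ℤ (Gamma0 N) ℤ) : Additive (Gamma0 N) →+ ℤ) = _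
      rw [map_zero, zero_add, Submodule.coe_smul, natCast_zsmul]
    · show (((p : ℤ) • v.2 : parabolicHoms ℤ (Gamma0 N) ℤ) : Additive (Gamma0 N) →+ ℤ) = _
      rw [map_zero, map_zero, zero_add, Submodule.coe_smul, natCast_zsmul]
  -- the element `u = ((T_r - (r+1)) x, (T_r - (r+1)) y)`
  let u : parabolicHoms ℤ (Gamma0 N) ℤ × parabolicHoms ℤ (Gamma0 N) ℤ :=
    (⟨S29.H06.heckeTr hr hrN x - (r + 1) • x, hT x hx⟩,
      ⟨S29.H06.heckeTr hr hrN y - (r + 1) • y, hT y hy⟩)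
  have hu : u ∈ W := by
    by_contra hu
    obtain ⟨g, hgW, hgu⟩ := H56.exists_sep_of_eval p Q hQ W hWp u hu
    obtain ⟨g₁, g₂⟩ := g
    obtain ⟨γ₁, rfl⟩ := Additive.ofMul.surjective g₁
    obtain ⟨γ₂, rfl⟩ := Additive.ofMul.surjective g₂
    apply hgu
    have key := hkey_concrete h2 h3 hN hq hqN hp hp2 hr hrN hParR hParL hC1 hC2 hSA hInj γ₁ γ₂
      (fun z hz => by
        have hmem : ((⟨H19.coresOp hq hqN z, hcores z hz⟩,
            ⟨H19.coresOp hq hqN (H19.wOp hq hqN z), hcores _ (hw z hz)⟩) :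
            parabolicHoms ℤ (Gamma0 N) ℤ × parabolicHoms ℤ (Gamma0 N) ℤ) ∈ W :=
          ⟨z, 0, 0, hz, fun _ _ => rfl, fun _ _ => rfl, by simp, by simp⟩
        exact hgW _ hmem) x y hx hy
    show (p : ℤ) ∣ (S29.H06.heckeTr hr hrN x - (r + 1) • x) (Additive.ofMul γ₁) +
      (S29.H06.heckeTr hr hrN y - (r + 1) • y) (Additive.ofMul γ₂)
    simp only [AddMonoidHom.sub_apply, AddMonoidHom.nsmul_apply, nsmul_eq_mul]
    push_cast
    exact key
  obtain ⟨z, v₁, v₂, hz, hv₁, hv₂, e₁, e₂⟩ := hu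
  exact ⟨z, v₁, v₂, hz, hv₁, hv₂, e₁, e₂⟩

end Fermat.Agent.S41.H39
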