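import Mathlib
import Fermat.Agent.S41.CIOut_helper39
import Fermat.Agent.S41.CILeafPar_helper69
import Fermat.Agent.S41.CILeafInj_helper69
import Fermat.Agent.S41.IsectCoresInst_helper6
import Fermat.Agent.S41.SAClosed_helper36
import Fermat.Agent.S41.IsectClosed_helper11

/-!
# S41, node (C) CLOSED (route C-I): the dual of Ihara's lemma, hypothesis-free

`gDual`: for `0 < N`, primes `q ∤ N`, `p ≠ 2`, `r ∤ N` and parabolic characters `x y` of `Γ₀(N)`
with values in `ℤ` there are a parabolic character `z` of `Γ₀(N q)` and parabolic `v₁ v₂` with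
`T_r x - (r+1) x = cores z + p v₁` and `T_r y - (r+1) y = cores (w z) + p v₂`.

This is the contract `(G-DUAL)` of the top assembly, obtained from `H39.gDual_CI` and the six
landed leaves of the intersection-number route:
`H11.fin2Stmt`, `H11.fin3Stmt`, `H69.parRStmt`, `H69.parLStmt`, `H06.coresStmt`, `H06.coresWStmt`,
`H36.saStmt`, `H69.injRStmt`.
-/

set_option autoImplicit false

namespace Fermat.Agent.S41.H39

open CongruenceSubgroup Matrix
open scoped MatrixGroups
open Fermat.Agent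
open ModularCurve.Period

/-- **Dual Ihara, unbundled, hypothesis-free** (the contract `(G-DUAL)`). -/
theorem gDual {N q p r : ℕ} (hN : 0 < N) (hq : q.Prime) (hqN : ¬ q ∣ N) (hp : p.Prime)
    (hp2 : p ≠ 2) (hr : r.Prime) (hrN : ¬ r ∣ N)
    (x y : Additive (Gamma0 N) →+ ℤ) (hx : IsParabolicHom (Gamma0 N) x)
    (hy : IsParabolicHom (Gamma0 N) y) :
    ∃ (z : Additive (Gamma0 (N * q)) →+ ℤ) (v₁ v₂ : Additive (Gamma0 N) →+ ℤ),
      IsParabolicHom (Gamma0 (N * q)) z ∧ IsParabolicHom (Gamma0 N) v₁ ∧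
      IsParabolicHom (Gamma0 N) v₂ ∧
      S29.H06.heckeTr hr hrN x - (r + 1) • x = H19.coresOp hq hqN z + p • v₁ ∧
      S29.H06.heckeTr hr hrN y - (r + 1) • y = H19.coresOp hq hqN (H19.wOp hq hqN z) + p • v₂ :=
  gDual_CI H11.fin2Stmt H11.fin3Stmt hN hq hqN hp hp2 hr hrN (H69.parRStmt (N * q))
    (H69.parLStmt N) (H06.coresStmt H11.fin2Stmt hq hqN) (H06.coresWStmt H11.fin2Stmt hq hqN)
    (H36.saStmt H11.fin2Stmt H11.fin3Stmt hr hrN) (H69.injRStmt hN hp hp2) x y hx hy

end Fermat.Agent.S41.H39
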