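import Mathlib
import Fermat.Agent.S41.Isect_helper11

/-!
# S41, node (C), route C-I: the adjunction theorem for the intersection numbers (helper65)

`isect_adj_core` : for finite families `α : X → M₂(ℤ)` (`det > 0`), `β : Y → M₂(ℤ)` and a bijection
`X × Γ' ≃ Y × Γ` realising `adj (α x) * δ' = δ * β y`, every decomposition
`α x * γ = g' x * α (σ x)` gives `∑ x, isect Γ' u w (g' x) = ∑ y, isect Γ (β y u) (β y w) γ`.

Consequences (all modulo the two finiteness statements `Fin2Stmt`, `Fin3Stmt` of leaf I2):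
* `ipair_adj`    : the general adjunction formula for `ipair`;
* `isect_res`, `ipair_cores` : the projection formula for `Γ' ≤ Γ`;
* `ipair_conj`   : invariance under conjugation by an integer matrix of positive determinant
  normalising `Γ`;
* `ipair_hecke`  : self-adjointness for one family `α = β`.
-/

set_option autoImplicit false

namespace Fermat.Agent.S41.H65

open Matrix
open scoped MatrixGroups
open Fermat.Agent.S41.H11

/-- The side function of the image of the symbol `(u, w)` under an integer matrix. -/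
def sgM (u w : Fin 2 → ℤ) (m : Matrix (Fin 2) (Fin 2) ℤ) : ℤ := sg (m *ᵥ u) (m *ᵥ w)

theorem isectTerm_eq_sgM (u w : Fin 2 → ℤ) (γ δ : SL(2, ℤ)) :
    isectTerm u w γ δ = sgM u w (γ.1 * δ.1) - sgM u w δ.1 := by
  simp only [isectTerm, sgM, Matrix.SpecialLinearGroup.coe_mul]

theorem sgM_mul_right (u w : Fin 2 → ℤ) (m β : Matrix (Fin 2) (Fin 2) ℤ) :
    sgM u w (m * β) = sgM (β *ᵥ u) (β *ᵥ w) m := by
  simp only [sgM, Matrix.mulVec_mulVec]

theorem sgM_smul (u w : Fin 2 → ℤ) {a : ℤ} (ha : a ≠ 0) (m : Matrix (Fin 2) (Fin 2) ℤ) :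
    sgM u w (a • m) = sgM u w m := by
  simp only [sgM, Matrix.smul_mulVec]
  rw [sg_smul_left ha, sg_smul_right ha]

theorem sgM_eq_zero_of_det2 {u w : Fin 2 → ℤ} (h : det2 u w = 0) (m : Matrix (Fin 2) (Fin 2) ℤ) :
    sgM u w m = 0 := by
  simp only [sgM]
  exact sg_eq_zero_of_det2 (by rw [det2_mulVec, h, mul_zero])

/-- Left multiplication by a matrix of positive determinant changes `sgM` only if it changes
the sign of the base form. -/
theorem sgM_mul_left_of_sign_eq (u w : Fin 2 → ℤ) {A : Matrix (Fin 2) (Fin 2) ℤ} (hA : 0 < A.det)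
    (m : Matrix (Fin 2) (Fin 2) ℤ)
    (h : Int.sign (bform (A *ᵥ (m *ᵥ u)) (A *ᵥ (m *ᵥ w))) = Int.sign (bform (m *ᵥ u) (m *ᵥ w))) :
    sgM u w (A * m) = sgM u w m := by
  simp only [sgM, ← Matrix.mulVec_mulVec]
  simp only [sg, det2_mulVec A, Int.sign_mul, Int.sign_eq_one_of_pos hA, one_mul, h]

theorem adjugate_mulVec_mulVec (M : Matrix (Fin 2) (Fin 2) ℤ) (v : Fin 2 → ℤ) :
    M.adjugate *ᵥ (M *ᵥ v) = M.det • v := by
  rw [Matrix.mulVec_mulVec, Matrix.adjugate_mul, Matrix.smul_mulVec, Matrix.one_mulVec]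

theorem mulVec_injective_of_det {M : Matrix (Fin 2) (Fin 2) ℤ} (hM : M.det ≠ 0) {v v' : Fin 2 → ℤ}
    (h : M *ᵥ v = M *ᵥ v') : v = v' := by
  have h1 := adjugate_mulVec_mulVec M v
  rw [h, adjugate_mulVec_mulVec] at h1
  exact smul_right_injective _ hM h1.symm

theorem mulVec_ne_zero_of_det {M : Matrix (Fin 2) (Fin 2) ℤ} (hM : M.det ≠ 0) {v : Fin 2 → ℤ}
    (hv : v ≠ 0) : M *ᵥ v ≠ 0 := by
  intro h
  apply hv
  apply mulVec_injective_of_det hM
  rw [h, Matrix.mulVec_zero]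

/-- The basic finiteness statement: on the translates `M * d` (`d ∈ Γ`) of a matrix `M` of
nonzero determinant, left multiplication by a matrix `A` of positive determinant changes the
side function only finitely often. -/
theorem support_sgM_sub_finite (h2 : Fin2Stmt) (Γ : Subgroup SL(2, ℤ))
    (A M : Matrix (Fin 2) (Fin 2) ℤ) (hA : 0 < A.det) (hM : M.det ≠ 0) (u w : Fin 2 → ℤ) :
    (Function.support fun d : Γ =>
      sgM u w (A * (M * (d : SL(2, ℤ)).1)) - sgM u w (M * (d : SL(2, ℤ)).1)).Finite := by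
  by_cases hd : det2 u w = 0
  · have : (Function.support fun d : Γ =>
        sgM u w (A * (M * (d : SL(2, ℤ)).1)) - sgM u w (M * (d : SL(2, ℤ)).1)) = ∅ := by
      ext d; simp [sgM_eq_zero_of_det2 hd]
    rw [this]; exact Set.finite_empty
  · have hfin := h2 A hA.ne' (M.det * det2 u w) (mul_ne_zero hM hd)
    let φ : Γ → (Fin 2 → ℤ) × (Fin 2 → ℤ) := fun d =>
      ((M * (d : SL(2, ℤ)).1) *ᵥ u, (M * (d : SL(2, ℤ)).1) *ᵥ w)
    have hφ : Function.Injective φ := by
      intro d₁ d₂ h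
      have h1 : (M * (d₁ : SL(2, ℤ)).1) *ᵥ u = (M * (d₂ : SL(2, ℤ)).1) *ᵥ u := congrArg Prod.fst h
      have h2' : (M * (d₁ : SL(2, ℤ)).1) *ᵥ w = (M * (d₂ : SL(2, ℤ)).1) *ᵥ w := congrArg Prod.snd h
      rw [← Matrix.mulVec_mulVec, ← Matrix.mulVec_mulVec] at h1 h2'
      exact Subtype.ext (sl_eq_of_mulVec_eq hd (mulVec_injective_of_det hM h1)
        (mulVec_injective_of_det hM h2'))
    refine (hfin.preimage (hφ.injOn)).subset ?_
    intro d hd'
    simp only [Function.mem_support, ne_eq] at hd'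
    show det2 (φ d).1 (φ d).2 = M.det * det2 u w ∧
      Int.sign (bform (A *ᵥ (φ d).1) (A *ᵥ (φ d).2)) ≠ Int.sign (bform (φ d).1 (φ d).2)
    refine ⟨?_, fun hs => hd' ?_⟩
    · show det2 ((M * (d : SL(2, ℤ)).1) *ᵥ u) ((M * (d : SL(2, ℤ)).1) *ᵥ w) = _
      rw [det2_mulVec, Matrix.det_mul, (d : SL(2, ℤ)).2, mul_one]
    · rw [sgM_mul_left_of_sign_eq u w hA _ hs, sub_self]

/-- From `α x * γ = g' * α x'` to the adjugate relation. -/
theorem adjugate_mul_of_mul_eq {a a' : Matrix (Fin 2) (Fin 2) ℤ} (ha : a.det ≠ 0) {γ g' : SL(2, ℤ)}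
    (h : a * γ.1 = g'.1 * a') : a.adjugate * g'.1 = γ.1 * a'.adjugate := by
  have hdet : a.det = a'.det := by
    have := congrArg Matrix.det h
    rw [Matrix.det_mul, Matrix.det_mul, γ.2, g'.2, mul_one, one_mul] at this
    exact this
  have h1 : a.adjugate * (a * γ.1) * a'.adjugate = a.adjugate * (g'.1 * a') * a'.adjugate := by
    rw [h]
  have h2 : a.adjugate * (a * γ.1) * a'.adjugate = a.det • (γ.1 * a'.adjugate) := by
    rw [← Matrix.mul_assoc, Matrix.adjugate_mul, Matrix.smul_mul, Matrix.one_mul, Matrix.smul_mul]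
  have h3 : a.adjugate * (g'.1 * a') * a'.adjugate = a.det • (a.adjugate * g'.1) := by
    rw [Matrix.mul_assoc, Matrix.mul_assoc, Matrix.mul_adjugate, ← hdet, Matrix.mul_smul,
      Matrix.mul_one, Matrix.mul_smul]
  rw [h2, h3] at h1
  exact (smul_right_injective _ ha h1).symm

/-- **The adjunction theorem, core form.** -/
theorem isect_adj_core (h2 : Fin2Stmt) (Γ Γ' : Subgroup SL(2, ℤ)) {X Y : Type*} [Fintype X]
    [Fintype Y] (α : X → Matrix (Fin 2) (Fin 2) ℤ) (β : Y → Matrix (Fin 2) (Fin 2) ℤ)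
    (hα : ∀ x, 0 < (α x).det) (e : X × Γ' ≃ Y × Γ)
    (he : ∀ p : X × Γ', (α p.1).adjugate * ((p.2 : SL(2, ℤ)).1) =
      (((e p).2 : SL(2, ℤ)).1) * β (e p).1)
    (γ : SL(2, ℤ)) (σ : Equiv.Perm X) (g' : X → SL(2, ℤ)) (hg' : ∀ x, g' x ∈ Γ')
    (hdec : ∀ x, α x * γ.1 = (g' x).1 * α (σ x)) (u w : Fin 2 → ℤ) :
    ∑ x, isect Γ' u w (g' x) = ∑ y, isect Γ (β y *ᵥ u) (β y *ᵥ w) γ := by
  classical
  have hdetadj : ∀ x, (α x).adjugate.det ≠ 0 := by
    intro x
    rw [Matrix.det_adjugate]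
    simpa using (hα x).ne'
  -- the three auxiliary functions
  let K : X → Γ' → ℤ := fun x d =>
    sgM u w (d : SL(2, ℤ)).1 - sgM u w ((α x).adjugate * (d : SL(2, ℤ)).1)
  let Hf : X → Γ' → ℤ := fun x d =>
    sgM u w (γ.1 * ((α x).adjugate * (d : SL(2, ℤ)).1)) - sgM u w ((α x).adjugate * (d : SL(2, ℤ)).1)
  have hK : ∀ x, (Function.support (K x)).Finite := by
    intro x
    have := support_sgM_sub_finite h2 Γ' (α x) (α x).adjugate (hα x) (hdetadj x) u w
    refine this.subset ?_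
    intro d hd
    simp only [Function.mem_support, ne_eq] at hd ⊢
    rw [← Matrix.mul_assoc, Matrix.mul_adjugate, Matrix.smul_mul, Matrix.one_mul,
      sgM_smul u w (hα x).ne']
    exact hd
  have hHf : ∀ x, (Function.support (Hf x)).Finite := fun x =>
    support_sgM_sub_finite h2 Γ' γ.1 (α x).adjugate (by rw [γ.2]; exact one_pos) (hdetadj x) u w
  -- the key pointwise identity
  have hkey : ∀ (x : X) (d : Γ'), isectTerm u w (g' x) (d : SL(2, ℤ)) =
      K x (Equiv.mulLeft (⟨g' x, hg' x⟩ : Γ') d) - K (σ x) d + Hf (σ x) d := by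
    intro x d
    have hadj := adjugate_mul_of_mul_eq (hα x).ne' (hdec x)
    have e1 : (α x).adjugate * ((g' x).1 * (d : SL(2, ℤ)).1) =
        γ.1 * ((α (σ x)).adjugate * (d : SL(2, ℤ)).1) := by
      rw [← Matrix.mul_assoc, hadj, Matrix.mul_assoc]
    simp only [K, Hf, isectTerm_eq_sgM, Equiv.coe_mulLeft, Subgroup.coe_mul,
      Matrix.SpecialLinearGroup.coe_mul]
    rw [e1]
    ring
  let κ : X → ℤ := fun x => ∑ᶠ d : Γ', K x d
  let h : X → ℤ := fun x => ∑ᶠ d : Γ', Hf x d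
  have hx : ∀ x, isect Γ' u w (g' x) = κ x - κ (σ x) + h (σ x) := by
    intro x
    have hK1 : (Function.support fun d : Γ' => K x (Equiv.mulLeft (⟨g' x, hg' x⟩ : Γ') d)).Finite :=
      ((hK x).preimage ((Equiv.mulLeft (⟨g' x, hg' x⟩ : Γ')).injective.injOn)).subset
        (fun d hd => hd)
    simp only [isect]
    rw [finsum_congr (hkey x), finsum_add_distrib ?_ (hHf (σ x)),
      finsum_sub_distrib hK1 (hK (σ x)),
      finsum_comp_equiv (Equiv.mulLeft (⟨g' x, hg' x⟩ : Γ')) (f := K x)]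
    exact (hK1.union (hK (σ x))).subset (Function.support_sub _ _)
  have hsum1 : ∑ x, isect Γ' u w (g' x) = ∑ x, h x := by
    rw [Finset.sum_congr rfl (fun x _ => hx x), Finset.sum_add_distrib, Finset.sum_sub_distrib,
      Equiv.sum_comp σ κ, Equiv.sum_comp σ h, sub_self, zero_add]
  rw [hsum1]
  -- reindex along `e`
  let F : X × Γ' → ℤ := fun p => Hf p.1 p.2
  have hF : (Function.support F).Finite := by
    refine (Set.finite_iUnion fun x : X => (hHf x).image (fun d => (x, d))).subset ?_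
    rintro ⟨x, d⟩ hp
    simp only [Set.mem_iUnion, Set.mem_image]
    exact ⟨x, d, hp, rfl⟩
  let T : Y × Γ → ℤ := fun q => isectTerm (β q.1 *ᵥ u) (β q.1 *ᵥ w) γ (q.2 : SL(2, ℤ))
  have hT : (Function.support T).Finite := by
    refine (Set.finite_iUnion fun y : Y =>
      (isectTerm_support_finite h2 Γ (β y *ᵥ u) (β y *ᵥ w) γ).image (fun d => (y, d))).subset ?_
    rintro ⟨y, d⟩ hp
    simp only [Set.mem_iUnion, Set.mem_image]
    exact ⟨y, d, hp, rfl⟩
  have hFT : ∀ q : Y × Γ, F (e.symm q) = T q := by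
    intro q
    have := he (e.symm q)
    rw [Equiv.apply_symm_apply] at this
    show sgM u w (γ.1 * ((α (e.symm q).1).adjugate * (((e.symm q).2 : Γ') : SL(2, ℤ)).1)) -
        sgM u w ((α (e.symm q).1).adjugate * (((e.symm q).2 : Γ') : SL(2, ℤ)).1) =
      isectTerm (β q.1 *ᵥ u) (β q.1 *ᵥ w) γ (q.2 : SL(2, ℤ))
    rw [this, isectTerm_eq_sgM, ← sgM_mul_right, ← sgM_mul_right, Matrix.mul_assoc]
  calc ∑ x, h x = ∑ᶠ x, ∑ᶠ d : Γ', F (x, d) := by
        rw [finsum_eq_sum_of_fintype]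
    _ = ∑ᶠ p, F p := (finsum_curry F hF).symm
    _ = ∑ᶠ q, F (e.symm q) := (finsum_comp_equiv e.symm).symm
    _ = ∑ᶠ q, T q := finsum_congr hFT
    _ = ∑ᶠ y, ∑ᶠ d : Γ, T (y, d) := finsum_curry T hT
    _ = ∑ y, isect Γ (β y *ᵥ u) (β y *ᵥ w) γ := by
        rw [finsum_eq_sum_of_fintype]
        rfl

end Fermat.Agent.S41.H65
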