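/-
S41 / node (B) (helper19): bridge file.  The operators of `LevelOps_helper19` in the vocabulary
of `TransferGamma0_helper6` (`H06.res`, `H06.hecke`, `H06.heckeU`, `H06.ceta`), their
Hecke-linearity (instances of `HeckeComm_helper36`), and the maps `i`, `j` of level raising.
-/
import Fermat.Agent.S41.LevelOps_helper19
import Fermat.Agent.S41.TransferGamma0_helper6
import Fermat.Agent.S41.HeckeComm_helper36

set_option autoImplicit false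

namespace Fermat.Agent.S41.H19

open Matrix CongruenceSubgroup Fermat.Agent.S22
open scoped MatrixGroups

section Bridge

variable {A : Type*} [AddCommGroup A]

theorem gl_eq_H06 (M : ℕ) : gl M = H06.gl M := rfl

theorem resOp_eq_res (N q : ℕ) :
    (resOp N q : (Additive (Gamma0 N) →+ A) →+ _) = H06.res (Dvd.intro q rfl) := rfl

theorem tOp_eq_hecke {N q : ℕ} (hq : q.Prime) (hqN : ¬ q ∣ N) :
    (tOp hq hqN : (Additive (Gamma0 N) →+ A) →+ _) = H06.hecke hq hqN := rfl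

theorem uOp_eq_heckeU (N : ℕ) {q : ℕ} (hq : q ≠ 0) :
    (uOp N hq : (Additive (Gamma0 (N * q)) →+ A) →+ _) = H06.heckeU hq (Dvd.intro_left N rfl) :=
  rfl

/-- `w ∘ res` is the second degeneracy map `ceta` (conjugation by `η = diag(q,1)`). -/
theorem wOp_resOp_eq_ceta {N q : ℕ} (hq : q.Prime) (hqN : ¬ q ∣ N)
    (χ : Additive (Gamma0 N) →+ A) : wOp hq hqN (resOp N q χ) = H06.ceta hq.ne_zero χ := by
  refine AddMonoidHom.ext fun g => ?_
  obtain ⟨g', hrel⟩ := H06.exists_etaRel (Additive.toMul g)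
  have e1 := wOp_resOp_apply hq hqN χ (Additive.toMul g) g' hrel
  have e2 := H06.ceta_apply hq.ne_zero χ (Additive.toMul g) g' hrel
  simp only [ofMul_toMul] at e1 e2
  rw [e1, e2]

theorem tOp_eq_heckeTr {N q : ℕ} (hq : q.Prime) (hqN : ¬ q ∣ N) (χ : Additive (Gamma0 N) →+ A) :
    tOp hq hqN χ = Fermat.Agent.S29.H06.heckeTr hq hqN χ :=
  Fermat.Agent.S29.H06.IsHeckeTr.eq_heckeTr hq hqN (isHeckeTr_tOp hq hqN χ)

end Bridge

/-! ### Hecke-linearity of `res`, `cores`, `w` -/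

section Linear

variable {A : Type*} [AddCommGroup A]

theorem not_dvd_left {N q ℓ : ℕ} (h : ¬ ℓ ∣ N * q) : ¬ ℓ ∣ N := fun h' => h (Dvd.dvd.mul_right h' q)

/-- (5a) `T_ℓ (res χ) = res (T_ℓ χ)`. -/
theorem tOp_resOp {N q ℓ : ℕ} (hℓ : ℓ.Prime) (hℓNq : ¬ ℓ ∣ N * q) (χ : Additive (Gamma0 N) →+ A) :
    tOp hℓ hℓNq (resOp N q χ) = resOp N q (tOp hℓ (not_dvd_left hℓNq) χ) :=
  H36.tr_repT_res (ι := gl N) (ι' := gl (N * q)) (fun _ => rfl) (fun _ => rfl) (gl_injective N)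
    (gl_injective (N * q)) (isTrFam_res N q) (isTrFam_T hℓ (not_dvd_left hℓNq))
    (isTrFam_T hℓ hℓNq) χ

/-- `beta` is a complete irredundant system of representatives of `Γ₀(N q) \ Γ₀(N)`. -/
theorem beta_reps {N q : ℕ} (hq : q.Prime) (hqN : ¬ q ∣ N) (γ : Gamma0 N) :
    ∃! x, ∃ h : Gamma0 (N * q), (γ : SL(2, ℤ)) = (h : SL(2, ℤ)) * (beta N q x : SL(2, ℤ)) := by
  obtain ⟨y, g', hy⟩ := cores_cover hq hqN γ
  have e1 : γ = incl N q g' * beta N q y := by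
    apply gl_injective N
    rw [map_mul, gl_incl]
    exact hy
  refine ⟨y, ⟨g', congrArg (fun m : Gamma0 N => (m : SL(2, ℤ))) e1⟩, ?_⟩
  rintro x ⟨h, hx⟩
  have e2 : γ = incl N q h * beta N q x := Subtype.ext hx
  apply cores_inj hq hqN x y (h⁻¹ * g')
  show gl N (beta N q x) = gl (N * q) (h⁻¹ * g') * gl N (beta N q y)
  rw [← gl_incl, ← map_mul]
  congr 1
  have e3 : incl N q h * beta N q x = incl N q g' * beta N q y := e2.symm.trans e1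
  rw [map_mul, map_inv, mul_assoc, ← e3, inv_mul_cancel_left]

/-- (5b) `cores (T_ℓ ψ) = T_ℓ (cores ψ)`. -/
theorem coresOp_tOp {N q ℓ : ℕ} (hq : q.Prime) (hqN : ¬ q ∣ N) (hℓ : ℓ.Prime)
    (hℓNq : ¬ ℓ ∣ N * q) (ψ : Additive (Gamma0 (N * q)) →+ A) :
    coresOp hq hqN (tOp hℓ hℓNq ψ) = tOp hℓ (not_dvd_left hℓNq) (coresOp hq hqN ψ) :=
  H36.tr_repT_cores (ι := gl N) (ι' := gl (N * q)) hℓ hℓNq (fun _ => rfl) (fun _ => rfl)
    (gl_injective N) (gl_injective (N * q)) (beta N q) (beta_reps hq hqN)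
    (isTrFam_cores hq hqN) (isTrFam_T hℓ (not_dvd_left hℓNq)) (isTrFam_T hℓ hℓNq) ψ

/-- (5c) `T_ℓ (w ψ) = w (T_ℓ ψ)`. -/
theorem tOp_wOp {N q ℓ : ℕ} (hq : q.Prime) (hqN : ¬ q ∣ N) (hℓ : ℓ.Prime)
    (hℓNq : ¬ ℓ ∣ N * q) (ψ : Additive (Gamma0 (N * q)) →+ A) :
    tOp hℓ hℓNq (wOp hq hqN ψ) = wOp hq hqN (tOp hℓ hℓNq ψ) := by
  have h0 := bez hq hqN
  refine H36.tr_repT_al (ι' := gl (N * q)) hℓ hℓNq (fun _ => rfl) (gl_injective (N * q))
    (omega N q) 1 (b0 N q) 1 (d0 N q) (by linear_combination h0) ?_ (isTrFam_w hq hqN)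
    (isTrFam_T hℓ hℓNq) ψ
  rw [omega, G2_coe (det_omega hq hqN)]
  ext i j
  fin_cases i <;> fin_cases j <;> simp <;> ring

end Linear

/-! ### The maps `i` and `j` -/

section IJ

variable {A : Type*} [AddCommGroup A]

/-- `i (x, y) = res x + w (res y)` : `Hom(Γ₀(N), A)² → Hom(Γ₀(N q), A)`. -/
noncomputable def iOp {N q : ℕ} (hq : q.Prime) (hqN : ¬ q ∣ N) :
    (Additive (Gamma0 N) →+ A) × (Additive (Gamma0 N) →+ A) →+
      (Additive (Gamma0 (N * q)) →+ A) :=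
  (resOp N q).coprod ((wOp hq hqN).comp (resOp N q))

/-- `j z = (cores z, cores (w z))` : `Hom(Γ₀(N q), A) → Hom(Γ₀(N), A)²`. -/
noncomputable def jOp {N q : ℕ} (hq : q.Prime) (hqN : ¬ q ∣ N) :
    (Additive (Gamma0 (N * q)) →+ A) →+
      (Additive (Gamma0 N) →+ A) × (Additive (Gamma0 N) →+ A) :=
  (coresOp hq hqN).prod ((coresOp hq hqN).comp (wOp hq hqN))

theorem iOp_apply {N q : ℕ} (hq : q.Prime) (hqN : ¬ q ∣ N) (x y : Additive (Gamma0 N) →+ A) :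
    iOp hq hqN (x, y) = resOp N q x + wOp hq hqN (resOp N q y) := rfl

theorem jOp_apply {N q : ℕ} (hq : q.Prime) (hqN : ¬ q ∣ N)
    (z : Additive (Gamma0 (N * q)) →+ A) :
    jOp hq hqN z = (coresOp hq hqN z, coresOp hq hqN (wOp hq hqN z)) := rfl

/-- `(i (x, y)) g = x g + y (η g η⁻¹)`. -/
theorem iOp_apply_apply {N q : ℕ} (hq : q.Prime) (hqN : ¬ q ∣ N) (x y : Additive (Gamma0 N) →+ A)
    (g : Gamma0 (N * q)) (g' : Gamma0 N) (h : H39.EtaRel q (g : SL(2, ℤ)) (g' : SL(2, ℤ))) :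
    iOp hq hqN (x, y) (Additive.ofMul g)
      = x (Additive.ofMul (incl N q g)) + y (Additive.ofMul g') := by
  rw [iOp_apply, AddMonoidHom.add_apply, resOp_apply, wOp_resOp_apply hq hqN y g g' h]

/-- `j ∘ i = [[q+1, T_q],[T_q, q+1]]`. -/
theorem jOp_iOp {N q : ℕ} (hq : q.Prime) (hqN : ¬ q ∣ N) (x y : Additive (Gamma0 N) →+ A) :
    jOp hq hqN (iOp hq hqN (x, y))
      = ((q + 1) • x + tOp hq hqN y, tOp hq hqN x + (q + 1) • y) := by
  rw [jOp_apply, iOp_apply, coresOp_i, coresOp_wOp_i]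

/-- `i` is Hecke-linear. -/
theorem tOp_iOp {N q ℓ : ℕ} (hq : q.Prime) (hqN : ¬ q ∣ N) (hℓ : ℓ.Prime) (hℓNq : ¬ ℓ ∣ N * q)
    (x y : Additive (Gamma0 N) →+ A) :
    tOp hℓ hℓNq (iOp hq hqN (x, y))
      = iOp hq hqN (tOp hℓ (not_dvd_left hℓNq) x, tOp hℓ (not_dvd_left hℓNq) y) := by
  rw [iOp_apply, iOp_apply, map_add, tOp_resOp, tOp_wOp, tOp_resOp]

/-- `j` is Hecke-linear. -/
theorem jOp_tOp {N q ℓ : ℕ} (hq : q.Prime) (hqN : ¬ q ∣ N) (hℓ : ℓ.Prime) (hℓNq : ¬ ℓ ∣ N * q)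
    (z : Additive (Gamma0 (N * q)) →+ A) :
    jOp hq hqN (tOp hℓ hℓNq z)
      = (tOp hℓ (not_dvd_left hℓNq) (jOp hq hqN z).1,
         tOp hℓ (not_dvd_left hℓNq) (jOp hq hqN z).2) := by
  rw [jOp_apply, jOp_apply, coresOp_tOp, ← tOp_wOp, coresOp_tOp]

/-- `U_q² = 1` on `ker j`. -/
theorem uOp_uOp_of_jOp_eq_zero {N q : ℕ} (hq : q.Prime) (hqN : ¬ q ∣ N)
    (z : Additive (Gamma0 (N * q)) →+ A) (hz : jOp hq hqN z = 0) :
    uOp N hq.ne_zero (uOp N hq.ne_zero z) = z := by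
  rw [jOp_apply, Prod.mk_eq_zero] at hz
  exact uOp_uOp_of_ker hq hqN z hz.1 hz.2

end IJ

end Fermat.Agent.S41.H19
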