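import Mathlib
import Fermat.Agent.S41.IsectAdj_helper65
import Fermat.Agent.S41.LevelOpsBridge_helper19
import Fermat.Agent.S41.HeckeAL_helper35

/-!
# S41, node (C), route C-I: the level operators on the intersection homs (helper65)

In the vocabulary of `LevelOps_helper19` (`coresOp`, `wOp` = transfers along `coresFam`, `omega`):

* `coresOp_isectHom` : `cores (isect Γ₀(Nq) u w ·) = isect Γ₀(N) u w ·`;
* `wOp_isectHom`     : `w (isect Γ₀(Nq) u w ·) = isect Γ₀(Nq) (adj Ω u) (adj Ω w) ·`;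
* `coresOp_ipair`, `coresOp_wOp_ipair` : the consumer forms for `z = ⟨g₀, ·⟩ = ipair Γ₀(Nq) g₀`.
-/

set_option autoImplicit false

namespace Fermat.Agent.S41.H65

open Matrix CongruenceSubgroup
open scoped MatrixGroups
open Fermat.Agent.S41.H11

/-- An identity in `GL₂(ℝ)` between products of integral elements gives the identity of the
integer matrices. -/
theorem int_eq_of_gl_eq {A₁ A₂ B₁ B₂ : GL (Fin 2) ℝ} {P₁ P₂ Q₁ Q₂ : Matrix (Fin 2) (Fin 2) ℤ}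
    (h₁ : H06.IsInt A₁ P₁) (h₂ : H06.IsInt A₂ P₂) (k₁ : H06.IsInt B₁ Q₁) (k₂ : H06.IsInt B₂ Q₂)
    (h : A₁ * A₂ = B₁ * B₂) : P₁ * P₂ = Q₁ * Q₂ := by
  have e1 := h₁.mul h₂
  have e2 := k₁.mul k₂
  rw [h] at e1
  unfold H06.IsInt at e1 e2
  exact Matrix.map_injective Int.cast_injective (e1.symm.trans e2)

theorem isInt_gl19 (M : ℕ) (γ : Gamma0 M) :
    H06.IsInt (H19.gl M γ) ((γ : SL(2, ℤ)) : Matrix (Fin 2) (Fin 2) ℤ) :=
  H06.isInt_gl M γ

/-- The symbol `{v, g v}` gives the same intersection numbers as `{∞, g ∞}`. -/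
theorem isect_self_translate (h2 : Fin2Stmt) (h3 : Fin3Stmt) (Γ : Subgroup SL(2, ℤ))
    {g γ : SL(2, ℤ)} (hg : g ∈ Γ) (hγ : γ ∈ Γ) {v : Fin 2 → ℤ} (hv : v ≠ 0) :
    isect Γ v (g.1 *ᵥ v) γ = ipair Γ g γ := by
  have hgv : g.1 *ᵥ v ≠ 0 := sl_mulVec_ne_zero g hv
  have hge : g.1 *ᵥ ![1, 0] ≠ 0 := sl_mulVec_ne_zero g e1_ne_zero
  rw [isect_add h2 h3 Γ hv e1_ne_zero hgv hγ, isect_add h2 h3 Γ e1_ne_zero hge hgv hγ,
    isect_inv Γ hg, isect_swap Γ ![1, 0] v γ]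
  simp only [ipair]
  ring

/-! ### Corestriction -/

/-- The bijection `(x, δ') ↦ (β_x)⁻¹ δ'` from `X × Γ₀(Nq)` onto `Γ₀(N)`. -/
noncomputable def coresEquiv {N q : ℕ} (hq : q.Prime) (hqN : ¬ q ∣ N) :
    Option (Fin q) × Gamma0 (N * q) ≃ Unit × Gamma0 N :=
  Equiv.ofBijective (fun p => ((), (H19.beta N q p.1)⁻¹ * H19.incl N q p.2)) (by
    constructor
    · rintro ⟨x, d⟩ ⟨x', d'⟩ h
      have h1 : (H19.beta N q x)⁻¹ * H19.incl N q d = (H19.beta N q x')⁻¹ * H19.incl N q d' :=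
        congrArg Prod.snd h
      obtain ⟨y, -, hy⟩ := H19.beta_reps hq hqN ((H19.beta N q x)⁻¹ * H19.incl N q d)⁻¹
      have hx : x = y := hy x ⟨d⁻¹, by
        show (((H19.beta N q x)⁻¹ * H19.incl N q d)⁻¹ : Gamma0 N).1 = _
        rw [_root_.mul_inv_rev, inv_inv]; rfl⟩
      have hx' : x' = y := hy x' ⟨d'⁻¹, by
        show (((H19.beta N q x)⁻¹ * H19.incl N q d)⁻¹ : Gamma0 N).1 = _
        rw [h1, _root_.mul_inv_rev, inv_inv]; rfl⟩
      have hxx : x = x' := hx.trans hx'.symm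
      subst hxx
      have h2 : H19.incl N q d = H19.incl N q d' := mul_left_cancel h1
      have h3 : d = d' := Subtype.ext (congrArg (fun m : Gamma0 N => (m : SL(2, ℤ))) h2)
      rw [h3]
    · rintro ⟨⟨⟩, δ⟩
      obtain ⟨x, ⟨h, hx⟩, -⟩ := H19.beta_reps hq hqN δ⁻¹
      refine ⟨(x, h⁻¹), ?_⟩
      have e : δ⁻¹ = H19.incl N q h * H19.beta N q x := Subtype.ext hx
      have e' : δ = (H19.beta N q x)⁻¹ * H19.incl N q h⁻¹ := by
        rw [← inv_inv δ, e, _root_.mul_inv_rev, map_inv]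
      simp only [Prod.mk.injEq, true_and]
      exact e'.symm)

theorem coresEquiv_spec {N q : ℕ} (hq : q.Prime) (hqN : ¬ q ∣ N)
    (p : Option (Fin q) × Gamma0 (N * q)) :
    ((H19.beta N q p.1 : Gamma0 N) : SL(2, ℤ)).1.adjugate * ((p.2 : SL(2, ℤ)).1) =
      (((coresEquiv hq hqN p).2 : SL(2, ℤ)).1) * (1 : Matrix (Fin 2) (Fin 2) ℤ) := by
  rw [Matrix.mul_one]
  show _ = ((((H19.beta N q p.1)⁻¹ * H19.incl N q p.2 : Gamma0 N) : SL(2, ℤ))).1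
  rw [Subgroup.coe_mul, Subgroup.coe_inv, Matrix.SpecialLinearGroup.coe_mul,
    Matrix.SpecialLinearGroup.coe_inv]
  rfl

/-- **Corestriction of an intersection hom.** -/
theorem coresOp_isectHom (h2 : Fin2Stmt) {N q : ℕ} (hq : q.Prime) (hqN : ¬ q ∣ N)
    (u w : Fin 2 → ℤ) :
    H19.coresOp hq hqN (isectHom h2 (Gamma0 (N * q)) u w) = isectHom h2 (Gamma0 N) u w := by
  refine AddMonoidHom.ext fun γ' => ?_
  obtain ⟨γ, rfl⟩ : ∃ γ : Gamma0 N, Additive.ofMul γ = γ' := ⟨Additive.toMul γ', rfl⟩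
  obtain ⟨σ, g', hd⟩ := H19.isTrFam_cores hq hqN γ
  rw [H19.coresOp, H06.tr_apply _ _ _ hd]
  simp only [isectHom_apply]
  have hdec : ∀ x, ((H19.beta N q x : Gamma0 N) : SL(2, ℤ)).1 * (γ : SL(2, ℤ)).1 =
      ((g' x : Gamma0 (N * q)) : SL(2, ℤ)).1 * ((H19.beta N q (σ x) : Gamma0 N) : SL(2, ℤ)).1 := by
    intro x
    exact int_eq_of_gl_eq (isInt_gl19 N (H19.beta N q x)) (isInt_gl19 N γ)
      (isInt_gl19 (N * q) (g' x)) (isInt_gl19 N (H19.beta N q (σ x))) (hd x)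
  have key := isect_adj_core h2 (Gamma0 N) (Gamma0 (N * q))
    (fun x => ((H19.beta N q x : Gamma0 N) : SL(2, ℤ)).1) (fun _ : Unit => 1)
    (fun x => by rw [((H19.beta N q x : Gamma0 N) : SL(2, ℤ)).2]; exact one_pos)
    (coresEquiv hq hqN) (coresEquiv_spec hq hqN) (γ : SL(2, ℤ)) σ
    (fun x => ((g' x : Gamma0 (N * q)) : SL(2, ℤ))) (fun x => (g' x).2) hdec u w
  rw [key]
  simp

/-- The consumer form: `cores ⟨g₀, ·⟩_{Γ₀(Nq)} = ⟨g₀, ·⟩_{Γ₀(N)}`. -/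
theorem coresOp_ipair (h2 : Fin2Stmt) {N q : ℕ} (hq : q.Prime) (hqN : ¬ q ∣ N) (g₀ : SL(2, ℤ))
    (γ : Gamma0 N) :
    H19.coresOp hq hqN (isectHom h2 (Gamma0 (N * q)) ![1, 0] (g₀.1 *ᵥ ![1, 0]))
      (Additive.ofMul γ) = ipair (Gamma0 N) g₀ (γ : SL(2, ℤ)) := by
  rw [coresOp_isectHom h2 hq hqN]
  rfl

/-! ### The Atkin–Lehner operator -/

/-- The integer Atkin–Lehner matrix `Ω = [[q, b₀], [q N, q d₀]]`. -/
def omegaZ (N q : ℕ) : Matrix (Fin 2) (Fin 2) ℤ :=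
  !![(q : ℤ), H19.b0 N q; (q : ℤ) * N, (q : ℤ) * H19.d0 N q]

theorem det_omegaZ {N q : ℕ} (hq : q.Prime) (hqN : ¬ q ∣ N) : (omegaZ N q).det = q := by
  rw [omegaZ, Matrix.det_fin_two_of]
  linear_combination (q : ℤ) * H19.bez hq hqN

theorem isInt_omega {N q : ℕ} (hq : q.Prime) (hqN : ¬ q ∣ N) :
    H06.IsInt (H19.omega N q) (omegaZ N q) := by
  unfold H06.IsInt
  rw [H19.omega, H19.G2_coe (H19.det_omega hq hqN), omegaZ]
  ext i j
  fin_cases i <;> fin_cases j <;> simp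

/-- `Ω γ = g' Ω` over `ℤ` from the relation in `GL₂(ℝ)`. -/
theorem omegaZ_mul_of_gl {N q : ℕ} (hq : q.Prime) (hqN : ¬ q ∣ N) {γ g' : Gamma0 (N * q)}
    (h : H19.omega N q * H19.gl (N * q) γ = H19.gl (N * q) g' * H19.omega N q) :
    omegaZ N q * (γ : SL(2, ℤ)).1 = (g' : SL(2, ℤ)).1 * omegaZ N q :=
  int_eq_of_gl_eq (isInt_omega hq hqN) (isInt_gl19 _ γ) (isInt_gl19 _ g') (isInt_omega hq hqN) h

theorem omegaZ_mul_cancel {N q : ℕ} (hq : q.Prime) (hqN : ¬ q ∣ N)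
    {P Q : Matrix (Fin 2) (Fin 2) ℤ} (h : omegaZ N q * P = omegaZ N q * Q) : P = Q := by
  have h1 := congrArg (fun m => (omegaZ N q).adjugate * m) h
  simp only [← Matrix.mul_assoc, Matrix.adjugate_mul, det_omegaZ hq hqN, Matrix.smul_mul,
    Matrix.one_mul] at h1
  exact smul_right_injective _ (by exact_mod_cast hq.ne_zero : (q : ℤ) ≠ 0) h1

theorem mul_omegaZ_cancel {N q : ℕ} (hq : q.Prime) (hqN : ¬ q ∣ N)
    {P Q : Matrix (Fin 2) (Fin 2) ℤ} (h : P * omegaZ N q = Q * omegaZ N q) : P = Q := by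
  have h1 := congrArg (fun m => m * (omegaZ N q).adjugate) h
  simp only [Matrix.mul_assoc, Matrix.mul_adjugate, det_omegaZ hq hqN, Matrix.mul_smul,
    Matrix.mul_one] at h1
  exact smul_right_injective _ (by exact_mod_cast hq.ne_zero : (q : ℤ) ≠ 0) h1

/-- Conjugation by `Ω` as a bijection of `Γ₀(Nq)`: `Ω * δ = c δ * Ω`. -/
theorem exists_omega_equiv {N q : ℕ} (hq : q.Prime) (hqN : ¬ q ∣ N) :
    ∃ c : Gamma0 (N * q) ≃ Gamma0 (N * q), ∀ δ : Gamma0 (N * q),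
      omegaZ N q * (δ : SL(2, ℤ)).1 = (c δ : SL(2, ℤ)).1 * omegaZ N q := by
  choose f hf using fun δ : Gamma0 (N * q) => H19.omega_conj hq hqN δ
  have hf' : ∀ δ : Gamma0 (N * q),
      omegaZ N q * (δ : SL(2, ℤ)).1 = (f δ : SL(2, ℤ)).1 * omegaZ N q :=
    fun δ => omegaZ_mul_of_gl hq hqN (hf δ)
  have hω : H35AL.IsALMatrix N q (H19.omega N q) := by
    refine ⟨1, H19.b0 N q, 1, H19.d0 N q, by linear_combination H19.bez hq hqN, ?_⟩
    have hc := H19.G2_coe (H19.det_omega (N := N) hq hqN)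
    have e00 := congrFun (congrFun hc 0) 0
    have e01 := congrFun (congrFun hc 0) 1
    have e10 := congrFun (congrFun hc 1) 0
    have e11 := congrFun (congrFun hc 1) 1
    simp only [Matrix.of_apply, Matrix.cons_val_zero, Matrix.cons_val_one] at e00 e01 e10 e11
    refine ⟨?_, ?_, ?_, ?_⟩
    · exact e00.trans (by first | rfl | (push_cast; ring))
    · exact e01
    · exact e10.trans (by first | rfl | (push_cast; ring))
    · exact e11.trans (by push_cast; ring)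
  refine ⟨Equiv.ofBijective f ⟨?_, ?_⟩, hf'⟩
  · intro δ₁ δ₂ h
    have h1 := hf' δ₁
    rw [h, ← hf' δ₂] at h1
    exact Subtype.ext (Subtype.ext (omegaZ_mul_cancel hq hqN h1))
  · intro k
    obtain ⟨k', hk'⟩ := hω.exists_conj' k
    refine ⟨k', ?_⟩
    have h1 : (k : SL(2, ℤ)).1 * omegaZ N q = omegaZ N q * (k' : SL(2, ℤ)).1 :=
      int_eq_of_gl_eq (H06.isInt_coe _) (isInt_omega hq hqN) (isInt_omega hq hqN)
        (H06.isInt_coe _) hk'
    have h2 := hf' k'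
    rw [← h1] at h2
    exact Subtype.ext (Subtype.ext (mul_omegaZ_cancel hq hqN h2.symm))

/-- **The Atkin–Lehner operator on an intersection hom.** -/
theorem wOp_isectHom (h2 : Fin2Stmt) {N q : ℕ} (hq : q.Prime) (hqN : ¬ q ∣ N)
    (u w : Fin 2 → ℤ) :
    H19.wOp hq hqN (isectHom h2 (Gamma0 (N * q)) u w) =
      isectHom h2 (Gamma0 (N * q)) ((omegaZ N q).adjugate *ᵥ u) ((omegaZ N q).adjugate *ᵥ w) := by
  refine AddMonoidHom.ext fun γ' => ?_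
  obtain ⟨γ, rfl⟩ : ∃ γ : Gamma0 (N * q), Additive.ofMul γ = γ' := ⟨Additive.toMul γ', rfl⟩
  obtain ⟨g', hg'⟩ := H19.omega_conj hq hqN γ
  rw [H19.wOp, H06.tr_single_apply _ _ _ hg']
  simp only [isectHom_apply]
  obtain ⟨c, hc⟩ := exists_omega_equiv hq hqN
  have hdet := det_omegaZ hq hqN
  have hq0 : (0 : ℤ) < q := by exact_mod_cast hq.pos
  -- the bijection `adj Ω * δ' = c⁻¹ δ' * adj Ω`
  have he : ∀ p : Unit × Gamma0 (N * q), (omegaZ N q).adjugate * ((p.2 : SL(2, ℤ)).1) =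
      ((((Equiv.refl Unit).prodCongr c.symm p).2 : SL(2, ℤ)).1) * (omegaZ N q).adjugate := by
    rintro ⟨⟨⟩, δ⟩
    have h1 := hc (c.symm δ)
    rw [Equiv.apply_symm_apply] at h1
    exact adjugate_mul_of_mul_eq (by rw [hdet]; exact hq0.ne') h1
  have key := isect_adj_core h2 (Gamma0 (N * q)) (Gamma0 (N * q))
    (fun _ : Unit => omegaZ N q) (fun _ : Unit => (omegaZ N q).adjugate)
    (fun _ => by rw [hdet]; exact hq0)
    ((Equiv.refl Unit).prodCongr c.symm) he (γ : SL(2, ℤ)) (Equiv.refl Unit)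
    (fun _ => ((g' : Gamma0 (N * q)) : SL(2, ℤ))) (fun _ => g'.2)
    (fun _ => omegaZ_mul_of_gl hq hqN hg') u w
  simpa using key

/-- The consumer form: `cores (w ⟨g₀, ·⟩_{Γ₀(Nq)}) = ⟨g₁, ·⟩_{Γ₀(N)}` for `g₀ = ω g₁ ω⁻¹`. -/
theorem coresOp_wOp_ipair (h2 : Fin2Stmt) (h3 : Fin3Stmt) {N q : ℕ} (hq : q.Prime)
    (hqN : ¬ q ∣ N) (g₀ g₁ : Gamma0 (N * q))
    (h : H19.omega N q * H19.gl (N * q) g₁ = H19.gl (N * q) g₀ * H19.omega N q) (γ : Gamma0 N) :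
    H19.coresOp hq hqN (H19.wOp hq hqN
        (isectHom h2 (Gamma0 (N * q)) ![1, 0] ((g₀ : SL(2, ℤ)).1 *ᵥ ![1, 0])))
      (Additive.ofMul γ) = ipair (Gamma0 N) (g₁ : SL(2, ℤ)) (γ : SL(2, ℤ)) := by
  rw [wOp_isectHom h2 hq hqN, coresOp_isectHom h2 hq hqN, isectHom_apply]
  have hdet := det_omegaZ hq hqN
  have hq0 : (q : ℤ) ≠ 0 := by exact_mod_cast hq.ne_zero
  have h1 := adjugate_mul_of_mul_eq (by rw [hdet]; exact hq0) (omegaZ_mul_of_gl hq hqN h)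
  have hv : (omegaZ N q).adjugate *ᵥ ![1, 0] ≠ 0 :=
    mulVec_ne_zero_of_det (by rw [Matrix.det_adjugate, hdet]; simpa using hq0) e1_ne_zero
  rw [Matrix.mulVec_mulVec, h1, ← Matrix.mulVec_mulVec]
  exact isect_self_translate h2 h3 (Gamma0 N) (H19.Gamma0_mul_le N q g₁.2) γ.2 hv

end Fermat.Agent.S41.H65
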