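import Mathlib
import Fermat.Agent.S41.IsectOps_helper65
import Fermat.Agent.S41.CITop_helper39

/-!
# S41, node (C), route C-I: the leaves `CoresStmt` and `CoresWStmt` of `H39.hkey_concrete`

`coresStmt h2 hq hqN : H39.CoresStmt h2 hq hqN` (adjunction for the corestriction, from
`H65.coresOp_ipair`) and `coresWStmt h2 h3 hq hqN : H39.CoresWStmt h2 hq hqN` (adjunction for
corestriction after the Atkin-Lehner conjugation, from `H65.coresOp_wOp_ipair`), for arbitrary
proofs `h2 : H11.Fin2Stmt`, `h3 : H11.Fin3Stmt` of the two finiteness statements.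
-/

set_option autoImplicit false

namespace Fermat.Agent.S41.H65

open CongruenceSubgroup Matrix
open scoped MatrixGroups
open Fermat.Agent

/-- (ADJ-cores), literal leaf `H39.CoresStmt h2 hq hqN`. -/
theorem coresStmt (h2 : H11.Fin2Stmt) {N q : ℕ} (hq : q.Prime) (hqN : ¬ q ∣ N) :
    H39.CoresStmt h2 hq hqN :=
  fun g₀ γ => coresOp_ipair h2 hq hqN (g₀ : SL(2, ℤ)) γ

/-- (ADJ-cores) + (ADJ-conj), literal leaf `H39.CoresWStmt h2 hq hqN`. -/
theorem coresWStmt (h2 : H11.Fin2Stmt) (h3 : H11.Fin3Stmt) {N q : ℕ} (hq : q.Prime)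
    (hqN : ¬ q ∣ N) : H39.CoresWStmt h2 hq hqN :=
  fun g₀ g₁ h γ => coresOp_wOp_ipair h2 h3 hq hqN g₀ g₁ h γ

end Fermat.Agent.S41.H65
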