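import Mathlib

/-!
# (C-CUSP): positive parabolic elements of `SL(2, ℤ)` and their conjugacy classes

* `PosPar g`: trace `2` and `b - c > 0`; `posPar_iff`: these are the conjugates `t⁻¹ T^m t`, `m > 0`.
* `posPar_of_conj_real` / `posPar_of_conj_GL`: invariance under conjugation by real matrices of
  positive determinant.
* `IsWidth`, `IsPrim`, `exists_root`, `root_unique`, `IsWidth.centralizer`: primitive elements,
  roots and centralisers in a subgroup `Γ`.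
* `IsClassReps`, `conj_iff`, `isClassReps_of_orbitReps`, `IsClassReps.map`,
  `sum_eq_of_isClassReps`: systems of representatives of the classes of primitive elements.
-/

namespace Fermat.Agent.S41.H93

open Matrix ModularGroup
open scoped MatrixGroups

/-- Positive parabolic elements of `SL(2, ℤ)`: trace `2` and `b - c > 0`. -/
def PosPar (g : SL(2, ℤ)) : Prop := g 0 0 + g 1 1 = 2 ∧ 0 < g 0 1 - g 1 0

theorem sl2_ext {g h : SL(2, ℤ)} (h00 : g 0 0 = h 0 0) (h01 : g 0 1 = h 0 1)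
    (h10 : g 1 0 = h 1 0) (h11 : g 1 1 = h 1 1) : g = h := by
  ext i j; fin_cases i <;> fin_cases j <;> assumption

theorem sl2_det (g : SL(2, ℤ)) : g 0 0 * g 1 1 - g 0 1 * g 1 0 = 1 := by
  have := g.det_coe; rwa [Matrix.det_fin_two] at this

theorem mul_entry (g h : SL(2, ℤ)) (i j : Fin 2) :
    (g * h) i j = g i 0 * h 0 j + g i 1 * h 1 j := by
  rw [Matrix.SpecialLinearGroup.coe_mul, Matrix.mul_apply, Fin.sum_univ_two]

theorem inv_entry (g : SL(2, ℤ)) :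
    g⁻¹ 0 0 = g 1 1 ∧ g⁻¹ 0 1 = -g 0 1 ∧ g⁻¹ 1 0 = -g 1 0 ∧ g⁻¹ 1 1 = g 0 0 := by
  rw [Matrix.SpecialLinearGroup.SL2_inv_expl]
  exact ⟨rfl, rfl, rfl, rfl⟩

theorem neg_entry (g : SL(2, ℤ)) (i j : Fin 2) : (-g) i j = -(g i j) := by
  rw [Matrix.SpecialLinearGroup.coe_neg]; rfl

theorem Tz_entry (n : ℤ) :
    (T ^ n) 0 0 = 1 ∧ (T ^ n) 0 1 = n ∧ (T ^ n) 1 0 = 0 ∧ (T ^ n) 1 1 = 1 := by
  have h := coe_T_zpow n
  refine ⟨?_, ?_, ?_, ?_⟩ <;> · rw [h]; rfl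

/-- Entries of the conjugate `t⁻¹ T^m t`. -/
theorem conjT_entry (t : SL(2, ℤ)) (m : ℤ) :
    (t⁻¹ * T ^ m * t) 0 0 = 1 + t 1 0 * t 1 1 * m ∧ (t⁻¹ * T ^ m * t) 0 1 = t 1 1 ^ 2 * m ∧
    (t⁻¹ * T ^ m * t) 1 0 = -(t 1 0 ^ 2 * m) ∧ (t⁻¹ * T ^ m * t) 1 1 = 1 - t 1 0 * t 1 1 * m := by
  have hd := sl2_det t
  obtain ⟨h1, h2, h3, h4⟩ := Tz_entry m
  obtain ⟨i1, i2, i3, i4⟩ := inv_entry t
  simp only [mul_entry, h1, h2, h3, h4, i1, i2, i3, i4]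
  refine ⟨?_, ?_, ?_, ?_⟩
  · linear_combination hd
  · ring
  · ring
  · linear_combination hd

theorem bottom_sq_pos (t : SL(2, ℤ)) : 0 < t 1 0 ^ 2 + t 1 1 ^ 2 := by
  have hd := sl2_det t
  rcases eq_or_ne (t 1 0) 0 with h | h
  · have h1 : t 1 1 ≠ 0 := by
      intro h1; rw [h, h1] at hd; simp at hd
    positivity
  · positivity

theorem posPar_conjT_iff (t : SL(2, ℤ)) (m : ℤ) : PosPar (t⁻¹ * T ^ m * t) ↔ 0 < m := by
  obtain ⟨h1, h2, h3, h4⟩ := conjT_entry t m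
  have hp := bottom_sq_pos t
  unfold PosPar
  rw [h1, h2, h3, h4]
  constructor
  · rintro ⟨-, h⟩
    have : 0 < (t 1 0 ^ 2 + t 1 1 ^ 2) * m := by linarith
    exact (mul_pos_iff_of_pos_left hp).mp this
  · intro hm
    refine ⟨by ring, ?_⟩
    have : 0 < (t 1 0 ^ 2 + t 1 1 ^ 2) * m := mul_pos hp hm
    linarith

theorem eq_T_zpow_of (h : SL(2, ℤ)) (h00 : h 0 0 = 1) (h10 : h 1 0 = 0) : h = T ^ (h 0 1) := by
  have hd := sl2_det h
  obtain ⟨h1, h2, h3, h4⟩ := Tz_entry (h 0 1)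
  rw [h00, h10] at hd
  apply sl2_ext
  · rw [h1, h00]
  · rw [h2]
  · rw [h3, h10]
  · rw [h4]; linarith


/-- A primitive integer vector fixed by a parabolic element. -/
theorem exists_fixed_vec (g : SL(2, ℤ)) (hg : PosPar g) :
    ∃ v₀ v₁ p q : ℤ, p * v₀ + q * v₁ = 1 ∧ (g 0 0 - 1) * v₀ + g 0 1 * v₁ = 0 ∧
      g 1 0 * v₀ - (g 0 0 - 1) * v₁ = 0 := by
  have hd := sl2_det g
  obtain ⟨htr, hpos⟩ := hg
  have hx : (g 0 0 - 1) ^ 2 + g 0 1 * g 1 0 = 0 := by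
    have h11 : g 1 1 = 2 - g 0 0 := by linarith
    rw [h11] at hd
    linear_combination -hd
  by_cases h0 : Int.gcd (g 0 1) (g 0 0 - 1) = 0
  · rw [Int.gcd_eq_zero_iff] at h0
    refine ⟨0, 1, 0, 1, by ring, ?_, ?_⟩
    · rw [h0.1, h0.2]; ring
    · rw [h0.2]; ring
  · obtain ⟨b', x', hcop, hb, hxx⟩ := Int.exists_gcd_one (Nat.pos_of_ne_zero h0)
    have hbez := Int.gcd_eq_gcd_ab b' x'
    rw [hcop] at hbez
    set d : ℤ := ((Int.gcd (g 0 1) (g 0 0 - 1) : ℕ) : ℤ) with hd_def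
    have hd0 : d ≠ 0 := by
      rw [hd_def]; exact_mod_cast h0
    refine ⟨b', -x', Int.gcdA b' x', -Int.gcdB b' x', ?_, ?_, ?_⟩
    · push_cast at hbez; linear_combination -hbez
    · rw [hxx, hb]; ring
    · have : d * (g 1 0 * b' - (g 0 0 - 1) * -x') = 0 := by
        have e1 : d * b' = g 0 1 := by linear_combination -hb
        have e2 : d * x' = g 0 0 - 1 := by linear_combination -hxx
        calc d * (g 1 0 * b' - (g 0 0 - 1) * -x')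
            = g 1 0 * (d * b') + (g 0 0 - 1) * (d * x') := by ring
          _ = 0 := by rw [e1, e2]; linear_combination hx
      rcases mul_eq_zero.mp this with h | h
      · exact absurd h hd0
      · exact h

/-- **(1)** Positive parabolic elements are the conjugates of positive powers of `T`. -/
theorem posPar_iff_zpow (g : SL(2, ℤ)) :
    PosPar g ↔ ∃ (t : SL(2, ℤ)) (m : ℤ), 0 < m ∧ g = t⁻¹ * T ^ m * t := by
  constructor
  · intro hg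
    obtain ⟨v₀, v₁, p, q, hbez, e1, e2⟩ := exists_fixed_vec g hg
    have htr := hg.1
    let t : SL(2, ℤ) := ⟨!![p, q; -v₁, v₀], by rw [Matrix.det_fin_two_of]; linarith⟩
    have t00 : t 0 0 = p := rfl
    have t01 : t 0 1 = q := rfl
    have t10 : t 1 0 = -v₁ := rfl
    have t11 : t 1 1 = v₀ := rfl
    obtain ⟨i1, i2, i3, i4⟩ := inv_entry t
    have h00 : (t * g * t⁻¹) 0 0 = 1 := by
      simp only [mul_entry, i1, i3, t00, t01, t10, t11]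
      linear_combination p * e1 + q * e2 + hbez + q * v₁ * htr
    have h10 : (t * g * t⁻¹) 1 0 = 0 := by
      simp only [mul_entry, i1, i3, t10, t11]
      linear_combination (-v₁) * e1 + v₀ * e2 + v₀ * v₁ * htr
    have key := eq_T_zpow_of _ h00 h10
    have hg' : g = t⁻¹ * T ^ ((t * g * t⁻¹) 0 1) * t := by
      rw [← key]; group
    refine ⟨t, _, ?_, hg'⟩
    rw [hg'] at hg
    exact (posPar_conjT_iff t _).mp hg
  · rintro ⟨t, m, hm, rfl⟩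
    exact (posPar_conjT_iff t m).mpr hm

theorem posPar_iff (g : SL(2, ℤ)) :
    PosPar g ↔ ∃ (t : SL(2, ℤ)) (m : ℕ), 0 < m ∧ g = t⁻¹ * T ^ m * t := by
  rw [posPar_iff_zpow]
  constructor
  · rintro ⟨t, m, hm, rfl⟩
    refine ⟨t, m.toNat, by omega, ?_⟩
    rw [← zpow_natCast, Int.toNat_of_nonneg hm.le]
  · rintro ⟨t, m, hm, rfl⟩
    exact ⟨t, m, by exact_mod_cast hm, by rw [zpow_natCast]⟩

/-- Core identity: conjugation by a real matrix of positive determinant keeps trace `2` and the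
sign of `b - c`. -/
theorem conj_core (p q r s a b c d a' b' c' d' : ℝ) (hD : 0 < p * s - q * r)
    (E00 : p * a + q * c = a' * p + b' * r) (E01 : p * b + q * d = a' * q + b' * s)
    (E10 : r * a + s * c = c' * p + d' * r) (E11 : r * b + s * d = c' * q + d' * s)
    (hdet : a * d - b * c = 1) (htr : a + d = 2) (hpos : 0 < b - c) :
    a' + d' = 2 ∧ 0 < b' - c' := by
  have hD0 : p * s - q * r ≠ 0 := hD.ne'
  have hx : (a - 1) ^ 2 + b * c = 0 := by linear_combination (-1) * hdet + a * htr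
  constructor
  · have h1 : (p * s - q * r) * (a' + d' - 2) = 0 := by
      linear_combination (-s) * E00 + r * E01 + q * E10 - p * E11 + (p * s - q * r) * htr
    rcases mul_eq_zero.mp h1 with h | h
    · exact absurd h hD0
    · linarith
  · have hsum : (b - c) * ((p * s - q * r) * (b' - c')) =
        (b * p - (a - 1) * q) ^ 2 + ((a - 1) * p + c * q) ^ 2 + (b * r - (a - 1) * s) ^ 2
          + ((a - 1) * r + c * s) ^ 2 := by
      linear_combination (b - c) * (q * E00 - p * E01 + s * E10 - r * E11)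
        + (b - c) * (p * q + r * s) * htr - (p ^ 2 + q ^ 2 + r ^ 2 + s ^ 2) * hx
    by_contra hneg
    rw [not_lt] at hneg
    have hle : (b - c) * ((p * s - q * r) * (b' - c')) ≤ 0 :=
      mul_nonpos_of_nonneg_of_nonpos hpos.le (mul_nonpos_of_nonneg_of_nonpos hD.le hneg)
    have s1 := sq_nonneg (b * p - (a - 1) * q)
    have s2 := sq_nonneg ((a - 1) * p + c * q)
    have s3 := sq_nonneg (b * r - (a - 1) * s)
    have s4 := sq_nonneg ((a - 1) * r + c * s)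
    have z1 : b * p - (a - 1) * q = 0 := by
      have : (b * p - (a - 1) * q) ^ 2 = 0 := by linarith
      exact pow_eq_zero_iff (two_ne_zero) |>.mp this
    have z2 : (a - 1) * p + c * q = 0 := by
      have : ((a - 1) * p + c * q) ^ 2 = 0 := by linarith
      exact pow_eq_zero_iff (two_ne_zero) |>.mp this
    have z3 : b * r - (a - 1) * s = 0 := by
      have : (b * r - (a - 1) * s) ^ 2 = 0 := by linarith
      exact pow_eq_zero_iff (two_ne_zero) |>.mp this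
    have z4 : (a - 1) * r + c * s = 0 := by
      have : ((a - 1) * r + c * s) ^ 2 = 0 := by linarith
      exact pow_eq_zero_iff (two_ne_zero) |>.mp this
    have hz : (b - c) * (p * s - q * r) = 0 := by
      linear_combination s * z1 - q * z3 + r * z2 - p * z4
    rcases mul_eq_zero.mp hz with h | h
    · linarith
    · exact hD0 h

/-- **(2)** Conjugation by a real matrix of positive determinant preserves positive
parabolic elements. -/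
theorem posPar_of_conj_real (α : Matrix (Fin 2) (Fin 2) ℝ) (hα : 0 < α.det) (g g' : SL(2, ℤ))
    (h : α * (g : Matrix (Fin 2) (Fin 2) ℤ).map (Int.cast : ℤ → ℝ)
      = (g' : Matrix (Fin 2) (Fin 2) ℤ).map (Int.cast : ℤ → ℝ) * α)
    (hg : PosPar g) : PosPar g' := by
  rw [Matrix.det_fin_two] at hα
  have E00 := congrFun (congrFun h 0) 0
  have E01 := congrFun (congrFun h 0) 1
  have E10 := congrFun (congrFun h 1) 0
  have E11 := congrFun (congrFun h 1) 1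
  simp only [Matrix.mul_apply, Fin.sum_univ_two, Matrix.map_apply] at E00 E01 E10 E11
  have hdet : ((g 0 0 : ℤ) : ℝ) * (g 1 1 : ℤ) - (g 0 1 : ℤ) * (g 1 0 : ℤ) = 1 := by
    exact_mod_cast sl2_det g
  have htr : ((g 0 0 : ℤ) : ℝ) + (g 1 1 : ℤ) = 2 := by exact_mod_cast hg.1
  have hpos : (0 : ℝ) < (g 0 1 : ℤ) - (g 1 0 : ℤ) := by exact_mod_cast hg.2
  obtain ⟨h1, h2⟩ := conj_core _ _ _ _ _ _ _ _ _ _ _ _ hα E00 E01 E10 E11 hdet htr hpos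
  exact ⟨by exact_mod_cast h1, by exact_mod_cast h2⟩

theorem posPar_of_conj_real_iff (α : Matrix (Fin 2) (Fin 2) ℝ) (hα : 0 < α.det) (g g' : SL(2, ℤ))
    (h : α * (g : Matrix (Fin 2) (Fin 2) ℤ).map (Int.cast : ℤ → ℝ)
      = (g' : Matrix (Fin 2) (Fin 2) ℤ).map (Int.cast : ℤ → ℝ) * α) :
    PosPar g ↔ PosPar g' := by
  refine ⟨posPar_of_conj_real α hα g g' h, ?_⟩
  have hdet : α.det ≠ 0 := hα.ne'
  have hu : IsUnit α.det := isUnit_iff_ne_zero.mpr hdet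
  refine posPar_of_conj_real α⁻¹ ?_ g' g ?_
  · rw [Matrix.det_nonsing_inv, Ring.inverse_eq_inv']; exact inv_pos.mpr hα
  · have h1 : α⁻¹ * α = 1 := Matrix.nonsing_inv_mul _ hu
    have h2 : α * α⁻¹ = 1 := Matrix.mul_nonsing_inv _ hu
    calc α⁻¹ * (g' : Matrix (Fin 2) (Fin 2) ℤ).map (Int.cast : ℤ → ℝ)
        = α⁻¹ * ((g' : Matrix (Fin 2) (Fin 2) ℤ).map (Int.cast : ℤ → ℝ) * α) * α⁻¹ := by
          rw [Matrix.mul_assoc, Matrix.mul_assoc, h2, Matrix.mul_one]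
      _ = (g : Matrix (Fin 2) (Fin 2) ℤ).map (Int.cast : ℤ → ℝ) * α⁻¹ := by
          rw [← h, ← Matrix.mul_assoc, h1, Matrix.one_mul]

/-- The same for `GL₂(ℝ)` (the ambient group of the transfer calculus). -/
theorem posPar_of_conj_GL (α : GL (Fin 2) ℝ) (hα : 0 < (α : Matrix (Fin 2) (Fin 2) ℝ).det)
    (g g' : SL(2, ℤ)) (h : α * (g : GL (Fin 2) ℝ) = (g' : GL (Fin 2) ℝ) * α) :
    PosPar g ↔ PosPar g' := by
  apply posPar_of_conj_real_iff (α : Matrix (Fin 2) (Fin 2) ℝ) hα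
  have h1 := congrArg (fun x : GL (Fin 2) ℝ => (x : Matrix (Fin 2) (Fin 2) ℝ)) h
  simp only [Matrix.GeneralLinearGroup.coe_mul] at h1
  have e : ∀ k : SL(2, ℤ), ((k : GL (Fin 2) ℝ) : Matrix (Fin 2) (Fin 2) ℝ)
      = (k : Matrix (Fin 2) (Fin 2) ℤ).map (Int.cast : ℤ → ℝ) := by
    intro k; ext i j; simp
  rw [e, e] at h1
  exact h1

/-- Conjugation inside `SL(2, ℤ)` preserves positive parabolic elements. -/
theorem posPar_conj (u g : SL(2, ℤ)) : PosPar (u * g * u⁻¹) ↔ PosPar g := by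
  constructor
  · intro h
    rw [posPar_iff_zpow] at h ⊢
    obtain ⟨t, m, hm, ht⟩ := h
    refine ⟨t * u, m, hm, ?_⟩
    have : g = u⁻¹ * (u * g * u⁻¹) * u := by group
    rw [this, ht]; group
  · intro h
    rw [posPar_iff_zpow] at h ⊢
    obtain ⟨t, m, hm, rfl⟩ := h
    exact ⟨t * u⁻¹, m, hm, by group⟩

theorem posPar_conj' (u g : SL(2, ℤ)) : PosPar (u⁻¹ * g * u) ↔ PosPar g := by
  have := posPar_conj u⁻¹ g
  rwa [inv_inv] at this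

/-- Key lemma: an element intertwining two powers of `T`. -/
theorem comm_T (w : SL(2, ℤ)) (a b : ℤ) (ha : a ≠ 0) (h : w * T ^ a = T ^ b * w) :
    w 1 0 = 0 ∧ a = b := by
  obtain ⟨a1, a2, a3, a4⟩ := Tz_entry a
  obtain ⟨b1, b2, b3, b4⟩ := Tz_entry b
  have hd := sl2_det w
  have e11 := congrArg (fun x : SL(2, ℤ) => x 1 1) h
  have e01 := congrArg (fun x : SL(2, ℤ) => x 0 1) h
  simp only [mul_entry, a2, a4, b1, b2, b3, b4] at e11 e01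
  have hr : w 1 0 = 0 := by
    have : w 1 0 * a = 0 := by linarith
    rcases mul_eq_zero.mp this with h | h
    · exact h
    · exact absurd h ha
  refine ⟨hr, ?_⟩
  rw [hr] at hd
  have hps : w 0 0 * w 1 1 = 1 := by linarith
  rcases Int.eq_one_or_neg_one_of_mul_eq_one' hps with ⟨h0, h1⟩ | ⟨h0, h1⟩
  · rw [h0, h1] at e01; linarith
  · rw [h0, h1] at e01; linarith

theorem eq_T_or_neg (w : SL(2, ℤ)) (h : w 1 0 = 0) : ∃ k : ℤ, w = T ^ k ∨ w = -T ^ k := by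
  have hd := sl2_det w
  rw [h] at hd
  have hps : w 0 0 * w 1 1 = 1 := by linarith
  rcases Int.eq_one_or_neg_one_of_mul_eq_one' hps with ⟨h0, h1⟩ | ⟨h0, h1⟩
  · exact ⟨w 0 1, Or.inl (eq_T_zpow_of w h0 h)⟩
  · refine ⟨-(w 0 1), Or.inr ?_⟩
    obtain ⟨b1, b2, b3, b4⟩ := Tz_entry (-(w 0 1))
    apply sl2_ext <;> rw [neg_entry]
    · rw [b1, h0]
    · rw [b2]; ring
    · rw [b3, h]; ring
    · rw [b4, h1]

/-- Conjugacy between conjugates of powers of `T`. -/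
theorem conj_conjT (t t' γ : SL(2, ℤ)) (a b : ℤ) (ha : a ≠ 0)
    (h : γ * (t⁻¹ * T ^ a * t) * γ⁻¹ = t'⁻¹ * T ^ b * t') :
    a = b ∧ ∃ k : ℤ, γ = t'⁻¹ * T ^ k * t ∨ γ = -(t'⁻¹ * T ^ k * t) := by
  have hw : (t' * γ * t⁻¹) * T ^ a = T ^ b * (t' * γ * t⁻¹) := by
    have : T ^ b = t' * (γ * (t⁻¹ * T ^ a * t) * γ⁻¹) * t'⁻¹ := by rw [h]; group
    rw [this]; group
  obtain ⟨h10, hab⟩ := comm_T _ a b ha hw
  obtain ⟨k, hk | hk⟩ := eq_T_or_neg _ h10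
  · refine ⟨hab, k, Or.inl ?_⟩
    rw [← hk]; group
  · refine ⟨hab, k, Or.inr ?_⟩
    have : γ = t'⁻¹ * (t' * γ * t⁻¹) * t := by group
    rw [this, hk, mul_neg, neg_mul]

/-- A positive parabolic element commuting with `t⁻¹ T^a t`, `a ≠ 0`. -/
theorem eq_conjT_of_comm (t δ : SL(2, ℤ)) (a : ℤ) (ha : a ≠ 0) (hδ : PosPar δ)
    (h : δ * (t⁻¹ * T ^ a * t) = (t⁻¹ * T ^ a * t) * δ) :
    ∃ j : ℤ, 0 < j ∧ δ = t⁻¹ * T ^ j * t := by
  have h' : δ * (t⁻¹ * T ^ a * t) * δ⁻¹ = t⁻¹ * T ^ a * t := by rw [h]; group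
  obtain ⟨-, k, hk | hk⟩ := conj_conjT t t δ a a ha h'
  · refine ⟨k, ?_, hk⟩
    rw [hk] at hδ; exact (posPar_conjT_iff t k).mp hδ
  · exfalso
    obtain ⟨e1, e2, e3, e4⟩ := conjT_entry t k
    have := hδ.1
    rw [hk, neg_entry, neg_entry, e1, e4] at this
    linarith

theorem conjT_zpow (t : SL(2, ℤ)) (m n : ℤ) :
    (t⁻¹ * T ^ m * t) ^ n = t⁻¹ * T ^ (m * n) * t := by
  rw [_root_.zpow_mul]
  have := conj_zpow (a := t⁻¹) (b := T ^ m) (i := n)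
  rwa [inv_inv] at this

theorem conjT_pow (t : SL(2, ℤ)) (m : ℤ) (n : ℕ) :
    (t⁻¹ * T ^ m * t) ^ n = t⁻¹ * T ^ (m * n) * t := by
  rw [← zpow_natCast, conjT_zpow]

theorem conjT_mul (t : SL(2, ℤ)) (m n : ℤ) :
    (t⁻¹ * T ^ m * t) * (t⁻¹ * T ^ n * t) = t⁻¹ * T ^ (m + n) * t := by
  rw [_root_.zpow_add]; group

theorem conjT_inj (t : SL(2, ℤ)) {m n : ℤ} (h : t⁻¹ * T ^ m * t = t⁻¹ * T ^ n * t) : m = n := by
  have h1 : T ^ m = T ^ n := mul_left_cancel (mul_right_cancel h)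
  have h2 := congrArg (fun x : SL(2, ℤ) => x 0 1) h1
  simp only [(Tz_entry m).2.1, (Tz_entry n).2.1] at h2
  exact h2

/-- `h` is the width of the cusp `t⁻¹ ∞` for `Γ`. -/
def IsWidth (Γ : Subgroup SL(2, ℤ)) (t : SL(2, ℤ)) (h : ℕ) : Prop :=
  0 < h ∧ t⁻¹ * T ^ h * t ∈ Γ ∧ ∀ k : ℕ, 0 < k → t⁻¹ * T ^ k * t ∈ Γ → h ≤ k

variable {Γ : Subgroup SL(2, ℤ)}

theorem IsWidth.zmem {t : SL(2, ℤ)} {h : ℕ} (hw : IsWidth Γ t h) :
    t⁻¹ * T ^ (h : ℤ) * t ∈ Γ := by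
  rw [zpow_natCast]; exact hw.2.1

theorem IsWidth.mem_iff {t : SL(2, ℤ)} {h : ℕ} (hw : IsWidth Γ t h) (k : ℤ) :
    t⁻¹ * T ^ k * t ∈ Γ ↔ (h : ℤ) ∣ k := by
  have hmem := hw.zmem
  obtain ⟨h0, -, hmin⟩ := hw
  constructor
  · intro hk
    have hr : t⁻¹ * T ^ (k % (h : ℤ)) * t ∈ Γ := by
      have e : t⁻¹ * T ^ (k % (h : ℤ)) * t
          = (t⁻¹ * T ^ k * t) * ((t⁻¹ * T ^ (h : ℤ) * t) ^ (-(k / (h : ℤ)))) := by
        rw [conjT_zpow, conjT_mul]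
        have : k % (h : ℤ) = k + (h : ℤ) * -(k / (h : ℤ)) := by
          have := Int.emod_add_mul_ediv k h
          linarith
        rw [this]
      rw [e]; exact Γ.mul_mem hk (Γ.zpow_mem hmem _)
    have hnn : 0 ≤ k % (h : ℤ) := Int.emod_nonneg _ (by exact_mod_cast h0.ne')
    have hlt : k % (h : ℤ) < h := Int.emod_lt_of_pos _ (by exact_mod_cast h0)
    by_contra hdvd
    have hpos : 0 < k % (h : ℤ) :=
      lt_of_le_of_ne hnn (fun e => hdvd (Int.dvd_of_emod_eq_zero e.symm))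
    have := hmin (k % (h : ℤ)).toNat (by omega)
      (by rw [← zpow_natCast, Int.toNat_of_nonneg hnn]; exact hr)
    omega
  · rintro ⟨j, rfl⟩
    rw [← conjT_zpow]
    exact Γ.zpow_mem hmem j

theorem exists_isWidth_of_mem (Γ : Subgroup SL(2, ℤ)) (t : SL(2, ℤ))
    (h : ∃ m : ℕ, 0 < m ∧ t⁻¹ * T ^ m * t ∈ Γ) : ∃ h, IsWidth Γ t h := by
  classical
  exact ⟨Nat.find h, (Nat.find_spec h).1, (Nat.find_spec h).2,
    fun k hk hmem => Nat.find_min' h ⟨hk, hmem⟩⟩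

/-- **(3a)** Widths exist for subgroups of finite index. -/
theorem exists_isWidth (Γ : Subgroup SL(2, ℤ)) [Γ.FiniteIndex] (t : SL(2, ℤ)) :
    ∃ h, IsWidth Γ t h := by
  apply exists_isWidth_of_mem
  obtain ⟨n, hn, -, hmem⟩ := Subgroup.exists_pow_mem_of_index_ne_zero
    (Subgroup.FiniteIndex.index_ne_zero (H := Γ)) (t⁻¹ * T * t)
  refine ⟨n, hn, ?_⟩
  have e := conjT_pow t 1 n
  rw [zpow_one, one_mul, zpow_natCast] at e
  rw [← e]; exact hmem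

theorem IsWidth.unique {t : SL(2, ℤ)} {h h' : ℕ} (hw : IsWidth Γ t h) (hw' : IsWidth Γ t h') :
    h = h' :=
  le_antisymm (hw.2.2 h' hw'.1 hw'.2.1) (hw'.2.2 h hw.1 hw.2.1)

/-- Primitive positive parabolic elements of `Γ`. -/
def IsPrim (Γ : Subgroup SL(2, ℤ)) (π : Γ) : Prop :=
  PosPar (π : SL(2, ℤ)) ∧ ∀ (δ : Γ) (n : ℕ), PosPar (δ : SL(2, ℤ)) → δ ^ n = π → n = 1

/-- The generator attached to a width. -/
def IsWidth.gen {t : SL(2, ℤ)} {h : ℕ} (hw : IsWidth Γ t h) : Γ := ⟨t⁻¹ * T ^ h * t, hw.2.1⟩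

theorem IsWidth.coe_gen {t : SL(2, ℤ)} {h : ℕ} (hw : IsWidth Γ t h) :
    (hw.gen : SL(2, ℤ)) = t⁻¹ * T ^ (h : ℤ) * t := by
  rw [zpow_natCast]; rfl

theorem IsWidth.posPar_gen {t : SL(2, ℤ)} {h : ℕ} (hw : IsWidth Γ t h) :
    PosPar (hw.gen : SL(2, ℤ)) := by
  rw [hw.coe_gen]; exact (posPar_conjT_iff t h).mpr (by exact_mod_cast hw.1)

theorem IsWidth.coe_gen_pow {t : SL(2, ℤ)} {h : ℕ} (hw : IsWidth Γ t h) (n : ℕ) :
    ((hw.gen ^ n : Γ) : SL(2, ℤ)) = t⁻¹ * T ^ ((h : ℤ) * n) * t := by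
  rw [Subgroup.coe_pow, hw.coe_gen, conjT_pow]

theorem IsWidth.coe_gen_zpow {t : SL(2, ℤ)} {h : ℕ} (hw : IsWidth Γ t h) (n : ℤ) :
    ((hw.gen ^ n : Γ) : SL(2, ℤ)) = t⁻¹ * T ^ ((h : ℤ) * n) * t := by
  rw [Subgroup.coe_zpow, hw.coe_gen, conjT_zpow]

/-- Positive parabolic elements of `Γ` commuting with `t⁻¹ T^a t` are positive powers of the
generator. -/
theorem IsWidth.eq_pow_of_comm {t : SL(2, ℤ)} {h : ℕ} (hw : IsWidth Γ t h) (δ : Γ)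
    (hδ : PosPar (δ : SL(2, ℤ))) (a : ℤ) (ha : a ≠ 0)
    (hc : (δ : SL(2, ℤ)) * (t⁻¹ * T ^ a * t) = (t⁻¹ * T ^ a * t) * δ) :
    ∃ n : ℕ, 0 < n ∧ δ = hw.gen ^ n := by
  obtain ⟨i, hi, hδi⟩ := eq_conjT_of_comm t δ a ha hδ hc
  have hmem : t⁻¹ * T ^ i * t ∈ Γ := hδi ▸ δ.2
  obtain ⟨j, rfl⟩ := (hw.mem_iff i).mp hmem
  have h0 : (0 : ℤ) < h := by exact_mod_cast hw.1
  have hj : 0 < j := (mul_pos_iff_of_pos_left h0).mp hi
  refine ⟨j.toNat, by omega, ?_⟩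
  apply Subtype.ext
  rw [hw.coe_gen_pow, hδi, Int.toNat_of_nonneg hj.le]

/-- Centralisers of parabolic elements (when `-1 ∈ Γ`). -/
theorem IsWidth.centralizer {t : SL(2, ℤ)} {h : ℕ} (hw : IsWidth Γ t h)
    (hneg : (-1 : SL(2, ℤ)) ∈ Γ) (γ : Γ) (a : ℤ) (ha : a ≠ 0)
    (hc : (γ : SL(2, ℤ)) * (t⁻¹ * T ^ a * t) = (t⁻¹ * T ^ a * t) * γ) :
    ∃ j : ℤ, (γ : SL(2, ℤ)) = (hw.gen ^ j : Γ) ∨ (γ : SL(2, ℤ)) = -((hw.gen ^ j : Γ) : SL(2, ℤ)) := by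
  have h' : (γ : SL(2, ℤ)) * (t⁻¹ * T ^ a * t) * (γ : SL(2, ℤ))⁻¹ = t⁻¹ * T ^ a * t := by
    rw [hc]; group
  obtain ⟨-, k, hk | hk⟩ := conj_conjT t t γ a a ha h'
  · have hmem : t⁻¹ * T ^ k * t ∈ Γ := hk ▸ γ.2
    obtain ⟨j, rfl⟩ := (hw.mem_iff k).mp hmem
    exact ⟨j, Or.inl (by rw [hw.coe_gen_zpow, hk])⟩
  · have hmem : t⁻¹ * T ^ k * t ∈ Γ := by
      have : t⁻¹ * T ^ k * t = (-1 : SL(2, ℤ)) * γ := by rw [hk]; simp
      rw [this]; exact Γ.mul_mem hneg γ.2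
    obtain ⟨j, rfl⟩ := (hw.mem_iff k).mp hmem
    exact ⟨j, Or.inr (by rw [hw.coe_gen_zpow, hk])⟩

/-- **(3b)** The generator attached to a width is primitive. -/
theorem IsWidth.isPrim_gen {t : SL(2, ℤ)} {h : ℕ} (hw : IsWidth Γ t h) : IsPrim Γ hw.gen := by
  refine ⟨hw.posPar_gen, ?_⟩
  intro δ n hδ hpow
  have h0 : (h : ℤ) ≠ 0 := by exact_mod_cast hw.1.ne'
  have hc : (δ : SL(2, ℤ)) * (t⁻¹ * T ^ (h : ℤ) * t) = (t⁻¹ * T ^ (h : ℤ) * t) * δ := by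
    rw [← hw.coe_gen, ← hpow, Subgroup.coe_pow, ← pow_succ', ← pow_succ]
  obtain ⟨m, hm, rfl⟩ := hw.eq_pow_of_comm δ hδ h h0 hc
  have e := congrArg Subtype.val hpow
  rw [← pow_mul, hw.coe_gen_pow, hw.coe_gen] at e
  have e2 := conjT_inj t e
  have e3 : ((m * n : ℕ) : ℤ) = 1 := by
    apply mul_left_cancel₀ h0; rw [e2, mul_one]
  have e4 : m * n = 1 := by exact_mod_cast e3
  exact Nat.eq_one_of_mul_eq_one_left e4

theorem isPrim_of_isWidth {t : SL(2, ℤ)} {h : ℕ} (hw : IsWidth Γ t h) :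
    IsPrim Γ ⟨t⁻¹ * T ^ h * t, hw.2.1⟩ := hw.isPrim_gen

/-- Normal form of positive parabolic elements of `Γ`. -/
theorem exists_width_pow (ρ : Γ) (hρ : PosPar (ρ : SL(2, ℤ))) :
    ∃ (t : SL(2, ℤ)) (h : ℕ) (hw : IsWidth Γ t h) (n : ℕ), 0 < n ∧ ρ = hw.gen ^ n := by
  obtain ⟨t, m, hm, hρm⟩ := (posPar_iff _).mp hρ
  obtain ⟨h, hw⟩ := exists_isWidth_of_mem Γ t ⟨m, hm, hρm ▸ ρ.2⟩
  have hc : (ρ : SL(2, ℤ)) * (t⁻¹ * T ^ (m : ℤ) * t) = (t⁻¹ * T ^ (m : ℤ) * t) * ρ := by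
    rw [zpow_natCast, ← hρm]
  obtain ⟨n, hn, e⟩ := hw.eq_pow_of_comm ρ hρ m (by exact_mod_cast hm.ne') hc
  exact ⟨t, h, hw, n, hn, e⟩

/-- **(3c)** Every primitive element is the generator attached to a width. -/
theorem exists_of_isPrim {π : Γ} (hπ : IsPrim Γ π) :
    ∃ (t : SL(2, ℤ)) (h : ℕ), IsWidth Γ t h ∧ (π : SL(2, ℤ)) = t⁻¹ * T ^ h * t := by
  obtain ⟨t, h, hw, n, hn, e⟩ := exists_width_pow π hπ.1
  have h1 := hπ.2 hw.gen n hw.posPar_gen e.symm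
  rw [h1, pow_one] at e
  exact ⟨t, h, hw, by rw [e]; rfl⟩

theorem exists_gen_of_isPrim {π : Γ} (hπ : IsPrim Γ π) :
    ∃ (t : SL(2, ℤ)) (h : ℕ) (hw : IsWidth Γ t h), π = hw.gen := by
  obtain ⟨t, h, hw, n, hn, e⟩ := exists_width_pow π hπ.1
  have h1 := hπ.2 hw.gen n hw.posPar_gen e.symm
  rw [h1, pow_one] at e
  exact ⟨t, h, hw, e⟩

/-- Existence of primitive roots. -/
theorem exists_root (ρ : Γ) (hρ : PosPar (ρ : SL(2, ℤ))) :
    ∃ (π₀ : Γ) (k : ℕ), IsPrim Γ π₀ ∧ 0 < k ∧ π₀ ^ k = ρ := by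
  obtain ⟨t, h, hw, n, hn, e⟩ := exists_width_pow ρ hρ
  exact ⟨hw.gen, n, hw.isPrim_gen, hn, e.symm⟩

/-- Uniqueness of primitive roots. -/
theorem root_unique {π₁ π₂ : Γ} (h₁ : IsPrim Γ π₁) (h₂ : IsPrim Γ π₂) {k₁ k₂ : ℕ}
    (hk₁ : 0 < k₁) (_hk₂ : 0 < k₂) (h : π₁ ^ k₁ = π₂ ^ k₂) : π₁ = π₂ ∧ k₁ = k₂ := by
  obtain ⟨t, w, hw, rfl⟩ := exists_gen_of_isPrim h₁
  have h0 : (w : ℤ) ≠ 0 := by exact_mod_cast hw.1.ne'
  have hk0 : (w : ℤ) * k₁ ≠ 0 := mul_ne_zero h0 (by exact_mod_cast hk₁.ne')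
  have hc : (π₂ : SL(2, ℤ)) * (t⁻¹ * T ^ ((w : ℤ) * k₁) * t)
      = (t⁻¹ * T ^ ((w : ℤ) * k₁) * t) * π₂ := by
    rw [← hw.coe_gen_pow, h, Subgroup.coe_pow, ← pow_succ', ← pow_succ]
  obtain ⟨m, hm, e⟩ := hw.eq_pow_of_comm π₂ h₂.1 _ hk0 hc
  have hm1 := h₂.2 hw.gen m hw.posPar_gen e.symm
  rw [hm1, pow_one] at e
  refine ⟨e.symm, ?_⟩
  rw [e] at h
  have e2 := congrArg Subtype.val h
  rw [hw.coe_gen_pow, hw.coe_gen_pow] at e2
  have e3 := conjT_inj t e2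
  have e4 : (k₁ : ℤ) = k₂ := mul_left_cancel₀ h0 e3
  exact_mod_cast e4

theorem IsPrim.conj {π : Γ} (hπ : IsPrim Γ π) (g : Γ) : IsPrim Γ (g * π * g⁻¹) := by
  refine ⟨?_, ?_⟩
  · have : ((g * π * g⁻¹ : Γ) : SL(2, ℤ)) = (g : SL(2, ℤ)) * π * (g : SL(2, ℤ))⁻¹ := rfl
    rw [this, posPar_conj]; exact hπ.1
  · intro δ n hδ hpow
    apply hπ.2 (g⁻¹ * δ * g) n
    · have : ((g⁻¹ * δ * g : Γ) : SL(2, ℤ)) = (g : SL(2, ℤ))⁻¹ * δ * (g : SL(2, ℤ)) := rfl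
      rw [this, posPar_conj']; exact hδ
    · have := conj_pow (a := g⁻¹) (b := δ) (i := n)
      rw [inv_inv] at this
      rw [this, hpow]; group

/-- A system of representatives of the `Γ`-conjugacy classes of primitive positive parabolic
elements. -/
def IsClassReps (Γ : Subgroup SL(2, ℤ)) {ι : Type*} (π : ι → Γ) : Prop :=
  (∀ i, IsPrim Γ (π i)) ∧ ∀ ρ : Γ, IsPrim Γ ρ → ∃! i, ∃ g : Γ, g * π i * g⁻¹ = ρ

theorem neg_conj (x y : SL(2, ℤ)) : (-x)⁻¹ * y * (-x) = x⁻¹ * y * x := by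
  have h : (-x)⁻¹ = -x⁻¹ := by
    apply inv_eq_of_mul_eq_one_right
    rw [neg_mul_neg, mul_inv_cancel]
  rw [h, neg_mul, neg_mul, mul_neg, neg_neg]

/-- The orbit relation: `t'` lies in the double coset `⟨±T⟩ t Γ`. -/
def OrbRel (Γ : Subgroup SL(2, ℤ)) (t t' : SL(2, ℤ)) : Prop :=
  ∃ (k : ℤ) (γ : SL(2, ℤ)), γ ∈ Γ ∧ (t' = T ^ k * t * γ ∨ t' = -(T ^ k * t * γ))

theorem OrbRel.conjT_eq {t t' : SL(2, ℤ)} (h : OrbRel Γ t t') :
    ∃ γ : SL(2, ℤ), γ ∈ Γ ∧ ∀ j : ℤ, t'⁻¹ * T ^ j * t' = γ⁻¹ * (t⁻¹ * T ^ j * t) * γ := by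
  obtain ⟨k, γ, hγ, h | h⟩ := h
  · refine ⟨γ, hγ, fun j => ?_⟩
    rw [h]
    have : (T ^ k)⁻¹ * T ^ j * T ^ k = T ^ j := by
      rw [← _root_.zpow_neg, ← _root_.zpow_add, ← _root_.zpow_add]; congr 1; ring
    calc (T ^ k * t * γ)⁻¹ * T ^ j * (T ^ k * t * γ)
        = γ⁻¹ * (t⁻¹ * ((T ^ k)⁻¹ * T ^ j * T ^ k) * t) * γ := by group
      _ = _ := by rw [this]
  · refine ⟨γ, hγ, fun j => ?_⟩
    rw [h, neg_conj]
    have : (T ^ k)⁻¹ * T ^ j * T ^ k = T ^ j := by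
      rw [← _root_.zpow_neg, ← _root_.zpow_add, ← _root_.zpow_add]; congr 1; ring
    calc (T ^ k * t * γ)⁻¹ * T ^ j * (T ^ k * t * γ)
        = γ⁻¹ * (t⁻¹ * ((T ^ k)⁻¹ * T ^ j * T ^ k) * t) * γ := by group
      _ = _ := by rw [this]

/-- **(4)** Two width generators are `Γ`-conjugate iff the cusps are in the same
`⟨±T⟩`-orbit of `G/Γ`. -/
theorem conj_iff {t t' : SL(2, ℤ)} {h h' : ℕ} (hw : IsWidth Γ t h) (hw' : IsWidth Γ t' h') :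
    (∃ γ : Γ, γ * hw.gen * γ⁻¹ = hw'.gen) ↔ OrbRel Γ t t' := by
  constructor
  · rintro ⟨γ, hγ⟩
    have e := congrArg Subtype.val hγ
    have e' : (γ : SL(2, ℤ)) * (t⁻¹ * T ^ (h : ℤ) * t) * (γ : SL(2, ℤ))⁻¹
        = t'⁻¹ * T ^ (h' : ℤ) * t' := by
      rw [← hw.coe_gen, ← hw'.coe_gen]; exact e
    obtain ⟨-, k, hk | hk⟩ := conj_conjT t t' γ h h' (by exact_mod_cast hw.1.ne') e'
    · refine ⟨k, (γ : SL(2, ℤ))⁻¹, Γ.inv_mem γ.2, Or.inl ?_⟩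
      rw [hk]; group
    · refine ⟨k, (γ : SL(2, ℤ))⁻¹, Γ.inv_mem γ.2, Or.inr ?_⟩
      rw [hk, inv_eq_of_mul_eq_one_right (a := -(t'⁻¹ * T ^ k * t)) (b := -(t⁻¹ * (T ^ k)⁻¹ * t'))
        (by rw [neg_mul_neg]; group), mul_neg, neg_neg]
      group
  · intro hrel
    obtain ⟨γ, hγ, hconj⟩ := hrel.conjT_eq
    have h1 : t⁻¹ * T ^ (h' : ℤ) * t ∈ Γ := by
      have := hw'.zmem
      rw [hconj] at this
      have h2 := Γ.mul_mem (Γ.mul_mem hγ this) (Γ.inv_mem hγ)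
      have e : γ * (γ⁻¹ * (t⁻¹ * T ^ (h' : ℤ) * t) * γ) * γ⁻¹ = t⁻¹ * T ^ (h' : ℤ) * t := by group
      rwa [e] at h2
    have h2 : t'⁻¹ * T ^ (h : ℤ) * t' ∈ Γ := by
      rw [hconj]
      exact Γ.mul_mem (Γ.mul_mem (Γ.inv_mem hγ) hw.zmem) hγ
    rw [zpow_natCast] at h1 h2
    have hh : h = h' := le_antisymm (hw.2.2 h' hw'.1 h1) (hw'.2.2 h hw.1 h2)
    subst hh
    refine ⟨⟨γ, hγ⟩⁻¹, ?_⟩
    apply Subtype.ext
    show (γ : SL(2, ℤ))⁻¹ * (hw.gen : SL(2, ℤ)) * (γ⁻¹)⁻¹ = hw'.gen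
    rw [hw.coe_gen, hw'.coe_gen, hconj, inv_inv]

/-- **(5a)** One `t` per `⟨±T⟩`-orbit of `G/Γ` gives a system of class representatives. -/
theorem isClassReps_of_orbitReps {ι : Type*} (t : ι → SL(2, ℤ)) (h : ι → ℕ)
    (hw : ∀ i, IsWidth Γ (t i) (h i)) (huniq : ∀ z : SL(2, ℤ), ∃! i, OrbRel Γ (t i) z) :
    IsClassReps Γ (fun i => (hw i).gen) := by
  refine ⟨fun i => (hw i).isPrim_gen, ?_⟩
  intro ρ hρ
  obtain ⟨t₀, h₀, hw₀, rfl⟩ := exists_gen_of_isPrim hρ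
  obtain ⟨i, hi, hiu⟩ := huniq t₀
  refine ⟨i, (conj_iff (hw i) hw₀).mpr hi, ?_⟩
  intro j hj
  exact hiu j ((conj_iff (hw j) hw₀).mp hj)

/-- **(5b)** Transport of class representatives along an isomorphism preserving positive
parabolic elements (e.g. conjugation by an element of `GL₂⁺(ℚ)`). -/
theorem IsPrim.map {Γ₁ Γ₂ : Subgroup SL(2, ℤ)} (e : Γ₁ ≃* Γ₂)
    (he : ∀ γ : Γ₁, PosPar (e γ : SL(2, ℤ)) ↔ PosPar (γ : SL(2, ℤ))) {π : Γ₁}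
    (hπ : IsPrim Γ₁ π) : IsPrim Γ₂ (e π) := by
  refine ⟨(he π).mpr hπ.1, ?_⟩
  intro δ n hδ hpow
  apply hπ.2 (e.symm δ) n
  · rw [← he]; simpa using hδ
  · apply e.injective
    rw [map_pow]; simpa using hpow

theorem IsClassReps.map {Γ₁ Γ₂ : Subgroup SL(2, ℤ)} (e : Γ₁ ≃* Γ₂)
    (he : ∀ γ : Γ₁, PosPar (e γ : SL(2, ℤ)) ↔ PosPar (γ : SL(2, ℤ))) {ι : Type*} {π : ι → Γ₁}
    (hπ : IsClassReps Γ₁ π) : IsClassReps Γ₂ (fun i => e (π i)) := by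
  have he' : ∀ γ : Γ₂, PosPar (e.symm γ : SL(2, ℤ)) ↔ PosPar (γ : SL(2, ℤ)) := by
    intro γ
    rw [← he]; simp
  refine ⟨fun i => (hπ.1 i).map e he, ?_⟩
  intro ρ hρ
  obtain ⟨i, ⟨g, hg⟩, hiu⟩ := hπ.2 (e.symm ρ) (hρ.map e.symm he')
  refine ⟨i, ⟨e g, ?_⟩, ?_⟩
  · rw [← map_inv, ← map_mul, ← map_mul, hg]; simp
  · rintro j ⟨g', hg'⟩
    apply hiu
    refine ⟨e.symm g', ?_⟩
    rw [← hg']; simp

/-- **(5c)** The cusp sum of a class function does not depend on the representatives. -/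
theorem sum_eq_of_isClassReps {ι ι' : Type*} [Fintype ι] [Fintype ι'] {A : Type*}
    [AddCommMonoid A] (F : Γ → A)
    (hF : ∀ g ρ : Γ, PosPar (ρ : SL(2, ℤ)) → F (g * ρ * g⁻¹) = F ρ) {π : ι → Γ} {π' : ι' → Γ}
    (hπ : IsClassReps Γ π) (hπ' : IsClassReps Γ π') : ∑ i, F (π i) = ∑ j, F (π' j) := by
  classical
  choose f hf hfu using fun i => hπ'.2 (π i) (hπ.1 i)
  have hinj : Function.Injective f := by
    intro i i' hii
    obtain ⟨g, hg⟩ := hf i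
    obtain ⟨g', hg'⟩ := hf i'
    obtain ⟨k, -, hku⟩ := hπ.2 (π i') (hπ.1 i')
    have h1 : k = i' := (hku i' ⟨1, by group⟩).symm
    have h2 : k = i := by
      refine (hku i ⟨g' * g⁻¹, ?_⟩).symm
      rw [← hg', ← hii, ← hg]; group
    rw [← h2, h1]
  have hsurj : Function.Surjective f := by
    intro j
    obtain ⟨i, ⟨g, hg⟩, -⟩ := hπ.2 (π' j) (hπ'.1 j)
    refine ⟨i, ?_⟩
    refine (hfu i j ⟨g⁻¹, ?_⟩).symm
    rw [← hg]; group
  rw [← Function.Bijective.sum_comp ⟨hinj, hsurj⟩ (fun j => F (π' j))]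
  apply Finset.sum_congr rfl
  intro i _
  obtain ⟨g, hg⟩ := hf i
  rw [← hg, hF g _ (hπ'.1 (f i)).1]

/-- Positive powers of positive parabolic elements are positive parabolic. -/
theorem posPar_pow (g : SL(2, ℤ)) (n : ℕ) (hg : PosPar g) (hn : 0 < n) : PosPar (g ^ n) := by
  obtain ⟨t, m, hm, rfl⟩ := (posPar_iff_zpow g).mp hg
  rw [conjT_pow]
  exact (posPar_conjT_iff t _).mpr (mul_pos hm (by exact_mod_cast hn))

/-- Bridge to the `trace`/`≠ 1` form of the predicate. -/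
theorem posPar_iff_trace (g : SL(2, ℤ)) :
    PosPar g ↔ (g : Matrix (Fin 2) (Fin 2) ℤ).trace = 2 ∧ g ≠ 1 ∧ 0 < g 0 1 - g 1 0 := by
  unfold PosPar
  rw [Matrix.trace_fin_two]
  constructor
  · rintro ⟨h1, h2⟩
    refine ⟨h1, ?_, h2⟩
    rintro rfl
    simp at h2
  · rintro ⟨h1, -, h2⟩
    exact ⟨h1, h2⟩

/-- Every positive parabolic element of `Γ` is conjugate to a positive power of exactly one
representative. -/
theorem IsClassReps.existsUnique_pow {ι : Type*} {π : ι → Γ} (hπ : IsClassReps Γ π) (ρ : Γ)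
    (hρ : PosPar (ρ : SL(2, ℤ))) :
    ∃! i, ∃ (γ : Γ) (k : ℕ), 0 < k ∧ ρ = γ * π i ^ k * γ⁻¹ := by
  obtain ⟨π₀, k, hπ₀, hk, rfl⟩ := exists_root ρ hρ
  obtain ⟨i, ⟨g, hg⟩, hiu⟩ := hπ.2 π₀ hπ₀
  refine ⟨i, ⟨g, k, hk, by rw [← hg, conj_pow]⟩, ?_⟩
  rintro j ⟨γ, k', hk', e⟩
  apply hiu
  have e' : π₀ ^ k = (γ * π j * γ⁻¹) ^ k' := by rw [conj_pow]; exact e
  obtain ⟨e1, -⟩ := root_unique hπ₀ ((hπ.1 j).conj γ) hk hk' e'
  exact ⟨γ, e1.symm⟩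

end Fermat.Agent.S41.H93
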