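import Fermat.Agent.S41.PDAdj_helper17

/-!
# (C-FIB): the cusp fibration for the projection formula

Abstract cusp systems (`IsCuspSys`): representatives `π : C → Γ` of the classes of primitive
positive parabolic elements, with the rigidity of their powers.  For a subgroup `Γ'` of finite
index with transfer data, the classes of `Γ'` over a class `c` of `Γ` are the `σ_{π c}`-orbits on
the cosets; this produces the hypotheses of `residue_cores_eq`
(`residue_cores_eq_of_cuspSys`).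
-/

namespace Fermat.Agent.S41.H17

open Finset

/-- An abstract cusp system: `P` = "positive parabolic", `Z` = the central subgroup `{±1}`. -/
structure IsCuspSys {Γ C : Type*} [Group Γ] (P : Γ → Prop) (Z : Subgroup Γ) (π : C → Γ) :
    Prop where
  pos : ∀ c, P (π c)
  cover : ∀ t, P t → ∃ (c : C) (γ : Γ) (k : ℕ), 0 < k ∧ t = γ * π c ^ k * γ⁻¹
  rigid : ∀ (c c' : C) (k k' : ℕ) (γ : Γ), 0 < k → 0 < k' →
    γ * π c ^ k * γ⁻¹ = π c' ^ k' →
    c = c' ∧ k = k' ∧ ∃ (j : ℤ) (z : Γ), z ∈ Z ∧ γ = z * π c ^ j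

section transfer

variable {Γ Γ' X A : Type*} [Group Γ] [Group Γ'] [CommRing A]
variable {i' : Γ' →* Γ} {al : X → Γ} {sig : Γ → Equiv.Perm X} {g' : Γ → X → Γ'}

theorem IsTransferData.sig_pow_eq (h : IsTransferData i' al sig g') (t : Γ) (k : ℕ) :
    sig (t ^ k) = sig t ^ k :=
  Equiv.ext (fun x => h.sig_pow t k x)

theorem IsTransferData.sig_inv_eq (h : IsTransferData i' al sig g') (t : Γ) :
    sig t⁻¹ = (sig t)⁻¹ := by
  apply Equiv.ext
  intro x
  have h1 := (h.sig_mul t⁻¹ t x).1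
  rw [inv_mul_cancel, (h.sig_one x).1] at h1
  exact Equiv.Perm.eq_inv_iff_eq.mpr h1.symm

theorem IsTransferData.sig_zpow_eq (h : IsTransferData i' al sig g') (t : Γ) (j : ℤ) :
    sig (t ^ j) = sig t ^ j := by
  cases j with
  | ofNat n => simp only [Int.ofNat_eq_natCast, zpow_natCast]; exact h.sig_pow_eq t n
  | negSucc n => rw [zpow_negSucc, zpow_negSucc, h.sig_inv_eq, h.sig_pow_eq]

/-- Every element lies in a coset `i' Γ' * al x`. -/
theorem IsTransferData.exists_coset [Nonempty X] (h : IsTransferData i' al sig g') (γ : Γ) :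
    ∃ (x : X) (a : Γ'), γ = i' a * al x := by
  obtain ⟨x0⟩ := ‹Nonempty X›
  refine ⟨sig ((al x0)⁻¹ * γ) x0, g' ((al x0)⁻¹ * γ) x0, ?_⟩
  rw [← h.dec, mul_inv_cancel_left]

/-- Conjugating a power of `t` by `al x`, for a period of `x`. -/
theorem IsTransferData.conj_pow (h : IsTransferData i' al sig g') (t : Γ) (x : X) {m : ℕ}
    (hm : (sig t ^ m) x = x) : i' (g' (t ^ m) x) = al x * t ^ m * (al x)⁻¹ := by
  have h1 := h.dec (t ^ m) x
  rw [h.sig_pow, hm] at h1
  rw [h1, mul_inv_cancel_right]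

theorem zpow_fix_mod {σ : Equiv.Perm X} {x0 : X} {n : ℕ} (hn : 0 < n) (hfix : (σ ^ n) x0 = x0)
    (i : ℤ) : (σ ^ i) x0 = (σ ^ (i % n).toNat) x0 := by
  have hn' : (0 : ℤ) < n := by exact_mod_cast hn
  have h1 : i = (i % n) + n * (i / n) := (Int.emod_add_mul_ediv i n).symm
  have h2 : ((i % n).toNat : ℤ) = i % n := Int.toNat_of_nonneg (Int.emod_nonneg i hn'.ne')
  have h3 : σ ^ (i % (n : ℤ)) = σ ^ (i % n).toNat := by rw [← zpow_natCast, h2]
  conv_lhs => rw [h1]
  rw [zpow_add, zpow_mul, Equiv.Perm.mul_apply, zpow_natCast,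
    Equiv.Perm.zpow_apply_eq_self_of_apply_eq_self hfix, h3]

theorem pow_inj_of_min {σ : Equiv.Perm X} {x0 : X} {n : ℕ}
    (hmin : ∀ m : ℕ, 0 < m → (σ ^ m) x0 = x0 → n ≤ m) {k l : ℕ} (hk : k < n) (hl : l < n)
    (h : (σ ^ k) x0 = (σ ^ l) x0) : k = l := by
  have aux : ∀ k l : ℕ, k < n → l < n → k ≤ l → (σ ^ k) x0 = (σ ^ l) x0 → k = l := by
    intro k l _ hl hkl h
    by_contra hne
    have hlt : 0 < l - k := by omega
    have h1 : σ ^ l = σ ^ k * σ ^ (l - k) := by
      rw [← pow_add]; congr 1; omega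
    rw [h1, Equiv.Perm.mul_apply] at h
    have h2 : (σ ^ (l - k)) x0 = x0 := ((σ ^ k).injective h).symm
    have := hmin _ hlt h2
    omega
  rcases Nat.le_total k l with hkl | hkl
  · exact aux k l hk hl hkl h
  · exact (aux l k hl hk hkl h.symm).symm

theorem conj_transport {G : Type*} [Group G] {b δ U V : G} (h : b * U * b⁻¹ = δ * V * δ⁻¹) :
    (δ⁻¹ * b) * U * (δ⁻¹ * b)⁻¹ = V := by
  have h1 : (δ⁻¹ * b) * U * (δ⁻¹ * b)⁻¹ = δ⁻¹ * (b * U * b⁻¹) * δ := by group
  rw [h1, h]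
  group

/-- **(C-FIB)** The projection formula for two cusp systems. -/
theorem residue_cores_eq_of_cuspSys [Fintype X] [Nonempty X] (h : IsTransferData i' al sig g')
    (P : Γ → Prop) (hPconj : ∀ g t, P t → P (g * t * g⁻¹))
    (hPpow : ∀ t (n : ℕ), P t → 0 < n → P (t ^ n))
    (Z : Subgroup Γ) (hZc : ∀ z ∈ Z, ∀ g : Γ, z * g = g * z) (hZ' : ∀ z ∈ Z, ∃ z' : Γ', i' z' = z)
    (Z' : Subgroup Γ')
    {C C' : Type*} [Fintype C] [Fintype C'] {π : C → Γ} {π' : C' → Γ'}
    (hπ : IsCuspSys P Z π) (hπ' : IsCuspSys (fun t' => P (i' t')) Z' π')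
    (φ : Additive Γ →+ A) (φ' ψ' : Additive Γ' →+ A)
    (hφ' : ∀ a : Γ', φ' (Additive.ofMul a) = φ (Additive.ofMul (i' a)))
    {F' : Γ' → A} (hF' : IsHLift φ' ψ' F')
    (hφ : ∀ c, φ (Additive.ofMul (π c)) = 0) (hψ' : ∀ c', ψ' (Additive.ofMul (π' c')) = 0) :
    ∑ c, coresLift al g' φ ψ' F' (π c) = ∑ c', F' (π' c') := by
  classical
  -- the fibration data
  have H : ∀ c' : C', ∃ (c : C) (n : ℕ) (x : X) (δ : Γ'), 0 < n ∧
      i' (δ * π' c' * δ⁻¹) = al x * π c ^ n * (al x)⁻¹ := by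
    intro c'
    obtain ⟨c, γ, n, hn, hγ⟩ := hπ.cover _ (hπ'.pos c')
    obtain ⟨x, a, hxa⟩ := h.exists_coset γ
    refine ⟨c, n, x, a⁻¹, hn, ?_⟩
    rw [map_mul, map_mul, hγ, hxa, map_inv, inv_inv]
    group
  choose p e xr δ he hconj using H
  -- periods
  have hper : ∀ c', (sig (π (p c')) ^ e c') (xr c') = xr c' := by
    intro c'
    have h1 : al (xr c') * π (p c') ^ e c' = i' (δ c' * π' c' * (δ c')⁻¹) * al (xr c') := by
      rw [hconj, inv_mul_cancel_right]
    rw [← h.sig_pow]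
    exact (h.unique h1).1
  -- powers of the conjugate
  have hconjpow : ∀ c' (m : ℕ), i' ((δ c' * π' c' * (δ c')⁻¹) ^ m)
      = al (xr c') * π (p c') ^ (e c' * m) * (al (xr c'))⁻¹ := by
    intro c' m
    rw [map_pow, hconj, conj_pow, ← pow_mul]
  -- the key minimality: every positive period of `xr c'` is at least `e c'`
  have hmin : ∀ c' (m : ℕ), 0 < m → (sig (π (p c')) ^ m) (xr c') = xr c' → e c' ≤ m := by
    intro c' m hm hfix
    have ht' := h.conj_pow (π (p c')) (xr c') hfix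
    have hPt' : P (i' (g' (π (p c') ^ m) (xr c'))) := by
      rw [ht']; exact hPconj _ _ (hPpow _ _ (hπ.pos _) hm)
    obtain ⟨c'', b, r, hr, hb⟩ := hπ'.cover _ hPt'
    have hpow : (g' (π (p c') ^ m) (xr c')) ^ e c' = (δ c' * π' c' * (δ c')⁻¹) ^ m := by
      apply h.inj
      rw [hconjpow, map_pow, ht', conj_pow, ← pow_mul, mul_comm]
    rw [hb, conj_pow, conj_pow, ← pow_mul] at hpow
    obtain ⟨-, hk, -⟩ := hπ'.rigid c'' c' (r * e c') m ((δ c')⁻¹ * b)
      (Nat.mul_pos hr (he c')) hm (conj_transport hpow)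
    rw [← hk]
    exact Nat.le_mul_of_pos_left _ hr
  apply residue_cores_eq h φ φ' ψ' hφ' hF' π π' p xr e δ hφ hψ' hconj ?_ hper
  intro c
  constructor
  · -- injectivity
    rintro ⟨⟨c1, hc1⟩, k⟩ ⟨⟨c2, hc2⟩, l⟩ hkl
    simp only at hkl
    have hc : c1 = c2 := by
      -- `x2 = σ^j x1` with a natural exponent
      have ho : 0 < orderOf (sig (π c)) := orderOf_pos _
      set j : ℕ := (k : ℕ) + (orderOf (sig (π c)) * (l : ℕ) - (l : ℕ)) with hj
      have hx2 : (sig (π c) ^ j) (xr c1) = xr c2 := by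
        have h1 : sig (π c) ^ j = sig (π c) ^ (orderOf (sig (π c)) * (l : ℕ) - (l : ℕ))
            * sig (π c) ^ (k : ℕ) := by
          rw [← pow_add, hj, add_comm]
        have h2 : sig (π c) ^ (orderOf (sig (π c)) * (l : ℕ) - (l : ℕ)) * sig (π c) ^ (l : ℕ)
            = 1 := by
          rw [← pow_add, Nat.sub_add_cancel (Nat.le_mul_of_pos_left _ ho), pow_mul,
            pow_orderOf_eq_one, one_pow]
        rw [h1, Equiv.Perm.mul_apply, hkl, ← Equiv.Perm.mul_apply, h2]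
        rfl
      -- the decomposition of `π c ^ j` at `xr c1`
      have hd := h.dec (π c ^ j) (xr c1)
      rw [h.sig_pow, hx2] at hd
      set d := g' (π c ^ j) (xr c1) with hd'
      -- conjugating
      have e1 : i' (d * (δ c2 * π' c2 * (δ c2)⁻¹) * d⁻¹)
          = al (xr c1) * π c ^ e c2 * (al (xr c1))⁻¹ := by
        have hal2 : al (xr c2) = (i' d)⁻¹ * (al (xr c1) * π c ^ j) := by
          rw [hd, inv_mul_cancel_left]
        rw [map_mul, map_mul, map_inv, hconj, hc2, hal2]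
        have hcomm : π c ^ j * π c ^ e c2 * (π c ^ j)⁻¹ = π c ^ e c2 := by
          rw [← pow_add, add_comm, pow_add, mul_inv_cancel_right]
        calc i' d * ((i' d)⁻¹ * (al (xr c1) * π c ^ j) * π c ^ e c2 *
              ((i' d)⁻¹ * (al (xr c1) * π c ^ j))⁻¹) * (i' d)⁻¹
            = al (xr c1) * (π c ^ j * π c ^ e c2 * (π c ^ j)⁻¹) * (al (xr c1))⁻¹ := by group
          _ = al (xr c1) * π c ^ e c2 * (al (xr c1))⁻¹ := by rw [hcomm]
      have e2 : (d * (δ c2 * π' c2 * (δ c2)⁻¹) * d⁻¹) ^ e c1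
          = (δ c1 * π' c1 * (δ c1)⁻¹) ^ e c2 := by
        apply h.inj
        rw [hconjpow, hc1, map_pow, e1, conj_pow, ← pow_mul, mul_comm]
      have e3 : (d * δ c2) * π' c2 ^ e c1 * (d * δ c2)⁻¹ = δ c1 * π' c1 ^ e c2 * (δ c1)⁻¹ := by
        rw [conj_pow, conj_pow, conj_pow] at e2
        rw [← e2]
        group
      obtain ⟨hcc, -, -⟩ := hπ'.rigid c2 c1 (e c1) (e c2) ((δ c1)⁻¹ * (d * δ c2)) (he c1) (he c2)
        (conj_transport e3)
      exact hcc.symm
    subst hc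
    have hkl' : (k : ℕ) = (l : ℕ) := by
      have hm := hmin c1
      rw [hc1] at hm
      exact pow_inj_of_min hm k.2 l.2 hkl
    have : k = l := Fin.ext hkl'
    subst this
    rfl
  · -- surjectivity
    intro x
    have ho : 0 < orderOf (sig (π c)) := orderOf_pos _
    have hfix : (sig (π c) ^ orderOf (sig (π c))) x = x := by
      rw [pow_orderOf_eq_one]; rfl
    have ht' := h.conj_pow (π c) x hfix
    have hPt' : P (i' (g' (π c ^ orderOf (sig (π c))) x)) := by
      rw [ht']; exact hPconj _ _ (hPpow _ _ (hπ.pos _) ho)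
    obtain ⟨c', b, r, hr, hb⟩ := hπ'.cover _ hPt'
    -- the element `g` conjugating `π (p c') ^ (e c' * r)` to `π c ^ orderOf`
    have hg : ((al x)⁻¹ * i' (b * (δ c')⁻¹) * al (xr c')) * π (p c') ^ (e c' * r)
        * ((al x)⁻¹ * i' (b * (δ c')⁻¹) * al (xr c'))⁻¹ = π c ^ orderOf (sig (π c)) := by
      have h1 : i' (g' (π c ^ orderOf (sig (π c))) x)
          = i' (b * (δ c')⁻¹) * (al (xr c') * π (p c') ^ (e c' * r) * (al (xr c'))⁻¹)
            * (i' (b * (δ c')⁻¹))⁻¹ := by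
        rw [← hconjpow, ← map_inv, ← map_mul, ← map_mul, hb, conj_pow]
        congr 1
        group
      rw [ht'] at h1
      have h2 : π c ^ orderOf (sig (π c)) = (al x)⁻¹ * (al x * π c ^ orderOf (sig (π c))
          * (al x)⁻¹) * al x := by group
      rw [h2, h1]
      group
    obtain ⟨hcc, -, j, z, hz, hgz⟩ := hπ.rigid (p c') c (e c' * r) (orderOf (sig (π c))) _
      (Nat.mul_pos (he c') hr) ho hg
    obtain ⟨z', hz'⟩ := hZ' z hz
    -- `al x * π c ^ j = i' (...) * al (xr c')`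
    have hdec : al x * π (p c') ^ j = i' (z'⁻¹ * (b * (δ c')⁻¹)) * al (xr c') := by
      have h1 : i' (b * (δ c')⁻¹) * al (xr c') = al x * (z * π (p c') ^ j) := by
        rw [← hgz]; group
      have h2 : z⁻¹ * al x * z = al x := by
        rw [mul_assoc, ← hZc z hz, inv_mul_cancel_left]
      calc al x * π (p c') ^ j = z⁻¹ * al x * z * π (p c') ^ j := by rw [h2]
        _ = z⁻¹ * (al x * (z * π (p c') ^ j)) := by group
        _ = z⁻¹ * (i' (b * (δ c')⁻¹) * al (xr c')) := by rw [h1]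
        _ = i' (z'⁻¹ * (b * (δ c')⁻¹)) * al (xr c') := by
          rw [← hz', map_mul i' z'⁻¹, map_inv, mul_assoc]
    have hx : (sig (π c) ^ j) x = xr c' := by
      have := (h.unique hdec).1
      rw [h.sig_zpow_eq, hcc] at this
      exact this
    have hx' : x = (sig (π c) ^ (-j)) (xr c') := by
      rw [← hx, ← Equiv.Perm.mul_apply, ← zpow_add, neg_add_cancel, zpow_zero]
      rfl
    have hperc : (sig (π c) ^ e c') (xr c') = xr c' := by
      have := hper c'; rw [hcc] at this; exact this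
    rw [zpow_fix_mod (he c') hperc] at hx'
    have hlt : ((-j) % (e c' : ℤ)).toNat < e c' := by
      have h0 : (0 : ℤ) < e c' := by exact_mod_cast he c'
      have h1 := Int.emod_lt_of_pos (-j) h0
      have h2 := Int.emod_nonneg (-j) h0.ne'
      omega
    exact ⟨⟨⟨c', hcc⟩, ⟨_, hlt⟩⟩, hx'.symm⟩

end transfer

end Fermat.Agent.S41.H17
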