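import Mathlib
import Fermat.Agent.S41.PDFib_helper17

/-!
# S41 (C): the concrete cusp system of a subgroup of `SL(2, ℤ)` (helper20)

`isCuspSys_of` / `isCuspSys_of_isClassReps`: for a subgroup `Γ` of `SL(2, ℤ)` containing `-1`,
a system of representatives of the conjugacy classes of primitive positive parabolic elements is
an abstract cusp system `H17.IsCuspSys` (cover + rigidity of powers), for
`P = PosPar` (trace `2`, `b - c > 0`) and `Z = {±1}`.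

Tools: `posPar_iff` (positive parabolic = conjugate of a positive power of `T`), `cjT_eq`
(rigidity of conjugates of powers of `T`), `IsW` (width of a cusp), `isPrim_of_isW`,
`isW_of_isPrim`.
-/

set_option autoImplicit false

namespace Fermat.Agent.S41.H20

open Matrix ModularGroup Matrix.SpecialLinearGroup
open scoped MatrixGroups

/-- Positive parabolic: trace `2` and `b - c > 0`. -/
def PosPar (g : SL(2, ℤ)) : Prop := g 0 0 + g 1 1 = 2 ∧ 0 < g 0 1 - g 1 0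

/-- Primitive positive parabolic element of `Γ`. -/
def IsPrim (Γ : Subgroup SL(2, ℤ)) (π : Γ) : Prop :=
  PosPar ↑π ∧ ∀ (δ : Γ) (n : ℕ), PosPar ↑δ → δ ^ n = π → n = 1

/-- A system of representatives of the `Γ`-conjugacy classes of primitive positive parabolic
elements. -/
def IsClassReps (Γ : Subgroup SL(2, ℤ)) {ι : Type*} (π : ι → Γ) : Prop :=
  (∀ i, IsPrim Γ (π i)) ∧ ∀ ρ : Γ, IsPrim Γ ρ → ∃! i, ∃ g : Γ, g * π i * g⁻¹ = ρ

theorem det_eq (t : SL(2, ℤ)) : t 0 0 * t 1 1 - t 0 1 * t 1 0 = 1 := by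
  have := t.det_coe
  rwa [det_fin_two] at this

theorem conj_T_zpow_entries (t : SL(2, ℤ)) (m : ℤ) :
    (t⁻¹ * T ^ m * t) 0 0 = 1 + m * t 1 0 * t 1 1 ∧ (t⁻¹ * T ^ m * t) 0 1 = m * t 1 1 ^ 2 ∧
    (t⁻¹ * T ^ m * t) 1 0 = -(m * t 1 0 ^ 2) ∧ (t⁻¹ * T ^ m * t) 1 1 = 1 - m * t 1 0 * t 1 1 := by
  have hdet := det_eq t
  simp only [coe_mul, coe_inv, coe_T_zpow, adjugate_fin_two, Matrix.mul_apply, Fin.sum_univ_two,
    of_apply, cons_val', cons_val_zero, cons_val_one, empty_val', cons_val_fin_one]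
  refine ⟨?_, ?_, ?_, ?_⟩ <;> simp <;> first | ring1 | linear_combination hdet

theorem sq_add_sq_pos (t : SL(2, ℤ)) : 0 < t 1 0 ^ 2 + t 1 1 ^ 2 := by
  have hdet := det_eq t
  rcases eq_or_ne (t 1 0) 0 with h | h
  · have : t 1 1 ≠ 0 := by
      intro h'
      rw [h, h'] at hdet
      simp at hdet
    positivity
  · positivity

theorem posPar_conj_T_zpow (t : SL(2, ℤ)) {m : ℤ} (hm : 0 < m) : PosPar (t⁻¹ * T ^ m * t) := by
  obtain ⟨h00, h01, h10, h11⟩ := conj_T_zpow_entries t m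
  refine ⟨by rw [h00, h11]; ring, ?_⟩
  rw [h01, h10]
  have := sq_add_sq_pos t
  nlinarith

theorem pos_of_posPar_conj_T_zpow (t : SL(2, ℤ)) {m : ℤ} (h : PosPar (t⁻¹ * T ^ m * t)) :
    0 < m := by
  obtain ⟨h00, h01, h10, h11⟩ := conj_T_zpow_entries t m
  have h2 := h.2
  rw [h01, h10] at h2
  have := sq_add_sq_pos t
  by_contra hm
  have hm' : m ≤ 0 := not_lt.mp hm
  nlinarith

theorem not_posPar_one : ¬ PosPar (1 : SL(2, ℤ)) := by
  intro h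
  have := h.2
  simp at this

/-- An element with first column `(1, 0)` is a power of `T`. -/
theorem eq_T_zpow_of (g : SL(2, ℤ)) (h00 : g 0 0 = 1) (h10 : g 1 0 = 0) : g = T ^ (g 0 1) := by
  have hdet := det_eq g
  rw [h00, h10] at hdet
  have h11 : g 1 1 = 1 := by linarith
  ext i j
  fin_cases i <;> fin_cases j <;> simp [coe_T_zpow, h00, h10, h11]

/-- An element with first column `(-1, 0)` is minus a power of `T`. -/
theorem eq_neg_T_zpow_of (g : SL(2, ℤ)) (h00 : g 0 0 = -1) (h10 : g 1 0 = 0) :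
    g = -T ^ (-(g 0 1)) := by
  have hdet := det_eq g
  rw [h00, h10] at hdet
  have h11 : g 1 1 = -1 := by linarith
  ext i j
  fin_cases i <;> fin_cases j <;> simp [coe_T_zpow, h00, h10, h11]

/-- The commutation relation `u T^a = T^b u` with `a ≠ 0`. -/
theorem mul_T_zpow_eq (u : SL(2, ℤ)) {a b : ℤ} (ha : a ≠ 0) (h : u * T ^ a = T ^ b * u) :
    a = b ∧ u 1 0 = 0 ∧ (u 0 0 = 1 ∧ u 1 1 = 1 ∨ u 0 0 = -1 ∧ u 1 1 = -1) := by
  have hdet := det_eq u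
  have e01 := congrArg (fun M : SL(2, ℤ) => M 0 1) h
  have e11 := congrArg (fun M : SL(2, ℤ) => M 1 1) h
  simp only [coe_mul, coe_T_zpow, Matrix.mul_apply, Fin.sum_univ_two, of_apply, cons_val',
    cons_val_zero, cons_val_one, empty_val', cons_val_fin_one] at e01 e11
  simp at e01 e11
  have h10 : u 1 0 = 0 := by
    rcases e11 with h | h
    · exact h
    · exact absurd h ha
  rw [h10] at hdet
  have hprod : u 0 0 * u 1 1 = 1 := by linarith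
  rcases Int.eq_one_or_neg_one_of_mul_eq_one' hprod with ⟨h0, h1⟩ | ⟨h0, h1⟩
  · refine ⟨?_, h10, Or.inl ⟨h0, h1⟩⟩
    rw [h0, h1] at e01
    linarith
  · refine ⟨?_, h10, Or.inr ⟨h0, h1⟩⟩
    rw [h0, h1] at e01
    linarith

/-- Upper triangular elements with equal diagonal entries commute with the powers of `T`. -/
theorem commute_T_zpow (u : SL(2, ℤ)) (h10 : u 1 0 = 0) (hd : u 0 0 = u 1 1) (k : ℤ) :
    u * T ^ k = T ^ k * u := by
  ext i j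
  fin_cases i <;> fin_cases j <;>
    simp [coe_mul, coe_T_zpow, Matrix.mul_apply, Fin.sum_univ_two, h10, hd]
  ring


theorem cj_zpow (t x : SL(2, ℤ)) (k : ℤ) : (t⁻¹ * x * t) ^ k = t⁻¹ * x ^ k * t := by
  have := conj_zpow (a := t⁻¹) (b := x) (i := k)
  simpa using this

theorem cj_pow (t x : SL(2, ℤ)) (k : ℕ) : (t⁻¹ * x * t) ^ k = t⁻¹ * x ^ k * t := by
  have := conj_pow (a := t⁻¹) (b := x) (i := k)
  simpa using this

theorem cjT_mul (t : SL(2, ℤ)) (a b : ℤ) :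
    (t⁻¹ * T ^ a * t) * (t⁻¹ * T ^ b * t) = t⁻¹ * T ^ (a + b) * t := by
  rw [_root_.zpow_add]; group

theorem cjT_zpow (t : SL(2, ℤ)) (a k : ℤ) :
    (t⁻¹ * T ^ a * t) ^ k = t⁻¹ * T ^ (a * k) * t := by
  rw [cj_zpow, ← _root_.zpow_mul]

theorem cjT_pow (t : SL(2, ℤ)) (a : ℤ) (k : ℕ) :
    (t⁻¹ * T ^ a * t) ^ k = t⁻¹ * T ^ (a * k) * t := by
  rw [cj_pow, ← _root_.zpow_natCast, ← _root_.zpow_mul]

theorem cjT_inv (t : SL(2, ℤ)) (a : ℤ) : (t⁻¹ * T ^ a * t)⁻¹ = t⁻¹ * T ^ (-a) * t := by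
  rw [_root_.zpow_neg]; group

theorem cjT_conj (s t : SL(2, ℤ)) (a : ℤ) :
    s⁻¹ * (t⁻¹ * T ^ a * t) * s = (t * s)⁻¹ * T ^ a * (t * s) := by group

/-- Positive parabolic elements are exactly the conjugates of positive powers of `T`. -/
theorem posPar_iff (g : SL(2, ℤ)) :
    PosPar g ↔ ∃ (t : SL(2, ℤ)) (m : ℤ), 0 < m ∧ g = t⁻¹ * T ^ m * t := by
  constructor
  · rintro ⟨htr, hpos⟩
    have hdet := det_eq g
    obtain ⟨c, d, hcd, h1, h2⟩ : ∃ c d : ℤ, IsCoprime c d ∧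
        (g 0 0 - 1) * d = g 0 1 * c ∧ g 1 0 * d = -((g 0 0 - 1) * c) := by
      rcases Nat.eq_zero_or_pos (Int.gcd (g 0 0 - 1) (g 0 1)) with h0 | hG
      · rw [Int.gcd_eq_zero_iff] at h0
        refine ⟨1, 0, isCoprime_one_left, by rw [h0.2]; ring, by rw [h0.1]; ring⟩
      · obtain ⟨c, d, hgcd, hc, hd⟩ := Int.exists_gcd_one hG
        have hG' : ((Int.gcd (g 0 0 - 1) (g 0 1) : ℕ) : ℤ) ≠ 0 := by
          exact_mod_cast hG.ne'
        generalize ((Int.gcd (g 0 0 - 1) (g 0 1) : ℕ) : ℤ) = G at hc hd hG'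
        refine ⟨c, d, Int.isCoprime_iff_gcd_eq_one.mpr hgcd, ?_, ?_⟩
        · linear_combination d * hc - c * hd
        · have key : G * (g 1 0 * d + (g 0 0 - 1) * c) = 0 := by
            linear_combination (-(g 1 0)) * hd - (g 0 0 - 1) * hc - hdet + g 0 0 * htr
          rcases mul_eq_zero.mp key with h | h
          · exact absurd h hG'
          · linarith
    obtain ⟨t, -, ht⟩ := bottom_row_surj (R := ℤ)
      (show ![c, d] ∈ {cd : Fin 2 → ℤ | IsCoprime (cd 0) (cd 1)} by simpa using hcd)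
    have ht0 : t 1 0 = c := by simpa using congrFun ht 0
    have ht1 : t 1 1 = d := by simpa using congrFun ht 1
    have hdt := det_eq t
    rw [ht0, ht1] at hdt
    have e00 : (t * g * t⁻¹) 0 0 = 1 := by
      simp only [coe_mul, coe_inv, adjugate_fin_two, Matrix.mul_apply, Fin.sum_univ_two,
        of_apply, cons_val', cons_val_zero, cons_val_one, empty_val', cons_val_fin_one]
      simp only [ht0, ht1]
      linear_combination t 0 0 * h1 + t 0 1 * h2 + hdt - t 0 1 * c * htr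
    have e10 : (t * g * t⁻¹) 1 0 = 0 := by
      simp only [coe_mul, coe_inv, adjugate_fin_two, Matrix.mul_apply, Fin.sum_univ_two,
        of_apply, cons_val', cons_val_zero, cons_val_one, empty_val', cons_val_fin_one]
      simp only [ht0, ht1]
      linear_combination c * h1 + d * h2 - d * c * htr
    have hg : g = t⁻¹ * T ^ ((t * g * t⁻¹) 0 1) * t := by
      rw [← eq_T_zpow_of _ e00 e10]; group
    refine ⟨t, (t * g * t⁻¹) 0 1, ?_, hg⟩
    apply pos_of_posPar_conj_T_zpow t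
    rw [← hg]
    exact ⟨htr, hpos⟩
  · rintro ⟨t, m, hm, rfl⟩
    exact posPar_conj_T_zpow t hm


theorem PosPar.conj {g : SL(2, ℤ)} (h : PosPar g) (s : SL(2, ℤ)) : PosPar (s⁻¹ * g * s) := by
  obtain ⟨t, m, hm, rfl⟩ := (posPar_iff g).mp h
  rw [cjT_conj]
  exact posPar_conj_T_zpow _ hm

theorem PosPar.conj' {g : SL(2, ℤ)} (h : PosPar g) (s : SL(2, ℤ)) : PosPar (s * g * s⁻¹) := by
  simpa using h.conj s⁻¹

theorem PosPar.pow {g : SL(2, ℤ)} (h : PosPar g) {k : ℕ} (hk : 0 < k) : PosPar (g ^ k) := by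
  obtain ⟨t, m, hm, rfl⟩ := (posPar_iff g).mp h
  rw [cjT_pow]
  exact posPar_conj_T_zpow _ (by positivity)

/-- Two conjugates of nontrivial powers of `T` that coincide have the same exponent, and then all
the corresponding conjugates of powers of `T` coincide. -/
theorem cjT_eq {s t : SL(2, ℤ)} {a b : ℤ} (ha : a ≠ 0)
    (h : s⁻¹ * T ^ a * s = t⁻¹ * T ^ b * t) :
    a = b ∧ ∀ k : ℤ, s⁻¹ * T ^ k * s = t⁻¹ * T ^ k * t := by
  have hu : (t * s⁻¹) * T ^ a = T ^ b * (t * s⁻¹) := by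
    calc (t * s⁻¹) * T ^ a = t * (s⁻¹ * T ^ a * s) * s⁻¹ := by group
      _ = t * (t⁻¹ * T ^ b * t) * s⁻¹ := by rw [h]
      _ = T ^ b * (t * s⁻¹) := by group
  obtain ⟨hab, h10, hd⟩ := mul_T_zpow_eq _ ha hu
  refine ⟨hab, fun k => ?_⟩
  have hc := commute_T_zpow (t * s⁻¹) h10
    (by rcases hd with ⟨h0, h1⟩ | ⟨h0, h1⟩ <;> rw [h0, h1]) k
  calc s⁻¹ * T ^ k * s = t⁻¹ * ((t * s⁻¹) * T ^ k) * s := by group
    _ = t⁻¹ * (T ^ k * (t * s⁻¹)) * s := by rw [hc]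
    _ = t⁻¹ * T ^ k * t := by group

/-- `h` is the width of the cusp `t⁻¹ ∞` in `Γ`. -/
def IsW (Γ : Subgroup SL(2, ℤ)) (t : SL(2, ℤ)) (h : ℤ) : Prop :=
  0 < h ∧ t⁻¹ * T ^ h * t ∈ Γ ∧ ∀ a : ℤ, t⁻¹ * T ^ a * t ∈ Γ → h ∣ a

theorem exists_isW (Γ : Subgroup SL(2, ℤ)) (t : SL(2, ℤ)) {a : ℤ} (ha : 0 < a)
    (hmem : t⁻¹ * T ^ a * t ∈ Γ) : ∃ h, IsW Γ t h := by
  classical
  have hex : ∃ k : ℕ, 0 < k ∧ t⁻¹ * T ^ (k : ℤ) * t ∈ Γ :=
    ⟨a.toNat, by omega, by rwa [Int.toNat_of_nonneg ha.le]⟩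
  have hspec := Nat.find_spec hex
  have hpos : (0 : ℤ) < (Nat.find hex : ℤ) := by exact_mod_cast hspec.1
  refine ⟨(Nat.find hex : ℤ), hpos, hspec.2, fun b hb => ?_⟩
  have hr : t⁻¹ * T ^ (b % (Nat.find hex : ℤ)) * t ∈ Γ := by
    have : t⁻¹ * T ^ (b % (Nat.find hex : ℤ)) * t
        = (t⁻¹ * T ^ b * t) * (t⁻¹ * T ^ (Nat.find hex : ℤ) * t) ^ (-(b / (Nat.find hex : ℤ))) := by
      have e : b % (Nat.find hex : ℤ)
          = b + (Nat.find hex : ℤ) * -(b / (Nat.find hex : ℤ)) := by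
        rw [Int.emod_def]
        ring
      rw [cjT_zpow, cjT_mul, e]
    rw [this]
    exact Γ.mul_mem hb (Γ.zpow_mem hspec.2 _)
  have h0 : 0 ≤ b % (Nat.find hex : ℤ) := Int.emod_nonneg _ hpos.ne'
  have hlt : b % (Nat.find hex : ℤ) < (Nat.find hex : ℤ) := Int.emod_lt_of_pos _ hpos
  by_contra hdvd
  have hne : b % (Nat.find hex : ℤ) ≠ 0 := fun h' => hdvd (Int.dvd_of_emod_eq_zero h')
  have hmin := Nat.find_min hex (m := (b % (Nat.find hex : ℤ)).toNat) (by omega)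
  apply hmin
  refine ⟨by omega, ?_⟩
  rwa [Int.toNat_of_nonneg h0]

theorem isPrim_of_isW {Γ : Subgroup SL(2, ℤ)} {t : SL(2, ℤ)} {h : ℤ} (hw : IsW Γ t h) :
    IsPrim Γ ⟨t⁻¹ * T ^ h * t, hw.2.1⟩ := by
  refine ⟨posPar_conj_T_zpow t hw.1, fun δ n hδ hn => ?_⟩
  obtain ⟨s, b, hb, hs⟩ := (posPar_iff _).mp hδ
  have hn' : (δ : SL(2, ℤ)) ^ n = t⁻¹ * T ^ h * t := by
    have := congrArg Subtype.val hn
    simpa using this
  rw [hs, cjT_pow] at hn'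
  have hn0 : n ≠ 0 := by
    rintro rfl
    have h1 : (1 : SL(2, ℤ)) = t⁻¹ * T ^ h * t := by simpa using hn'
    exact not_posPar_one (h1 ▸ posPar_conj_T_zpow t hw.1)
  have hbn0 : b * (n : ℤ) ≠ 0 := by
    have : (0 : ℤ) < n := by exact_mod_cast Nat.pos_of_ne_zero hn0
    positivity
  obtain ⟨hbn, hall⟩ := cjT_eq hbn0 hn'
  have hmem : t⁻¹ * T ^ b * t ∈ Γ := by
    rw [← hall b, ← hs]
    exact δ.2
  obtain ⟨k, hk⟩ := hw.2.2 b hmem
  have h1 : h * (k * (n : ℤ)) = h * 1 := by rw [← mul_assoc, ← hk, hbn, mul_one]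
  have hkn : k * (n : ℤ) = 1 := mul_left_cancel₀ hw.1.ne' h1
  have hdvd : (n : ℤ) ∣ 1 := Dvd.intro_left k hkn
  have := Int.eq_one_of_dvd_one (by positivity) hdvd
  exact_mod_cast this

theorem isW_of_isPrim {Γ : Subgroup SL(2, ℤ)} {π : Γ} (hπ : IsPrim Γ π) {t : SL(2, ℤ)} {h : ℤ}
    (hh : 0 < h) (he : (π : SL(2, ℤ)) = t⁻¹ * T ^ h * t) : IsW Γ t h := by
  have hmem : t⁻¹ * T ^ h * t ∈ Γ := he ▸ π.2
  obtain ⟨w, hw⟩ := exists_isW Γ t hh hmem
  obtain ⟨k, hk⟩ := hw.2.2 h hmem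
  have hkpos : 0 < k := by
    by_contra hk0
    have hk0' : k ≤ 0 := not_lt.mp hk0
    nlinarith [hw.1]
  have h1 := hπ.2 ⟨t⁻¹ * T ^ w * t, hw.2.1⟩ k.toNat (posPar_conj_T_zpow t hw.1) (by
    apply Subtype.ext
    simp only [SubgroupClass.coe_pow]
    rw [cjT_pow, he, Int.toNat_of_nonneg hkpos.le, ← hk])
  have hk1 : k = 1 := by omega
  rw [hk, hk1, mul_one]
  exact hw

theorem exists_isW_of_isPrim {Γ : Subgroup SL(2, ℤ)} {π : Γ} (hπ : IsPrim Γ π) :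
    ∃ (t : SL(2, ℤ)) (h : ℤ), IsW Γ t h ∧ (π : SL(2, ℤ)) = t⁻¹ * T ^ h * t := by
  obtain ⟨t, m, hm, he⟩ := (posPar_iff _).mp hπ.1
  exact ⟨t, m, isW_of_isPrim hπ hm he, he⟩

/-- **The concrete cusp system** (unbundled hypotheses): representatives of the classes of
primitive positive parabolic elements of `Γ ∋ -1` form an abstract cusp system. -/
theorem isCuspSys_of {Γ : Subgroup SL(2, ℤ)} (hneg : (-1 : SL(2, ℤ)) ∈ Γ) {C : Type*}
    (π : C → Γ) (hprim : ∀ c, IsPrim Γ (π c))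
    (hcov : ∀ ρ : Γ, IsPrim Γ ρ → ∃ (c : C) (g : Γ), g * π c * g⁻¹ = ρ)
    (huniq : ∀ (c c' : C) (g : Γ), g * π c * g⁻¹ = π c' → c = c') :
    H17.IsCuspSys (fun γ : Γ => PosPar (γ : SL(2, ℤ)))
      (Subgroup.zpowers (⟨-1, hneg⟩ : Γ)) π := by
  refine ⟨fun c => (hprim c).1, ?_, ?_⟩
  · -- cover
    intro t ht
    obtain ⟨s, a, ha, hs⟩ := (posPar_iff _).mp ht
    have hmem : s⁻¹ * T ^ a * s ∈ Γ := hs ▸ t.2
    obtain ⟨h, hw⟩ := exists_isW Γ s ha hmem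
    obtain ⟨k, hk⟩ := hw.2.2 a hmem
    have hkpos : 0 < k := by
      by_contra h0
      have h0' : k ≤ 0 := not_lt.mp h0
      nlinarith [hw.1]
    obtain ⟨c, g, hg⟩ := hcov ⟨s⁻¹ * T ^ h * s, hw.2.1⟩ (isPrim_of_isW hw)
    refine ⟨c, g, k.toNat, by omega, ?_⟩
    rw [← conj_pow, hg]
    apply Subtype.ext
    simp only [SubgroupClass.coe_pow]
    rw [hs, cjT_pow, Int.toNat_of_nonneg hkpos.le, ← hk]
  · -- rigid
    intro c c' k k' γ hk hk' heq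
    obtain ⟨t, h, hw, ht⟩ := exists_isW_of_isPrim (hprim c)
    obtain ⟨t', h', hw', ht'⟩ := exists_isW_of_isPrim (hprim c')
    have heq' : (γ : SL(2, ℤ)) * (π c : SL(2, ℤ)) ^ k * (γ : SL(2, ℤ))⁻¹
        = (π c' : SL(2, ℤ)) ^ k' := by
      have := congrArg Subtype.val heq
      simpa using this
    rw [ht, ht', cjT_pow, cjT_pow] at heq'
    have heq'' : (t * (γ : SL(2, ℤ))⁻¹)⁻¹ * T ^ (h * k) * (t * (γ : SL(2, ℤ))⁻¹)
        = t'⁻¹ * T ^ (h' * k') * t' := by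
      rw [← heq']; group
    have hk0 : h * (k : ℤ) ≠ 0 := by
      have := hw.1
      have hk1 : (0 : ℤ) < k := by exact_mod_cast hk
      positivity
    obtain ⟨hkk, hall⟩ := cjT_eq hk0 heq''
    have hd1 : h' ∣ h := by
      apply hw'.2.2
      rw [← hall h]
      have : (t * (γ : SL(2, ℤ))⁻¹)⁻¹ * T ^ h * (t * (γ : SL(2, ℤ))⁻¹)
          = γ * (t⁻¹ * T ^ h * t) * (γ : SL(2, ℤ))⁻¹ := by group
      rw [this]
      exact Γ.mul_mem (Γ.mul_mem γ.2 hw.2.1) (Γ.inv_mem γ.2)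
    have hd2 : h ∣ h' := by
      apply hw.2.2
      have : t⁻¹ * T ^ h' * t = (γ : SL(2, ℤ))⁻¹
          * ((t * (γ : SL(2, ℤ))⁻¹)⁻¹ * T ^ h' * (t * (γ : SL(2, ℤ))⁻¹)) * γ := by group
      rw [this, hall h']
      exact Γ.mul_mem (Γ.mul_mem (Γ.inv_mem γ.2) hw'.2.1) γ.2
    have hh : h = h' := Int.dvd_antisymm hw.1.le hw'.1.le hd2 hd1
    subst hh
    have hkk' : k = k' := by
      have : (k : ℤ) = k' := mul_left_cancel₀ hw.1.ne' hkk
      exact_mod_cast this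
    have hconj : γ * π c * γ⁻¹ = π c' := by
      apply Subtype.ext
      simp only [Subgroup.coe_mul, InvMemClass.coe_inv]
      rw [ht, ht', ← hall h]; group
    have hcc : c = c' := huniq c c' γ hconj
    refine ⟨hcc, hkk', ?_⟩
    subst hcc
    have hu : (t * (γ : SL(2, ℤ)) * t⁻¹) * T ^ h = T ^ h * (t * (γ : SL(2, ℤ)) * t⁻¹) := by
      have h1 : (γ : SL(2, ℤ)) * (t⁻¹ * T ^ h * t) = (t⁻¹ * T ^ h * t) * γ := by
        have h2 := congrArg Subtype.val hconj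
        simp only [Subgroup.coe_mul, InvMemClass.coe_inv] at h2
        rw [ht] at h2
        calc (γ : SL(2, ℤ)) * (t⁻¹ * T ^ h * t)
            = (γ * (t⁻¹ * T ^ h * t) * (γ : SL(2, ℤ))⁻¹) * γ := by group
          _ = (t⁻¹ * T ^ h * t) * γ := by rw [h2]
      calc (t * (γ : SL(2, ℤ)) * t⁻¹) * T ^ h
          = t * ((γ : SL(2, ℤ)) * (t⁻¹ * T ^ h * t)) * t⁻¹ := by group
        _ = t * ((t⁻¹ * T ^ h * t) * γ) * t⁻¹ := by rw [h1]
        _ = T ^ h * (t * (γ : SL(2, ℤ)) * t⁻¹) := by group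
    obtain ⟨-, h10, hd⟩ := mul_T_zpow_eq _ hw.1.ne' hu
    rcases hd with ⟨h0, -⟩ | ⟨h0, -⟩
    · have hu' := eq_T_zpow_of _ h0 h10
      have hγ : (γ : SL(2, ℤ)) = t⁻¹ * T ^ ((t * (γ : SL(2, ℤ)) * t⁻¹) 0 1) * t := by
        rw [← hu']; group
      obtain ⟨m, hm⟩ := hw.2.2 _ (hγ ▸ γ.2)
      refine ⟨m, 1, Subgroup.one_mem _, ?_⟩
      apply Subtype.ext
      simp only [one_mul, SubgroupClass.coe_zpow]
      rw [ht, cjT_zpow, ← hm]
      exact hγ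
    · obtain ⟨j, hj⟩ : ∃ j : ℤ, t * (γ : SL(2, ℤ)) * t⁻¹ = -T ^ j :=
        ⟨_, eq_neg_T_zpow_of _ h0 h10⟩
      have hγ : (γ : SL(2, ℤ)) = -(t⁻¹ * T ^ j * t) := by
        have h3 : (γ : SL(2, ℤ)) = t⁻¹ * (t * γ * t⁻¹) * t := by group
        have h5 : t⁻¹ * (-T ^ j) * t = -(t⁻¹ * T ^ j * t) := by
          rw [mul_neg, neg_mul]
        rw [← h5, ← hj]
        exact h3
      have hmem : t⁻¹ * T ^ j * t ∈ Γ := by
        have h4 : t⁻¹ * T ^ j * t = (-1 : SL(2, ℤ)) * γ := by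
          rw [hγ, neg_one_mul, neg_neg]
        rw [h4]
        exact Γ.mul_mem hneg γ.2
      obtain ⟨m, hm⟩ := hw.2.2 _ hmem
      refine ⟨m, ⟨-1, hneg⟩, Subgroup.mem_zpowers _, ?_⟩
      apply Subtype.ext
      simp only [Subgroup.coe_mul, SubgroupClass.coe_zpow]
      rw [ht, cjT_zpow, ← hm, neg_one_mul]
      exact hγ

/-- The concrete cusp system of a system of class representatives. -/
theorem isCuspSys_of_isClassReps {Γ : Subgroup SL(2, ℤ)} (hneg : (-1 : SL(2, ℤ)) ∈ Γ)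
    {C : Type*} (π : C → Γ) (hπ : IsClassReps Γ π) :
    H17.IsCuspSys (fun γ : Γ => PosPar (γ : SL(2, ℤ)))
      (Subgroup.zpowers (⟨-1, hneg⟩ : Γ)) π := by
  refine isCuspSys_of hneg π hπ.1 (fun ρ hρ => ?_) (fun c c' g hg => ?_)
  · obtain ⟨c, ⟨g, hg⟩, -⟩ := hπ.2 ρ hρ
    exact ⟨c, g, hg⟩
  · obtain ⟨c₀, -, huq⟩ := hπ.2 (π c') (hπ.1 c')
    rw [huq c ⟨g, hg⟩, huq c' ⟨1, by simp⟩]

theorem posPar_conj_mem {Γ : Subgroup SL(2, ℤ)} (g t : Γ) (h : PosPar (t : SL(2, ℤ))) :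
    PosPar ((g * t * g⁻¹ : Γ) : SL(2, ℤ)) := by
  simpa using h.conj' (g : SL(2, ℤ))

theorem posPar_pow_mem {Γ : Subgroup SL(2, ℤ)} (t : Γ) (n : ℕ) (h : PosPar (t : SL(2, ℤ)))
    (hn : 0 < n) : PosPar ((t ^ n : Γ) : SL(2, ℤ)) := by
  simpa using h.pow hn

theorem zpowers_neg_one_central {Γ : Subgroup SL(2, ℤ)} (hneg : (-1 : SL(2, ℤ)) ∈ Γ) :
    ∀ z ∈ Subgroup.zpowers (⟨-1, hneg⟩ : Γ), ∀ g : Γ, z * g = g * z := by
  intro z hz g
  obtain ⟨n, rfl⟩ := Subgroup.mem_zpowers_iff.mp hz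
  have hc : Commute (⟨-1, hneg⟩ : Γ) g := by
    apply Subtype.ext
    simp
  exact (hc.zpow_left n).eq

theorem zpowers_neg_one_lift {Γ Γ' : Subgroup SL(2, ℤ)} (hle : Γ' ≤ Γ)
    (hneg : (-1 : SL(2, ℤ)) ∈ Γ') :
    ∀ z ∈ Subgroup.zpowers (⟨-1, hle hneg⟩ : Γ), ∃ z' : Γ', Subgroup.inclusion hle z' = z := by
  intro z hz
  obtain ⟨n, rfl⟩ := Subgroup.mem_zpowers_iff.mp hz
  exact ⟨(⟨-1, hneg⟩ : Γ') ^ n, by rw [map_zpow]; rfl⟩

open Finset in
/-- **(T1), ready to use**: the projection formula for the residue pairing, for subgroups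
`Γ' ≤ Γ ≤ SL(2, ℤ)` with `-1 ∈ Γ'`, transfer data for the inclusion and arbitrary systems of
class representatives of primitive positive parabolic elements on both levels. -/
theorem residue_cores_eq_of_isClassReps {Γ Γ' : Subgroup SL(2, ℤ)} (hle : Γ' ≤ Γ)
    (hneg : (-1 : SL(2, ℤ)) ∈ Γ') {X A : Type*} [Fintype X] [Nonempty X] [CommRing A]
    {al : X → Γ} {sig : Γ → Equiv.Perm X} {g' : Γ → X → Γ'}
    (h : H17.IsTransferData (Subgroup.inclusion hle) al sig g')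
    {C C' : Type*} [Fintype C] [Fintype C'] {π : C → Γ} {π' : C' → Γ'}
    (hπ : IsClassReps Γ π) (hπ' : IsClassReps Γ' π')
    (φ : Additive Γ →+ A) (φ' ψ' : Additive Γ' →+ A)
    (hφ' : ∀ a : Γ', φ' (Additive.ofMul a) = φ (Additive.ofMul (Subgroup.inclusion hle a)))
    {F' : Γ' → A} (hF' : H17.IsHLift φ' ψ' F')
    (hφ : ∀ c, φ (Additive.ofMul (π c)) = 0) (hψ' : ∀ c', ψ' (Additive.ofMul (π' c')) = 0) :
    ∑ c, H17.coresLift al g' φ ψ' F' (π c) = ∑ c', F' (π' c') :=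
  H17.residue_cores_eq_of_cuspSys h (fun γ : Γ => PosPar (γ : SL(2, ℤ)))
    posPar_conj_mem posPar_pow_mem
    (Subgroup.zpowers (⟨-1, hle hneg⟩ : Γ)) (zpowers_neg_one_central (hle hneg))
    (zpowers_neg_one_lift hle hneg) (Subgroup.zpowers (⟨-1, hneg⟩ : Γ'))
    (isCuspSys_of_isClassReps (hle hneg) π hπ) (isCuspSys_of_isClassReps hneg π' hπ')
    φ φ' ψ' hφ' hF' hφ hψ'

end Fermat.Agent.S41.H20
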