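import Mathlib

/-!
# The residue identity for Heisenberg lifts  (helper95, node (C-RES) of S41)

For additive characters `φ ψ : Additive Γ →+ A` a *Heisenberg lift* is a function `F : Γ → A` with
`F (g * h) = F g + F h + φ g * ψ h`.  For Schreier-type data of a finite `⟨S, R⟩`-set `X`
(`σ x = κ(S, x)`, `ρ x = κ(R, x)`, `τ x = σ (R x) * ρ x = κ(T, x)` up to the central element)
the sum of `F` over the cusp elements `κ(T ^ h, x_c)` is given by an explicit bilinear expression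
`resE` in the values of `φ` and `ψ` on the Schreier elements; in particular it does not depend on
the lift `F` (`six_mul_sum_cusp`).  This makes the cup-product pairing on parabolic characters
intrinsic (a sum of `F` over the conjugacy classes of the primitive parabolic elements), hence
invariant under conjugation.
-/

set_option autoImplicit false

namespace Fermat.Agent.S41.H95

open Additive Finset

section lifts

variable {Γ : Type*} [Group Γ] {A : Type*} [CommRing A]

/-- `F` is a Heisenberg lift of the pair of additive characters `(φ, ψ)`. -/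
def IsHLift (φ ψ : Additive Γ →+ A) (F : Γ → A) : Prop :=
  ∀ g h : Γ, F (g * h) = F g + F h + φ (ofMul g) * ψ (ofMul h)

variable {φ ψ : Additive Γ →+ A} {F : Γ → A}

theorem IsHLift.map_one (hF : IsHLift φ ψ F) : F 1 = 0 := by
  have h := hF 1 1
  simp only [mul_one, ofMul_one, map_zero, mul_zero, add_zero] at h
  linear_combination -h

/-- a central-type involution is invisible (no `2`-torsion). -/
theorem IsHLift.map_invol (h2 : ∀ a : A, a + a = 0 → a = 0) (hF : IsHLift φ ψ F) {ε : Γ}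
    (hε : ε * ε = 1) : φ (ofMul ε) = 0 ∧ ψ (ofMul ε) = 0 ∧ F ε = 0 := by
  have hφ : φ (ofMul ε) = 0 := by
    apply h2
    rw [← map_add, ← ofMul_mul, hε, ofMul_one, map_zero]
  have hψ : ψ (ofMul ε) = 0 := by
    apply h2
    rw [← map_add, ← ofMul_mul, hε, ofMul_one, map_zero]
  refine ⟨hφ, hψ, h2 _ ?_⟩
  have h := hF ε ε
  rw [hε, hF.map_one, hφ] at h
  linear_combination -h

/-- the difference of two lifts is additive. -/
theorem IsHLift.sub_mul {F' : Γ → A} (hF : IsHLift φ ψ F) (hF' : IsHLift φ ψ F') (g h : Γ) :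
    F (g * h) - F' (g * h) = (F g - F' g) + (F h - F' h) := by
  rw [hF g h, hF' g h]
  ring

/-- lifts are invariant under conjugation on the common kernel of `φ` and `ψ`. -/
theorem IsHLift.map_conj (hF : IsHLift φ ψ F) (g π : Γ) (hφ : φ (ofMul π) = 0)
    (hψ : ψ (ofMul π) = 0) : F (g * π * g⁻¹) = F π := by
  have h1 := hF g π
  have h2 := hF (g * π * g⁻¹) g
  have e : g * π * g⁻¹ * g = g * π := by group
  have e2 : φ (ofMul (g * π * g⁻¹)) = 0 := by
    simp [ofMul_mul, hφ]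
  rw [e, e2, h1, hψ] at h2
  linear_combination -h2

/-- lifts pull back along group homomorphisms. -/
theorem IsHLift.comp {Γ' : Type*} [Group Γ'] (hF : IsHLift φ ψ F) (f : Γ' →* Γ) :
    IsHLift (φ.comp (MonoidHom.toAdditive f)) (ψ.comp (MonoidHom.toAdditive f)) (F ∘ f) := by
  intro g h
  simp only [Function.comp_apply, map_mul, AddMonoidHom.comp_apply]
  exact hF (f g) (f h)

/-- lifts are additive in each character and compatible with scalars. -/
theorem IsHLift.add_left {φ' : Additive Γ →+ A} {F' : Γ → A} (hF : IsHLift φ ψ F)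
    (hF' : IsHLift φ' ψ F') : IsHLift (φ + φ') ψ (F + F') := by
  intro g h
  simp only [Pi.add_apply, AddMonoidHom.add_apply, hF g h, hF' g h]
  ring

theorem IsHLift.add_right {ψ' : Additive Γ →+ A} {F' : Γ → A} (hF : IsHLift φ ψ F)
    (hF' : IsHLift φ ψ' F') : IsHLift φ (ψ + ψ') (F + F') := by
  intro g h
  simp only [Pi.add_apply, AddMonoidHom.add_apply, hF g h, hF' g h]
  ring

end lifts

section cusp

variable {Γ : Type*} [Group Γ] {A : Type*} [CommRing A] {X : Type*}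

/-- `τ (T ^ (n-1) b) * ⋯ * τ (T b) * τ b`: the Schreier element `κ(T ^ n, b)`. -/
def cuspProd (τ : X → Γ) (T : Equiv.Perm X) (b : X) : ℕ → Γ
  | 0 => 1
  | n + 1 => τ ((T ^ n) b) * cuspProd τ T b n

variable {φ ψ : Additive Γ →+ A} {F : Γ → A}

theorem map_cuspProd (χ : Additive Γ →+ A) (τ : X → Γ) (T : Equiv.Perm X) (b : X) (n : ℕ) :
    χ (ofMul (cuspProd τ T b n)) = ∑ k ∈ range n, χ (ofMul (τ ((T ^ k) b))) := by
  induction n with
  | zero => simp [cuspProd]
  | succ n ih =>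
    rw [cuspProd, ofMul_mul, map_add, ih, Finset.sum_range_succ]
    ring

theorem IsHLift.map_cuspProd (hF : IsHLift φ ψ F) (τ : X → Γ) (T : Equiv.Perm X) (b : X)
    (n : ℕ) :
    F (cuspProd τ T b n) = ∑ k ∈ range n, F (τ ((T ^ k) b))
      + ∑ k ∈ range n, φ (ofMul (τ ((T ^ k) b))) * ∑ j ∈ range k, ψ (ofMul (τ ((T ^ j) b))) := by
  induction n with
  | zero => simp [cuspProd, hF.map_one]
  | succ n ih =>
    rw [cuspProd, hF _ _, ih, Finset.sum_range_succ, Finset.sum_range_succ,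
      H95.map_cuspProd ψ τ T b n]
    ring

end cusp

section residue

variable {Γ : Type*} [Group Γ] {A : Type*} [CommRing A] {X : Type*} [Fintype X]
  {C : Type*} [Fintype C]

/-- The explicit bilinear expression computing `6 *` the sum of a Heisenberg lift over the cusp
elements.  `σ x = κ(S, x)`, `ρ x = κ(R, x)`, the cusp `c` has base point `base c` and width
`len c`, and `T = S * R` as permutations of `X`. -/
def resE (φ ψ : Additive Γ →+ A) (S R : Equiv.Perm X) (σ ρ : X → Γ) (base : C → X)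
    (len : C → ℕ) : A :=
  3 * ∑ x, φ (ofMul (σ x)) * ψ (ofMul (σ x))
    - 2 * ∑ x, (φ (ofMul (ρ (R x))) * ψ (ofMul (ρ x))
        + φ (ofMul (ρ (R (R x)))) * ψ (ofMul (ρ (R x)))
        + φ (ofMul (ρ (R (R x)))) * ψ (ofMul (ρ x)))
    + 6 * ∑ x, φ (ofMul (σ (R x))) * ψ (ofMul (ρ x))
    + 6 * ∑ c, ∑ k ∈ range (len c), φ (ofMul (σ (R (((S * R) ^ k) (base c))) * ρ (((S * R) ^ k) (base c))))
        * ∑ j ∈ range k, ψ (ofMul (σ (R (((S * R) ^ j) (base c))) * ρ (((S * R) ^ j) (base c))))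

variable {φ ψ : Additive Γ →+ A} {F : Γ → A}

theorem IsHLift.two_mul_sum_sigma (h2 : ∀ a : A, a + a = 0 → a = 0) (hF : IsHLift φ ψ F)
    (S : Equiv.Perm X) (σ : X → Γ) {ε : Γ} (hε : ε * ε = 1) (hσ : ∀ x, σ (S x) * σ x = ε) :
    2 * ∑ x, F (σ x) = ∑ x, φ (ofMul (σ x)) * ψ (ofMul (σ x)) := by
  obtain ⟨hφε, hψε, hFε⟩ := hF.map_invol h2 hε
  have h1 : ∑ x, F (σ (S x)) = ∑ x, F (σ x) := Equiv.sum_comp S (fun x => F (σ x))
  have h3 : ∀ x, F (σ (S x)) + F (σ x) = φ (ofMul (σ x)) * ψ (ofMul (σ x)) := by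
    intro x
    have h := hF (σ (S x)) (σ x)
    rw [hσ x, hFε] at h
    have hφ : φ (ofMul (σ (S x))) = - φ (ofMul (σ x)) := by
      have := congrArg (fun g => φ (ofMul g)) (hσ x)
      simp only [ofMul_mul, map_add, hφε] at this
      linear_combination this
    rw [hφ] at h
    linear_combination -h
  calc 2 * ∑ x, F (σ x) = ∑ x, F (σ (S x)) + ∑ x, F (σ x) := by rw [h1]; ring
    _ = ∑ x, (F (σ (S x)) + F (σ x)) := by rw [Finset.sum_add_distrib]
    _ = ∑ x, φ (ofMul (σ x)) * ψ (ofMul (σ x)) := Finset.sum_congr rfl (fun x _ => h3 x)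

theorem IsHLift.three_mul_sum_rho (h2 : ∀ a : A, a + a = 0 → a = 0) (hF : IsHLift φ ψ F)
    (R : Equiv.Perm X) (ρ : X → Γ) {ε : Γ} (hε : ε * ε = 1)
    (hρ : ∀ x, ρ (R (R x)) * ρ (R x) * ρ x = ε) :
    3 * ∑ x, F (ρ x) = - ∑ x, (φ (ofMul (ρ (R x))) * ψ (ofMul (ρ x))
        + φ (ofMul (ρ (R (R x)))) * ψ (ofMul (ρ (R x)))
        + φ (ofMul (ρ (R (R x)))) * ψ (ofMul (ρ x))) := by
  obtain ⟨-, -, hFε⟩ := hF.map_invol h2 hε
  have h1 : ∑ x, F (ρ (R x)) = ∑ x, F (ρ x) := Equiv.sum_comp R (fun x => F (ρ x))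
  have h1' : ∑ x, F (ρ (R (R x))) = ∑ x, F (ρ x) := by
    rw [← h1]
    exact Equiv.sum_comp R (fun x => F (ρ (R x)))
  have h3 : ∀ x, F (ρ (R (R x))) + F (ρ (R x)) + F (ρ x) =
      - (φ (ofMul (ρ (R x))) * ψ (ofMul (ρ x))
        + φ (ofMul (ρ (R (R x)))) * ψ (ofMul (ρ (R x)))
        + φ (ofMul (ρ (R (R x)))) * ψ (ofMul (ρ x))) := by
    intro x
    have ha := hF (ρ (R (R x)) * ρ (R x)) (ρ x)
    have hb := hF (ρ (R (R x))) (ρ (R x))
    rw [hρ x, hFε, hb] at ha
    simp only [ofMul_mul, map_add] at ha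
    linear_combination -ha
  calc 3 * ∑ x, F (ρ x) = ∑ x, F (ρ (R (R x))) + ∑ x, F (ρ (R x)) + ∑ x, F (ρ x) := by
        rw [h1, h1']; ring
    _ = ∑ x, (F (ρ (R (R x))) + F (ρ (R x)) + F (ρ x)) := by
        rw [Finset.sum_add_distrib, Finset.sum_add_distrib]
    _ = _ := by
        rw [Finset.sum_congr rfl (fun x _ => h3 x), Finset.sum_neg_distrib]

/-- **Residue identity**: `6 *` the sum of any Heisenberg lift over the cusp elements is the
explicit expression `resE`; in particular it does not depend on the lift. -/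
theorem IsHLift.six_mul_sum_cusp (h2 : ∀ a : A, a + a = 0 → a = 0) (hF : IsHLift φ ψ F)
    (S R : Equiv.Perm X) (σ ρ : X → Γ) {ε : Γ} (hε : ε * ε = 1)
    (hσ : ∀ x, σ (S x) * σ x = ε) (hρ : ∀ x, ρ (R (R x)) * ρ (R x) * ρ x = ε)
    (base : C → X) (len : C → ℕ)
    (hsum : ∀ f : X → A, ∑ x, f x = ∑ c, ∑ k ∈ range (len c), f (((S * R) ^ k) (base c))) :
    6 * ∑ c, F (cuspProd (fun x => σ (R x) * ρ x) (S * R) (base c) (len c))
      = resE φ ψ S R σ ρ base len := by
  have hA : ∑ c, F (cuspProd (fun x => σ (R x) * ρ x) (S * R) (base c) (len c))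
      = ∑ x, F (σ (R x) * ρ x)
        + ∑ c, ∑ k ∈ range (len c),
            φ (ofMul (σ (R (((S * R) ^ k) (base c))) * ρ (((S * R) ^ k) (base c))))
          * ∑ j ∈ range k,
            ψ (ofMul (σ (R (((S * R) ^ j) (base c))) * ρ (((S * R) ^ j) (base c)))) := by
    rw [hsum (fun x => F (σ (R x) * ρ x)), ← Finset.sum_add_distrib]
    refine Finset.sum_congr rfl (fun c _ => ?_)
    exact hF.map_cuspProd (fun x => σ (R x) * ρ x) (S * R) (base c) (len c)
  have hB : ∑ x, F (σ (R x) * ρ x)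
      = ∑ x, F (σ x) + ∑ x, F (ρ x) + ∑ x, φ (ofMul (σ (R x))) * ψ (ofMul (ρ x)) := by
    have h1 : ∑ x, F (σ (R x)) = ∑ x, F (σ x) := Equiv.sum_comp R (fun x => F (σ x))
    rw [← h1, ← Finset.sum_add_distrib, ← Finset.sum_add_distrib]
    exact Finset.sum_congr rfl (fun x _ => hF _ _)
  have hC := hF.two_mul_sum_sigma h2 S σ hε hσ
  have hD := hF.three_mul_sum_rho h2 R ρ hε hρ
  rw [hA, hB, resE]
  linear_combination 3 * hC + 2 * hD

/-- Consequence: the cusp sum of a lift only depends on `(φ, ψ)`. -/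
theorem IsHLift.sum_cusp_eq (h2 : ∀ a : A, a + a = 0 → a = 0) (h3 : ∀ a : A, 3 * a = 0 → a = 0)
    {F' : Γ → A} (hF : IsHLift φ ψ F) (hF' : IsHLift φ ψ F')
    (S R : Equiv.Perm X) (σ ρ : X → Γ) {ε : Γ} (hε : ε * ε = 1)
    (hσ : ∀ x, σ (S x) * σ x = ε) (hρ : ∀ x, ρ (R (R x)) * ρ (R x) * ρ x = ε)
    (base : C → X) (len : C → ℕ)
    (hsum : ∀ f : X → A, ∑ x, f x = ∑ c, ∑ k ∈ range (len c), f (((S * R) ^ k) (base c))) :
    ∑ c, F (cuspProd (fun x => σ (R x) * ρ x) (S * R) (base c) (len c))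
      = ∑ c, F' (cuspProd (fun x => σ (R x) * ρ x) (S * R) (base c) (len c)) := by
  have e1 := hF.six_mul_sum_cusp h2 S R σ ρ hε hσ hρ base len hsum
  have e2 := hF'.six_mul_sum_cusp h2 S R σ ρ hε hσ hρ base len hsum
  have e3 : 6 * (∑ c, F (cuspProd (fun x => σ (R x) * ρ x) (S * R) (base c) (len c))
      - ∑ c, F' (cuspProd (fun x => σ (R x) * ρ x) (S * R) (base c) (len c))) = 0 := by
    rw [mul_sub, e1, e2, sub_self]
  have e4 : 3 * (∑ c, F (cuspProd (fun x => σ (R x) * ρ x) (S * R) (base c) (len c))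
      - ∑ c, F' (cuspProd (fun x => σ (R x) * ρ x) (S * R) (base c) (len c))) = 0 := by
    apply h2
    linear_combination e3
  exact sub_eq_zero.mp (h3 _ e4)

end residue

end Fermat.Agent.S41.H95
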