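import Mathlib
import Fermat.Agent.S41.PDRes_helper95

/-!
# Concrete Schreier data for a subgroup of `SL(2, ℤ)`  (helper18, node (C-TOP) of S41)

For `Γ ≤ SL(2, ℤ)` with `-1 ∈ Γ` and `X = SL(2, ℤ) ⧸ Γ` (left cosets, left action) we set up the
data consumed by helper95's residue identity `H95.IsHLift.six_mul_sum_cusp`:

* `rep x` a representative of the coset `x`, `kap g x = (rep (g • x))⁻¹ * g * rep x ∈ Γ`,
  `kap (g * h) x = kap g (h • x) * kap h x`;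
* the permutations `permS`, `permR` of `X` induced by `S` and `R = S * T`, and
  `sig x = kap S x`, `rho x = kap R x` with `sig (S x) * sig x = -1`,
  `rho (R (R x)) * rho (R x) * rho x = -1`;
* the cusps `Cusp Γ` = cycles of `permS * permR` (= the action of `T`), with `base`, `len` and the
  orbit decomposition of sums `sum_eq_sum_cusp`;
* `cuspProd_eq`: helper95's `cuspProd` is `(-1) ^ n * kap (T ^ n) b`.
-/

set_option autoImplicit false
set_option linter.unusedSectionVars false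

namespace Fermat.Agent.S41.H18

open scoped MatrixGroups
open Finset

/-! ### Orbit decomposition of a sum along a permutation -/

section perm

variable {X : Type*} [Fintype X] [DecidableEq X]

/-- The cycles of a permutation. -/
abbrev Cyc (g : Equiv.Perm X) : Type _ := Quotient (Equiv.Perm.SameCycle.setoid g)

noncomputable instance (g : Equiv.Perm X) : Fintype (Cyc g) := by
  classical
  exact Quotient.fintype _

/-- Base point of a cycle. -/
noncomputable def cycBase (g : Equiv.Perm X) (c : Cyc g) : X := Quotient.out c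

/-- Length of a cycle. -/
noncomputable def cycLen (g : Equiv.Perm X) (c : Cyc g) : ℕ :=
  Function.minimalPeriod (⇑g) (cycBase g c)

theorem cycLen_pos (g : Equiv.Perm X) (c : Cyc g) : 0 < cycLen g c := by
  apply Function.minimalPeriod_pos_of_mem_periodicPts
  have h : Function.IsPeriodicPt (⇑g) (orderOf g) (cycBase g c) := by
    unfold Function.IsPeriodicPt Function.IsFixedPt
    rw [Equiv.Perm.iterate_eq_pow, pow_orderOf_eq_one]
    rfl
  exact Function.mk_mem_periodicPts (orderOf_pos g) h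

theorem pow_cycLen_base (g : Equiv.Perm X) (c : Cyc g) : (g ^ cycLen g c) (cycBase g c) = cycBase g c := by
  have h := Function.isPeriodicPt_minimalPeriod (⇑g) (cycBase g c)
  unfold Function.IsPeriodicPt Function.IsFixedPt at h
  rw [Equiv.Perm.iterate_eq_pow] at h
  exact h

theorem cycLen_dvd (g : Equiv.Perm X) (c : Cyc g) {k : ℕ} (h : (g ^ k) (cycBase g c) = cycBase g c) :
    cycLen g c ∣ k := by
  apply Function.IsPeriodicPt.minimalPeriod_dvd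
  unfold Function.IsPeriodicPt Function.IsFixedPt
  rw [Equiv.Perm.iterate_eq_pow]
  exact h

theorem mk_cycBase (g : Equiv.Perm X) (c : Cyc g) :
    (Quotient.mk (Equiv.Perm.SameCycle.setoid g) (cycBase g c) : Cyc g) = c := Quotient.out_eq c

/-- Every point lies on the cycle of exactly one base point. -/
theorem exists_pow_base (g : Equiv.Perm X) (x : X) :
    ∃ k : ℕ, k < cycLen g (Quotient.mk (Equiv.Perm.SameCycle.setoid g) x) ∧
      (g ^ k) (cycBase g (Quotient.mk (Equiv.Perm.SameCycle.setoid g) x)) = x := by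
  set c : Cyc g := Quotient.mk (Equiv.Perm.SameCycle.setoid g) x with hc
  have h1 : Equiv.Perm.SameCycle g (cycBase g c) x := by
    have : (Quotient.mk (Equiv.Perm.SameCycle.setoid g) (cycBase g c) : Cyc g)
        = Quotient.mk (Equiv.Perm.SameCycle.setoid g) x := mk_cycBase g c
    exact Quotient.exact this
  obtain ⟨i, hi⟩ := h1.exists_nat_pow_eq
  refine ⟨i % cycLen g c, Nat.mod_lt _ (cycLen_pos g c), ?_⟩
  have h2 := Function.iterate_mod_minimalPeriod_eq (f := ⇑g) (x := cycBase g c) (n := i)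
  rw [Equiv.Perm.iterate_eq_pow, Equiv.Perm.iterate_eq_pow] at h2
  unfold cycLen
  rw [h2, hi]

theorem sameCycle_pow_base (g : Equiv.Perm X) (c : Cyc g) (k : ℕ) :
    (Quotient.mk (Equiv.Perm.SameCycle.setoid g) ((g ^ k) (cycBase g c)) : Cyc g) = c := by
  have h : Equiv.Perm.SameCycle g ((g ^ k) (cycBase g c)) (cycBase g c) :=
    (Equiv.Perm.SameCycle.refl g (cycBase g c)).pow_left
  have h2 : (Quotient.mk (Equiv.Perm.SameCycle.setoid g) ((g ^ k) (cycBase g c)) : Cyc g)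
      = Quotient.mk (Equiv.Perm.SameCycle.setoid g) (cycBase g c) := Quotient.sound h
  exact h2.trans (mk_cycBase g c)

theorem pow_base_injOn (g : Equiv.Perm X) (c : Cyc g) {k l : ℕ} (hk : k < cycLen g c)
    (hl : l < cycLen g c) (h : (g ^ k) (cycBase g c) = (g ^ l) (cycBase g c)) : k = l := by
  have := Function.iterate_injOn_Iio_minimalPeriod (f := ⇑g) (x := cycBase g c)
    (Set.mem_Iio.2 hk) (Set.mem_Iio.2 hl)
  apply this
  simp only [Equiv.Perm.iterate_eq_pow]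
  exact h

/-- **Orbit decomposition of a sum.** -/
theorem sum_eq_sum_cyc {A : Type*} [AddCommMonoid A] (g : Equiv.Perm X) (f : X → A) :
    ∑ x, f x = ∑ c : Cyc g, ∑ k ∈ range (cycLen g c), f ((g ^ k) (cycBase g c)) := by
  classical
  rw [← Finset.sum_fiberwise (s := (Finset.univ : Finset X))
    (g := fun x => (Quotient.mk (Equiv.Perm.SameCycle.setoid g) x : Cyc g)) (f := f)]
  refine Finset.sum_congr rfl (fun c _ => ?_)
  symm
  refine Finset.sum_bij (fun k _ => (g ^ k) (cycBase g c)) ?_ ?_ ?_ ?_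
  · intro k _
    simp only [Finset.mem_filter, Finset.mem_univ, true_and]
    exact sameCycle_pow_base g c k
  · intro k hk l hl h
    exact pow_base_injOn g c (Finset.mem_range.1 hk) (Finset.mem_range.1 hl) h
  · intro x hx
    simp only [Finset.mem_filter, Finset.mem_univ, true_and] at hx
    obtain ⟨k, hk, hkx⟩ := exists_pow_base g x
    rw [hx] at hk hkx
    exact ⟨k, Finset.mem_range.2 hk, hkx⟩
  · intro k _
    rfl

end perm

/-! ### Schreier data on `SL(2, ℤ) ⧸ Γ` -/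

section schreier

variable (Γ : Subgroup SL(2, ℤ))

theorem S_mul_S : ModularGroup.S * ModularGroup.S = (-1 : SL(2, ℤ)) := by
  ext i j
  fin_cases i <;> fin_cases j <;> simp [ModularGroup.S, Matrix.mul_apply, Fin.sum_univ_two]

theorem R_mul_R_mul_R :
    (ModularGroup.S * ModularGroup.T) * ((ModularGroup.S * ModularGroup.T) *
      (ModularGroup.S * ModularGroup.T)) = (-1 : SL(2, ℤ)) := by
  ext i j
  fin_cases i <;> fin_cases j <;>
    simp [ModularGroup.S, ModularGroup.T, Matrix.mul_apply, Fin.sum_univ_two]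

theorem neg_one_mul_neg_one : (-1 : SL(2, ℤ)) * (-1) = 1 := by simp

/-- a representative of a coset. -/
noncomputable def rep (x : SL(2, ℤ) ⧸ Γ) : SL(2, ℤ) := Quotient.out x

theorem mk_rep (x : SL(2, ℤ) ⧸ Γ) : ((rep Γ x : SL(2, ℤ)) : SL(2, ℤ) ⧸ Γ) = x :=
  QuotientGroup.out_eq' x

theorem smul_mk_eq (g h : SL(2, ℤ)) :
    g • ((h : SL(2, ℤ)) : SL(2, ℤ) ⧸ Γ) = ((g * h : SL(2, ℤ)) : SL(2, ℤ) ⧸ Γ) := rfl

theorem mk_eq_iff (g h : SL(2, ℤ)) :
    ((g : SL(2, ℤ)) : SL(2, ℤ) ⧸ Γ) = ((h : SL(2, ℤ)) : SL(2, ℤ) ⧸ Γ) ↔ g⁻¹ * h ∈ Γ :=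
  QuotientGroup.eq

theorem kap_mem (g : SL(2, ℤ)) (x : SL(2, ℤ) ⧸ Γ) :
    (rep Γ (g • x))⁻¹ * g * rep Γ x ∈ Γ := by
  rw [mul_assoc, ← mk_eq_iff, mk_rep, ← smul_mk_eq, mk_rep]

/-- the Schreier element `κ(g, x) = (rep (g • x))⁻¹ * g * rep x`. -/
noncomputable def kap (g : SL(2, ℤ)) (x : SL(2, ℤ) ⧸ Γ) : Γ := ⟨_, kap_mem Γ g x⟩

theorem coe_kap (g : SL(2, ℤ)) (x : SL(2, ℤ) ⧸ Γ) :
    ((kap Γ g x : Γ) : SL(2, ℤ)) = (rep Γ (g • x))⁻¹ * g * rep Γ x := rfl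

theorem kap_mul (g h : SL(2, ℤ)) (x : SL(2, ℤ) ⧸ Γ) :
    kap Γ (g * h) x = kap Γ g (h • x) * kap Γ h x := by
  apply Subtype.ext
  simp only [coe_kap, Subgroup.coe_mul, mul_smul]
  group

theorem kap_one (x : SL(2, ℤ) ⧸ Γ) : kap Γ 1 x = 1 := by
  apply Subtype.ext
  simp only [coe_kap, one_smul, mul_one, inv_mul_cancel, Subgroup.coe_one]

theorem neg_one_smul_eq (hneg : (-1 : SL(2, ℤ)) ∈ Γ) (x : SL(2, ℤ) ⧸ Γ) :
    (-1 : SL(2, ℤ)) • x = x := by
  have hx := mk_rep Γ x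
  rw [← hx, smul_mk_eq, mk_eq_iff]
  have : (-1 * rep Γ x)⁻¹ * rep Γ x = (-1 : SL(2, ℤ)) := by
    rw [mul_inv_rev, mul_assoc]
    have h1 : ((-1 : SL(2, ℤ)))⁻¹ = -1 := by
      rw [inv_eq_iff_mul_eq_one]; simp
    rw [h1, neg_one_mul, mul_neg, inv_mul_cancel]
  rw [this]
  exact hneg

/-- the element `-1` of `Γ`. -/
def negOne (hneg : (-1 : SL(2, ℤ)) ∈ Γ) : Γ := ⟨-1, hneg⟩

theorem negOne_mul_negOne (hneg : (-1 : SL(2, ℤ)) ∈ Γ) : negOne Γ hneg * negOne Γ hneg = 1 := by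
  apply Subtype.ext
  simp [negOne]

theorem negOne_comm (hneg : (-1 : SL(2, ℤ)) ∈ Γ) (γ : Γ) : negOne Γ hneg * γ = γ * negOne Γ hneg := by
  apply Subtype.ext
  simp [negOne]

theorem kap_neg_one (hneg : (-1 : SL(2, ℤ)) ∈ Γ) (x : SL(2, ℤ) ⧸ Γ) :
    kap Γ (-1) x = negOne Γ hneg := by
  apply Subtype.ext
  rw [coe_kap, neg_one_smul_eq Γ hneg]
  simp [negOne]

/-- the permutation of the cosets induced by `S`. -/
noncomputable def permS : Equiv.Perm (SL(2, ℤ) ⧸ Γ) := MulAction.toPerm ModularGroup.S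

/-- the permutation of the cosets induced by `R = S * T`. -/
noncomputable def permR : Equiv.Perm (SL(2, ℤ) ⧸ Γ) :=
  MulAction.toPerm (ModularGroup.S * ModularGroup.T)

/-- the permutation of the cosets induced by `T`. -/
noncomputable def permT : Equiv.Perm (SL(2, ℤ) ⧸ Γ) := MulAction.toPerm ModularGroup.T

theorem permS_apply (x : SL(2, ℤ) ⧸ Γ) : permS Γ x = ModularGroup.S • x := rfl

theorem permR_apply (x : SL(2, ℤ) ⧸ Γ) : permR Γ x = (ModularGroup.S * ModularGroup.T) • x := rfl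

theorem permT_apply (x : SL(2, ℤ) ⧸ Γ) : permT Γ x = ModularGroup.T • x := rfl

theorem permT_pow_apply (n : ℕ) (x : SL(2, ℤ) ⧸ Γ) : (permT Γ ^ n) x = ModularGroup.T ^ n • x := by
  induction n generalizing x with
  | zero => simp
  | succ n ih =>
    rw [pow_succ, Equiv.Perm.mul_apply, ih, permT_apply, pow_succ, mul_smul]

theorem permS_mul_permR (hneg : (-1 : SL(2, ℤ)) ∈ Γ) : permS Γ * permR Γ = permT Γ := by
  ext x
  rw [Equiv.Perm.mul_apply, permS_apply, permR_apply, permT_apply, ← mul_smul, ← mul_assoc,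
    S_mul_S, mul_smul, neg_one_smul_eq Γ hneg]

/-- `σ x = κ(S, x)`. -/
noncomputable def sig (x : SL(2, ℤ) ⧸ Γ) : Γ := kap Γ ModularGroup.S x

/-- `ρ x = κ(R, x)`, `R = S * T`. -/
noncomputable def rho (x : SL(2, ℤ) ⧸ Γ) : Γ := kap Γ (ModularGroup.S * ModularGroup.T) x

theorem sig_rel (hneg : (-1 : SL(2, ℤ)) ∈ Γ) (x : SL(2, ℤ) ⧸ Γ) :
    sig Γ (permS Γ x) * sig Γ x = negOne Γ hneg := by
  unfold sig
  rw [permS_apply, ← kap_mul, S_mul_S, kap_neg_one Γ hneg]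

theorem rho_rel (hneg : (-1 : SL(2, ℤ)) ∈ Γ) (x : SL(2, ℤ) ⧸ Γ) :
    rho Γ (permR Γ (permR Γ x)) * rho Γ (permR Γ x) * rho Γ x = negOne Γ hneg := by
  unfold rho
  rw [permR_apply, permR_apply, mul_assoc, ← kap_mul, ← mul_smul, ← kap_mul, R_mul_R_mul_R,
    kap_neg_one Γ hneg]

theorem sig_mul_rho (hneg : (-1 : SL(2, ℤ)) ∈ Γ) (x : SL(2, ℤ) ⧸ Γ) :
    sig Γ (permR Γ x) * rho Γ x = negOne Γ hneg * kap Γ ModularGroup.T x := by
  unfold sig rho
  rw [permR_apply, ← kap_mul, ← mul_assoc, S_mul_S, kap_mul, kap_neg_one Γ hneg]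

/-- helper95's `cuspProd` for the concrete Schreier data is `(-1) ^ n * κ(T ^ n, b)`. -/
theorem cuspProd_eq (hneg : (-1 : SL(2, ℤ)) ∈ Γ) (b : SL(2, ℤ) ⧸ Γ) (n : ℕ) :
    H95.cuspProd (fun x => sig Γ (permR Γ x) * rho Γ x) (permS Γ * permR Γ) b n
      = negOne Γ hneg ^ n * kap Γ (ModularGroup.T ^ n) b := by
  induction n with
  | zero => simp [H95.cuspProd, kap_one]
  | succ n ih =>
    rw [H95.cuspProd, ih, sig_mul_rho Γ hneg, permS_mul_permR Γ hneg, permT_pow_apply, pow_succ,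
      pow_succ', kap_mul]
    have hc := negOne_comm Γ hneg
    calc negOne Γ hneg * kap Γ ModularGroup.T (ModularGroup.T ^ n • b)
          * (negOne Γ hneg ^ n * kap Γ (ModularGroup.T ^ n) b)
        = negOne Γ hneg * (kap Γ ModularGroup.T (ModularGroup.T ^ n • b) * negOne Γ hneg ^ n)
          * kap Γ (ModularGroup.T ^ n) b := by group
      _ = negOne Γ hneg * (negOne Γ hneg ^ n * kap Γ ModularGroup.T (ModularGroup.T ^ n • b))
          * kap Γ (ModularGroup.T ^ n) b := by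
        rw [(Commute.pow_left (hc _) n).eq]
      _ = _ := by group

end schreier

/-! ### The cusps: `T`-orbits on `SL(2, ℤ) ⧸ Γ` -/

section cusp

variable (Γ : Subgroup SL(2, ℤ)) [Fintype (SL(2, ℤ) ⧸ Γ)] [DecidableEq (SL(2, ℤ) ⧸ Γ)]

/-- the cusps of `Γ`: the cycles of `T` on `SL(2, ℤ) ⧸ Γ`. -/
abbrev Cusp : Type := Cyc (permS Γ * permR Γ)

/-- base coset of a cusp. -/
noncomputable def cuspBase (c : Cusp Γ) : SL(2, ℤ) ⧸ Γ := cycBase (permS Γ * permR Γ) c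

/-- the matrix `t_c`: a representative of the base coset. -/
noncomputable def cuspT (c : Cusp Γ) : SL(2, ℤ) := rep Γ (cuspBase Γ c)

/-- the width `h_c` of the cusp. -/
noncomputable def cuspH (c : Cusp Γ) : ℕ := cycLen (permS Γ * permR Γ) c

theorem cuspH_pos (c : Cusp Γ) : 0 < cuspH Γ c := cycLen_pos _ c

theorem mk_cuspT (c : Cusp Γ) : ((cuspT Γ c : SL(2, ℤ)) : SL(2, ℤ) ⧸ Γ) = cuspBase Γ c :=
  mk_rep Γ _

theorem permT_zpow_apply (n : ℤ) (x : SL(2, ℤ) ⧸ Γ) :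
    (permT Γ ^ n) x = ModularGroup.T ^ n • x := by
  have h : permT Γ ^ n = MulAction.toPerm (ModularGroup.T ^ n) := by
    unfold permT
    rw [← MulAction.toPermHom_apply, ← map_zpow]
    rfl
  rw [h]
  rfl

theorem pow_cuspBase (hneg : (-1 : SL(2, ℤ)) ∈ Γ) (c : Cusp Γ) (k : ℕ) :
    ((permS Γ * permR Γ) ^ k) (cuspBase Γ c)
      = ((ModularGroup.T ^ k * cuspT Γ c : SL(2, ℤ)) : SL(2, ℤ) ⧸ Γ) := by
  rw [permS_mul_permR Γ hneg, permT_pow_apply, ← mk_cuspT, smul_mk_eq]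

theorem zpow_cuspBase (hneg : (-1 : SL(2, ℤ)) ∈ Γ) (c : Cusp Γ) (k : ℤ) :
    ((permS Γ * permR Γ) ^ k) (cuspBase Γ c)
      = ((ModularGroup.T ^ k * cuspT Γ c : SL(2, ℤ)) : SL(2, ℤ) ⧸ Γ) := by
  rw [permS_mul_permR Γ hneg, permT_zpow_apply, ← mk_cuspT, smul_mk_eq]

/-- `t_c⁻¹ T ^ k t_c ∈ Γ` iff the width divides `k`. -/
theorem cusp_mem_iff (hneg : (-1 : SL(2, ℤ)) ∈ Γ) (c : Cusp Γ) (k : ℕ) :
    (cuspT Γ c)⁻¹ * ModularGroup.T ^ k * cuspT Γ c ∈ Γ ↔ cuspH Γ c ∣ k := by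
  have h1 : (cuspT Γ c)⁻¹ * ModularGroup.T ^ k * cuspT Γ c ∈ Γ ↔
      ((permS Γ * permR Γ) ^ k) (cuspBase Γ c) = cuspBase Γ c := by
    rw [pow_cuspBase Γ hneg, ← mk_cuspT, eq_comm, mk_eq_iff, mul_assoc]
  rw [h1]
  constructor
  · intro h
    exact cycLen_dvd _ c h
  · rintro ⟨m, rfl⟩
    unfold cuspH
    rw [pow_mul]
    have h2 := pow_cycLen_base (permS Γ * permR Γ) c
    have h3 : ∀ m : ℕ, (((permS Γ * permR Γ) ^ cycLen (permS Γ * permR Γ) c) ^ m)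
        (cuspBase Γ c) = cuspBase Γ c := by
      intro m
      induction m with
      | zero => simp
      | succ m ih =>
        rw [pow_succ, Equiv.Perm.mul_apply]
        unfold cuspBase at ih ⊢
        rw [h2, ih]
    exact h3 m

theorem cusp_mem (hneg : (-1 : SL(2, ℤ)) ∈ Γ) (c : Cusp Γ) :
    (cuspT Γ c)⁻¹ * ModularGroup.T ^ cuspH Γ c * cuspT Γ c ∈ Γ :=
  (cusp_mem_iff Γ hneg c _).2 dvd_rfl

theorem cusp_min (hneg : (-1 : SL(2, ℤ)) ∈ Γ) (c : Cusp Γ) (k : ℕ) (hk : 0 < k)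
    (h : (cuspT Γ c)⁻¹ * ModularGroup.T ^ k * cuspT Γ c ∈ Γ) : cuspH Γ c ≤ k :=
  Nat.le_of_dvd hk ((cusp_mem_iff Γ hneg c k).1 h)

/-- integer version of `cusp_mem_iff`. -/
theorem cusp_mem_zpow_iff (hneg : (-1 : SL(2, ℤ)) ∈ Γ) (c : Cusp Γ) (k : ℤ) :
    (cuspT Γ c)⁻¹ * ModularGroup.T ^ k * cuspT Γ c ∈ Γ ↔ (cuspH Γ c : ℤ) ∣ k := by
  rcases Int.eq_nat_or_neg k with ⟨n, rfl | rfl⟩
  · rw [zpow_natCast, cusp_mem_iff Γ hneg, Int.natCast_dvd_natCast]
  · rw [dvd_neg, Int.natCast_dvd_natCast, ← cusp_mem_iff Γ hneg, zpow_neg, zpow_natCast]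
    have h : (cuspT Γ c)⁻¹ * (ModularGroup.T ^ n)⁻¹ * cuspT Γ c
        = ((cuspT Γ c)⁻¹ * ModularGroup.T ^ n * cuspT Γ c)⁻¹ := by group
    rw [h, inv_mem_iff]

/-- the positive parabolic generator `π_c = t_c⁻¹ T ^ h_c t_c` of the stabiliser of the cusp. -/
noncomputable def cuspPi (hneg : (-1 : SL(2, ℤ)) ∈ Γ) (c : Cusp Γ) : Γ :=
  ⟨(cuspT Γ c)⁻¹ * ModularGroup.T ^ cuspH Γ c * cuspT Γ c, cusp_mem Γ hneg c⟩

theorem coe_cuspPi (hneg : (-1 : SL(2, ℤ)) ∈ Γ) (c : Cusp Γ) :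
    ((cuspPi Γ hneg c : Γ) : SL(2, ℤ)) = (cuspT Γ c)⁻¹ * ModularGroup.T ^ cuspH Γ c * cuspT Γ c :=
  rfl

theorem cuspPi_eq_kap (hneg : (-1 : SL(2, ℤ)) ∈ Γ) (c : Cusp Γ) :
    cuspPi Γ hneg c = kap Γ (ModularGroup.T ^ cuspH Γ c) (cuspBase Γ c) := by
  apply Subtype.ext
  rw [coe_cuspPi, coe_kap]
  have h : ModularGroup.T ^ cuspH Γ c • cuspBase Γ c = cuspBase Γ c := by
    rw [← permT_pow_apply, ← permS_mul_permR Γ hneg]
    exact pow_cycLen_base _ c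
  rw [h]
  rfl

/-- **Orbit decomposition** (the `hsum` of the residue calculus), in permutation form. -/
theorem cusp_sum_perm {A : Type*} [AddCommMonoid A] (f : SL(2, ℤ) ⧸ Γ → A) :
    ∑ x, f x = ∑ c : Cusp Γ, ∑ k ∈ range (cuspH Γ c),
      f (((permS Γ * permR Γ) ^ k) (cuspBase Γ c)) :=
  sum_eq_sum_cyc (permS Γ * permR Γ) f

/-- **Orbit decomposition**, in matrix form: the cosets are the `T ^ j * t_c`, `j < h_c`. -/
theorem cusp_sum (hneg : (-1 : SL(2, ℤ)) ∈ Γ) {A : Type*} [AddCommMonoid A]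
    (f : SL(2, ℤ) ⧸ Γ → A) :
    ∑ x, f x = ∑ c : Cusp Γ, ∑ j ∈ range (cuspH Γ c),
      f ((ModularGroup.T ^ j * cuspT Γ c : SL(2, ℤ)) : SL(2, ℤ) ⧸ Γ) := by
  rw [cusp_sum_perm]
  refine Finset.sum_congr rfl (fun c _ => Finset.sum_congr rfl (fun k _ => ?_))
  rw [pow_cuspBase Γ hneg]

/-- **Orbit decomposition** for right `Γ`-invariant functions on `SL(2, ℤ)`. -/
theorem cusp_sum_out (hneg : (-1 : SL(2, ℤ)) ∈ Γ) {A : Type*} [AddCommMonoid A]
    (D : SL(2, ℤ) → A) (hD : ∀ (g : SL(2, ℤ)) (γ : Γ), D (g * γ) = D g) :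
    ∑ x : SL(2, ℤ) ⧸ Γ, D x.out = ∑ c : Cusp Γ, ∑ k ∈ range (cuspH Γ c),
      D (ModularGroup.T ^ k * cuspT Γ c) := by
  rw [cusp_sum Γ hneg (fun x => D x.out)]
  refine Finset.sum_congr rfl (fun c _ => Finset.sum_congr rfl (fun k _ => ?_))
  obtain ⟨γ, hγ⟩ := QuotientGroup.mk_out_eq_mul Γ (ModularGroup.T ^ k * cuspT Γ c)
  show D (Quotient.out _) = _
  rw [hγ, hD]

/-- **The cusps are the `± T`-orbits**: every matrix is `± T ^ k * t_c * γ` for a unique `c`. -/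
theorem cusp_cov (hneg : (-1 : SL(2, ℤ)) ∈ Γ) (z : SL(2, ℤ)) :
    ∃! c : Cusp Γ, ∃ (k : ℤ) (γ : SL(2, ℤ)), γ ∈ Γ ∧
      (z = ModularGroup.T ^ k * cuspT Γ c * γ ∨ z = -(ModularGroup.T ^ k * cuspT Γ c * γ)) := by
  set c₀ : Cusp Γ := Quotient.mk (Equiv.Perm.SameCycle.setoid (permS Γ * permR Γ))
    ((z : SL(2, ℤ)) : SL(2, ℤ) ⧸ Γ) with hc₀
  refine ⟨c₀, ?_, ?_⟩
  · obtain ⟨k, -, hk⟩ := exists_pow_base (permS Γ * permR Γ) ((z : SL(2, ℤ)) : SL(2, ℤ) ⧸ Γ)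
    have hk' := hk
    change ((permS Γ * permR Γ) ^ k) (cuspBase Γ c₀) = _ at hk'
    rw [pow_cuspBase Γ hneg, mk_eq_iff] at hk'
    refine ⟨(k : ℤ), _, hk', Or.inl ?_⟩
    rw [zpow_natCast]
    group
  · rintro c ⟨k, γ, hγ, hz⟩
    have h1 : ((z : SL(2, ℤ)) : SL(2, ℤ) ⧸ Γ)
        = ((ModularGroup.T ^ k * cuspT Γ c : SL(2, ℤ)) : SL(2, ℤ) ⧸ Γ) := by
      rw [eq_comm, mk_eq_iff]
      rcases hz with hz | hz
      · rw [hz]
        have : (ModularGroup.T ^ k * cuspT Γ c)⁻¹ * (ModularGroup.T ^ k * cuspT Γ c * γ) = γ := by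
          group
        rw [this]
        exact hγ
      · rw [hz]
        have : (ModularGroup.T ^ k * cuspT Γ c)⁻¹ * -(ModularGroup.T ^ k * cuspT Γ c * γ)
            = -1 * γ := by
          rw [mul_neg, neg_one_mul]
          congr 1
          group
        rw [this]
        exact Γ.mul_mem hneg hγ
    rw [← zpow_cuspBase Γ hneg] at h1
    have h2 : Equiv.Perm.SameCycle (permS Γ * permR Γ) (cuspBase Γ c)
        ((z : SL(2, ℤ)) : SL(2, ℤ) ⧸ Γ) := ⟨k, h1.symm⟩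
    have h3 : (Quotient.mk (Equiv.Perm.SameCycle.setoid (permS Γ * permR Γ)) (cuspBase Γ c)
        : Cusp Γ) = c₀ := Quotient.sound h2
    rw [← h3]
    exact (mk_cycBase _ c).symm

end cusp

/-! ### The cusp sum of a Heisenberg lift does not depend on the lift -/

section liftIndep

variable (Γ : Subgroup SL(2, ℤ)) [Fintype (SL(2, ℤ) ⧸ Γ)] [DecidableEq (SL(2, ℤ) ⧸ Γ)]

theorem isHLift_negOne_pow_mul (hneg : (-1 : SL(2, ℤ)) ∈ Γ) {A : Type*} [CommRing A]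
    (h2 : ∀ a : A, a + a = 0 → a = 0) {φ ψ : Additive Γ →+ A} {F : Γ → A}
    (hF : H95.IsHLift φ ψ F) (n : ℕ) (γ : Γ) : F (negOne Γ hneg ^ n * γ) = F γ := by
  obtain ⟨hφ, -, hFε⟩ := hF.map_invol h2 (negOne_mul_negOne Γ hneg)
  induction n with
  | zero => simp
  | succ n ih =>
    rw [pow_succ', mul_assoc, hF, hFε, hφ, ih]
    ring

/-- The sum of a Heisenberg lift over the cusp elements `π_c` only depends on `(φ, ψ)`. -/
theorem sum_cuspPi_eq (hneg : (-1 : SL(2, ℤ)) ∈ Γ) {A : Type*} [CommRing A]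
    (h2 : ∀ a : A, a + a = 0 → a = 0) (h3 : ∀ a : A, 3 * a = 0 → a = 0)
    {φ ψ : Additive Γ →+ A} {F F' : Γ → A}
    (hF : H95.IsHLift φ ψ F) (hF' : H95.IsHLift φ ψ F') :
    ∑ c : Cusp Γ, F (cuspPi Γ hneg c) = ∑ c : Cusp Γ, F' (cuspPi Γ hneg c) := by
  have key := H95.IsHLift.sum_cusp_eq h2 h3 hF hF' (permS Γ) (permR Γ) (sig Γ) (rho Γ)
    (negOne_mul_negOne Γ hneg) (sig_rel Γ hneg) (rho_rel Γ hneg) (cuspBase Γ) (cuspH Γ)
    (fun f => cusp_sum_perm Γ f)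
  have e : ∀ (G : Γ → A), H95.IsHLift φ ψ G → ∀ c : Cusp Γ,
      G (H95.cuspProd (fun x => sig Γ (permR Γ x) * rho Γ x) (permS Γ * permR Γ)
        (cuspBase Γ c) (cuspH Γ c)) = G (cuspPi Γ hneg c) := by
    intro G hG c
    rw [cuspProd_eq Γ hneg, isHLift_negOne_pow_mul Γ hneg h2 hG, cuspPi_eq_kap]
  rw [Finset.sum_congr rfl (fun c _ => e F hF c), Finset.sum_congr rfl (fun c _ => e F' hF' c)]
    at key
  exact key

end liftIndep

end Fermat.Agent.S41.H18
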