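import Mathlib
import Fermat.Agent.S41.CuspSys_helper20
import Fermat.Agent.S41.PDSchreier_helper18

/-!
# S41 (C): helper18's concrete cusp family is a system of class representatives (helper20)

For `Γ ≤ SL(2, ℤ)` of finite index with `-1 ∈ Γ`, the family `H18.cuspPi Γ hneg : H18.Cusp Γ → Γ`
(`π_c = t_c⁻¹ T ^ h_c t_c`, one `t_c` per `T`-cycle of `SL(2, ℤ) ⧸ Γ`) is a system of
representatives of the conjugacy classes of primitive positive parabolic elements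
(`isClassReps_cuspPi`), hence an abstract cusp system (`isCuspSys_cuspPi`), and the projection
formula (T1) holds for these families on both levels (`residue_cores_eq_cuspPi`).
-/

set_option autoImplicit false

namespace Fermat.Agent.S41.H20

open Matrix ModularGroup Matrix.SpecialLinearGroup
open scoped MatrixGroups

section

variable (Γ : Subgroup SL(2, ℤ)) [Fintype (SL(2, ℤ) ⧸ Γ)] [DecidableEq (SL(2, ℤ) ⧸ Γ)]

/-- The width of helper18's cusp `c` is `H18.cuspH Γ c`. -/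
theorem isW_cusp (hneg : (-1 : SL(2, ℤ)) ∈ Γ) (c : H18.Cusp Γ) :
    IsW Γ (H18.cuspT Γ c) (H18.cuspH Γ c : ℤ) :=
  ⟨by exact_mod_cast H18.cuspH_pos Γ c, (H18.cusp_mem_zpow_iff Γ hneg c _).mpr dvd_rfl,
    fun a ha => (H18.cusp_mem_zpow_iff Γ hneg c a).mp ha⟩

theorem cuspPi_eq (hneg : (-1 : SL(2, ℤ)) ∈ Γ) (c : H18.Cusp Γ) :
    H18.cuspPi Γ hneg c
      = ⟨(H18.cuspT Γ c)⁻¹ * T ^ (H18.cuspH Γ c : ℤ) * H18.cuspT Γ c,
          (isW_cusp Γ hneg c).2.1⟩ := by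
  apply Subtype.ext
  show (H18.cuspT Γ c)⁻¹ * T ^ H18.cuspH Γ c * H18.cuspT Γ c
    = (H18.cuspT Γ c)⁻¹ * T ^ (H18.cuspH Γ c : ℤ) * H18.cuspT Γ c
  rw [zpow_natCast]

/-- helper18's cusp family is a system of class representatives of the primitive positive
parabolic elements of `Γ`. -/
theorem isClassReps_cuspPi (hneg : (-1 : SL(2, ℤ)) ∈ Γ) :
    IsClassReps Γ (H18.cuspPi Γ hneg) := by
  refine ⟨fun c => ?_, fun ρ hρ => ?_⟩
  · rw [cuspPi_eq]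
    exact isPrim_of_isW (isW_cusp Γ hneg c)
  · obtain ⟨s, a, hws, hs⟩ := exists_isW_of_isPrim hρ
    obtain ⟨c, ⟨k, γ, hγ, hz⟩, huq⟩ := H18.cusp_cov Γ hneg s
    have hconj : ∀ m : ℤ, s⁻¹ * T ^ m * s
        = γ⁻¹ * ((H18.cuspT Γ c)⁻¹ * T ^ m * H18.cuspT Γ c) * γ := by
      intro m
      have h1 : (T ^ k * H18.cuspT Γ c * γ)⁻¹ * T ^ m * (T ^ k * H18.cuspT Γ c * γ)
          = γ⁻¹ * ((H18.cuspT Γ c)⁻¹ * T ^ m * H18.cuspT Γ c) * γ := by group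
      rcases hz with hz | hz
      · rw [hz, h1]
      · rw [hz, ← h1]
        simp
    have hw := isW_cusp Γ hneg c
    have hd1 : (H18.cuspH Γ c : ℤ) ∣ a := by
      apply hw.2.2
      have h2 : (H18.cuspT Γ c)⁻¹ * T ^ a * H18.cuspT Γ c = γ * (s⁻¹ * T ^ a * s) * γ⁻¹ := by
        rw [hconj a]; group
      rw [h2]
      exact Γ.mul_mem (Γ.mul_mem hγ hws.2.1) (Γ.inv_mem hγ)
    have hd2 : a ∣ (H18.cuspH Γ c : ℤ) := by
      apply hws.2.2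
      rw [hconj]
      exact Γ.mul_mem (Γ.mul_mem (Γ.inv_mem hγ) hw.2.1) hγ
    have hah : a = (H18.cuspH Γ c : ℤ) := Int.dvd_antisymm hws.1.le hw.1.le hd2 hd1
    refine ⟨c, ⟨(⟨γ, hγ⟩ : Γ)⁻¹, ?_⟩, ?_⟩
    · apply Subtype.ext
      simp only [Subgroup.coe_mul, InvMemClass.coe_inv, inv_inv]
      rw [hs, hconj a, hah, H18.coe_cuspPi, zpow_natCast]
    · rintro c₂ ⟨g₂, hg₂⟩
      apply huq
      have hw₂ := isW_cusp Γ hneg c₂
      have hg₂' : (g₂ : SL(2, ℤ)) * ((H18.cuspT Γ c₂)⁻¹ * T ^ (H18.cuspH Γ c₂ : ℤ)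
          * H18.cuspT Γ c₂) * (g₂ : SL(2, ℤ))⁻¹ = s⁻¹ * T ^ a * s := by
        have := congrArg Subtype.val hg₂
        simp only [Subgroup.coe_mul, InvMemClass.coe_inv] at this
        rw [H18.coe_cuspPi, ← zpow_natCast] at this
        rw [this, hs]
      have hu : (s * (g₂ : SL(2, ℤ)) * (H18.cuspT Γ c₂)⁻¹) * T ^ (H18.cuspH Γ c₂ : ℤ)
          = T ^ a * (s * (g₂ : SL(2, ℤ)) * (H18.cuspT Γ c₂)⁻¹) := by
        calc (s * (g₂ : SL(2, ℤ)) * (H18.cuspT Γ c₂)⁻¹) * T ^ (H18.cuspH Γ c₂ : ℤ)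
            = s * ((g₂ : SL(2, ℤ)) * ((H18.cuspT Γ c₂)⁻¹ * T ^ (H18.cuspH Γ c₂ : ℤ)
                * H18.cuspT Γ c₂) * (g₂ : SL(2, ℤ))⁻¹) * ((g₂ : SL(2, ℤ))
                * (H18.cuspT Γ c₂)⁻¹) := by group
          _ = s * (s⁻¹ * T ^ a * s) * ((g₂ : SL(2, ℤ)) * (H18.cuspT Γ c₂)⁻¹) := by rw [hg₂']
          _ = T ^ a * (s * (g₂ : SL(2, ℤ)) * (H18.cuspT Γ c₂)⁻¹) := by group
      obtain ⟨-, h10, hd⟩ := mul_T_zpow_eq _ hw₂.1.ne' hu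
      rcases hd with ⟨h0, -⟩ | ⟨h0, -⟩
      · obtain ⟨j, hj⟩ : ∃ j : ℤ, s * (g₂ : SL(2, ℤ)) * (H18.cuspT Γ c₂)⁻¹ = T ^ j :=
          ⟨_, eq_T_zpow_of _ h0 h10⟩
        refine ⟨j, (g₂ : SL(2, ℤ))⁻¹, Γ.inv_mem g₂.2, Or.inl ?_⟩
        rw [← hj]; group
      · obtain ⟨j, hj⟩ : ∃ j : ℤ, s * (g₂ : SL(2, ℤ)) * (H18.cuspT Γ c₂)⁻¹ = -T ^ j :=
          ⟨_, eq_neg_T_zpow_of _ h0 h10⟩
        refine ⟨j, (g₂ : SL(2, ℤ))⁻¹, Γ.inv_mem g₂.2, Or.inr ?_⟩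
        have h3 : s = (s * (g₂ : SL(2, ℤ)) * (H18.cuspT Γ c₂)⁻¹) * H18.cuspT Γ c₂
            * (g₂ : SL(2, ℤ))⁻¹ := by group
        rw [hj] at h3
        rw [h3]
        simp [mul_assoc]

/-- helper18's cusp family is an abstract cusp system. -/
theorem isCuspSys_cuspPi (hneg : (-1 : SL(2, ℤ)) ∈ Γ) :
    H17.IsCuspSys (fun γ : Γ => PosPar (γ : SL(2, ℤ)))
      (Subgroup.zpowers (⟨-1, hneg⟩ : Γ)) (H18.cuspPi Γ hneg) :=
  isCuspSys_of_isClassReps hneg _ (isClassReps_cuspPi Γ hneg)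

end

open Finset in
/-- **(T1) for helper18's cusp families**: the projection formula for the residue pairing for
`Γ' ≤ Γ ≤ SL(2, ℤ)` of finite index with `-1 ∈ Γ'`. -/
theorem residue_cores_eq_cuspPi {Γ Γ' : Subgroup SL(2, ℤ)} (hle : Γ' ≤ Γ)
    (hneg : (-1 : SL(2, ℤ)) ∈ Γ')
    [Fintype (SL(2, ℤ) ⧸ Γ)] [DecidableEq (SL(2, ℤ) ⧸ Γ)]
    [Fintype (SL(2, ℤ) ⧸ Γ')] [DecidableEq (SL(2, ℤ) ⧸ Γ')]
    {X A : Type*} [Fintype X] [Nonempty X] [CommRing A]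
    {al : X → Γ} {sig : Γ → Equiv.Perm X} {g' : Γ → X → Γ'}
    (h : H17.IsTransferData (Subgroup.inclusion hle) al sig g')
    (φ : Additive Γ →+ A) (φ' ψ' : Additive Γ' →+ A)
    (hφ' : ∀ a : Γ', φ' (Additive.ofMul a) = φ (Additive.ofMul (Subgroup.inclusion hle a)))
    {F' : Γ' → A} (hF' : H17.IsHLift φ' ψ' F')
    (hφ : ∀ c, φ (Additive.ofMul (H18.cuspPi Γ (hle hneg) c)) = 0)
    (hψ' : ∀ c', ψ' (Additive.ofMul (H18.cuspPi Γ' hneg c')) = 0) :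
    ∑ c, H17.coresLift al g' φ ψ' F' (H18.cuspPi Γ (hle hneg) c)
      = ∑ c', F' (H18.cuspPi Γ' hneg c') :=
  residue_cores_eq_of_isClassReps hle hneg h (isClassReps_cuspPi Γ (hle hneg))
    (isClassReps_cuspPi Γ' hneg) φ φ' ψ' hφ' hF' hφ hψ'

end Fermat.Agent.S41.H20
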