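import Mathlib

/-!
# Positive parabolic elements of `SL(2, ℤ)` and parabolic class systems (node (C-CUSP))

* `IsPosPar g` : `g` has trace `2` and `0 < g 0 1 - g 1 0` (a conjugate of `T ^ n`, `0 < n`).
* `isPosPar_iff` (K1) : `IsPosPar g ↔ ∃ σ n, 0 < n ∧ g = σ * T ^ n * σ⁻¹`.
* `isPosPar_conj_iff` (K3) : invariance under conjugation by rational / real matrices of
  positive determinant.
* `IsParSystem Γ π` : `π` is a system of representatives of the `Γ`-conjugacy classes of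
  primitive positive parabolic elements of `Γ`.
* `isParSystem_of_orbits` (K2) : the system attached to representatives of the `T`-orbits on
  `SL(2, ℤ) ⧸ Γ`.
* `sum_eq_of_isParSystem`, `IsParSystem.map` (INV).
-/

open Matrix MatrixGroups ModularGroup

namespace Fermat.Agent.S41.H79

/-- `g` is a positive parabolic element: trace `2` and `0 < b - c`. -/
def IsPosPar (g : SL(2, ℤ)) : Prop :=
  g 0 0 + g 1 1 = 2 ∧ 0 < g 0 1 - g 1 0

theorem det_entries (g : SL(2, ℤ)) : g 0 0 * g 1 1 - g 0 1 * g 1 0 = 1 := by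
  have := g.det_coe
  rw [Matrix.det_fin_two] at this
  exact this

theorem IsPosPar.ne_one {g : SL(2, ℤ)} (h : IsPosPar g) : g ≠ 1 := by
  rintro rfl
  have := h.2
  simp at this

theorem coe_inv_expl (σ : SL(2, ℤ)) :
    ((σ⁻¹ : SL(2, ℤ)) : Matrix (Fin 2) (Fin 2) ℤ) = !![σ 1 1, -σ 0 1; -σ 1 0, σ 0 0] := by
  rw [Matrix.SpecialLinearGroup.SL2_inv_expl]
  rfl

/-- Entries of `σ * T ^ m * σ⁻¹`. -/
theorem coe_conj_T_zpow (σ : SL(2, ℤ)) (m : ℤ) :
    ((σ * T ^ m * σ⁻¹ : SL(2, ℤ)) : Matrix (Fin 2) (Fin 2) ℤ) =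
      !![1 - m * σ 0 0 * σ 1 0, m * σ 0 0 ^ 2; -(m * σ 1 0 ^ 2), 1 + m * σ 0 0 * σ 1 0] := by
  have hd := det_entries σ
  have hσ : (σ : Matrix (Fin 2) (Fin 2) ℤ) = !![σ 0 0, σ 0 1; σ 1 0, σ 1 1] :=
    Matrix.eta_fin_two _
  rw [Matrix.SpecialLinearGroup.coe_mul, Matrix.SpecialLinearGroup.coe_mul, coe_T_zpow,
    coe_inv_expl]
  conv_lhs => rw [hσ]
  rw [Matrix.mul_fin_two, Matrix.mul_fin_two]
  ext i j
  fin_cases i <;> fin_cases j <;> simp <;>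
    first | ring1 | linear_combination hd

theorem sq_add_sq_pos (σ : SL(2, ℤ)) : 0 < σ 0 0 ^ 2 + σ 1 0 ^ 2 := by
  have hd := det_entries σ
  by_contra hcon
  have ha : σ 0 0 = 0 := by nlinarith [sq_nonneg (σ 0 0), sq_nonneg (σ 1 0)]
  have hc : σ 1 0 = 0 := by nlinarith [sq_nonneg (σ 0 0), sq_nonneg (σ 1 0)]
  rw [ha, hc] at hd
  simp at hd

/-- `b - c` of `σ * T ^ m * σ⁻¹`. -/
theorem conj_T_zpow_sub (σ : SL(2, ℤ)) (m : ℤ) :
    (σ * T ^ m * σ⁻¹ : SL(2, ℤ)) 0 1 - (σ * T ^ m * σ⁻¹ : SL(2, ℤ)) 1 0 =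
      m * (σ 0 0 ^ 2 + σ 1 0 ^ 2) := by
  rw [coe_conj_T_zpow]
  simp
  ring

theorem isPosPar_conj_T_zpow (σ : SL(2, ℤ)) {m : ℤ} (hm : 0 < m) :
    IsPosPar (σ * T ^ m * σ⁻¹) := by
  refine ⟨?_, ?_⟩
  · rw [coe_conj_T_zpow]
    simp
  · rw [conj_T_zpow_sub]
    exact mul_pos hm (sq_add_sq_pos σ)

theorem exists_conj_of_isPosPar {g : SL(2, ℤ)} (hg : IsPosPar g) :
    ∃ (σ : SL(2, ℤ)) (m : ℤ), g = σ * T ^ m * σ⁻¹ := by
  obtain ⟨ht, -⟩ := hg
  have hd := det_entries g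
  have hgm : (g : Matrix (Fin 2) (Fin 2) ℤ) = !![g 0 0, g 0 1; g 1 0, g 1 1] :=
    Matrix.eta_fin_two _
  generalize g 0 0 = p at *
  generalize g 0 1 = q at *
  generalize g 1 0 = r at *
  generalize g 1 1 = s at *
  -- a primitive fixed vector
  obtain ⟨a, c, hac, h1, h2⟩ :
      ∃ a c : ℤ, IsCoprime a c ∧ (p - 1) * a + q * c = 0 ∧ r * a + (s - 1) * c = 0 := by
    by_cases hq : q = 0
    · have hp : (p - 1) ^ 2 = 0 := by
        rw [hq] at hd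
        linear_combination (-1 : ℤ) * hd + p * ht
      have hp1 : p = 1 := by
        have := pow_eq_zero_iff (two_ne_zero) |>.mp hp
        linarith
      have hs1 : s = 1 := by linarith
      refine ⟨0, 1, isCoprime_zero_left.mpr isUnit_one, ?_, ?_⟩
      · rw [hq]; ring
      · rw [hs1]; ring
    · have hpos : 0 < Int.gcd q (1 - p) := by
        apply Int.gcd_pos_of_ne_zero_left _ hq
      obtain ⟨d, a, c, hd0, hac, ha, hc⟩ := Int.exists_gcd_one' hpos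
      have hd0' : (d : ℤ) ≠ 0 := by exact_mod_cast hd0.ne'
      refine ⟨a, c, Int.isCoprime_iff_gcd_eq_one.mpr hac, ?_, ?_⟩
      · linear_combination (-a) * hc + c * ha
      · have h : (d : ℤ) * (r * a + (s - 1) * c) = 0 := by
          linear_combination (-r) * ha - (s - 1) * hc - hd + ht
        exact (mul_eq_zero.mp h).resolve_left hd0'
  obtain ⟨u, v, huv⟩ := hac
  have hdet : (!![a, -v; c, u] : Matrix (Fin 2) (Fin 2) ℤ).det = 1 := by
    rw [Matrix.det_fin_two_of]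
    linear_combination huv
  obtain ⟨σ, hσ⟩ : ∃ σ : SL(2, ℤ), (σ : Matrix (Fin 2) (Fin 2) ℤ) = !![a, -v; c, u] :=
    ⟨⟨_, hdet⟩, rfl⟩
  refine ⟨σ, u * (-(p - 1) * v + q * u) + v * (-r * v + (s - 1) * u), ?_⟩
  rw [eq_mul_inv_iff_mul_eq]
  apply Subtype.ext
  rw [Matrix.SpecialLinearGroup.coe_mul, Matrix.SpecialLinearGroup.coe_mul, coe_T_zpow, hgm, hσ,
    Matrix.mul_fin_two, Matrix.mul_fin_two]
  ext i j
  fin_cases i <;> fin_cases j
  · simp
    linear_combination h1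
  · simp
    linear_combination
      -((-v * v) * h2 + (-u * v) * h1 + (v * (v * c + u * a)) * ht +
        (-(p - 1) * v + q * u) * huv)
  · simp
    linear_combination h2
  · simp
    linear_combination
      -((u * v) * h2 + (u * u) * h1 - (u * (v * c + u * a)) * ht +
        (-r * v + (s - 1) * u) * huv)

/-- (K1) Positive parabolic elements are exactly the conjugates of `T ^ n`, `0 < n`. -/
theorem isPosPar_iff {g : SL(2, ℤ)} :
    IsPosPar g ↔ ∃ (σ : SL(2, ℤ)) (n : ℕ), 0 < n ∧ g = σ * T ^ n * σ⁻¹ := by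
  constructor
  · intro hg
    obtain ⟨σ, m, rfl⟩ := exists_conj_of_isPosPar hg
    have hm : 0 < m := by
      have h2 := hg.2
      rw [conj_T_zpow_sub] at h2
      exact pos_of_mul_pos_left h2 (sq_add_sq_pos σ).le
    refine ⟨σ, m.toNat, by omega, ?_⟩
    rw [← zpow_natCast, Int.toNat_of_nonneg hm.le]
  · rintro ⟨σ, n, hn, rfl⟩
    have := isPosPar_conj_T_zpow σ (m := n) (by exact_mod_cast hn)
    rwa [zpow_natCast] at this

/-! ### (K3) invariance under conjugation by matrices of positive determinant -/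

theorem posPar_core {K : Type*} [Field K] [LinearOrder K] [IsStrictOrderedRing K]
    (p q r s g1 g2 g3 g4 k1 k2 k3 k4 : K) (hD : 0 < p * s - q * r)
    (E00 : p * g1 + q * g3 = k1 * p + k2 * r) (E01 : p * g2 + q * g4 = k1 * q + k2 * s)
    (E10 : r * g1 + s * g3 = k3 * p + k4 * r) (E11 : r * g2 + s * g4 = k3 * q + k4 * s)
    (ht : g1 + g4 = 2) (hd : g1 * g4 - g2 * g3 = 1) (hpos : 0 < g2 - g3) :
    k1 + k4 = 2 ∧ 0 < k2 - k3 := by
  have htr : (p * s - q * r) * (k1 + k4) = (p * s - q * r) * 2 := by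
    linear_combination -(s * E00 - r * E01 + p * E11 - q * E10) + (p * s - q * r) * ht
  have h1 : k1 + k4 = 2 := mul_left_cancel₀ hD.ne' htr
  have hW : (p * s - q * r) * (k2 - k3) =
      (p ^ 2 + r ^ 2) * g2 - (q ^ 2 + s ^ 2) * g3 + (p * q + r * s) * (g4 - g1) := by
    linear_combination -(p * E01 - q * E00 - s * E10 + r * E11)
  have h4 : g4 = 2 - g1 := by linarith
  subst h4
  refine ⟨h1, ?_⟩
  suffices hWpos : 0 < (p * s - q * r) * (k2 - k3) from pos_of_mul_pos_right hWpos hD.le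
  generalize (p * s - q * r) * (k2 - k3) = W at hW ⊢
  have hA : g2 * W = (p * g2 - q * (g1 - 1)) ^ 2 + (r * g2 - s * (g1 - 1)) ^ 2 := by
    rw [hW]
    linear_combination (q ^ 2 + s ^ 2) * hd
  have hB : (-g3) * W = (p * (g1 - 1) + q * g3) ^ 2 + (r * (g1 - 1) + s * g3) ^ 2 := by
    rw [hW]
    linear_combination (p ^ 2 + r ^ 2) * hd
  rcases lt_or_ge 0 g2 with h2 | h2
  · have hnn : 0 ≤ g2 * W := by rw [hA]; positivity
    have hW0 : 0 ≤ W := nonneg_of_mul_nonneg_right hnn h2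
    rcases hW0.lt_or_eq with h | h
    · exact h
    · exfalso
      have hz : (p * g2 - q * (g1 - 1)) ^ 2 + (r * g2 - s * (g1 - 1)) ^ 2 = 0 := by
        rw [← hA, ← h, mul_zero]
      obtain ⟨e1, e2⟩ := (add_eq_zero_iff_of_nonneg (sq_nonneg _) (sq_nonneg _)).mp hz
      have e1' := pow_eq_zero_iff (two_ne_zero) |>.mp e1
      have e2' := pow_eq_zero_iff (two_ne_zero) |>.mp e2
      have h0 : (p * s - q * r) * g2 = 0 := by linear_combination s * e1' - q * e2'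
      rcases mul_eq_zero.mp h0 with h' | h'
      · exact hD.ne' h'
      · exact h2.ne' h'
  · have h3 : 0 < -g3 := by linarith
    have hnn : 0 ≤ (-g3) * W := by rw [hB]; positivity
    have hW0 : 0 ≤ W := nonneg_of_mul_nonneg_right hnn h3
    rcases hW0.lt_or_eq with h | h
    · exact h
    · exfalso
      have hz : (p * (g1 - 1) + q * g3) ^ 2 + (r * (g1 - 1) + s * g3) ^ 2 = 0 := by
        rw [← hB, ← h, mul_zero]
      obtain ⟨e1, e2⟩ := (add_eq_zero_iff_of_nonneg (sq_nonneg _) (sq_nonneg _)).mp hz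
      have e1' := pow_eq_zero_iff (two_ne_zero) |>.mp e1
      have e2' := pow_eq_zero_iff (two_ne_zero) |>.mp e2
      have h0 : (p * s - q * r) * g3 = 0 := by linear_combination p * e2' - r * e1'
      rcases mul_eq_zero.mp h0 with h' | h'
      · exact hD.ne' h'
      · rw [h'] at h3
        simp at h3

/-- (K3), one direction: if `α g = g' α` with `0 < det α` (`α` a `2 × 2` matrix over an ordered
field, `g g' ∈ SL(2, ℤ)`), then `g'` is positive parabolic as soon as `g` is. -/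
theorem isPosPar_of_conj {K : Type*} [Field K] [LinearOrder K] [IsStrictOrderedRing K]
    (α : Matrix (Fin 2) (Fin 2) K) (hα : 0 < α.det) (g g' : SL(2, ℤ))
    (h : α * (g : Matrix (Fin 2) (Fin 2) ℤ).map (Int.cast : ℤ → K) =
      (g' : Matrix (Fin 2) (Fin 2) ℤ).map (Int.cast : ℤ → K) * α)
    (hg : IsPosPar g) : IsPosPar g' := by
  rw [Matrix.det_fin_two] at hα
  have E00 : α 0 0 * (g 0 0 : K) + α 0 1 * (g 1 0 : K) =
      (g' 0 0 : K) * α 0 0 + (g' 0 1 : K) * α 1 0 := by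
    have := congrFun (congrFun h 0) 0
    simpa [Matrix.mul_apply, Fin.sum_univ_two] using this
  have E01 : α 0 0 * (g 0 1 : K) + α 0 1 * (g 1 1 : K) =
      (g' 0 0 : K) * α 0 1 + (g' 0 1 : K) * α 1 1 := by
    have := congrFun (congrFun h 0) 1
    simpa [Matrix.mul_apply, Fin.sum_univ_two] using this
  have E10 : α 1 0 * (g 0 0 : K) + α 1 1 * (g 1 0 : K) =
      (g' 1 0 : K) * α 0 0 + (g' 1 1 : K) * α 1 0 := by
    have := congrFun (congrFun h 1) 0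
    simpa [Matrix.mul_apply, Fin.sum_univ_two] using this
  have E11 : α 1 0 * (g 0 1 : K) + α 1 1 * (g 1 1 : K) =
      (g' 1 0 : K) * α 0 1 + (g' 1 1 : K) * α 1 1 := by
    have := congrFun (congrFun h 1) 1
    simpa [Matrix.mul_apply, Fin.sum_univ_two] using this
  have ht : ((g 0 0 : ℤ) : K) + ((g 1 1 : ℤ) : K) = 2 := by exact_mod_cast hg.1
  have hd : ((g 0 0 : ℤ) : K) * ((g 1 1 : ℤ) : K) - ((g 0 1 : ℤ) : K) * ((g 1 0 : ℤ) : K) = 1 := by
    exact_mod_cast det_entries g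
  have hpos : (0 : K) < ((g 0 1 : ℤ) : K) - ((g 1 0 : ℤ) : K) := by exact_mod_cast hg.2
  obtain ⟨h1, h2⟩ := posPar_core _ _ _ _ _ _ _ _ _ _ _ _ hα E00 E01 E10 E11 ht hd hpos
  exact ⟨by exact_mod_cast h1, by exact_mod_cast h2⟩

theorem adjugate_mul_eq_of_mul_eq {K : Type*} [Field K] (α G G' : Matrix (Fin 2) (Fin 2) K)
    (hα : α.det ≠ 0) (h : α * G = G' * α) : Matrix.adjugate α * G' = G * Matrix.adjugate α := by
  have key : α.det • (Matrix.adjugate α * G') = α.det • (G * Matrix.adjugate α) := by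
    calc α.det • (Matrix.adjugate α * G')
        = Matrix.adjugate α * G' * (α * Matrix.adjugate α) := by
          rw [Matrix.mul_adjugate, Matrix.mul_smul, Matrix.mul_one]
      _ = Matrix.adjugate α * (G' * α) * Matrix.adjugate α := by simp only [Matrix.mul_assoc]
      _ = Matrix.adjugate α * (α * G) * Matrix.adjugate α := by rw [h]
      _ = (Matrix.adjugate α * α) * (G * Matrix.adjugate α) := by simp only [Matrix.mul_assoc]
      _ = α.det • (G * Matrix.adjugate α) := by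
          rw [Matrix.adjugate_mul, Matrix.smul_mul, Matrix.one_mul]
  exact smul_right_injective _ hα key

/-- (K3) If `α g = g' α` with `0 < det α`, then `g` is positive parabolic iff `g'` is. -/
theorem isPosPar_conj_iff {K : Type*} [Field K] [LinearOrder K] [IsStrictOrderedRing K]
    (α : Matrix (Fin 2) (Fin 2) K) (hα : 0 < α.det) (g g' : SL(2, ℤ))
    (h : α * (g : Matrix (Fin 2) (Fin 2) ℤ).map (Int.cast : ℤ → K) =
      (g' : Matrix (Fin 2) (Fin 2) ℤ).map (Int.cast : ℤ → K) * α) :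
    IsPosPar g ↔ IsPosPar g' := by
  refine ⟨isPosPar_of_conj α hα g g' h, isPosPar_of_conj (Matrix.adjugate α) ?_ g' g
    (adjugate_mul_eq_of_mul_eq α _ _ hα.ne' h)⟩
  rw [Matrix.det_adjugate]
  simpa using hα

theorem coe_GL_eq_map (g : SL(2, ℤ)) :
    ((g : GL (Fin 2) ℝ) : Matrix (Fin 2) (Fin 2) ℝ) =
      (g : Matrix (Fin 2) (Fin 2) ℤ).map (Int.cast : ℤ → ℝ) := by
  ext i j
  simp

/-- (K3) in `GL₂(ℝ)`: if `α g = g' α` with `0 < det α`, then `g` is positive parabolic iff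
`g'` is. -/
theorem isPosPar_conj_iff_GL (α : GL (Fin 2) ℝ) (hα : 0 < (α : Matrix (Fin 2) (Fin 2) ℝ).det)
    (g g' : SL(2, ℤ)) (h : α * (g : GL (Fin 2) ℝ) = (g' : GL (Fin 2) ℝ) * α) :
    IsPosPar g ↔ IsPosPar g' := by
  refine isPosPar_conj_iff (α : Matrix (Fin 2) (Fin 2) ℝ) hα g g' ?_
  rw [← coe_GL_eq_map, ← coe_GL_eq_map, ← Matrix.GeneralLinearGroup.coe_mul,
    ← Matrix.GeneralLinearGroup.coe_mul, h]

/-- Conjugation inside `SL(2, ℤ)` preserves positive parabolic elements. -/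
theorem isPosPar_conj (τ g : SL(2, ℤ)) : IsPosPar (τ * g * τ⁻¹) ↔ IsPosPar g := by
  constructor
  · intro h
    obtain ⟨σ, n, hn, e⟩ := isPosPar_iff.mp h
    refine isPosPar_iff.mpr ⟨τ⁻¹ * σ, n, hn, ?_⟩
    have : g = τ⁻¹ * (τ * g * τ⁻¹) * τ := by group
    rw [this, e]
    group
  · intro h
    obtain ⟨σ, n, hn, e⟩ := isPosPar_iff.mp h
    refine isPosPar_iff.mpr ⟨τ * σ, n, hn, ?_⟩
    rw [e]
    group

/-! ### Elements normalising the group generated by `T` -/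

theorem conj_inv_pow {G : Type*} [Group G] (a b : G) (k : ℕ) :
    (a⁻¹ * b * a) ^ k = a⁻¹ * b ^ k * a := by
  have := conj_pow (a := a⁻¹) (b := b) (i := k)
  simpa using this

theorem comm_of_conj_eq {G : Type*} [Group G] (a b x y : G)
    (h : a * x * a⁻¹ = b * y * b⁻¹) : (b⁻¹ * a) * x = y * (b⁻¹ * a) := by
  have hx : x = a⁻¹ * (b * y * b⁻¹) * a := by rw [← h]; group
  rw [hx]; group

theorem T_zpow_injective {m m' : ℤ} (h : T ^ m = T ^ m') : m = m' := by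
  have := congrArg (fun x : SL(2, ℤ) => (x : Matrix (Fin 2) (Fin 2) ℤ) 0 1) h
  simpa [coe_T_zpow] using this

theorem lower_left_eq_zero (δ : SL(2, ℤ)) (m m' : ℤ) (hm' : m' ≠ 0)
    (h : δ * T ^ m = T ^ m' * δ) : δ 1 0 = 0 := by
  have h00 := congrArg (fun x : SL(2, ℤ) => (x : Matrix (Fin 2) (Fin 2) ℤ) 0 0) h
  simp only [Matrix.SpecialLinearGroup.coe_mul, coe_T_zpow] at h00
  simp [Matrix.mul_apply, Fin.sum_univ_two] at h00
  exact h00.resolve_left hm'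

theorem diag_eq (δ : SL(2, ℤ)) (hc : δ 1 0 = 0) : δ 0 0 = δ 1 1 := by
  have hd := det_entries δ
  rw [hc, mul_zero, sub_zero] at hd
  rcases Int.eq_one_or_neg_one_of_mul_eq_one' hd with ⟨h1, h2⟩ | ⟨h1, h2⟩ <;> rw [h1, h2]

/-- An upper triangular element of `SL(2, ℤ)` commutes with the powers of `T`. -/
theorem comm_T_zpow (δ : SL(2, ℤ)) (hc : δ 1 0 = 0) (m : ℤ) : δ * T ^ m = T ^ m * δ := by
  have hδ : (δ : Matrix (Fin 2) (Fin 2) ℤ) = !![δ 0 0, δ 0 1; δ 1 0, δ 1 1] :=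
    Matrix.eta_fin_two _
  have had := diag_eq δ hc
  apply Subtype.ext
  rw [Matrix.SpecialLinearGroup.coe_mul, Matrix.SpecialLinearGroup.coe_mul, coe_T_zpow]
  conv_lhs => rw [hδ]
  conv_rhs => rw [hδ]
  rw [Matrix.mul_fin_two, Matrix.mul_fin_two]
  ext i j
  fin_cases i <;> fin_cases j <;> simp [hc, had]
  ring1

/-- An upper triangular element of `SL(2, ℤ)` is `± T ^ j`. -/
theorem eq_T_zpow_or_neg (δ : SL(2, ℤ)) (hc : δ 1 0 = 0) :
    ∃ j : ℤ, δ = T ^ j ∨ δ = -T ^ j := by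
  have hd := det_entries δ
  rw [hc, mul_zero, sub_zero] at hd
  have hδ : (δ : Matrix (Fin 2) (Fin 2) ℤ) = !![δ 0 0, δ 0 1; δ 1 0, δ 1 1] :=
    Matrix.eta_fin_two _
  rcases Int.eq_one_or_neg_one_of_mul_eq_one' hd with ⟨h1, h2⟩ | ⟨h1, h2⟩
  · refine ⟨δ 0 1, Or.inl ?_⟩
    apply Subtype.ext
    rw [coe_T_zpow]
    conv_lhs => rw [hδ]
    rw [h1, h2, hc]
  · refine ⟨-δ 0 1, Or.inr ?_⟩
    apply Subtype.ext
    rw [Matrix.SpecialLinearGroup.coe_neg, coe_T_zpow]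
    conv_lhs => rw [hδ]
    rw [h1, h2, hc]
    ext i j
    fin_cases i <;> fin_cases j <;> simp

/-! ### Parabolic class systems -/

/-- `π : ι → Γ` is a system of representatives of the `Γ`-conjugacy classes of primitive
positive parabolic elements of `Γ`: every positive parabolic `ρ ∈ Γ` is `Γ`-conjugate to a
positive power of `π i` for exactly one `i`, and no `π i` is a proper power of a positive
parabolic element of `Γ`. -/
structure IsParSystem (Γ : Subgroup SL(2, ℤ)) {ι : Type*} (π : ι → Γ) : Prop where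
  pos : ∀ i, IsPosPar (π i : SL(2, ℤ))
  prim : ∀ (i : ι) (ρ : Γ) (k : ℕ), IsPosPar (ρ : SL(2, ℤ)) → ρ ^ k = π i → k = 1
  cover : ∀ ρ : Γ, IsPosPar (ρ : SL(2, ℤ)) →
    ∃! i, ∃ (γ : Γ) (k : ℕ), 0 < k ∧ ρ = γ * π i ^ k * γ⁻¹

/-- (K2) The parabolic class system attached to representatives `σ c` of the `⟨T⟩`-orbits on
`SL(2, ℤ) ⧸ Γ` (`-1 ∈ Γ`), with `h c` the length of the orbit of `σ c Γ`:
`π c = (σ c)⁻¹ * T ^ h c * σ c`. -/
theorem isParSystem_of_orbits (Γ : Subgroup SL(2, ℤ)) (hneg : (-1 : SL(2, ℤ)) ∈ Γ)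
    {C : Type*} (σ : C → SL(2, ℤ)) (h : C → ℕ) (hpos : ∀ c, 0 < h c)
    (hmem : ∀ c, (σ c)⁻¹ * T ^ (h c) * σ c ∈ Γ)
    (hdvd : ∀ (c : C) (k : ℕ), (σ c)⁻¹ * T ^ k * σ c ∈ Γ → h c ∣ k)
    (hcov : ∀ g : SL(2, ℤ), ∃ (c : C) (j : ℤ) (γ : Γ), g = T ^ j * σ c * γ)
    (huniq : ∀ (c c' : C) (j : ℤ) (γ : Γ), σ c' = T ^ j * σ c * γ → c' = c) :
    IsParSystem Γ (fun c => (⟨(σ c)⁻¹ * T ^ (h c) * σ c, hmem c⟩ : Γ)) := by
  -- uniqueness of the class
  have key : ∀ (c1 c2 : C) (γ1 γ2 : Γ) (k1 k2 : ℕ), 0 < k2 →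
      (γ1 : SL(2, ℤ)) * ((σ c1)⁻¹ * T ^ (h c1) * σ c1) ^ k1 * (γ1 : SL(2, ℤ))⁻¹ =
        (γ2 : SL(2, ℤ)) * ((σ c2)⁻¹ * T ^ (h c2) * σ c2) ^ k2 * (γ2 : SL(2, ℤ))⁻¹ →
      c2 = c1 := by
    intro c1 c2 γ1 γ2 k1 k2 hk2 e
    rw [conj_inv_pow, conj_inv_pow, ← pow_mul, ← pow_mul] at e
    have e' : ((γ1 : SL(2, ℤ)) * (σ c1)⁻¹) * T ^ ((h c1 * k1 : ℕ) : ℤ) *
        ((γ1 : SL(2, ℤ)) * (σ c1)⁻¹)⁻¹ =
        ((γ2 : SL(2, ℤ)) * (σ c2)⁻¹) * T ^ ((h c2 * k2 : ℕ) : ℤ) *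
        ((γ2 : SL(2, ℤ)) * (σ c2)⁻¹)⁻¹ := by
      rw [zpow_natCast, zpow_natCast]
      calc _ = (γ1 : SL(2, ℤ)) * ((σ c1)⁻¹ * T ^ (h c1 * k1) * σ c1) * (γ1 : SL(2, ℤ))⁻¹ := by
            group
        _ = _ := e
        _ = _ := by group
    have hcomm := comm_of_conj_eq _ _ _ _ e'
    have hne : ((h c2 * k2 : ℕ) : ℤ) ≠ 0 := by
      have := Nat.mul_pos (hpos c2) hk2
      exact_mod_cast this.ne'
    have h0 := lower_left_eq_zero _ _ _ hne hcomm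
    obtain ⟨j, hj | hj⟩ := eq_T_zpow_or_neg _ h0
    · refine huniq c1 c2 j (γ1⁻¹ * γ2) ?_
      rw [← hj]
      push_cast
      group
    · refine huniq c1 c2 j (⟨-1, hneg⟩ * (γ1⁻¹ * γ2)) ?_
      have hj' : T ^ j = -(((γ2 : SL(2, ℤ)) * (σ c2)⁻¹)⁻¹ * ((γ1 : SL(2, ℤ)) * (σ c1)⁻¹)) := by
        rw [hj, neg_neg]
      rw [hj']
      push_cast
      rw [neg_mul, neg_mul, neg_one_mul, mul_neg, neg_neg]
      group
  refine ⟨fun c => ?_, ?_, ?_⟩
  · show IsPosPar ((σ c)⁻¹ * T ^ (h c) * σ c)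
    exact isPosPar_iff.mpr ⟨(σ c)⁻¹, h c, hpos c, by rw [inv_inv]⟩
  · intro c ρ k hρ hk
    have hk' : (ρ : SL(2, ℤ)) ^ k = (σ c)⁻¹ * T ^ (h c) * σ c := by
      have := congrArg (Subtype.val) hk
      simpa using this
    obtain ⟨τ, n, hn, hτ⟩ := isPosPar_iff.mp hρ
    rw [hτ, conj_pow, ← pow_mul] at hk'
    have e' : τ * T ^ ((n * k : ℕ) : ℤ) * τ⁻¹ =
        (σ c)⁻¹ * T ^ ((h c : ℕ) : ℤ) * ((σ c)⁻¹)⁻¹ := by
      rw [zpow_natCast, zpow_natCast, inv_inv]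
      exact hk'
    have hcomm := comm_of_conj_eq _ _ _ _ e'
    have hne : ((h c : ℕ) : ℤ) ≠ 0 := by exact_mod_cast (hpos c).ne'
    have h0 := lower_left_eq_zero _ _ _ hne hcomm
    -- `T ^ (n k) = T ^ h`
    have hc1 := comm_T_zpow _ h0 ((n * k : ℕ) : ℤ)
    rw [hc1] at hcomm
    have hnk : ((n * k : ℕ) : ℤ) = ((h c : ℕ) : ℤ) := T_zpow_injective (mul_right_cancel hcomm)
    have hnk' : n * k = h c := by exact_mod_cast hnk
    -- `ρ = (σ c)⁻¹ T ^ n σ c`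
    have hc2 := comm_T_zpow _ h0 ((n : ℕ) : ℤ)
    have hρ' : (ρ : SL(2, ℤ)) = (σ c)⁻¹ * T ^ n * σ c := by
      rw [hτ]
      have : τ * T ^ ((n : ℕ) : ℤ) = (σ c)⁻¹ * T ^ ((n : ℕ) : ℤ) * σ c * τ := by
        calc τ * T ^ ((n : ℕ) : ℤ) = (σ c)⁻¹ * ((((σ c)⁻¹)⁻¹ * τ) * T ^ ((n : ℕ) : ℤ)) := by group
          _ = (σ c)⁻¹ * (T ^ ((n : ℕ) : ℤ) * (((σ c)⁻¹)⁻¹ * τ)) := by rw [hc2]
          _ = _ := by group
      rw [zpow_natCast] at this
      rw [this]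
      group
    have hd : h c ∣ n := hdvd c n (by rw [← hρ']; exact ρ.2)
    obtain ⟨t, ht⟩ := hd
    have hn' : n * (t * k) = n * 1 := by
      calc n * (t * k) = (h c * t) * (t * k) := by rw [← ht]
        _ = t * (n * k) := by rw [ht]; ring
        _ = t * h c := by rw [hnk']
        _ = n * 1 := by rw [ht]; ring
    have htk : t * k = 1 := Nat.eq_of_mul_eq_mul_left hn hn'
    exact Nat.eq_one_of_mul_eq_one_left htk
  · intro ρ hρ
    obtain ⟨τ, n, hn, hτ⟩ := isPosPar_iff.mp hρ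
    obtain ⟨c, j, γ, hγ⟩ := hcov τ⁻¹
    have hτ' : τ = (γ : SL(2, ℤ))⁻¹ * (σ c)⁻¹ * T ^ (-j) := by
      have : τ = (τ⁻¹)⁻¹ := (inv_inv τ).symm
      rw [this, hγ]
      group
    have hρ' : (ρ : SL(2, ℤ)) = (γ : SL(2, ℤ))⁻¹ * ((σ c)⁻¹ * T ^ n * σ c) * γ := by
      rw [hτ, ← zpow_natCast T n]
      conv_lhs => rw [hτ']
      group
    have hmem' : (σ c)⁻¹ * T ^ n * σ c ∈ Γ := by
      have : (σ c)⁻¹ * T ^ n * σ c = (γ : SL(2, ℤ)) * ρ * (γ : SL(2, ℤ))⁻¹ := by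
        rw [hρ']
        group
      rw [this]
      exact Γ.mul_mem (Γ.mul_mem γ.2 ρ.2) (Γ.inv_mem γ.2)
    obtain ⟨k, hk⟩ := hdvd c n hmem'
    have hk0 : 0 < k := by
      rcases Nat.eq_zero_or_pos k with h0 | h0
      · rw [h0, mul_zero] at hk
        omega
      · exact h0
    have hex : ρ = γ⁻¹ * (⟨(σ c)⁻¹ * T ^ (h c) * σ c, hmem c⟩ : Γ) ^ k * γ⁻¹⁻¹ := by
      apply Subtype.ext
      push_cast
      rw [conj_inv_pow, ← pow_mul, ← hk, inv_inv]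
      exact hρ'
    refine ⟨c, ⟨γ⁻¹, k, hk0, hex⟩, ?_⟩
    rintro c' ⟨γ', k', hk', e'⟩
    refine key c c' γ⁻¹ γ' k k' hk' ?_
    have e1 := congrArg (Subtype.val) hex
    have e2 := congrArg (Subtype.val) e'
    push_cast at e1 e2
    rw [← e2, e1]
    simp

/-- (K2), with the orbit condition in `∃!` form. -/
theorem isParSystem_of_orbits' (Γ : Subgroup SL(2, ℤ)) (hneg : (-1 : SL(2, ℤ)) ∈ Γ)
    {C : Type*} (σ : C → SL(2, ℤ)) (h : C → ℕ) (hpos : ∀ c, 0 < h c)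
    (hmem : ∀ c, (σ c)⁻¹ * T ^ (h c) * σ c ∈ Γ)
    (hdvd : ∀ (c : C) (k : ℕ), (σ c)⁻¹ * T ^ k * σ c ∈ Γ → h c ∣ k)
    (hcov : ∀ g : SL(2, ℤ), ∃! c : C, ∃ (j : ℤ) (γ : Γ), g = T ^ j * σ c * γ) :
    IsParSystem Γ (fun c => (⟨(σ c)⁻¹ * T ^ (h c) * σ c, hmem c⟩ : Γ)) := by
  refine isParSystem_of_orbits Γ hneg σ h hpos hmem hdvd (fun g => (hcov g).exists) ?_
  intro c c' j γ e
  exact (hcov (σ c')).unique ⟨0, 1, by simp⟩ ⟨j, γ, e⟩

/-- The width condition in divisibility form follows from minimality. -/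
theorem dvd_of_isLeast (Γ : Subgroup SL(2, ℤ)) (t : SL(2, ℤ)) (h : ℕ) (hpos : 0 < h)
    (hmem : t⁻¹ * T ^ h * t ∈ Γ)
    (hmin : ∀ k : ℕ, 0 < k → t⁻¹ * T ^ k * t ∈ Γ → h ≤ k)
    (k : ℕ) (hk : t⁻¹ * T ^ k * t ∈ Γ) : h ∣ k := by
  have hpow : ∀ q : ℕ, t⁻¹ * T ^ (h * q) * t ∈ Γ := by
    intro q
    have := Γ.pow_mem hmem q
    rwa [conj_inv_pow, ← pow_mul] at this
  by_contra hnd
  have hr : 0 < k % h := Nat.pos_of_ne_zero fun h0 => hnd (Nat.dvd_of_mod_eq_zero h0)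
  have hlt : k % h < h := Nat.mod_lt k hpos
  have hmem' : t⁻¹ * T ^ (k % h) * t ∈ Γ := by
    have e : t⁻¹ * T ^ (k % h) * t = (t⁻¹ * T ^ (h * (k / h)) * t)⁻¹ * (t⁻¹ * T ^ k * t) := by
      have hk' : T ^ k = T ^ (h * (k / h)) * T ^ (k % h) := by
        rw [← pow_add, Nat.div_add_mod]
      rw [hk']
      group
    rw [e]
    exact Γ.mul_mem (Γ.inv_mem (hpow _)) hk
  exact absurd (hmin _ hr hmem') (not_le.mpr hlt)

/-! ### (INV) independence of the system and transport -/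

/-- Transport of a parabolic class system along an isomorphism preserving positive parabolic
elements (e.g. conjugation by a rational matrix of positive determinant, by (K3)). -/
theorem IsParSystem.map {Γ₁ Γ₂ : Subgroup SL(2, ℤ)} {ι : Type*} {π : ι → Γ₁}
    (hπ : IsParSystem Γ₁ π) (θ : Γ₁ ≃* Γ₂)
    (hθ : ∀ ρ : Γ₁, IsPosPar (ρ : SL(2, ℤ)) ↔ IsPosPar ((θ ρ : Γ₂) : SL(2, ℤ))) :
    IsParSystem Γ₂ (fun i => θ (π i)) := by
  have hθ' : ∀ ρ : Γ₂, IsPosPar (ρ : SL(2, ℤ)) ↔ IsPosPar ((θ.symm ρ : Γ₁) : SL(2, ℤ)) := by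
    intro ρ
    rw [hθ (θ.symm ρ), θ.apply_symm_apply]
  refine ⟨fun i => (hθ _).mp (hπ.pos i), ?_, ?_⟩
  · intro i ρ k hρ hk
    refine hπ.prim i (θ.symm ρ) k ((hθ' ρ).mp hρ) ?_
    rw [← map_pow, hk, θ.symm_apply_apply]
  · intro ρ hρ
    obtain ⟨i, ⟨γ, k, hk, e⟩, huniq⟩ := hπ.cover (θ.symm ρ) ((hθ' ρ).mp hρ)
    refine ⟨i, ⟨θ γ, k, hk, ?_⟩, ?_⟩
    · have := congrArg θ e
      rw [θ.apply_symm_apply] at this
      rw [this]
      simp only [map_mul, map_pow, map_inv]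
    · rintro i' ⟨γ', k', hk', e'⟩
      apply huniq i'
      refine ⟨θ.symm γ', k', hk', ?_⟩
      rw [e']
      simp only [map_mul, map_pow, map_inv, θ.symm_apply_apply]

/-- Each member of a parabolic class system is `Γ`-conjugate to exactly one member of any
other one. -/
theorem IsParSystem.exists_conj {Γ : Subgroup SL(2, ℤ)} {ι ι' : Type*} {π : ι → Γ}
    {π' : ι' → Γ} (hπ : IsParSystem Γ π) (hπ' : IsParSystem Γ π') (i : ι) :
    ∃ i' : ι', (∃ γ : Γ, π i = γ * π' i' * γ⁻¹) ∧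
      ∀ j : ι', (∃ γ : Γ, π i = γ * π' j * γ⁻¹) → j = i' := by
  obtain ⟨i', ⟨γ, k, hk, e⟩, huniq⟩ := hπ'.cover (π i) (hπ.pos i)
  have hk1 : k = 1 := by
    refine hπ.prim i (γ * π' i' * γ⁻¹) k ?_ ?_
    · have := (isPosPar_conj (γ : SL(2, ℤ)) (π' i' : SL(2, ℤ))).mpr (hπ'.pos i')
      simpa using this
    · rw [conj_pow, ← e]
  subst hk1
  refine ⟨i', ⟨γ, by simpa using e⟩, ?_⟩
  rintro j ⟨γ', e'⟩
  exact huniq j ⟨γ', 1, one_pos, by simpa using e'⟩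

/-- Any two parabolic class systems of `Γ` are in bijection, compatibly with
`Γ`-conjugacy. -/
theorem IsParSystem.exists_equiv {Γ : Subgroup SL(2, ℤ)} {ι ι' : Type*} {π : ι → Γ}
    {π' : ι' → Γ} (hπ : IsParSystem Γ π) (hπ' : IsParSystem Γ π') :
    ∃ e : ι ≃ ι', ∀ i, ∃ γ : Γ, π i = γ * π' (e i) * γ⁻¹ := by
  choose e he huniq using fun i => hπ.exists_conj hπ' i
  choose e' he' huniq' using fun i' => hπ'.exists_conj hπ i'
  have h1 : ∀ i, e' (e i) = i := by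
    intro i
    obtain ⟨γ, hγ⟩ := he i
    exact (huniq' (e i) i ⟨γ⁻¹, by rw [hγ]; group⟩).symm
  have h2 : ∀ i', e (e' i') = i' := by
    intro i'
    obtain ⟨γ, hγ⟩ := he' i'
    exact (huniq (e' i') i' ⟨γ⁻¹, by rw [hγ]; group⟩).symm
  exact ⟨⟨e, e', h1, h2⟩, he⟩

/-- (INV) The sum of a function that is conjugation invariant on positive parabolic elements
over a parabolic class system does not depend on the system. -/
theorem sum_eq_of_isParSystem {Γ : Subgroup SL(2, ℤ)} {ι ι' : Type*} [Fintype ι] [Fintype ι']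
    {π : ι → Γ} {π' : ι' → Γ} (hπ : IsParSystem Γ π) (hπ' : IsParSystem Γ π')
    {A : Type*} [AddCommMonoid A] (f : Γ → A)
    (hf : ∀ γ ρ : Γ, IsPosPar (ρ : SL(2, ℤ)) → f (γ * ρ * γ⁻¹) = f ρ) :
    ∑ i, f (π i) = ∑ i', f (π' i') := by
  obtain ⟨e, he⟩ := hπ.exists_equiv hπ'
  refine Fintype.sum_equiv e _ _ ?_
  intro i
  obtain ⟨γ, hγ⟩ := he i
  rw [hγ, hf γ _ (hπ'.pos _)]

/-- (INV) Transport form: if `θ : Γ₁ ≃* Γ₂` preserves positive parabolic elements and `f` is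
conjugation invariant on the positive parabolic elements of `Γ₂`, then the sum of `f ∘ θ` over a
parabolic class system of `Γ₁` equals the sum of `f` over a parabolic class system of `Γ₂`. -/
theorem sum_comp_eq_of_isParSystem {Γ₁ Γ₂ : Subgroup SL(2, ℤ)} {ι ι' : Type*} [Fintype ι]
    [Fintype ι'] {π : ι → Γ₁} {π' : ι' → Γ₂} (hπ : IsParSystem Γ₁ π) (hπ' : IsParSystem Γ₂ π')
    (θ : Γ₁ ≃* Γ₂)
    (hθ : ∀ ρ : Γ₁, IsPosPar (ρ : SL(2, ℤ)) ↔ IsPosPar ((θ ρ : Γ₂) : SL(2, ℤ)))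
    {A : Type*} [AddCommMonoid A] (f : Γ₂ → A)
    (hf : ∀ γ ρ : Γ₂, IsPosPar (ρ : SL(2, ℤ)) → f (γ * ρ * γ⁻¹) = f ρ) :
    ∑ i, f (θ (π i)) = ∑ i', f (π' i') :=
  sum_eq_of_isParSystem (hπ.map θ hθ) hπ' f hf

end Fermat.Agent.S41.H79
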