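import Mathlib
import Fermat.Agent.S41.CuspSysSchreier_helper20
import Fermat.Agent.S41.ParClass_helper79
import Fermat.Prelude.Def_ModularCurve_PeriodMap

/-!
# S41 (C): the cusp sum of a Heisenberg lift is invariant under isomorphisms preserving positive
parabolic elements (helper20)

* `isParSystem_cuspPi` : helper18's cusp family `H18.cuspPi` is a parabolic class system in
  helper79's sense.
* `sum_cuspPi_comp` : for `θ : Γ₁ ≃* Γ₂` preserving positive parabolic elements and `f` conjugation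
  invariant on positive parabolic elements, `∑ c, f (θ (cuspPi Γ₁ c)) = ∑ c, f (cuspPi Γ₂ c)`.
* `sum_cuspPi_lift_comp`, `sum_cuspPi_lift_congr` : the same for Heisenberg lifts (this is the
  invariance (T2) of the residue pairing under conjugation by `GL₂⁺`).
* `posPar_iff_of_conj_GL` : the hypothesis on `θ` from a conjugation relation in `GL₂(ℝ)` with
  positive determinant.
-/

set_option autoImplicit false

namespace Fermat.Agent.S41.H20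

open Matrix ModularGroup Matrix.SpecialLinearGroup
open scoped MatrixGroups

theorem posPar_iff_isPosPar (g : SL(2, ℤ)) : PosPar g ↔ H79.IsPosPar g := Iff.rfl

/-- Parabolic homomorphisms kill the positive parabolic elements. -/
theorem map_eq_zero_of_posPar {Γ : Subgroup SL(2, ℤ)} {A : Type*} [AddCommGroup A]
    {φ : Additive Γ →+ A} (hφ : ModularCurve.Period.IsParabolicHom Γ φ) (ρ : Γ)
    (hρ : PosPar (ρ : SL(2, ℤ))) : φ (Additive.ofMul ρ) = 0 := by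
  apply hφ
  rw [Matrix.trace_fin_two, hρ.1]
  norm_num

section

variable (Γ : Subgroup SL(2, ℤ)) [Fintype (SL(2, ℤ) ⧸ Γ)] [DecidableEq (SL(2, ℤ) ⧸ Γ)]

/-- helper18's cusp family is a parabolic class system in helper79's sense. -/
theorem isParSystem_cuspPi (hneg : (-1 : SL(2, ℤ)) ∈ Γ) :
    H79.IsParSystem Γ (H18.cuspPi Γ hneg) := by
  have hcr := isClassReps_cuspPi Γ hneg
  have hcs := isCuspSys_cuspPi Γ hneg
  refine ⟨fun c => (hcr.1 c).1, fun i ρ k hρ hk => (hcr.1 i).2 ρ k hρ hk, fun ρ hρ => ?_⟩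
  obtain ⟨c, γ, k, hk, he⟩ := hcs.cover ρ hρ
  refine ⟨c, ⟨γ, k, hk, he⟩, ?_⟩
  rintro c₂ ⟨γ₂, k₂, hk₂, he₂⟩
  have h0 : γ₂ * H18.cuspPi Γ hneg c₂ ^ k₂ * γ₂⁻¹ = γ * H18.cuspPi Γ hneg c ^ k * γ⁻¹ := by
    rw [← he₂, he]
  have h1 : (γ⁻¹ * γ₂) * H18.cuspPi Γ hneg c₂ ^ k₂ * (γ⁻¹ * γ₂)⁻¹
      = H18.cuspPi Γ hneg c ^ k := by
    calc (γ⁻¹ * γ₂) * H18.cuspPi Γ hneg c₂ ^ k₂ * (γ⁻¹ * γ₂)⁻¹
        = γ⁻¹ * (γ₂ * H18.cuspPi Γ hneg c₂ ^ k₂ * γ₂⁻¹) * γ := by group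
      _ = γ⁻¹ * (γ * H18.cuspPi Γ hneg c ^ k * γ⁻¹) * γ := by rw [h0]
      _ = H18.cuspPi Γ hneg c ^ k := by group
  exact (hcs.rigid c₂ c k₂ k _ hk₂ hk h1).1

end

section conj

variable {Γ₁ Γ₂ : Subgroup SL(2, ℤ)}
  [Fintype (SL(2, ℤ) ⧸ Γ₁)] [DecidableEq (SL(2, ℤ) ⧸ Γ₁)]
  [Fintype (SL(2, ℤ) ⧸ Γ₂)] [DecidableEq (SL(2, ℤ) ⧸ Γ₂)]

open Finset in
/-- The cusp sum of a function that is conjugation invariant on positive parabolic elements is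
invariant under isomorphisms preserving positive parabolic elements. -/
theorem sum_cuspPi_comp (hneg₁ : (-1 : SL(2, ℤ)) ∈ Γ₁) (hneg₂ : (-1 : SL(2, ℤ)) ∈ Γ₂)
    (θ : Γ₁ ≃* Γ₂)
    (hθ : ∀ ρ : Γ₁, PosPar (ρ : SL(2, ℤ)) ↔ PosPar ((θ ρ : Γ₂) : SL(2, ℤ)))
    {A : Type*} [AddCommMonoid A] (f : Γ₂ → A)
    (hf : ∀ γ ρ : Γ₂, PosPar (ρ : SL(2, ℤ)) → f (γ * ρ * γ⁻¹) = f ρ) :
    ∑ c, f (θ (H18.cuspPi Γ₁ hneg₁ c)) = ∑ c, f (H18.cuspPi Γ₂ hneg₂ c) :=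
  H79.sum_comp_eq_of_isParSystem (isParSystem_cuspPi Γ₁ hneg₁) (isParSystem_cuspPi Γ₂ hneg₂)
    θ hθ f hf

open Finset in
/-- The cusp sum of a Heisenberg lift of two characters killing the positive parabolic elements,
transported along an isomorphism preserving positive parabolic elements. -/
theorem sum_cuspPi_lift_comp (hneg₁ : (-1 : SL(2, ℤ)) ∈ Γ₁) (hneg₂ : (-1 : SL(2, ℤ)) ∈ Γ₂)
    (θ : Γ₁ ≃* Γ₂)
    (hθ : ∀ ρ : Γ₁, PosPar (ρ : SL(2, ℤ)) ↔ PosPar ((θ ρ : Γ₂) : SL(2, ℤ)))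
    {A : Type*} [CommRing A] {φ ψ : Additive Γ₂ →+ A} {F : Γ₂ → A} (hF : H95.IsHLift φ ψ F)
    (hφ : ∀ ρ : Γ₂, PosPar (ρ : SL(2, ℤ)) → φ (Additive.ofMul ρ) = 0)
    (hψ : ∀ ρ : Γ₂, PosPar (ρ : SL(2, ℤ)) → ψ (Additive.ofMul ρ) = 0) :
    ∑ c, F (θ (H18.cuspPi Γ₁ hneg₁ c)) = ∑ c, F (H18.cuspPi Γ₂ hneg₂ c) :=
  sum_cuspPi_comp hneg₁ hneg₂ θ hθ F (fun γ ρ hρ => hF.map_conj γ ρ (hφ ρ hρ) (hψ ρ hρ))

open Finset in
/-- **(T2)**: the residue pairing is invariant under isomorphisms preserving positive parabolic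
elements: for ANY lift `F₁` of the transported characters on `Γ₁` and ANY lift `F` on `Γ₂`. -/
theorem sum_cuspPi_lift_congr (hneg₁ : (-1 : SL(2, ℤ)) ∈ Γ₁) (hneg₂ : (-1 : SL(2, ℤ)) ∈ Γ₂)
    (θ : Γ₁ ≃* Γ₂)
    (hθ : ∀ ρ : Γ₁, PosPar (ρ : SL(2, ℤ)) ↔ PosPar ((θ ρ : Γ₂) : SL(2, ℤ)))
    {A : Type*} [CommRing A] (h2 : ∀ a : A, a + a = 0 → a = 0) (h3 : ∀ a : A, 3 * a = 0 → a = 0)
    {φ ψ : Additive Γ₂ →+ A} {F : Γ₂ → A} (hF : H95.IsHLift φ ψ F)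
    (hφ : ∀ ρ : Γ₂, PosPar (ρ : SL(2, ℤ)) → φ (Additive.ofMul ρ) = 0)
    (hψ : ∀ ρ : Γ₂, PosPar (ρ : SL(2, ℤ)) → ψ (Additive.ofMul ρ) = 0)
    {F₁ : Γ₁ → A}
    (hF₁ : H95.IsHLift (φ.comp (MonoidHom.toAdditive θ.toMonoidHom))
      (ψ.comp (MonoidHom.toAdditive θ.toMonoidHom)) F₁) :
    ∑ c, F₁ (H18.cuspPi Γ₁ hneg₁ c) = ∑ c, F (H18.cuspPi Γ₂ hneg₂ c) := by
  rw [H18.sum_cuspPi_eq Γ₁ hneg₁ h2 h3 hF₁ (hF.comp θ.toMonoidHom)]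
  exact sum_cuspPi_lift_comp hneg₁ hneg₂ θ hθ hF hφ hψ

end conj

/-- The hypothesis on `θ` from a conjugation relation in `GL₂(ℝ)` with positive determinant. -/
theorem posPar_iff_of_conj_GL {Γ₁ Γ₂ : Subgroup SL(2, ℤ)} (α : GL (Fin 2) ℝ) (hα : 0 < (α : Matrix (Fin 2) (Fin 2) ℝ).det)
    (θ : Γ₁ → Γ₂)
    (h : ∀ ρ : Γ₁, α * (((ρ : SL(2, ℤ)) : SL(2, ℤ)) : GL (Fin 2) ℝ)
      = (((θ ρ : Γ₂) : SL(2, ℤ)) : GL (Fin 2) ℝ) * α) :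
    ∀ ρ : Γ₁, PosPar (ρ : SL(2, ℤ)) ↔ PosPar ((θ ρ : Γ₂) : SL(2, ℤ)) :=
  fun ρ => H79.isPosPar_conj_iff_GL α hα _ _ (h ρ)

end Fermat.Agent.S41.H20
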