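import Fermat.Agent.S41.CuspClass_helper93

/-!
# (C-CUSP): existence of class representatives in the coset / `T`-orbit form

* `exists_cycle_data`: every permutation of a finite type has cycle data `(base, len)`.
* `sum_eq_sum_cycles`: the corresponding decomposition of sums.
* `isClassReps_of_cycleData`: for `Γ ∋ -1`, cycle data of the permutation of `SL(2, ℤ) ⧸ Γ`
  induced by `T` give widths and a system of class representatives of primitive positive
  parabolic elements of `Γ`.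
* `exists_isClassReps`: existence for subgroups of finite index.
-/

namespace Fermat.Agent.S41.H93

open Matrix ModularGroup
open scoped MatrixGroups

/-- Cycle data of a permutation of a finite type. -/
theorem exists_cycle_data.{u} {X : Type u} [Finite X] (τ : Equiv.Perm X) :
    ∃ (C : Type u) (_ : Fintype C) (base : C → X) (len : C → ℕ), (∀ c, 0 < len c) ∧
      (∀ c, (τ ^ len c) (base c) = base c) ∧
      Function.Bijective (fun z : (Σ c : C, Fin (len c)) => (τ ^ (z.2 : ℕ)) (base z.1)) := by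
  classical
  have : Fintype X := Fintype.ofFinite X
  let s : Setoid X := Equiv.Perm.SameCycle.setoid τ
  have hperiodic : ∀ x : X, 0 < Function.minimalPeriod τ x := by
    intro x
    apply Function.IsPeriodicPt.minimalPeriod_pos (orderOf_pos τ)
    show (τ^[orderOf τ]) x = x
    rw [Equiv.Perm.iterate_eq_pow, pow_orderOf_eq_one]; rfl
  refine ⟨Quotient s, inferInstance, fun c : Quotient s => c.out,
    fun c : Quotient s => Function.minimalPeriod τ c.out, ?_, ?_, ⟨?_, ?_⟩⟩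
  · exact fun c => hperiodic c.out
  · intro c
    have := Function.isPeriodicPt_minimalPeriod τ c.out
    rw [← Equiv.Perm.iterate_eq_pow]; exact this
  · rintro ⟨c, k⟩ ⟨c', k'⟩ h
    have h' : (τ ^ (k : ℕ)) c.out = (τ ^ (k' : ℕ)) c'.out := h
    have hsame : τ.SameCycle c.out c'.out := by
      refine ⟨-((k' : ℕ) : ℤ) + ((k : ℕ) : ℤ), ?_⟩
      rw [_root_.zpow_add, Equiv.Perm.mul_apply, zpow_natCast, h', _root_.zpow_neg, zpow_natCast,
        Equiv.Perm.inv_eq_iff_eq]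
    have hc : c = c' :=
      (Quotient.out_eq c).symm.trans
        ((Quot.sound hsame : Quotient.mk s c.out = Quotient.mk s c'.out).trans
          (Quotient.out_eq c'))
    subst hc
    have hk : (k : ℕ) = (k' : ℕ) := by
      rw [← Equiv.Perm.iterate_eq_pow, ← Equiv.Perm.iterate_eq_pow] at h'
      exact (Function.iterate_eq_iterate_iff_of_lt_minimalPeriod k.2 k'.2).mp h'
    have : k = k' := Fin.ext hk
    rw [this]
  · intro y
    have hsame : τ.SameCycle (Quotient.mk s y).out y :=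
      Quotient.exact (Quotient.out_eq (Quotient.mk s y))
    obtain ⟨i, hi⟩ := hsame.exists_nat_pow_eq
    refine ⟨⟨Quotient.mk s y,
      ⟨i % Function.minimalPeriod τ (Quotient.mk s y).out, Nat.mod_lt _ (hperiodic _)⟩⟩, ?_⟩
    show (τ ^ (i % Function.minimalPeriod τ (Quotient.mk s y).out)) (Quotient.mk s y).out = y
    rw [← Equiv.Perm.iterate_eq_pow, Function.iterate_mod_minimalPeriod_eq,
      Equiv.Perm.iterate_eq_pow]
    exact hi

/-- Sums over a finite type decompose along cycle data. -/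
theorem sum_eq_sum_cycles {X : Type*} [Fintype X] (τ : Equiv.Perm X) {C : Type*} [Fintype C]
    (base : C → X) (len : C → ℕ)
    (hbij : Function.Bijective
      (fun z : (Σ c : C, Fin (len c)) => (τ ^ (z.2 : ℕ)) (base z.1)))
    {A : Type*} [AddCommMonoid A] (f : X → A) :
    ∑ x, f x = ∑ c, ∑ k ∈ Finset.range (len c), f ((τ ^ k) (base c)) := by
  rw [← Function.Bijective.sum_comp hbij f, Fintype.sum_sigma]
  apply Finset.sum_congr rfl
  intro c _
  rw [Finset.sum_range]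

section cosets

variable {Γ : Subgroup SL(2, ℤ)}

theorem coset_eq_iff (a b : SL(2, ℤ)) :
    ((a : SL(2, ℤ)) : SL(2, ℤ) ⧸ Γ) = (b : SL(2, ℤ) ⧸ Γ) ↔ a⁻¹ * b ∈ Γ :=
  QuotientGroup.eq

theorem perm_pow_coset (τ : Equiv.Perm (SL(2, ℤ) ⧸ Γ))
    (hτ : ∀ g : SL(2, ℤ), τ (g : SL(2, ℤ) ⧸ Γ) = ((T * g : SL(2, ℤ)) : SL(2, ℤ) ⧸ Γ))
    (k : ℕ) (g : SL(2, ℤ)) :
    (τ ^ k) (g : SL(2, ℤ) ⧸ Γ) = ((T ^ (k : ℤ) * g : SL(2, ℤ)) : SL(2, ℤ) ⧸ Γ) := by
  induction k with
  | zero => simp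
  | succ n ih =>
    rw [pow_succ', Equiv.Perm.mul_apply, ih, hτ]
    congr 1
    push_cast
    rw [add_comm, _root_.zpow_add, zpow_one, mul_assoc]

/-- **Existence, coset form.** Cycle data of the permutation of `SL(2, ℤ) ⧸ Γ` induced by `T`
give the widths and a system of class representatives. -/
theorem isClassReps_of_cycleData (hneg : (-1 : SL(2, ℤ)) ∈ Γ)
    (τ : Equiv.Perm (SL(2, ℤ) ⧸ Γ))
    (hτ : ∀ g : SL(2, ℤ), τ (g : SL(2, ℤ) ⧸ Γ) = ((T * g : SL(2, ℤ)) : SL(2, ℤ) ⧸ Γ))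
    {C : Type*} (base : C → SL(2, ℤ) ⧸ Γ) (len : C → ℕ) (hpos : ∀ c, 0 < len c)
    (hper : ∀ c, (τ ^ len c) (base c) = base c)
    (hbij : Function.Bijective
      (fun z : (Σ c : C, Fin (len c)) => (τ ^ (z.2 : ℕ)) (base z.1)))
    (t : C → SL(2, ℤ)) (ht : ∀ c, ((t c : SL(2, ℤ)) : SL(2, ℤ) ⧸ Γ) = base c) :
    ∃ hw : ∀ c, IsWidth Γ (t c) (len c), IsClassReps Γ (fun c => (hw c).gen) := by
  -- fixed points of powers
  have hfix : ∀ (c : C) (k : ℕ), (τ ^ k) (base c) = base c ↔ (t c)⁻¹ * T ^ k * t c ∈ Γ := by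
    intro c k
    rw [← ht c, perm_pow_coset τ hτ, coset_eq_iff, zpow_natCast]
    have e : (T ^ k * t c)⁻¹ * t c = ((t c)⁻¹ * T ^ k * t c)⁻¹ := by group
    rw [e, inv_mem_iff]
  have hw : ∀ c, IsWidth Γ (t c) (len c) := by
    intro c
    refine ⟨hpos c, (hfix c _).mp (hper c), ?_⟩
    intro k hk hmem
    by_contra hlt
    rw [not_le] at hlt
    have h1 : (τ ^ k) (base c) = base c := (hfix c k).mpr hmem
    have h2 : (⟨c, ⟨k, hlt⟩⟩ : Σ c : C, Fin (len c)) = ⟨c, ⟨0, hpos c⟩⟩ := hbij.1 (by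
      show (τ ^ k) (base c) = (τ ^ 0) (base c)
      rw [h1, pow_zero]; rfl)
    have h3 : k = 0 := by
      have := congrArg (fun z : (Σ c : C, Fin (len c)) => (z.2 : ℕ)) h2
      simpa using this
    omega
  refine ⟨hw, isClassReps_of_orbitReps t len hw ?_⟩
  -- every orbit relation is witnessed by a point of the cycle
  have key : ∀ (c : C) (z : SL(2, ℤ)), OrbRel Γ (t c) z →
      ∃ m : Fin (len c), (τ ^ (m : ℕ)) (base c) = (z : SL(2, ℤ) ⧸ Γ) := by
    rintro c z ⟨k, γ, hγ, hz⟩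
    have h0 : (0 : ℤ) < len c := by exact_mod_cast hpos c
    obtain ⟨r, q, hk, hnn, hlt⟩ :
        ∃ r q : ℤ, k = r + (len c : ℤ) * q ∧ 0 ≤ r ∧ r < len c :=
      ⟨k % (len c : ℤ), k / (len c : ℤ), (Int.emod_add_mul_ediv k (len c)).symm,
        Int.emod_nonneg _ h0.ne', Int.emod_lt_of_pos _ h0⟩
    subst hk
    refine ⟨⟨r.toNat, by omega⟩, ?_⟩
    show (τ ^ r.toNat) (base c) = _
    rw [← ht c, perm_pow_coset τ hτ, Int.toNat_of_nonneg hnn, coset_eq_iff]
    have hmem : (t c)⁻¹ * T ^ ((len c : ℤ) * q) * t c ∈ Γ :=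
      ((hw c).mem_iff _).mpr (dvd_mul_right _ _)
    have e1 : (T ^ r * t c)⁻¹ * (T ^ (r + (len c : ℤ) * q) * t c * γ)
        = (t c)⁻¹ * T ^ ((len c : ℤ) * q) * t c * γ := by
      rw [_root_.zpow_add]; group
    rcases hz with hz | hz
    · rw [hz, e1]
      exact Γ.mul_mem hmem hγ
    · rw [hz, mul_neg, e1]
      have : -((t c)⁻¹ * T ^ ((len c : ℤ) * q) * t c * γ)
          = (-1 : SL(2, ℤ)) * ((t c)⁻¹ * T ^ ((len c : ℤ) * q) * t c * γ) := by
        simp
      rw [this]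
      exact Γ.mul_mem hneg (Γ.mul_mem hmem hγ)
  intro z
  obtain ⟨⟨c, m⟩, hm⟩ := hbij.2 (z : SL(2, ℤ) ⧸ Γ)
  have hm' : (τ ^ (m : ℕ)) (base c) = (z : SL(2, ℤ) ⧸ Γ) := hm
  refine ⟨c, ?_, ?_⟩
  · rw [← ht c, perm_pow_coset τ hτ, coset_eq_iff] at hm'
    exact ⟨(m : ℕ), _, hm', Or.inl (by group)⟩
  · intro c' hc'
    obtain ⟨m', hm''⟩ := key c' z hc'
    have h2 : (⟨c', m'⟩ : Σ c : C, Fin (len c)) = ⟨c, m⟩ := hbij.1 (by
      show (τ ^ (m' : ℕ)) (base c') = (τ ^ (m : ℕ)) (base c)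
      rw [hm'', hm'])
    exact congrArg Sigma.fst h2

/-- **Existence.** A subgroup of finite index containing `-1` has a finite system of class
representatives of primitive positive parabolic elements, given by widths. -/
theorem exists_isClassReps (Γ : Subgroup SL(2, ℤ)) [Γ.FiniteIndex]
    (hneg : (-1 : SL(2, ℤ)) ∈ Γ) :
    ∃ (C : Type) (_ : Fintype C) (t : C → SL(2, ℤ)) (h : C → ℕ)
      (hw : ∀ c, IsWidth Γ (t c) (h c)), IsClassReps Γ (fun c => (hw c).gen) := by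
  obtain ⟨C, hC, base, len, hpos, hper, hbij⟩ :=
    exists_cycle_data (MulAction.toPerm (T : SL(2, ℤ)) : Equiv.Perm (SL(2, ℤ) ⧸ Γ))
  obtain ⟨hw, hcr⟩ := isClassReps_of_cycleData hneg
    (MulAction.toPerm (T : SL(2, ℤ)) : Equiv.Perm (SL(2, ℤ) ⧸ Γ)) (fun g => rfl)
    base len hpos hper hbij (fun c => (base c).out) (fun c => QuotientGroup.out_eq' _)
  exact ⟨C, hC, fun c => (base c).out, len, hw, hcr⟩

end cosets

end Fermat.Agent.S41.H93
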