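import Fermat.Agent.S41.CuspClass_helper93
import Fermat.Agent.S41.PDFib_helper17

/-!
# (C-CUSP) → (C-FIB): class representatives form a cusp system

`isCuspSys_of_isClassReps`: for `Γ ≤ SL(2, ℤ)` containing `-1`, every system of class
representatives of primitive positive parabolic elements is an `H17.IsCuspSys` (cover + rigidity),
and `residue_cores`: the projection formula (T1) for class representatives of `Γ' ≤ Γ`.
-/

namespace Fermat.Agent.S41.H93

open Matrix ModularGroup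
open scoped MatrixGroups

theorem isCuspSys_of_isClassReps {Γ : Subgroup SL(2, ℤ)} (hneg : (-1 : SL(2, ℤ)) ∈ Γ)
    {ι : Type*} {π : ι → Γ} (hπ : IsClassReps Γ π) :
    H17.IsCuspSys (fun γ : Γ => PosPar (γ : SL(2, ℤ)))
      (Subgroup.zpowers (⟨-1, hneg⟩ : Γ)) π where
  pos := fun c => (hπ.1 c).1
  cover := by
    intro t ht
    obtain ⟨π₀, k, hπ₀, hk, rfl⟩ := exists_root t ht
    obtain ⟨c, ⟨g, hg⟩, -⟩ := hπ.2 π₀ hπ₀
    exact ⟨c, g, k, hk, by rw [← hg, conj_pow]⟩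
  rigid := by
    intro c c' k k' γ hk hk' h
    have h1 : (γ * π c * γ⁻¹) ^ k = π c' ^ k' := by rw [conj_pow]; exact h
    obtain ⟨e1, e2⟩ := root_unique ((hπ.1 c).conj γ) (hπ.1 c') hk hk' h1
    obtain ⟨i, -, hiu⟩ := hπ.2 (π c') (hπ.1 c')
    have hc : c = c' := (hiu c ⟨γ, e1⟩).trans (hiu c' ⟨1, by group⟩).symm
    subst hc
    refine ⟨rfl, e2, ?_⟩
    obtain ⟨t, w, hw, hgen⟩ := exists_gen_of_isPrim (hπ.1 c)
    have hcomm : (γ : SL(2, ℤ)) * (t⁻¹ * T ^ (w : ℤ) * t) = (t⁻¹ * T ^ (w : ℤ) * t) * γ := by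
      rw [← hw.coe_gen, ← hgen]
      have e3 : γ * π c = π c * γ := by
        calc γ * π c = (γ * π c * γ⁻¹) * γ := by group
          _ = π c * γ := by rw [e1]
      exact congrArg Subtype.val e3
    obtain ⟨j, hj | hj⟩ := hw.centralizer hneg γ w (by exact_mod_cast hw.1.ne') hcomm
    · refine ⟨j, 1, one_mem _, ?_⟩
      rw [one_mul, hgen]
      exact Subtype.ext hj
    · refine ⟨j, ⟨-1, hneg⟩, Subgroup.mem_zpowers _, ?_⟩
      rw [hgen]
      apply Subtype.ext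
      rw [hj, Subgroup.coe_mul]
      simp

/-- **(T1)** The projection formula for class representatives: for `Γ' ≤ Γ` (through `i'`),
transfer data `al, sig, g'`, class representatives `π` of `Γ` and `π'` of `Γ'`, and a Heisenberg
lift `F'` of `(res φ, ψ')`, the cusp sum of the pushed-forward lift over `π` is the cusp sum of
`F'` over `π'`. -/
theorem residue_cores {Γ Γ' : Subgroup SL(2, ℤ)} (hneg : (-1 : SL(2, ℤ)) ∈ Γ')
    {X A : Type*} [CommRing A] [Fintype X] [Nonempty X]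
    {i' : Γ' →* Γ} (hi' : ∀ a : Γ', ((i' a : Γ) : SL(2, ℤ)) = a)
    {al : X → Γ} {sig : Γ → Equiv.Perm X} {g' : Γ → X → Γ'}
    (h : H17.IsTransferData i' al sig g')
    {C C' : Type*} [Fintype C] [Fintype C'] {π : C → Γ} {π' : C' → Γ'}
    (hπ : IsClassReps Γ π) (hπ' : IsClassReps Γ' π')
    (φ : Additive Γ →+ A) (φ' ψ' : Additive Γ' →+ A)
    (hφ' : ∀ a : Γ', φ' (Additive.ofMul a) = φ (Additive.ofMul (i' a)))
    {F' : Γ' → A} (hF' : H17.IsHLift φ' ψ' F')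
    (hφ : ∀ c, φ (Additive.ofMul (π c)) = 0) (hψ' : ∀ c', ψ' (Additive.ofMul (π' c')) = 0) :
    ∑ c, H17.coresLift al g' φ ψ' F' (π c) = ∑ c', F' (π' c') := by
  have hnegΓ : (-1 : SL(2, ℤ)) ∈ Γ := by
    have := (i' ⟨-1, hneg⟩).2
    rwa [hi'] at this
  have hP' : (fun t' : Γ' => PosPar ((i' t' : Γ) : SL(2, ℤ)))
      = fun t' : Γ' => PosPar (t' : SL(2, ℤ)) := by
    funext t'; rw [hi']
  refine H17.residue_cores_eq_of_cuspSys h (fun γ : Γ => PosPar (γ : SL(2, ℤ))) ?_ ?_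
    (Subgroup.zpowers (⟨-1, hnegΓ⟩ : Γ)) ?_ ?_ (Subgroup.zpowers (⟨-1, hneg⟩ : Γ'))
    (isCuspSys_of_isClassReps hnegΓ hπ) ?_ φ φ' ψ' hφ' hF' hφ hψ'
  · intro g t ht
    show PosPar ((g : SL(2, ℤ)) * t * (g : SL(2, ℤ))⁻¹)
    rw [posPar_conj]; exact ht
  · intro t n ht hn
    show PosPar (((t ^ n : Γ)) : SL(2, ℤ))
    rw [Subgroup.coe_pow]
    exact posPar_pow _ n ht hn
  · intro z hz g
    obtain ⟨j, rfl⟩ := Subgroup.mem_zpowers_iff.mp hz
    have hc : Commute (⟨-1, hnegΓ⟩ : Γ) g := by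
      apply Subtype.ext; simp [Subgroup.coe_mul]
    exact (hc.zpow_left j).eq
  · intro z hz
    obtain ⟨j, rfl⟩ := Subgroup.mem_zpowers_iff.mp hz
    refine ⟨⟨-1, hneg⟩ ^ j, ?_⟩
    rw [map_zpow]; congr 1; apply Subtype.ext; rw [hi']
  · rw [hP']; exact isCuspSys_of_isClassReps hneg hπ'

end Fermat.Agent.S41.H93
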