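/-
S41, node (C)/(4): "dual Ihara from a Poincare-duality MAP" (helper57).

Design-agnostic adapter.  It produces the literal `hDual` conclusion of
`Fermat.Agent.S41.H71.lr_core` WITHOUT any pairing on `L × L`, without
non-degeneracy at the upper level and without any finiteness hypothesis:
all that is needed is an additive map `D : G →+ L` from (the additive
version of) the group to the lattice of parabolic homs, whose image
contains `c • L` for some `c` prime to `p`, together with the projection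
formula `j (D' δ) = (D (a δ), D (b δ))`.

Mathlib only.
-/
import Mathlib

set_option autoImplicit false

namespace Fermat.Agent.S41.H57

/-- A nonzero vector of an `𝔽_p`-vector space is detected by an additive functional. -/
theorem exists_addHom_ne_zero {V : Type*} [AddCommGroup V] (p : ℕ) [Fact p.Prime]
    [Module (ZMod p) V] {x : V} (hx : x ≠ 0) : ∃ f : V →+ ZMod p, f x ≠ 0 := by
  obtain ⟨f, hf⟩ := Module.Projective.exists_dual_ne_zero (ZMod p) hx
  exact ⟨f.toAddMonoidHom, hf⟩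

/-- Separating `𝔽_p`-functional: if `p Λ ⊆ W` and `x ∉ W` there is an additive
`μ : Λ → ZMod p` killing `W` with `μ x ≠ 0`. -/
theorem exists_sep_zmod {Λ : Type*} [AddCommGroup Λ] (p : ℕ) [Fact p.Prime]
    (W : AddSubgroup Λ) (hW : ∀ v : Λ, (p : ℤ) • v ∈ W) (x : Λ) (hx : x ∉ W) :
    ∃ μ : Λ →+ ZMod p, (∀ w ∈ W, μ w = 0) ∧ μ x ≠ 0 := by
  have hne : NeZero p := ⟨(Fact.out : p.Prime).ne_zero⟩
  have hW' : ∀ v : Λ, p • v ∈ W := fun v => by
    have := hW v
    rwa [natCast_zsmul] at this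
  let inst : Module (ZMod p) (Λ ⧸ W) := QuotientAddGroup.zmodModule (n := p) hW'
  have hx' : (QuotientAddGroup.mk x : Λ ⧸ W) ≠ 0 := by
    rwa [Ne, QuotientAddGroup.eq_zero_iff]
  obtain ⟨f, hf⟩ := @exists_addHom_ne_zero (Λ ⧸ W) _ p _ inst _ hx'
  refine ⟨f.comp (QuotientAddGroup.mk' W), ?_, hf⟩
  intro w hw
  have h0 : (QuotientAddGroup.mk w : Λ ⧸ W) = 0 := (QuotientAddGroup.eq_zero_iff w).mpr hw
  show f (QuotientAddGroup.mk w) = 0
  rw [h0, map_zero]

/-- **Dual Ihara from a duality map.**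

* `L`, `L'` : the lattices of parabolic homs at levels `N`, `N q` (any `R`-modules);
* `j : L' → L × L` the pair of corestrictions, `r₀` the Hecke element `T_r - (r+1)`;
* `G` : the additive version of `Γ₀(N)` (any additive monoid), `G'` the one of `Γ₀(N q)` (any type);
* `D : G →+ L`, `D' : G' → L'` the duality maps `γ ↦ ⟨γ, ·⟩`;
* `a b : G' → G` the two degeneracy maps on group elements (inclusion, conjugation by `η`);
* `hj` : projection formula;  `hPDS` : `c L ⊆ im D` with `p ∤ c`;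
* `t` : the operator `T_r - (r+1)` on `𝔽_p`-characters of `G`, `ht` its compatibility with `D`;
* `hIH` : Ihara's lemma + Eisenstein eigenvalue, for pairs of characters that factor through `D`.
-/
theorem hDual_of_pdMap
    {R L L' : Type*} [CommRing R] [AddCommGroup L] [Module R L] [AddCommGroup L'] [Module R L']
    (p : ℕ) [Fact p.Prime] (j : L' →ₗ[R] (L × L)) (r₀ : R)
    {G G' : Type*} [AddZeroClass G]
    (D : G →+ L) (D' : G' → L') (a b : G' → G)
    (hj : ∀ δ : G', j (D' δ) = (D (a δ), D (b δ)))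
    (c : ℤ) (hc : ¬ (p : ℤ) ∣ c) (hPDS : ∀ x : L, ∃ g : G, c • x = D g)
    (t : (G →+ ZMod p) → (G →+ ZMod p))
    (ht : ∀ (μ : L →+ ZMod p) (g : G), t (μ.comp D) g = μ (r₀ • D g))
    (hIH : ∀ φ₁ φ₂ : G →+ ZMod p, (∀ g, D g = 0 → φ₁ g = 0) → (∀ g, D g = 0 → φ₂ g = 0) →
        (∀ δ : G', φ₁ (a δ) = φ₂ (b δ)) → t φ₁ = 0 ∧ t φ₂ = 0) :
    ∀ u : L × L, ∃ (y : L') (v : L × L), r₀ • u = j y + (p : ℤ) • v := by
  classical
  intro u
  -- the subgroup `W = im j + p (L × L)`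
  let W : AddSubgroup (L × L) :=
    { carrier := {w | ∃ (y : L') (v : L × L), w = j y + (p : ℤ) • v}
      zero_mem' := ⟨0, 0, by simp⟩
      add_mem' := by
        rintro _ _ ⟨y₁, v₁, rfl⟩ ⟨y₂, v₂, rfl⟩
        exact ⟨y₁ + y₂, v₁ + v₂, by rw [map_add, smul_add]; abel⟩
      neg_mem' := by
        rintro _ ⟨y, v, rfl⟩
        exact ⟨-y, -v, by rw [map_neg, smul_neg]; abel⟩ }
  by_contra hu
  have hx : r₀ • u ∉ W := fun ⟨y, v, h⟩ => hu ⟨y, v, h⟩
  have hW : ∀ v : L × L, (p : ℤ) • v ∈ W := fun v => ⟨0, v, by simp⟩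
  obtain ⟨μ, hμW, hμx⟩ := exists_sep_zmod p W hW (r₀ • u) hx
  -- the two components of `μ`
  let μ₁ : L →+ ZMod p := μ.comp (AddMonoidHom.inl L L)
  let μ₂ : L →+ ZMod p := μ.comp (AddMonoidHom.inr L L)
  have hμ : ∀ x y : L, μ (x, y) = μ₁ x + μ₂ y := by
    intro x y
    have : ((x, y) : L × L) = (x, 0) + (0, y) := by simp
    rw [this, map_add]; rfl
  -- the two characters
  have hcond : ∀ δ : G', (μ₁.comp D) (a δ) = ((-μ₂).comp D) (b δ) := by
    intro δ
    have h1 : μ (j (D' δ)) = 0 := hμW _ ⟨D' δ, 0, by simp⟩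
    rw [hj, hμ] at h1
    show μ₁ (D (a δ)) = -(μ₂ (D (b δ)))
    exact eq_neg_of_add_eq_zero_left h1
  obtain ⟨h1, h2⟩ := hIH (μ₁.comp D) ((-μ₂).comp D)
    (fun g hg => by show μ₁ (D g) = 0; rw [hg, map_zero])
    (fun g hg => by show (-μ₂) (D g) = 0; rw [hg, map_zero]) hcond
  -- `μ₁ ∘ r₀` and `μ₂ ∘ r₀` vanish on `im D`
  have e1 : ∀ g : G, μ₁ (r₀ • D g) = 0 := fun g => by
    rw [← ht μ₁ g, h1]; rfl
  have e2 : ∀ g : G, μ₂ (r₀ • D g) = 0 := fun g => by
    have := ht (-μ₂) g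
    rw [h2] at this
    have h3 : (-μ₂) (r₀ • D g) = 0 := this.symm
    have h4 : -(μ₂ (r₀ • D g)) = 0 := h3
    exact neg_eq_zero.mp h4
  -- hence on all of `L`, because `c` is a unit mod `p`
  have hcu : ((c : ℤ) : ZMod p) ≠ 0 := by
    rw [Ne, ZMod.intCast_zmod_eq_zero_iff_dvd]; exact hc
  have key : ∀ (ν : L →+ ZMod p), (∀ g : G, ν (r₀ • D g) = 0) → ∀ x : L, ν (r₀ • x) = 0 := by
    intro ν hν x
    obtain ⟨g, hg⟩ := hPDS x
    have h5 : ν (r₀ • (c • x)) = 0 := by rw [hg]; exact hν g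
    rw [smul_comm, map_zsmul, zsmul_eq_mul] at h5
    exact (mul_eq_zero.mp h5).resolve_left hcu
  apply hμx
  have : r₀ • u = (r₀ • u.1, r₀ • u.2) := rfl
  rw [this, hμ, key μ₁ e1, key μ₂ e2, add_zero]

end Fermat.Agent.S41.H57
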