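import Mathlib
import Fermat.Agent.S29.TransferDef_helper6
import Fermat.Agent.S41.IhStmt_helper39

/-!
# S41, leaf (EIS) + (IHC) (helper74): Eisenstein eigenvalues and the consumer form of Ihara's lemma

* `isHeckeTr_eis` : an additive character `ψ` of `Γ₀(N)` which vanishes on the elements with
  upper left entry `≡ 1 (mod N)` (i.e. `ψ` factors through `γ ↦ a(γ) mod N`) satisfies
  `T_ℓ ψ = (ℓ + 1) ψ` for every prime `ℓ ∤ N` (Hecke transfer of the landed `S29.H06.IsHeckeTr`).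
* `ihara_eisenstein` : consumer form of Ihara's lemma `H39.IhAt`: if `φ₁, φ₂ : Γ₀(N) → ℤ` kill
  `[[1,1],[0,1]]`, `[[1,0],[N,1]]` and `φ₁ g + φ₂ (η g η⁻¹) ≡ 0 (mod p)` on `Γ₀(Nq)`, then
  `T_ℓ φᵢ ≡ (ℓ + 1) φᵢ (mod p)` for every prime `ℓ ∤ N`, and `φ₁ + φ₂ ≡ 0 (mod p)`.
-/

set_option autoImplicit false

namespace Fermat.Agent.S41.H74

open CongruenceSubgroup
open scoped MatrixGroups
open Fermat.Agent.S22 Fermat.Agent.S29 Fermat.Agent.S41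

/-! ### The upper left entry modulo `N` -/

/-- The upper left entry of an element of `Γ₀(N)`, modulo `N`. -/
def aN (N : ℕ) (γ : Gamma0 N) : ZMod N := (((γ : SL(2, ℤ)) 0 0 : ℤ) : ZMod N)

theorem c_eq_zero {N : ℕ} (γ : Gamma0 N) : ((((γ : SL(2, ℤ)) 1 0 : ℤ)) : ZMod N) = 0 :=
  Gamma0_mem.mp γ.2

theorem aN_mul {N : ℕ} (γ δ : Gamma0 N) : aN N (γ * δ) = aN N γ * aN N δ := by
  unfold aN
  have h : ((γ * δ : Gamma0 N) : SL(2, ℤ)) 0 0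
      = (γ : SL(2, ℤ)) 0 0 * (δ : SL(2, ℤ)) 0 0 + (γ : SL(2, ℤ)) 0 1 * (δ : SL(2, ℤ)) 1 0 := by
    rw [Subgroup.coe_mul, Matrix.SpecialLinearGroup.coe_mul, Matrix.mul_apply, Fin.sum_univ_two]
  rw [h]
  push_cast
  rw [c_eq_zero δ, mul_zero, add_zero]

theorem aN_one {N : ℕ} : aN N 1 = 1 := by
  unfold aN
  simp

theorem aN_pow {N : ℕ} (γ : Gamma0 N) (n : ℕ) : aN N (γ ^ n) = aN N γ ^ n := by
  induction n with
  | zero => rw [pow_zero, pow_zero, aN_one]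
  | succ n ih => rw [pow_succ, pow_succ, aN_mul, ih]

theorem aN_mul_d {N : ℕ} (γ : Gamma0 N) :
    aN N γ * ((((γ : SL(2, ℤ)) 1 1 : ℤ)) : ZMod N) = 1 := by
  unfold aN
  have hdet : (γ : SL(2, ℤ)) 0 0 * (γ : SL(2, ℤ)) 1 1 - (γ : SL(2, ℤ)) 0 1 * (γ : SL(2, ℤ)) 1 0 = 1 := by
    have := (γ : SL(2, ℤ)).2
    rw [Matrix.det_fin_two] at this
    exact this
  have h2 : (((γ : SL(2, ℤ)) 0 0 * (γ : SL(2, ℤ)) 1 1
      - (γ : SL(2, ℤ)) 0 1 * (γ : SL(2, ℤ)) 1 0 : ℤ) : ZMod N) = ((1 : ℤ) : ZMod N) := by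
    rw [hdet]
  push_cast at h2
  rw [c_eq_zero γ, mul_zero, sub_zero] at h2
  exact h2

theorem aN_inv {N : ℕ} (γ : Gamma0 N) : aN N γ⁻¹ = ((((γ : SL(2, ℤ)) 1 1 : ℤ)) : ZMod N) := by
  unfold aN
  have h : ((γ⁻¹ : Gamma0 N) : SL(2, ℤ)) 0 0 = (γ : SL(2, ℤ)) 1 1 := by
    rw [Subgroup.coe_inv, Matrix.SpecialLinearGroup.coe_inv, Matrix.adjugate_fin_two]
    simp
  rw [h]

/-- A character vanishing on `{a ≡ 1}` depends only on `a mod N`. -/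
theorem eq_of_aN_eq {N : ℕ} {A : Type*} [AddCommGroup A] {ψ : Additive (Gamma0 N) →+ A}
    (hψ : ∀ γ : Gamma0 N, (((γ : SL(2, ℤ)) 0 0 : ℤ) : ZMod N) = 1 → ψ (Additive.ofMul γ) = 0)
    {γ δ : Gamma0 N} (h : aN N γ = aN N δ) :
    ψ (Additive.ofMul γ) = ψ (Additive.ofMul δ) := by
  have h1 : aN N (γ * δ⁻¹) = 1 := by
    rw [aN_mul, aN_inv, h, aN_mul_d]
  have h2 := hψ (γ * δ⁻¹) h1
  have h3 : ψ (Additive.ofMul (γ * δ⁻¹)) = ψ (Additive.ofMul γ) - ψ (Additive.ofMul δ) := by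
    rw [ofMul_mul, map_add, ofMul_inv, map_neg, sub_eq_add_neg]
  rw [h3, sub_eq_zero] at h2
  exact h2

/-- An element of `Γ₀(N)` with upper left entry `ℓ`, for `ℓ` coprime to `N`. -/
theorem exists_aN_eq {N ℓ : ℕ} (h : Nat.Coprime ℓ N) : ∃ δ : Gamma0 N, aN N δ = (ℓ : ZMod N) := by
  have hc : IsCoprime (ℓ : ℤ) (N : ℤ) := Nat.isCoprime_iff_coprime.mpr h
  obtain ⟨u, v, huv⟩ := hc
  -- u * ℓ + v * N = 1 : the matrix [[ℓ, -v],[N, u]]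
  refine ⟨⟨H39.mkSL (ℓ : ℤ) (-v) (N : ℤ) u (by linarith), H39.mkSL_mem_Gamma0 N _ _ _ _ _ dvd_rfl⟩, ?_⟩
  unfold aN
  simp [H39.mkSL]

/-! ### The Hecke representatives modulo `N` -/

/-- Exponent of `ℓ` in the upper left entry of `repT ℓ x`. -/
def eT {ℓ : ℕ} : Option (Fin ℓ) → ℕ
  | none => 1
  | some _ => 0

theorem repT_zero_zero {ℓ : ℕ} (hℓ : ℓ ≠ 0) (x : Option (Fin ℓ)) :
    H56.repT ℓ x 0 0 = ((ℓ : ℤ) : ℝ) ^ eT x := by
  cases x with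
  | none =>
    have h := (H56.heckeDiagMatrix_entries hℓ).1
    simpa [eT, H56.repT] using h
  | some j =>
    have h := (H56.heckeMatrix_entries hℓ j).1
    simpa [eT, H56.repT] using h

theorem repT_zero_one {ℓ : ℕ} (hℓ : ℓ ≠ 0) (x : Option (Fin ℓ)) :
    ∃ b : ℤ, H56.repT ℓ x 0 1 = (b : ℝ) := by
  cases x with
  | none =>
    have h := (H56.heckeDiagMatrix_entries hℓ).2.1
    exact ⟨0, by simpa [H56.repT] using h⟩
  | some j =>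
    have h := (H56.heckeMatrix_entries hℓ j).2.1
    exact ⟨(j : ℕ), by simpa [H56.repT] using h⟩

/-- The upper left entries in a Hecke decomposition, modulo `N`. -/
theorem aN_decomp {N ℓ : ℕ} (hℓ : ℓ ≠ 0) {γ : Gamma0 N} {σ : Equiv.Perm (Option (Fin ℓ))}
    {g' : Option (Fin ℓ) → Gamma0 N} (hd : H06.IsDecomp N ℓ γ σ g') (x : Option (Fin ℓ)) :
    (ℓ : ZMod N) ^ eT x * aN N γ = aN N (g' x) * (ℓ : ZMod N) ^ eT (σ x) := by
  have e : H56.repT ℓ x 0 0 * (((γ : SL(2, ℤ)) 0 0 : ℤ) : ℝ)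
      + H56.repT ℓ x 0 1 * (((γ : SL(2, ℤ)) 1 0 : ℤ) : ℝ)
      = (((g' x : SL(2, ℤ)) 0 0 : ℤ) : ℝ) * H56.repT ℓ (σ x) 0 0
        + (((g' x : SL(2, ℤ)) 0 1 : ℤ) : ℝ) * H56.repT ℓ (σ x) 1 0 := by
    have := congrArg (fun A : GL (Fin 2) ℝ => (A : Matrix (Fin 2) (Fin 2) ℝ) 0 0) (hd x)
    simp only [Matrix.GeneralLinearGroup.coe_mul, Matrix.mul_apply, Fin.sum_univ_two] at this
    exact this
  obtain ⟨b, hb⟩ := repT_zero_one hℓ x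
  rw [repT_zero_zero hℓ x, repT_zero_zero hℓ (σ x), hb, H56.repT_apply_one_zero (σ x), mul_zero,
    add_zero] at e
  have e' : (ℓ : ℤ) ^ eT x * (γ : SL(2, ℤ)) 0 0 + b * (γ : SL(2, ℤ)) 1 0
      = (g' x : SL(2, ℤ)) 0 0 * (ℓ : ℤ) ^ eT (σ x) := by
    exact_mod_cast e
  have e'' : (((ℓ : ℤ) ^ eT x * (γ : SL(2, ℤ)) 0 0 + b * (γ : SL(2, ℤ)) 1 0 : ℤ) : ZMod N)
      = (((g' x : SL(2, ℤ)) 0 0 * (ℓ : ℤ) ^ eT (σ x) : ℤ) : ZMod N) := by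
    rw [e']
  push_cast at e''
  rw [c_eq_zero γ, mul_zero, add_zero] at e''
  exact e''

/-- **(EIS)** A character of `Γ₀(N)` vanishing on `{a ≡ 1 mod N}` is an eigenvector of every
Hecke transfer `T_ℓ`, `ℓ ∤ N`, with the Eisenstein eigenvalue `ℓ + 1`. -/
theorem isHeckeTr_eis {N ℓ : ℕ} (hℓ : ℓ.Prime) (hℓN : ¬ ℓ ∣ N) {A : Type*} [AddCommGroup A]
    {ψ ψ' : Additive (Gamma0 N) →+ A}
    (hψ : ∀ γ : Gamma0 N, (((γ : SL(2, ℤ)) 0 0 : ℤ) : ZMod N) = 1 → ψ (Additive.ofMul γ) = 0)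
    (hT : H06.IsHeckeTr N ℓ ψ ψ') : ψ' = (ℓ + 1) • ψ := by
  classical
  have hℓ0 : ℓ ≠ 0 := hℓ.ne_zero
  obtain ⟨δ, hδ⟩ := exists_aN_eq ((Nat.Prime.coprime_iff_not_dvd hℓ).mpr hℓN)
  refine AddMonoidHom.ext fun γa => ?_
  obtain ⟨γ, rfl⟩ : ∃ γ : Gamma0 N, Additive.ofMul γ = γa := ⟨Additive.toMul γa, rfl⟩
  obtain ⟨σ, g', hd⟩ := H06.exists_isDecomp hℓ hℓN γ
  rw [hT γ σ g' hd]
  -- the key identity for each `x`
  have key : ∀ x, ψ (Additive.ofMul (g' x)) + eT (σ x) • ψ (Additive.ofMul δ)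
      = eT x • ψ (Additive.ofMul δ) + ψ (Additive.ofMul γ) := by
    intro x
    have h1 : aN N (g' x * δ ^ eT (σ x)) = aN N (δ ^ eT x * γ) := by
      rw [aN_mul, aN_mul, aN_pow, aN_pow, hδ]
      exact (aN_decomp hℓ0 hd x).symm
    have h2 := eq_of_aN_eq hψ h1
    rw [ofMul_mul, ofMul_mul, map_add, map_add, ofMul_pow, ofMul_pow, map_nsmul, map_nsmul] at h2
    exact h2
  have hsum : ∑ x, (ψ (Additive.ofMul (g' x)) + eT (σ x) • ψ (Additive.ofMul δ))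
      = ∑ x, (eT x • ψ (Additive.ofMul δ) + ψ (Additive.ofMul γ)) :=
    Finset.sum_congr rfl fun x _ => key x
  rw [Finset.sum_add_distrib, Finset.sum_add_distrib,
    Equiv.sum_comp σ (fun x => eT x • ψ (Additive.ofMul δ)), add_comm, add_right_inj] at hsum
  rw [hsum, Finset.sum_const, Finset.card_univ, Fintype.card_option, Fintype.card_fin]
  rfl

/-! ### The consumer form of Ihara's lemma -/

/-- Reduction modulo `p` of an integral character. -/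
def redHom {G : Type*} [AddZeroClass G] (p : ℕ) (φ : G →+ ℤ) : G →+ ZMod p :=
  (Int.castAddHom (ZMod p)).comp φ

theorem redHom_apply {G : Type*} [AddZeroClass G] (p : ℕ) (φ : G →+ ℤ) (x : G) :
    redHom p φ x = ((φ x : ℤ) : ZMod p) := rfl

/-- **(IHC)** Consumer form of Ihara's lemma.  If `φ₁, φ₂ : Γ₀(N) → ℤ` kill `[[1,1],[0,1]]` and
`[[1,0],[N,1]]` and `φ₁ g + φ₂ (η g η⁻¹) ≡ 0 (mod p)` for `g ∈ Γ₀(Nq)` (`η = diag(q,1)`; in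
other words `res φ₁ + res (φ₂ ∘ c_η)` is divisible by `p`), then for every prime `ℓ ∤ N` the
Hecke transfers satisfy `T_ℓ φᵢ ≡ (ℓ + 1) φᵢ (mod p)`, and `φ₁ + φ₂ ≡ 0 (mod p)`. -/
theorem ihara_eisenstein {N q p : ℕ} (hIh : H39.IhAt N q p)
    {ℓ : ℕ} (hℓ : ℓ.Prime) (hℓN : ¬ ℓ ∣ N)
    (φ₁ φ₂ φ₁' φ₂' : Additive (Gamma0 N) →+ ℤ)
    (h1u : φ₁ (Additive.ofMul (H39.x12 N)) = 0) (h1l : φ₁ (Additive.ofMul (H39.x21 N)) = 0)
    (h2u : φ₂ (Additive.ofMul (H39.x12 N)) = 0) (h2l : φ₂ (Additive.ofMul (H39.x21 N)) = 0)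
    (hC : ∀ g g' : Gamma0 N, H39.EtaRel q (g : SL(2, ℤ)) (g' : SL(2, ℤ)) →
      (p : ℤ) ∣ φ₁ (Additive.ofMul g) + φ₂ (Additive.ofMul g'))
    (hT1 : H06.IsHeckeTr N ℓ φ₁ φ₁') (hT2 : H06.IsHeckeTr N ℓ φ₂ φ₂') :
    (∀ γ : Gamma0 N, (p : ℤ) ∣ φ₁' (Additive.ofMul γ) - (ℓ + 1) * φ₁ (Additive.ofMul γ)) ∧
    (∀ γ : Gamma0 N, (p : ℤ) ∣ φ₂' (Additive.ofMul γ) - (ℓ + 1) * φ₂ (Additive.ofMul γ)) ∧
    (∀ γ : Gamma0 N, (p : ℤ) ∣ φ₁ (Additive.ofMul γ) + φ₂ (Additive.ofMul γ)) := by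
  -- apply Ihara to `(φ₁ mod p, -φ₂ mod p)`
  have a1 : redHom p φ₁ (Additive.ofMul (H39.x12 N)) = 0 := by
    rw [redHom_apply, h1u, Int.cast_zero]
  have a2 : redHom p φ₁ (Additive.ofMul (H39.x21 N)) = 0 := by
    rw [redHom_apply, h1l, Int.cast_zero]
  have a3 : (-(redHom p φ₂)) (Additive.ofMul (H39.x12 N)) = 0 := by
    rw [AddMonoidHom.neg_apply, redHom_apply, h2u, Int.cast_zero, neg_zero]
  have a4 : (-(redHom p φ₂)) (Additive.ofMul (H39.x21 N)) = 0 := by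
    rw [AddMonoidHom.neg_apply, redHom_apply, h2l, Int.cast_zero, neg_zero]
  have a5 : ∀ g g' : Gamma0 N, H39.EtaRel q (g : SL(2, ℤ)) (g' : SL(2, ℤ)) →
      redHom p φ₁ (Additive.ofMul g) = (-(redHom p φ₂)) (Additive.ofMul g') := by
    intro g g' hgg'
    rw [AddMonoidHom.neg_apply, redHom_apply, redHom_apply, eq_neg_iff_add_eq_zero,
      ← Int.cast_add]
    exact (ZMod.intCast_zmod_eq_zero_iff_dvd _ p).mpr (hC g g' hgg')
  obtain ⟨heq, hvan⟩ := hIh (redHom p φ₁) (-(redHom p φ₂)) a1 a2 a3 a4 a5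
  have hvan2 : ∀ γ : Gamma0 N, (((γ : SL(2, ℤ)) 0 0 : ℤ) : ZMod N) = 1 →
      redHom p φ₂ (Additive.ofMul γ) = 0 := by
    intro γ hγ
    have h := hvan γ hγ
    rw [heq, AddMonoidHom.neg_apply, neg_eq_zero] at h
    exact h
  have e1 : redHom p φ₁' = (ℓ + 1) • redHom p φ₁ :=
    isHeckeTr_eis hℓ hℓN hvan (hT1.comp (Int.castAddHom (ZMod p)))
  have e2 : redHom p φ₂' = (ℓ + 1) • redHom p φ₂ :=
    isHeckeTr_eis hℓ hℓN hvan2 (hT2.comp (Int.castAddHom (ZMod p)))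
  refine ⟨fun γ => ?_, fun γ => ?_, fun γ => ?_⟩
  · have h := congrArg (fun f : Additive (Gamma0 N) →+ ZMod p => f (Additive.ofMul γ)) e1
    simp only [AddMonoidHom.smul_apply, redHom_apply, nsmul_eq_mul] at h
    rw [← ZMod.intCast_zmod_eq_zero_iff_dvd]
    push_cast
    rw [h]
    push_cast
    ring
  · have h := congrArg (fun f : Additive (Gamma0 N) →+ ZMod p => f (Additive.ofMul γ)) e2
    simp only [AddMonoidHom.smul_apply, redHom_apply, nsmul_eq_mul] at h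
    rw [← ZMod.intCast_zmod_eq_zero_iff_dvd]
    push_cast
    rw [h]
    push_cast
    ring
  · have h := congrArg (fun f : Additive (Gamma0 N) →+ ZMod p => f (Additive.ofMul γ)) heq
    simp only [AddMonoidHom.neg_apply, redHom_apply] at h
    rw [← ZMod.intCast_zmod_eq_zero_iff_dvd]
    push_cast
    rw [h]
    ring

end Fermat.Agent.S41.H74
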