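/-
S41 / (G-B5) (helper19): Hecke-linearity of `resOp`, `coresOp`, `wOp` in the literal vocabulary
of the (G) plan: `T_ℓ = S29.H06.heckeTr`.
-/
import Fermat.Agent.S41.LevelOpsBridge_helper19
import Fermat.Agent.S29.TransferHom_helper6

set_option autoImplicit false

namespace Fermat.Agent.S41.H19

open CongruenceSubgroup
open scoped MatrixGroups

variable {A : Type*} [AddCommGroup A]

/-- `T_ℓ (res χ) = res (T_ℓ χ)`. -/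
theorem heckeTr_resOp {N q ℓ : ℕ} (hℓ : ℓ.Prime) (hℓN : ¬ ℓ ∣ N) (hℓNq : ¬ ℓ ∣ N * q)
    (χ : Additive (Gamma0 N) →+ A) :
    Fermat.Agent.S29.H06.heckeTr hℓ hℓNq (resOp N q χ)
      = resOp N q (Fermat.Agent.S29.H06.heckeTr hℓ hℓN χ) := by
  rw [← tOp_eq_heckeTr, ← tOp_eq_heckeTr]
  exact tOp_resOp hℓ hℓNq χ

/-- `cores (T_ℓ ψ) = T_ℓ (cores ψ)`. -/
theorem coresOp_heckeTr {N q ℓ : ℕ} (hq : q.Prime) (hqN : ¬ q ∣ N) (hℓ : ℓ.Prime)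
    (hℓN : ¬ ℓ ∣ N) (hℓNq : ¬ ℓ ∣ N * q) (ψ : Additive (Gamma0 (N * q)) →+ A) :
    coresOp hq hqN (Fermat.Agent.S29.H06.heckeTr hℓ hℓNq ψ)
      = Fermat.Agent.S29.H06.heckeTr hℓ hℓN (coresOp hq hqN ψ) := by
  rw [← tOp_eq_heckeTr, ← tOp_eq_heckeTr]
  exact coresOp_tOp hq hqN hℓ hℓNq ψ

/-- `T_ℓ (w ψ) = w (T_ℓ ψ)`. -/
theorem heckeTr_wOp {N q ℓ : ℕ} (hq : q.Prime) (hqN : ¬ q ∣ N) (hℓ : ℓ.Prime)
    (hℓNq : ¬ ℓ ∣ N * q) (ψ : Additive (Gamma0 (N * q)) →+ A) :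
    Fermat.Agent.S29.H06.heckeTr hℓ hℓNq (wOp hq hqN ψ)
      = wOp hq hqN (Fermat.Agent.S29.H06.heckeTr hℓ hℓNq ψ) := by
  rw [← tOp_eq_heckeTr, ← tOp_eq_heckeTr]
  exact tOp_wOp hq hqN hℓ hℓNq ψ

/-- `i` commutes with `T_ℓ` (heckeTr form). -/
theorem heckeTr_iOp {N q ℓ : ℕ} (hq : q.Prime) (hqN : ¬ q ∣ N) (hℓ : ℓ.Prime)
    (hℓN : ¬ ℓ ∣ N) (hℓNq : ¬ ℓ ∣ N * q) (x y : Additive (Gamma0 N) →+ A) :
    Fermat.Agent.S29.H06.heckeTr hℓ hℓNq (resOp N q x + wOp hq hqN (resOp N q y))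
      = resOp N q (Fermat.Agent.S29.H06.heckeTr hℓ hℓN x)
        + wOp hq hqN (resOp N q (Fermat.Agent.S29.H06.heckeTr hℓ hℓN y)) := by
  rw [map_add, heckeTr_resOp hℓ hℓN hℓNq, heckeTr_wOp hq hqN hℓ hℓNq,
    heckeTr_resOp hℓ hℓN hℓNq]

/-- `j` commutes with `T_ℓ` (heckeTr form), second component. -/
theorem coresOp_wOp_heckeTr {N q ℓ : ℕ} (hq : q.Prime) (hqN : ¬ q ∣ N) (hℓ : ℓ.Prime)
    (hℓN : ¬ ℓ ∣ N) (hℓNq : ¬ ℓ ∣ N * q) (ψ : Additive (Gamma0 (N * q)) →+ A) :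
    coresOp hq hqN (wOp hq hqN (Fermat.Agent.S29.H06.heckeTr hℓ hℓNq ψ))
      = Fermat.Agent.S29.H06.heckeTr hℓ hℓN (coresOp hq hqN (wOp hq hqN ψ)) := by
  rw [← heckeTr_wOp hq hqN hℓ hℓNq, coresOp_heckeTr hq hqN hℓ hℓN hℓNq]

/-- `j ∘ i` in heckeTr form, first component. -/
theorem coresOp_i_heckeTr {N q : ℕ} (hq : q.Prime) (hqN : ¬ q ∣ N)
    (x y : Additive (Gamma0 N) →+ A) :
    coresOp hq hqN (resOp N q x + wOp hq hqN (resOp N q y))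
      = (q + 1) • x + Fermat.Agent.S29.H06.heckeTr hq hqN y := by
  rw [coresOp_i, tOp_eq_heckeTr]

/-- `j ∘ i` in heckeTr form, second component. -/
theorem coresOp_wOp_i_heckeTr {N q : ℕ} (hq : q.Prime) (hqN : ¬ q ∣ N)
    (x y : Additive (Gamma0 N) →+ A) :
    coresOp hq hqN (wOp hq hqN (resOp N q x + wOp hq hqN (resOp N q y)))
      = Fermat.Agent.S29.H06.heckeTr hq hqN x + (q + 1) • y := by
  rw [coresOp_wOp_i, tOp_eq_heckeTr]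

end Fermat.Agent.S41.H19
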