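/-
S41 / node (G-B5) (helper6): the Hecke-linearity of `res`, `cores`, `w`, `i`, `j` in the
vocabulary fixed by (G) (#2456): `T_ℓ = S29.H06.heckeTr`, operators `H19.resOp`, `H19.coresOp`,
`H19.wOp`, `H19.iOp`, `H19.jOp`.  Pure restatements of `LevelOpsBridge_helper19`
(`tOp_resOp`, `coresOp_tOp`, `tOp_wOp`, `tOp_iOp`, `jOp_tOp`, `jOp_iOp`) through
`H19.tOp_eq_heckeTr`.
-/
import Fermat.Agent.S41.LevelOpsBridge_helper19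

set_option autoImplicit false

namespace Fermat.Agent.S41.H06

open CongruenceSubgroup
open scoped MatrixGroups

section GB5

variable {N q ℓ : ℕ} {A : Type*} [AddCommGroup A]

/-- (5a) `T_ℓ (res χ) = res (T_ℓ χ)`. -/
theorem heckeTr_resOp (hℓ : ℓ.Prime) (hℓN : ¬ ℓ ∣ N) (hℓNq : ¬ ℓ ∣ N * q)
    (χ : Additive (Gamma0 N) →+ A) :
    Fermat.Agent.S29.H06.heckeTr hℓ hℓNq (H19.resOp N q χ)
      = H19.resOp N q (Fermat.Agent.S29.H06.heckeTr hℓ hℓN χ) := by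
  rw [← H19.tOp_eq_heckeTr, ← H19.tOp_eq_heckeTr, H19.tOp_resOp]

/-- (5b) `cores (T_ℓ ψ) = T_ℓ (cores ψ)`. -/
theorem coresOp_heckeTr (hq : q.Prime) (hqN : ¬ q ∣ N) (hℓ : ℓ.Prime) (hℓN : ¬ ℓ ∣ N)
    (hℓNq : ¬ ℓ ∣ N * q) (ψ : Additive (Gamma0 (N * q)) →+ A) :
    H19.coresOp hq hqN (Fermat.Agent.S29.H06.heckeTr hℓ hℓNq ψ)
      = Fermat.Agent.S29.H06.heckeTr hℓ hℓN (H19.coresOp hq hqN ψ) := by
  rw [← H19.tOp_eq_heckeTr, ← H19.tOp_eq_heckeTr, H19.coresOp_tOp]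

/-- (5c) `T_ℓ (w ψ) = w (T_ℓ ψ)`. -/
theorem heckeTr_wOp (hq : q.Prime) (hqN : ¬ q ∣ N) (hℓ : ℓ.Prime) (hℓNq : ¬ ℓ ∣ N * q)
    (ψ : Additive (Gamma0 (N * q)) →+ A) :
    Fermat.Agent.S29.H06.heckeTr hℓ hℓNq (H19.wOp hq hqN ψ)
      = H19.wOp hq hqN (Fermat.Agent.S29.H06.heckeTr hℓ hℓNq ψ) := by
  rw [← H19.tOp_eq_heckeTr, ← H19.tOp_eq_heckeTr, H19.tOp_wOp]

/-- `T_ℓ (i (x, y)) = i (T_ℓ x, T_ℓ y)`. -/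
theorem heckeTr_iOp (hq : q.Prime) (hqN : ¬ q ∣ N) (hℓ : ℓ.Prime) (hℓN : ¬ ℓ ∣ N)
    (hℓNq : ¬ ℓ ∣ N * q) (x y : Additive (Gamma0 N) →+ A) :
    Fermat.Agent.S29.H06.heckeTr hℓ hℓNq (H19.iOp hq hqN (x, y))
      = H19.iOp hq hqN (Fermat.Agent.S29.H06.heckeTr hℓ hℓN x,
          Fermat.Agent.S29.H06.heckeTr hℓ hℓN y) := by
  rw [← H19.tOp_eq_heckeTr, ← H19.tOp_eq_heckeTr, ← H19.tOp_eq_heckeTr, H19.tOp_iOp hq hqN]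

/-- `j (T_ℓ z) = (T_ℓ (j z).1, T_ℓ (j z).2)`. -/
theorem jOp_heckeTr (hq : q.Prime) (hqN : ¬ q ∣ N) (hℓ : ℓ.Prime) (hℓN : ¬ ℓ ∣ N)
    (hℓNq : ¬ ℓ ∣ N * q) (z : Additive (Gamma0 (N * q)) →+ A) :
    H19.jOp hq hqN (Fermat.Agent.S29.H06.heckeTr hℓ hℓNq z)
      = (Fermat.Agent.S29.H06.heckeTr hℓ hℓN (H19.jOp hq hqN z).1,
          Fermat.Agent.S29.H06.heckeTr hℓ hℓN (H19.jOp hq hqN z).2) := by
  rw [← H19.tOp_eq_heckeTr, ← H19.tOp_eq_heckeTr, ← H19.tOp_eq_heckeTr, H19.jOp_tOp hq hqN]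

/-- `j (i (x, y)) = ((q + 1) x + T_q y, T_q x + (q + 1) y)`. -/
theorem jOp_iOp_heckeTr (hq : q.Prime) (hqN : ¬ q ∣ N) (x y : Additive (Gamma0 N) →+ A) :
    H19.jOp hq hqN (H19.iOp hq hqN (x, y))
      = ((q + 1) • x + Fermat.Agent.S29.H06.heckeTr hq hqN y,
          Fermat.Agent.S29.H06.heckeTr hq hqN x + (q + 1) • y) := by
  rw [H19.jOp_iOp, H19.tOp_eq_heckeTr, H19.tOp_eq_heckeTr]

end GB5

end Fermat.Agent.S41.H06
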