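import Mathlib
import Fermat.Agent.S41.CIOut_helper39
import Fermat.Agent.S41.IsectClosed_helper11
import Fermat.Agent.S41.CILeafCores_helper65
import Fermat.Agent.S41.CILeafPar_helper69
import Fermat.Agent.S41.CILeafInj_helper69
import Fermat.Agent.S41.SAClosed_helper36
import Fermat.Agent.S41.GTop_helper54

/-!
# S41, node (C) closed through route C-I: the contract (G-DUAL), hypothesis-free (helper36)

* `gDual_closed` : helper39's `H39.gDual_CI` with all six leaf hypotheses discharged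
  (`H69.parRStmt`, `H69.parLStmt`, `H65.coresStmt`, `H65.coresWStmt`, `H36.saStmt`,
  `H69.injRStmt`, and `H11.fin2Stmt`, `H11.fin3Stmt`);
* `gDualStmt : H54.GDualStmt N q p r hq hqN hr hrN` : the literal contract of helper54's
  `H54.top` (= helper53's (G-DUAL)), for `0 < N`, `p` an odd prime.
-/

set_option autoImplicit false

namespace Fermat.Agent.S41.H36

open CongruenceSubgroup ModularCurve.Period
open Fermat.Agent
open scoped MatrixGroups

/-- **(G-DUAL), hypothesis-free** (route C-I): the dual of Ihara's lemma, unbundled. -/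
theorem gDual_closed {N q p r : ℕ} (hN : 0 < N) (hq : q.Prime) (hqN : ¬ q ∣ N) (hp : p.Prime)
    (hp2 : p ≠ 2) (hr : r.Prime) (hrN : ¬ r ∣ N)
    (x y : Additive (Gamma0 N) →+ ℤ) (hx : IsParabolicHom (Gamma0 N) x)
    (hy : IsParabolicHom (Gamma0 N) y) :
    ∃ (z : Additive (Gamma0 (N * q)) →+ ℤ) (v₁ v₂ : Additive (Gamma0 N) →+ ℤ),
      IsParabolicHom (Gamma0 (N * q)) z ∧ IsParabolicHom (Gamma0 N) v₁ ∧
      IsParabolicHom (Gamma0 N) v₂ ∧
      S29.H06.heckeTr hr hrN x - (r + 1) • x = H19.coresOp hq hqN z + p • v₁ ∧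
      S29.H06.heckeTr hr hrN y - (r + 1) • y = H19.coresOp hq hqN (H19.wOp hq hqN z) + p • v₂ :=
  H39.gDual_CI H11.fin2Stmt H11.fin3Stmt hN hq hqN hp hp2 hr hrN
    (H69.parRStmt (N * q)) (H69.parLStmt N)
    (H65.coresStmt H11.fin2Stmt hq hqN) (H65.coresWStmt H11.fin2Stmt H11.fin3Stmt hq hqN)
    (saStmt H11.fin2Stmt H11.fin3Stmt hr hrN) (H69.injRStmt hN hp hp2) x y hx hy

/-- **The contract `H54.GDualStmt` of helper54's top assembly**, closed. -/
theorem gDualStmt {N q p r : ℕ} (hN : 0 < N) (hq : q.Prime) (hqN : ¬ q ∣ N) (hp : p.Prime)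
    (hp2 : p ≠ 2) (hr : r.Prime) (hrN : ¬ r ∣ N) : H54.GDualStmt N q p r hq hqN hr hrN :=
  fun x y hx hy => gDual_closed hN hq hqN hp hp2 hr hrN x y hx hy

end Fermat.Agent.S41.H36
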