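import Mathlib
import Fermat.Agent.S41.COut_helper77
import Fermat.Agent.S41.CILeafPar_helper69
import Fermat.Agent.S41.CILeafInj_helper69
import Fermat.Agent.S41.SAClosed_helper36
import Fermat.Agent.S41.IsectCoresInst_helper6

/-!
# S41, node (C), route C-I, closed: the dual of Ihara's lemma, hypothesis-free

`gdual` is the unbundled (G-DUAL) contract of the top assembly: for `0 < N`, primes `q ∤ N`,
`p` odd, `r ∤ N`, and parabolic characters `x y` of `Γ₀(N)`, the characters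
`T_r x - (r+1) x` and `T_r y - (r+1) y` are `cores z + p v₁` and `cores (w z) + p v₂` for a
parabolic character `z` of `Γ₀(N q)` and parabolic `v₁ v₂`.

It is `H77.gdual_of_leaves` with its six leaves discharged by the landed leaf files:
`H69.parRStmt`, `H69.parLStmt`, `H06.coresStmt`, `H06.coresWStmt`, `H36.saStmt`, `H69.injRStmt`
(and `H17.fin2Stmt`, `H17.fin3Stmt`).
-/

set_option autoImplicit false

namespace Fermat.Agent.S41.H69

open CongruenceSubgroup ModularCurve.Period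
open scoped MatrixGroups

/-- The evaluation form of dual Ihara (`hkey`), hypothesis-free. -/
theorem hkey_closed {N q p r : ℕ} (hN : 0 < N) (hq : q.Prime) (hqN : ¬ q ∣ N) (hp : p.Prime)
    (hp2 : p ≠ 2) (hr : r.Prime) (hrN : ¬ r ∣ N) (γ₁ γ₂ : Gamma0 N)
    (h : ∀ z : Additive (Gamma0 (N * q)) →+ ℤ, IsParabolicHom (Gamma0 (N * q)) z →
      (p : ℤ) ∣ H19.coresOp hq hqN z (Additive.ofMul γ₁) +
        H19.coresOp hq hqN (H19.wOp hq hqN z) (Additive.ofMul γ₂))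
    (lam₁ lam₂ : Additive (Gamma0 N) →+ ℤ) (hl₁ : IsParabolicHom (Gamma0 N) lam₁)
    (hl₂ : IsParabolicHom (Gamma0 N) lam₂) :
    (p : ℤ) ∣
      (S29.H06.heckeTr hr hrN lam₁ (Additive.ofMul γ₁) - ((r : ℤ) + 1) * lam₁ (Additive.ofMul γ₁)) +
      (S29.H06.heckeTr hr hrN lam₂ (Additive.ofMul γ₂) - ((r : ℤ) + 1) * lam₂ (Additive.ofMul γ₂)) :=
  H39.hkey_concrete H17.fin2Stmt H17.fin3Stmt hN hq hqN hp hp2 hr hrN
    (parRStmt (N * q)) (parLStmt N)
    (Fermat.Agent.S41.H06.coresStmt H17.fin2Stmt hq hqN)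
    (Fermat.Agent.S41.H06.coresWStmt H17.fin2Stmt hq hqN)
    (H36.saStmt H17.fin2Stmt H17.fin3Stmt hr hrN) (injRStmt hN hp hp2) γ₁ γ₂ h lam₁ lam₂ hl₁ hl₂

/-- **(G-DUAL), unbundled, hypothesis-free**: the dual of Ihara's lemma for
`Γ₀(N q) ≤ Γ₀(N)`, `T_r - (r + 1)`, modulo an odd prime `p`. -/
theorem gdual {N q p r : ℕ} (hN : 0 < N) (hq : q.Prime) (hqN : ¬ q ∣ N) (hp : p.Prime)
    (hp2 : p ≠ 2) (hr : r.Prime) (hrN : ¬ r ∣ N) :
    ∀ x y : Additive (Gamma0 N) →+ ℤ, IsParabolicHom (Gamma0 N) x → IsParabolicHom (Gamma0 N) y →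
      ∃ (z : Additive (Gamma0 (N * q)) →+ ℤ) (v₁ v₂ : Additive (Gamma0 N) →+ ℤ),
        IsParabolicHom (Gamma0 (N * q)) z ∧ IsParabolicHom (Gamma0 N) v₁ ∧
        IsParabolicHom (Gamma0 N) v₂ ∧
        S29.H06.heckeTr hr hrN x - (r + 1) • x = H19.coresOp hq hqN z + p • v₁ ∧
        S29.H06.heckeTr hr hrN y - (r + 1) • y =
          H19.coresOp hq hqN (H19.wOp hq hqN z) + p • v₂ :=
  H77.gdual_of_leaves H17.fin2Stmt H17.fin3Stmt hN hq hqN hp hp2 hr hrN
    (parRStmt (N * q)) (parLStmt N)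
    (Fermat.Agent.S41.H06.coresStmt H17.fin2Stmt hq hqN)
    (Fermat.Agent.S41.H06.coresWStmt H17.fin2Stmt hq hqN)
    (H36.saStmt H17.fin2Stmt H17.fin3Stmt hr hrN) (injRStmt hN hp hp2)

end Fermat.Agent.S41.H69
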