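import Mathlib
import Fermat.Agent.S41.HfInst_helper74

/-!
# S41, contract (G-HF) of the (G) plan (helper74)

The literal eigen-data contract of the top assembly: from the hypotheses of the frozen statement
S41, the period homomorphism `v = periodMap N f` is a nonzero complex parabolic hom, an
eigenvector of the Hecke transfers at all good primes `ℓ ∤ N q'`, `ℓ ≠ p`, with eigenvalues
`θ ℓ ≡ a_ℓ(W)` modulo `𝔪` in the ring of algebraic integers, and an eigenvector of the transfer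
at `q'` with eigenvalue `α ≡ ε (q' + 1)` modulo `𝔪` for a sign `ε`.
-/

set_option autoImplicit false

namespace Fermat.Agent.S41.H74

open CongruenceSubgroup ModularCurve ModularCurve.Period
open Fermat.Agent.S29 Fermat.Agent.S21
open scoped MatrixGroups

/-- **(G-HF)**: the eigen-data of the S41 hypotheses, in the literal shape of the (G) plan. -/
theorem g_hf {W : WeierstrassCurve ℤ} {p N q' : ℕ} [NeZero N] (hq' : q'.Prime)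
    (hq'N : ¬ q' ∣ N)
    (f : CuspForm (Gamma0 N) 2) (𝔪 : Ideal (integralClosure ℤ ℂ))
    (hf : f.IsNormalizedEigenform) (hmax : 𝔪.IsMaximal)
    (hcong : ∀ ℓ : ℕ, ℓ.Prime → W.IsGoodPrimeFor ℓ → ¬ ℓ ∣ N → ℓ ≠ p →
      ∃ a : integralClosure ℤ ℂ, (a : ℂ) = ModularFormClass.qCoeff f ℓ ∧
        a - ((W.apOfModel ℓ : ℤ) : integralClosure ℤ ℂ) ∈ 𝔪)
    (hLR : ∃ a : integralClosure ℤ ℂ, (a : ℂ) = ModularFormClass.qCoeff f q' ∧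
      a ^ 2 - ((q' : integralClosure ℤ ℂ) + 1) ^ 2 ∈ 𝔪) :
    ∃ (v : Additive (Gamma0 N) →+ ℂ)
      (θ : {ℓ : ℕ // ℓ.Prime ∧ W.IsGoodPrimeFor ℓ ∧ ¬ ℓ ∣ N * q' ∧ ℓ ≠ p} →
        integralClosure ℤ ℂ)
      (α : integralClosure ℤ ℂ) (ε : ℤ),
      v ≠ 0 ∧ v ∈ parabolicHoms ℂ (Gamma0 N) ℂ ∧ (ε = 1 ∨ ε = -1) ∧
      (∀ i (hiN : ¬ i.1 ∣ N),
        H06.heckeTr i.2.1 hiN v = ((θ i : integralClosure ℤ ℂ) : ℂ) • v) ∧
      H06.heckeTr hq' hq'N v = ((α : integralClosure ℤ ℂ) : ℂ) • v ∧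
      (∀ i, θ i - ((W.apOfModel i.1 : ℤ) : integralClosure ℤ ℂ) ∈ 𝔪) ∧
      α - ((ε * ((q' : ℤ) + 1) : ℤ) : integralClosure ℤ ℂ) ∈ 𝔪 := by
  classical
  obtain ⟨α, hα, hα2⟩ := hLR
  obtain ⟨ε, hε, hαε⟩ := exists_eps 𝔪 hmax q' α hα2
  have hiN : ∀ i : {ℓ : ℕ // ℓ.Prime ∧ W.IsGoodPrimeFor ℓ ∧ ¬ ℓ ∣ N * q' ∧ ℓ ≠ p},
      ¬ i.1 ∣ N := fun i h => i.2.2.2.1 (Dvd.dvd.mul_right h q')
  choose θ hθ hθW using fun i : {ℓ : ℕ // ℓ.Prime ∧ W.IsGoodPrimeFor ℓ ∧ ¬ ℓ ∣ N * q' ∧ ℓ ≠ p} =>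
    hcong i.1 i.2.1 i.2.2.1 (hiN i) i.2.2.2.2
  refine ⟨periodMap N f, θ, α, ε, H06.periodMap_ne_zero hf,
    H23.periodMap_mem_parabolicHoms N f, hε, ?_, ?_, hθW, hαε⟩
  · intro i hi
    rw [heckeTr_periodMap_eigen hf i.2.1 hi, hθ]
  · rw [heckeTr_periodMap_eigen hf hq' hq'N, hα]

end Fermat.Agent.S41.H74
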