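import Fermat.Agent.S41.GB5_helper19
import Fermat.Agent.S41.HeckeMod_helper50
import Fermat.Agent.S41.PolyModule_helper59
import Fermat.Agent.S41.LRCore_helper71
import Fermat.Agent.S41.ParOps_helper97
import Fermat.Agent.S41.UBridge_helper72
import Fermat.Agent.S41.Lattice_helper34

/-!
# S41, node (G), insurance copy (helper54): the concrete setup of the level-raising core

* `Idx W N q p` : the good primes `ℓ ∤ N q`, `ℓ ≠ p`; the Hecke ring is `MvPolynomial (Idx W N q p) ℤ`.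
* the module structures on the Betti lattices `L_N`, `L_{N q}` (`H50.latModule`);
* `iMap`, `jMap`, `tMap` : the maps `i = res + w ∘ res`, `j = (cores, cores ∘ w)`, `t = T_q` of the
  abstract level-raising core `H71.lr_core`, as linear maps over the Hecke ring, with `jMap_iMap`;
* `nIdeal` : the maximal ideal attached to the curve `W` modulo `p`; `rEl i = X i - C (i + 1)`.
-/

set_option autoImplicit false

namespace Fermat.Agent.S41.H54

open CongruenceSubgroup ModularCurve.Period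
open Fermat.Agent.S29
open scoped MatrixGroups

/-- The index set of the Hecke ring: primes of good reduction not dividing `N q`, different
from `p`. -/
def Idx (W : WeierstrassCurve ℤ) (N q p : ℕ) : Type :=
  {ℓ : ℕ // ℓ.Prime ∧ W.IsGoodPrimeFor ℓ ∧ ¬ ℓ ∣ N * q ∧ ℓ ≠ p}

section Setup

variable (W : WeierstrassCurve ℤ) (N q p : ℕ)

theorem Idx.prime (i : Idx W N q p) : (i.1 : ℕ).Prime := i.2.1

theorem Idx.good (i : Idx W N q p) : W.IsGoodPrimeFor i.1 := i.2.2.1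

theorem Idx.not_dvd_mul (i : Idx W N q p) : ¬ (i.1 : ℕ) ∣ N * q := i.2.2.2.1

theorem Idx.not_dvd (i : Idx W N q p) : ¬ (i.1 : ℕ) ∣ N := fun h => i.2.2.2.1 (Dvd.dvd.mul_right h q)

theorem Idx.ne (i : Idx W N q p) : (i.1 : ℕ) ≠ p := i.2.2.2.2

/-- The Hecke-module structure on the lattice of level `N`. -/
noncomputable instance modLow [NeZero N] :
    Module (MvPolynomial (Idx W N q p) ℤ) (parabolicHoms ℤ (Gamma0 N) ℤ) :=
  H50.latModule N (fun i : Idx W N q p => (i.1 : ℕ)) (fun i => i.prime) (fun i => i.not_dvd)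

/-- The Hecke-module structure on the lattice of level `N q`. -/
noncomputable instance modHigh [NeZero (N * q)] :
    Module (MvPolynomial (Idx W N q p) ℤ) (parabolicHoms ℤ (Gamma0 (N * q)) ℤ) :=
  H50.latModule (N * q) (fun i : Idx W N q p => (i.1 : ℕ)) (fun i => i.prime)
    (fun i => i.not_dvd_mul)

theorem X_smul_low [NeZero N] (i : Idx W N q p) (x : parabolicHoms ℤ (Gamma0 N) ℤ) :
    (MvPolynomial.X i : MvPolynomial (Idx W N q p) ℤ) • x = H50.latT i.prime i.not_dvd x :=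
  H50.latModule_X_smul N (fun i : Idx W N q p => (i.1 : ℕ)) (fun i => i.prime)
    (fun i => i.not_dvd) i x

theorem X_smul_high [NeZero (N * q)] (i : Idx W N q p)
    (x : parabolicHoms ℤ (Gamma0 (N * q)) ℤ) :
    (MvPolynomial.X i : MvPolynomial (Idx W N q p) ℤ) • x = H50.latT i.prime i.not_dvd_mul x :=
  H50.latModule_X_smul (N * q) (fun i : Idx W N q p => (i.1 : ℕ)) (fun i => i.prime)
    (fun i => i.not_dvd_mul) i x

theorem coe_X_smul_low [NeZero N] (i : Idx W N q p) (x : parabolicHoms ℤ (Gamma0 N) ℤ) :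
    (((MvPolynomial.X i : MvPolynomial (Idx W N q p) ℤ) • x : parabolicHoms ℤ (Gamma0 N) ℤ) :
      Additive (Gamma0 N) →+ ℤ) = H06.heckeTr i.prime i.not_dvd (x : Additive (Gamma0 N) →+ ℤ) := by
  rw [X_smul_low]
  rfl

theorem coe_X_smul_high [NeZero (N * q)] (i : Idx W N q p)
    (x : parabolicHoms ℤ (Gamma0 (N * q)) ℤ) :
    (((MvPolynomial.X i : MvPolynomial (Idx W N q p) ℤ) • x :
      parabolicHoms ℤ (Gamma0 (N * q)) ℤ) : Additive (Gamma0 (N * q)) →+ ℤ) =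
      H06.heckeTr i.prime i.not_dvd_mul (x : Additive (Gamma0 (N * q)) →+ ℤ) := by
  rw [X_smul_high]
  rfl

end Setup

/-! ### The operators on the lattices -/

section Ops

variable {N q : ℕ}

/-- Restriction on the lattices. -/
noncomputable def resL (N q : ℕ) :
    parabolicHoms ℤ (Gamma0 N) ℤ →+ parabolicHoms ℤ (Gamma0 (N * q)) ℤ :=
  (H97.trPar (H19.isTrFam_res N q)).toAddMonoidHom

/-- Atkin-Lehner on the lattice of level `N q`. -/
noncomputable def wL (hq : q.Prime) (hqN : ¬ q ∣ N) :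
    parabolicHoms ℤ (Gamma0 (N * q)) ℤ →+ parabolicHoms ℤ (Gamma0 (N * q)) ℤ :=
  (H97.trPar (H19.isTrFam_w hq hqN)).toAddMonoidHom

/-- Corestriction on the lattices. -/
noncomputable def coresL (hq : q.Prime) (hqN : ¬ q ∣ N) :
    parabolicHoms ℤ (Gamma0 (N * q)) ℤ →+ parabolicHoms ℤ (Gamma0 N) ℤ :=
  (H97.trPar (H19.isTrFam_cores hq hqN)).toAddMonoidHom

theorem coe_resL (x : parabolicHoms ℤ (Gamma0 N) ℤ) :
    ((resL N q x : parabolicHoms ℤ (Gamma0 (N * q)) ℤ) : Additive (Gamma0 (N * q)) →+ ℤ) =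
      H19.resOp N q (x : Additive (Gamma0 N) →+ ℤ) := rfl

theorem coe_wL (hq : q.Prime) (hqN : ¬ q ∣ N) (x : parabolicHoms ℤ (Gamma0 (N * q)) ℤ) :
    ((wL hq hqN x : parabolicHoms ℤ (Gamma0 (N * q)) ℤ) : Additive (Gamma0 (N * q)) →+ ℤ) =
      H19.wOp hq hqN (x : Additive (Gamma0 (N * q)) →+ ℤ) := rfl

theorem coe_coresL (hq : q.Prime) (hqN : ¬ q ∣ N) (x : parabolicHoms ℤ (Gamma0 (N * q)) ℤ) :
    ((coresL hq hqN x : parabolicHoms ℤ (Gamma0 N) ℤ) : Additive (Gamma0 N) →+ ℤ) =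
      H19.coresOp hq hqN (x : Additive (Gamma0 (N * q)) →+ ℤ) := rfl

/-- `i (x, y) = res x + w (res y)` on the lattices (additive). -/
noncomputable def iAdd (hq : q.Prime) (hqN : ¬ q ∣ N) :
    (parabolicHoms ℤ (Gamma0 N) ℤ × parabolicHoms ℤ (Gamma0 N) ℤ) →+
      parabolicHoms ℤ (Gamma0 (N * q)) ℤ :=
  (resL N q).coprod ((wL hq hqN).comp (resL N q))

/-- `j z = (cores z, cores (w z))` on the lattices (additive). -/
noncomputable def jAdd (hq : q.Prime) (hqN : ¬ q ∣ N) :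
    parabolicHoms ℤ (Gamma0 (N * q)) ℤ →+
      (parabolicHoms ℤ (Gamma0 N) ℤ × parabolicHoms ℤ (Gamma0 N) ℤ) :=
  (coresL hq hqN).prod ((coresL hq hqN).comp (wL hq hqN))

theorem coe_iAdd (hq : q.Prime) (hqN : ¬ q ∣ N)
    (u : parabolicHoms ℤ (Gamma0 N) ℤ × parabolicHoms ℤ (Gamma0 N) ℤ) :
    ((iAdd hq hqN u : parabolicHoms ℤ (Gamma0 (N * q)) ℤ) : Additive (Gamma0 (N * q)) →+ ℤ) =
      H19.resOp N q (u.1 : Additive (Gamma0 N) →+ ℤ) +
        H19.wOp hq hqN (H19.resOp N q (u.2 : Additive (Gamma0 N) →+ ℤ)) := rfl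

theorem coe_jAdd_fst (hq : q.Prime) (hqN : ¬ q ∣ N) (z : parabolicHoms ℤ (Gamma0 (N * q)) ℤ) :
    (((jAdd hq hqN z).1 : parabolicHoms ℤ (Gamma0 N) ℤ) : Additive (Gamma0 N) →+ ℤ) =
      H19.coresOp hq hqN (z : Additive (Gamma0 (N * q)) →+ ℤ) := rfl

theorem coe_jAdd_snd (hq : q.Prime) (hqN : ¬ q ∣ N) (z : parabolicHoms ℤ (Gamma0 (N * q)) ℤ) :
    (((jAdd hq hqN z).2 : parabolicHoms ℤ (Gamma0 N) ℤ) : Additive (Gamma0 N) →+ ℤ) =
      H19.coresOp hq hqN (H19.wOp hq hqN (z : Additive (Gamma0 (N * q)) →+ ℤ)) := rfl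

end Ops

/-! ### The linear maps of the level-raising core -/

section Linear

variable (W : WeierstrassCurve ℤ) {N q : ℕ} (p : ℕ) [NeZero N] [NeZero (N * q)]

/-- `i` as a linear map over the Hecke ring. -/
noncomputable def iMap (hq : q.Prime) (hqN : ¬ q ∣ N) :
    (parabolicHoms ℤ (Gamma0 N) ℤ × parabolicHoms ℤ (Gamma0 N) ℤ)
      →ₗ[MvPolynomial (Idx W N q p) ℤ] parabolicHoms ℤ (Gamma0 (N * q)) ℤ :=
  H50.linearOfX (iAdd hq hqN) (by
    intro i u
    apply Subtype.ext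
    rw [coe_X_smul_high, coe_iAdd, coe_iAdd, Prod.smul_fst, Prod.smul_snd, coe_X_smul_low,
      coe_X_smul_low]
    exact (H19.heckeTr_iOp hq hqN i.prime i.not_dvd i.not_dvd_mul _ _).symm)

/-- `j` as a linear map over the Hecke ring. -/
noncomputable def jMap (hq : q.Prime) (hqN : ¬ q ∣ N) :
    parabolicHoms ℤ (Gamma0 (N * q)) ℤ →ₗ[MvPolynomial (Idx W N q p) ℤ]
      (parabolicHoms ℤ (Gamma0 N) ℤ × parabolicHoms ℤ (Gamma0 N) ℤ) :=
  H50.linearOfX (jAdd hq hqN) (by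
    intro i z
    apply Prod.ext
    · apply Subtype.ext
      rw [coe_jAdd_fst, coe_X_smul_high, Prod.smul_fst, coe_X_smul_low, coe_jAdd_fst]
      exact H19.coresOp_heckeTr hq hqN i.prime i.not_dvd i.not_dvd_mul _
    · apply Subtype.ext
      rw [coe_jAdd_snd, coe_X_smul_high, Prod.smul_snd, coe_X_smul_low, coe_jAdd_snd]
      exact H19.coresOp_wOp_heckeTr hq hqN i.prime i.not_dvd i.not_dvd_mul _)

omit [NeZero (N * q)] in
/-- `t = T_q` on the lattice of level `N`, as a linear map over the Hecke ring. -/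
noncomputable def tMap (hq : q.Prime) (hqN : ¬ q ∣ N) :
    parabolicHoms ℤ (Gamma0 N) ℤ →ₗ[MvPolynomial (Idx W N q p) ℤ] parabolicHoms ℤ (Gamma0 N) ℤ :=
  H50.linearOfX (H50.latT hq hqN) (by
    intro i x
    rw [X_smul_low, X_smul_low]
    exact (H50.latT_comm i.prime i.not_dvd hq hqN x).symm)

theorem coe_iMap (hq : q.Prime) (hqN : ¬ q ∣ N)
    (u : parabolicHoms ℤ (Gamma0 N) ℤ × parabolicHoms ℤ (Gamma0 N) ℤ) :
    ((iMap W p hq hqN u : parabolicHoms ℤ (Gamma0 (N * q)) ℤ) :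
      Additive (Gamma0 (N * q)) →+ ℤ) =
      H19.resOp N q (u.1 : Additive (Gamma0 N) →+ ℤ) +
        H19.wOp hq hqN (H19.resOp N q (u.2 : Additive (Gamma0 N) →+ ℤ)) := rfl

theorem coe_jMap_fst (hq : q.Prime) (hqN : ¬ q ∣ N) (z : parabolicHoms ℤ (Gamma0 (N * q)) ℤ) :
    (((jMap W p hq hqN z).1 : parabolicHoms ℤ (Gamma0 N) ℤ) : Additive (Gamma0 N) →+ ℤ) =
      H19.coresOp hq hqN (z : Additive (Gamma0 (N * q)) →+ ℤ) := rfl

theorem coe_jMap_snd (hq : q.Prime) (hqN : ¬ q ∣ N) (z : parabolicHoms ℤ (Gamma0 (N * q)) ℤ) :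
    (((jMap W p hq hqN z).2 : parabolicHoms ℤ (Gamma0 N) ℤ) : Additive (Gamma0 N) →+ ℤ) =
      H19.coresOp hq hqN (H19.wOp hq hqN (z : Additive (Gamma0 (N * q)) →+ ℤ)) := rfl

omit [NeZero (N * q)] in
theorem coe_tMap (hq : q.Prime) (hqN : ¬ q ∣ N) (x : parabolicHoms ℤ (Gamma0 N) ℤ) :
    ((tMap W p hq hqN x : parabolicHoms ℤ (Gamma0 N) ℤ) : Additive (Gamma0 N) →+ ℤ) =
      H06.heckeTr hq hqN (x : Additive (Gamma0 N) →+ ℤ) := rfl

/-- `j ∘ i = [[q + 1, T_q], [T_q, q + 1]]`, in the literal shape of `H71.lr_core`. -/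
theorem jMap_iMap (hq : q.Prime) (hqN : ¬ q ∣ N) (x y : parabolicHoms ℤ (Gamma0 N) ℤ) :
    jMap W p hq hqN (iMap W p hq hqN (x, y)) =
      (((q : ℤ) + 1) • x + tMap W p hq hqN y, tMap W p hq hqN x + ((q : ℤ) + 1) • y) := by
  have hs : ∀ z : Additive (Gamma0 N) →+ ℤ, ((q : ℤ) + 1) • z = (q + 1) • z := by
    intro z
    rw [show ((q : ℤ) + 1) = ((q + 1 : ℕ) : ℤ) by push_cast; ring, natCast_zsmul]
  apply Prod.ext
  · apply Subtype.ext
    rw [coe_jMap_fst, coe_iMap]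
    show _ = ((q : ℤ) + 1) • (x : Additive (Gamma0 N) →+ ℤ) + H06.heckeTr hq hqN _
    rw [hs]
    exact H19.coresOp_i_heckeTr hq hqN _ _
  · apply Subtype.ext
    rw [coe_jMap_snd, coe_iMap]
    show _ = H06.heckeTr hq hqN _ + ((q : ℤ) + 1) • (y : Additive (Gamma0 N) →+ ℤ)
    rw [hs]
    exact H19.coresOp_wOp_i_heckeTr hq hqN _ _

end Linear

/-! ### The maximal ideal and the auxiliary elements -/

section Ideal

variable (W : WeierstrassCurve ℤ) (N q p : ℕ)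

/-- The ideal of the Hecke ring attached to `W` modulo `p`: the kernel of
`X_ℓ ↦ a_ℓ(W) mod p`. -/
noncomputable def nIdeal : Ideal (MvPolynomial (Idx W N q p) ℤ) :=
  H59.evalIdeal p (fun i : Idx W N q p => W.apOfModel i.1)

/-- The element `T_r - (r + 1)` of the Hecke ring. -/
noncomputable def rEl (i : Idx W N q p) : MvPolynomial (Idx W N q p) ℤ :=
  MvPolynomial.X i - MvPolynomial.C (((i.1 : ℕ) : ℤ) + 1)

theorem nIdeal_isMaximal [Fact p.Prime] : (nIdeal W N q p).IsMaximal :=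
  H59.evalIdeal_isMaximal p _

theorem natCast_mem_nIdeal : (p : MvPolynomial (Idx W N q p) ℤ) ∈ nIdeal W N q p :=
  H59.natCast_mem_evalIdeal p _

theorem rEl_not_mem (i : Idx W N q p)
    (h : ((W.apOfModel i.1 : ℤ) : ZMod p) ≠ ((i.1 : ℕ) : ZMod p) + 1) :
    rEl W N q p i ∉ nIdeal W N q p := by
  apply H59.X_sub_C_not_mem_evalIdeal
  intro h'
  apply h
  rw [h']
  push_cast
  rfl

theorem rEl_smul_low [NeZero N] (i : Idx W N q p) (x : parabolicHoms ℤ (Gamma0 N) ℤ) :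
    ((rEl W N q p i • x : parabolicHoms ℤ (Gamma0 N) ℤ) : Additive (Gamma0 N) →+ ℤ) =
      H06.heckeTr i.prime i.not_dvd (x : Additive (Gamma0 N) →+ ℤ) -
        ((i.1 : ℕ) + 1) • (x : Additive (Gamma0 N) →+ ℤ) := by
  have hC : (MvPolynomial.C (((i.1 : ℕ) : ℤ) + 1) : MvPolynomial (Idx W N q p) ℤ) • x =
      (((i.1 : ℕ) : ℤ) + 1) • x := by
    rw [show (MvPolynomial.C (((i.1 : ℕ) : ℤ) + 1) : MvPolynomial (Idx W N q p) ℤ) =
      (((((i.1 : ℕ) : ℤ) + 1 : ℤ)) : MvPolynomial (Idx W N q p) ℤ) from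
      eq_intCast MvPolynomial.C _, Int.cast_smul_eq_zsmul]
  rw [rEl, sub_smul, hC]
  show ((MvPolynomial.X i : MvPolynomial (Idx W N q p) ℤ) • x : parabolicHoms ℤ (Gamma0 N) ℤ).1 -
    ((((i.1 : ℕ) : ℤ) + 1) • x : parabolicHoms ℤ (Gamma0 N) ℤ).1 = _
  rw [coe_X_smul_low]
  congr 1

end Ideal

end Fermat.Agent.S41.H54
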