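/-
S41, node (C-SAT): the finite graph lemmas behind perfectness mod `p` of the Poincare pairing
in the Manin-symbol model (helper41).

* `exists_int_lift_flow`  : circulations mod `n` on a finite oriented graph lift to integral
  circulations (the cokernel of an oriented incidence matrix is torsion-free);
* `exists_int_lift_bip`   : the same for vanishing fibre sums along two maps;
* `exists_int_lift_pair`  : solutions of `(1 - S) a = (1 - R) c` mod `n` lift;
* `exists_int_lift_manin` : the Manin-symbol functions mod `n` (`n` odd) lift;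
* `exists_inv_add_inv_of_mul` : `V^S + V^R` is saturated in `V = ℤ^X`.
-/
import Mathlib

set_option autoImplicit false

namespace Fermat.Agent.S41.H41

open Finset

section Flow

variable {E V : Type*} [Fintype E] [Fintype V] [DecidableEq V]

/-- Oriented incidence map of the graph with edge set `E`, heads `hd` and tails `tl`. -/
noncomputable def incid (hd tl : E → V) : (E → ℤ) →ₗ[ℤ] (V → ℤ) where
  toFun u v := ∑ e with hd e = v, u e - ∑ e with tl e = v, u e
  map_add' u w := by
    funext v
    simp only [Pi.add_apply, Finset.sum_add_distrib]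
    ring
  map_smul' c u := by
    funext v
    simp only [Pi.smul_apply, smul_eq_mul, RingHom.id_apply, ← Finset.mul_sum]
    ring

omit [Fintype V] in
theorem incid_apply (hd tl : E → V) (u : E → ℤ) (v : V) :
    incid hd tl u v = ∑ e with hd e = v, u e - ∑ e with tl e = v, u e := rfl

theorem sum_mul_incid (hd tl : E → V) (f : V → ℤ) (hf : ∀ e, f (hd e) = f (tl e))
    (u : E → ℤ) : ∑ v, f v * incid hd tl u v = 0 := by
  have key : ∀ k : E → V, ∑ v, f v * ∑ e with k e = v, u e = ∑ e, f (k e) * u e := by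
    intro k
    simp only [Finset.sum_filter, Finset.mul_sum]
    rw [Finset.sum_comm]
    refine Finset.sum_congr rfl fun e _ => ?_
    simp
  simp only [incid_apply, mul_sub, Finset.sum_sub_distrib, key]
  rw [sub_eq_zero]
  exact Finset.sum_congr rfl fun e _ => by rw [hf]

theorem incid_single [DecidableEq E] (hd tl : E → V) (e : E) :
    incid hd tl (Pi.single e 1) = Pi.single (hd e) 1 - Pi.single (tl e) 1 := by
  have key : ∀ (k : E → V) (v : V),
      ∑ x with k x = v, (Pi.single e 1 : E → ℤ) x = if v = k e then 1 else 0 := by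
    intro k v
    rw [Finset.sum_filter, Finset.sum_eq_single e]
    · rw [Pi.single_eq_same]
      exact if_congr eq_comm rfl rfl
    · intro b _ hb
      simp [hb]
    · intro h
      exact absurd (Finset.mem_univ e) h
  funext v
  rw [incid_apply, key, key]
  simp only [Pi.sub_apply, Pi.single_apply]

theorem single_sub_single_mem_range (hd tl : E → V) {v w : V}
    (h : Relation.EqvGen (fun v w => ∃ e, hd e = v ∧ tl e = w) v w) :
    (Pi.single v 1 - Pi.single w 1 : V → ℤ) ∈ LinearMap.range (incid hd tl) := by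
  classical
  induction h with
  | rel v w hvw =>
    obtain ⟨e, rfl, rfl⟩ := hvw
    exact ⟨Pi.single e 1, incid_single hd tl e⟩
  | refl v =>
    rw [sub_self]
    exact Submodule.zero_mem _
  | symm v w _ ih =>
    have := Submodule.neg_mem _ ih
    rwa [neg_sub] at this
  | trans u v w _ _ ih1 ih2 =>
    have := Submodule.add_mem _ ih1 ih2
    rwa [sub_add_sub_cancel] at this

/-- A vertex function orthogonal to all functions constant on the components is a divergence. -/
theorem mem_range_incid (hd tl : E → V) (a : V → ℤ)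
    (ha : ∀ f : V → ℤ, (∀ e, f (hd e) = f (tl e)) → ∑ v, f v * a v = 0) :
    a ∈ LinearMap.range (incid hd tl) := by
  classical
  let r : V → V → Prop := fun v w => ∃ e, hd e = v ∧ tl e = w
  let s : Setoid V := Relation.EqvGen.setoid r
  let rep : V → V := fun v => (Quotient.mk s v).out
  have hrep : ∀ v, Relation.EqvGen r v (rep v) := fun v =>
    Relation.EqvGen.symm _ _ (Quotient.exact (Quotient.out_eq (Quotient.mk s v)))
  have hrepe : ∀ e, rep (hd e) = rep (tl e) := fun e => by
    have : Quotient.mk s (hd e) = Quotient.mk s (tl e) :=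
      Quotient.sound (Relation.EqvGen.rel _ _ ⟨e, rfl, rfl⟩)
    show (Quotient.mk s (hd e)).out = (Quotient.mk s (tl e)).out
    rw [this]
  have hzero : ∀ w, ∑ v, a v * (if w = rep v then 1 else 0) = 0 := by
    intro w
    have := ha (fun v => if w = rep v then 1 else 0) (fun e => by simp only [hrepe e])
    exact (Finset.sum_congr rfl fun v _ => mul_comm _ _).trans this
  have hdecomp : a = ∑ v, a v • ((Pi.single v 1 : V → ℤ) - Pi.single (rep v) 1) := by
    funext w
    simp only [Finset.sum_apply, Pi.smul_apply, Pi.sub_apply, Pi.single_apply, smul_eq_mul,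
      mul_sub, Finset.sum_sub_distrib]
    rw [hzero w, sub_zero]
    simp
  rw [hdecomp]
  exact Submodule.sum_mem _ fun v _ =>
    Submodule.smul_mem _ _ (single_sub_single_mem_range hd tl (hrep v))

/-- **(FLOW)** Circulations mod `n` lift to integral circulations. -/
theorem exists_int_lift_flow (hd tl : E → V) (n : ℕ) (u₀ : E → ZMod n)
    (hu₀ : ∀ v, ∑ e with hd e = v, u₀ e = ∑ e with tl e = v, u₀ e) :
    ∃ u : E → ℤ, (∀ e, ((u e : ℤ) : ZMod n) = u₀ e) ∧
      ∀ v, ∑ e with hd e = v, u e = ∑ e with tl e = v, u e := by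
  classical
  let w₀ : E → ℤ := fun e => (u₀ e).cast
  have hw0c : ∀ e, ((w₀ e : ℤ) : ZMod n) = u₀ e := fun e => ZMod.intCast_zmod_cast (u₀ e)
  have hdvd : ∀ v, (n : ℤ) ∣ incid hd tl w₀ v := by
    intro v
    rw [← CharP.intCast_eq_zero_iff (ZMod n) n, incid_apply]
    push_cast
    simp only [hw0c]
    rw [hu₀ v, sub_self]
  choose a ha using hdvd
  rcases Nat.eq_zero_or_pos n with hn | hn
  · refine ⟨w₀, hw0c, fun v => ?_⟩
    have h0 : incid hd tl w₀ v = 0 := by
      rw [ha v, hn]
      simp
    rw [incid_apply] at h0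
    exact sub_eq_zero.mp h0
  · have hmem : a ∈ LinearMap.range (incid hd tl) := by
      apply mem_range_incid
      intro f hf
      have h1 := sum_mul_incid hd tl f hf w₀
      simp only [ha] at h1
      have h2 : (n : ℤ) * ∑ v, f v * a v = 0 := by
        rw [← h1, Finset.mul_sum]
        exact Finset.sum_congr rfl fun v _ => by ring
      rcases mul_eq_zero.mp h2 with h3 | h3
      · exact absurd (by exact_mod_cast h3) hn.ne'
      · exact h3
    obtain ⟨u', hu'⟩ := hmem
    refine ⟨w₀ - (n : ℤ) • u', fun e => ?_, fun v => ?_⟩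
    · simp only [Pi.sub_apply, Pi.smul_apply, smul_eq_mul]
      push_cast
      rw [hw0c e]
      simp
    · have h0 : incid hd tl (w₀ - (n : ℤ) • u') v = 0 := by
        rw [map_sub, map_smul, hu']
        simp only [Pi.sub_apply, Pi.smul_apply, smul_eq_mul]
        rw [ha v, sub_self]
      rw [incid_apply] at h0
      exact sub_eq_zero.mp h0

end Flow

/-- **(BIP)** Functions mod `n` with vanishing fibre sums along two maps lift to integral
functions with vanishing fibre sums. -/
theorem exists_int_lift_bip {X V₁ V₂ : Type*} [Fintype X] [Fintype V₁] [Fintype V₂]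
    [DecidableEq V₁] [DecidableEq V₂] (π₁ : X → V₁) (π₂ : X → V₂) (n : ℕ) (u₀ : X → ZMod n)
    (h₁ : ∀ v, ∑ x with π₁ x = v, u₀ x = 0) (h₂ : ∀ w, ∑ x with π₂ x = w, u₀ x = 0) :
    ∃ u : X → ℤ, (∀ x, ((u x : ℤ) : ZMod n) = u₀ x) ∧ (∀ v, ∑ x with π₁ x = v, u x = 0) ∧
      ∀ w, ∑ x with π₂ x = w, u x = 0 := by
  classical
  obtain ⟨u, hu, hflow⟩ := exists_int_lift_flow (fun x => (Sum.inl (π₁ x) : V₁ ⊕ V₂))
    (fun x => Sum.inr (π₂ x)) n u₀ (by
      rintro (v | w)
      · simp [h₁ v]
      · simp [h₂ w])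
  refine ⟨u, hu, fun v => ?_, fun w => ?_⟩
  · have := hflow (Sum.inl v)
    simpa using this
  · have := hflow (Sum.inr w)
    simpa using this.symm

section Pair

variable {X : Type*} [Fintype X] [DecidableEq X]

private theorem sum_filter_symm_eq {A : Type*} [AddCommMonoid A] (P : Equiv.Perm X) (g : X → A)
    (y : X) : ∑ x with P.symm x = y, g x = g (P y) := by
  rw [Finset.sum_filter]
  simp [Equiv.symm_apply_eq]

private theorem sum_filter_self_eq {A : Type*} [AddCommMonoid A] (g : X → A) (y : X) :
    ∑ x with x = y, g x = g y := by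
  rw [Finset.sum_filter]
  simp

omit [DecidableEq X] in
private theorem sum_filter_elim {A W : Type*} [DecidableEq W] [AddCommMonoid A]
    (k₁ k₂ : X → W) (g₁ g₂ : X → A) (y : W) :
    ∑ e : X ⊕ X with Sum.elim k₁ k₂ e = y, Sum.elim g₁ g₂ e =
      ∑ x with k₁ x = y, g₁ x + ∑ x with k₂ x = y, g₂ x := by
  simp only [Finset.sum_filter, Fintype.sum_sum_type, Sum.elim_inl, Sum.elim_inr]

/-- **(PAIR)** Solutions mod `n` of `(1 - S) a = (1 - R) c` lift to integral solutions.
No hypothesis on the permutations `S`, `R` or on `n`. -/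
theorem exists_int_lift_pair (S R : Equiv.Perm X) (n : ℕ) (a₀ c₀ : X → ZMod n)
    (h : ∀ x, a₀ x - a₀ (S x) = c₀ x - c₀ (R x)) :
    ∃ a c : X → ℤ, (∀ x, ((a x : ℤ) : ZMod n) = a₀ x) ∧ (∀ x, ((c x : ℤ) : ZMod n) = c₀ x) ∧
      ∀ x, a x - a (S x) = c x - c (R x) := by
  obtain ⟨u, hu, hflow⟩ := exists_int_lift_flow (E := X ⊕ X) (V := X)
    (Sum.elim (fun x => S.symm x) (fun x => x)) (Sum.elim (fun x => x) (fun x => R.symm x)) n
    (Sum.elim a₀ c₀) (by
      intro y
      rw [sum_filter_elim, sum_filter_elim, sum_filter_symm_eq, sum_filter_self_eq,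
        sum_filter_self_eq, sum_filter_symm_eq]
      have := h y
      linear_combination -this)
  refine ⟨fun x => u (Sum.inl x), fun x => u (Sum.inr x), fun x => hu _, fun x => hu _,
    fun y => ?_⟩
  have h1 := hflow y
  have hu' : u = Sum.elim (fun x => u (Sum.inl x)) (fun x => u (Sum.inr x)) := by
    funext e
    cases e <;> rfl
  rw [hu', sum_filter_elim, sum_filter_elim, sum_filter_symm_eq, sum_filter_self_eq,
    sum_filter_self_eq, sum_filter_symm_eq] at h1
  linarith

/-- **(W-LIFT)** Manin-symbol functions mod an odd `n` lift: if `b₀` is antisymmetric under the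
involution `S` and lies in the image of `1 - R`, then it is the reduction of an integral `b`
which is antisymmetric under `S` and lies in the image of `1 - R` (and of `1 - S`). -/
theorem exists_int_lift_manin (S R : Equiv.Perm X) (hS : ∀ x, S (S x) = x) (n : ℕ) (hn : Odd n)
    (b₀ c₀ : X → ZMod n) (hbS : ∀ x, b₀ (S x) = - b₀ x) (hbR : ∀ x, b₀ x = c₀ x - c₀ (R x)) :
    ∃ b c a : X → ℤ, (∀ x, ((b x : ℤ) : ZMod n) = b₀ x) ∧ (∀ x, ((c x : ℤ) : ZMod n) = c₀ x) ∧
      (∀ x, b (S x) = - b x) ∧ (∀ x, b x = c x - c (R x)) ∧ ∀ x, b x = a x - a (S x) := by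
  obtain ⟨k, hk⟩ := hn
  have h2 : (2 : ZMod n) * ((k + 1 : ℕ) : ZMod n) = 1 := by
    have h3 : ((2 * (k + 1) : ℕ) : ZMod n) = ((n + 1 : ℕ) : ZMod n) := by
      congr 1
      omega
    rw [Nat.cast_mul, Nat.cast_ofNat] at h3
    rw [h3]
    simp
  obtain ⟨a, c, ha, hc, hac⟩ := exists_int_lift_pair S R n
    (fun x => ((k + 1 : ℕ) : ZMod n) * b₀ x) c₀ (by
      intro x
      rw [hbS x, ← hbR x]
      linear_combination (b₀ x) * h2)
  refine ⟨fun x => a x - a (S x), c, a, fun x => ?_, hc, fun x => ?_, hac, fun x => rfl⟩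
  · push_cast
    rw [ha x, ha (S x), hbS x]
    linear_combination (b₀ x) * h2
  · show a (S x) - a (S (S x)) = -(a x - a (S x))
    rw [hS x]
    ring

end Pair

section Sat

/-- **(SAT)**, relational form: if `n • v = f + g` with `f` invariant along `r₁` and `g`
invariant along `r₂`, then `v = f' + g'` with `f'`, `g'` invariant along `r₁`, `r₂`. -/
theorem exists_inv_add_inv_of_mul_rel {X : Type*} (r₁ r₂ : X → X → Prop) (n : ℤ) (hn : n ≠ 0)
    (v f g : X → ℤ) (hf : ∀ x y, r₁ x y → f x = f y) (hg : ∀ x y, r₂ x y → g x = g y)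
    (h : ∀ x, n * v x = f x + g x) :
    ∃ f' g' : X → ℤ, (∀ x y, r₁ x y → f' x = f' y) ∧ (∀ x y, r₂ x y → g' x = g' y) ∧
      ∀ x, v x = f' x + g' x := by
  classical
  let r : X → X → Prop := fun x y => r₁ x y ∨ r₂ x y
  let s : Setoid X := Relation.EqvGen.setoid r
  let rep : X → X := fun x => (Quotient.mk s x).out
  have hrep : ∀ x, Relation.EqvGen r x (rep x) := fun x =>
    Relation.EqvGen.symm _ _ (Quotient.exact (Quotient.out_eq (Quotient.mk s x)))
  have hrep_eq : ∀ x y, r x y → rep x = rep y := fun x y hxy => by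
    have : Quotient.mk s x = Quotient.mk s y := Quotient.sound (Relation.EqvGen.rel _ _ hxy)
    show (Quotient.mk s x).out = (Quotient.mk s y).out
    rw [this]
  have hmod : ∀ x y, Relation.EqvGen r x y → n ∣ f x - f y := by
    intro x y hxy
    induction hxy with
    | rel x y hxy =>
      rcases hxy with h1 | h2
      · rw [hf x y h1, sub_self]
        exact dvd_zero n
      · have e1 := h x
        have e2 := h y
        have e3 := hg x y h2
        exact ⟨v x - v y, by linarith⟩
    | refl x => simp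
    | symm x y _ ih =>
      have := (dvd_neg (a := n)).mpr ih
      rwa [neg_sub] at this
    | trans x y z _ _ ih1 ih2 =>
      have := dvd_add ih1 ih2
      rwa [sub_add_sub_cancel] at this
  let K : X → ℤ := fun x => f (rep x)
  have hK1 : ∀ x y, r₁ x y → K x = K y := fun x y hxy => by
    show f (rep x) = f (rep y)
    rw [hrep_eq x y (Or.inl hxy)]
  have hK2 : ∀ x y, r₂ x y → K x = K y := fun x y hxy => by
    show f (rep x) = f (rep y)
    rw [hrep_eq x y (Or.inr hxy)]
  have hfK : ∀ x, n ∣ f x - K x := fun x => hmod x (rep x) (hrep x)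
  have hgK : ∀ x, n ∣ g x + K x := fun x => by
    have h2 : g x + K x = n * v x - (f x - K x) := by
      have := h x
      linarith
    rw [h2]
    exact dvd_sub (dvd_mul_right n _) (hfK x)
  refine ⟨fun x => (f x - K x) / n, fun x => (g x + K x) / n, ?_, ?_, ?_⟩
  · intro x y hxy
    show (f x - K x) / n = (f y - K y) / n
    rw [hf x y hxy, hK1 x y hxy]
  · intro x y hxy
    show (g x + K x) / n = (g y + K y) / n
    rw [hg x y hxy, hK2 x y hxy]
  · intro x
    obtain ⟨a, ha⟩ := hfK x
    obtain ⟨b, hb⟩ := hgK x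
    show v x = (f x - K x) / n + (g x + K x) / n
    rw [ha, hb, Int.mul_ediv_cancel_left _ hn, Int.mul_ediv_cancel_left _ hn]
    have e : n * v x = n * (a + b) := by
      have := h x
      linarith
    exact mul_left_cancel₀ hn e

/-- **(SAT)** `V^S + V^R` is saturated in `V = ℤ^X`: if `n • v = f + g` with `f` invariant under
`S` and `g` invariant under `R`, then `v = f' + g'` with `f'`, `g'` invariant. -/
theorem exists_inv_add_inv_of_mul {X : Type*} (S R : X → X) (n : ℕ) (hn : n ≠ 0)
    (v f g : X → ℤ) (hf : ∀ x, f (S x) = f x) (hg : ∀ x, g (R x) = g x)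
    (h : ∀ x, (n : ℤ) * v x = f x + g x) :
    ∃ f' g' : X → ℤ, (∀ x, f' (S x) = f' x) ∧ (∀ x, g' (R x) = g' x) ∧
      ∀ x, v x = f' x + g' x := by
  obtain ⟨f', g', hf', hg', hv⟩ := exists_inv_add_inv_of_mul_rel (fun x y => y = S x)
    (fun x y => y = R x) (n : ℤ) (by exact_mod_cast hn) v f g
    (fun x y hxy => by rw [hxy, hf]) (fun x y hxy => by rw [hxy, hg]) h
  exact ⟨f', g', fun x => (hf' x (S x) rfl).symm, fun x => (hg' x (R x) rfl).symm, hv⟩

end Sat

end Fermat.Agent.S41.H41
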