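import Mathlib
import Fermat.Agent.S41.HeckeAL_helper35
import Fermat.Agent.S41.TransferGamma0_helper6

/-!
# S41 (level raising): `T_ℓ` commutes with the Atkin–Lehner operator, in the vocabulary of
`TransferGamma0_helper6` (`H06.gl`, `H06.hecke`, `H06.wq`).
-/

set_option autoImplicit false

namespace Fermat.Agent.S41.H35AL

open CongruenceSubgroup Matrix
open Fermat.Agent.S22
open scoped MatrixGroups

/-- The Atkin–Lehner element `H06.wq N q b0 d0 = [[q, b0],[N q, q d0]]` is an Atkin–Lehner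
matrix. -/
theorem isALMatrix_wq {N q : ℕ} (hq : q ≠ 0) {b0 d0 : ℤ}
    (h0 : (q : ℤ) * d0 - (N : ℤ) * b0 = 1) : IsALMatrix N q (H06.wq N q b0 d0) := by
  have h := H06.isInt_wq hq h0
  unfold H06.IsInt at h
  refine ⟨1, b0, 1, d0, by linear_combination h0, ?_, ?_, ?_, ?_⟩
  · have := congrFun (congrFun h 0) 0
    simpa using this
  · have := congrFun (congrFun h 0) 1
    simpa using this
  · have := congrFun (congrFun h 1) 0
    simpa using this
  · have := congrFun (congrFun h 1) 1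
    simpa using this

/-- `H06.wq` is a one-element transfer family on `Γ₀(N q)`. -/
theorem isTrFam_wq' {N q : ℕ} (hq : q ≠ 0) {b0 d0 : ℤ}
    (h0 : (q : ℤ) * d0 - (N : ℤ) * b0 = 1) :
    H06.IsTrFam (H06.gl (N * q)) (H06.gl (N * q)) (fun _ : Unit => H06.wq N q b0 d0) :=
  (isALMatrix_wq hq h0).isTrFam (H06.gl (N * q)) (fun _ => rfl)

/-- **`T_ℓ` commutes with the Atkin–Lehner operator** at level `N q` (`ℓ ∤ N q`), for any
transfer-family proof `hW` of the one-element family `H06.wq N q b0 d0`. -/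
theorem hecke_tr_wq {A : Type*} [AddCommGroup A] {N q ℓ : ℕ} (hq : q ≠ 0) (hℓ : ℓ.Prime)
    (hℓNq : ¬ ℓ ∣ N * q) {b0 d0 : ℤ} (h0 : (q : ℤ) * d0 - (N : ℤ) * b0 = 1)
    (hW : H06.IsTrFam (H06.gl (N * q)) (H06.gl (N * q)) (fun _ : Unit => H06.wq N q b0 d0))
    (χ : Additive (Gamma0 (N * q)) →+ A) :
    H06.hecke hℓ hℓNq (H06.tr (H06.gl_injective (N * q)) hW χ) =
      H06.tr (H06.gl_injective (N * q)) hW (H06.hecke hℓ hℓNq χ) :=
  tr_repT_comm_al hℓ hℓNq (isALMatrix_wq hq h0) (H06.gl (N * q)) (fun _ => rfl)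
    (H06.gl_injective (N * q)) (H06.isTrFam_repT hℓ hℓNq) hW χ

end Fermat.Agent.S41.H35AL
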