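import Mathlib
import Fermat.Prelude.Thm_CuspForm_heckeTLin_comm
import Fermat.Prelude.Thm_CuspForm_heckeTLin_heckeULin_comm
import Fermat.Agent.S29.TransferPar_helper70
import Fermat.Agent.S41.BettiCusp_helper50
import Fermat.Agent.S41.TransferGamma0_helper6

/-!
# S41, node (COMM) (helper78): the Hecke transfers commute on the Betti lattice

The transfer operators `T_ℓ` (`ℓ ∤ M` prime) on additive characters of `Γ₀(M)` commute on
parabolic characters with values in `ℂ` or `ℤ`.  No coset bookkeeping: by the landed S21 every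
parabolic complex character is `periodHomPair M (f, g)`, the pair period map intertwines the
`T_ℓ` on cusp forms with the transfers (landed `H50.isHeckeTr_periodHomPair`), and the `T_ℓ`
commute on cusp forms (Prelude `CuspForm.heckeTLin_comm`).  The integral statement follows by
naturality of the transfer in the coefficient group (`ℤ → ℂ` is injective).

* `heckeTr_comm_complex`, `heckeTr_comm_int` : commutation in the vocabulary of the landed
  `S29.H06.heckeTr`;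
* `hecke_comm_complex`, `hecke_comm_int` : the same for `S41.H06.hecke` (transfer calculus);
* `isHeckeTr_comm_int`, `isHeckeTr_comm_complex` : relational forms;
* `heckeL hℓ hℓM` : the operator `T_ℓ` restricted to the lattice
  `parabolicHoms ℤ (Γ₀(M)) ℤ`, a `ℤ`-linear endomorphism, with `heckeL_comm`.
-/

set_option autoImplicit false

namespace Fermat.Agent.S41.H78

open CongruenceSubgroup ModularCurve ModularCurve.Period
open Fermat.Agent.S29
open scoped MatrixGroups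

/-! ### Complex coefficients -/

/-- **(COMM), complex coefficients.**  The Hecke transfers commute on parabolic complex
characters of `Γ₀(M)`. -/
theorem heckeTr_comm_complex {M l l' : ℕ} [NeZero M] (hl : l.Prime) (hlM : ¬ l ∣ M)
    (hl' : l'.Prime) (hl'M : ¬ l' ∣ M) (v : Additive (Gamma0 M) →+ ℂ)
    (hv : v ∈ parabolicHoms ℂ (Gamma0 M) ℂ) :
    H06.heckeTr hl hlM (H06.heckeTr hl' hl'M v) = H06.heckeTr hl' hl'M (H06.heckeTr hl hlM v) := by
  obtain ⟨-, hrange⟩ := Fermat.Agent.S21.result M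
  rw [← hrange] at hv
  obtain ⟨⟨f, g⟩, rfl⟩ := hv
  have h1 := H50.isHeckeTr_periodHomPair hl' hl'M f g
  have h2 := H50.isHeckeTr_periodHomPair hl hlM (CuspForm.heckeTLin 2 hl' hl'M f)
    (CuspForm.heckeTLin 2 hl' hl'M g)
  have h3 := H50.isHeckeTr_periodHomPair hl hlM f g
  have h4 := H50.isHeckeTr_periodHomPair hl' hl'M (CuspForm.heckeTLin 2 hl hlM f)
    (CuspForm.heckeTLin 2 hl hlM g)
  have hc := (CuspForm.heckeTLin_comm (N := M) 2 hl hlM hl' hl'M).eq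
  have hf : CuspForm.heckeTLin 2 hl hlM (CuspForm.heckeTLin 2 hl' hl'M f) =
      CuspForm.heckeTLin 2 hl' hl'M (CuspForm.heckeTLin 2 hl hlM f) :=
    congrArg (fun T : Module.End ℂ (CuspForm (Gamma0 M) 2) => T f) hc
  have hg : CuspForm.heckeTLin 2 hl hlM (CuspForm.heckeTLin 2 hl' hl'M g) =
      CuspForm.heckeTLin 2 hl' hl'M (CuspForm.heckeTLin 2 hl hlM g) :=
    congrArg (fun T : Module.End ℂ (CuspForm (Gamma0 M) 2) => T g) hc
  rw [← h1.eq_heckeTr hl' hl'M, ← h2.eq_heckeTr hl hlM, ← h3.eq_heckeTr hl hlM,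
    ← h4.eq_heckeTr hl' hl'M, hf, hg]

/-! ### Integer coefficients -/

theorem intCast_comp_injective {G : Type*} [AddZeroClass G] :
    Function.Injective fun ψ : G →+ ℤ => (Int.castAddHom ℂ).comp ψ := by
  intro ψ₁ ψ₂ h
  refine AddMonoidHom.ext fun x => ?_
  have h1 : ((ψ₁ x : ℤ) : ℂ) = ((ψ₂ x : ℤ) : ℂ) :=
    congrArg (fun φ : G →+ ℂ => φ x) h
  exact_mod_cast h1

theorem intCast_comp_mem_parabolicHoms {Γ : Subgroup SL(2, ℤ)} {χ : Additive Γ →+ ℤ}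
    (hχ : χ ∈ parabolicHoms ℤ Γ ℤ) :
    (Int.castAddHom ℂ).comp χ ∈ parabolicHoms ℂ Γ ℂ := by
  intro γ hγ
  show ((χ (Additive.ofMul γ) : ℤ) : ℂ) = 0
  rw [hχ γ hγ, Int.cast_zero]

/-- **(COMM), integer coefficients.**  The Hecke transfers commute on the Betti lattice
`parabolicHoms ℤ (Γ₀(M)) ℤ`. -/
theorem heckeTr_comm_int {M l l' : ℕ} [NeZero M] (hl : l.Prime) (hlM : ¬ l ∣ M)
    (hl' : l'.Prime) (hl'M : ¬ l' ∣ M) (χ : Additive (Gamma0 M) →+ ℤ)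
    (hχ : χ ∈ parabolicHoms ℤ (Gamma0 M) ℤ) :
    H06.heckeTr hl hlM (H06.heckeTr hl' hl'M χ) = H06.heckeTr hl' hl'M (H06.heckeTr hl hlM χ) := by
  apply intCast_comp_injective
  show (Int.castAddHom ℂ).comp (H06.heckeTr hl hlM (H06.heckeTr hl' hl'M χ)) =
    (Int.castAddHom ℂ).comp (H06.heckeTr hl' hl'M (H06.heckeTr hl hlM χ))
  rw [← H06.heckeTr_comp, ← H06.heckeTr_comp, ← H06.heckeTr_comp, ← H06.heckeTr_comp]
  exact heckeTr_comm_complex hl hlM hl' hl'M _ (intCast_comp_mem_parabolicHoms hχ)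

/-! ### The same in the vocabulary of the S41 transfer calculus -/

theorem hecke_comm_complex {M l l' : ℕ} [NeZero M] (hl : l.Prime) (hlM : ¬ l ∣ M)
    (hl' : l'.Prime) (hl'M : ¬ l' ∣ M) (v : Additive (Gamma0 M) →+ ℂ)
    (hv : v ∈ parabolicHoms ℂ (Gamma0 M) ℂ) :
    Fermat.Agent.S41.H06.hecke hl hlM (Fermat.Agent.S41.H06.hecke hl' hl'M v) =
      Fermat.Agent.S41.H06.hecke hl' hl'M (Fermat.Agent.S41.H06.hecke hl hlM v) := by
  simp only [Fermat.Agent.S41.H06.hecke_eq_heckeTr]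
  exact heckeTr_comm_complex hl hlM hl' hl'M v hv

theorem hecke_comm_int {M l l' : ℕ} [NeZero M] (hl : l.Prime) (hlM : ¬ l ∣ M)
    (hl' : l'.Prime) (hl'M : ¬ l' ∣ M) (χ : Additive (Gamma0 M) →+ ℤ)
    (hχ : χ ∈ parabolicHoms ℤ (Gamma0 M) ℤ) :
    Fermat.Agent.S41.H06.hecke hl hlM (Fermat.Agent.S41.H06.hecke hl' hl'M χ) =
      Fermat.Agent.S41.H06.hecke hl' hl'M (Fermat.Agent.S41.H06.hecke hl hlM χ) := by
  simp only [Fermat.Agent.S41.H06.hecke_eq_heckeTr]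
  exact heckeTr_comm_int hl hlM hl' hl'M χ hχ

/-! ### Relational forms -/

theorem isHeckeTr_comm_int {M l l' : ℕ} [NeZero M] (hl : l.Prime) (hlM : ¬ l ∣ M)
    (hl' : l'.Prime) (hl'M : ¬ l' ∣ M) {χ a b c d : Additive (Gamma0 M) →+ ℤ}
    (hχ : χ ∈ parabolicHoms ℤ (Gamma0 M) ℤ)
    (h1 : H06.IsHeckeTr M l χ a) (h2 : H06.IsHeckeTr M l' a b)
    (h3 : H06.IsHeckeTr M l' χ c) (h4 : H06.IsHeckeTr M l c d) : b = d := by
  rw [h2.eq_heckeTr hl' hl'M, h1.eq_heckeTr hl hlM, h4.eq_heckeTr hl hlM, h3.eq_heckeTr hl' hl'M]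
  exact (heckeTr_comm_int hl hlM hl' hl'M χ hχ).symm

theorem isHeckeTr_comm_complex {M l l' : ℕ} [NeZero M] (hl : l.Prime) (hlM : ¬ l ∣ M)
    (hl' : l'.Prime) (hl'M : ¬ l' ∣ M) {χ a b c d : Additive (Gamma0 M) →+ ℂ}
    (hχ : χ ∈ parabolicHoms ℂ (Gamma0 M) ℂ)
    (h1 : H06.IsHeckeTr M l χ a) (h2 : H06.IsHeckeTr M l' a b)
    (h3 : H06.IsHeckeTr M l' χ c) (h4 : H06.IsHeckeTr M l c d) : b = d := by
  rw [h2.eq_heckeTr hl' hl'M, h1.eq_heckeTr hl hlM, h4.eq_heckeTr hl hlM, h3.eq_heckeTr hl' hl'M]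
  exact (heckeTr_comm_complex hl hlM hl' hl'M χ hχ).symm

/-! ### The operators on the lattice -/

theorem heckeTr_mem_parabolicHoms {M l : ℕ} (hl : l.Prime) (hlM : ¬ l ∣ M)
    {χ : Additive (Gamma0 M) →+ ℤ} (hχ : χ ∈ parabolicHoms ℤ (Gamma0 M) ℤ) :
    H06.heckeTr hl hlM χ ∈ parabolicHoms ℤ (Gamma0 M) ℤ :=
  H70.IsHeckeTr.mem_parabolicHoms hl hlM (H06.isHeckeTr_heckeTr hl hlM χ) hχ

/-- The Hecke transfer `T_ℓ` (`ℓ ∤ M`) as a `ℤ`-linear endomorphism of the Betti lattice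
`parabolicHoms ℤ (Γ₀(M)) ℤ`. -/
noncomputable def heckeL {M l : ℕ} (hl : l.Prime) (hlM : ¬ l ∣ M) :
    parabolicHoms ℤ (Gamma0 M) ℤ →ₗ[ℤ] parabolicHoms ℤ (Gamma0 M) ℤ :=
  ((H06.heckeTr hl hlM :
      (Additive (Gamma0 M) →+ ℤ) →+ (Additive (Gamma0 M) →+ ℤ)).toIntLinearMap).restrict
    fun _ hχ => heckeTr_mem_parabolicHoms hl hlM hχ

theorem heckeL_coe {M l : ℕ} (hl : l.Prime) (hlM : ¬ l ∣ M)
    (x : parabolicHoms ℤ (Gamma0 M) ℤ) :
    ((heckeL hl hlM x : parabolicHoms ℤ (Gamma0 M) ℤ) : Additive (Gamma0 M) →+ ℤ) =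
      H06.heckeTr hl hlM (x : Additive (Gamma0 M) →+ ℤ) := rfl

theorem heckeL_coe_hecke {M l : ℕ} (hl : l.Prime) (hlM : ¬ l ∣ M)
    (x : parabolicHoms ℤ (Gamma0 M) ℤ) :
    ((heckeL hl hlM x : parabolicHoms ℤ (Gamma0 M) ℤ) : Additive (Gamma0 M) →+ ℤ) =
      Fermat.Agent.S41.H06.hecke hl hlM (x : Additive (Gamma0 M) →+ ℤ) := by
  rw [heckeL_coe, Fermat.Agent.S41.H06.hecke_eq_heckeTr]

theorem isHeckeTr_heckeL {M l : ℕ} (hl : l.Prime) (hlM : ¬ l ∣ M)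
    (x : parabolicHoms ℤ (Gamma0 M) ℤ) :
    H06.IsHeckeTr M l (x : Additive (Gamma0 M) →+ ℤ)
      ((heckeL hl hlM x : parabolicHoms ℤ (Gamma0 M) ℤ) : Additive (Gamma0 M) →+ ℤ) :=
  H06.isHeckeTr_heckeTr hl hlM _

/-- **(COMM), packaged.**  The operators `T_ℓ`, `T_ℓ'` commute on the Betti lattice. -/
theorem heckeL_comm {M l l' : ℕ} [NeZero M] (hl : l.Prime) (hlM : ¬ l ∣ M)
    (hl' : l'.Prime) (hl'M : ¬ l' ∣ M) :
    Commute (heckeL (M := M) hl hlM) (heckeL (M := M) hl' hl'M) := by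
  refine LinearMap.ext fun x => Subtype.ext ?_
  show H06.heckeTr hl hlM (H06.heckeTr hl' hl'M (x : Additive (Gamma0 M) →+ ℤ)) =
    H06.heckeTr hl' hl'M (H06.heckeTr hl hlM (x : Additive (Gamma0 M) →+ ℤ))
  exact heckeTr_comm_int hl hlM hl' hl'M _ x.2

theorem heckeL_heckeL {M l l' : ℕ} [NeZero M] (hl : l.Prime) (hlM : ¬ l ∣ M)
    (hl' : l'.Prime) (hl'M : ¬ l' ∣ M) (x : parabolicHoms ℤ (Gamma0 M) ℤ) :
    heckeL hl hlM (heckeL hl' hl'M x) = heckeL hl' hl'M (heckeL hl hlM x) :=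
  congrArg (fun T : Module.End ℤ (parabolicHoms ℤ (Gamma0 M) ℤ) => T x)
    (heckeL_comm (M := M) hl hlM hl' hl'M).eq

end Fermat.Agent.S41.H78
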