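/-
S41 (hf), abstract form (helper9).  Mathlib only.

`hf_of_eigen`: the hypothesis `hf` of `H71.lr_core` from a common eigenvector with integral
eigenvalues (Nakayama over `R[X]`, `X ↦ t`).
-/
import Mathlib

set_option autoImplicit false

namespace Fermat.Agent.S41.H09

section Hf

/-- ABSTRACT `hf`.  `L` a finitely generated abelian group with an action of a commutative ring `R`
and an `R`-linear endomorphism `t`; `ι : L → V` an additive map into a complex vector space on
which `R` and `t` act compatibly (`ρ`, `τ`); `P ≠ 0` in the `ℂ`-span of `ι L` is a common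
eigenvector with integral eigenvalues `χ r`, `α`; `𝔪` a proper ideal of the ring of algebraic
integers containing `χ 𝔫` and `α - c`.  Then `𝔫 L + (t - c) L ≠ L`. -/
theorem hf_of_eigen {R : Type*} [CommRing R] {L : Type*} [AddCommGroup L] [Module R L]
    [Module.Finite ℤ L] (𝔫 : Ideal R) (t : L →ₗ[R] L) (c : ℤ)
    {V : Type*} [AddCommGroup V] [Module ℂ V] (ι : L →+ V)
    (P : V) (hP : P ≠ 0) (hspan : P ∈ Submodule.span ℂ (Set.range ι))
    (ρ : R → V →ₗ[ℂ] V) (hρ : ∀ r x, ι (r • x) = ρ r (ι x))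
    (τ : V →ₗ[ℂ] V) (hτ : ∀ x, ι (t x) = τ (ι x))
    (χ : R →+* integralClosure ℤ ℂ) (hχ : ∀ r, ρ r P = ((χ r : integralClosure ℤ ℂ) : ℂ) • P)
    (α : integralClosure ℤ ℂ) (hα : τ P = (α : ℂ) • P)
    (𝔪 : Ideal (integralClosure ℤ ℂ)) (h𝔪 : 𝔪 ≠ ⊤) (hχ𝔫 : ∀ r ∈ 𝔫, χ r ∈ 𝔪)
    (hαc : α - (c : integralClosure ℤ ℂ) ∈ 𝔪) :
    ∃ x : L, x ∉ 𝔫 • (⊤ : Submodule R L) ⊔
      LinearMap.range (t - c • (LinearMap.id : L →ₗ[R] L)) := by
  classical
  by_contra hcon
  simp only [not_exists, not_not] at hcon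
  -- the evaluation `R[X] → Z̄`
  let e : Polynomial R →+* integralClosure ℤ ℂ := Polynomial.eval₂RingHom χ α
  have he : ∀ q, e q = Polynomial.eval₂ χ α q := fun _ => rfl
  -- the ideal `(𝔫, X - c)` of `R[X]`
  let 𝔟 : Ideal (Polynomial R) :=
    Ideal.map Polynomial.C 𝔫 ⊔ Ideal.span {Polynomial.X - Polynomial.C (c : R)}
  have h𝔟 : 𝔟 ≤ Ideal.comap e 𝔪 := by
    refine sup_le ?_ ?_
    · rw [Ideal.map_le_iff_le_comap]
      intro r hr
      rw [Ideal.mem_comap, Ideal.mem_comap, he, Polynomial.eval₂_C]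
      exact hχ𝔫 r hr
    · rw [Ideal.span_le]
      rintro _ rfl
      show e (Polynomial.X - Polynomial.C (c : R)) ∈ 𝔪
      rw [he, Polynomial.eval₂_sub, Polynomial.eval₂_X, Polynomial.eval₂_C, map_intCast]
      exact hαc
  -- Nakayama for the `R[X]`-module `L` (via `t`)
  have hfg : (⊤ : Submodule (Polynomial R) (Module.AEval' t)).FG := by
    obtain ⟨s, hs⟩ := (Module.Finite.fg_top : (⊤ : Submodule ℤ L).FG)
    refine ⟨s.image (Module.AEval'.of t), ?_⟩
    rw [eq_top_iff]
    rintro m -
    obtain ⟨x, rfl⟩ := (Module.AEval'.of t).surjective m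
    have hx : x ∈ Submodule.span ℤ (s : Set L) := by rw [hs]; trivial
    induction hx using Submodule.span_induction with
    | mem y hy =>
      exact Submodule.subset_span
        (Finset.mem_coe.mpr (Finset.mem_image_of_mem _ (Finset.mem_coe.mp hy)))
    | zero => simp
    | add y z _ _ hy hz => rw [map_add]; exact add_mem hy hz
    | smul n y _ hy =>
      have : Module.AEval'.of t (n • y) = (n : Polynomial R) • Module.AEval'.of t y := by
        rw [Int.cast_smul_eq_zsmul, map_zsmul]
      rw [this]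
      exact Submodule.smul_mem _ _ hy
  have hle : (⊤ : Submodule (Polynomial R) (Module.AEval' t)) ≤ 𝔟 • ⊤ := by
    rintro m -
    obtain ⟨x, rfl⟩ := (Module.AEval'.of t).surjective m
    have hx := hcon x
    rw [Submodule.mem_sup] at hx
    obtain ⟨y, hy, z, hz, rfl⟩ := hx
    rw [map_add]
    refine add_mem ?_ ?_
    · -- y ∈ 𝔫 • ⊤
      refine Submodule.smul_induction_on hy ?_ ?_
      · intro r hr n _
        have : Module.AEval'.of t (r • n) = Polynomial.C r • Module.AEval'.of t n := by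
          rw [Module.AEval.C_smul, map_smul]
        rw [this]
        exact Submodule.smul_mem_smul (Ideal.mem_sup_left (Ideal.mem_map_of_mem _ hr))
          Submodule.mem_top
      · intro u v hu hv
        rw [map_add]; exact add_mem hu hv
    · obtain ⟨w, rfl⟩ := hz
      have : Module.AEval'.of t ((t - c • (LinearMap.id : L →ₗ[R] L)) w)
          = (Polynomial.X - Polynomial.C (c : R)) • Module.AEval'.of t w := by
        rw [sub_smul, Module.AEval'.X_smul_of, Module.AEval.C_smul, LinearMap.sub_apply,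
          map_sub, LinearMap.smul_apply, LinearMap.id_apply, ← map_smul, Int.cast_smul_eq_zsmul]
      rw [this]
      exact Submodule.smul_mem_smul (Ideal.mem_sup_right (Ideal.subset_span rfl))
        Submodule.mem_top
  obtain ⟨p, hp1, hp0⟩ :=
    Submodule.exists_sub_one_mem_and_smul_eq_zero_of_fg_of_le_smul 𝔟 _ hfg hle
  have hpL : ∀ x : L, Polynomial.aeval t p x = 0 := by
    intro x
    have h := hp0 (Module.AEval'.of t x) Submodule.mem_top
    rw [← Module.AEval.of_aeval_smul] at h
    have h2 := (Module.AEval'.of t).injective (h.trans (map_zero _).symm)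
    simpa using h2
  -- powers of `t` and `τ`
  have hτn : ∀ (n : ℕ) (x : L), ι ((t ^ n) x) = (τ ^ n) (ι x) := by
    intro n
    induction n with
    | zero => intro x; simp
    | succ n ih =>
      intro x
      rw [pow_succ, pow_succ, Module.End.mul_apply, Module.End.mul_apply, ih, hτ]
  have hαn : ∀ n : ℕ, (τ ^ n) P = ((α : ℂ) ^ n) • P := by
    intro n
    induction n with
    | zero => simp
    | succ n ih =>
      rw [pow_succ, Module.End.mul_apply, hα, map_smul, ih, smul_smul, pow_succ, mul_comm]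
  -- every polynomial acts on `V` compatibly
  have key : ∀ q : Polynomial R, ∃ Ω : V →ₗ[ℂ] V,
      (∀ x, ι (Polynomial.aeval t q x) = Ω (ι x)) ∧
        Ω P = ((e q : integralClosure ℤ ℂ) : ℂ) • P := by
    intro q
    induction q using Polynomial.induction_on' with
    | add q₁ q₂ h₁ h₂ =>
      obtain ⟨Ω₁, h₁a, h₁b⟩ := h₁
      obtain ⟨Ω₂, h₂a, h₂b⟩ := h₂
      refine ⟨Ω₁ + Ω₂, fun x => ?_, ?_⟩
      · rw [map_add, LinearMap.add_apply, map_add, h₁a, h₂a, LinearMap.add_apply]
      · rw [LinearMap.add_apply, h₁b, h₂b, map_add, ← add_smul]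
        simp
    | monomial n r =>
      refine ⟨ρ r ∘ₗ (τ ^ n), fun x => ?_, ?_⟩
      · rw [Polynomial.aeval_monomial, Module.End.mul_apply, LinearMap.comp_apply, ← hτn,
          ← hρ]
        simp
      · rw [LinearMap.comp_apply, hαn, map_smul, hχ, he, Polynomial.eval₂_monomial, smul_smul]
        simp [mul_comm]
  obtain ⟨Ω, hΩ1, hΩ2⟩ := key p
  have hΩP : Ω P = 0 := by
    have hle' : Submodule.span ℂ (Set.range ι) ≤ LinearMap.ker Ω := by
      rw [Submodule.span_le]
      rintro _ ⟨x, rfl⟩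
      show Ω (ι x) = 0
      rw [← hΩ1, hpL, map_zero]
    exact hle' hspan
  rw [hΩP] at hΩ2
  have hep : e p = 0 := by
    rcases smul_eq_zero.mp hΩ2.symm with h | h
    · exact Subtype.ext h
    · exact absurd h hP
  have h1 : e (p - 1) ∈ 𝔪 := h𝔟 hp1
  rw [map_sub, hep, map_one, zero_sub, neg_mem_iff] at h1
  exact h𝔪 ((Ideal.eq_top_iff_one 𝔪).mpr h1)

end Hf

end Fermat.Agent.S41.H09
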