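import Mathlib
import Fermat.Agent.S41.HfInst_helper74
import Fermat.Agent.S41.HeckeMod_helper50

/-!
# S41, node (HF-INST), concrete plug (helper74)

`hf_inst` specialised to the landed vocabulary: the module structure `H50.latModule N pr hpr hprN`
on the Betti lattice, `t = latTLin` (`T_{q'}` as a linear map) and `𝔫 = H59.evalIdeal p a_ℓ(W)`.
-/

set_option autoImplicit false

namespace Fermat.Agent.S41.H74

open CongruenceSubgroup ModularCurve ModularCurve.Period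
open Fermat.Agent.S29 Fermat.Agent.S21
open scoped MatrixGroups

/-- `T_{q'}` on the Betti lattice of level `N`, as a linear map for the module structure
`H50.latModule N pr hpr hprN`. -/
noncomputable def latTLin (N : ℕ) [NeZero N] {ι : Type*} (pr : ι → ℕ)
    (hpr : ∀ i, (pr i).Prime) (hprN : ∀ i, ¬ pr i ∣ N) {q' : ℕ} (hq' : q'.Prime)
    (hq'N : ¬ q' ∣ N) :
    letI := H50.latModule N pr hpr hprN
    parabolicHoms ℤ (Gamma0 N) ℤ →ₗ[MvPolynomial ι ℤ] parabolicHoms ℤ (Gamma0 N) ℤ :=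
  letI := H50.latModule N pr hpr hprN
  H50.linearOfX (H50.latT hq' hq'N) (by
    intro i x
    rw [H50.latModule_X_smul, H50.latModule_X_smul]
    exact H50.latT_comm hq' hq'N (hpr i) (hprN i) x)

theorem latTLin_apply (N : ℕ) [NeZero N] {ι : Type*} (pr : ι → ℕ)
    (hpr : ∀ i, (pr i).Prime) (hprN : ∀ i, ¬ pr i ∣ N) {q' : ℕ} (hq' : q'.Prime)
    (hq'N : ¬ q' ∣ N) (x : parabolicHoms ℤ (Gamma0 N) ℤ) :
    latTLin N pr hpr hprN hq' hq'N x = H50.latT hq' hq'N x := rfl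

/-- **(HF-INST), concrete plug**: `ε`, `hε`, `hf` of `H71.lr_core` for
`R = MvPolynomial ι ℤ` acting on `L = parabolicHoms ℤ Γ₀(N) ℤ` through `H50.latModule`,
`𝔫 = H59.evalIdeal p (a_{pr i}(W))`, `s = q' + 1`, `t = latTLin` (`= T_{q'}`). -/
theorem hf_inst_latModule {W : WeierstrassCurve ℤ} {p N q' : ℕ} [NeZero N] (hq' : q'.Prime)
    (hq'N : ¬ q' ∣ N)
    (f : CuspForm (Gamma0 N) 2) (𝔪 : Ideal (integralClosure ℤ ℂ))
    (hf : f.IsNormalizedEigenform) (hmax : 𝔪.IsMaximal) (hpm : (p : integralClosure ℤ ℂ) ∈ 𝔪)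
    (hcong : ∀ ℓ : ℕ, ℓ.Prime → W.IsGoodPrimeFor ℓ → ¬ ℓ ∣ N → ℓ ≠ p →
      ∃ a : integralClosure ℤ ℂ, (a : ℂ) = ModularFormClass.qCoeff f ℓ ∧
        a - ((W.apOfModel ℓ : ℤ) : integralClosure ℤ ℂ) ∈ 𝔪)
    (hLR : ∃ a : integralClosure ℤ ℂ, (a : ℂ) = ModularFormClass.qCoeff f q' ∧
      a ^ 2 - ((q' : integralClosure ℤ ℂ) + 1) ^ 2 ∈ 𝔪)
    {ι : Type*} (pr : ι → ℕ) (hpr : ∀ i, (pr i).Prime) (hprN : ∀ i, ¬ pr i ∣ N)
    (hgood : ∀ i, W.IsGoodPrimeFor (pr i)) (hprp : ∀ i, pr i ≠ p) :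
    letI := H50.latModule N pr hpr hprN
    ∃ ε : ℤ, (ε = 1 ∨ ε = -1) ∧ ∃ x : parabolicHoms ℤ (Gamma0 N) ℤ,
      x ∉ H59.evalIdeal p (fun i => W.apOfModel (pr i)) •
          (⊤ : Submodule (MvPolynomial ι ℤ) (parabolicHoms ℤ (Gamma0 N) ℤ)) ⊔
        LinearMap.range (latTLin N pr hpr hprN hq' hq'N - (ε * ((q' : ℤ) + 1)) •
          (LinearMap.id : parabolicHoms ℤ (Gamma0 N) ℤ →ₗ[MvPolynomial ι ℤ]
            parabolicHoms ℤ (Gamma0 N) ℤ)) := by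
  letI := H50.latModule N pr hpr hprN
  refine hf_inst hq' hq'N f 𝔪 hf hmax hpm hcong hLR pr hpr hprN hgood hprp ?_
    (latTLin N pr hpr hprN hq' hq'N) ?_ (H59.evalIdeal p (fun i => W.apOfModel (pr i))) ?_
  · intro i x
    rw [H50.latModule_X_smul]
    rfl
  · intro x
    rfl
  · intro r hr
    exact (H59.mem_evalIdeal_iff_dvd p _ r).1 hr

end Fermat.Agent.S41.H74
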