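import Mathlib

/-!
# S41, node (C), route C-I: the abstract `hkey` lemma (helper77)

Pure algebra (Mathlib only).  `B`, `B'` are the intersection forms on `Γ × Γ`, `Γ' × Γ'`
(second slot = the hom slot), `t` the transfer components of `cores : Hom(Γ') → Hom(Γ)`,
`s` those of the Hecke operator `T_r` on `Hom(Γ)`, `κ` the automorphism of `Γ'` behind the
Atkin–Lehner operator `w`.  Every leaf of the route ((PAR), (ADJ), (SA), (INJ), Ihara) enters as one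
hypothesis; the conclusion is the `hkey` hypothesis of the dual-Ihara consumer.
-/

set_option autoImplicit false

namespace Fermat.Agent.S41.H77

open Finset

section additive

variable {Γ : Type*} [Group Γ]

/-- A multiplicative-to-additive function kills `1`. -/
theorem addfun_one {f : Γ → ℤ} (hf : ∀ a b, f (a * b) = f a + f b) : f 1 = 0 := by
  have h := hf 1 1
  rw [mul_one] at h
  linarith

theorem addfun_inv {f : Γ → ℤ} (hf : ∀ a b, f (a * b) = f a + f b) (a : Γ) : f a⁻¹ = - f a := by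
  have h := hf a a⁻¹
  rw [mul_inv_cancel, addfun_one hf] at h
  linarith

theorem addfun_pow {f : Γ → ℤ} (hf : ∀ a b, f (a * b) = f a + f b) (a : Γ) (n : ℕ) :
    f (a ^ n) = n * f a := by
  induction n with
  | zero => simp [addfun_one hf]
  | succ n ih => rw [pow_succ, hf, ih]; push_cast; ring

theorem addfun_zpow {f : Γ → ℤ} (hf : ∀ a b, f (a * b) = f a + f b) (a : Γ) (n : ℤ) :
    f (a ^ n) = n * f a := by
  cases n with
  | ofNat n => simpa using addfun_pow hf a n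
  | negSucc n =>
    rw [zpow_negSucc, addfun_inv hf, addfun_pow hf]
    push_cast [Int.negSucc_eq]
    ring

theorem addfun_list_prod {f : Γ → ℤ} (hf : ∀ a b, f (a * b) = f a + f b) (l : List Γ) :
    f l.prod = (l.map f).sum := by
  induction l with
  | nil => simp [addfun_one hf]
  | cons a l ih => simp [hf, ih]

/-- For an additive function `f` and a finite family `a : Y → Γ` there is one group element
`w` with `f' w = ∑ y, f' (a y) - c * f' γ` simultaneously for ALL additive `f'`. -/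
theorem exists_elt_sum_sub {Y : Type*} [Fintype Y] (a : Y → Γ) (γ : Γ) (c : ℤ) :
    ∃ w : Γ, ∀ f : Γ → ℤ, (∀ a b, f (a * b) = f a + f b) → f w = ∑ y, f (a y) - c * f γ := by
  classical
  refine ⟨((Finset.univ : Finset Y).toList.map a).prod * γ ^ (-c), fun f hf => ?_⟩
  rw [hf, addfun_list_prod hf, addfun_zpow hf, List.map_map]
  have h : (List.map (f ∘ a) (Finset.univ : Finset Y).toList).sum = ∑ y, f (a y) := by
    exact Finset.sum_map_toList (Finset.univ : Finset Y) (fun y => f (a y))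
  rw [h]
  ring

end additive

/-- **Abstract `hkey`** (route C-I, chain (PAR) + (ADJ) + Ihara + (SA) + (INJ)). -/
theorem hkey_of_form {Γ Γ' X Y : Type*} [Group Γ] [Group Γ'] [Fintype X] [Fintype Y]
    (p : ℕ) (c : ℤ)
    (B : Γ → Γ → ℤ) (B' : Γ' → Γ' → ℤ) (ι : Γ' → Γ) (κ κ' : Γ' → Γ')
    (t : X → Γ → Γ') (s : Y → Γ → Γ)
    (Lpar : (Γ → ℤ) → Prop) (Lpar' : (Γ' → ℤ) → Prop)
    (hBmul : ∀ g a b, B g (a * b) = B g a + B g b)
    (hLmul : ∀ lam, Lpar lam → ∀ a b, lam (a * b) = lam a + lam b)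
    (hz : ∀ δ', Lpar' (B' δ'))
    (hadjc : ∀ δ' γ, ∑ x, B' δ' (t x γ) = B (ι δ') γ)
    (hadjw : ∀ δ' γ, ∑ x, B' δ' (κ (t x γ)) = B (ι (κ' δ')) γ)
    (hIh : ∀ γ₁ γ₂, (∀ δ', (p : ℤ) ∣ B (ι δ') γ₁ + B (ι (κ' δ')) γ₂) →
      ∀ δ, (p : ℤ) ∣ ∑ y, B (s y δ) γ₁ - c * B δ γ₁ ∧ (p : ℤ) ∣ ∑ y, B (s y δ) γ₂ - c * B δ γ₂)
    (hsa : ∀ δ γ, ∑ y, B (s y δ) γ = ∑ y, B δ (s y γ))
    (hinj : ∀ w, (∀ δ, (p : ℤ) ∣ B δ w) → ∀ lam, Lpar lam → (p : ℤ) ∣ lam w) :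
    ∀ γ₁ γ₂ : Γ,
      (∀ z : Γ' → ℤ, Lpar' z → (p : ℤ) ∣ ∑ x, z (t x γ₁) + ∑ x, z (κ (t x γ₂))) →
      ∀ lam₁ lam₂ : Γ → ℤ, Lpar lam₁ → Lpar lam₂ →
        (p : ℤ) ∣ (∑ y, lam₁ (s y γ₁) - c * lam₁ γ₁) + (∑ y, lam₂ (s y γ₂) - c * lam₂ γ₂) := by
  intro γ₁ γ₂ hyp lam₁ lam₂ h₁ h₂
  have hI := hIh γ₁ γ₂ (fun δ' => by
    have := hyp (B' δ') (hz δ')
    rwa [hadjc, hadjw] at this)
  obtain ⟨w₁, hw₁⟩ := exists_elt_sum_sub (fun y => s y γ₁) γ₁ c
  obtain ⟨w₂, hw₂⟩ := exists_elt_sum_sub (fun y => s y γ₂) γ₂ c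
  have e₁ : (p : ℤ) ∣ lam₁ w₁ := hinj w₁ (fun δ => by
    rw [hw₁ (B δ) (hBmul δ), ← hsa]
    exact (hI δ).1) lam₁ h₁
  have e₂ : (p : ℤ) ∣ lam₂ w₂ := hinj w₂ (fun δ => by
    rw [hw₂ (B δ) (hBmul δ), ← hsa]
    exact (hI δ).2) lam₂ h₂
  rw [hw₁ lam₁ (hLmul lam₁ h₁)] at e₁
  rw [hw₂ lam₂ (hLmul lam₂ h₂)] at e₂
  exact dvd_add e₁ e₂

end Fermat.Agent.S41.H77
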