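/-
IH-4 of the S41 tree: the two Dirichlet / quadratic reciprocity lemmas (Lemma A and Lemma D)
used by the elementary proof of Ihara's lemma in pair form.  Mathlib only.
-/
import Mathlib

set_option autoImplicit false

namespace Fermat.Agent.S41.H07

/-! ### Elementary congruence helpers -/

/-- Chinese remainder theorem over `ℤ` for two coprime natural moduli. -/
theorem crt_int {L m : ℕ} (h : Nat.Coprime L m) (α β : ℤ) :
    ∃ x : ℤ, x ≡ α [ZMOD (L : ℤ)] ∧ x ≡ β [ZMOD (m : ℤ)] := by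
  obtain ⟨u, v, huv⟩ := Nat.isCoprime_iff_coprime.mpr h
  refine ⟨α * (v * m) + β * (u * L), ?_, ?_⟩
  · rw [Int.modEq_iff_dvd]
    exact ⟨u * (α - β), by linear_combination (-α) * huv⟩
  · rw [Int.modEq_iff_dvd]
    exact ⟨v * (β - α), by linear_combination (-β) * huv⟩

/-- Coprimality to the modulus transfers along a congruence. -/
theorem isCoprime_of_modEq {x α L : ℤ} (h : x ≡ α [ZMOD L]) (hα : IsCoprime α L) :
    IsCoprime x L := by
  obtain ⟨k, hk⟩ := h.dvd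
  have hx : x = α + L * (-k) := by linear_combination (-1 : ℤ) * hk
  rw [hx]
  exact hα.add_mul_left_left (-k)

/-- Dirichlet for two coprime moduli at once. -/
theorem exists_prime_two_mod {L m : ℕ} (hL : 0 < L) (hm : 0 < m) (h : Nat.Coprime L m)
    {α β : ℤ} (hα : IsCoprime α (L : ℤ)) (hβ : IsCoprime β (m : ℤ)) (n : ℕ) :
    ∃ p : ℕ, n < p ∧ p.Prime ∧ (p : ℤ) ≡ α [ZMOD (L : ℤ)] ∧ (p : ℤ) ≡ β [ZMOD (m : ℤ)] := by
  obtain ⟨x, hxα, hxβ⟩ := crt_int h α β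
  have hx : IsCoprime x ((L * m : ℕ) : ℤ) := by
    push_cast
    exact (isCoprime_of_modEq hxα hα).mul_right (isCoprime_of_modEq hxβ hβ)
  obtain ⟨p, hpn, hp, hpx⟩ :=
    Nat.forall_exists_prime_gt_and_zmodEq n (q := L * m) (Nat.mul_pos hL hm).ne' hx
  push_cast at hpx
  exact ⟨p, hpn, hp, (hpx.of_mul_right _).trans hxα, (hpx.of_mul_left _).trans hxβ⟩

/-! ### The group-theoretic core -/

/-- If `ρ` does not divide the index of `⟨q⟩` in `(ℤ/a)ˣ`, then some power `r ^ t` with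
`ρ ∤ t` is a power of `q` modulo `a`. -/
theorem core {a q r ρ : ℕ} [NeZero a] (hq : Nat.Coprime q a) (hr : Nat.Coprime r a)
    (hidx : ¬ ρ ∣ (Subgroup.zpowers (ZMod.unitOfCoprime q hq)).index) :
    ∃ t k : ℕ, 0 < t ∧ ¬ ρ ∣ t ∧ r ^ t ≡ q ^ k [MOD a] := by
  have hmem : (ZMod.unitOfCoprime r hr) ^ (Subgroup.zpowers (ZMod.unitOfCoprime q hq)).index ∈
      Subgroup.zpowers (ZMod.unitOfCoprime q hq) := Subgroup.pow_index_mem _ _
  rw [← mem_powers_iff_mem_zpowers] at hmem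
  obtain ⟨k, hk⟩ := hmem
  refine ⟨_, k, Nat.pos_of_ne_zero Subgroup.index_ne_zero_of_finite, hidx, ?_⟩
  have h2 := congrArg (fun u : (ZMod a)ˣ => (u : ZMod a)) hk
  simp only [Units.val_pow_eq_pow_val, ZMod.coe_unitOfCoprime] at h2
  rw [← ZMod.natCast_eq_natCast_iff]
  push_cast
  exact h2.symm

/-- The index of `⟨q⟩` divides `φ(a)`. -/
theorem not_dvd_index_of_totient {a q ρ : ℕ} [NeZero a] (hq : Nat.Coprime q a)
    (h : ¬ ρ ∣ a.totient) :
    ¬ ρ ∣ (Subgroup.zpowers (ZMod.unitOfCoprime q hq)).index := by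
  intro hd
  apply h
  have h1 := (Subgroup.zpowers (ZMod.unitOfCoprime q hq)).index_dvd_card
  rw [Nat.card_eq_fintype_card, ZMod.card_units_eq_totient] at h1
  exact hd.trans h1

/-- If `q` is a quadratic non-residue modulo the prime `p`, the index of `⟨q⟩` is odd. -/
theorem not_two_dvd_index {p q : ℕ} [Fact p.Prime] (hq : Nat.Coprime q p)
    (hns : ¬ IsSquare ((q : ℕ) : ZMod p)) :
    ¬ 2 ∣ (Subgroup.zpowers (ZMod.unitOfCoprime q hq)).index := by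
  rintro ⟨m, hm⟩
  apply hns
  have hp : p.Prime := Fact.out
  have hq0 : ((q : ℕ) : ZMod p) ≠ 0 := by
    intro h0
    rw [ZMod.natCast_eq_zero_iff] at h0
    have h1 : p ∣ Nat.gcd q p := Nat.dvd_gcd h0 dvd_rfl
    rw [hq] at h1
    exact hp.one_lt.ne' (Nat.dvd_one.mp h1)
  rw [ZMod.euler_criterion p hq0]
  have h1 := (Subgroup.zpowers (ZMod.unitOfCoprime q hq)).index_mul_card
  rw [Nat.card_zpowers, Nat.card_eq_fintype_card, ZMod.card_units_eq_totient,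
    Nat.totient_prime hp, hm] at h1
  have h2 : p / 2 = orderOf (ZMod.unitOfCoprime q hq) * m := by
    have h3 : p - 1 = 2 * (orderOf (ZMod.unitOfCoprime q hq) * m) := by rw [← h1]; ring
    have := hp.two_le
    omega
  have h3 : (ZMod.unitOfCoprime q hq) ^ (p / 2) = 1 := by
    rw [h2, pow_mul, pow_orderOf_eq_one, one_pow]
  have h4 := congrArg (fun u : (ZMod p)ˣ => (u : ZMod p)) h3
  simpa [ZMod.coe_unitOfCoprime] using h4

/-! ### Primes with `q` a quadratic non-residue (the case `ρ = 2` of Lemma D) -/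

/-- An integer coprime to a multiple of `4` is `1` or `3` modulo `4`. -/
theorem emod_four_of_isCoprime {L : ℕ} (h4 : 4 ∣ L) {α : ℤ} (hα : IsCoprime α (L : ℤ)) :
    α % 4 = 1 ∨ α % 4 = 3 := by
  have h2 : IsCoprime α (2 : ℤ) := by
    have h2L : (2 : ℤ) ∣ (L : ℤ) := by
      have : (2 : ℕ) ∣ L := (by norm_num : (2 : ℕ) ∣ 4).trans h4
      exact_mod_cast this
    exact hα.of_isCoprime_of_dvd_right h2L
  have hodd : α % 2 = 1 := by
    rcases Int.emod_two_eq_zero_or_one α with h | h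
    · exfalso
      have hd : (2 : ℤ) ∣ α := Int.dvd_of_emod_eq_zero h
      have : IsUnit (2 : ℤ) := h2.isUnit_of_dvd' hd dvd_rfl
      rw [Int.isUnit_iff] at this
      omega
    · exact h
  omega

/-- Residue of a natural number modulo `4` from an integer congruence modulo a multiple of `4`. -/
theorem nat_mod_four_of_modEq {L p : ℕ} (h4 : 4 ∣ L) {α : ℤ} (h : (p : ℤ) ≡ α [ZMOD (L : ℤ)]) :
    ((p % 4 : ℕ) : ℤ) = α % 4 := by
  have h4L : (4 : ℤ) ∣ (L : ℤ) := by exact_mod_cast h4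
  have h' : (p : ℤ) ≡ α [ZMOD 4] := h.of_dvd h4L
  unfold Int.ModEq at h'
  omega

/-- `q` odd, `4 ∣ L`: a prime `p ≡ α (mod L)` such that `q` is a non-residue modulo `p`. -/
theorem exists_prime_nonres_odd {q L : ℕ} (hq : q.Prime) (hq2 : q ≠ 2) (hL : 0 < L) (h4 : 4 ∣ L)
    (hLq : Nat.Coprime L q) {α : ℤ} (hα : IsCoprime α (L : ℤ)) :
    ∃ p : ℕ, q < p ∧ p.Prime ∧ (p : ℤ) ≡ α [ZMOD (L : ℤ)] ∧ ¬ IsSquare ((q : ℕ) : ZMod p) := by
  have : Fact q.Prime := ⟨hq⟩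
  have hα4 := emod_four_of_isCoprime h4 hα
  have hq4 : q % 4 = 1 ∨ q % 4 = 3 := by
    rcases hq.eq_two_or_odd with h | h
    · exact absurd h hq2
    · omega
  have hq2' := hq.two_le
  by_cases hcond : α % 4 = 1 ∨ q % 4 = 1
  · obtain ⟨b, hb⟩ := FiniteField.exists_nonsquare (F := ZMod q)
      (by rw [ZMod.ringChar_zmod_n]; exact hq2)
    have hβ : IsCoprime ((b.val : ℕ) : ℤ) (q : ℤ) := by
      rw [Nat.isCoprime_iff_coprime, Nat.coprime_comm, Nat.Prime.coprime_iff_not_dvd hq]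
      intro hd
      apply hb
      have h0 : b = 0 := by
        rw [← ZMod.natCast_zmod_val b, ZMod.natCast_eq_zero_iff]
        exact hd
      rw [h0]
      exact IsSquare.zero
    obtain ⟨p, hpq, hp, hpα, hpβ⟩ := exists_prime_two_mod hL hq.pos hLq hα hβ q
    have : Fact p.Prime := ⟨hp⟩
    refine ⟨p, hpq, hp, hpα, ?_⟩
    have hpb : ((p : ℕ) : ZMod q) = b := by
      have h1 := (ZMod.intCast_eq_intCast_iff _ _ q).mpr hpβ
      push_cast at h1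
      rw [h1, ZMod.natCast_zmod_val]
    have hp4 := nat_mod_four_of_modEq h4 hpα
    have hp2 : p ≠ 2 := by omega
    rcases hcond with h1 | h1
    · have hp1 : p % 4 = 1 := by omega
      rw [ZMod.exists_sq_eq_prime_iff_of_mod_four_eq_one hp1 hq2, hpb]
      exact hb
    · rw [← ZMod.exists_sq_eq_prime_iff_of_mod_four_eq_one h1 hp2, hpb]
      exact hb
  · have hα3 : α % 4 = 3 := by tauto
    have hq3 : q % 4 = 3 := by tauto
    obtain ⟨p, hpq, hp, hpα, hpβ⟩ :=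
      exists_prime_two_mod hL hq.pos hLq hα (isCoprime_one_left : IsCoprime (1 : ℤ) (q : ℤ)) q
    have : Fact p.Prime := ⟨hp⟩
    refine ⟨p, hpq, hp, hpα, ?_⟩
    have hp1 : ((p : ℕ) : ZMod q) = 1 := by
      have h1 := (ZMod.intCast_eq_intCast_iff _ _ q).mpr hpβ
      push_cast at h1
      exact h1
    have hp4 := nat_mod_four_of_modEq h4 hpα
    have hp3 : p % 4 = 3 := by omega
    rw [ZMod.exists_sq_eq_prime_iff_of_mod_four_eq_three hp3 hq3 hpq.ne', hp1, not_not]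
    exact IsSquare.one

/-- `q = 2`, `L` odd: a prime `p ≡ α (mod L)`, `p ≡ 3 (mod 8)`, so `2` is a non-residue. -/
theorem exists_prime_nonres_two {L : ℕ} (hL : 0 < L) (hL2 : Nat.Coprime L 2) {α : ℤ}
    (hα : IsCoprime α (L : ℤ)) :
    ∃ p : ℕ, 2 < p ∧ p.Prime ∧ (p : ℤ) ≡ α [ZMOD (L : ℤ)] ∧ ¬ IsSquare ((2 : ℕ) : ZMod p) := by
  have h8 : Nat.Coprime L 8 := Nat.Coprime.pow_right 3 hL2
  have hβ : IsCoprime (3 : ℤ) ((8 : ℕ) : ℤ) := by
    rw [Int.isCoprime_iff_gcd_eq_one]; rfl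
  obtain ⟨p, hp2, hp, hpα, hpβ⟩ := exists_prime_two_mod hL (by norm_num) h8 hα hβ 2
  have : Fact p.Prime := ⟨hp⟩
  refine ⟨p, hp2, hp, hpα, ?_⟩
  have hp8 : p % 8 = 3 := by
    unfold Int.ModEq at hpβ
    omega
  have h := ZMod.exists_sq_eq_two_iff (p := p) (by omega)
  push_cast
  rw [h]
  omega

/-- A prime `p > q`, `p ≡ α (mod L)`, such that `q` is a quadratic non-residue modulo `p`. -/
theorem exists_prime_nonres {q L : ℕ} (hq : q.Prime) (hL : 0 < L) (hLq : Nat.Coprime L q)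
    (h4 : 2 ∣ L → 4 ∣ L) {α : ℤ} (hα : IsCoprime α (L : ℤ)) :
    ∃ p : ℕ, q < p ∧ p.Prime ∧ (p : ℤ) ≡ α [ZMOD (L : ℤ)] ∧ ¬ IsSquare ((q : ℕ) : ZMod p) := by
  by_cases hq2 : q = 2
  · subst hq2
    exact exists_prime_nonres_two hL hLq hα
  · by_cases h2 : 2 ∣ L
    · exact exists_prime_nonres_odd hq hq2 hL (h4 h2) hLq hα
    · have hL2 : Nat.Coprime L 2 := by
        rw [Nat.coprime_comm]
        exact (Nat.Prime.coprime_iff_not_dvd Nat.prime_two).mpr h2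
      have hL4 : Nat.Coprime L 4 := Nat.Coprime.pow_right 2 hL2
      obtain ⟨x, hxα, hx1⟩ := crt_int hL4 α 1
      have hx : IsCoprime x ((L * 4 : ℕ) : ℤ) := by
        push_cast
        exact (isCoprime_of_modEq hxα hα).mul_right
          (isCoprime_of_modEq hx1 (isCoprime_one_left : IsCoprime (1 : ℤ) ((4 : ℕ) : ℤ)))
      have hq4 : Nat.Coprime 4 q := by
        have : Nat.Coprime 2 q := (Nat.coprime_primes Nat.prime_two hq).mpr (Ne.symm hq2)
        exact Nat.Coprime.pow_left 2 this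
      obtain ⟨p, hpq, hp, hpx, hns⟩ := exists_prime_nonres_odd hq hq2 (Nat.mul_pos hL (by norm_num))
        (dvd_mul_left 4 L) (Nat.Coprime.mul_left hLq hq4) hx
      push_cast at hpx
      exact ⟨p, hpq, hp, (hpx.of_mul_right _).trans hxα, hns⟩

/-! ### Moduli with `ρ ∤ φ(a)` (the case `ρ` odd of Lemma D) -/

theorem not_dvd_pred_of_modEq {ρ L p : ℕ} (hρL : ρ ∣ L) (hp : 0 < p) {c : ℤ}
    (hpc : (p : ℤ) ≡ c [ZMOD (L : ℤ)]) (hc : ¬ c ≡ 1 [ZMOD (ρ : ℤ)]) : ¬ ρ ∣ p - 1 := by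
  intro hd
  apply hc
  have hρL' : (ρ : ℤ) ∣ (L : ℤ) := by exact_mod_cast hρL
  have h1 : (p : ℤ) ≡ c [ZMOD (ρ : ℤ)] := hpc.of_dvd hρL'
  have h2 : (p : ℤ) ≡ 1 [ZMOD (ρ : ℤ)] := by
    rw [Int.modEq_iff_dvd]
    obtain ⟨k, hk⟩ := hd
    refine ⟨-(k : ℤ), ?_⟩
    have h3 : ((p - 1 : ℕ) : ℤ) = (ρ : ℤ) * (k : ℤ) := by exact_mod_cast hk
    rw [Nat.cast_sub hp] at h3
    push_cast at h3
    linear_combination (-1 : ℤ) * h3
  exact h1.symm.trans h2

/-- `ρ` odd, `ρ ∣ L`: a modulus `a ≡ α (mod L)`, prime to `q`, with `ρ ∤ φ(a)`. -/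
theorem exists_totient_not_dvd_of_dvd {q ρ L : ℕ} (hq0 : q ≠ 0) (hρ : ρ.Prime) (hρ2 : ρ ≠ 2)
    (hL : 0 < L) (hρL : ρ ∣ L) {α : ℤ} (hα : IsCoprime α (L : ℤ)) :
    ∃ a : ℕ, 0 < a ∧ (a : ℤ) ≡ α [ZMOD (L : ℤ)] ∧ a.Coprime q ∧ ¬ ρ ∣ a.totient := by
  by_cases h1 : α ≡ 1 [ZMOD (ρ : ℤ)]
  · have hm1 : IsCoprime (-1 : ℤ) (L : ℤ) := isCoprime_one_left.neg_left
    have hmα : IsCoprime (-α) (L : ℤ) := hα.neg_left
    obtain ⟨p1, hp1q, hp1, hp1c⟩ := Nat.forall_exists_prime_gt_and_zmodEq q hL.ne' hm1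
    obtain ⟨p2, hp21, hp2, hp2c⟩ := Nat.forall_exists_prime_gt_and_zmodEq p1 hL.ne' hmα
    have hne : ¬ (-1 : ℤ) ≡ 1 [ZMOD (ρ : ℤ)] := by
      intro h
      have hd : (ρ : ℤ) ∣ 2 := by
        have := h.dvd
        norm_num at this
        exact this
      have hd' : ρ ∣ 2 := by exact_mod_cast hd
      exact hρ2 ((Nat.prime_dvd_prime_iff_eq hρ Nat.prime_two).mp hd')
    have hneα : ¬ (-α) ≡ 1 [ZMOD (ρ : ℤ)] := fun h => hne (h1.neg.symm.trans h)
    refine ⟨p1 * p2, Nat.mul_pos hp1.pos hp2.pos, ?_, ?_, ?_⟩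
    · have h := hp1c.mul hp2c
      push_cast
      simpa using h
    · exact Nat.Coprime.mul_left (Nat.coprime_of_lt_prime hq0 hp1q hp1)
        (Nat.coprime_of_lt_prime hq0 (hp1q.trans hp21) hp2)
    · rw [Nat.totient_mul ((Nat.coprime_primes hp1 hp2).mpr hp21.ne), Nat.totient_prime hp1,
        Nat.totient_prime hp2]
      intro hd
      rcases (hρ.dvd_mul).mp hd with h | h
      · exact not_dvd_pred_of_modEq hρL hp1.pos hp1c hne h
      · exact not_dvd_pred_of_modEq hρL hp2.pos hp2c hneα h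
  · obtain ⟨p, hpq, hp, hpc⟩ := Nat.forall_exists_prime_gt_and_zmodEq q hL.ne' hα
    refine ⟨p, hp.pos, hpc, Nat.coprime_of_lt_prime hq0 hpq hp, ?_⟩
    rw [Nat.totient_prime hp]
    exact not_dvd_pred_of_modEq hρL hp.pos hpc h1

/-- `ρ` odd: a modulus `a ≡ α (mod L)`, prime to `q`, with `ρ ∤ φ(a)`. -/
theorem exists_totient_not_dvd {q ρ L : ℕ} (hq0 : q ≠ 0) (hρ : ρ.Prime) (hρ2 : ρ ≠ 2)
    (hL : 0 < L) {α : ℤ} (hα : IsCoprime α (L : ℤ)) :
    ∃ a : ℕ, 0 < a ∧ (a : ℤ) ≡ α [ZMOD (L : ℤ)] ∧ a.Coprime q ∧ ¬ ρ ∣ a.totient := by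
  by_cases hρL : ρ ∣ L
  · exact exists_totient_not_dvd_of_dvd hq0 hρ hρ2 hL hρL hα
  · have hcop : Nat.Coprime L ρ := ((Nat.Prime.coprime_iff_not_dvd hρ).mpr hρL).symm
    obtain ⟨x, hxα, hx2⟩ := crt_int hcop α 2
    have h2ρ : IsCoprime (2 : ℤ) (ρ : ℤ) := by
      have : Nat.Coprime 2 ρ := (Nat.coprime_primes Nat.prime_two hρ).mpr (Ne.symm hρ2)
      exact_mod_cast Nat.isCoprime_iff_coprime.mpr this
    have hx : IsCoprime x ((L * ρ : ℕ) : ℤ) := by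
      push_cast
      exact (isCoprime_of_modEq hxα hα).mul_right (isCoprime_of_modEq hx2 h2ρ)
    obtain ⟨a, ha, hax, haq, hat⟩ := exists_totient_not_dvd_of_dvd hq0 hρ hρ2
      (Nat.mul_pos hL hρ.pos) (dvd_mul_left ρ L) hx
    push_cast at hax
    exact ⟨a, ha, (hax.of_mul_right _).trans hxα, haq, hat⟩

/-! ### Lemma D -/

/-- **Lemma D** (Dirichlet + quadratic reciprocity): the literal body of `IhLemmaD q`. -/
theorem lemmaD {q : ℕ} (hq : q.Prime) :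
    ∀ L : ℕ, Nat.Coprime L q → (2 ∣ L → 4 ∣ L) → ∀ r : ℕ, r.Prime → r ∣ L →
      ∀ ρ : ℕ, ρ.Prime → ∀ α : ℤ, IsCoprime α (L : ℤ) →
        ∃ a' t k : ℕ, 0 < a' ∧ (a' : ℤ) ≡ α [ZMOD (L : ℤ)] ∧ Nat.Coprime a' q ∧
          Nat.Coprime a' L ∧ 0 < t ∧ ¬ ρ ∣ t ∧ r ^ t ≡ q ^ k [MOD a'] := by
  intro L hLq h4 r _hr hrL ρ hρ α hα
  have hL : 0 < L := by
    rcases Nat.eq_zero_or_pos L with h0 | h0
    · subst h0
      rw [Nat.coprime_zero_left] at hLq
      exact absurd hLq hq.ne_one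
    · exact h0
  have key : ∃ a' : ℕ, 0 < a' ∧ (a' : ℤ) ≡ α [ZMOD (L : ℤ)] ∧ ∃ haq : Nat.Coprime q a',
      ¬ ρ ∣ (Subgroup.zpowers (ZMod.unitOfCoprime q haq)).index := by
    by_cases hρ2 : ρ = 2
    · subst hρ2
      obtain ⟨p, hpq, hp, hpα, hns⟩ := exists_prime_nonres hq hL hLq h4 hα
      have : Fact p.Prime := ⟨hp⟩
      have hqp : Nat.Coprime q p := (Nat.coprime_of_lt_prime hq.ne_zero hpq hp).symm
      exact ⟨p, hp.pos, hpα, hqp, not_two_dvd_index hqp hns⟩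
    · obtain ⟨a, ha, haα, haq, hat⟩ := exists_totient_not_dvd hq.ne_zero hρ hρ2 hL hα
      have : NeZero a := ⟨ha.ne'⟩
      exact ⟨a, ha, haα, haq.symm, not_dvd_index_of_totient haq.symm hat⟩
  obtain ⟨a', ha', haα, haq, hidx⟩ := key
  have : NeZero a' := ⟨ha'.ne'⟩
  have haL : Nat.Coprime a' L := by
    rw [← Nat.isCoprime_iff_coprime]
    exact isCoprime_of_modEq haα hα
  have hra : Nat.Coprime r a' := (Nat.Coprime.coprime_dvd_right hrL haL).symm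
  obtain ⟨t, k, ht, hρt, hrk⟩ := core haq hra hidx
  exact ⟨a', t, k, ha', haα, haq.symm, haL, ht, hρt, hrk⟩

end Fermat.Agent.S41.H07
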