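import Mathlib
import Fermat.Prelude.Def_ModularCurve_PeriodMap
import Fermat.Agent.S41.LevelOpsBridge_helper19
import Fermat.Agent.S41.ParOps_helper97
import Fermat.Agent.S41.HeckeMod_helper50
import Fermat.Agent.S41.Lattice_helper34
import Fermat.Agent.S41.LRCore_helper71

/-!
# S41, node (IJ-LAT) (helper97): the maps `i`, `j`, `T_q` of level raising on the Betti lattices

`H71.lr_core` wants, for `L = parabolicHoms ℤ Γ₀(N) ℤ` and `L' = parabolicHoms ℤ Γ₀(N q) ℤ` with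
their Hecke-module structures over `R = MvPolynomial ι ℤ` (`X i` acting as `T_{pr i}`),
`R`-linear maps `i : L × L → L'`, `j : L' → L × L`, `t : L → L` with
`j (i (x, y)) = (s • x + t y, t x + s • y)`.

This file builds them from helper19's landed operators (`H19.iOp`, `H19.jOp`, `H19.tOp`) and the
landed parabolicity of transfers (`ParOps_helper97`):

* `resL`, `wL`, `coresL`, `uL`, `tL` : the `ℤ`-linear operators on the lattices;
* `iLat`, `jLat`, `tLat` : the `MvPolynomial ι ℤ`-linear maps, for ANY module structures on the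
  two lattices whose variables act as the Hecke transfers (`hX`, `hX'`);
* `jLat_iLat` : `hji` of `H71.lr_core` with `s = q + 1`;
* `mem_ker_jLat_iff`, `jOp_eq_zero_of_mem_span` : the kernel of `j`, and its complex span;
* `lr_lat` : `H71.lr_core` instantiated at these data.
-/

set_option autoImplicit false

namespace Fermat.Agent.S41.H97

open CongruenceSubgroup ModularCurve.Period
open scoped MatrixGroups

/-! ### The `ℤ`-linear operators on the Betti lattices -/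

section LatOps

variable {N q : ℕ}

/-- Restriction `L → L'`. -/
noncomputable def resL (N q : ℕ) :
    parabolicHoms ℤ (Gamma0 N) ℤ →ₗ[ℤ] parabolicHoms ℤ (Gamma0 (N * q)) ℤ :=
  trPar (H19.isTrFam_res N q)

theorem coe_resL (N q : ℕ) (x : parabolicHoms ℤ (Gamma0 N) ℤ) :
    ((resL N q x : parabolicHoms ℤ (Gamma0 (N * q)) ℤ) : Additive (Gamma0 (N * q)) →+ ℤ) =
      H19.resOp N q (x : Additive (Gamma0 N) →+ ℤ) := rfl

/-- The Atkin-Lehner operator `L' → L'`. -/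
noncomputable def wL (hq : q.Prime) (hqN : ¬ q ∣ N) :
    parabolicHoms ℤ (Gamma0 (N * q)) ℤ →ₗ[ℤ] parabolicHoms ℤ (Gamma0 (N * q)) ℤ :=
  trPar (H19.isTrFam_w hq hqN)

theorem coe_wL (hq : q.Prime) (hqN : ¬ q ∣ N) (z : parabolicHoms ℤ (Gamma0 (N * q)) ℤ) :
    ((wL hq hqN z : parabolicHoms ℤ (Gamma0 (N * q)) ℤ) : Additive (Gamma0 (N * q)) →+ ℤ) =
      H19.wOp hq hqN (z : Additive (Gamma0 (N * q)) →+ ℤ) := rfl

/-- Corestriction `L' → L`. -/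
noncomputable def coresL (hq : q.Prime) (hqN : ¬ q ∣ N) :
    parabolicHoms ℤ (Gamma0 (N * q)) ℤ →ₗ[ℤ] parabolicHoms ℤ (Gamma0 N) ℤ :=
  trPar (H19.isTrFam_cores hq hqN)

theorem coe_coresL (hq : q.Prime) (hqN : ¬ q ∣ N) (z : parabolicHoms ℤ (Gamma0 (N * q)) ℤ) :
    ((coresL hq hqN z : parabolicHoms ℤ (Gamma0 N) ℤ) : Additive (Gamma0 N) →+ ℤ) =
      H19.coresOp hq hqN (z : Additive (Gamma0 (N * q)) →+ ℤ) := rfl

/-- `U_q : L' → L'`. -/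
noncomputable def uL (N : ℕ) (hq : q ≠ 0) :
    parabolicHoms ℤ (Gamma0 (N * q)) ℤ →ₗ[ℤ] parabolicHoms ℤ (Gamma0 (N * q)) ℤ :=
  trPar (H19.isTrFam_U N hq)

theorem coe_uL (N : ℕ) (hq : q ≠ 0) (z : parabolicHoms ℤ (Gamma0 (N * q)) ℤ) :
    ((uL N hq z : parabolicHoms ℤ (Gamma0 (N * q)) ℤ) : Additive (Gamma0 (N * q)) →+ ℤ) =
      H19.uOp N hq (z : Additive (Gamma0 (N * q)) →+ ℤ) := rfl

/-- `T_q : L → L` (`q ∤ N`). -/
noncomputable def tL (hq : q.Prime) (hqN : ¬ q ∣ N) :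
    parabolicHoms ℤ (Gamma0 N) ℤ →ₗ[ℤ] parabolicHoms ℤ (Gamma0 N) ℤ :=
  trPar (H19.isTrFam_T hq hqN)

theorem coe_tL (hq : q.Prime) (hqN : ¬ q ∣ N) (x : parabolicHoms ℤ (Gamma0 N) ℤ) :
    ((tL hq hqN x : parabolicHoms ℤ (Gamma0 N) ℤ) : Additive (Gamma0 N) →+ ℤ) =
      H19.tOp hq hqN (x : Additive (Gamma0 N) →+ ℤ) := rfl

theorem coe_tL_eq_heckeTr (hq : q.Prime) (hqN : ¬ q ∣ N) (x : parabolicHoms ℤ (Gamma0 N) ℤ) :
    ((tL hq hqN x : parabolicHoms ℤ (Gamma0 N) ℤ) : Additive (Gamma0 N) →+ ℤ) =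
      Fermat.Agent.S29.H06.heckeTr hq hqN (x : Additive (Gamma0 N) →+ ℤ) := by
  rw [coe_tL, H19.tOp_eq_heckeTr]

/-- The additive map `i (x, y) = res x + w (res y)` on the lattices. -/
noncomputable def iAdd (hq : q.Prime) (hqN : ¬ q ∣ N) :
    (parabolicHoms ℤ (Gamma0 N) ℤ × parabolicHoms ℤ (Gamma0 N) ℤ) →+
      parabolicHoms ℤ (Gamma0 (N * q)) ℤ :=
  ((resL N q).toAddMonoidHom).coprod (((wL hq hqN).comp (resL N q)).toAddMonoidHom)

theorem coe_iAdd (hq : q.Prime) (hqN : ¬ q ∣ N) (x y : parabolicHoms ℤ (Gamma0 N) ℤ) :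
    ((iAdd hq hqN (x, y) : parabolicHoms ℤ (Gamma0 (N * q)) ℤ) :
        Additive (Gamma0 (N * q)) →+ ℤ) =
      H19.iOp hq hqN ((x : Additive (Gamma0 N) →+ ℤ), (y : Additive (Gamma0 N) →+ ℤ)) := rfl

/-- The additive map `j z = (cores z, cores (w z))` on the lattices. -/
noncomputable def jAdd (hq : q.Prime) (hqN : ¬ q ∣ N) :
    parabolicHoms ℤ (Gamma0 (N * q)) ℤ →+
      (parabolicHoms ℤ (Gamma0 N) ℤ × parabolicHoms ℤ (Gamma0 N) ℤ) :=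
  ((coresL hq hqN).toAddMonoidHom).prod (((coresL hq hqN).comp (wL hq hqN)).toAddMonoidHom)

theorem coe_jAdd (hq : q.Prime) (hqN : ¬ q ∣ N) (z : parabolicHoms ℤ (Gamma0 (N * q)) ℤ) :
    ((((jAdd hq hqN z).1 : parabolicHoms ℤ (Gamma0 N) ℤ) : Additive (Gamma0 N) →+ ℤ),
      (((jAdd hq hqN z).2 : parabolicHoms ℤ (Gamma0 N) ℤ) : Additive (Gamma0 N) →+ ℤ)) =
      H19.jOp hq hqN (z : Additive (Gamma0 (N * q)) →+ ℤ) := rfl

end LatOps

/-! ### The `MvPolynomial ι ℤ`-linear maps `i`, `j`, `t` -/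

section Generic

variable {N q : ℕ} {ι : Type*} (pr : ι → ℕ) (hpr : ∀ i, (pr i).Prime)
  [Module (MvPolynomial ι ℤ) (parabolicHoms ℤ (Gamma0 N) ℤ)]
  [Module (MvPolynomial ι ℤ) (parabolicHoms ℤ (Gamma0 (N * q)) ℤ)]

/-- `i : L × L → L'`, `i (x, y) = res x + w (res y)`, as an `MvPolynomial ι ℤ`-linear map, for
any module structures on the two Betti lattices whose variables act as the Hecke transfers
`T_{pr i}` (`hX`, `hX'`; e.g. `H50.latModule`). -/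
noncomputable def iLat (hq : q.Prime) (hqN : ¬ q ∣ N) (hprN : ∀ i, ¬ pr i ∣ N)
    (hprNq : ∀ i, ¬ pr i ∣ N * q)
    (hX : ∀ (i : ι) (x : parabolicHoms ℤ (Gamma0 N) ℤ),
      (((MvPolynomial.X i : MvPolynomial ι ℤ) • x : parabolicHoms ℤ (Gamma0 N) ℤ) :
          Additive (Gamma0 N) →+ ℤ) =
        Fermat.Agent.S29.H06.heckeTr (hpr i) (hprN i) (x : Additive (Gamma0 N) →+ ℤ))
    (hX' : ∀ (i : ι) (z : parabolicHoms ℤ (Gamma0 (N * q)) ℤ),
      (((MvPolynomial.X i : MvPolynomial ι ℤ) • z : parabolicHoms ℤ (Gamma0 (N * q)) ℤ) :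
          Additive (Gamma0 (N * q)) →+ ℤ) =
        Fermat.Agent.S29.H06.heckeTr (hpr i) (hprNq i) (z : Additive (Gamma0 (N * q)) →+ ℤ)) :
    (parabolicHoms ℤ (Gamma0 N) ℤ × parabolicHoms ℤ (Gamma0 N) ℤ) →ₗ[MvPolynomial ι ℤ]
      parabolicHoms ℤ (Gamma0 (N * q)) ℤ :=
  H50.linearOfX (iAdd hq hqN) (by
    rintro i ⟨x, y⟩
    apply Subtype.ext
    rw [hX', Prod.smul_mk, coe_iAdd, coe_iAdd, hX, hX, ← H19.tOp_eq_heckeTr, ← H19.tOp_eq_heckeTr,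
      ← H19.tOp_eq_heckeTr, H19.tOp_iOp hq hqN (hpr i) (hprNq i)])

theorem coe_iLat (hq : q.Prime) (hqN : ¬ q ∣ N) (hprN : ∀ i, ¬ pr i ∣ N)
    (hprNq : ∀ i, ¬ pr i ∣ N * q)
    (hX : ∀ (i : ι) (x : parabolicHoms ℤ (Gamma0 N) ℤ),
      (((MvPolynomial.X i : MvPolynomial ι ℤ) • x : parabolicHoms ℤ (Gamma0 N) ℤ) :
          Additive (Gamma0 N) →+ ℤ) =
        Fermat.Agent.S29.H06.heckeTr (hpr i) (hprN i) (x : Additive (Gamma0 N) →+ ℤ))
    (hX' : ∀ (i : ι) (z : parabolicHoms ℤ (Gamma0 (N * q)) ℤ),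
      (((MvPolynomial.X i : MvPolynomial ι ℤ) • z : parabolicHoms ℤ (Gamma0 (N * q)) ℤ) :
          Additive (Gamma0 (N * q)) →+ ℤ) =
        Fermat.Agent.S29.H06.heckeTr (hpr i) (hprNq i) (z : Additive (Gamma0 (N * q)) →+ ℤ))
    (x y : parabolicHoms ℤ (Gamma0 N) ℤ) :
    ((iLat pr hpr hq hqN hprN hprNq hX hX' (x, y) : parabolicHoms ℤ (Gamma0 (N * q)) ℤ) :
        Additive (Gamma0 (N * q)) →+ ℤ) =
      H19.iOp hq hqN ((x : Additive (Gamma0 N) →+ ℤ), (y : Additive (Gamma0 N) →+ ℤ)) := rfl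

/-- `j : L' → L × L`, `j z = (cores z, cores (w z))`, as an `MvPolynomial ι ℤ`-linear map. -/
noncomputable def jLat (hq : q.Prime) (hqN : ¬ q ∣ N) (hprN : ∀ i, ¬ pr i ∣ N)
    (hprNq : ∀ i, ¬ pr i ∣ N * q)
    (hX : ∀ (i : ι) (x : parabolicHoms ℤ (Gamma0 N) ℤ),
      (((MvPolynomial.X i : MvPolynomial ι ℤ) • x : parabolicHoms ℤ (Gamma0 N) ℤ) :
          Additive (Gamma0 N) →+ ℤ) =
        Fermat.Agent.S29.H06.heckeTr (hpr i) (hprN i) (x : Additive (Gamma0 N) →+ ℤ))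
    (hX' : ∀ (i : ι) (z : parabolicHoms ℤ (Gamma0 (N * q)) ℤ),
      (((MvPolynomial.X i : MvPolynomial ι ℤ) • z : parabolicHoms ℤ (Gamma0 (N * q)) ℤ) :
          Additive (Gamma0 (N * q)) →+ ℤ) =
        Fermat.Agent.S29.H06.heckeTr (hpr i) (hprNq i) (z : Additive (Gamma0 (N * q)) →+ ℤ)) :
    parabolicHoms ℤ (Gamma0 (N * q)) ℤ →ₗ[MvPolynomial ι ℤ]
      (parabolicHoms ℤ (Gamma0 N) ℤ × parabolicHoms ℤ (Gamma0 N) ℤ) :=
  H50.linearOfX (jAdd hq hqN) (by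
    intro i z
    have h1 : H19.jOp hq hqN
        ((((MvPolynomial.X i : MvPolynomial ι ℤ) • z : parabolicHoms ℤ (Gamma0 (N * q)) ℤ) :
          Additive (Gamma0 (N * q)) →+ ℤ)) =
        (H19.tOp (hpr i) (hprN i) (H19.jOp hq hqN (z : Additive (Gamma0 (N * q)) →+ ℤ)).1,
          H19.tOp (hpr i) (hprN i) (H19.jOp hq hqN (z : Additive (Gamma0 (N * q)) →+ ℤ)).2) := by
      rw [hX', ← H19.tOp_eq_heckeTr, H19.jOp_tOp hq hqN (hpr i) (hprNq i)]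
    refine Prod.ext (Subtype.ext ?_) (Subtype.ext ?_)
    · show (H19.jOp hq hqN
        ((((MvPolynomial.X i : MvPolynomial ι ℤ) • z : parabolicHoms ℤ (Gamma0 (N * q)) ℤ) :
          Additive (Gamma0 (N * q)) →+ ℤ))).1 =
        (((MvPolynomial.X i : MvPolynomial ι ℤ) • (jAdd hq hqN z).1 :
          parabolicHoms ℤ (Gamma0 N) ℤ) : Additive (Gamma0 N) →+ ℤ)
      rw [h1, hX, ← H19.tOp_eq_heckeTr]
      rfl
    · show (H19.jOp hq hqN
        ((((MvPolynomial.X i : MvPolynomial ι ℤ) • z : parabolicHoms ℤ (Gamma0 (N * q)) ℤ) :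
          Additive (Gamma0 (N * q)) →+ ℤ))).2 =
        (((MvPolynomial.X i : MvPolynomial ι ℤ) • (jAdd hq hqN z).2 :
          parabolicHoms ℤ (Gamma0 N) ℤ) : Additive (Gamma0 N) →+ ℤ)
      rw [h1, hX, ← H19.tOp_eq_heckeTr]
      rfl)

theorem coe_jLat (hq : q.Prime) (hqN : ¬ q ∣ N) (hprN : ∀ i, ¬ pr i ∣ N)
    (hprNq : ∀ i, ¬ pr i ∣ N * q)
    (hX : ∀ (i : ι) (x : parabolicHoms ℤ (Gamma0 N) ℤ),
      (((MvPolynomial.X i : MvPolynomial ι ℤ) • x : parabolicHoms ℤ (Gamma0 N) ℤ) :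
          Additive (Gamma0 N) →+ ℤ) =
        Fermat.Agent.S29.H06.heckeTr (hpr i) (hprN i) (x : Additive (Gamma0 N) →+ ℤ))
    (hX' : ∀ (i : ι) (z : parabolicHoms ℤ (Gamma0 (N * q)) ℤ),
      (((MvPolynomial.X i : MvPolynomial ι ℤ) • z : parabolicHoms ℤ (Gamma0 (N * q)) ℤ) :
          Additive (Gamma0 (N * q)) →+ ℤ) =
        Fermat.Agent.S29.H06.heckeTr (hpr i) (hprNq i) (z : Additive (Gamma0 (N * q)) →+ ℤ))
    (z : parabolicHoms ℤ (Gamma0 (N * q)) ℤ) :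
    ((((jLat pr hpr hq hqN hprN hprNq hX hX' z).1 : parabolicHoms ℤ (Gamma0 N) ℤ) :
        Additive (Gamma0 N) →+ ℤ),
      (((jLat pr hpr hq hqN hprN hprNq hX hX' z).2 : parabolicHoms ℤ (Gamma0 N) ℤ) :
        Additive (Gamma0 N) →+ ℤ)) =
      H19.jOp hq hqN (z : Additive (Gamma0 (N * q)) →+ ℤ) := rfl

theorem coe_jLat_fst (hq : q.Prime) (hqN : ¬ q ∣ N) (hprN : ∀ i, ¬ pr i ∣ N)
    (hprNq : ∀ i, ¬ pr i ∣ N * q)
    (hX : ∀ (i : ι) (x : parabolicHoms ℤ (Gamma0 N) ℤ),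
      (((MvPolynomial.X i : MvPolynomial ι ℤ) • x : parabolicHoms ℤ (Gamma0 N) ℤ) :
          Additive (Gamma0 N) →+ ℤ) =
        Fermat.Agent.S29.H06.heckeTr (hpr i) (hprN i) (x : Additive (Gamma0 N) →+ ℤ))
    (hX' : ∀ (i : ι) (z : parabolicHoms ℤ (Gamma0 (N * q)) ℤ),
      (((MvPolynomial.X i : MvPolynomial ι ℤ) • z : parabolicHoms ℤ (Gamma0 (N * q)) ℤ) :
          Additive (Gamma0 (N * q)) →+ ℤ) =
        Fermat.Agent.S29.H06.heckeTr (hpr i) (hprNq i) (z : Additive (Gamma0 (N * q)) →+ ℤ))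
    (z : parabolicHoms ℤ (Gamma0 (N * q)) ℤ) :
    (((jLat pr hpr hq hqN hprN hprNq hX hX' z).1 : parabolicHoms ℤ (Gamma0 N) ℤ) :
        Additive (Gamma0 N) →+ ℤ) =
      H19.coresOp hq hqN (z : Additive (Gamma0 (N * q)) →+ ℤ) := rfl

theorem coe_jLat_snd (hq : q.Prime) (hqN : ¬ q ∣ N) (hprN : ∀ i, ¬ pr i ∣ N)
    (hprNq : ∀ i, ¬ pr i ∣ N * q)
    (hX : ∀ (i : ι) (x : parabolicHoms ℤ (Gamma0 N) ℤ),
      (((MvPolynomial.X i : MvPolynomial ι ℤ) • x : parabolicHoms ℤ (Gamma0 N) ℤ) :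
          Additive (Gamma0 N) →+ ℤ) =
        Fermat.Agent.S29.H06.heckeTr (hpr i) (hprN i) (x : Additive (Gamma0 N) →+ ℤ))
    (hX' : ∀ (i : ι) (z : parabolicHoms ℤ (Gamma0 (N * q)) ℤ),
      (((MvPolynomial.X i : MvPolynomial ι ℤ) • z : parabolicHoms ℤ (Gamma0 (N * q)) ℤ) :
          Additive (Gamma0 (N * q)) →+ ℤ) =
        Fermat.Agent.S29.H06.heckeTr (hpr i) (hprNq i) (z : Additive (Gamma0 (N * q)) →+ ℤ))
    (z : parabolicHoms ℤ (Gamma0 (N * q)) ℤ) :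
    (((jLat pr hpr hq hqN hprN hprNq hX hX' z).2 : parabolicHoms ℤ (Gamma0 N) ℤ) :
        Additive (Gamma0 N) →+ ℤ) =
      H19.coresOp hq hqN (H19.wOp hq hqN (z : Additive (Gamma0 (N * q)) →+ ℤ)) := rfl

/-- The kernel of `j` on the lattice is the kernel of helper19's `jOp`. -/
theorem mem_ker_jLat_iff (hq : q.Prime) (hqN : ¬ q ∣ N) (hprN : ∀ i, ¬ pr i ∣ N)
    (hprNq : ∀ i, ¬ pr i ∣ N * q)
    (hX : ∀ (i : ι) (x : parabolicHoms ℤ (Gamma0 N) ℤ),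
      (((MvPolynomial.X i : MvPolynomial ι ℤ) • x : parabolicHoms ℤ (Gamma0 N) ℤ) :
          Additive (Gamma0 N) →+ ℤ) =
        Fermat.Agent.S29.H06.heckeTr (hpr i) (hprN i) (x : Additive (Gamma0 N) →+ ℤ))
    (hX' : ∀ (i : ι) (z : parabolicHoms ℤ (Gamma0 (N * q)) ℤ),
      (((MvPolynomial.X i : MvPolynomial ι ℤ) • z : parabolicHoms ℤ (Gamma0 (N * q)) ℤ) :
          Additive (Gamma0 (N * q)) →+ ℤ) =
        Fermat.Agent.S29.H06.heckeTr (hpr i) (hprNq i) (z : Additive (Gamma0 (N * q)) →+ ℤ))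
    (z : parabolicHoms ℤ (Gamma0 (N * q)) ℤ) :
    z ∈ LinearMap.ker (jLat pr hpr hq hqN hprN hprNq hX hX') ↔
      H19.jOp hq hqN (z : Additive (Gamma0 (N * q)) →+ ℤ) = 0 := by
  rw [LinearMap.mem_ker, ← coe_jLat pr hpr hq hqN hprN hprNq hX hX' z]
  constructor
  · intro h
    rw [h]
    rfl
  · intro h
    have h1 := congrArg Prod.fst h
    have h2 := congrArg Prod.snd h
    exact Prod.ext (Subtype.ext h1) (Subtype.ext h2)

end Generic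

/-! ### `T_q` on the lattice of level `N` -/

section GenericT

variable {N q : ℕ} {ι : Type*} (pr : ι → ℕ) (hpr : ∀ i, (pr i).Prime)
  [Module (MvPolynomial ι ℤ) (parabolicHoms ℤ (Gamma0 N) ℤ)]

/-- `T_q : L → L` (`q ∤ N`) as an `MvPolynomial ι ℤ`-linear map: it commutes with the `T_{pr i}`
on the Betti lattice (`H50.heckeTr_comm_int`). -/
noncomputable def tLat [NeZero N] (hq : q.Prime) (hqN : ¬ q ∣ N) (hprN : ∀ i, ¬ pr i ∣ N)
    (hX : ∀ (i : ι) (x : parabolicHoms ℤ (Gamma0 N) ℤ),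
      (((MvPolynomial.X i : MvPolynomial ι ℤ) • x : parabolicHoms ℤ (Gamma0 N) ℤ) :
          Additive (Gamma0 N) →+ ℤ) =
        Fermat.Agent.S29.H06.heckeTr (hpr i) (hprN i) (x : Additive (Gamma0 N) →+ ℤ)) :
    parabolicHoms ℤ (Gamma0 N) ℤ →ₗ[MvPolynomial ι ℤ] parabolicHoms ℤ (Gamma0 N) ℤ :=
  H50.linearOfX (tL hq hqN).toAddMonoidHom (by
    intro i x
    apply Subtype.ext
    show ((tL hq hqN ((MvPolynomial.X i : MvPolynomial ι ℤ) • x) :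
        parabolicHoms ℤ (Gamma0 N) ℤ) : Additive (Gamma0 N) →+ ℤ) =
      (((MvPolynomial.X i : MvPolynomial ι ℤ) • tL hq hqN x : parabolicHoms ℤ (Gamma0 N) ℤ) :
        Additive (Gamma0 N) →+ ℤ)
    rw [coe_tL_eq_heckeTr, hX, hX, coe_tL_eq_heckeTr]
    exact H50.heckeTr_comm_int hq hqN (hpr i) (hprN i) _ x.2)

theorem coe_tLat [NeZero N] (hq : q.Prime) (hqN : ¬ q ∣ N) (hprN : ∀ i, ¬ pr i ∣ N)
    (hX : ∀ (i : ι) (x : parabolicHoms ℤ (Gamma0 N) ℤ),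
      (((MvPolynomial.X i : MvPolynomial ι ℤ) • x : parabolicHoms ℤ (Gamma0 N) ℤ) :
          Additive (Gamma0 N) →+ ℤ) =
        Fermat.Agent.S29.H06.heckeTr (hpr i) (hprN i) (x : Additive (Gamma0 N) →+ ℤ))
    (x : parabolicHoms ℤ (Gamma0 N) ℤ) :
    ((tLat pr hpr hq hqN hprN hX x : parabolicHoms ℤ (Gamma0 N) ℤ) :
        Additive (Gamma0 N) →+ ℤ) =
      Fermat.Agent.S29.H06.heckeTr hq hqN (x : Additive (Gamma0 N) →+ ℤ) :=
  coe_tL_eq_heckeTr hq hqN x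

theorem coe_tLat_eq_tOp [NeZero N] (hq : q.Prime) (hqN : ¬ q ∣ N) (hprN : ∀ i, ¬ pr i ∣ N)
    (hX : ∀ (i : ι) (x : parabolicHoms ℤ (Gamma0 N) ℤ),
      (((MvPolynomial.X i : MvPolynomial ι ℤ) • x : parabolicHoms ℤ (Gamma0 N) ℤ) :
          Additive (Gamma0 N) →+ ℤ) =
        Fermat.Agent.S29.H06.heckeTr (hpr i) (hprN i) (x : Additive (Gamma0 N) →+ ℤ))
    (x : parabolicHoms ℤ (Gamma0 N) ℤ) :
    ((tLat pr hpr hq hqN hprN hX x : parabolicHoms ℤ (Gamma0 N) ℤ) :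
        Additive (Gamma0 N) →+ ℤ) =
      H19.tOp hq hqN (x : Additive (Gamma0 N) →+ ℤ) := rfl

end GenericT

/-! ### `j ∘ i` and the instance of `H71.lr_core` -/

section Core

variable {N q : ℕ} {ι : Type*} (pr : ι → ℕ) (hpr : ∀ i, (pr i).Prime)
  [Module (MvPolynomial ι ℤ) (parabolicHoms ℤ (Gamma0 N) ℤ)]
  [Module (MvPolynomial ι ℤ) (parabolicHoms ℤ (Gamma0 (N * q)) ℤ)]

/-- **`hji` of `H71.lr_core`** with `s = q + 1`: `j (i (x, y)) = ((q+1) x + T_q y, T_q x + (q+1) y)`. -/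
theorem jLat_iLat [NeZero N] (hq : q.Prime) (hqN : ¬ q ∣ N) (hprN : ∀ i, ¬ pr i ∣ N)
    (hprNq : ∀ i, ¬ pr i ∣ N * q)
    (hX : ∀ (i : ι) (x : parabolicHoms ℤ (Gamma0 N) ℤ),
      (((MvPolynomial.X i : MvPolynomial ι ℤ) • x : parabolicHoms ℤ (Gamma0 N) ℤ) :
          Additive (Gamma0 N) →+ ℤ) =
        Fermat.Agent.S29.H06.heckeTr (hpr i) (hprN i) (x : Additive (Gamma0 N) →+ ℤ))
    (hX' : ∀ (i : ι) (z : parabolicHoms ℤ (Gamma0 (N * q)) ℤ),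
      (((MvPolynomial.X i : MvPolynomial ι ℤ) • z : parabolicHoms ℤ (Gamma0 (N * q)) ℤ) :
          Additive (Gamma0 (N * q)) →+ ℤ) =
        Fermat.Agent.S29.H06.heckeTr (hpr i) (hprNq i) (z : Additive (Gamma0 (N * q)) →+ ℤ))
    (x y : parabolicHoms ℤ (Gamma0 N) ℤ) :
    jLat pr hpr hq hqN hprN hprNq hX hX' (iLat pr hpr hq hqN hprN hprNq hX hX' (x, y)) =
      (((q : ℤ) + 1) • x + tLat pr hpr hq hqN hprN hX y,
        tLat pr hpr hq hqN hprN hX x + ((q : ℤ) + 1) • y) := by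
  have h := H19.jOp_iOp hq hqN (x : Additive (Gamma0 N) →+ ℤ) (y : Additive (Gamma0 N) →+ ℤ)
  have hs : ∀ w : Additive (Gamma0 N) →+ ℤ, (q + 1) • w = ((q : ℤ) + 1) • w := by
    intro w
    rw [← natCast_zsmul]
    push_cast
    rfl
  refine Prod.ext (Subtype.ext ?_) (Subtype.ext ?_)
  · have h1 := congrArg Prod.fst h
    refine h1.trans ?_
    show (q + 1) • (x : Additive (Gamma0 N) →+ ℤ) + H19.tOp hq hqN (y : Additive (Gamma0 N) →+ ℤ) = _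
    rw [hs]
    rfl
  · have h2 := congrArg Prod.snd h
    refine h2.trans ?_
    show H19.tOp hq hqN (x : Additive (Gamma0 N) →+ ℤ) + (q + 1) • (y : Additive (Gamma0 N) →+ ℤ) = _
    rw [hs]
    rfl

/-- **`H71.lr_core` on the Betti lattices.**  With `i = iLat`, `j = jLat`, `t = tLat`,
`s = q + 1`: the three inputs `hf` (the system of `f` occurs, (HF-INST)), `hIh` (Ihara, (IH) + (E))
and `hDual` (duality, (C)) give `ker j ⊄ 𝔫 • ker j`. -/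
theorem lr_lat [NeZero N] (hq : q.Prime) (hqN : ¬ q ∣ N) (hprN : ∀ i, ¬ pr i ∣ N)
    (hprNq : ∀ i, ¬ pr i ∣ N * q)
    (hX : ∀ (i : ι) (x : parabolicHoms ℤ (Gamma0 N) ℤ),
      (((MvPolynomial.X i : MvPolynomial ι ℤ) • x : parabolicHoms ℤ (Gamma0 N) ℤ) :
          Additive (Gamma0 N) →+ ℤ) =
        Fermat.Agent.S29.H06.heckeTr (hpr i) (hprN i) (x : Additive (Gamma0 N) →+ ℤ))
    (hX' : ∀ (i : ι) (z : parabolicHoms ℤ (Gamma0 (N * q)) ℤ),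
      (((MvPolynomial.X i : MvPolynomial ι ℤ) • z : parabolicHoms ℤ (Gamma0 (N * q)) ℤ) :
          Additive (Gamma0 (N * q)) →+ ℤ) =
        Fermat.Agent.S29.H06.heckeTr (hpr i) (hprNq i) (z : Additive (Gamma0 (N * q)) →+ ℤ))
    (p : ℕ) (hp : p ≠ 0) (𝔫 : Ideal (MvPolynomial ι ℤ)) [𝔫.IsMaximal]
    (hp𝔫 : (p : MvPolynomial ι ℤ) ∈ 𝔫) (ε : ℤ) (hε : ε = 1 ∨ ε = -1)
    (hf : ∃ x : parabolicHoms ℤ (Gamma0 N) ℤ,
      x ∉ 𝔫 • (⊤ : Submodule (MvPolynomial ι ℤ) (parabolicHoms ℤ (Gamma0 N) ℤ)) ⊔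
        LinearMap.range (tLat pr hpr hq hqN hprN hX - (ε * ((q : ℤ) + 1)) •
          (LinearMap.id :
            parabolicHoms ℤ (Gamma0 N) ℤ →ₗ[MvPolynomial ι ℤ] parabolicHoms ℤ (Gamma0 N) ℤ)))
    (hIh : ∃ r₀ : MvPolynomial ι ℤ, r₀ ∉ 𝔫 ∧
      ∀ u : parabolicHoms ℤ (Gamma0 N) ℤ × parabolicHoms ℤ (Gamma0 N) ℤ,
        (∃ y : parabolicHoms ℤ (Gamma0 (N * q)) ℤ,
          iLat pr hpr hq hqN hprN hprNq hX hX' u = (p : ℤ) • y) →
        ∃ v : parabolicHoms ℤ (Gamma0 N) ℤ × parabolicHoms ℤ (Gamma0 N) ℤ,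
          r₀ • u = (p : ℤ) • v)
    (hDual : ∃ r₁ : MvPolynomial ι ℤ, r₁ ∉ 𝔫 ∧
      ∀ u : parabolicHoms ℤ (Gamma0 N) ℤ × parabolicHoms ℤ (Gamma0 N) ℤ,
        ∃ (y : parabolicHoms ℤ (Gamma0 (N * q)) ℤ)
          (v : parabolicHoms ℤ (Gamma0 N) ℤ × parabolicHoms ℤ (Gamma0 N) ℤ),
          r₁ • u = jLat pr hpr hq hqN hprN hprNq hX hX' y + (p : ℤ) • v) :
    ¬ (LinearMap.ker (jLat pr hpr hq hqN hprN hprNq hX hX') ≤
      𝔫 • LinearMap.ker (jLat pr hpr hq hqN hprN hprNq hX hX')) := by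
  have : NeZero (N * q) := ⟨Nat.mul_ne_zero (NeZero.ne N) hq.ne_zero⟩
  have : Module.Finite ℤ (parabolicHoms ℤ (Gamma0 N) ℤ) := H34.finite_parabolicHoms_Gamma0 N
  have : Module.Finite ℤ (parabolicHoms ℤ (Gamma0 (N * q)) ℤ) :=
    H34.finite_parabolicHoms_Gamma0 (N * q)
  exact H71.lr_core p hp 𝔫 hp𝔫 (iLat pr hpr hq hqN hprN hprNq hX hX')
    (jLat pr hpr hq hqN hprN hprNq hX hX') ((q : ℤ) + 1) (tLat pr hpr hq hqN hprN hX)
    (jLat_iLat pr hpr hq hqN hprN hprNq hX hX') ε hε hf hIh hDual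

end Core

/-! ### The module structure `H50.latModule` satisfies `hX` -/

/-- For helper50's Hecke-module structure `H50.latModule` the variables act as the Hecke
transfers: this is the hypothesis `hX` / `hX'` of `iLat`, `jLat`, `tLat`, `lr_lat`. -/
theorem latModule_hX (M : ℕ) [NeZero M] {ι : Type*} (pr : ι → ℕ) (hpr : ∀ i, (pr i).Prime)
    (hprM : ∀ i, ¬ pr i ∣ M) :
    letI := H50.latModule M pr hpr hprM
    ∀ (i : ι) (x : parabolicHoms ℤ (Gamma0 M) ℤ),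
      (((MvPolynomial.X i : MvPolynomial ι ℤ) • x : parabolicHoms ℤ (Gamma0 M) ℤ) :
          Additive (Gamma0 M) →+ ℤ) =
        Fermat.Agent.S29.H06.heckeTr (hpr i) (hprM i) (x : Additive (Gamma0 M) →+ ℤ) := by
  intro i x
  rw [H50.latModule_X_smul]
  rfl

/-! ### (KER-C): the complex span of `ker j` -/

section KerC

variable {N q : ℕ}

/-- `jOp` is natural in the coefficient group. -/
theorem jOp_comp_hom {A B : Type*} [AddCommGroup A] [AddCommGroup B] (hq : q.Prime)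
    (hqN : ¬ q ∣ N) (f : A →+ B) (χ : Additive (Gamma0 (N * q)) →+ A) :
    H19.jOp hq hqN (f.comp χ) =
      (f.comp (H19.jOp hq hqN χ).1, f.comp (H19.jOp hq hqN χ).2) := by
  have e1 : ∀ ψ : Additive (Gamma0 (N * q)) →+ A,
      H19.coresOp hq hqN (f.comp ψ) = f.comp (H19.coresOp hq hqN ψ) := fun ψ =>
    H06.tr_comp_hom (H19.gl_injective (N * q)) (H19.isTrFam_cores hq hqN) f ψ
  have e2 : H19.wOp hq hqN (f.comp χ) = f.comp (H19.wOp hq hqN χ) :=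
    H06.tr_comp_hom (H19.gl_injective (N * q)) (H19.isTrFam_w hq hqN) f χ
  rw [H19.jOp_apply, H19.jOp_apply, e2, e1, e1]

/-- `jOp` commutes with complex scalars. -/
theorem jOp_smul_complex (hq : q.Prime) (hqN : ¬ q ∣ N) (c : ℂ)
    (v : Additive (Gamma0 (N * q)) →+ ℂ) :
    H19.jOp hq hqN (c • v) = c • H19.jOp hq hqN v := by
  have e : ∀ {G : Type} [AddGroup G] (w : G →+ ℂ), c • w = (AddMonoidHom.mulLeft c).comp w :=
    fun w => AddMonoidHom.ext fun x => rfl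
  rw [e v, jOp_comp_hom hq hqN, ← e, ← e]
  rfl

/-- `jOp` vanishes on the complex span of a set on which it vanishes. -/
theorem jOp_eq_zero_of_mem_span (hq : q.Prime) (hqN : ¬ q ∣ N)
    {S : Set (Additive (Gamma0 (N * q)) →+ ℂ)} (hS : ∀ w ∈ S, H19.jOp hq hqN w = 0)
    {v : Additive (Gamma0 (N * q)) →+ ℂ} (hv : v ∈ Submodule.span ℂ S) :
    H19.jOp hq hqN v = 0 := by
  induction hv using Submodule.span_induction with
  | mem w hw => exact hS w hw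
  | zero => exact map_zero _
  | add a b _ _ ha hb => rw [map_add, ha, hb, add_zero]
  | smul c a _ ha => rw [jOp_smul_complex, ha, smul_zero]

/-- The coefficient extension of an integral character killed by `jOp` is killed by `jOp`. -/
theorem jOp_castHom_eq_zero (hq : q.Prime) (hqN : ¬ q ∣ N)
    {z : Additive (Gamma0 (N * q)) →+ ℤ} (hz : H19.jOp hq hqN z = 0) :
    H19.jOp hq hqN (H34.castHom (Gamma0 (N * q)) ℂ z) = 0 := by
  rw [H34.castHom_eq_comp, jOp_comp_hom hq hqN, hz]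
  exact Prod.ext (AddMonoidHom.comp_zero _) (AddMonoidHom.comp_zero _)

variable {ι : Type*} (pr : ι → ℕ) (hpr : ∀ i, (pr i).Prime)
  [Module (MvPolynomial ι ℤ) (parabolicHoms ℤ (Gamma0 N) ℤ)]
  [Module (MvPolynomial ι ℤ) (parabolicHoms ℤ (Gamma0 (N * q)) ℤ)]

/-- **(KER-C)**: a complex character in the span of the coefficient extensions of `ker j`
(the output of `H71.lr_lift_mvPoly`) is killed by `jOp`. -/
theorem jOp_eq_zero_of_mem_span_ker (hq : q.Prime) (hqN : ¬ q ∣ N) (hprN : ∀ i, ¬ pr i ∣ N)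
    (hprNq : ∀ i, ¬ pr i ∣ N * q)
    (hX : ∀ (i : ι) (x : parabolicHoms ℤ (Gamma0 N) ℤ),
      (((MvPolynomial.X i : MvPolynomial ι ℤ) • x : parabolicHoms ℤ (Gamma0 N) ℤ) :
          Additive (Gamma0 N) →+ ℤ) =
        Fermat.Agent.S29.H06.heckeTr (hpr i) (hprN i) (x : Additive (Gamma0 N) →+ ℤ))
    (hX' : ∀ (i : ι) (z : parabolicHoms ℤ (Gamma0 (N * q)) ℤ),
      (((MvPolynomial.X i : MvPolynomial ι ℤ) • z : parabolicHoms ℤ (Gamma0 (N * q)) ℤ) :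
          Additive (Gamma0 (N * q)) →+ ℤ) =
        Fermat.Agent.S29.H06.heckeTr (hpr i) (hprNq i) (z : Additive (Gamma0 (N * q)) →+ ℤ))
    (e : parabolicHoms ℤ (Gamma0 (N * q)) ℤ → (Additive (Gamma0 (N * q)) →+ ℂ))
    (he : ∀ z, e z = H34.castHom (Gamma0 (N * q)) ℂ (z : Additive (Gamma0 (N * q)) →+ ℤ))
    {v : Additive (Gamma0 (N * q)) →+ ℂ}
    (hv : v ∈ Submodule.span ℂ (e '' (LinearMap.ker (jLat pr hpr hq hqN hprN hprNq hX hX') :
      Set (parabolicHoms ℤ (Gamma0 (N * q)) ℤ)))) :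
    H19.jOp hq hqN v = 0 := by
  refine jOp_eq_zero_of_mem_span hq hqN ?_ hv
  rintro _ ⟨z, hz, rfl⟩
  rw [he]
  exact jOp_castHom_eq_zero hq hqN
    ((mem_ker_jLat_iff pr hpr hq hqN hprN hprNq hX hX' z).mp hz)

/-- ... hence `U_q (U_q v) = v`. -/
theorem uOp_uOp_of_mem_span_ker (hq : q.Prime) (hqN : ¬ q ∣ N) (hprN : ∀ i, ¬ pr i ∣ N)
    (hprNq : ∀ i, ¬ pr i ∣ N * q)
    (hX : ∀ (i : ι) (x : parabolicHoms ℤ (Gamma0 N) ℤ),
      (((MvPolynomial.X i : MvPolynomial ι ℤ) • x : parabolicHoms ℤ (Gamma0 N) ℤ) :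
          Additive (Gamma0 N) →+ ℤ) =
        Fermat.Agent.S29.H06.heckeTr (hpr i) (hprN i) (x : Additive (Gamma0 N) →+ ℤ))
    (hX' : ∀ (i : ι) (z : parabolicHoms ℤ (Gamma0 (N * q)) ℤ),
      (((MvPolynomial.X i : MvPolynomial ι ℤ) • z : parabolicHoms ℤ (Gamma0 (N * q)) ℤ) :
          Additive (Gamma0 (N * q)) →+ ℤ) =
        Fermat.Agent.S29.H06.heckeTr (hpr i) (hprNq i) (z : Additive (Gamma0 (N * q)) →+ ℤ))
    (e : parabolicHoms ℤ (Gamma0 (N * q)) ℤ → (Additive (Gamma0 (N * q)) →+ ℂ))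
    (he : ∀ z, e z = H34.castHom (Gamma0 (N * q)) ℂ (z : Additive (Gamma0 (N * q)) →+ ℤ))
    {v : Additive (Gamma0 (N * q)) →+ ℂ}
    (hv : v ∈ Submodule.span ℂ (e '' (LinearMap.ker (jLat pr hpr hq hqN hprN hprNq hX hX') :
      Set (parabolicHoms ℤ (Gamma0 (N * q)) ℤ)))) :
    H19.uOp N hq.ne_zero (H19.uOp N hq.ne_zero v) = v :=
  H19.uOp_uOp_of_jOp_eq_zero hq hqN v
    (jOp_eq_zero_of_mem_span_ker pr hpr hq hqN hprN hprNq hX hX' e he hv)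

end KerC

/-- A complex character in the span of coefficient extensions of lattice elements is parabolic. -/
theorem mem_parabolicHoms_of_mem_span {M : ℕ}
    (e : parabolicHoms ℤ (Gamma0 M) ℤ → (Additive (Gamma0 M) →+ ℂ))
    (he : ∀ z, e z = H34.castHom (Gamma0 M) ℂ (z : Additive (Gamma0 M) →+ ℤ))
    (S : Set (parabolicHoms ℤ (Gamma0 M) ℤ)) {v : Additive (Gamma0 M) →+ ℂ}
    (hv : v ∈ Submodule.span ℂ (e '' S)) : v ∈ parabolicHoms ℂ (Gamma0 M) ℂ := by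
  refine (Submodule.span_le (p := parabolicHoms ℂ (Gamma0 M) ℂ)).mpr ?_ hv
  rintro _ ⟨z, -, rfl⟩
  rw [he]
  exact H34.castHom_mem_parabolicHoms ℂ z.2

end Fermat.Agent.S41.H97
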