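import Mathlib

/-!
# (IH): abstract symbol calculus (helper55)

`g a c` stands for the value of a hom `Γ₀(N) → M` on a matrix with first column `(a, c)`.
From the formal rules (R1), (R2), (E), (D) we derive Claim A (`ε = -1`) and Claim B
(`ε = +1`) of the paper proof, given the arithmetic Lemmas A, B+C, D as hypotheses.
-/

namespace Fermat.Agent.S41.H55

/-- Lemma B + C (LTE): every `L0` prime to `q` divides a `q`-good `L` with the same primes. -/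
def IhLemmaBC (q : ℕ) : Prop :=
  ∀ L0 : ℕ, 0 < L0 → Nat.Coprime L0 q →
    ∃ L : ℕ, L0 ∣ L ∧ (∀ r : ℕ, r.Prime → r ∣ L → r ∣ L0) ∧ (2 ∣ L → 4 ∣ L) ∧
      ∃ m : ℕ, 0 < m ∧ q ^ m ≡ 1 [MOD L] ∧
        ∀ z : ℕ, 0 < z → (∀ r : ℕ, r.Prime → r ∣ z → r ∣ L) →
          ∀ x : ℤ, x ≡ 1 [ZMOD (L : ℤ)] →
            ∃ j : ℕ, x ≡ (q : ℤ) ^ (m * j) [ZMOD ((L * z : ℕ) : ℤ)]

/-- Lemma D (Dirichlet + quadratic reciprocity). -/
def IhLemmaD (q : ℕ) : Prop :=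
  ∀ L : ℕ, Nat.Coprime L q → (2 ∣ L → 4 ∣ L) → ∀ r : ℕ, r.Prime → r ∣ L →
    ∀ ρ : ℕ, ρ.Prime → ∀ α : ℤ, IsCoprime α (L : ℤ) →
      ∃ a' t k : ℕ, 0 < a' ∧ (a' : ℤ) ≡ α [ZMOD (L : ℤ)] ∧ Nat.Coprime a' q ∧ Nat.Coprime a' L ∧
        0 < t ∧ ¬ ρ ∣ t ∧ r ^ t ≡ q ^ k [MOD a']

/-- Lemma A (Dirichlet + quadratic reciprocity). -/
def IhLemmaA (q : ℕ) : Prop :=
  ∀ a c : ℤ, c ≠ 0 → IsCoprime a c → ¬ (q : ℤ) ∣ c →
    ∃ a' k : ℕ, 0 < a' ∧ (a' : ℤ) ≡ a [ZMOD c] ∧ Nat.Coprime a' q ∧ Odd k ∧ q ^ k ≡ 1 [MOD a']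

theorem isCoprime_prime_iff {q : ℕ} (hq : q.Prime) (a : ℤ) :
    IsCoprime (q : ℤ) a ↔ ¬ (q : ℤ) ∣ a :=
  (Nat.prime_iff_prime_int.mp hq).irreducible.coprime_iff_not_dvd

theorem isCoprime_of_rad {a : ℤ} {L z : ℕ}
    (hrad : ∀ r : ℕ, r.Prime → r ∣ z → r ∣ L) (haL : IsCoprime a (L : ℤ)) :
    IsCoprime a (z : ℤ) := by
  rw [Int.isCoprime_iff_gcd_eq_one] at haL ⊢
  rw [Int.gcd_def, Int.natAbs_natCast] at haL ⊢
  apply Nat.coprime_of_dvd
  intro k hk hka hkz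
  have h1 : k ∣ Nat.gcd a.natAbs L := Nat.dvd_gcd hka (hrad k hk hkz)
  rw [haL] at h1
  exact hk.one_lt.ne' (Nat.dvd_one.mp h1)

theorem exists_strip (q : ℕ) (hq : q.Prime) (c : ℤ) (hc : c ≠ 0) :
    ∃ (j : ℕ) (c0 : ℤ), c = (q : ℤ) ^ j * c0 ∧ ¬ (q : ℤ) ∣ c0 := by
  obtain ⟨n, a, h1, h2⟩ :=
    WfDvdMonoid.max_power_factor hc (Nat.prime_iff_prime_int.mp hq).irreducible
  exact ⟨n, a, h2, h1⟩

section Core

variable {M : Type*} [AddCommGroup M] {N q : ℕ}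

theorem e_pow (ε : ℤ) (g : ℤ → ℤ → M)
    (e : ∀ a c : ℤ, IsCoprime a (q * c) → (N : ℤ) ∣ c → g a (q * c) = ε • g a c)
    (a : ℤ) : ∀ (j : ℕ) (c : ℤ), IsCoprime a ((q : ℤ) ^ j * c) → (N : ℤ) ∣ c →
      g a ((q : ℤ) ^ j * c) = ε ^ j • g a c := by
  intro j
  induction j with
  | zero => intro c _ _; simp
  | succ j ih =>
    intro c hco hN
    have h1 : (q : ℤ) ^ (j + 1) * c = q * ((q : ℤ) ^ j * c) := by ring
    rw [h1] at hco ⊢
    rw [e a _ hco (Dvd.dvd.mul_left hN _), ih c hco.of_mul_right_right hN, smul_smul, pow_succ']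

/-- CLAIM A (`ε = -1`). -/
theorem ihClaimA (hN : 0 < N) (hq : q.Prime) (hqN : ¬ q ∣ N)
    (hA : IhLemmaA q) (g : ℤ → ℤ → M)
    (r1 : ∀ a c x : ℤ, IsCoprime a c → (N : ℤ) ∣ c → g (a + x * c) c = g a c)
    (r2 : ∀ a c y : ℤ, IsCoprime a c → (N : ℤ) ∣ c → g a (c + N * y * a) = g a c)
    (e : ∀ a c : ℤ, IsCoprime a (q * c) → (N : ℤ) ∣ c → g a (q * c) = - g a c) :
    ∀ a c : ℤ, IsCoprime a c → (N : ℤ) ∣ c → 2 • g a c = 0 := by
  have hNq : IsCoprime (N : ℤ) (q : ℤ) := by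
    rw [Nat.isCoprime_iff_coprime]
    exact ((Nat.Prime.coprime_iff_not_dvd hq).mpr hqN).symm
  have e' : ∀ a c : ℤ, IsCoprime a (q * c) → (N : ℤ) ∣ c → g a (q * c) = (-1 : ℤ) • g a c := by
    intro a c h1 h2
    rw [e a c h1 h2, neg_one_zsmul]
  -- Step 1: `c ≠ 0`, `q ∤ c`
  have step1 : ∀ a c : ℤ, IsCoprime a c → (N : ℤ) ∣ c → c ≠ 0 → ¬ (q : ℤ) ∣ c →
      2 • g a c = 0 := by
    intro a c hac hNc hc hqc
    obtain ⟨a', k, -, ha', ha'q, hk, hqk⟩ := hA a c hc hac hqc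
    obtain ⟨x, hx⟩ : ∃ x : ℤ, (a' : ℤ) = a + x * c := by
      obtain ⟨x, hx⟩ := Int.modEq_iff_dvd.mp ha'.symm
      exact ⟨x, by linear_combination hx⟩
    have ha'c : IsCoprime (a' : ℤ) c := by
      rw [hx]; exact hac.add_mul_right_left x
    have h1 : g a' c = g a c := by
      rw [hx]; exact r1 a c x hac hNc
    obtain ⟨u, hu⟩ : (a' : ℤ) ∣ (q : ℤ) ^ k - 1 := by
      have h := (Int.natCast_modEq_iff.mpr hqk).symm
      have h' := Int.modEq_iff_dvd.mp h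
      simpa using h'
    obtain ⟨v, hv⟩ := hNc
    have h2 : g a' ((q : ℤ) ^ k * c) = g a' c := by
      have h3 : (q : ℤ) ^ k * c = c + N * (v * u) * a' := by
        rw [hv]; linear_combination ((N : ℤ) * v) * hu
      rw [h3]
      exact r2 a' c (v * u) ha'c ⟨v, hv⟩
    have h3 : g a' ((q : ℤ) ^ k * c) = (-1 : ℤ) ^ k • g a' c :=
      e_pow (-1) g e' a' k c
        (IsCoprime.mul_right (IsCoprime.pow_right (Nat.isCoprime_iff_coprime.mpr ha'q)) ha'c)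
        ⟨v, hv⟩
    rw [hk.neg_one_pow, neg_one_zsmul, h2] at h3
    rw [← h1, two_nsmul]
    nth_rewrite 1 [h3]
    exact neg_add_cancel _
  -- Step 2: `c ≠ 0`
  have step2 : ∀ a c : ℤ, IsCoprime a c → (N : ℤ) ∣ c → c ≠ 0 → 2 • g a c = 0 := by
    intro a c hac hNc hc
    obtain ⟨j, c0, hc0, hqc0⟩ := exists_strip q hq c hc
    have hNc0 : (N : ℤ) ∣ c0 := by
      rw [hc0] at hNc
      exact (IsCoprime.pow_right hNq).dvd_of_dvd_mul_left hNc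
    have hc0' : c0 ≠ 0 := by
      rintro rfl; exact hqc0 (dvd_zero _)
    rw [hc0] at hac ⊢
    rw [e_pow (-1) g e' a j c0 hac hNc0, smul_comm,
      step1 a c0 hac.of_mul_right_right hNc0 hc0' hqc0, smul_zero]
  intro a c hac hNc
  by_cases hc : c = 0
  · subst hc
    have ha : IsUnit a := isCoprime_zero_right.mp hac
    have ha0 : a ≠ 0 := ha.ne_zero
    have hco : IsCoprime a ((0 : ℤ) + N * 1 * a) := hac.add_mul_right_right ((N : ℤ) * 1)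
    have h1 := r2 a 0 1 hac hNc
    rw [← h1]
    apply step2 a _ hco ⟨a, by ring⟩
    have hN' : (N : ℤ) ≠ 0 := by exact_mod_cast hN.ne'
    rw [zero_add, mul_one]
    exact mul_ne_zero hN' ha0
  · exact step2 a c hac hNc hc

/-! ### Claim B -/

/-- The symbol rules for `ε = +1`. -/
def SymB (N q : ℕ) (g : ℤ → ℤ → M) (h : M) : Prop :=
  (∀ a c x : ℤ, IsCoprime a c → (N : ℤ) ∣ c → g (a + x * c) c = g a c) ∧
  (∀ a c y : ℤ, IsCoprime a c → (N : ℤ) ∣ c → g a (c + N * y * a) = g a c) ∧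
  (∀ a c : ℤ, IsCoprime a (q * c) → (N : ℤ) ∣ c → g a (q * c) = g a c) ∧
  (∀ a c : ℤ, IsCoprime (q * a) c → ¬ (q : ℤ) ∣ a → (N : ℤ) ∣ c →
    g (q * a) c = g a c + h) ∧
  g 1 N = 0

/-- `L` is `q`-good with exponent `m` (conclusion of Lemma B). -/
def QGood (q L m : ℕ) : Prop :=
  0 < m ∧ q ^ m ≡ 1 [MOD L] ∧
    ∀ z : ℕ, 0 < z → (∀ r : ℕ, r.Prime → r ∣ z → r ∣ L) →
      ∀ x : ℤ, x ≡ 1 [ZMOD (L : ℤ)] →
        ∃ j : ℕ, x ≡ (q : ℤ) ^ (m * j) [ZMOD ((L * z : ℕ) : ℤ)]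

variable {g : ℤ → ℤ → M} {h : M}

/-- (D) without the restriction `q ∤ a`. -/
theorem d_all (hS : SymB N q g h) (hq : q.Prime) (a c : ℤ) (hac : IsCoprime a c)
    (hqc : ¬ (q : ℤ) ∣ c) (hNc : (N : ℤ) ∣ c) : g (q * a) c = g a c + h := by
  obtain ⟨r1, -, -, d, -⟩ := hS
  have hqc' : IsCoprime (q : ℤ) c := (isCoprime_prime_iff hq c).mpr hqc
  by_cases hqa : (q : ℤ) ∣ a
  · have hqa1 : ¬ (q : ℤ) ∣ a + 1 * c := by
      intro hh
      apply hqc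
      have := (Int.dvd_add_right hqa).mp hh
      simpa using this
    have hco1 : IsCoprime (a + 1 * c) c := hac.add_mul_right_left 1
    have h1 := d (a + 1 * c) c (IsCoprime.mul_left hqc' hco1) hqa1 hNc
    rw [r1 a c 1 hac hNc] at h1
    have h2 : (q : ℤ) * (a + 1 * c) = q * a + q * c := by ring
    rw [h2, r1 (q * a) c q (IsCoprime.mul_left hqc' hac) hNc] at h1
    exact h1
  · exact d a c (IsCoprime.mul_left hqc' hac) hqa hNc

theorem d_pow (hS : SymB N q g h) (hq : q.Prime) (a c : ℤ) (hac : IsCoprime a c)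
    (hqc : ¬ (q : ℤ) ∣ c) (hNc : (N : ℤ) ∣ c) (n : ℕ) :
    g ((q : ℤ) ^ n * a) c = g a c + n • h := by
  have hqc' : IsCoprime (q : ℤ) c := (isCoprime_prime_iff hq c).mpr hqc
  induction n with
  | zero => simp
  | succ n ih =>
    have h1 : (q : ℤ) ^ (n + 1) * a = q * ((q : ℤ) ^ n * a) := by ring
    rw [h1, d_all hS hq _ c (IsCoprime.mul_left (IsCoprime.pow_left hqc') hac) hqc hNc, ih,
      succ_nsmul, add_assoc]

/-- (H0). -/
theorem h_zero (hS : SymB N q g h) (hq : q.Prime) (hqN : ¬ q ∣ N) (k : ℕ)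
    (hk : (q : ℤ) ^ k ≡ 1 [ZMOD (N : ℤ)]) : k • h = 0 := by
  have hqN' : ¬ (q : ℤ) ∣ (N : ℤ) := by exact_mod_cast hqN
  have h1 := d_pow hS hq 1 N isCoprime_one_left hqN' dvd_rfl k
  obtain ⟨r1, -, -, -, g1⟩ := hS
  rw [mul_one, g1, zero_add] at h1
  obtain ⟨x, hx⟩ : ∃ x : ℤ, (q : ℤ) ^ k = 1 + x * N := by
    obtain ⟨x, hx⟩ := Int.modEq_iff_dvd.mp hk.symm
    exact ⟨x, by linear_combination hx⟩
  rw [hx, r1 1 N x isCoprime_one_left dvd_rfl, g1] at h1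
  exact h1.symm

/-- (T1): over a `q`-good `L`, the symbol at level `L z` depends only on `a mod L`. -/
theorem t_one (hS : SymB N q g h) (hq : q.Prime) (hqN : ¬ q ∣ N) {L m : ℕ}
    (hLq : Nat.Coprime L q) (hG : QGood q L m) (hNL : N ∣ L)
    (z : ℕ) (hz : 0 < z) (hrad : ∀ r : ℕ, r.Prime → r ∣ z → r ∣ L)
    (a a' : ℤ) (haa' : a' ≡ a [ZMOD (L : ℤ)]) (haL : IsCoprime a (L : ℤ)) :
    g a' ((L : ℤ) * z) = g a ((L : ℤ) * z) := by
  obtain ⟨-, hqm, hz'⟩ := hG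
  have haLz : IsCoprime a ((L : ℤ) * z) := haL.mul_right (isCoprime_of_rad hrad haL)
  have hqLz : IsCoprime (q : ℤ) ((L : ℤ) * z) := by
    have h1 : IsCoprime (q : ℤ) (L : ℤ) := Nat.isCoprime_iff_coprime.mpr hLq.symm
    exact h1.mul_right (isCoprime_of_rad hrad h1)
  have hqLz' : ¬ (q : ℤ) ∣ (L : ℤ) * z := (isCoprime_prime_iff hq _).mp hqLz
  have hNLz : (N : ℤ) ∣ (L : ℤ) * z := Dvd.dvd.mul_right (Int.natCast_dvd_natCast.mpr hNL) _
  obtain ⟨u, v, huv⟩ := haLz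
  have hx : a' * u ≡ 1 [ZMOD (L : ℤ)] := by
    have h1 : a' * u ≡ a * u [ZMOD (L : ℤ)] := haa'.mul_right u
    have h2 : a * u ≡ 1 [ZMOD (L : ℤ)] := by
      rw [Int.modEq_iff_dvd]; exact ⟨v * z, by linear_combination (-1 : ℤ) * huv⟩
    exact h1.trans h2
  obtain ⟨j, hj⟩ := hz' z hz hrad (a' * u) hx
  have hj' : a' * u ≡ (q : ℤ) ^ (m * j) [ZMOD ((L : ℤ) * z)] := by
    have hcast : (((L * z : ℕ) : ℤ)) = (L : ℤ) * z := by push_cast; ring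
    rw [hcast] at hj; exact hj
  have h3 : (q : ℤ) ^ (m * j) * a ≡ a' [ZMOD ((L : ℤ) * z)] := by
    have h4 : a' * u * a ≡ (q : ℤ) ^ (m * j) * a [ZMOD ((L : ℤ) * z)] := hj'.mul_right a
    have h5 : a' * u * a ≡ a' [ZMOD ((L : ℤ) * z)] := by
      rw [Int.modEq_iff_dvd]; exact ⟨a' * v, by linear_combination (-a') * huv⟩
    exact h4.symm.trans h5
  obtain ⟨y, hy⟩ : ∃ y : ℤ, a' = (q : ℤ) ^ (m * j) * a + y * ((L : ℤ) * z) := by
    obtain ⟨y, hy⟩ := Int.modEq_iff_dvd.mp h3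
    exact ⟨y, by linear_combination hy⟩
  have haLz : IsCoprime a ((L : ℤ) * z) := ⟨u, v, huv⟩
  have hk : (q : ℤ) ^ (m * j) ≡ 1 [ZMOD (N : ℤ)] := by
    have h6 : (q : ℤ) ^ m ≡ 1 [ZMOD (L : ℤ)] := by
      have := Int.natCast_modEq_iff.mpr hqm
      simpa using this
    have h7 : (q : ℤ) ^ m ≡ 1 [ZMOD (N : ℤ)] := h6.of_dvd (Int.natCast_dvd_natCast.mpr hNL)
    rw [pow_mul]
    simpa using h7.pow j
  rw [hy, hS.1 _ _ y (IsCoprime.mul_left (IsCoprime.pow_left hqLz) haLz) hNLz,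
    d_pow hS hq a _ haLz hqLz' hNLz (m * j), h_zero hS hq hqN (m * j) hk, add_zero]

/-- (T2). -/
theorem t_two (hS : SymB N q g h) (a c : ℤ) (haqc : IsCoprime a (q * c))
    (hNc : (N : ℤ) ∣ c) (r t k : ℕ) (hr : (r : ℤ) ^ t ≡ (q : ℤ) ^ k [ZMOD a]) :
    g a (c * (r : ℤ) ^ t) = g a c := by
  obtain ⟨-, r2, e, -, -⟩ := hS
  have hac : IsCoprime a c := haqc.of_mul_right_right
  have haq : IsCoprime a (q : ℤ) := haqc.of_mul_right_left
  have hco : IsCoprime a ((q : ℤ) ^ k * c) := (haq.pow_right).mul_right hac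
  obtain ⟨u, hu⟩ := Int.modEq_iff_dvd.mp hr
  obtain ⟨v, hv⟩ := hNc
  have h1 : c * (r : ℤ) ^ t = (q : ℤ) ^ k * c + N * (-(v * u)) * a := by
    rw [hv]; linear_combination (-(N : ℤ) * v) * hu
  have e' : ∀ a c : ℤ, IsCoprime a (q * c) → (N : ℤ) ∣ c → g a (q * c) = (1 : ℤ) • g a c := by
    intro a c h1 h2; rw [e a c h1 h2, one_zsmul]
  rw [h1, r2 a _ _ hco (Dvd.dvd.mul_left ⟨v, hv⟩ _), e_pow 1 g e' a k c hco ⟨v, hv⟩, one_pow,
    one_zsmul]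

/-- One tower step of exponent `t` at the prime `r`. -/
def TowerStep (g : ℤ → ℤ → M) (a : ℤ) (L r t : ℕ) : Prop :=
  ∀ w : ℕ, 0 < w → (∀ p : ℕ, p.Prime → p ∣ w → p ∣ L) →
    g a ((L : ℤ) * w * (r : ℤ) ^ t) = g a ((L : ℤ) * w)

omit [AddCommGroup M] in
theorem towerStep_sub {a : ℤ} {L r : ℕ} (hr : r.Prime) (hrL : r ∣ L) {t1 t2 : ℕ} (h12 : t2 < t1)
    (h1 : TowerStep g a L r t1) (h2 : TowerStep g a L r t2) : TowerStep g a L r (t1 - t2) := by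
  intro w hw hrad
  have hw' : 0 < w * r ^ (t1 - t2) := Nat.mul_pos hw (pow_pos hr.pos _)
  have hrad' : ∀ p : ℕ, p.Prime → p ∣ w * r ^ (t1 - t2) → p ∣ L := by
    intro p hp hpw
    rcases (Nat.Prime.dvd_mul hp).mp hpw with h | h
    · exact hrad p hp h
    · have := (Nat.prime_dvd_prime_iff_eq hp hr).mp (hp.dvd_of_dvd_pow h)
      rw [this]; exact hrL
  have h3 := h2 (w * r ^ (t1 - t2)) hw' hrad'
  have h4 := h1 w hw hrad
  have e1 : (L : ℤ) * ((w * r ^ (t1 - t2) : ℕ) : ℤ) * (r : ℤ) ^ t2 = (L : ℤ) * w * (r : ℤ) ^ t1 := by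
    push_cast
    have : (r : ℤ) ^ t1 = (r : ℤ) ^ (t1 - t2) * (r : ℤ) ^ t2 := by
      rw [← pow_add, Nat.sub_add_cancel h12.le]
    rw [this]; ring
  have e2 : (L : ℤ) * ((w * r ^ (t1 - t2) : ℕ) : ℤ) = (L : ℤ) * w * (r : ℤ) ^ (t1 - t2) := by
    push_cast; ring
  rw [e1, e2, h4] at h3
  exact h3.symm

/-- Lemma D produces tower steps of exponent prime to any given `ρ`. -/
theorem towerStep_exists (hS : SymB N q g h) (hq : q.Prime) (hqN : ¬ q ∣ N) (hD : IhLemmaD q)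
    {L m : ℕ} (hLq : Nat.Coprime L q) (h4 : 2 ∣ L → 4 ∣ L) (hG : QGood q L m) (hNL : N ∣ L)
    (a : ℤ) (haL : IsCoprime a (L : ℤ)) {r : ℕ} (hr : r.Prime) (hrL : r ∣ L)
    (ρ : ℕ) (hρ : ρ.Prime) : ∃ t : ℕ, 0 < t ∧ ¬ ρ ∣ t ∧ TowerStep g a L r t := by
  obtain ⟨a', t, k, -, ha', ha'q, ha'L, ht, hρt, hrt⟩ := hD L hLq h4 r hr hrL ρ hρ a haL
  refine ⟨t, ht, hρt, ?_⟩
  intro w hw hrad
  have hw' : 0 < w * r ^ t := Nat.mul_pos hw (pow_pos hr.pos _)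
  have hrad' : ∀ p : ℕ, p.Prime → p ∣ w * r ^ t → p ∣ L := by
    intro p hp hpw
    rcases (Nat.Prime.dvd_mul hp).mp hpw with h | h
    · exact hrad p hp h
    · have := (Nat.prime_dvd_prime_iff_eq hp hr).mp (hp.dvd_of_dvd_pow h)
      rw [this]; exact hrL
  have e1 : (L : ℤ) * w * (r : ℤ) ^ t = (L : ℤ) * ((w * r ^ t : ℕ) : ℤ) := by
    push_cast; ring
  have ha'L' : IsCoprime (a' : ℤ) (L : ℤ) := Nat.isCoprime_iff_coprime.mpr ha'L
  have ha'q' : IsCoprime (a' : ℤ) (q : ℤ) := Nat.isCoprime_iff_coprime.mpr ha'q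
  -- first (T1): from `a` to `a'` at level `L w r^t`
  have s1 : g a ((L : ℤ) * ((w * r ^ t : ℕ) : ℤ)) = g a' ((L : ℤ) * ((w * r ^ t : ℕ) : ℤ)) :=
    t_one hS hq hqN hLq hG hNL (w * r ^ t) hw' hrad' a' a ha'.symm ha'L'
  -- (T2) for `a'`
  have s2 : g a' ((L : ℤ) * w * (r : ℤ) ^ t) = g a' ((L : ℤ) * w) := by
    apply t_two hS a' ((L : ℤ) * w) _ _ r t k
    · have := Int.natCast_modEq_iff.mpr hrt
      simpa using this
    · exact ha'q'.mul_right (ha'L'.mul_right (isCoprime_of_rad hrad ha'L'))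
    · exact Dvd.dvd.mul_right (Int.natCast_dvd_natCast.mpr hNL) _
  -- second (T1): back from `a'` to `a` at level `L w`
  have s3 : g a' ((L : ℤ) * w) = g a ((L : ℤ) * w) :=
    t_one hS hq hqN hLq hG hNL w hw hrad a a' ha' haL
  rw [e1, s1, ← e1, s2, s3]

/-- The tower step of exponent `1`. -/
theorem towerStep_one (hS : SymB N q g h) (hq : q.Prime) (hqN : ¬ q ∣ N) (hD : IhLemmaD q)
    {L m : ℕ} (hLq : Nat.Coprime L q) (h4 : 2 ∣ L → 4 ∣ L) (hG : QGood q L m) (hNL : N ∣ L)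
    (a : ℤ) (haL : IsCoprime a (L : ℤ)) {r : ℕ} (hr : r.Prime) (hrL : r ∣ L) :
    TowerStep g a L r 1 := by
  classical
  have hex : ∃ t : ℕ, 0 < t ∧ TowerStep g a L r t := by
    obtain ⟨t, ht, -, hT⟩ :=
      towerStep_exists hS hq hqN hD hLq h4 hG hNL a haL hr hrL 2 Nat.prime_two
    exact ⟨t, ht, hT⟩
  set t0 := Nat.find hex with ht0
  have ht0pos : 0 < t0 := (Nat.find_spec hex).1
  have hT0 : TowerStep g a L r t0 := (Nat.find_spec hex).2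
  have hmin : ∀ t : ℕ, 0 < t → TowerStep g a L r t → t0 ≤ t := fun t ht hT =>
    Nat.find_min' hex ⟨ht, hT⟩
  -- `t0` divides every exponent
  have hdvd : ∀ t : ℕ, 0 < t → TowerStep g a L r t → t0 ∣ t := by
    intro t
    induction t using Nat.strong_induction_on with
    | _ t ih =>
      intro ht hT
      rcases (hmin t ht hT).eq_or_lt with h | h
      · rw [h]
      · have h1 := towerStep_sub hr hrL h hT hT0
        have h2 := ih (t - t0) (Nat.sub_lt ht ht0pos) (Nat.sub_pos_of_lt h) h1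
        have h3 := Nat.dvd_add h2 (dvd_refl t0)
        rwa [Nat.sub_add_cancel h.le] at h3
  have ht01 : t0 = 1 := by
    by_contra hne
    obtain ⟨ρ, hρ, hρt0⟩ := Nat.exists_prime_and_dvd hne
    obtain ⟨t, ht, hρt, hT⟩ :=
      towerStep_exists hS hq hqN hD hLq h4 hG hNL a haL hr hrL ρ hρ
    exact hρt (hρt0.trans (hdvd t ht hT))
  rw [← ht01]; exact hT0

/-- (TI): tower invariance. -/
theorem tower_inv (hS : SymB N q g h) (hq : q.Prime) (hqN : ¬ q ∣ N) (hD : IhLemmaD q)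
    {L m : ℕ} (hLq : Nat.Coprime L q) (h4 : 2 ∣ L → 4 ∣ L) (hG : QGood q L m) (hNL : N ∣ L)
    (a : ℤ) (haL : IsCoprime a (L : ℤ)) :
    ∀ z : ℕ, 0 < z → (∀ r : ℕ, r.Prime → r ∣ z → r ∣ L) →
      g a ((L : ℤ) * z) = g a (L : ℤ) := by
  intro z
  induction z using Nat.strong_induction_on with
  | _ z ih =>
    intro hz hrad
    by_cases hz1 : z = 1
    · subst hz1; simp
    · obtain ⟨r, hr, hrz⟩ := Nat.exists_prime_and_dvd hz1
      obtain ⟨w, hw⟩ := hrz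
      have hwpos : 0 < w := by
        rcases Nat.eq_zero_or_pos w with h0 | h0
        · subst h0; omega
        · exact h0
      have hwlt : w < z := by
        rw [hw]; exact lt_mul_of_one_lt_left hwpos hr.one_lt
      have hradw : ∀ p : ℕ, p.Prime → p ∣ w → p ∣ L := fun p hp hpw =>
        hrad p hp (hw ▸ Dvd.dvd.mul_left hpw r)
      have hrL : r ∣ L := hrad r hr ⟨w, hw⟩
      have h1 := towerStep_one hS hq hqN hD hLq h4 hG hNL a haL hr hrL w hwpos hradw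
      have e1 : (L : ℤ) * (z : ℤ) = (L : ℤ) * w * (r : ℤ) ^ 1 := by
        rw [hw]; push_cast; ring
      rw [e1, h1]
      exact ih w hwlt hwpos hradw

/-- (LI), one half: from a divisor `L1` of a `q`-good `L` up to `L`. -/
theorem level_up (hS : SymB N q g h) (hq : q.Prime) (hqN : ¬ q ∣ N) (hD : IhLemmaD q)
    {L m : ℕ} (hLq : Nat.Coprime L q) (h4 : 2 ∣ L → 4 ∣ L) (hG : QGood q L m) (hNL : N ∣ L)
    (L1 : ℕ) (hNL1 : N ∣ L1) (hL1L : L1 ∣ L)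
    (a : ℤ) (haL : IsCoprime a (L : ℤ)) (haq : IsCoprime a (q : ℤ)) :
    g a (L1 : ℤ) = g a (L : ℤ) := by
  obtain ⟨u, hu⟩ := hL1L
  have hLpos : 0 < L := by
    rcases Nat.eq_zero_or_pos L with h0 | h0
    · subst h0
      have : q = 1 := by simpa using hLq
      exact absurd this hq.one_lt.ne'
    · exact h0
  have hupos : 0 < u := by
    rcases Nat.eq_zero_or_pos u with h0 | h0
    · subst h0; omega
    · exact h0
  have ha0 : a ≠ 0 := by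
    rintro rfl
    have h1 : IsUnit (q : ℤ) := isCoprime_zero_left.mp haq
    exact (Nat.prime_iff_prime_int.mp hq).not_isUnit h1
  have hn : 0 < Nat.totient a.natAbs := Nat.totient_pos.mpr (Int.natAbs_pos.mpr ha0)
  set n := Nat.totient a.natAbs with hndef
  have hau : Nat.Coprime u a.natAbs := by
    have h1 : IsCoprime a (u : ℤ) := by
      have : IsCoprime a ((L1 : ℤ) * u) := by
        have h2 := haL; rw [hu] at h2; push_cast at h2; exact h2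
      exact this.of_mul_right_right
    have h2 := Int.isCoprime_iff_gcd_eq_one.mp h1
    rw [Int.gcd_def, Int.natAbs_natCast] at h2
    exact (Nat.coprime_comm.mp h2)
  have hun : (a : ℤ) ∣ (u : ℤ) ^ n - 1 := by
    have h1 : u ^ n ≡ 1 [MOD a.natAbs] := Nat.ModEq.pow_totient hau
    have h2 := Int.natCast_modEq_iff.mpr h1
    have h3 := Int.modEq_iff_dvd.mp h2.symm
    have h4 : ((a.natAbs : ℕ) : ℤ) ∣ (u : ℤ) ^ n - 1 := by simpa using h3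
    exact Int.natAbs_dvd.mp h4
  obtain ⟨y, hy⟩ := hun
  obtain ⟨v, hv⟩ := hNL1
  have haL1 : IsCoprime a (L1 : ℤ) := by
    have : IsCoprime a ((L1 : ℤ) * u) := by
      have h2 := haL; rw [hu] at h2; push_cast at h2; exact h2
    exact this.of_mul_right_left
  have hNL1' : (N : ℤ) ∣ (L1 : ℤ) := Int.natCast_dvd_natCast.mpr ⟨v, hv⟩
  have s1 : g a ((L1 : ℤ) * (u : ℤ) ^ n) = g a (L1 : ℤ) := by
    have e1 : (L1 : ℤ) * (u : ℤ) ^ n = (L1 : ℤ) + N * ((v : ℤ) * y) * a := by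
      have hv' : (L1 : ℤ) = (N : ℤ) * v := by exact_mod_cast hv
      rw [hv']; linear_combination ((N : ℤ) * v) * hy
    rw [e1]; exact hS.2.1 a _ _ haL1 hNL1'
  have hradz : ∀ p : ℕ, p.Prime → p ∣ u ^ (n - 1) → p ∣ L := fun p hp hpu =>
    (hp.dvd_of_dvd_pow hpu).trans ⟨L1, by rw [hu]; ring⟩
  have s2 := tower_inv hS hq hqN hD hLq h4 hG hNL a haL (u ^ (n - 1)) (pow_pos hupos _) hradz
  have e2 : (L : ℤ) * ((u ^ (n - 1) : ℕ) : ℤ) = (L1 : ℤ) * (u : ℤ) ^ n := by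
    have : (u : ℤ) ^ n = (u : ℤ) * (u : ℤ) ^ (n - 1) := by
      rw [← pow_succ', Nat.sub_add_cancel hn]
    rw [this, hu]; push_cast; ring
  rw [e2, s1] at s2
  exact s2

/-- CLAIM B (`ε = +1`). -/
theorem ihClaimB (hN : 0 < N) (hq : q.Prime) (hqN : ¬ q ∣ N)
    (hBC : IhLemmaBC q) (hD : IhLemmaD q) (g : ℤ → ℤ → M) (h : M)
    (r1 : ∀ a c x : ℤ, IsCoprime a c → (N : ℤ) ∣ c → g (a + x * c) c = g a c)
    (r2 : ∀ a c y : ℤ, IsCoprime a c → (N : ℤ) ∣ c → g a (c + N * y * a) = g a c)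
    (e : ∀ a c : ℤ, IsCoprime a (q * c) → (N : ℤ) ∣ c → g a (q * c) = g a c)
    (d : ∀ a c : ℤ, IsCoprime (q * a) c → ¬ (q : ℤ) ∣ a → (N : ℤ) ∣ c →
      g (q * a) c = g a c + h)
    (g1 : g 1 N = 0) :
    ∀ a c : ℤ, IsCoprime a c → (N : ℤ) ∣ c → a ≡ 1 [ZMOD (N : ℤ)] → g a c = 0 := by
  have hS : SymB N q g h := ⟨r1, r2, e, d, g1⟩
  have hqZ : Prime (q : ℤ) := Nat.prime_iff_prime_int.mp hq
  have hNq : IsCoprime (N : ℤ) (q : ℤ) := by
    rw [Nat.isCoprime_iff_coprime]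
    exact ((Nat.Prime.coprime_iff_not_dvd hq).mpr hqN).symm
  have hN' : (N : ℤ) ≠ 0 := by exact_mod_cast hN.ne'
  have hq0 : (q : ℤ) ≠ 0 := by exact_mod_cast hq.ne_zero
  have e' : ∀ a c : ℤ, IsCoprime a (q * c) → (N : ℤ) ∣ c → g a (q * c) = (1 : ℤ) • g a c := by
    intro a c h1 h2; rw [e a c h1 h2, one_zsmul]
  -- main case: `c > 0`, `q ∤ c`, `q ∤ a`
  have main : ∀ a c : ℤ, IsCoprime a c → (N : ℤ) ∣ c → a ≡ 1 [ZMOD (N : ℤ)] → 0 < c →
      ¬ (q : ℤ) ∣ c → ¬ (q : ℤ) ∣ a → g a c = 0 := by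
    intro a c hac hNc ha1 hc hqc hqa
    obtain ⟨L1, rfl⟩ : ∃ L1 : ℕ, c = (L1 : ℤ) := ⟨c.toNat, (Int.toNat_of_nonneg hc.le).symm⟩
    have hL1pos : 0 < L1 := by exact_mod_cast hc
    have hNL1 : N ∣ L1 := Int.natCast_dvd_natCast.mp hNc
    have hL1q : Nat.Coprime L1 q :=
      ((Nat.Prime.coprime_iff_not_dvd hq).mpr (fun hh => hqc (Int.natCast_dvd_natCast.mpr hh))).symm
    have haq : IsCoprime a (q : ℤ) := ((isCoprime_prime_iff hq a).mpr hqa).symm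
    obtain ⟨L, hL1L, hprimes, h4, m, hm, hqm, hz⟩ := hBC L1 hL1pos hL1q
    have hG : QGood q L m := ⟨hm, hqm, hz⟩
    have hLq : Nat.Coprime L q := by
      apply Nat.coprime_of_dvd
      intro k hk hkL hkq
      have h1 : k ∣ Nat.gcd L1 q := Nat.dvd_gcd (hprimes k hk hkL) hkq
      rw [hL1q] at h1
      exact hk.one_lt.ne' (Nat.dvd_one.mp h1)
    have haL : IsCoprime a (L : ℤ) := isCoprime_of_rad hprimes hac
    have hNL : N ∣ L := hNL1.trans hL1L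
    have s1 := level_up hS hq hqN hD hLq h4 hG hNL L1 hNL1 hL1L a haL haq
    have s2 := level_up hS hq hqN hD hLq h4 hG hNL N dvd_rfl hNL a haL haq
    rw [s1, ← s2]
    obtain ⟨x, hx⟩ : ∃ x : ℤ, a = 1 + x * N := by
      obtain ⟨x, hx⟩ := Int.modEq_iff_dvd.mp ha1.symm
      exact ⟨x, by linear_combination hx⟩
    rw [hx, r1 1 N x isCoprime_one_left dvd_rfl, g1]
  -- reduction: `c ≠ 0`, `q ∤ c`
  have red1 : ∀ a c : ℤ, IsCoprime a c → (N : ℤ) ∣ c → a ≡ 1 [ZMOD (N : ℤ)] → c ≠ 0 →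
      ¬ (q : ℤ) ∣ c → g a c = 0 := by
    intro a c hac hNc ha1 hc hqc
    have hqc' : IsCoprime (q : ℤ) c := (isCoprime_prime_iff hq c).mpr hqc
    -- make `q ∤ a`
    obtain ⟨a1, ha1c, hga1, ha11, hqa1⟩ : ∃ a1 : ℤ, IsCoprime a1 c ∧ g a1 c = g a c ∧
        a1 ≡ 1 [ZMOD (N : ℤ)] ∧ ¬ (q : ℤ) ∣ a1 := by
      by_cases hqa : (q : ℤ) ∣ a
      · refine ⟨a + 1 * c, hac.add_mul_right_left 1, r1 a c 1 hac hNc, ?_, ?_⟩
        · have h1 : a + 1 * c ≡ a + 1 * 0 [ZMOD (N : ℤ)] :=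
            Int.ModEq.add_left a (Int.ModEq.mul_left 1 ((Int.modEq_zero_iff_dvd).mpr hNc))
          simpa using h1.trans (by simpa using ha1)
        · intro hh
          apply hqc
          have := (Int.dvd_add_right hqa).mp hh
          simpa using this
      · exact ⟨a, hac, rfl, ha1, hqa⟩
    rw [← hga1]
    have ha10 : a1 ≠ 0 := by
      rintro rfl; exact hqa1 (dvd_zero _)
    -- make `c > 0`, keeping `q ∤ c`
    set y : ℤ := (q : ℤ) * a1 * (|c| + 1) with hy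
    set c1 : ℤ := c + N * y * a1 with hc1
    have hgc1 : g a1 c1 = g a1 c := r2 a1 c y ha1c hNc
    have hco1 : IsCoprime a1 c1 := ha1c.add_mul_right_right ((N : ℤ) * y)
    have hNc1 : (N : ℤ) ∣ c1 := dvd_add hNc ⟨y * a1, by ring⟩
    have hqc1 : ¬ (q : ℤ) ∣ c1 := by
      intro hh
      apply hqc
      have h1 : (q : ℤ) ∣ N * y * a1 := ⟨N * (a1 * (|c| + 1)) * a1, by rw [hy]; ring⟩
      exact (Int.dvd_add_left h1).mp hh
    have hc1pos : 0 < c1 := by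
      have h1 : (1 : ℤ) ≤ N := by exact_mod_cast hN
      have h2 : (1 : ℤ) ≤ q := by exact_mod_cast hq.pos
      have h3 : (1 : ℤ) ≤ a1 * a1 := by
        have := Int.one_le_abs ha10
        nlinarith [abs_mul_abs_self a1, abs_nonneg a1]
      have h4 : (0 : ℤ) ≤ |c| := abs_nonneg c
      have h5 : -|c| ≤ c := neg_abs_le c
      have h6 : (N : ℤ) * y * a1 = (N * q) * (a1 * a1) * (|c| + 1) := by rw [hy]; ring
      have h7 : (1 : ℤ) ≤ N * q := by nlinarith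
      have h8 : (|c| + 1) ≤ (N * q) * (a1 * a1) * (|c| + 1) := by
        have : (1 : ℤ) ≤ (N * q) * (a1 * a1) := by nlinarith
        nlinarith
      rw [hc1, h6]; linarith
    rw [← hgc1]
    exact main a1 c1 hco1 hNc1 ha11 hc1pos hqc1 hqa1
  -- reduction: `c ≠ 0`
  have red2 : ∀ a c : ℤ, IsCoprime a c → (N : ℤ) ∣ c → a ≡ 1 [ZMOD (N : ℤ)] → c ≠ 0 →
      g a c = 0 := by
    intro a c hac hNc ha1 hc
    obtain ⟨j, c0, hc0, hqc0⟩ := exists_strip q hq c hc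
    have hNc0 : (N : ℤ) ∣ c0 := by
      rw [hc0] at hNc
      exact (IsCoprime.pow_right hNq).dvd_of_dvd_mul_left hNc
    have hc0' : c0 ≠ 0 := by
      rintro rfl; exact hqc0 (dvd_zero _)
    rw [hc0] at hac ⊢
    rw [e_pow 1 g e' a j c0 hac hNc0, one_pow, one_zsmul]
    exact red1 a c0 hac.of_mul_right_right hNc0 ha1 hc0' hqc0
  intro a c hac hNc ha1
  by_cases hc : c = 0
  · subst hc
    have ha : IsUnit a := isCoprime_zero_right.mp hac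
    have ha0 : a ≠ 0 := ha.ne_zero
    have hco : IsCoprime a ((0 : ℤ) + N * 1 * a) := hac.add_mul_right_right ((N : ℤ) * 1)
    have h1 := r2 a 0 1 hac hNc
    rw [← h1]
    apply red2 a _ hco ⟨a, by ring⟩ ha1
    rw [zero_add, mul_one]
    exact mul_ne_zero hN' ha0
  · exact red2 a c hac hNc ha1 hc

end Core

end Fermat.Agent.S41.H55
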