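/-
helper70: arithmetic input for the elementary proof of (IH) (board #2267):
LEMMA A and LEMMA D (Dirichlet + quadratic reciprocity + cyclicity of `(ZMod l)ˣ`).
-/
import Mathlib
import Fermat.Agent.S41.IhSymbol_helper55

namespace Fermat.Agent.S41.H70

/-! ### Chinese remainder and Dirichlet wrappers over `ℤ` -/

theorem int_crt {m₁ m₂ : ℤ} (h : IsCoprime m₁ m₂) (a₁ a₂ : ℤ) :
    ∃ x : ℤ, x ≡ a₁ [ZMOD m₁] ∧ x ≡ a₂ [ZMOD m₂] := by
  obtain ⟨u, v, huv⟩ := h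
  refine ⟨a₁ * (v * m₂) + a₂ * (u * m₁), ?_, ?_⟩
  · rw [Int.modEq_iff_dvd]
    refine ⟨a₁ * u - a₂ * u, ?_⟩
    have : v * m₂ = 1 - u * m₁ := by linarith
    rw [this]; ring
  · rw [Int.modEq_iff_dvd]
    refine ⟨a₂ * v - a₁ * v, ?_⟩
    have : u * m₁ = 1 - v * m₂ := by linarith
    rw [this]; ring

theorem isCoprime_of_modEq {x a m : ℤ} (hx : x ≡ a [ZMOD m]) (ha : IsCoprime a m) :
    IsCoprime x m := by
  obtain ⟨k, hk⟩ := (Int.modEq_iff_dvd.mp hx)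
  have hxa : x = a + m * (-k) := by linarith
  rw [hxa]
  exact (IsCoprime.add_mul_left_left_iff).mpr ha

theorem exists_prime_gt_int_modEq (n : ℕ) {m : ℤ} (hm : m ≠ 0) {x : ℤ} (hx : IsCoprime x m) :
    ∃ l : ℕ, n < l ∧ l.Prime ∧ (l : ℤ) ≡ x [ZMOD m] := by
  have hm' : m.natAbs ≠ 0 := Int.natAbs_ne_zero.mpr hm
  have hx' : IsCoprime x (m.natAbs : ℤ) := by
    rcases Int.natAbs_eq m with h | h
    · rw [← h]; exact hx
    · have : (m.natAbs : ℤ) = -m := by linarith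
      rw [this]; exact hx.neg_right
  obtain ⟨l, hl, hlp, hlx⟩ := Nat.forall_exists_prime_gt_and_zmodEq n hm' hx'
  refine ⟨l, hl, hlp, ?_⟩
  rw [Int.modEq_iff_dvd] at hlx ⊢
  exact Int.natAbs_dvd.mp hlx

/-! ### Primes `l ≡ -1 mod 4q`: `q` has odd order mod `l` -/

theorem mod_four_eq_three_of_modEq {q l : ℕ} (h : (l : ℤ) ≡ -1 [ZMOD (4 * q : ℤ)]) :
    l % 4 = 3 := by
  have h4 : (l : ℤ) ≡ -1 [ZMOD (4 : ℤ)] := h.of_dvd (Dvd.intro _ rfl)
  have := h4.eq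
  omega

theorem natCast_zmod_eq_neg_one_of_modEq {q l : ℕ} (h : (l : ℤ) ≡ -1 [ZMOD (4 * q : ℤ)]) :
    (l : ZMod q) = -1 := by
  have hq : (l : ℤ) ≡ -1 [ZMOD (q : ℤ)] := h.of_dvd (Dvd.intro_left _ rfl)
  have := (ZMod.intCast_eq_intCast_iff _ _ q).mpr hq
  simpa using this

theorem ne_of_modEq_neg_one {q l : ℕ} (hq : q.Prime) (h : (l : ℤ) ≡ -1 [ZMOD (4 * q : ℤ)]) :
    l ≠ q := by
  rintro rfl
  have h1 := natCast_zmod_eq_neg_one_of_modEq h
  have := Fact.mk hq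
  rw [ZMod.natCast_self] at h1
  have : (1 : ZMod l) = 0 := by
    have := congrArg (fun z => -z) h1
    simpa using this.symm
  exact one_ne_zero this

theorem isSquare_natCast_of_modEq_neg_one {q l : ℕ} (hq : q.Prime) (hl : l.Prime)
    (h : (l : ℤ) ≡ -1 [ZMOD (4 * q : ℤ)]) :
    IsSquare ((q : ℕ) : ZMod l) := by
  have := Fact.mk hq
  have := Fact.mk hl
  have hl4 : l % 4 = 3 := mod_four_eq_three_of_modEq h
  have hl2 : l ≠ 2 := by rintro rfl; omega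
  have hlq : l ≠ q := ne_of_modEq_neg_one hq h
  rcases hq.eq_two_or_odd with rfl | hqodd
  · -- `q = 2`: `l ≡ 7 mod 8`
    have h8 : l % 8 = 7 := by
      have := h.eq
      push_cast at this
      omega
    have := (ZMod.exists_sq_eq_two_iff hl2).mpr (Or.inr h8)
    simpa using this
  · have hlm : (l : ZMod q) = -1 := natCast_zmod_eq_neg_one_of_modEq h
    have hq4 : q % 4 = 1 ∨ q % 4 = 3 := by omega
    rcases hq4 with hq1 | hq3
    · have key := ZMod.exists_sq_eq_prime_iff_of_mod_four_eq_one (p := q) (q := l) hq1 hl2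
      apply key.mp
      rw [hlm]
      exact ZMod.exists_sq_eq_neg_one_iff.mpr (by omega)
    · have key := ZMod.exists_sq_eq_prime_iff_of_mod_four_eq_three (p := l) (q := q) hl4 hq3 hlq
      apply key.mpr
      rw [hlm]
      intro hsq
      exact (ZMod.exists_sq_eq_neg_one_iff.mp hsq) hq3

theorem odd_half_and_dvd_of_modEq_neg_one {q l : ℕ} (hq : q.Prime) (hl : l.Prime)
    (h : (l : ℤ) ≡ -1 [ZMOD (4 * q : ℤ)]) :
    Odd (l / 2) ∧ (l : ℤ) ∣ (q : ℤ) ^ (l / 2) - 1 := by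
  have := Fact.mk hl
  have hl4 : l % 4 = 3 := mod_four_eq_three_of_modEq h
  have hlq : l ≠ q := ne_of_modEq_neg_one hq h
  refine ⟨by rw [Nat.odd_iff]; omega, ?_⟩
  have hq0 : ((q : ℕ) : ZMod l) ≠ 0 := by
    intro h0
    rw [ZMod.natCast_eq_zero_iff] at h0
    exact hlq ((Nat.prime_dvd_prime_iff_eq hl hq).mp h0)
  have hpow := (ZMod.euler_criterion l hq0).mp (isSquare_natCast_of_modEq_neg_one hq hl h)
  have : (((q : ℤ) ^ (l / 2) - 1 : ℤ) : ZMod l) = 0 := by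
    push_cast
    rw [hpow]; ring
  exact (ZMod.intCast_zmod_eq_zero_iff_dvd _ _).mp this

theorem modEq_four_mul_of_modEq {q : ℕ} (hq : q.Prime) (hq2 : q ≠ 2) {x : ℤ}
    (h4 : x ≡ -1 [ZMOD (4 : ℤ)]) (hxq : x ≡ -1 [ZMOD (q : ℤ)]) :
    x ≡ -1 [ZMOD (4 * q : ℤ)] := by
  have hcop : IsCoprime (4 : ℤ) (q : ℤ) := by
    have h2 : IsCoprime (2 : ℤ) (q : ℤ) := by
      have : Nat.Coprime 2 q := (Nat.coprime_primes Nat.prime_two hq).mpr (Ne.symm hq2)
      exact_mod_cast Nat.isCoprime_iff_coprime.mpr this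
    have : IsCoprime ((2 : ℤ) * 2) (q : ℤ) := h2.mul_left h2
    norm_num at this
    exact this
  rw [Int.modEq_iff_dvd] at h4 hxq ⊢
  exact hcop.mul_dvd h4 hxq

/-- Dirichlet: a prime `l > n` with `l ≡ b mod c` and `l ≡ -1 mod 4q`. -/
theorem exists_prime_modEq_and_neg_one (q : ℕ) (hq : q.Prime) (n : ℕ) (c b : ℤ) (hc : c ≠ 0)
    (hbc : IsCoprime b c) (hqc : ¬ (q : ℤ) ∣ c) (hcompat : (2 : ℤ) ∣ c → b ≡ -1 [ZMOD (4 : ℤ)]) :
    ∃ l : ℕ, n < l ∧ l.Prime ∧ (l : ℤ) ≡ b [ZMOD c] ∧ (l : ℤ) ≡ -1 [ZMOD (4 * q : ℤ)] := by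
  have hq0 : (q : ℤ) ≠ 0 := by exact_mod_cast hq.ne_zero
  have hqpi : Prime (q : ℤ) := Nat.prime_iff_prime_int.mp hq
  have hcq : IsCoprime c (q : ℤ) := by
    rw [isCoprime_comm]
    exact (Prime.coprime_iff_not_dvd hqpi).mpr hqc
  by_cases h2 : (2 : ℤ) ∣ c
  · -- `c` even: then `q` is odd and `b ≡ -1 mod 4`
    have hq2 : q ≠ 2 := by
      rintro rfl
      exact hqc (by exact_mod_cast h2)
    have hb4 := hcompat h2
    have hb2 : IsCoprime b (2 : ℤ) := by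
      have h1 : IsCoprime (-1 : ℤ) (4 : ℤ) := by
        refine ⟨-1, 0, by norm_num⟩
      have h4 := isCoprime_of_modEq hb4 h1
      have : ((4 : ℤ)) = 2 * 2 := by norm_num
      rw [this] at h4
      exact h4.of_mul_right_left
    have hb2c : IsCoprime b (2 * c) := hb2.mul_right hbc
    have h2cq : IsCoprime (2 * c) (q : ℤ) := by
      refine IsCoprime.mul_left ?_ hcq
      have : Nat.Coprime 2 q := (Nat.coprime_primes Nat.prime_two hq).mpr (Ne.symm hq2)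
      exact_mod_cast Nat.isCoprime_iff_coprime.mpr this
    obtain ⟨x, hx1, hx2⟩ := int_crt h2cq b (-1)
    have hxc : IsCoprime x (2 * c * q) := by
      refine IsCoprime.mul_right (isCoprime_of_modEq hx1 hb2c) (isCoprime_of_modEq hx2 ?_)
      exact ⟨-1, 0, by ring⟩
    have hne : 2 * c * (q : ℤ) ≠ 0 := by positivity
    obtain ⟨l, hl, hlp, hlx⟩ := exists_prime_gt_int_modEq n hne hxc
    have hl2c : (l : ℤ) ≡ b [ZMOD 2 * c] :=
      (hlx.of_dvd (Dvd.intro _ rfl)).trans hx1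
    have hlq : (l : ℤ) ≡ -1 [ZMOD (q : ℤ)] :=
      (hlx.of_dvd (Dvd.intro_left _ rfl)).trans hx2
    refine ⟨l, hl, hlp, hl2c.of_dvd (Dvd.intro_left _ rfl), ?_⟩
    have h4dvd : (4 : ℤ) ∣ 2 * c := by
      obtain ⟨e, rfl⟩ := h2
      exact ⟨e, by ring⟩
    exact modEq_four_mul_of_modEq hq hq2 ((hl2c.of_dvd h4dvd).trans hb4) hlq
  · -- `c` odd
    have hc4q : IsCoprime c (4 * q : ℤ) := by
      have hc2 : IsCoprime c (2 : ℤ) := by
        rw [isCoprime_comm]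
        exact (Prime.coprime_iff_not_dvd Int.prime_two).mpr h2
      have : IsCoprime c ((2 : ℤ) * 2 * q) := (hc2.mul_right hc2).mul_right hcq
      norm_num at this
      exact this
    obtain ⟨x, hx1, hx2⟩ := int_crt hc4q b (-1)
    have hxc : IsCoprime x (c * (4 * q)) := by
      refine IsCoprime.mul_right (isCoprime_of_modEq hx1 hbc) (isCoprime_of_modEq hx2 ?_)
      exact ⟨-1, 0, by ring⟩
    have hne : c * (4 * (q : ℤ)) ≠ 0 := by positivity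
    obtain ⟨l, hl, hlp, hlx⟩ := exists_prime_gt_int_modEq n hne hxc
    exact ⟨l, hl, hlp, (hlx.of_dvd (Dvd.intro _ rfl)).trans hx1,
      (hlx.of_dvd (Dvd.intro_left _ rfl)).trans hx2⟩

/-- **LEMMA A** of the (IH) proof: every residue class `a mod c` prime to `c` (with `q ∤ c`)
contains a positive `a'` dividing `q ^ k - 1` for some ODD `k`. -/
theorem exists_modEq_dvd_pow_sub_one_odd (q : ℕ) (hq : q.Prime) (c a : ℤ) (hc : c ≠ 0)
    (hac : IsCoprime a c) (hqc : ¬ (q : ℤ) ∣ c) :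
    ∃ (a' : ℤ) (k : ℕ), 0 < a' ∧ a' ≡ a [ZMOD c] ∧ Odd k ∧ a' ∣ (q : ℤ) ^ k - 1 := by
  by_cases hcompat : (2 : ℤ) ∣ c → a ≡ -1 [ZMOD (4 : ℤ)]
  · obtain ⟨l, -, hlp, hla, hl4q⟩ :=
      exists_prime_modEq_and_neg_one q hq 0 c a hc hac hqc hcompat
    obtain ⟨hodd, hdvd⟩ := odd_half_and_dvd_of_modEq_neg_one hq hlp hl4q
    exact ⟨l, l / 2, by exact_mod_cast hlp.pos, hla, hodd, hdvd⟩
  · -- `c` even and `a ≡ 1 mod 4`: product of two primes
    rw [Classical.not_imp] at hcompat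
    obtain ⟨h2, ha4⟩ := hcompat
    have ha2 : ¬ (2 : ℤ) ∣ a := by
      intro h
      have := hac.isUnit_of_dvd' h h2
      exact Int.prime_two.not_isUnit this
    have ha1 : a ≡ 1 [ZMOD (4 : ℤ)] := by
      unfold Int.ModEq at ha4 ⊢
      omega
    have hna : -a ≡ -1 [ZMOD (4 : ℤ)] := ha1.neg
    have h1c : IsCoprime (-1 : ℤ) c := ⟨-1, 0, by ring⟩
    obtain ⟨l₁, -, hl₁p, hl₁c, hl₁q⟩ :=
      exists_prime_modEq_and_neg_one q hq 0 c (-1) hc h1c hqc (fun _ => Int.ModEq.refl _)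
    obtain ⟨l₂, hl₂gt, hl₂p, hl₂c, hl₂q⟩ :=
      exists_prime_modEq_and_neg_one q hq l₁ c (-a) hc hac.neg_left hqc (fun _ => hna)
    obtain ⟨hodd₁, hdvd₁⟩ := odd_half_and_dvd_of_modEq_neg_one hq hl₁p hl₁q
    obtain ⟨hodd₂, hdvd₂⟩ := odd_half_and_dvd_of_modEq_neg_one hq hl₂p hl₂q
    refine ⟨(l₁ : ℤ) * l₂, (l₁ / 2) * (l₂ / 2), ?_, ?_, hodd₁.mul hodd₂, ?_⟩
    · have h1 : (0 : ℤ) < l₁ := by exact_mod_cast hl₁p.pos
      have h2' : (0 : ℤ) < l₂ := by exact_mod_cast hl₂p.pos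
      positivity
    · have := hl₁c.mul hl₂c
      simpa using this
    · have hcop : IsCoprime (l₁ : ℤ) (l₂ : ℤ) := by
        have : Nat.Coprime l₁ l₂ := (Nat.coprime_primes hl₁p hl₂p).mpr (by omega)
        exact Nat.isCoprime_iff_coprime.mpr this
      refine hcop.mul_dvd ?_ ?_
      · refine hdvd₁.trans ?_
        rw [pow_mul]
        simpa using sub_dvd_pow_sub_pow ((q : ℤ) ^ (l₁ / 2)) 1 (l₂ / 2)
      · refine hdvd₂.trans ?_
        rw [mul_comm, pow_mul]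
        simpa using sub_dvd_pow_sub_pow ((q : ℤ) ^ (l₂ / 2)) 1 (l₁ / 2)

/-- **LEMMA A** in the literal shape consumed by `H55.ihClaimA`. -/
theorem ihLemmaA {q : ℕ} (hq : q.Prime) : Fermat.Agent.S41.H55.IhLemmaA q := by
  intro a c hc hac hqc
  obtain ⟨a', k, ha'pos, ha'a, hk, hdvd⟩ :=
    exists_modEq_dvd_pow_sub_one_odd q hq c a hc hac hqc
  lift a' to ℕ using ha'pos.le
  refine ⟨a', k, by exact_mod_cast ha'pos, ha'a, ?_, hk, ?_⟩
  · have hk0 : k ≠ 0 := by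
      rintro rfl
      simp at hk
    rw [Nat.coprime_comm]
    apply (Nat.Prime.coprime_iff_not_dvd hq).mpr
    intro hqa
    have h1 : (q : ℤ) ∣ (q : ℤ) ^ k - 1 := (Int.natCast_dvd_natCast.mpr hqa).trans hdvd
    have h2 : (q : ℤ) ∣ (q : ℤ) ^ k := dvd_pow_self _ hk0
    have h3 : (q : ℤ) ∣ 1 := by
      have := dvd_sub h2 h1
      simpa using this
    have h4 : q ∣ 1 := by exact_mod_cast h3
    exact hq.one_lt.ne' (Nat.dvd_one.mp h4)
  · rw [Nat.modEq_iff_dvd]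
    push_cast
    have := (dvd_neg (a := (a' : ℤ))).mpr hdvd
    simpa using this

end Fermat.Agent.S41.H70
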