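import Fermat.Agent.S41.IhTop_helper17
import Fermat.Agent.S41.IhArith_helper70
import Fermat.Agent.S41.IHDirichlet_helper61

/-!
# (IH): Ihara's lemma in pair form, closed

`ihStmt : H39.IhStmt` with no hypothesis: the top assembly `H17.ihStmt_of` applied to Lemma A
(`H70.ihLemmaA`) and Lemma D (`H61.lemmaD`, in the literal interface shape `H55.IhLemmaD`).
-/

set_option autoImplicit false

namespace Fermat.Agent.S41.H61

/-- Lemma D in the literal interface shape `H55.IhLemmaD`. -/
theorem ihLemmaD {q : ℕ} (hq : q.Prime) : H55.IhLemmaD q := lemmaD hq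

/-- Lemma A (second copy) in the literal interface shape `H55.IhLemmaA`. -/
theorem ihLemmaA {q : ℕ} (hq : q.Prime) : H55.IhLemmaA q := lemmaA hq

/-- **Ihara's lemma, pair form** (`H39.IhStmt`), closed. -/
theorem ihStmt : H39.IhStmt :=
  H17.ihStmt_of (fun _ hq => H70.ihLemmaA hq) (fun _ hq => ihLemmaD hq)

/-- Ihara's lemma for one triple `(N, q, p)`. -/
theorem ihAt {N q p : ℕ} (hN : 0 < N) (hq : q.Prime) (hqN : ¬ q ∣ N) (hp : p.Prime)
    (hp2 : p ≠ 2) : H39.IhAt N q p :=
  ihStmt N q p hN hq hqN hp hp2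

end Fermat.Agent.S41.H61
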