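import Mathlib

/-!
# (IH): the matrix layer of the elementary proof of Ihara's lemma (pair form)

`IH-1` + `IH-2` of the S41 tree: the first-column symbol of a map `f : SL(2, ℤ) → M`
that is additive on `Γ₀(N)`, the rules (R1), (R2), (E), (D), `g(1, N) = 0`, the swap
`(C) ⟹ (C')` and the assembly of (IH) from the two matrix-free claims A and B.
Everything is stated for a total function on `SL(2, ℤ)` (form-neutral).
-/

namespace Fermat.Agent.S41.H17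

open Matrix CongruenceSubgroup
open scoped MatrixGroups

/-! ### Entry calculus in `SL(2, ℤ)` -/

/-- The matrix `(a, b; c, d)` of determinant one. -/
def mk2 (a b c d : ℤ) (h : a * d - b * c = 1) : SL(2, ℤ) :=
  ⟨!![a, b; c, d], by rw [Matrix.det_fin_two_of]; exact h⟩

@[simp] theorem mk2_00 (a b c d : ℤ) (h : a * d - b * c = 1) : mk2 a b c d h 0 0 = a := rfl
@[simp] theorem mk2_01 (a b c d : ℤ) (h : a * d - b * c = 1) : mk2 a b c d h 0 1 = b := rfl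
@[simp] theorem mk2_10 (a b c d : ℤ) (h : a * d - b * c = 1) : mk2 a b c d h 1 0 = c := rfl
@[simp] theorem mk2_11 (a b c d : ℤ) (h : a * d - b * c = 1) : mk2 a b c d h 1 1 = d := rfl

theorem det_eq (g : SL(2, ℤ)) : g 0 0 * g 1 1 - g 0 1 * g 1 0 = 1 := by
  have := g.prop
  rw [Matrix.det_fin_two] at this
  exact this

theorem mul_00 (g h : SL(2, ℤ)) : (g * h) 0 0 = g 0 0 * h 0 0 + g 0 1 * h 1 0 := by
  simp [Matrix.SpecialLinearGroup.coe_mul, Matrix.mul_apply, Fin.sum_univ_two]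

theorem mul_01 (g h : SL(2, ℤ)) : (g * h) 0 1 = g 0 0 * h 0 1 + g 0 1 * h 1 1 := by
  simp [Matrix.SpecialLinearGroup.coe_mul, Matrix.mul_apply, Fin.sum_univ_two]

theorem mul_10 (g h : SL(2, ℤ)) : (g * h) 1 0 = g 1 0 * h 0 0 + g 1 1 * h 1 0 := by
  simp [Matrix.SpecialLinearGroup.coe_mul, Matrix.mul_apply, Fin.sum_univ_two]

theorem mul_11 (g h : SL(2, ℤ)) : (g * h) 1 1 = g 1 0 * h 0 1 + g 1 1 * h 1 1 := by
  simp [Matrix.SpecialLinearGroup.coe_mul, Matrix.mul_apply, Fin.sum_univ_two]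

theorem ext4 {g h : SL(2, ℤ)} (h00 : g 0 0 = h 0 0) (h01 : g 0 1 = h 0 1)
    (h10 : g 1 0 = h 1 0) (h11 : g 1 1 = h 1 1) : g = h := by
  apply Matrix.SpecialLinearGroup.ext
  intro i j
  fin_cases i <;> fin_cases j
  · exact h00
  · exact h01
  · exact h10
  · exact h11

theorem inv_00 (g : SL(2, ℤ)) : g⁻¹ 0 0 = g 1 1 := by
  rw [Matrix.SpecialLinearGroup.SL2_inv_expl]; rfl

theorem inv_01 (g : SL(2, ℤ)) : g⁻¹ 0 1 = - g 0 1 := by
  rw [Matrix.SpecialLinearGroup.SL2_inv_expl]; rfl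

theorem inv_10 (g : SL(2, ℤ)) : g⁻¹ 1 0 = - g 1 0 := by
  rw [Matrix.SpecialLinearGroup.SL2_inv_expl]; rfl

theorem inv_11 (g : SL(2, ℤ)) : g⁻¹ 1 1 = g 0 0 := by
  rw [Matrix.SpecialLinearGroup.SL2_inv_expl]; rfl

theorem one_00 : (1 : SL(2, ℤ)) 0 0 = 1 := by simp
theorem one_01 : (1 : SL(2, ℤ)) 0 1 = 0 := by simp
theorem one_10 : (1 : SL(2, ℤ)) 1 0 = 0 := by simp
theorem one_11 : (1 : SL(2, ℤ)) 1 1 = 1 := by simp

theorem mem_Gamma0_iff_dvd {N : ℕ} {g : SL(2, ℤ)} : g ∈ Gamma0 N ↔ (N : ℤ) ∣ g 1 0 := by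
  rw [Gamma0_mem]
  exact CharP.intCast_eq_zero_iff (ZMod N) N _

/-- Upper unipotent `x₁₂(t)`. -/
def upp (t : ℤ) : SL(2, ℤ) := mk2 1 t 0 1 (by ring)

/-- Lower unipotent `x₂₁(s)`. -/
def low (s : ℤ) : SL(2, ℤ) := mk2 1 0 s 1 (by ring)

@[simp] theorem upp_00 (t : ℤ) : upp t 0 0 = 1 := rfl
@[simp] theorem upp_01 (t : ℤ) : upp t 0 1 = t := rfl
@[simp] theorem upp_10 (t : ℤ) : upp t 1 0 = 0 := rfl
@[simp] theorem upp_11 (t : ℤ) : upp t 1 1 = 1 := rfl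
@[simp] theorem low_00 (t : ℤ) : low t 0 0 = 1 := rfl
@[simp] theorem low_01 (t : ℤ) : low t 0 1 = 0 := rfl
@[simp] theorem low_10 (t : ℤ) : low t 1 0 = t := rfl
@[simp] theorem low_11 (t : ℤ) : low t 1 1 = 1 := rfl

theorem upp_mem (N : ℕ) (t : ℤ) : upp t ∈ Gamma0 N := by
  rw [mem_Gamma0_iff_dvd]; simp

theorem low_mem (N : ℕ) (y : ℤ) : low (N * y) ∈ Gamma0 N := by
  rw [mem_Gamma0_iff_dvd]; simp

theorem upp_zero : upp 0 = 1 := by
  apply ext4 <;> simp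

theorem low_zero : low 0 = 1 := by
  apply ext4 <;> simp

theorem upp_add (s t : ℤ) : upp (s + t) = upp s * upp t := by
  apply ext4 <;> simp [mul_00, mul_01, mul_10, mul_11]
  ring

theorem low_add (s t : ℤ) : low (s + t) = low s * low t := by
  apply ext4 <;> simp [mul_00, mul_01, mul_10, mul_11]

/-! ### Additive maps on `Γ₀(N)` -/

variable {M : Type*} [AddCommGroup M]

/-- `f` is additive on `Γ₀(N)`. -/
def IsAddOn (N : ℕ) (f : SL(2, ℤ) → M) : Prop :=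
  ∀ g h : SL(2, ℤ), g ∈ Gamma0 N → h ∈ Gamma0 N → f (g * h) = f g + f h

/-- `g' = η g η⁻¹` for `η = diag(q, 1)` (relation form). -/
def EtaRel (q : ℕ) (g g' : SL(2, ℤ)) : Prop :=
  g' 0 0 = g 0 0 ∧ g' 0 1 = q * g 0 1 ∧ q * g' 1 0 = g 1 0 ∧ g' 1 1 = g 1 1

/-- `(C₊)`: `f g = f (η g η⁻¹)` on `Γ₀(N q)`. -/
def EtaInv (N q : ℕ) (f : SL(2, ℤ) → M) : Prop :=
  ∀ g g' : SL(2, ℤ), g ∈ Gamma0 (N * q) → EtaRel q g g' → f g = f g'

/-- `(C₋)`: `f g = - f (η g η⁻¹)` on `Γ₀(N q)`. -/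
def EtaAnti (N q : ℕ) (f : SL(2, ℤ) → M) : Prop :=
  ∀ g g' : SL(2, ℤ), g ∈ Gamma0 (N * q) → EtaRel q g g' → f g = - f g'

section basic

variable {N : ℕ} {f : SL(2, ℤ) → M}

theorem IsAddOn.map_one (hf : IsAddOn N f) : f 1 = 0 := by
  have h := hf 1 1 (one_mem _) (one_mem _)
  rw [mul_one] at h
  exact left_eq_add.mp h

theorem IsAddOn.map_inv (hf : IsAddOn N f) {g : SL(2, ℤ)} (hg : g ∈ Gamma0 N) :
    f g⁻¹ = - f g := by
  have h := hf g g⁻¹ hg (inv_mem hg)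
  rw [mul_inv_cancel, hf.map_one] at h
  exact eq_neg_of_add_eq_zero_right h.symm

theorem IsAddOn.map_upp (hf : IsAddOn N f) (hu : f (upp 1) = 0) (t : ℤ) : f (upp t) = 0 := by
  induction t using Int.induction_on with
  | zero => rw [upp_zero]; exact hf.map_one
  | succ n ih =>
    rw [upp_add, hf _ _ (upp_mem N _) (upp_mem N _), ih, hu, add_zero]
  | pred n ih =>
    have h := hf (upp (-(n : ℤ) - 1)) (upp 1) (upp_mem N _) (upp_mem N _)
    rw [← upp_add, hu, add_zero] at h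
    rw [← h]
    have : -(n : ℤ) - 1 + 1 = -(n : ℤ) := by ring
    rw [this]; exact ih

theorem IsAddOn.map_low (hf : IsAddOn N f) (hl : f (low N) = 0) (y : ℤ) :
    f (low (N * y)) = 0 := by
  induction y using Int.induction_on with
  | zero => rw [mul_zero, low_zero]; exact hf.map_one
  | succ n ih =>
    have e : (N : ℤ) * ((n : ℤ) + 1) = N * n + N * 1 := by ring
    have h1 := hf (low (N * (n : ℤ))) (low (N * 1)) (low_mem N _) (low_mem N _)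
    rw [← low_add, ← e] at h1
    rw [h1, ih, mul_one, hl, add_zero]
  | pred n ih =>
    have h := hf (low (N * (-(n : ℤ) - 1))) (low (N * 1)) (low_mem N _) (low_mem N _)
    rw [← low_add, mul_one, hl, add_zero] at h
    rw [← h]
    have : (N : ℤ) * (-(n : ℤ) - 1) + N = N * (-(n : ℤ)) := by ring
    rw [this]; exact ih

end basic

/-! ### The first-column symbol -/

/-- The symbol `g(a, c) = f γ` for any `γ` with first column `(a, c)` (junk `0` if there is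
none). -/
noncomputable def sym (f : SL(2, ℤ) → M) (a c : ℤ) : M := by
  classical
  exact if h : ∃ γ : SL(2, ℤ), γ 0 0 = a ∧ γ 1 0 = c then f h.choose else 0

theorem exists_col {a c : ℤ} (h : IsCoprime a c) : ∃ γ : SL(2, ℤ), γ 0 0 = a ∧ γ 1 0 = c := by
  obtain ⟨u, v, huv⟩ := h
  exact ⟨mk2 a (-v) c u (by linear_combination huv), rfl, rfl⟩

theorem isCoprime_col (γ : SL(2, ℤ)) : IsCoprime (γ 0 0) (γ 1 0) :=
  ⟨γ 1 1, - γ 0 1, by linear_combination det_eq γ⟩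

/-- Two matrices with the same first column differ by an upper unipotent on the right. -/
theorem eq_mul_upp {γ γ' : SL(2, ℤ)} (h0 : γ' 0 0 = γ 0 0) (h1 : γ' 1 0 = γ 1 0) :
    γ' = γ * upp (γ 1 1 * γ' 0 1 - γ 0 1 * γ' 1 1) := by
  have d := det_eq γ
  have d' := det_eq γ'
  rw [h0, h1] at d'
  apply ext4
  · simp [mul_00, h0]
  · simp only [mul_01, upp_01, upp_11]
    linear_combination (- γ' 0 1) * d + γ 0 1 * d'
  · simp [mul_10, h1]
  · simp only [mul_11, upp_01, upp_11]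
    linear_combination (- γ' 1 1) * d + γ 1 1 * d'

section symbol

variable {N : ℕ} {f : SL(2, ℤ) → M}

/-- `f` only depends on the first column, on `Γ₀(N)`. -/
theorem IsAddOn.eq_of_col (hf : IsAddOn N f) (hu : f (upp 1) = 0) {γ γ' : SL(2, ℤ)}
    (hγ : γ ∈ Gamma0 N) (h0 : γ' 0 0 = γ 0 0) (h1 : γ' 1 0 = γ 1 0) : f γ' = f γ := by
  rw [eq_mul_upp h0 h1, hf _ _ hγ (upp_mem N _), hf.map_upp hu, add_zero]

theorem sym_eq (hf : IsAddOn N f) (hu : f (upp 1) = 0) {γ : SL(2, ℤ)} (hγ : γ ∈ Gamma0 N) :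
    f γ = sym f (γ 0 0) (γ 1 0) := by
  classical
  have h : ∃ γ' : SL(2, ℤ), γ' 0 0 = γ 0 0 ∧ γ' 1 0 = γ 1 0 := ⟨γ, rfl, rfl⟩
  unfold sym
  rw [dif_pos h]
  exact (hf.eq_of_col hu hγ h.choose_spec.1 h.choose_spec.2).symm

/-- Unfolding the symbol at a matrix with prescribed first column. -/
theorem sym_eq' (hf : IsAddOn N f) (hu : f (upp 1) = 0) {γ : SL(2, ℤ)} {a c : ℤ}
    (hc : (N : ℤ) ∣ c) (h0 : γ 0 0 = a) (h1 : γ 1 0 = c) : sym f a c = f γ := by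
  subst h0 h1
  exact (sym_eq hf hu (mem_Gamma0_iff_dvd.mpr hc)).symm

/-- (R1). -/
theorem sym_r1 (hf : IsAddOn N f) (hu : f (upp 1) = 0) :
    ∀ a c x : ℤ, IsCoprime a c → (N : ℤ) ∣ c → sym f (a + x * c) c = sym f a c := by
  intro a c x hac hc
  obtain ⟨γ, h0, h1⟩ := exists_col hac
  have hγ : γ ∈ Gamma0 N := mem_Gamma0_iff_dvd.mpr (h1 ▸ hc)
  rw [sym_eq' hf hu hc h0 h1,
    sym_eq' hf hu hc (γ := upp x * γ) (by simp [mul_00, h0, h1]) (by simp [mul_10, h1]),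
    hf _ _ (upp_mem N _) hγ, hf.map_upp hu, zero_add]

/-- (R2). -/
theorem sym_r2 (hf : IsAddOn N f) (hu : f (upp 1) = 0) (hl : f (low N) = 0) :
    ∀ a c y : ℤ, IsCoprime a c → (N : ℤ) ∣ c → sym f a (c + N * y * a) = sym f a c := by
  intro a c y hac hc
  obtain ⟨γ, h0, h1⟩ := exists_col hac
  have hγ : γ ∈ Gamma0 N := mem_Gamma0_iff_dvd.mpr (h1 ▸ hc)
  have hc' : (N : ℤ) ∣ c + N * y * a := dvd_add hc ⟨y * a, by ring⟩
  rw [sym_eq' hf hu hc h0 h1,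
    sym_eq' hf hu hc' (γ := low (N * y) * γ) (by simp [mul_00, h0])
      (by simp [mul_10, h0, h1]; ring),
    hf _ _ (low_mem N _) hγ, hf.map_low hl, zero_add]

theorem sym_one (hf : IsAddOn N f) (hu : f (upp 1) = 0) (hl : f (low N) = 0) :
    sym f 1 N = 0 := by
  have h := sym_eq' hf hu (dvd_refl (N : ℤ)) (γ := low N) (a := 1) (c := N) rfl rfl
  rw [h, hl]

end symbol

/-! ### The rules (E) and (D) -/

/-- `η⁻¹ k η` for `k` with upper right entry `q t`. -/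
def etaDown (q : ℕ) (k : SL(2, ℤ)) (t : ℤ) (ht : k 0 1 = q * t) : SL(2, ℤ) :=
  mk2 (k 0 0) t (q * k 1 0) (k 1 1) (by
    have := det_eq k
    rw [ht] at this
    linear_combination this)

theorem etaRel_etaDown (q : ℕ) (k : SL(2, ℤ)) (t : ℤ) (ht : k 0 1 = q * t) :
    EtaRel q (etaDown q k t ht) k :=
  ⟨rfl, ht, rfl, rfl⟩

theorem etaDown_mem {N : ℕ} (q : ℕ) {k : SL(2, ℤ)} (hk : k ∈ Gamma0 N) (t : ℤ)
    (ht : k 0 1 = q * t) : etaDown q k t ht ∈ Gamma0 (N * q) := by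
  rw [mem_Gamma0_iff_dvd] at hk ⊢
  obtain ⟨w, hw⟩ := hk
  refine ⟨w, ?_⟩
  change (q : ℤ) * k 1 0 = _
  rw [hw]; push_cast; ring

theorem etaDown_mem' {N : ℕ} (q : ℕ) {k : SL(2, ℤ)} (hk : k ∈ Gamma0 N) (t : ℤ)
    (ht : k 0 1 = q * t) : etaDown q k t ht ∈ Gamma0 N := by
  rw [mem_Gamma0_iff_dvd] at hk ⊢
  exact Dvd.dvd.mul_left hk _

section rules

variable {N q : ℕ} {f : SL(2, ℤ) → M}

theorem sym_e_aux (hf : IsAddOn N f) (hu : f (upp 1) = 0) {a c : ℤ}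
    (hac : IsCoprime a (q * c)) (hc : (N : ℤ) ∣ c) :
    ∃ γ γ' : SL(2, ℤ), γ ∈ Gamma0 (N * q) ∧ EtaRel q γ γ' ∧ sym f a (q * c) = f γ ∧
      sym f a c = f γ' := by
  obtain ⟨u, v, huv⟩ := hac
  refine ⟨mk2 a (-v) (q * c) u (by linear_combination huv),
    mk2 a (q * (-v)) c u (by linear_combination huv), ?_, ⟨rfl, rfl, rfl, rfl⟩, ?_, ?_⟩
  · rw [mem_Gamma0_iff_dvd]
    obtain ⟨w, hw⟩ := hc
    refine ⟨w, ?_⟩
    change (q : ℤ) * c = _
    rw [hw]; push_cast; ring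
  · exact sym_eq' hf hu (Dvd.dvd.mul_left hc _) rfl rfl
  · exact sym_eq' hf hu hc rfl rfl

/-- (E), sign `+`. -/
theorem sym_e_inv (hf : IsAddOn N f) (hu : f (upp 1) = 0) (hC : EtaInv N q f) :
    ∀ a c : ℤ, IsCoprime a (q * c) → (N : ℤ) ∣ c → sym f a (q * c) = sym f a c := by
  intro a c hac hc
  obtain ⟨γ, γ', hγ, hrel, e1, e2⟩ := sym_e_aux (f := f) hf hu hac hc
  rw [e1, e2]
  exact hC γ γ' hγ hrel

/-- (E), sign `-`. -/
theorem sym_e_anti (hf : IsAddOn N f) (hu : f (upp 1) = 0) (hC : EtaAnti N q f) :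
    ∀ a c : ℤ, IsCoprime a (q * c) → (N : ℤ) ∣ c → sym f a (q * c) = - sym f a c := by
  intro a c hac hc
  obtain ⟨γ, γ', hγ, hrel, e1, e2⟩ := sym_e_aux (f := f) hf hu hac hc
  rw [e1, e2]
  exact hC γ γ' hγ hrel

/-- The two auxiliary matrices `γ₁ = (q, b₀; N, d₀)`, `γ₂ = (1, b₀; N, q d₀)`. -/
theorem exists_bezout (hq : q.Prime) (hqN : ¬ q ∣ N) : ∃ b0 d0 : ℤ, (q : ℤ) * d0 - b0 * N = 1 := by
  have h : IsCoprime (q : ℤ) (N : ℤ) :=
    Nat.isCoprime_iff_coprime.mpr ((Nat.Prime.coprime_iff_not_dvd hq).mpr hqN)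
  obtain ⟨u, v, huv⟩ := h
  exact ⟨-v, u, by linear_combination huv⟩

/-- (D), sign `+`: `g(q a, c) = g(a, c) + h`. -/
theorem sym_d (hq : q.Prime) (hqN : ¬ q ∣ N) (hf : IsAddOn N f) (hu : f (upp 1) = 0)
    (hC : EtaInv N q f) :
    ∃ h : M, ∀ a c : ℤ, IsCoprime ((q : ℤ) * a) c → ¬ (q : ℤ) ∣ a → (N : ℤ) ∣ c →
      sym f (q * a) c = sym f a c + h := by
  obtain ⟨b0, d0, h0⟩ := exists_bezout hq hqN
  set γ1 : SL(2, ℤ) := mk2 q b0 N d0 h0 with hγ1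
  set γ2 : SL(2, ℤ) := mk2 1 b0 N (q * d0) (by linear_combination h0) with hγ2
  have hγ1m : γ1 ∈ Gamma0 N := mem_Gamma0_iff_dvd.mpr (dvd_refl _)
  have hγ2m : γ2 ∈ Gamma0 N := mem_Gamma0_iff_dvd.mpr (dvd_refl _)
  refine ⟨f γ1 - f γ2, ?_⟩
  intro a c hqac hqa hc
  obtain ⟨u, v, huv⟩ := hqac
  have hqc : IsCoprime (q : ℤ) c := ⟨u * a, v, by linear_combination huv⟩
  have hac : IsCoprime a c := ⟨u * q, v, by linear_combination huv⟩
  have hqa' : IsCoprime (q : ℤ) a :=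
    (Nat.prime_iff_prime_int.mp hq).irreducible.coprime_iff_not_dvd.mpr hqa
  obtain ⟨d, nb, hdb⟩ : IsCoprime a (q * c) := IsCoprime.mul_right hqa'.symm hac
  obtain ⟨u', v', huv'⟩ := hqc
  -- `s₀` with `d + c s₀ = q e`
  set s0 : ℤ := - d * v' with hs0
  set e : ℤ := d * u' with he
  have hse : d + c * s0 = q * e := by
    rw [hs0, he]; linear_combination (-d) * huv'
  set g1 : SL(2, ℤ) := mk2 a (q * (-nb)) c d (by linear_combination hdb) with hg1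
  have hg1m : g1 ∈ Gamma0 N := mem_Gamma0_iff_dvd.mpr hc
  set δ : SL(2, ℤ) := γ2⁻¹ * g1 * upp s0 with hδ
  have hδm : δ ∈ Gamma0 N := mul_mem (mul_mem (inv_mem hγ2m) hg1m) (upp_mem N _)
  have hfδ : f δ = - f γ2 + f g1 := by
    rw [hδ, hf _ _ (mul_mem (inv_mem hγ2m) hg1m) (upp_mem N _), hf _ _ (inv_mem hγ2m) hg1m,
      hf.map_inv hγ2m, hf.map_upp hu, add_zero]
  have hδ00 : δ 0 0 = q * d0 * a - b0 * c := by
    simp [hδ, hγ2, hg1, mul_00, mul_01, inv_00, inv_01]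
    ring
  have hδ10 : δ 1 0 = c - N * a := by
    simp [hδ, hγ2, hg1, mul_10, mul_11, inv_10, inv_11]
    ring
  have hδ01 : δ 0 1 = q * (d0 * a * s0 - q * d0 * nb - b0 * e) := by
    simp [hδ, hγ2, hg1, mul_00, mul_01, inv_00, inv_01]
    linear_combination (- b0) * hse
  set κ : SL(2, ℤ) := etaDown q δ _ hδ01 with hκ
  have hκm : κ ∈ Gamma0 N := etaDown_mem' q hδm _ hδ01
  have hfκ : f κ = f δ := hC κ δ (etaDown_mem q hδm _ hδ01) (etaRel_etaDown q δ _ hδ01)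
  have hκ00 : κ 0 0 = δ 0 0 := rfl
  have hκ10 : κ 1 0 = q * δ 1 0 := rfl
  have e1 : sym f (q * a) c = f (γ1 * κ) := by
    apply sym_eq' hf hu hc
    · rw [mul_00, hκ00, hκ10, hδ00, hδ10]
      simp only [hγ1, mk2_00, mk2_01]
      linear_combination (q * a : ℤ) * h0
    · rw [mul_10, hκ00, hκ10, hδ00, hδ10]
      simp only [hγ1, mk2_10, mk2_11]
      linear_combination c * h0
  have e2 : sym f a c = f g1 := sym_eq' hf hu hc rfl rfl
  rw [e1, e2, hf _ _ hγ1m hκm, hfκ, hfδ]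
  abel

/-- S0, the swap: `(C) φ₁ g = φ₂ (η g η⁻¹)` on `Γ₀(N q)` implies
`(C') φ₂ g = φ₁ (η g η⁻¹)` on `Γ₀(N q)`. -/
theorem eta_swap (hq : q.Prime) (hqN : ¬ q ∣ N) {φ1 φ2 : SL(2, ℤ) → M}
    (h1 : IsAddOn N φ1) (h2 : IsAddOn N φ2)
    (hC : ∀ g g' : SL(2, ℤ), g ∈ Gamma0 (N * q) → EtaRel q g g' → φ1 g = φ2 g') :
    ∀ g g' : SL(2, ℤ), g ∈ Gamma0 (N * q) → EtaRel q g g' → φ2 g = φ1 g' := by
  intro g g' hg hrel
  obtain ⟨r00, r01, r10, r11⟩ := hrel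
  obtain ⟨b0, d0, h0⟩ := exists_bezout hq hqN
  set γ1 : SL(2, ℤ) := mk2 q b0 N d0 h0 with hγ1
  set γ2 : SL(2, ℤ) := mk2 1 b0 N (q * d0) (by linear_combination h0) with hγ2
  have hγ1m : γ1 ∈ Gamma0 N := mem_Gamma0_iff_dvd.mpr (dvd_refl _)
  have hγ2m : γ2 ∈ Gamma0 N := mem_Gamma0_iff_dvd.mpr (dvd_refl _)
  have hq0 : (q : ℤ) ≠ 0 := by exact_mod_cast hq.ne_zero
  -- membership of `g`, `g'` in `Γ₀(N)`
  have hg'm : g' ∈ Gamma0 N := by
    rw [mem_Gamma0_iff_dvd] at hg ⊢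
    obtain ⟨w, hw⟩ := hg
    refine ⟨w, ?_⟩
    have : (q : ℤ) * g' 1 0 = q * (N * w) := by rw [r10, hw]; push_cast; ring
    exact mul_left_cancel₀ hq0 this
  have hgm : g ∈ Gamma0 N := by
    rw [mem_Gamma0_iff_dvd] at hg'm ⊢
    rw [← r10]
    exact Dvd.dvd.mul_left hg'm _
  set k : SL(2, ℤ) := γ2⁻¹ * g * γ2 with hk
  have hkm : k ∈ Gamma0 N := mul_mem (mul_mem (inv_mem hγ2m) hgm) hγ2m
  have hφk : φ2 k = φ2 g := by
    rw [hk, h2 _ _ (mul_mem (inv_mem hγ2m) hgm) hγ2m, h2 _ _ (inv_mem hγ2m) hgm,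
      h2.map_inv hγ2m]
    abel
  have hk00 : k 0 0 = q * d0 * (g 0 0 + g 0 1 * N) - b0 * (q * g' 1 0 + g 1 1 * N) := by
    simp [hk, hγ2, mul_00, mul_01, inv_00, inv_01, ← r10]
    ring
  have hk10 : k 1 0 = q * g' 1 0 + g 1 1 * N - N * (g 0 0 + g 0 1 * N) := by
    simp [hk, hγ2, mul_10, mul_11, inv_10, inv_11, ← r10]
    ring
  have hk11 : k 1 1 = (q * g' 1 0 * b0 + g 1 1 * (q * d0)) -
      N * (g 0 0 * b0 + g 0 1 * (q * d0)) := by
    simp [hk, hγ2, mul_10, mul_11, inv_10, inv_11, ← r10]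
    ring
  have hk01 : k 0 1 = q * (d0 * g 0 0 * b0 + q * d0 ^ 2 * g 0 1 - b0 ^ 2 * g' 1 0
      - b0 * g 1 1 * d0) := by
    simp [hk, hγ2, mul_00, mul_01, inv_00, inv_01, ← r10]
    ring
  set κ : SL(2, ℤ) := etaDown q k _ hk01 with hκ
  have hκm : κ ∈ Gamma0 N := etaDown_mem' q hkm _ hk01
  have hφκ : φ1 κ = φ2 k := hC κ k (etaDown_mem q hkm _ hk01) (etaRel_etaDown q k _ hk01)
  have hκ00 : κ 0 0 = k 0 0 := rfl
  have hκ10 : κ 1 0 = q * k 1 0 := rfl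
  have hκ01 : κ 0 1 = d0 * g 0 0 * b0 + q * d0 ^ 2 * g 0 1 - b0 ^ 2 * g' 1 0
      - b0 * g 1 1 * d0 := rfl
  have hκ11 : κ 1 1 = k 1 1 := rfl
  have key : g' * γ1 = γ1 * κ := by
    apply ext4
    · rw [mul_00, mul_00, hκ00, hκ10, hk00, hk10, r00, r01]
      simp only [hγ1, mk2_00, mk2_01, mk2_10]
      linear_combination (- (q : ℤ) * (g 0 0 + g 0 1 * N)) * h0
    · rw [mul_01, mul_01, hκ01, hκ11, hk11, r00, r01]
      simp only [hγ1, mk2_00, mk2_01, mk2_11]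
      linear_combination (- (g 0 0 * b0 + g 0 1 * (q * d0))) * h0
    · rw [mul_10, mul_10, hκ00, hκ10, hk00, hk10, r11]
      simp only [hγ1, mk2_00, mk2_10, mk2_11]
      linear_combination (- (q * g' 1 0 + g 1 1 * N)) * h0
    · rw [mul_11, mul_11, hκ01, hκ11, hk11, r11]
      simp only [hγ1, mk2_01, mk2_10, mk2_11]
      linear_combination (- (g' 1 0 * b0 + g 1 1 * d0)) * h0
  have e1 := h1 _ _ hg'm hγ1m
  have e2 := h1 _ _ hγ1m hκm
  rw [key, e2] at e1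
  have e3 : φ1 κ = φ1 g' := by
    have := add_comm (φ1 g') (φ1 γ1)
    rw [this] at e1
    exact add_left_cancel e1
  rw [← e3, hφκ, hφk]

end rules

/-! ### Assembly of (IH) -/

section assembly

variable {N q : ℕ}

/-- (IH), neutral form: `hA` and `hB` are the conclusions of the matrix-free claims A and B
(for every symbol satisfying (R1), (R2), (E), resp. (R1), (R2), (E), (D), `g(1, N) = 0`). -/
theorem ih_neutral (hq : q.Prime) (hqN : ¬ q ∣ N) (htwo : ∀ x : M, 2 • x = 0 → x = 0)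
    (hA : ∀ g : ℤ → ℤ → M,
      (∀ a c x : ℤ, IsCoprime a c → (N : ℤ) ∣ c → g (a + x * c) c = g a c) →
      (∀ a c y : ℤ, IsCoprime a c → (N : ℤ) ∣ c → g a (c + N * y * a) = g a c) →
      (∀ a c : ℤ, IsCoprime a (q * c) → (N : ℤ) ∣ c → g a (q * c) = - g a c) →
      ∀ a c : ℤ, IsCoprime a c → (N : ℤ) ∣ c → 2 • g a c = 0)
    (hB : ∀ (g : ℤ → ℤ → M) (h : M),
      (∀ a c x : ℤ, IsCoprime a c → (N : ℤ) ∣ c → g (a + x * c) c = g a c) →
      (∀ a c y : ℤ, IsCoprime a c → (N : ℤ) ∣ c → g a (c + N * y * a) = g a c) →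
      (∀ a c : ℤ, IsCoprime a (q * c) → (N : ℤ) ∣ c → g a (q * c) = g a c) →
      (∀ a c : ℤ, IsCoprime (q * a) c → ¬ (q : ℤ) ∣ a → (N : ℤ) ∣ c →
        g (q * a) c = g a c + h) →
      g 1 N = 0 →
      ∀ a c : ℤ, IsCoprime a c → (N : ℤ) ∣ c → a ≡ 1 [ZMOD (N : ℤ)] → g a c = 0)
    (φ1 φ2 : SL(2, ℤ) → M) (h1 : IsAddOn N φ1) (h2 : IsAddOn N φ2)
    (u1 : φ1 (upp 1) = 0) (u2 : φ2 (upp 1) = 0) (l1 : φ1 (low N) = 0) (l2 : φ2 (low N) = 0)
    (hC : ∀ g g' : SL(2, ℤ), g ∈ Gamma0 (N * q) → EtaRel q g g' → φ1 g = φ2 g') :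
    (∀ g ∈ Gamma0 N, φ1 g = φ2 g) ∧
      ∀ g ∈ Gamma0 N, (g 0 0 : ℤ) ≡ 1 [ZMOD (N : ℤ)] → φ1 g = 0 := by
  have hC' := eta_swap hq hqN h1 h2 hC
  -- the two sign components
  set ψp : SL(2, ℤ) → M := fun g => φ1 g + φ2 g with hψp
  set ψm : SL(2, ℤ) → M := fun g => φ1 g - φ2 g with hψm
  have hp : IsAddOn N ψp := by
    intro g h hg hh
    simp only [hψp, h1 g h hg hh, h2 g h hg hh]
    abel
  have hm : IsAddOn N ψm := by
    intro g h hg hh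
    simp only [hψm, h1 g h hg hh, h2 g h hg hh]
    abel
  have hpu : ψp (upp 1) = 0 := by simp only [hψp, u1, u2, add_zero]
  have hmu : ψm (upp 1) = 0 := by simp only [hψm, u1, u2, sub_zero]
  have hpl : ψp (low N) = 0 := by simp only [hψp, l1, l2, add_zero]
  have hml : ψm (low N) = 0 := by simp only [hψm, l1, l2, sub_zero]
  have hpC : EtaInv N q ψp := by
    intro g g' hg hrel
    simp only [hψp, hC g g' hg hrel, hC' g g' hg hrel]
    abel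
  have hmC : EtaAnti N q ψm := by
    intro g g' hg hrel
    simp only [hψm, hC g g' hg hrel, hC' g g' hg hrel]
    abel
  have claimA := hA (sym ψm) (sym_r1 hm hmu) (sym_r2 hm hmu hml) (sym_e_anti hm hmu hmC)
  obtain ⟨h, hd⟩ := sym_d hq hqN hp hpu hpC
  have claimB := hB (sym ψp) h (sym_r1 hp hpu) (sym_r2 hp hpu hpl) (sym_e_inv hp hpu hpC) hd
    (sym_one hp hpu hpl)
  have hEq : ∀ g ∈ Gamma0 N, φ1 g = φ2 g := by
    intro g hg
    have := claimA (g 0 0) (g 1 0) (isCoprime_col g) (mem_Gamma0_iff_dvd.mp hg)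
    rw [← sym_eq hm hmu hg] at this
    exact sub_eq_zero.mp (htwo _ this)
  refine ⟨hEq, ?_⟩
  intro g hg ha
  have := claimB (g 0 0) (g 1 0) (isCoprime_col g) (mem_Gamma0_iff_dvd.mp hg) ha
  rw [← sym_eq hp hpu hg] at this
  apply htwo
  rw [two_nsmul]
  have h' : φ1 g + φ2 g = 0 := this
  rw [← hEq g hg] at h'
  exact h'

end assembly

end Fermat.Agent.S41.H17
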