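/-
S41 / (G-IH) (helper19): Ihara's lemma in the operator vocabulary of (G):
if `res x + w (res y)` is divisible by `p` then `T_r x - (r+1) x` and `T_r y - (r+1) y` are
`p` times parabolic characters.
-/
import Fermat.Agent.S41.LevelOps_helper19
import Fermat.Agent.S41.IhEigen_helper91

set_option autoImplicit false

namespace Fermat.Agent.S41.H19

open CongruenceSubgroup ModularCurve.Period
open scoped MatrixGroups

/-- **(G-IH).** -/
theorem ih_ops {N q p r : ℕ} (hN : 0 < N) (hq : q.Prime) (hqN : ¬ q ∣ N) (hp : p.Prime)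
    (hp2 : p ≠ 2) (hr : r.Prime) (hrN : ¬ r ∣ N) (x y : Additive (Gamma0 N) →+ ℤ)
    (hx : IsParabolicHom (Gamma0 N) x) (hy : IsParabolicHom (Gamma0 N) y)
    (z : Additive (Gamma0 (N * q)) →+ ℤ)
    (h : resOp N q x + wOp hq hqN (resOp N q y) = p • z) :
    ∃ v₁ v₂ : Additive (Gamma0 N) →+ ℤ,
      IsParabolicHom (Gamma0 N) v₁ ∧ IsParabolicHom (Gamma0 N) v₂ ∧
      Fermat.Agent.S29.H06.heckeTr hr hrN x - (r + 1) • x = p • v₁ ∧
      Fermat.Agent.S29.H06.heckeTr hr hrN y - (r + 1) • y = p • v₂ := by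
  have hC : ∀ g g' : Gamma0 N, H39.EtaRel q (g : SL(2, ℤ)) (g' : SL(2, ℤ)) →
      (p : ℤ) ∣ x (Additive.ofMul g) + y (Additive.ofMul g') := by
    intro g g' hrel
    have hg' : (N : ℤ) ∣ (g' : SL(2, ℤ)) 1 0 := mem_Gamma0_iff_dvd.mp g'.2
    have hgq : (g : SL(2, ℤ)) ∈ Gamma0 (N * q) := by
      rw [mem_Gamma0_iff_dvd, ← hrel.2.2.1]
      obtain ⟨c, hc⟩ := hg'
      exact ⟨c, by rw [hc]; push_cast; ring⟩
    have e := DFunLike.congr_fun h (Additive.ofMul (⟨(g : SL(2, ℤ)), hgq⟩ : Gamma0 (N * q)))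
    rw [AddMonoidHom.add_apply, resOp_apply,
      wOp_resOp_apply hq hqN y ⟨(g : SL(2, ℤ)), hgq⟩ g' hrel] at e
    have e' : incl N q ⟨(g : SL(2, ℤ)), hgq⟩ = g := Subtype.ext rfl
    rw [e'] at e
    rw [e]
    exact ⟨z (Additive.ofMul (⟨(g : SL(2, ℤ)), hgq⟩ : Gamma0 (N * q))), by
      simp⟩
  obtain ⟨v₁, v₂, e₁, e₂, hv₁, hv₂⟩ := H91.ih_heckeTr_int hN hq hqN hp hp2 hr hrN x y
    (Fermat.Agent.S29.H06.heckeTr hr hrN x) (Fermat.Agent.S29.H06.heckeTr hr hrN y) hx hy hC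
    (Fermat.Agent.S29.H06.isHeckeTr_heckeTr hr hrN x)
    (Fermat.Agent.S29.H06.isHeckeTr_heckeTr hr hrN y)
  exact ⟨v₁, v₂, hv₁, hv₂, e₁, e₂⟩

end Fermat.Agent.S41.H19
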