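/-
S41 (IH) node IH-3, helper51: `q`-exact levels and the unit tower (Lemmas B and C of the paper
proof of Ihara's lemma, board #2267).  Mathlib only.

* `QExact q L m` : `0 < m`, `0 < L`, `(2 ∣ L → 4 ∣ L)` and `q ^ m = 1 + L * w` with `w` prime to
  `L` (equivalently `L ∣ q ^ m - 1` and `v_r (q ^ m - 1) = v_r L` for every prime `r ∣ L`; `m` is
  any such exponent, it need not be the order of `q`).
* `QExact.tower` : `q ^ (m z) = 1 + L z w` with `w` prime to `L`, for `rad z ∣ L`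
  (lifting the exponent, by induction on `z`).
* `QExact.exists_pow_modEq` (**Lemma B**) : for `rad z ∣ L` every `x ≡ 1 (mod L)` is congruent to
  `q ^ (m j)` modulo `L z`;  `QExact.exists_pow_mul_modEq` : the consumer form for (T1).
* `exists_qExact` (**Lemma C**) : every `L0` prime to `q` divides a `q`-exact `L` with the same
  prime divisors;  `exists_qExact_mul` : a common `q`-exact level above two levels.
* `ihLemmaBC` : Lemmas B and C packaged in one statement.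
-/
import Mathlib

set_option autoImplicit false

namespace Fermat.Agent.S41.H51

open Finset

/-- `(1 + y) ^ i ≡ 1 + i * y [ZMOD y ^ 2]`. -/
theorem one_add_pow_modEq (y : ℤ) (i : ℕ) : (1 + y) ^ i ≡ 1 + (i : ℤ) * y [ZMOD y ^ 2] := by
  induction i with
  | zero => simp
  | succ i ih =>
    have h := ih.mul_right (1 + y)
    rw [pow_succ (1 + y)]
    refine h.trans ?_
    refine Int.modEq_iff_dvd.mpr ⟨-(i : ℤ), ?_⟩
    push_cast
    ring

/-- `∑ i < r, u ^ i ≡ r` modulo any divisor of `u - 1`. -/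
theorem geom_sum_sub_dvd {M u : ℤ} (h : M ∣ u - 1) (r : ℕ) :
    M ∣ (∑ i ∈ range r, u ^ i) - (r : ℤ) := by
  have h1 : (∑ i ∈ range r, u ^ i) - (r : ℤ) = ∑ i ∈ range r, (u ^ i - 1) := by
    rw [Finset.sum_sub_distrib]
    simp
  rw [h1]
  refine Finset.dvd_sum fun i _ => ?_
  exact h.trans (by simpa using sub_dvd_pow_sub_pow u 1 i)

/-- For an odd prime `r` dividing `u - 1`: `r ^ 2 ∣ (∑ i < r, u ^ i) - r`. -/
theorem sq_dvd_geom_sum_sub {r : ℕ} (hr : r.Prime) (hodd : r ≠ 2) {u : ℤ} (h : (r : ℤ) ∣ u - 1) :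
    (r : ℤ) ^ 2 ∣ (∑ i ∈ range r, u ^ i) - (r : ℤ) := by
  have h1 : (∑ i ∈ range r, u ^ i) - (r : ℤ) = (u - 1) * ∑ i ∈ range r, ∑ j ∈ range i, u ^ j := by
    rw [Finset.mul_sum]
    have : (∑ i ∈ range r, u ^ i) - (r : ℤ) = ∑ i ∈ range r, (u ^ i - 1) := by
      rw [Finset.sum_sub_distrib]
      simp
    rw [this]
    refine Finset.sum_congr rfl fun i _ => ?_
    rw [mul_comm, geom_sum_mul]
  rw [h1, pow_two]
  refine mul_dvd_mul h ?_
  -- `r ∣ ∑ i < r, ∑ j < i, u ^ j`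
  have h2 : (r : ℤ) ∣ (∑ i ∈ range r, ∑ j ∈ range i, u ^ j) - ∑ i ∈ range r, (i : ℤ) := by
    rw [← Finset.sum_sub_distrib]
    exact Finset.dvd_sum fun i _ => geom_sum_sub_dvd h i
  have h3 : (r : ℤ) ∣ ∑ i ∈ range r, (i : ℤ) := by
    have h4 : (∑ i ∈ range r, (i : ℤ)) * 2 = (r : ℤ) * ((r : ℤ) - 1) := by
      have := Finset.sum_range_id_mul_two r
      have h5 : ((∑ i ∈ range r, i : ℕ) : ℤ) * 2 = (r : ℤ) * ((r - 1 : ℕ) : ℤ) := by
        exact_mod_cast this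
      rw [Nat.cast_sub hr.one_le] at h5
      push_cast at h5
      exact h5
    have h6 : (r : ℤ) ∣ (∑ i ∈ range r, (i : ℤ)) * 2 := ⟨_, h4⟩
    have hp : Prime (r : ℤ) := Nat.prime_iff_prime_int.mp hr
    rcases hp.dvd_or_dvd h6 with h7 | h7
    · exact h7
    · exfalso
      have h8 : r ∣ 2 := by exact_mod_cast h7
      exact hodd ((Nat.prime_dvd_prime_iff_eq hr Nat.prime_two).mp h8)
  have := dvd_add h2 h3
  simpa using this


/-- The geometric sum `∑ i < r, u ^ i` is `r * s'` with `s'` prime to `L`, when `u ≡ 1` modulo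
a multiple `M` of `L` (`4 ∣ L` if `L` is even) and `r` is a prime divisor of `L`. -/
theorem exists_geom_sum_eq {L : ℕ} (hL4 : 2 ∣ L → 4 ∣ L) {M : ℤ} (hLM : (L : ℤ) ∣ M) {r : ℕ}
    (hr : r.Prime) (hrL : r ∣ L) {u : ℤ} (hu : M ∣ u - 1) :
    ∃ s : ℤ, (∑ i ∈ range r, u ^ i) = (r : ℤ) * s ∧
      ∀ r' : ℕ, r'.Prime → r' ∣ L → ¬ (r' : ℤ) ∣ s := by
  have hrM : (r : ℤ) ∣ M := (Int.natCast_dvd_natCast.mpr hrL).trans hLM
  have hsq : (r : ℤ) ^ 2 ∣ (∑ i ∈ range r, u ^ i) - (r : ℤ) := by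
    by_cases h2 : r = 2
    · subst h2
      have h4 : (4 : ℤ) ∣ M := by
        have : (4 : ℕ) ∣ L := hL4 hrL
        exact (by exact_mod_cast (Int.natCast_dvd_natCast.mpr this) : (4 : ℤ) ∣ (L : ℤ)).trans hLM
      have : (∑ i ∈ range 2, u ^ i) - ((2 : ℕ) : ℤ) = u - 1 := by
        simp [Finset.sum_range_succ]; ring
      rw [this]
      exact (by norm_num : ((2 : ℕ) : ℤ) ^ 2 = 4) ▸ h4.trans hu
    · exact sq_dvd_geom_sum_sub hr h2 (hrM.trans hu)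
  obtain ⟨k, hk⟩ := hsq
  refine ⟨1 + (r : ℤ) * k, by linear_combination hk, ?_⟩
  intro r' hr' hr'L hdvd
  have hp' : Prime (r' : ℤ) := Nat.prime_iff_prime_int.mp hr'
  by_cases hrr : r' = r
  · subst hrr
    have : (r' : ℤ) ∣ 1 := (dvd_add_left (dvd_mul_right _ _)).mp hdvd
    exact hp'.not_dvd_one this
  · -- `r' ∣ S` and `S ≡ r (mod r')` give `r' ∣ r`
    have h1 : (r' : ℤ) ∣ (∑ i ∈ range r, u ^ i) - (r : ℤ) :=
      ((Int.natCast_dvd_natCast.mpr hr'L).trans hLM).trans (geom_sum_sub_dvd hu r)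
    have h2 : (r' : ℤ) ∣ ∑ i ∈ range r, u ^ i := by
      have : (∑ i ∈ range r, u ^ i) = (r : ℤ) * (1 + (r : ℤ) * k) := by linear_combination hk
      rw [this]
      exact dvd_mul_of_dvd_right hdvd _
    have h3 : (r' : ℤ) ∣ (r : ℤ) := by
      have := dvd_sub h2 h1
      simpa using this
    have h4 : r' ∣ r := by exact_mod_cast h3
    exact hrr ((Nat.prime_dvd_prime_iff_eq hr' hr).mp h4)

/-- One step of the tower: from `u = 1 + M w` to `u ^ r = 1 + M r w'`. -/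
theorem tower_step {L : ℕ} (hL4 : 2 ∣ L → 4 ∣ L) {M : ℤ} (hLM : (L : ℤ) ∣ M) {r : ℕ}
    (hr : r.Prime) (hrL : r ∣ L) {w : ℤ} (hw : ∀ r' : ℕ, r'.Prime → r' ∣ L → ¬ (r' : ℤ) ∣ w) :
    ∃ w' : ℤ, (1 + M * w) ^ r = 1 + M * (r : ℤ) * w' ∧
      ∀ r' : ℕ, r'.Prime → r' ∣ L → ¬ (r' : ℤ) ∣ w' := by
  have hu : M ∣ (1 + M * w) - 1 := ⟨w, by ring⟩
  obtain ⟨s, hs, hs'⟩ := exists_geom_sum_eq hL4 hLM hr hrL hu
  refine ⟨w * s, ?_, ?_⟩
  · have h := geom_sum_mul (1 + M * w) r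
    rw [hs] at h
    linear_combination -h
  · intro r' hr' hr'L hdvd
    have hp' : Prime (r' : ℤ) := Nat.prime_iff_prime_int.mp hr'
    rcases hp'.dvd_or_dvd hdvd with h | h
    · exact hw r' hr' hr'L h
    · exact hs' r' hr' hr'L h

/-- `L` is `q`-exact with exponent `m`: `q ^ m = 1 + L w` with `w` prime to `L`
(and `4 ∣ L` if `L` is even). -/
def QExact (q L m : ℕ) : Prop :=
  0 < m ∧ 0 < L ∧ (2 ∣ L → 4 ∣ L) ∧ ∃ w : ℕ, q ^ m = 1 + L * w ∧ Nat.Coprime w L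

theorem QExact.pos {q L m : ℕ} (h : QExact q L m) : 0 < L := h.2.1

theorem QExact.exp_pos {q L m : ℕ} (h : QExact q L m) : 0 < m := h.1

theorem QExact.four_dvd {q L m : ℕ} (h : QExact q L m) (h2 : 2 ∣ L) : 4 ∣ L := h.2.2.1 h2

theorem QExact.dvd {q L m : ℕ} (h : QExact q L m) : L ∣ q ^ m - 1 := by
  obtain ⟨w, hw, -⟩ := h.2.2.2
  exact ⟨w, by omega⟩

theorem QExact.modEq_one {q L m : ℕ} (h : QExact q L m) (j : ℕ) :
    (q : ℤ) ^ (m * j) ≡ 1 [ZMOD (L : ℤ)] := by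
  obtain ⟨w, hw, -⟩ := h.2.2.2
  have h1 : (q : ℤ) ^ m ≡ 1 [ZMOD (L : ℤ)] := by
    refine Int.modEq_iff_dvd.mpr ⟨-(w : ℤ), ?_⟩
    have : ((q ^ m : ℕ) : ℤ) = ((1 + L * w : ℕ) : ℤ) := by rw [hw]
    push_cast at this
    rw [this]; ring
  rw [pow_mul]
  simpa using h1.pow j

theorem QExact.coprime {q L m : ℕ} (h : QExact q L m) : Nat.Coprime L q := by
  obtain ⟨w, hw, -⟩ := h.2.2.2
  refine Nat.coprime_of_dvd fun k hk hkL hkq => ?_
  have h1 : k ∣ q ^ m := dvd_pow hkq h.1.ne'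
  rw [hw] at h1
  have h2 : k ∣ 1 := (Nat.dvd_add_left (hkL.mul_right w)).mp h1
  exact hk.one_lt.ne' (Nat.dvd_one.mp h2)

/-- The tower: `q ^ (m z) = 1 + L z w` with `w` prime to `L`, for `rad z ∣ L`. -/
theorem QExact.tower {q L m : ℕ} (h : QExact q L m) :
    ∀ z : ℕ, 0 < z → (∀ r : ℕ, r.Prime → r ∣ z → r ∣ L) →
      ∃ w : ℤ, (q : ℤ) ^ (m * z) = 1 + (L : ℤ) * (z : ℤ) * w ∧
        ∀ r : ℕ, r.Prime → r ∣ L → ¬ (r : ℤ) ∣ w := by
  intro z
  induction z using Nat.strong_induction_on with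
  | _ z ih =>
    intro hz hrad
    by_cases hz1 : z = 1
    · subst hz1
      obtain ⟨w, hw, hcop⟩ := h.2.2.2
      refine ⟨(w : ℤ), ?_, ?_⟩
      · have : ((q ^ m : ℕ) : ℤ) = ((1 + L * w : ℕ) : ℤ) := by rw [hw]
        push_cast at this
        simpa using this
      · intro r hr hrL hdvd
        have h1 : r ∣ w := by exact_mod_cast hdvd
        have h2 : r ∣ Nat.gcd w L := Nat.dvd_gcd h1 hrL
        rw [hcop] at h2
        exact hr.one_lt.ne' (Nat.dvd_one.mp h2)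
    · have hr : (z.minFac).Prime := Nat.minFac_prime hz1
      obtain ⟨z', hz'⟩ := Nat.minFac_dvd z
      have hz'pos : 0 < z' := by
        rcases Nat.eq_zero_or_pos z' with h0 | h0
        · rw [h0, mul_zero] at hz'; omega
        · exact h0
      have hlt : z' < z := by
        rw [hz']
        exact lt_mul_of_one_lt_left hz'pos hr.one_lt
      have hrad' : ∀ r : ℕ, r.Prime → r ∣ z' → r ∣ L := fun r hrp hrz' =>
        hrad r hrp (hz' ▸ hrz'.mul_left _)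
      obtain ⟨w, hw, hwL⟩ := ih z' hlt hz'pos hrad'
      have hrL : z.minFac ∣ L := hrad _ hr (Nat.minFac_dvd z)
      obtain ⟨w', hw', hw'L⟩ := tower_step h.2.2.1 (M := (L : ℤ) * (z' : ℤ)) (dvd_mul_right _ _)
        hr hrL hwL
      refine ⟨w', ?_, hw'L⟩
      have h1 : (q : ℤ) ^ (m * z) = ((q : ℤ) ^ (m * z')) ^ z.minFac := by
        rw [← pow_mul]
        congr 1
        rw [mul_assoc]
        congr 1
        rw [mul_comm]
        exact hz'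
      rw [h1, hw, hw']
      have h2 : (z : ℤ) = (z.minFac : ℤ) * (z' : ℤ) := by exact_mod_cast hz'
      rw [h2]
      ring


/-- Lifting step: a congruence `x ≡ q ^ (m j) (mod L z)` lifts to one modulo `L z r`. -/
theorem QExact.lift {q L m : ℕ} (h : QExact q L m) {z : ℕ} (hz : 0 < z)
    (hrad : ∀ r : ℕ, r.Prime → r ∣ z → r ∣ L) {r : ℕ} (hr : r.Prime) (hrL : r ∣ L) {x : ℤ}
    {j : ℕ} (hx : x ≡ (q : ℤ) ^ (m * j) [ZMOD ((L * z : ℕ) : ℤ)]) :
    ∃ j' : ℕ, x ≡ (q : ℤ) ^ (m * j') [ZMOD ((L * z * r : ℕ) : ℤ)] := by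
  have : Fact r.Prime := ⟨hr⟩
  obtain ⟨w, hw, hwL⟩ := h.tower z hz hrad
  obtain ⟨s, hs⟩ := Int.modEq_iff_dvd.mp hx.symm
  -- `x = g + L z s` with `g = q ^ (m j)`
  set g : ℤ := (q : ℤ) ^ (m * j) with hg
  have hgr : ¬ (r : ℤ) ∣ g := by
    intro hd
    have hp : Prime (r : ℤ) := Nat.prime_iff_prime_int.mp hr
    have h1 : (r : ℤ) ∣ (q : ℤ) := hp.dvd_of_dvd_pow hd
    have h2 : r ∣ q := by exact_mod_cast h1
    have h3 : r ∣ Nat.gcd L q := Nat.dvd_gcd hrL h2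
    rw [h.coprime] at h3
    exact hr.one_lt.ne' (Nat.dvd_one.mp h3)
  have hgw : ((g * w : ℤ) : ZMod r) ≠ 0 := by
    intro h0
    have hp : Prime (r : ℤ) := Nat.prime_iff_prime_int.mp hr
    rcases hp.dvd_or_dvd ((ZMod.intCast_zmod_eq_zero_iff_dvd _ _).mp h0) with h1 | h1
    · exact hgr h1
    · exact hwL r hr hrL h1
  -- choose `i` with `g w i ≡ s (mod r)`
  set c : ZMod r := (s : ZMod r) * ((g * w : ℤ) : ZMod r)⁻¹ with hc
  have hi : (((g * w * (c.val : ℤ) - s : ℤ)) : ZMod r) = 0 := by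
    have h1 : ((g * w : ℤ) : ZMod r) * c = (s : ZMod r) := by
      rw [hc, mul_comm (s : ZMod r), ← mul_assoc, mul_inv_cancel₀ hgw, one_mul]
    have h2 : (((g * w * (c.val : ℤ) - s : ℤ)) : ZMod r) = ((g * w : ℤ) : ZMod r) * c - s := by
      push_cast
      rw [ZMod.natCast_zmod_val]
    rw [h2, h1, sub_self]
  obtain ⟨e, he⟩ := (ZMod.intCast_zmod_eq_zero_iff_dvd _ _).mp hi
  refine ⟨j + z * c.val, ?_⟩
  -- `q ^ (m (j + z i)) = g * u ^ i`, `u = 1 + L z w`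
  have h1 : (q : ℤ) ^ (m * (j + z * c.val)) = g * (1 + (L : ℤ) * (z : ℤ) * w) ^ c.val := by
    rw [← hw, ← pow_mul, hg, ← pow_add]
    congr 1
    ring
  have h2 := one_add_pow_modEq ((L : ℤ) * (z : ℤ) * w) c.val
  -- `L z r ∣ (L z w) ^ 2`
  have h3 : (((L * z * r : ℕ) : ℤ)) ∣ ((L : ℤ) * (z : ℤ) * w) ^ 2 := by
    obtain ⟨t, ht⟩ := hrL
    refine ⟨(t : ℤ) * (z : ℤ) * w ^ 2, ?_⟩
    have : (L : ℤ) = (r : ℤ) * (t : ℤ) := by exact_mod_cast ht
    push_cast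
    rw [this]
    ring
  have h4 : (1 + (L : ℤ) * (z : ℤ) * w) ^ c.val ≡ 1 + (c.val : ℤ) * ((L : ℤ) * (z : ℤ) * w)
      [ZMOD ((L * z * r : ℕ) : ℤ)] := h2.of_dvd h3
  rw [h1]
  refine Int.ModEq.trans ?_ (h4.mul_left g).symm
  refine Int.modEq_iff_dvd.mpr ⟨e, ?_⟩
  -- `g (1 + i L z w) - x = L z (g w i - s) = L z r e`
  have hs' : x = g + ((L * z : ℕ) : ℤ) * s := by linear_combination hs
  rw [hs']
  push_cast
  linear_combination ((L : ℤ) * (z : ℤ)) * he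

/-- **Lemma B.** For a `q`-exact level `L` and `rad z ∣ L`, every `x ≡ 1 (mod L)` is congruent
to a power of `q ^ m` modulo `L z`. -/
theorem QExact.exists_pow_modEq {q L m : ℕ} (h : QExact q L m) :
    ∀ z : ℕ, 0 < z → (∀ r : ℕ, r.Prime → r ∣ z → r ∣ L) → ∀ x : ℤ, x ≡ 1 [ZMOD (L : ℤ)] →
      ∃ j : ℕ, x ≡ (q : ℤ) ^ (m * j) [ZMOD ((L * z : ℕ) : ℤ)] := by
  intro z
  induction z using Nat.strong_induction_on with
  | _ z ih =>
    intro hz hrad x hx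
    by_cases hz1 : z = 1
    · subst hz1
      exact ⟨0, by simpa using hx⟩
    · have hr : (z.minFac).Prime := Nat.minFac_prime hz1
      obtain ⟨z', hz'⟩ := Nat.minFac_dvd z
      have hz'pos : 0 < z' := by
        rcases Nat.eq_zero_or_pos z' with h0 | h0
        · rw [h0, mul_zero] at hz'; omega
        · exact h0
      have hlt : z' < z := by
        rw [hz']
        exact lt_mul_of_one_lt_left hz'pos hr.one_lt
      have hrad' : ∀ r : ℕ, r.Prime → r ∣ z' → r ∣ L := fun r hrp hrz' =>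
        hrad r hrp (hz' ▸ hrz'.mul_left _)
      obtain ⟨j, hj⟩ := ih z' hlt hz'pos hrad' x hx
      have hrL : z.minFac ∣ L := hrad _ hr (Nat.minFac_dvd z)
      obtain ⟨j', hj'⟩ := h.lift hz'pos hrad' hr hrL hj
      refine ⟨j', ?_⟩
      have : L * z' * z.minFac = L * z := by
        calc L * z' * z.minFac = L * (z.minFac * z') := by ring
          _ = L * z := by rw [← hz']
      rwa [this] at hj'

/-- Consumer form of Lemma B: two integers prime to `L` and congruent modulo `L` differ by a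
power of `q ^ m` modulo `L z`. -/
theorem QExact.exists_pow_mul_modEq {q L m : ℕ} (h : QExact q L m) {z : ℕ} (hz : 0 < z)
    (hrad : ∀ r : ℕ, r.Prime → r ∣ z → r ∣ L) {a a' : ℤ} (ha : IsCoprime a (L : ℤ))
    (haa' : a ≡ a' [ZMOD (L : ℤ)]) :
    ∃ j : ℕ, a' ≡ (q : ℤ) ^ (m * j) * a [ZMOD ((L * z : ℕ) : ℤ)] := by
  -- `a` is prime to `L z`
  have haz : IsCoprime a (z : ℤ) := by
    have h1 : Nat.gcd a.natAbs L = 1 := by
      have h0 := Int.isCoprime_iff_gcd_eq_one.mp ha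
      simpa [Int.gcd] using h0
    have h2 : Nat.Coprime z a.natAbs := Nat.coprime_of_dvd fun k hk hkz hka => by
      have h3 : k ∣ Nat.gcd a.natAbs L := Nat.dvd_gcd hka (hrad k hk hkz)
      rw [h1] at h3
      exact hk.one_lt.ne' (Nat.dvd_one.mp h3)
    rw [Int.isCoprime_iff_gcd_eq_one]
    simpa [Int.gcd] using h2.symm
  have haLz : IsCoprime a (((L * z : ℕ) : ℤ)) := by
    push_cast
    exact ha.mul_right haz
  obtain ⟨u, v, huv⟩ := haLz
  -- `u a ≡ 1 (mod L z)`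
  have hua : u * a ≡ 1 [ZMOD ((L * z : ℕ) : ℤ)] :=
    Int.modEq_iff_dvd.mpr ⟨v, by linear_combination -huv⟩
  have hLdvd : ((L : ℤ)) ∣ ((L * z : ℕ) : ℤ) := by push_cast; exact dvd_mul_right _ _
  have hx : a' * u ≡ 1 [ZMOD (L : ℤ)] := by
    have h1 : a' * u ≡ a * u [ZMOD (L : ℤ)] := haa'.symm.mul_right u
    have h2 : u * a ≡ 1 [ZMOD (L : ℤ)] := hua.of_dvd hLdvd
    exact h1.trans (by rwa [mul_comm] at h2)
  obtain ⟨j, hj⟩ := h.exists_pow_modEq z hz hrad (a' * u) hx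
  refine ⟨j, ?_⟩
  have h3 : a' * u * a ≡ (q : ℤ) ^ (m * j) * a [ZMOD ((L * z : ℕ) : ℤ)] := hj.mul_right a
  have h4 : a' * (u * a) ≡ a' * 1 [ZMOD ((L * z : ℕ) : ℤ)] := hua.mul_left a'
  calc a' = a' * 1 := (mul_one a').symm
    _ ≡ a' * (u * a) [ZMOD ((L * z : ℕ) : ℤ)] := h4.symm
    _ = a' * u * a := by ring
    _ ≡ (q : ℤ) ^ (m * j) * a [ZMOD ((L * z : ℕ) : ℤ)] := h3


/-- **Lemma C.** Every `L0` prime to `q` divides a `q`-exact level with the same prime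
divisors. -/
theorem exists_qExact {q : ℕ} (hq : 2 ≤ q) {L0 : ℕ} (hL0 : 0 < L0) (hcop : Nat.Coprime L0 q) :
    ∃ L m : ℕ, QExact q L m ∧ L0 ∣ L ∧ ∀ r : ℕ, r.Prime → (r ∣ L ↔ r ∣ L0) := by
  classical
  set L0' : ℕ := if 2 ∣ L0 then 4 * L0 else L0 with hL0'
  have hL0'pos : 0 < L0' := by
    rw [hL0']; split_ifs <;> omega
  have hdvd0 : L0 ∣ L0' := by
    rw [hL0']; split_ifs
    · exact dvd_mul_left _ _
    · exact dvd_rfl
  have hprimes0 : ∀ r : ℕ, r.Prime → r ∣ L0' → r ∣ L0 := by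
    intro r hr hrd
    rw [hL0'] at hrd
    split_ifs at hrd with h2
    · rcases (Nat.Prime.dvd_mul hr).mp hrd with h | h
      · have h' : r ∣ 2 ^ 2 := by simpa using h
        have : r ∣ 2 := hr.dvd_of_dvd_pow h'
        rw [(Nat.prime_dvd_prime_iff_eq hr Nat.prime_two).mp this]
        exact h2
      · exact h
    · exact hrd
  have h4 : 2 ∣ L0' → 4 ∣ L0' := by
    intro h2
    have h2' : 2 ∣ L0 := hprimes0 2 Nat.prime_two h2
    rw [hL0', if_pos h2']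
    exact dvd_mul_right _ _
  have hcop' : Nat.Coprime q L0' := by
    refine Nat.coprime_of_dvd fun k hk hkq hkL => ?_
    have h1 : k ∣ Nat.gcd L0 q := Nat.dvd_gcd (hprimes0 k hk hkL) hkq
    rw [hcop] at h1
    exact hk.one_lt.ne' (Nat.dvd_one.mp h1)
  set m := Nat.totient L0' with hm_def
  have hm : 0 < m := Nat.totient_pos.mpr hL0'pos
  have hpow : q ^ m ≡ 1 [MOD L0'] := Nat.ModEq.pow_totient hcop'
  have hqm : 2 ≤ q ^ m := by
    calc 2 ≤ q := hq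
      _ = q ^ 1 := (pow_one q).symm
      _ ≤ q ^ m := Nat.pow_le_pow_right (by omega) hm
  set n := q ^ m - 1 with hn_def
  have hn : 0 < n := by omega
  have hL0'n : L0' ∣ n := (Nat.modEq_iff_dvd' (by omega)).mp hpow.symm
  let S : Finset ℕ := n.divisors.filter (fun L => L0' ∣ L ∧ ∀ r : ℕ, r.Prime → r ∣ L → r ∣ L0')
  have hS : S.Nonempty :=
    ⟨L0', Finset.mem_filter.mpr ⟨Nat.mem_divisors.mpr ⟨hL0'n, hn.ne'⟩, dvd_rfl, fun _ _ h => h⟩⟩
  obtain ⟨L, hLS, hLmax⟩ := S.exists_max_image id hS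
  obtain ⟨hLdiv, hL0'L, hLprimes⟩ := Finset.mem_filter.mp hLS
  have hLn : L ∣ n := (Nat.mem_divisors.mp hLdiv).1
  have hLpos : 0 < L := Nat.pos_of_dvd_of_pos hLn hn
  refine ⟨L, m, ⟨hm, hLpos, ?_, n / L, ?_, ?_⟩, hdvd0.trans hL0'L, ?_⟩
  · intro h2
    exact (h4 (hLprimes 2 Nat.prime_two h2)).trans hL0'L
  · rw [Nat.mul_div_cancel' hLn]
    omega
  · refine Nat.coprime_of_dvd fun k hk hkw hkL => ?_
    have h1 : L * k ∣ n := Nat.mul_dvd_of_dvd_div hLn hkw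
    have h2 : L * k ∈ S := by
      refine Finset.mem_filter.mpr ⟨Nat.mem_divisors.mpr ⟨h1, hn.ne'⟩, hL0'L.mul_right k, ?_⟩
      intro r hr hrd
      rcases (Nat.Prime.dvd_mul hr).mp hrd with h | h
      · exact hLprimes r hr h
      · rw [(Nat.prime_dvd_prime_iff_eq hr hk).mp h]
        exact hLprimes k hk hkL
    have h3 : L * k ≤ L := hLmax _ h2
    have h4 : L * 2 ≤ L * k := Nat.mul_le_mul_left L hk.two_le
    omega
  · intro r hr
    exact ⟨fun h => hprimes0 r hr (hLprimes r hr h), fun h => (h.trans hdvd0).trans hL0'L⟩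

/-- A common `q`-exact level above two levels prime to `q`. -/
theorem exists_qExact_mul {q : ℕ} (hq : 2 ≤ q) {L1 L2 : ℕ} (hL1 : 0 < L1) (hL2 : 0 < L2)
    (h1 : Nat.Coprime L1 q) (h2 : Nat.Coprime L2 q) :
    ∃ L m : ℕ, QExact q L m ∧ L1 ∣ L ∧ L2 ∣ L ∧
      ∀ r : ℕ, r.Prime → (r ∣ L ↔ r ∣ L1 ∨ r ∣ L2) := by
  obtain ⟨L, m, hLm, hdvd, hprimes⟩ :=
    exists_qExact hq (Nat.mul_pos hL1 hL2) (Nat.Coprime.mul_left h1 h2)
  refine ⟨L, m, hLm, (dvd_mul_right _ _).trans hdvd, (dvd_mul_left _ _).trans hdvd, ?_⟩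
  intro r hr
  rw [hprimes r hr, Nat.Prime.dvd_mul hr]

theorem QExact.nat_modEq_one {q L m : ℕ} (h : QExact q L m) : q ^ m ≡ 1 [MOD L] := by
  obtain ⟨w, hw, -⟩ := h.2.2.2
  rw [hw]
  exact (Nat.modEq_iff_dvd' (by omega)).mpr ⟨w, by omega⟩ |>.symm

/-- Lemmas B and C in one statement (the interface `IhLemmaBC` of the symbol calculus). -/
theorem ihLemmaBC {q : ℕ} (hq : 2 ≤ q) :
    ∀ L0 : ℕ, 0 < L0 → Nat.Coprime L0 q →
      ∃ L : ℕ, L0 ∣ L ∧ (∀ r : ℕ, r.Prime → r ∣ L → r ∣ L0) ∧ (2 ∣ L → 4 ∣ L) ∧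
        ∃ m : ℕ, 0 < m ∧ q ^ m ≡ 1 [MOD L] ∧
          ∀ z : ℕ, 0 < z → (∀ r : ℕ, r.Prime → r ∣ z → r ∣ L) →
            ∀ x : ℤ, x ≡ 1 [ZMOD (L : ℤ)] →
              ∃ j : ℕ, x ≡ (q : ℤ) ^ (m * j) [ZMOD ((L * z : ℕ) : ℤ)] := by
  intro L0 hL0 hcop
  obtain ⟨L, m, hLm, hdvd, hprimes⟩ := exists_qExact hq hL0 hcop
  exact ⟨L, hdvd, fun r hr h => (hprimes r hr).mp h, hLm.four_dvd, m, hLm.exp_pos,
    hLm.nat_modEq_one, hLm.exists_pow_modEq⟩

end Fermat.Agent.S41.H51
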