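import Fermat.Agent.S41.IhStmt_helper39
import Fermat.Agent.S41.IhSymbol_helper55
import Fermat.Agent.S41.QExact_helper51
import Fermat.Agent.S41.IhMatrix_helper17

/-!
# (IH): Ihara's lemma in pair form, from Lemmas A and D

`ihAt_of` / `ihStmt_of`: the literal `H39.IhAt` / `H39.IhStmt` from the two Dirichlet lemmas
`H55.IhLemmaA`, `H55.IhLemmaD` (Lemmas B, C are the landed `H51.ihLemmaBC`, claims A and B the
landed `H55.ihClaimA`, `H55.ihClaimB`, the matrix layer is `H17.ih_neutral`).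
-/

namespace Fermat.Agent.S41.H17

open Matrix CongruenceSubgroup
open scoped MatrixGroups

section ext0

variable {N : ℕ} {M : Type*} [AddCommGroup M]

/-- Extension by zero of an additive character of `Γ₀(N)` to a function on `SL(2, ℤ)`. -/
noncomputable def ext0 (φ : Additive (Gamma0 N) →+ M) : SL(2, ℤ) → M := by
  classical
  exact fun g => if h : g ∈ Gamma0 N then φ (Additive.ofMul ⟨g, h⟩) else 0

theorem ext0_of_mem (φ : Additive (Gamma0 N) →+ M) {g : SL(2, ℤ)} (h : g ∈ Gamma0 N) :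
    ext0 φ g = φ (Additive.ofMul ⟨g, h⟩) := by
  classical
  unfold ext0
  rw [dif_pos h]

theorem ext0_coe (φ : Additive (Gamma0 N) →+ M) (g : Gamma0 N) :
    ext0 φ (g : SL(2, ℤ)) = φ (Additive.ofMul g) :=
  ext0_of_mem φ g.2

theorem isAddOn_ext0 (φ : Additive (Gamma0 N) →+ M) : IsAddOn N (ext0 φ) := by
  intro g h hg hh
  rw [ext0_of_mem φ hg, ext0_of_mem φ hh, ext0_of_mem φ (mul_mem hg hh), ← map_add]
  rfl

end ext0

/-- Ihara's lemma in pair form for one triple `(N, q, p)`, from Lemmas A and D for `q`. -/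
theorem ihAt_of {N q p : ℕ} (hN : 0 < N) (hq : q.Prime) (hqN : ¬ q ∣ N) (hp : p.Prime)
    (hp2 : p ≠ 2) (hA : H55.IhLemmaA q) (hD : H55.IhLemmaD q) : H39.IhAt N q p := by
  intro φ₁ φ₂ u1 l1 u2 l2 hC
  have : Fact p.Prime := ⟨hp⟩
  have htwo : ∀ x : ZMod p, 2 • x = 0 → x = 0 := by
    intro x hx
    have h2 : (2 : ZMod p) ≠ 0 := by
      intro h
      have h' : ((2 : ℕ) : ZMod p) = 0 := by exact_mod_cast h
      rw [ZMod.natCast_eq_zero_iff] at h'
      exact hp2 ((Nat.prime_dvd_prime_iff_eq hp Nat.prime_two).mp h')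
    rw [two_nsmul, ← two_mul] at hx
    exact (mul_eq_zero.mp hx).resolve_left h2
  have key := ih_neutral (M := ZMod p) (N := N) (q := q) hq hqN htwo
    (fun g r1 r2 e => H55.ihClaimA hN hq hqN hA g r1 r2 e)
    (fun g h r1 r2 e d g1 =>
      H55.ihClaimB hN hq hqN (H51.ihLemmaBC hq.two_le) hD g h r1 r2 e d g1)
    (ext0 φ₁) (ext0 φ₂) (isAddOn_ext0 φ₁) (isAddOn_ext0 φ₂)
    ((ext0_coe φ₁ (H39.x12 N)).trans u1) ((ext0_coe φ₂ (H39.x12 N)).trans u2)
    ((ext0_coe φ₁ (H39.x21 N)).trans l1) ((ext0_coe φ₂ (H39.x21 N)).trans l2)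
    (by
      intro g g' hg hrel
      have hq0 : (q : ℤ) ≠ 0 := by exact_mod_cast hq.ne_zero
      have hg'm : g' ∈ Gamma0 N := by
        rw [mem_Gamma0_iff_dvd] at hg ⊢
        obtain ⟨w, hw⟩ := hg
        refine ⟨w, ?_⟩
        have : (q : ℤ) * g' 1 0 = q * (N * w) := by
          rw [hrel.2.2.1, hw]; push_cast; ring
        exact mul_left_cancel₀ hq0 this
      have hgm : g ∈ Gamma0 N := by
        rw [mem_Gamma0_iff_dvd] at hg'm ⊢
        rw [← hrel.2.2.1]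
        exact Dvd.dvd.mul_left hg'm _
      rw [ext0_of_mem φ₁ hgm, ext0_of_mem φ₂ hg'm]
      exact hC ⟨g, hgm⟩ ⟨g', hg'm⟩ hrel)
  refine ⟨?_, ?_⟩
  · apply AddMonoidHom.ext
    intro x
    have := key.1 (Additive.toMul x : Gamma0 N) (Additive.toMul x).2
    rw [ext0_coe, ext0_coe] at this
    exact this
  · intro γ hγ
    have h1 : ((γ : SL(2, ℤ)) 0 0 : ℤ) ≡ 1 [ZMOD (N : ℤ)] := by
      rw [← ZMod.intCast_eq_intCast_iff]
      simpa using hγ
    have := key.2 (γ : SL(2, ℤ)) γ.2 h1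
    rw [ext0_coe] at this
    exact this

/-- Ihara's lemma in pair form (`H39.IhStmt`) from Lemmas A and D. -/
theorem ihStmt_of (hA : ∀ q : ℕ, q.Prime → H55.IhLemmaA q)
    (hD : ∀ q : ℕ, q.Prime → H55.IhLemmaD q) : H39.IhStmt :=
  fun _ q _ hN hq hqN hp hp2 => ihAt_of hN hq hqN hp hp2 (hA q hq) (hD q hq)

end Fermat.Agent.S41.H17
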