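import Mathlib
import Fermat.Agent.S41.CITop_helper39
import Fermat.Agent.S41.IsectPDS_helper12
import Fermat.Agent.S41.IsectPdsInst_helper62

/-!
# S41, node (C), route C-I, leaf (INJ-right) closed via (PDS) (helper36)

`injRStmt N hp hp2 : H39.InjRStmt N p` - the literal leaf `InjRStmt` of helper39's
`hkey_concrete`, from helper12's landed `pds` (every parabolic `ψ` on `Γ₀(N)` satisfies
`8 ψ = ⟨g, ·⟩` for some `g ∈ Γ₀(N)`) and helper62's `inj_right_of_pdsStmt` (`p` odd, so `p ∤ 8`).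
-/

set_option autoImplicit false

namespace Fermat.Agent.S41.H36

open CongruenceSubgroup
open Fermat.Agent
open scoped MatrixGroups

theorem not_dvd_eight {p : ℕ} (hp : p.Prime) (hp2 : p ≠ 2) : ¬ (p : ℤ) ∣ 8 := by
  intro h
  have h1 : p ∣ 8 := by exact_mod_cast h
  have h2 : p ∣ 2 ^ 3 := by simpa using h1
  exact hp2 ((Nat.prime_dvd_prime_iff_eq hp Nat.prime_two).mp (hp.dvd_of_dvd_pow h2))

/-- **Leaf (INJ-right) of route C-I**, in helper39's literal shape (`p` an odd prime). -/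
theorem injRStmt (N : ℕ) [NeZero N] {p : ℕ} (hp : p.Prime) (hp2 : p ≠ 2) : H39.InjRStmt N p :=
  fun w h ψ hψ =>
    H62.inj_right_of_pdsStmt (Gamma0 N) (c := 8)
      (fun ψ' hψ' => H12.pds (Gamma0 N) ψ' hψ') hp (not_dvd_eight hp hp2) w h ψ hψ

end Fermat.Agent.S41.H36
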