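import Mathlib
import Fermat.Agent.S41.Isect_helper11

/-!
# S41, node (C), route C-I: the adjunction theorem `(ADJ)` for the intersection form (helper31)

Second, independent copy of helper11's literal target `isect_adj`:

*the transfer of `γ` along a family `α`, put in the second slot at level `Γ'`, pairs with `g₀`
exactly as the transfer of `g₀` along the adjugate family `β`, put in the first slot at level `Γ`,
pairs with `γ`.*

Proof: both sides are sums over the set `P = X × Γ'` of `f (Ψ p) - f p` for two side functions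
`f = Gp, Hp` and one bijection `Ψ` of `P` (`Ψ` is left multiplication by `γ` on the matrices
`adj (α x) * δ'`); the difference `Gp - Hp` has finite support by `Fin2Stmt`, so the two sums agree.
-/

set_option autoImplicit false

namespace Fermat.Agent.S41.H31

open Matrix Fermat.Agent.S41.H11
open scoped MatrixGroups

/-- A function on a product with finite first factor is finitely supported as soon as all its
slices are. -/
theorem support_finite_of_slices {X Z : Type*} [Finite X] (f : X × Z → ℤ)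
    (h : ∀ x, (Function.support fun z => f (x, z)).Finite) : (Function.support f).Finite := by
  have hsub : Function.support f ⊆ ⋃ x : X, (Prod.mk x) '' (Function.support fun z => f (x, z)) := by
    rintro ⟨x, z⟩ hp
    exact Set.mem_iUnion.mpr ⟨x, z, hp, rfl⟩
  exact (Set.finite_iUnion fun x => (h x).image _).subset hsub

/-- Iterated form of a finitely supported sum over a product with finite first factor. -/
theorem finsum_prod_eq_sum {X Z : Type*} [Fintype X] (f : X × Z → ℤ)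
    (h : (Function.support f).Finite) : ∑ᶠ p, f p = ∑ x, ∑ᶠ z, f (x, z) := by
  rw [finsum_curry f h, finsum_eq_sum_of_fintype]

theorem mulVec_e1_ne_zero {m : Matrix (Fin 2) (Fin 2) ℤ} (hm : m.det ≠ 0) :
    m *ᵥ (![1, 0] : Fin 2 → ℤ) ≠ 0 := by
  intro h
  apply hm
  have h0 := congrFun h 0
  have h1 := congrFun h 1
  simp only [Matrix.mulVec, dotProduct, Fin.sum_univ_two, Pi.zero_apply] at h0 h1
  simp at h0 h1
  rw [Matrix.det_fin_two, h0, h1]
  ring

/-- The side function of an integer matrix `m` for the symbol `{e₁, w₀}`. -/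
def side (w₀ : Fin 2 → ℤ) (m : Matrix (Fin 2) (Fin 2) ℤ) : ℤ :=
  sg (m *ᵥ ![1, 0]) (m *ᵥ w₀)

theorem isectTerm_mulVec (β : Matrix (Fin 2) (Fin 2) ℤ) (w₀ : Fin 2 → ℤ) (γ δ : SL(2, ℤ)) :
    isectTerm (β *ᵥ ![1, 0]) (β *ᵥ w₀) γ δ = side w₀ (γ.1 * (δ.1 * β)) - side w₀ (δ.1 * β) := by
  simp only [isectTerm, side, Matrix.SpecialLinearGroup.coe_mul, Matrix.mulVec_mulVec,
    Matrix.mul_assoc]

theorem isectTerm_e1 (w₀ : Fin 2 → ℤ) (γ δ : SL(2, ℤ)) :
    isectTerm ![1, 0] w₀ γ δ = side w₀ (γ * δ).1 - side w₀ δ.1 := rfl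

/-- Step A: the first-slot side, rewritten with the symbols `{β_y e₁, β_y g₀ e₁}`. -/
theorem sum_ipair_eq_sum_isect (h2 : Fin2Stmt) (h3 : Fin3Stmt) (Γ : Subgroup SL(2, ℤ))
    {Y : Type*} [Fintype Y] (β : Y → Matrix (Fin 2) (Fin 2) ℤ) (hβ : ∀ y, (β y).det ≠ 0)
    {γ : SL(2, ℤ)} (hγ : γ ∈ Γ) (g₀ : SL(2, ℤ)) (τ : Equiv.Perm Y) (g : Y → SL(2, ℤ))
    (hg : ∀ y, g y ∈ Γ) (hdec' : ∀ y, β y * g₀.1 = (g y).1 * β (τ y)) :
    ∑ y, ipair Γ (g y) γ = ∑ y, isect Γ (β y *ᵥ ![1, 0]) (β y *ᵥ (g₀.1 *ᵥ ![1, 0])) γ := by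
  set b : Y → ℤ := fun y => isect Γ ![1, 0] (β y *ᵥ ![1, 0]) γ with hb
  have key : ∀ y, isect Γ (β y *ᵥ ![1, 0]) (β y *ᵥ (g₀.1 *ᵥ ![1, 0])) γ =
      ipair Γ (g y) γ + b (τ y) - b y := by
    intro y
    have e1 : β y *ᵥ (g₀.1 *ᵥ ![1, 0]) = (g y).1 *ᵥ (β (τ y) *ᵥ ![1, 0]) := by
      rw [Matrix.mulVec_mulVec, Matrix.mulVec_mulVec, hdec' y]
    have hu : β y *ᵥ (![1, 0] : Fin 2 → ℤ) ≠ 0 := mulVec_e1_ne_zero (hβ y)
    have hv' : β (τ y) *ᵥ (![1, 0] : Fin 2 → ℤ) ≠ 0 := mulVec_e1_ne_zero (hβ (τ y))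
    have hv : (g y).1 *ᵥ (β (τ y) *ᵥ (![1, 0] : Fin 2 → ℤ)) ≠ 0 := sl_mulVec_ne_zero (g y) hv'
    have hw : (g y).1 *ᵥ (![1, 0] : Fin 2 → ℤ) ≠ 0 := sl_mulVec_ne_zero (g y) e1_ne_zero
    rw [e1, isect_add h2 h3 Γ hu e1_ne_zero hv hγ, isect_add h2 h3 Γ e1_ne_zero hw hv hγ,
      isect_inv Γ (hg y), isect_swap Γ ![1, 0] (β y *ᵥ ![1, 0]) γ]
    simp only [ipair, hb]
    ring
  rw [Finset.sum_congr rfl fun y _ => key y, Finset.sum_sub_distrib, Finset.sum_add_distrib,
    Equiv.sum_comp τ b]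
  ring

/-- **(ADJ)**, the adjunction theorem for the intersection form. -/
theorem isect_adj (h2 : Fin2Stmt) (h3 : Fin3Stmt) (Γ Γ' : Subgroup SL(2, ℤ))
    {X Y : Type*} [Fintype X] [Fintype Y]
    (α : X → Matrix (Fin 2) (Fin 2) ℤ) (β : Y → Matrix (Fin 2) (Fin 2) ℤ)
    (hα : ∀ x, 0 < (α x).det) (hβ : ∀ y, 0 < (β y).det)
    (e : X × Γ' ≃ Y × Γ)
    (he : ∀ x (δ' : Γ'), (α x).adjugate * (δ' : SL(2, ℤ)).1 =
      ((e (x, δ')).2 : SL(2, ℤ)).1 * β (e (x, δ')).1)
    {γ : SL(2, ℤ)} (hγ : γ ∈ Γ) (σ : Equiv.Perm X) (g' : X → SL(2, ℤ)) (hg' : ∀ x, g' x ∈ Γ')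
    (hdec : ∀ x, α x * γ.1 = (g' x).1 * α (σ x))
    {g₀ : SL(2, ℤ)} (hg₀ : g₀ ∈ Γ') (τ : Equiv.Perm Y) (g : Y → SL(2, ℤ)) (hg : ∀ y, g y ∈ Γ)
    (hdec' : ∀ y, β y * g₀.1 = (g y).1 * β (τ y)) :
    ∑ x, ipair Γ' g₀ (g' x) = ∑ y, ipair Γ (g y) γ := by
  classical
  set w₀ : Fin 2 → ℤ := g₀.1 *ᵥ ![1, 0] with hw₀
  -- the matrices `adj (α x) * δ'`
  set mOf : X × Γ' → Matrix (Fin 2) (Fin 2) ℤ := fun p => (α p.1).adjugate * (p.2 : SL(2, ℤ)).1
    with hmOf
  set Gp : X × Γ' → ℤ := fun p => side w₀ (p.2 : SL(2, ℤ)).1 with hGp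
  set Hp : X × Γ' → ℤ := fun p => side w₀ (mOf p) with hHp
  -- the bijection `Ψ` = left multiplication by `γ`
  let Ψ : X × Γ' ≃ X × Γ' :=
    { toFun := fun p => (σ.symm p.1, (⟨g' (σ.symm p.1), hg' _⟩ : Γ') * p.2)
      invFun := fun p => (σ p.1, (⟨g' p.1, hg' _⟩ : Γ')⁻¹ * p.2)
      left_inv := by
        rintro ⟨x, δ⟩
        simp
      right_inv := by
        rintro ⟨x, δ⟩
        simp }
  have hΨ : ∀ x (δ : Γ'), Ψ (σ x, δ) = (x, (⟨g' x, hg' x⟩ : Γ') * δ) := by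
    intro x δ
    simp [Ψ]
  -- `mOf (Ψ p) = γ * mOf p`
  have hadj : ∀ x, (α x).adjugate * (g' x).1 = γ.1 * (α (σ x)).adjugate := by
    intro x
    have h1 : γ.1.adjugate * (α x).adjugate = (α (σ x)).adjugate * (g' x).1.adjugate := by
      rw [← Matrix.adjugate_mul_distrib, ← Matrix.adjugate_mul_distrib, hdec x]
    have hγ1 : γ.1 * γ.1.adjugate = 1 := by rw [Matrix.mul_adjugate, γ.2, one_smul]
    have hg1 : (g' x).1.adjugate * (g' x).1 = 1 := by rw [Matrix.adjugate_mul, (g' x).2, one_smul]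
    calc (α x).adjugate * (g' x).1
        = (γ.1 * γ.1.adjugate) * (α x).adjugate * (g' x).1 := by rw [hγ1, Matrix.one_mul]
      _ = γ.1 * (γ.1.adjugate * (α x).adjugate) * (g' x).1 := by simp only [Matrix.mul_assoc]
      _ = γ.1 * ((α (σ x)).adjugate * (g' x).1.adjugate) * (g' x).1 := by rw [h1]
      _ = γ.1 * (α (σ x)).adjugate * ((g' x).1.adjugate * (g' x).1) := by
          simp only [Matrix.mul_assoc]
      _ = γ.1 * (α (σ x)).adjugate := by rw [hg1, Matrix.mul_one]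
  have hmΨ : ∀ p, mOf (Ψ p) = γ.1 * mOf p := by
    rintro ⟨x', δ⟩
    obtain ⟨x, rfl⟩ := σ.surjective x'
    rw [hΨ]
    simp only [hmOf, Subgroup.coe_mul, Matrix.SpecialLinearGroup.coe_mul]
    rw [← Matrix.mul_assoc, hadj x, Matrix.mul_assoc]
  -- the difference `D = Gp - Hp` is finitely supported
  set D : X × Γ' → ℤ := fun p => Gp p - Hp p with hD
  have hDfin : (Function.support D).Finite := by
    apply support_finite_of_slices
    intro x
    by_cases hd : det2 ![1, 0] w₀ = 0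
    · have : (Function.support fun δ : Γ' => D (x, δ)) = ∅ := by
        ext δ
        simp only [Function.mem_support, ne_eq, Set.mem_empty_iff_false, iff_false, not_not, hD,
          hGp, hHp, side]
        rw [sg_eq_zero_of_det2 (by rw [det2_mulVec, hd, mul_zero]),
          sg_eq_zero_of_det2 (by rw [det2_mulVec, hd, mul_zero]), sub_zero]
      rw [this]; exact Set.finite_empty
    · have hdetadj : (α x).adjugate.det = (α x).det := by
        rw [Matrix.det_adjugate]; simp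
      have hpos : 0 < (α x).adjugate.det := by rw [hdetadj]; exact hα x
      have hfin := h2 (α x).adjugate hpos.ne' (det2 ![1, 0] w₀) hd
      let φ : Γ' → (Fin 2 → ℤ) × (Fin 2 → ℤ) :=
        fun δ => ((δ : SL(2, ℤ)).1 *ᵥ ![1, 0], (δ : SL(2, ℤ)).1 *ᵥ w₀)
      have hφ : Function.Injective φ := by
        intro δ₁ δ₂ h
        exact Subtype.ext (sl_eq_of_mulVec_eq hd (congrArg Prod.fst h) (congrArg Prod.snd h))
      refine (hfin.preimage hφ.injOn).subset ?_
      intro δ hδ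
      simp only [Function.mem_support, ne_eq] at hδ
      show det2 (φ δ).1 (φ δ).2 = det2 ![1, 0] w₀ ∧
        Int.sign (bform ((α x).adjugate *ᵥ (φ δ).1) ((α x).adjugate *ᵥ (φ δ).2)) ≠
          Int.sign (bform (φ δ).1 (φ δ).2)
      refine ⟨det2_sl _ _ _, fun hs => hδ ?_⟩
      show side w₀ (δ : SL(2, ℤ)).1 - side w₀ ((α x).adjugate * (δ : SL(2, ℤ)).1) = 0
      simp only [side, sg, ← Matrix.mulVec_mulVec]
      rw [det2_mulVec (α x).adjugate, Int.sign_mul, Int.sign_eq_one_of_pos hpos, one_mul, hs,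
        sub_self]
  have hDΨfin : (Function.support fun p => D (Ψ p)).Finite :=
    (hDfin.preimage Ψ.injective.injOn).subset fun p hp => hp
  -- the left-hand side as a sum over `P`
  set A : X × Γ' → ℤ := fun p => Gp (Ψ p) - Gp p with hA
  have hAslice : ∀ x (δ : Γ'), A (σ x, δ) = isectTerm ![1, 0] w₀ (g' x) (δ : SL(2, ℤ)) := by
    intro x δ
    simp only [hA, hGp, hΨ, isectTerm_e1, Subgroup.coe_mul]
  have hAfin : (Function.support A).Finite := by
    apply support_finite_of_slices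
    intro x'
    obtain ⟨x, rfl⟩ := σ.surjective x'
    simp only [hAslice]
    exact isectTerm_support_finite h2 Γ' ![1, 0] w₀ (g' x)
  have hL : ∑ x, ipair Γ' g₀ (g' x) = ∑ᶠ p, A p := by
    rw [finsum_prod_eq_sum A hAfin, ← Equiv.sum_comp σ (fun x => ∑ᶠ δ : Γ', A (x, δ))]
    refine Finset.sum_congr rfl fun x _ => ?_
    simp only [hAslice]
    rfl
  -- the right-hand side as a sum over `P`
  set Bq : Y × Γ → ℤ := fun q =>
    side w₀ (γ.1 * ((q.2 : SL(2, ℤ)).1 * β q.1)) - side w₀ ((q.2 : SL(2, ℤ)).1 * β q.1) with hBq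
  have hBslice : ∀ y (δ : Γ), Bq (y, δ) =
      isectTerm (β y *ᵥ ![1, 0]) (β y *ᵥ w₀) γ (δ : SL(2, ℤ)) := by
    intro y δ
    rw [isectTerm_mulVec]
  have hBfin : (Function.support Bq).Finite := by
    apply support_finite_of_slices
    intro y
    simp only [hBslice]
    exact isectTerm_support_finite h2 Γ _ _ γ
  have hBe : ∀ p, Bq (e p) = Hp (Ψ p) - Hp p := by
    rintro ⟨x, δ⟩
    simp only [hBq, hHp, hmΨ]
    rw [← he x δ]
  have hR : ∑ y, ipair Γ (g y) γ = ∑ᶠ p, (Hp (Ψ p) - Hp p) := by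
    rw [sum_ipair_eq_sum_isect h2 h3 Γ β (fun y => (hβ y).ne') hγ g₀ τ g hg hdec',
      ← finsum_congr hBe, finsum_comp_equiv e, finsum_prod_eq_sum Bq hBfin]
    refine Finset.sum_congr rfl fun y _ => ?_
    simp only [hBslice]
    rfl
  have hHfin : (Function.support fun p => Hp (Ψ p) - Hp p).Finite := by
    have : (fun p => Hp (Ψ p) - Hp p) = fun p => Bq (e p) := by
      funext p; rw [hBe]
    rw [this]
    exact (hBfin.preimage e.injective.injOn).subset fun p hp => hp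
  -- compare
  have hsplit : ∀ p, A p = (Hp (Ψ p) - Hp p) + (D (Ψ p) - D p) := by
    intro p
    simp only [hA, hD]
    ring
  have hDDfin : (Function.support fun p => D (Ψ p) - D p).Finite :=
    (hDΨfin.union hDfin).subset (Function.support_sub _ _)
  rw [hL, hR, finsum_congr hsplit, finsum_add_distrib hHfin hDDfin,
    finsum_sub_distrib hDΨfin hDfin, finsum_comp_equiv Ψ, sub_self, add_zero]

end Fermat.Agent.S41.H31
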