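/-
S41, node (C), route C-I, leaf (ADJ) -- independent second copy (helper57) of the
adjunction theorem for the intrinsic intersection form of `IsectDef_helper11`.

`isect_adj` : the transfer of `γ` along a family `α` (put in the SECOND slot at level `Γ'`)
equals the transfer of `g₀` along the adjugate family `β` (put in the FIRST slot at level `Γ`).
-/
import Mathlib
import Fermat.Agent.S41.Isect_helper11

set_option autoImplicit false

namespace Fermat.Agent.S41.H57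

open Matrix
open scoped MatrixGroups
open Fermat.Agent.S41.H11

/-- The side function of the symbol `(u, v)` moved by an integer matrix `m`. -/
def sideF (u v : Fin 2 → ℤ) (m : Matrix (Fin 2) (Fin 2) ℤ) : ℤ := sg (m *ᵥ u) (m *ᵥ v)

theorem isectTerm_eq_sideF (u v : Fin 2 → ℤ) (γ δ : SL(2, ℤ)) :
    isectTerm u v γ δ = sideF u v (γ * δ).1 - sideF u v δ.1 := rfl

theorem sideF_mul (u v : Fin 2 → ℤ) (m n : Matrix (Fin 2) (Fin 2) ℤ) :
    sideF u v (m * n) = sideF (n *ᵥ u) (n *ᵥ v) m := by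
  simp only [sideF, Matrix.mulVec_mulVec]

/-- Comparison of the side function with its transform by a matrix of positive determinant:
finitely many exceptions on any subgroup. -/
theorem support_sideF_sub_finite (h2 : Fin2Stmt) (Γ' : Subgroup SL(2, ℤ))
    (A : Matrix (Fin 2) (Fin 2) ℤ) (hA : 0 < A.det) (u v : Fin 2 → ℤ) :
    (Function.support fun δ' : Γ' =>
      sideF u v (δ' : SL(2, ℤ)).1 - sideF u v (A * (δ' : SL(2, ℤ)).1)).Finite := by
  by_cases hd : det2 u v = 0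
  · have : (Function.support fun δ' : Γ' =>
        sideF u v (δ' : SL(2, ℤ)).1 - sideF u v (A * (δ' : SL(2, ℤ)).1)) = ∅ := by
      ext δ'
      simp only [Function.mem_support, ne_eq, Set.mem_empty_iff_false, iff_false, not_not]
      rw [sideF, sideF, sg_eq_zero_of_det2 (by rw [det2_sl, hd]),
        sg_eq_zero_of_det2 (by rw [← Matrix.mulVec_mulVec, ← Matrix.mulVec_mulVec, det2_mulVec,
          det2_sl, hd, mul_zero]), sub_zero]
    rw [this]; exact Set.finite_empty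
  · have hfin := h2 A hA.ne' (det2 u v) hd
    let φ : Γ' → (Fin 2 → ℤ) × (Fin 2 → ℤ) :=
      fun δ => ((δ : SL(2, ℤ)).1 *ᵥ u, (δ : SL(2, ℤ)).1 *ᵥ v)
    have hφ : Function.Injective φ := by
      intro δ₁ δ₂ h
      have h1 := congrArg Prod.fst h
      have h2' := congrArg Prod.snd h
      exact Subtype.ext (sl_eq_of_mulVec_eq hd h1 h2')
    refine (hfin.preimage (hφ.injOn)).subset ?_
    intro δ hδ
    simp only [Function.mem_support, ne_eq] at hδ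
    show det2 (φ δ).1 (φ δ).2 = det2 u v ∧
      Int.sign (bform (A *ᵥ (φ δ).1) (A *ᵥ (φ δ).2)) ≠ Int.sign (bform (φ δ).1 (φ δ).2)
    refine ⟨det2_sl _ _ _, fun hs => hδ ?_⟩
    have hsgn : Int.sign (A.det * det2 u v) = Int.sign (det2 u v) := by
      rw [Int.sign_mul, Int.sign_eq_one_of_pos hA, one_mul]
    have hdδ : det2 ((δ : SL(2, ℤ)).1 *ᵥ u) ((δ : SL(2, ℤ)).1 *ᵥ v) = det2 u v := det2_sl _ _ _
    have e1 : sideF u v (δ : SL(2, ℤ)).1 =
        Int.sign (det2 u v) * Int.sign (bform (φ δ).1 (φ δ).2) := by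
      simp only [sideF, sg, hdδ, φ]
    have e2 : sideF u v (A * (δ : SL(2, ℤ)).1) =
        Int.sign (A.det * det2 u v) * Int.sign (bform (A *ᵥ (φ δ).1) (A *ᵥ (φ δ).2)) := by
      simp only [sideF, sg, ← Matrix.mulVec_mulVec, φ]
      rw [det2_mulVec, hdδ]
    show sideF u v (δ : SL(2, ℤ)).1 - sideF u v (A * (δ : SL(2, ℤ)).1) = 0
    rw [e1, e2, hs, hsgn, sub_self]

theorem mulVec_e1_ne_zero {B : Matrix (Fin 2) (Fin 2) ℤ} (hB : B.det ≠ 0) :
    B *ᵥ (![1, 0] : Fin 2 → ℤ) ≠ 0 := by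
  intro h
  apply hB
  have h1 := det2_mulVec B ![1, 0] ![0, 1]
  rw [h] at h1
  simp [det2] at h1
  exact h1.symm

/-- The right hand side of the adjunction: the boundary terms cancel along `τ`. -/
theorem sum_isect_eq_sum_ipair (h2 : Fin2Stmt) (h3 : Fin3Stmt) (Γ : Subgroup SL(2, ℤ))
    {Y : Type*} [Fintype Y] (β : Y → Matrix (Fin 2) (Fin 2) ℤ) (hβ : ∀ y, (β y).det ≠ 0)
    {γ : SL(2, ℤ)} (hγ : γ ∈ Γ) (g₀ : SL(2, ℤ)) (τ : Equiv.Perm Y) (g : Y → SL(2, ℤ))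
    (hg : ∀ y, g y ∈ Γ) (hdec' : ∀ y, β y * g₀.1 = (g y).1 * β (τ y)) :
    ∑ y, isect Γ (β y *ᵥ ![1, 0]) (β y *ᵥ (g₀.1 *ᵥ ![1, 0])) γ = ∑ y, ipair Γ (g y) γ := by
  set κ : Y → ℤ := fun y => isect Γ ![1, 0] (β y *ᵥ ![1, 0]) γ with hκ
  have key : ∀ y, isect Γ (β y *ᵥ ![1, 0]) (β y *ᵥ (g₀.1 *ᵥ ![1, 0])) γ =
      ipair Γ (g y) γ + κ (τ y) - κ y := by
    intro y
    have e1 : β y *ᵥ (g₀.1 *ᵥ ![1, 0]) = (g y).1 *ᵥ (β (τ y) *ᵥ ![1, 0]) := by
      rw [Matrix.mulVec_mulVec, Matrix.mulVec_mulVec, hdec' y]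
    have n1 : β y *ᵥ (![1, 0] : Fin 2 → ℤ) ≠ 0 := mulVec_e1_ne_zero (hβ y)
    have n2 : β (τ y) *ᵥ (![1, 0] : Fin 2 → ℤ) ≠ 0 := mulVec_e1_ne_zero (hβ (τ y))
    have n3 : (g y).1 *ᵥ (β (τ y) *ᵥ (![1, 0] : Fin 2 → ℤ)) ≠ 0 := sl_mulVec_ne_zero (g y) n2
    have n4 : (g y).1 *ᵥ (![1, 0] : Fin 2 → ℤ) ≠ 0 := sl_mulVec_ne_zero (g y) e1_ne_zero
    rw [e1, isect_add h2 h3 Γ n1 e1_ne_zero n3 hγ, isect_add h2 h3 Γ e1_ne_zero n4 n3 hγ,
      isect_inv Γ (hg y), isect_swap Γ ![1, 0] (β y *ᵥ ![1, 0]) γ]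
    simp only [ipair, hκ]
    ring
  rw [Finset.sum_congr rfl fun y _ => key y, Finset.sum_sub_distrib, Finset.sum_add_distrib,
    Equiv.sum_comp τ κ]
  ring

/-- Adjugate of a decomposition `A γ = g' A'`: `adj(A) g' = γ adj(A')`. -/
theorem adjugate_dec {A A' G' Gm : Matrix (Fin 2) (Fin 2) ℤ} (hA : A.det ≠ 0) (hG' : G'.det = 1)
    (hGm : Gm.det = 1) (hdec : A * Gm = G' * A') : A.adjugate * G' = Gm * A'.adjugate := by
  have hdet : A.det = A'.det := by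
    have := congrArg Matrix.det hdec
    rw [Matrix.det_mul, Matrix.det_mul, hGm, hG'] at this
    linarith
  have h1 : A.adjugate * (A * Gm) * A'.adjugate = A.det • (Gm * A'.adjugate) := by
    rw [← Matrix.mul_assoc, Matrix.adjugate_mul, Matrix.smul_mul, Matrix.one_mul, Matrix.smul_mul]
  have h2 : A.adjugate * (G' * A') * A'.adjugate = A'.det • (A.adjugate * G') := by
    rw [Matrix.mul_assoc, Matrix.mul_assoc, Matrix.mul_adjugate, Matrix.mul_smul, Matrix.mul_one,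
      Matrix.mul_smul]
  rw [hdec, h2, ← hdet] at h1
  exact smul_right_injective _ hA h1

/-- **The adjunction theorem** (helper11's literal `isect_adj`, second independent proof).
The hypotheses `hinj` and `hg₀` are not needed by this proof; they are kept so that the
statement is interchangeable with `H11.isect_adj`. -/
theorem isect_adj (h2 : Fin2Stmt) (h3 : Fin3Stmt) (Γ Γ' : Subgroup SL(2, ℤ))
    {X Y : Type*} [Fintype X] [Fintype Y]
    (α : X → Matrix (Fin 2) (Fin 2) ℤ) (β : Y → Matrix (Fin 2) (Fin 2) ℤ)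
    (hα : ∀ x, 0 < (α x).det) (hβ : ∀ y, 0 < (β y).det)
    (e : X × Γ' ≃ Y × Γ)
    (he : ∀ x (δ' : Γ'), (α x).adjugate * (δ' : SL(2, ℤ)).1 =
      ((e (x, δ')).2 : SL(2, ℤ)).1 * β (e (x, δ')).1)
    (_hinj : ∀ y₁ y₂ (δ₁ δ₂ : SL(2, ℤ)), δ₁ ∈ Γ → δ₂ ∈ Γ → δ₁.1 * β y₁ = δ₂.1 * β y₂ → y₁ = y₂)
    {γ : SL(2, ℤ)} (hγ : γ ∈ Γ) (σ : Equiv.Perm X) (g' : X → SL(2, ℤ)) (hg' : ∀ x, g' x ∈ Γ')
    (hdec : ∀ x, α x * γ.1 = (g' x).1 * α (σ x))
    {g₀ : SL(2, ℤ)} (_hg₀ : g₀ ∈ Γ') (τ : Equiv.Perm Y) (g : Y → SL(2, ℤ)) (hg : ∀ y, g y ∈ Γ)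
    (hdec' : ∀ y, β y * g₀.1 = (g y).1 * β (τ y)) :
    ∑ x, ipair Γ' g₀ (g' x) = ∑ y, ipair Γ (g y) γ := by
  classical
  rw [← sum_isect_eq_sum_ipair h2 h3 Γ β (fun y => (hβ y).ne') hγ g₀ τ g hg hdec']
  -- abbreviations
  set e₁ : Fin 2 → ℤ := ![1, 0] with he₁
  set v₀ : Fin 2 → ℤ := g₀.1 *ᵥ e₁ with hv₀
  let F : Matrix (Fin 2) (Fin 2) ℤ → ℤ := sideF e₁ v₀
  let n : X → SL(2, ℤ) → Matrix (Fin 2) (Fin 2) ℤ := fun x δ' => (α x).adjugate * δ'.1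
  let h : X → SL(2, ℤ) → ℤ := fun x δ' => F δ'.1 - F (n x δ')
  let Φ : Matrix (Fin 2) (Fin 2) ℤ → ℤ := fun m => F (γ.1 * m) - F m
  let Ψ : X → SL(2, ℤ) → ℤ := fun x δ' => Φ (n x δ')
  have hadj : ∀ x, (α x).adjugate * (g' x).1 = γ.1 * (α (σ x)).adjugate :=
    fun x => adjugate_dec (hα x).ne' (g' x).2 γ.2 (hdec x)
  -- finite supports
  have hfin_h : ∀ x, (Function.support fun δ' : Γ' => h x (δ' : SL(2, ℤ))).Finite := fun x =>
    support_sideF_sub_finite h2 Γ' (α x).adjugate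
      (by rw [Matrix.det_adjugate]; simpa using hα x) e₁ v₀
  have hfin_T : ∀ x,
      (Function.support fun δ' : Γ' => isectTerm e₁ v₀ (g' x) (δ' : SL(2, ℤ))).Finite :=
    fun x => isectTerm_support_finite h2 Γ' e₁ v₀ (g' x)
  have hterm : ∀ x (δ' : Γ'), isectTerm e₁ v₀ (g' x) (δ' : SL(2, ℤ)) =
      Ψ (σ x) (δ' : SL(2, ℤ)) +
        h x ((Equiv.mulLeft (⟨g' x, hg' x⟩ : Γ') δ' : Γ') : SL(2, ℤ)) - h (σ x) (δ' : SL(2, ℤ)) := by
    intro x δ'
    have hn : n x (g' x * (δ' : SL(2, ℤ))) = γ.1 * n (σ x) (δ' : SL(2, ℤ)) := by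
      simp only [n]
      rw [Matrix.SpecialLinearGroup.coe_mul, ← Matrix.mul_assoc, hadj x, Matrix.mul_assoc]
    simp only [h, Ψ, Φ, isectTerm_eq_sideF, Equiv.coe_mulLeft, Subgroup.coe_mul, F]
    rw [hn]
    ring
  have hfin_shift : ∀ x, (Function.support fun δ' : Γ' =>
      h x ((Equiv.mulLeft (⟨g' x, hg' x⟩ : Γ') δ' : Γ') : SL(2, ℤ))).Finite := fun x =>
    ((hfin_h x).preimage ((Equiv.mulLeft (⟨g' x, hg' x⟩ : Γ')).injective.injOn)).subset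
      (fun δ hδ => hδ)
  have hfin_Ψσ : ∀ x, (Function.support fun δ' : Γ' => Ψ (σ x) (δ' : SL(2, ℤ))).Finite := by
    intro x
    have hfun : (fun δ' : Γ' => Ψ (σ x) (δ' : SL(2, ℤ))) = fun δ' : Γ' =>
        isectTerm e₁ v₀ (g' x) (δ' : SL(2, ℤ)) -
          h x ((Equiv.mulLeft (⟨g' x, hg' x⟩ : Γ') δ' : Γ') : SL(2, ℤ)) +
          h (σ x) (δ' : SL(2, ℤ)) := by
      funext δ'; rw [hterm x δ']; ring
    rw [hfun]
    refine (((hfin_T x).union (hfin_shift x)).union (hfin_h (σ x))).subset ?_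
    intro δ' hδ'
    simp only [Function.mem_support, ne_eq, Set.mem_union] at hδ' ⊢
    by_contra hcon
    rw [not_or, not_or, not_not, not_not, not_not] at hcon
    apply hδ'
    rw [hcon.1.1, hcon.1.2, hcon.2]; ring
  have hfin_Ψ : ∀ x, (Function.support fun δ' : Γ' => Ψ x (δ' : SL(2, ℤ))).Finite := by
    intro x
    have := hfin_Ψσ (σ.symm x)
    rwa [Equiv.apply_symm_apply] at this
  -- the left hand side
  have hL : ∑ x, ipair Γ' g₀ (g' x) = ∑ x, ∑ᶠ δ' : Γ', Ψ x (δ' : SL(2, ℤ)) := by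
    have hx : ∀ x, ipair Γ' g₀ (g' x) = (∑ᶠ δ' : Γ', Ψ (σ x) (δ' : SL(2, ℤ))) +
        (∑ᶠ δ' : Γ', h x (δ' : SL(2, ℤ))) - (∑ᶠ δ' : Γ', h (σ x) (δ' : SL(2, ℤ))) := by
      intro x
      have hsum : (Function.support fun δ' : Γ' => Ψ (σ x) (δ' : SL(2, ℤ)) +
          h x ((Equiv.mulLeft (⟨g' x, hg' x⟩ : Γ') δ' : Γ') : SL(2, ℤ))).Finite :=
        ((hfin_Ψσ x).union (hfin_shift x)).subset (Function.support_add _ _)
      show isect Γ' e₁ v₀ (g' x) = _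
      simp only [isect]
      rw [finsum_congr (hterm x), finsum_sub_distrib hsum (hfin_h (σ x)),
        finsum_add_distrib (hfin_Ψσ x) (hfin_shift x),
        finsum_comp_equiv (Equiv.mulLeft (⟨g' x, hg' x⟩ : Γ'))
          (f := fun δ' : Γ' => h x (δ' : SL(2, ℤ)))]
    rw [Finset.sum_congr rfl fun x _ => hx x, Finset.sum_sub_distrib, Finset.sum_add_distrib,
      Equiv.sum_comp σ (fun x => ∑ᶠ δ' : Γ', Ψ x (δ' : SL(2, ℤ))),
      Equiv.sum_comp σ (fun x => ∑ᶠ δ' : Γ', h x (δ' : SL(2, ℤ)))]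
    ring
  rw [hL]
  -- transport along `e`
  let fI : X × Γ' → ℤ := fun i => Ψ i.1 (i.2 : SL(2, ℤ))
  let fJ : Y × Γ → ℤ := fun j => Φ ((j.2 : SL(2, ℤ)).1 * β j.1)
  have hIJ : ∀ i, fI i = fJ (e i) := by
    rintro ⟨x, δ'⟩
    simp only [fI, fJ, Ψ, n]
    rw [he x δ']
  have hfinI : (Function.support fI).Finite := by
    refine (Set.finite_iUnion fun x => (hfin_Ψ x).image (fun δ' : Γ' => (x, δ'))).subset ?_
    rintro ⟨x, δ'⟩ hi
    simp only [Set.mem_iUnion, Set.mem_image]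
    exact ⟨x, δ', hi, rfl⟩
  have hfinJ : (Function.support fJ).Finite := by
    refine (hfinI.image e).subset ?_
    intro j hj
    refine ⟨e.symm j, ?_, e.apply_symm_apply j⟩
    simp only [Function.mem_support, ne_eq] at hj ⊢
    rwa [hIJ, e.apply_symm_apply]
  have e1 : ∑ x, ∑ᶠ δ' : Γ', Ψ x (δ' : SL(2, ℤ)) = ∑ᶠ i, fI i := by
    rw [finsum_curry fI hfinI, finsum_eq_sum_of_fintype]
  have e2 : ∑ᶠ i, fI i = ∑ᶠ j, fJ j := by
    rw [finsum_congr hIJ]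
    exact finsum_comp_equiv e
  have e3 : ∑ᶠ j, fJ j = ∑ y, ∑ᶠ δ : Γ, fJ (y, δ) := by
    rw [finsum_curry fJ hfinJ, finsum_eq_sum_of_fintype]
  rw [e1, e2, e3]
  refine Finset.sum_congr rfl fun y _ => ?_
  simp only [isect]
  refine finsum_congr fun δ => ?_
  simp only [fJ, Φ, F, isectTerm_eq_sideF, sideF_mul, Matrix.SpecialLinearGroup.coe_mul,
    Matrix.mulVec_mulVec]

end Fermat.Agent.S41.H57
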