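import Mathlib
import Fermat.Agent.S41.IsectDef_helper11

/-!
# S41, node (C), route C-I, leaf (CF) (helper58): Farey chains (Euclid)

Every primitive vector `v` is reached from `e₁ = ![1, 0]` by a chain of Farey edges: there is a
list `l` of elements of `SL(2, ℤ)` such that for EVERY function `F` on pairs of integer vectors
which is antisymmetric, invariant under `u ↦ -u` and satisfies the triangle relation on nonzero
vectors,
`F e₁ v = ∑ y ∈ l, F (y e₁) (y e₂)`.
The list does not depend on `F` (so the same chain serves the intersection symbols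
`F = isect Γ · · γ` for all `γ` and the coboundaries `F a b = u b - u a` of cusp potentials).
-/

set_option autoImplicit false

namespace Fermat.Agent.S41.H58

open Matrix
open scoped MatrixGroups

/-- The element of `SL(2, ℤ)` with columns `w`, `v` (`det2 w v = 1`). -/
def colSL (w v : Fin 2 → ℤ) (h : w 0 * v 1 - w 1 * v 0 = 1) : SL(2, ℤ) :=
  ⟨!![w 0, v 0; w 1, v 1], by rw [Matrix.det_fin_two_of]; linarith⟩

theorem colSL_mulVec_e1 (w v : Fin 2 → ℤ) (h : w 0 * v 1 - w 1 * v 0 = 1) :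
    (colSL w v h).1 *ᵥ ![1, 0] = w := by
  funext i
  fin_cases i <;> simp [colSL, Matrix.mulVec, dotProduct, Fin.sum_univ_two]

theorem colSL_mulVec_e2 (w v : Fin 2 → ℤ) (h : w 0 * v 1 - w 1 * v 0 = 1) :
    (colSL w v h).1 *ᵥ ![0, 1] = v := by
  funext i
  fin_cases i <;> simp [colSL, Matrix.mulVec, dotProduct, Fin.sum_univ_two]

/-- The edge sum of a list of Farey edges. -/
def edgeSum (F : (Fin 2 → ℤ) → (Fin 2 → ℤ) → ℤ) (l : List SL(2, ℤ)) : ℤ :=
  (l.map fun y => F (y.1 *ᵥ ![1, 0]) (y.1 *ᵥ ![0, 1])).sum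

theorem edgeSum_nil (F : (Fin 2 → ℤ) → (Fin 2 → ℤ) → ℤ) : edgeSum F [] = 0 := rfl

theorem edgeSum_append (F : (Fin 2 → ℤ) → (Fin 2 → ℤ) → ℤ) (l l' : List SL(2, ℤ)) :
    edgeSum F (l ++ l') = edgeSum F l + edgeSum F l' := by
  simp [edgeSum]

theorem edgeSum_singleton (F : (Fin 2 → ℤ) → (Fin 2 → ℤ) → ℤ) (y : SL(2, ℤ)) :
    edgeSum F [y] = F (y.1 *ᵥ ![1, 0]) (y.1 *ᵥ ![0, 1]) := by
  simp [edgeSum]

/-- **(CF)**, Euclid: every primitive vector is joined to `e₁` by a chain of Farey edges, and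
the chain computes every antisymmetric, sign-invariant symbol function with the triangle
relation. -/
theorem exists_farey_chain (v : Fin 2 → ℤ) (hv : IsCoprime (v 0) (v 1)) :
    ∃ l : List SL(2, ℤ), ∀ F : (Fin 2 → ℤ) → (Fin 2 → ℤ) → ℤ,
      (∀ u w, F w u = - F u w) → (∀ u w, F (-u) w = F u w) →
      (∀ u w t, u ≠ 0 → w ≠ 0 → t ≠ 0 → F u w + F w t + F t u = 0) →
      F ![1, 0] v = (l.map fun y => F (y.1 *ᵥ ![1, 0]) (y.1 *ᵥ ![0, 1])).sum := by
  suffices H : ∀ n : ℕ, ∀ v : Fin 2 → ℤ, (v 1).natAbs = n → IsCoprime (v 0) (v 1) →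
      ∃ l : List SL(2, ℤ), ∀ F : (Fin 2 → ℤ) → (Fin 2 → ℤ) → ℤ,
        (∀ u w, F w u = - F u w) → (∀ u w, F (-u) w = F u w) →
        (∀ u w t, u ≠ 0 → w ≠ 0 → t ≠ 0 → F u w + F w t + F t u = 0) →
        F ![1, 0] v = edgeSum F l from H _ v rfl hv
  intro n
  induction n using Nat.strong_induction_on with
  | _ n ih =>
    intro v hn hv
    by_cases h1 : v 1 = 0
    · -- `v = ± e₁`
      refine ⟨[], fun F hanti hsign _ => ?_⟩
      rw [edgeSum_nil]
      have hself : F ![1, 0] ![1, 0] = 0 := by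
        have := hanti ![1, 0] ![1, 0]
        omega
      rw [h1] at hv
      have hu : IsUnit (v 0) := by
        obtain ⟨a, b, hab⟩ := hv
        exact IsUnit.of_mul_eq_one a (by linarith)
      rcases Int.isUnit_iff.mp hu with h0 | h0
      · have : v = ![1, 0] := by
          funext i
          fin_cases i
          · simpa using h0
          · simpa using h1
        rw [this, hself]
      · have : v = - ![1, 0] := by
          funext i
          fin_cases i
          · simpa using h0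
          · simpa using h1
        rw [this, hanti, hsign, hself, neg_zero]
    · -- Euclid step
      obtain ⟨a, b, hab⟩ := hv
      -- `w₀ = b + k v₀`, `w₁ = -a + k v₁` with `k = a / v 1`... choose `w₁ = (-a) % (v 1)`
      set k : ℤ := -((-a) / v 1) with hk
      set w : Fin 2 → ℤ := ![b + k * v 0, -a + k * v 1] with hw
      have hw0 : w 0 = b + k * v 0 := rfl
      have hw1 : w 1 = -a + k * v 1 := rfl
      have hdet : w 0 * v 1 - w 1 * v 0 = 1 := by
        rw [hw0, hw1]; linarith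
      have hw1' : w 1 = (-a) % v 1 := by
        rw [hw1, hk, Int.emod_def]; ring
      have hlt : (w 1).natAbs < n := by
        rw [← hn, hw1']
        have hnn : 0 ≤ (-a) % v 1 := Int.emod_nonneg _ h1
        have hlt' : (-a) % v 1 < |v 1| := Int.emod_lt_abs _ h1
        have hcast : (((-a) % v 1).natAbs : ℤ) < ((v 1).natAbs : ℤ) := by
          rw [Int.natCast_natAbs, Int.natCast_natAbs, abs_of_nonneg hnn]
          exact hlt'
        exact_mod_cast hcast
      have hwcop : IsCoprime (w 0) (w 1) := ⟨v 1, -(v 0), by linarith⟩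
      obtain ⟨l, hl⟩ := ih _ hlt w rfl hwcop
      refine ⟨l ++ [colSL w v hdet], fun F hanti hsign htri => ?_⟩
      rw [edgeSum_append, edgeSum_singleton, colSL_mulVec_e1, colSL_mulVec_e2,
        ← hl F hanti hsign htri]
      have he1 : (![1, 0] : Fin 2 → ℤ) ≠ 0 := by
        intro h
        have := congrFun h 0
        simp at this
      have hw_ne : w ≠ 0 := by
        intro h
        rw [h] at hdet
        simp at hdet
      have hv_ne : v ≠ 0 := by
        intro h
        apply h1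
        rw [h]; rfl
      have := htri ![1, 0] w v he1 hw_ne hv_ne
      have h2 := hanti ![1, 0] v
      linarith

/-- `g e₁` is primitive. -/
theorem isCoprime_mulVec_e1 (g : SL(2, ℤ)) :
    IsCoprime ((g.1 *ᵥ ![1, 0]) 0) ((g.1 *ᵥ ![1, 0]) 1) := by
  have hdet : g.1 0 0 * g.1 1 1 - g.1 0 1 * g.1 1 0 = 1 := by
    have := g.2
    rw [Matrix.det_fin_two] at this
    exact this
  refine ⟨g.1 1 1, -(g.1 0 1), ?_⟩
  simp [Matrix.mulVec, dotProduct, Fin.sum_univ_two]
  linarith

/-- (CF) for the loop symbol `{e₁, g e₁}`. -/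
theorem exists_farey_chain_SL (g : SL(2, ℤ)) :
    ∃ l : List SL(2, ℤ), ∀ F : (Fin 2 → ℤ) → (Fin 2 → ℤ) → ℤ,
      (∀ u w, F w u = - F u w) → (∀ u w, F (-u) w = F u w) →
      (∀ u w t, u ≠ 0 → w ≠ 0 → t ≠ 0 → F u w + F w t + F t u = 0) →
      F ![1, 0] (g.1 *ᵥ ![1, 0]) = (l.map fun y => F (y.1 *ᵥ ![1, 0]) (y.1 *ᵥ ![0, 1])).sum :=
  exists_farey_chain _ (isCoprime_mulVec_e1 g)

end Fermat.Agent.S41.H58
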