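import Mathlib
import Fermat.Agent.S41.IsectDef_helper11

/-!
# S41, node (C), route C-I, leaf I3, part 3 (helper4): Farey chains (CF)

`exists_farey_chain`: for every primitive vector `v` there is ONE list `l` of elements of
`SL(2, ℤ)` such that every antisymmetric, sign-invariant function `F` of two vectors satisfying the
triangle relation has `F e₁ v = ∑_{y ∈ l} F (y e₁) (y e₂)` (Manin's trick; Euclid on `|v 1|`).
-/

set_option autoImplicit false

universe u

namespace Fermat.Agent.S41.H04

open Matrix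
open scoped MatrixGroups

theorem vec_eta (v : Fin 2 → ℤ) : v = ![v 0, v 1] := by
  ext i; fin_cases i <;> rfl

/-- The matrix with columns `(b, d)` and `(a, c)`, when `b * c - a * d = 1`. -/
def colsSL (b d a c : ℤ) (h : b * c - a * d = 1) : SL(2, ℤ) :=
  ⟨!![b, a; d, c], by rw [Matrix.det_fin_two_of]; linarith⟩

theorem colsSL_mulVec_e1 (b d a c : ℤ) (h : b * c - a * d = 1) :
    (colsSL b d a c h).1 *ᵥ ![1, 0] = ![b, d] := by
  ext i; fin_cases i <;> simp [colsSL, Matrix.mulVec, dotProduct, Fin.sum_univ_two]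

theorem colsSL_mulVec_e2 (b d a c : ℤ) (h : b * c - a * d = 1) :
    (colsSL b d a c h).1 *ᵥ ![0, 1] = ![a, c] := by
  ext i; fin_cases i <;> simp [colsSL, Matrix.mulVec, dotProduct, Fin.sum_univ_two]

/-- (CF) Manin's trick: `{e₁, v}` is a sum of Farey edges, uniformly in the symbol function. -/
theorem exists_farey_chain (v : Fin 2 → ℤ) (hv : IsCoprime (v 0) (v 1)) :
    ∃ l : List SL(2, ℤ), ∀ (A : Type u) [AddCommGroup A]
      (F : (Fin 2 → ℤ) → (Fin 2 → ℤ) → A),
      (∀ x, F x x = 0) → (∀ x w, F w x = - F x w) → (∀ x w, F (-x) w = F x w) →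
      (∀ x w z, x ≠ 0 → w ≠ 0 → z ≠ 0 → F x w + F w z + F z x = 0) →
      F ![1, 0] v = (l.map fun y : SL(2, ℤ) => F (y.1 *ᵥ ![1, 0]) (y.1 *ᵥ ![0, 1])).sum := by
  induction' hn : (v 1).natAbs using Nat.strong_induction_on with n ih generalizing v
  by_cases hc : v 1 = 0
  · -- v = ± e₁
    refine ⟨[], ?_⟩
    intro A _ F hF0 hFanti hFneg _
    rw [hc] at hv
    have hunit : IsUnit (v 0) := isCoprime_zero_right.mp hv
    rcases Int.isUnit_iff.mp hunit with h1 | h1
    · have : v = ![1, 0] := by rw [vec_eta v, h1, hc]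
      rw [this]; simpa using hF0 _
    · have : v = -![1, 0] := by
        rw [vec_eta v, h1, hc]; ext i; fin_cases i <;> simp
      rw [this]
      have h2 := hFanti (-![1, 0]) ![1, 0]
      rw [hFneg, hF0] at h2
      simpa using h2
  · -- Euclid step
    obtain ⟨s, t, hst⟩ := hv
    -- s * v 0 + t * v 1 = 1
    set a := v 0 with ha
    set c := v 1 with hc'
    set d' : ℤ := (-s) % c with hd'
    set k : ℤ := -((-s) / c) with hk
    set b' : ℤ := t + k * a with hb'
    have hd'eq : d' = -s + k * c := by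
      have := Int.emod_add_mul_ediv (-s) c
      rw [hd', hk]; linarith
    have hdet : b' * c - a * d' = 1 := by
      rw [hb', hd'eq]; linarith
    have hd'lt : d'.natAbs < n := by
      have h0 : 0 ≤ d' := Int.emod_nonneg _ hc
      have h1 : d' < |c| := Int.emod_lt_abs _ hc
      have h2 := Int.natAbs_lt_natAbs_of_nonneg_of_lt h0 h1
      rw [Int.natAbs_abs] at h2
      rw [← hn]
      exact h2
    set w : Fin 2 → ℤ := ![b', d'] with hw
    have hwcop : IsCoprime (w 0) (w 1) := ⟨c, -a, by simp [hw]; linarith⟩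
    obtain ⟨lw, hlw⟩ := ih d'.natAbs hd'lt w hwcop (by simp [hw])
    refine ⟨colsSL b' d' a c hdet :: lw, ?_⟩
    intro A _ F hF0 hFanti hFneg hFtri
    have hv' : v = ![a, c] := vec_eta v
    have hvne : v ≠ 0 := by
      intro h0
      apply hc
      have := congrFun h0 1
      simpa using this
    have hwne : w ≠ 0 := by
      intro h0
      have e0 := congrFun h0 0
      have e1 := congrFun h0 1
      simp only [hw, Matrix.cons_val_zero, Matrix.cons_val_one, Pi.zero_apply] at e0 e1
      rw [e0, e1] at hdet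
      simp at hdet
    have he1 : (![1, 0] : Fin 2 → ℤ) ≠ 0 := by
      intro h0
      have := congrFun h0 0
      simp at this
    have htri := hFtri ![1, 0] w v he1 hwne hvne
    have h1 := hlw A F hF0 hFanti hFneg hFtri
    rw [List.map_cons, List.sum_cons, colsSL_mulVec_e1, colsSL_mulVec_e2, ← hv', ← hw, ← h1]
    have h2 := hFanti ![1, 0] v
    rw [h2] at htri
    have : F ![1, 0] v = F ![1, 0] w + F w v := by
      have h3 : F ![1, 0] w + F w v - F ![1, 0] v = 0 := by rw [← htri]; abel
      exact (sub_eq_zero.mp h3).symm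
    rw [this]; abel

end Fermat.Agent.S41.H04
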