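/-
S41, node (C), intersection route, leaf I2 (helper7): the two finiteness lemmas (FIN2), (FIN3)
for the side function `sg` of the hexagonal form.  Pure integer arithmetic.
-/
import Mathlib
import Fermat.Agent.S41.IsectDef_helper11

set_option autoImplicit false

namespace Fermat.Agent.S41.H07F

open Matrix Fermat.Agent.S41.H11

/-- The squared euclidean norm of an integer vector. -/
def nrm (u : Fin 2 → ℤ) : ℤ := u 0 ^ 2 + u 1 ^ 2

theorem nrm_nonneg (u : Fin 2 → ℤ) : 0 ≤ nrm u := by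
  unfold nrm; positivity

theorem nrm_le_bform (u : Fin 2 → ℤ) : nrm u ≤ bform u u := by
  unfold nrm bform; nlinarith [sq_nonneg (u 0 + u 1)]

theorem bform_self_nonneg (u : Fin 2 → ℤ) : 0 ≤ bform u u :=
  (nrm_nonneg u).trans (nrm_le_bform u)

theorem one_le_nrm_left {u w : Fin 2 → ℤ} (h : det2 u w ≠ 0) : 1 ≤ nrm u := by
  unfold nrm
  by_contra hlt
  have h0 : u 0 ^ 2 + u 1 ^ 2 ≤ 0 := by omega
  have hu0 : u 0 = 0 := by nlinarith [sq_nonneg (u 0), sq_nonneg (u 1)]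
  have hu1 : u 1 = 0 := by nlinarith [sq_nonneg (u 0), sq_nonneg (u 1)]
  apply h
  unfold det2
  rw [hu0, hu1]; ring

theorem one_le_nrm_right {u w : Fin 2 → ℤ} (h : det2 u w ≠ 0) : 1 ≤ nrm w := by
  unfold nrm
  by_contra hlt
  have h0 : w 0 ^ 2 + w 1 ^ 2 ≤ 0 := by omega
  have hw0 : w 0 = 0 := by nlinarith [sq_nonneg (w 0), sq_nonneg (w 1)]
  have hw1 : w 1 = 0 := by nlinarith [sq_nonneg (w 0), sq_nonneg (w 1)]
  apply h
  unfold det2
  rw [hw0, hw1]; ring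

theorem coord_bound {u : Fin 2 → ℤ} {K : ℤ} (h : nrm u ≤ K) (i : Fin 2) :
    -K ≤ u i ∧ u i ≤ K := by
  unfold nrm at h
  have h1 : u i ^ 2 ≤ K := by
    fin_cases i
    · simp only [Fin.zero_eta]; nlinarith [sq_nonneg (u 1)]
    · simp only [Fin.mk_one]; nlinarith [sq_nonneg (u 0)]
  have h2 : u i ≤ u i ^ 2 := Int.le_self_sq (u i)
  have h3 : -u i ≤ u i ^ 2 := by
    have := Int.le_self_sq (-u i)
    simpa using this
  constructor <;> linarith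

/-- Vectors of bounded norm form a finite set. -/
theorem finite_nrm_le (K : ℤ) : {u : Fin 2 → ℤ | nrm u ≤ K}.Finite := by
  apply Set.Finite.subset (Set.finite_Icc (fun _ : Fin 2 => -K) (fun _ : Fin 2 => K))
  intro u hu
  exact ⟨fun i => (coord_bound hu i).1, fun i => (coord_bound hu i).2⟩

/-! ### (FIN2) -/

/-- The mixed discriminant of the hexagonal form and its transform by `α`. -/
def mixed (α : Matrix (Fin 2) (Fin 2) ℤ) : ℤ :=
  2 * (2 * α 0 0 ^ 2 + 2 * α 0 0 * α 1 0 + 2 * α 1 0 ^ 2)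
    - 2 * (2 * α 0 0 * α 0 1 + α 0 0 * α 1 1 + α 1 0 * α 0 1 + 2 * α 1 0 * α 1 1)
    + 2 * (2 * α 0 1 ^ 2 + 2 * α 0 1 * α 1 1 + 2 * α 1 1 ^ 2)

/-- The squared Frobenius norm of `α`. -/
def frob (α : Matrix (Fin 2) (Fin 2) ℤ) : ℤ :=
  α 0 0 ^ 2 + α 0 1 ^ 2 + α 1 0 ^ 2 + α 1 1 ^ 2

theorem mulVec_zero (α : Matrix (Fin 2) (Fin 2) ℤ) (u : Fin 2 → ℤ) :
    (α *ᵥ u) 0 = α 0 0 * u 0 + α 0 1 * u 1 := by
  simp [Matrix.mulVec, dotProduct, Fin.sum_univ_two]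

theorem mulVec_one (α : Matrix (Fin 2) (Fin 2) ℤ) (u : Fin 2 → ℤ) :
    (α *ᵥ u) 1 = α 1 0 * u 0 + α 1 1 * u 1 := by
  simp [Matrix.mulVec, dotProduct, Fin.sum_univ_two]

theorem mixed_identity (α : Matrix (Fin 2) (Fin 2) ℤ) (u w : Fin 2 → ℤ) :
    bform u u * bform (α *ᵥ w) (α *ᵥ w) + bform (α *ᵥ u) (α *ᵥ u) * bform w w
      - 2 * (bform u w * bform (α *ᵥ u) (α *ᵥ w)) = mixed α * det2 u w ^ 2 := by
  simp only [bform, det2, mixed, mulVec_zero, mulVec_one]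
  ring

theorem frob_mul_nrm (α : Matrix (Fin 2) (Fin 2) ℤ) (u : Fin 2 → ℤ) :
    α.det ^ 2 * nrm u ≤ frob α * nrm (α *ᵥ u) := by
  have key : frob α * nrm (α *ᵥ u) - α.det ^ 2 * nrm u
      = (α 1 1 * (α 1 0 * u 0 + α 1 1 * u 1) + α 0 1 * (α 0 0 * u 0 + α 0 1 * u 1)) ^ 2
        + (α 1 0 * (α 1 0 * u 0 + α 1 1 * u 1) + α 0 0 * (α 0 0 * u 0 + α 0 1 * u 1)) ^ 2 := by
    simp only [frob, nrm, mulVec_zero, mulVec_one, Matrix.det_fin_two]
    ring
  nlinarith [sq_nonneg (α 1 1 * (α 1 0 * u 0 + α 1 1 * u 1) + α 0 1 * (α 0 0 * u 0 + α 0 1 * u 1)),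
    sq_nonneg (α 1 0 * (α 1 0 * u 0 + α 1 1 * u 1) + α 0 0 * (α 0 0 * u 0 + α 0 1 * u 1))]

theorem mul_nonpos_of_sign_ne {x y : ℤ} (h : Int.sign y ≠ Int.sign x) : x * y ≤ 0 := by
  rcases lt_trichotomy x 0 with hx | hx | hx
  · rcases lt_trichotomy y 0 with hy | hy | hy
    · exfalso; apply h
      rw [Int.sign_eq_neg_one_of_neg hx, Int.sign_eq_neg_one_of_neg hy]
    · rw [hy]; simp
    · nlinarith
  · rw [hx]; simp
  · rcases lt_trichotomy y 0 with hy | hy | hy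
    · nlinarith
    · rw [hy]; simp
    · exfalso; apply h
      rw [Int.sign_eq_one_of_pos hx, Int.sign_eq_one_of_pos hy]

/-- **(FIN2)**. -/
theorem fin2 (α : Matrix (Fin 2) (Fin 2) ℤ) (hα : α.det ≠ 0) (d : ℤ) (hd : d ≠ 0) :
    {p : (Fin 2 → ℤ) × (Fin 2 → ℤ) | det2 p.1 p.2 = d ∧
      Int.sign (bform (α *ᵥ p.1) (α *ᵥ p.2)) ≠ Int.sign (bform p.1 p.2)}.Finite := by
  apply Set.Finite.subset
    ((finite_nrm_le (frob α * mixed α * d ^ 2)).prod (finite_nrm_le (frob α * mixed α * d ^ 2)))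
  rintro ⟨u, w⟩ ⟨hdet, hsign⟩
  simp only at hdet hsign
  have hdet0 : det2 u w ≠ 0 := by rw [hdet]; exact hd
  have hxy := mul_nonpos_of_sign_ne hsign
  have hid := mixed_identity α u w
  rw [hdet] at hid
  have hu1 := one_le_nrm_left hdet0
  have hw1 := one_le_nrm_right hdet0
  have hδ : 1 ≤ α.det ^ 2 := by
    have : 0 < α.det ^ 2 := by positivity
    omega
  have hBu := nrm_le_bform u
  have hCw := nrm_le_bform (α *ᵥ w)
  have hCu0 := bform_self_nonneg (α *ᵥ u)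
  have hBw0 := bform_self_nonneg w
  have hfw := frob_mul_nrm α w
  have hfrob0 : 0 ≤ frob α := by unfold frob; positivity
  -- `nrm w ≤ frob α * bform (α w) (α w)`
  have h1 : nrm w ≤ frob α * bform (α *ᵥ w) (α *ᵥ w) := by
    have h2 : nrm w ≤ α.det ^ 2 * nrm w := by nlinarith [nrm_nonneg w]
    have h3 : frob α * nrm (α *ᵥ w) ≤ frob α * bform (α *ᵥ w) (α *ᵥ w) :=
      mul_le_mul_of_nonneg_left hCw hfrob0
    linarith
  -- `bform u u * bform (α w) (α w) ≤ mixed α * d ^ 2`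
  have h4 : bform u u * bform (α *ᵥ w) (α *ᵥ w) ≤ mixed α * d ^ 2 := by
    nlinarith [mul_nonneg hCu0 hBw0]
  have hCw0 := bform_self_nonneg (α *ᵥ w)
  have hBu0 := bform_self_nonneg u
  have h5 : nrm u * nrm w ≤ frob α * mixed α * d ^ 2 := by
    calc nrm u * nrm w ≤ bform u u * (frob α * bform (α *ᵥ w) (α *ᵥ w)) :=
          mul_le_mul hBu h1 (nrm_nonneg w) hBu0
      _ = frob α * (bform u u * bform (α *ᵥ w) (α *ᵥ w)) := by ring
      _ ≤ frob α * (mixed α * d ^ 2) := mul_le_mul_of_nonneg_left h4 hfrob0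
      _ = frob α * mixed α * d ^ 2 := by ring
  constructor
  · show nrm u ≤ _
    nlinarith [nrm_nonneg u, nrm_nonneg w]
  · show nrm w ≤ _
    nlinarith [nrm_nonneg u, nrm_nonneg w]

end Fermat.Agent.S41.H07F
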