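/-
S41, node (C), intersection route, leaf I2 (helper7), second part: (FIN3), the triangle
finiteness lemma for the side function `sg` of the hexagonal form.  Pure integer arithmetic.
-/
import Mathlib
import Fermat.Agent.S41.IsectDef_helper11
import Fermat.Agent.S41.IsectFin_helper7

set_option autoImplicit false

namespace Fermat.Agent.S41.H07F

open Matrix Fermat.Agent.S41.H11

/-! ### (FIN3) -/

theorem tri_one (u w v : Fin 2 → ℤ) :
    det2 w v * det2 v u * bform u w + det2 u w * det2 w v * bform v u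
      = -(det2 w v ^ 2 * bform u u) := by
  simp only [bform, det2]; ring

theorem tri_two (u w v : Fin 2 → ℤ) :
    det2 w v * det2 v u * bform u w + det2 u w * det2 v u * bform w v
      = -(det2 v u ^ 2 * bform w w) := by
  simp only [bform, det2]; ring

theorem tri_three (u w v : Fin 2 → ℤ) :
    det2 u w * det2 v u * bform w v + det2 u w * det2 w v * bform v u
      = -(det2 u w ^ 2 * bform v v) := by
  simp only [bform, det2]; ring

theorem lagrange (u w : Fin 2 → ℤ) :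
    bform u u * bform w w = bform u w ^ 2 + 3 * det2 u w ^ 2 := by
  simp only [bform, det2]; ring

/-- Three nonpositive integers with negative pairwise sums and `p₁p₂ + p₁p₃ + p₂p₃ = c`
are bounded by `c`. -/
theorem neg_le_of_pairs {p₁ p₂ p₃ c : ℤ} (h₁ : p₁ ≤ 0) (h₂ : p₂ ≤ 0) (h₃ : p₃ ≤ 0)
    (h₂₃ : p₂ + p₃ < 0) (hc : p₁ * p₂ + p₁ * p₃ + p₂ * p₃ = c) : -p₁ ≤ c := by
  have h23 : 0 ≤ p₂ * p₃ := mul_nonneg_of_nonpos_of_nonpos h₂ h₃
  have h12 : 0 ≤ p₁ * p₂ := mul_nonneg_of_nonpos_of_nonpos h₁ h₂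
  have h13 : 0 ≤ p₁ * p₃ := mul_nonneg_of_nonpos_of_nonpos h₁ h₃
  rcases lt_or_eq_of_le h₂ with h | h
  · -- `p₂ ≤ -1`
    have : -p₁ ≤ p₁ * p₂ := by nlinarith
    linarith
  · -- `p₂ = 0`, so `p₃ ≤ -1`
    have h3' : p₃ ≤ -1 := by omega
    have : -p₁ ≤ p₁ * p₃ := by nlinarith
    linarith

theorem sg_eq_sign_mul {d b e : ℤ} (he : e ≠ 0) :
    Int.sign d * Int.sign b = Int.sign (d * e) * Int.sign (e * b) := by
  rw [Int.sign_mul, Int.sign_mul]
  have h : Int.sign e * Int.sign e = 1 := by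
    rcases lt_or_gt_of_ne he with h | h
    · rw [Int.sign_eq_neg_one_of_neg h]; norm_num
    · rw [Int.sign_eq_one_of_pos h]; norm_num
  linear_combination (-(Int.sign d * Int.sign b)) * h

/-- **(FIN3)**. -/
theorem fin3 (d₁ d₂ d₃ : ℤ) (h₁ : d₁ ≠ 0) (h₂ : d₂ ≠ 0) (h₃ : d₃ ≠ 0) :
    {t : (Fin 2 → ℤ) × (Fin 2 → ℤ) × (Fin 2 → ℤ) | det2 t.1 t.2.1 = d₁ ∧
      det2 t.2.1 t.2.2 = d₂ ∧ det2 t.2.2 t.1 = d₃ ∧
      sg t.1 t.2.1 + sg t.2.1 t.2.2 + sg t.2.2 t.1 ≠ - Int.sign (d₁ * d₂ * d₃)}.Finite := by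
  apply Set.Finite.subset ((finite_nrm_le (6 * (d₁ * d₂ * d₃) ^ 2)).prod
    ((finite_nrm_le (6 * (d₁ * d₂ * d₃) ^ 2)).prod (finite_nrm_le (6 * (d₁ * d₂ * d₃) ^ 2))))
  rintro ⟨u, w, v⟩ ⟨H1, H2, H3, Hs⟩
  simp only at H1 H2 H3 Hs
  have hd1 : det2 u w ≠ 0 := by rw [H1]; exact h₁
  have hd2 : det2 w v ≠ 0 := by rw [H2]; exact h₂
  have hd3 : det2 v u ≠ 0 := by rw [H3]; exact h₃
  have hBu : 1 ≤ bform u u := (one_le_nrm_left hd1).trans (nrm_le_bform u)
  have hBw : 1 ≤ bform w w := (one_le_nrm_left hd2).trans (nrm_le_bform w)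
  have hBv : 1 ≤ bform v v := (one_le_nrm_left hd3).trans (nrm_le_bform v)
  have e1 := tri_one u w v
  have e2 := tri_two u w v
  have e3 := tri_three u w v
  have hL := lagrange u w
  rw [H1, H2, H3] at e1 e2 e3
  rw [H1] at hL
  have hs1 : 1 ≤ d₁ ^ 2 := by
    have : 0 < d₁ ^ 2 := by positivity
    omega
  have hs2 : 1 ≤ d₂ ^ 2 := by
    have : 0 < d₂ ^ 2 := by positivity
    omega
  have hs3 : 1 ≤ d₃ ^ 2 := by
    have : 0 < d₃ ^ 2 := by positivity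
    omega
  -- the three numbers
  set p1 : ℤ := d₂ * d₃ * bform u w with hp1
  set p2 : ℤ := d₁ * d₃ * bform w v with hp2
  set p3 : ℤ := d₁ * d₂ * bform v u with hp3
  have n13 : p1 + p3 < 0 := by rw [e1]; nlinarith
  have n12 : p1 + p2 < 0 := by rw [e2]; nlinarith
  have n23 : p2 + p3 < 0 := by rw [e3]; nlinarith
  -- the side functions in terms of the signs of the `p`s
  have hD : d₁ * d₂ * d₃ ≠ 0 := mul_ne_zero (mul_ne_zero h₁ h₂) h₃
  have g1 : sg u w = Int.sign (d₁ * d₂ * d₃) * Int.sign p1 := by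
    unfold sg
    rw [H1, sg_eq_sign_mul (mul_ne_zero h₂ h₃), hp1]
    have e : d₁ * (d₂ * d₃) = d₁ * d₂ * d₃ := by ring
    rw [e]
  have g2 : sg w v = Int.sign (d₁ * d₂ * d₃) * Int.sign p2 := by
    unfold sg
    rw [H2, sg_eq_sign_mul (mul_ne_zero h₁ h₃), hp2]
    have e : d₂ * (d₁ * d₃) = d₁ * d₂ * d₃ := by ring
    rw [e]
  have g3 : sg v u = Int.sign (d₁ * d₂ * d₃) * Int.sign p3 := by
    unfold sg
    rw [H3, sg_eq_sign_mul (mul_ne_zero h₁ h₂), hp3]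
    have e : d₃ * (d₁ * d₂) = d₁ * d₂ * d₃ := by ring
    rw [e]
  rw [g1, g2, g3] at Hs
  -- all three are nonpositive
  have q1 : p1 ≤ 0 := by
    by_contra hpos
    have hpos := not_le.mp hpos
    apply Hs
    rw [Int.sign_eq_one_of_pos hpos, Int.sign_eq_neg_one_of_neg (by linarith : p2 < 0),
      Int.sign_eq_neg_one_of_neg (by linarith : p3 < 0)]
    ring
  have q2 : p2 ≤ 0 := by
    by_contra hpos
    have hpos := not_le.mp hpos
    apply Hs
    rw [Int.sign_eq_one_of_pos hpos, Int.sign_eq_neg_one_of_neg (by linarith : p1 < 0),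
      Int.sign_eq_neg_one_of_neg (by linarith : p3 < 0)]
    ring
  have q3 : p3 ≤ 0 := by
    by_contra hpos
    have hpos := not_le.mp hpos
    apply Hs
    rw [Int.sign_eq_one_of_pos hpos, Int.sign_eq_neg_one_of_neg (by linarith : p1 < 0),
      Int.sign_eq_neg_one_of_neg (by linarith : p2 < 0)]
    ring
  -- the quadratic relation
  have hQ : p1 * p2 + p1 * p3 + p2 * p3 = 3 * (d₁ * d₂ * d₃) ^ 2 := by
    have h5 : (p1 + p3) * (p1 + p2) = p1 ^ 2 + 3 * (d₁ * d₂ * d₃) ^ 2 := by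
      rw [e1, e2, hp1]
      linear_combination (d₂ ^ 2 * d₃ ^ 2) * hL
    linear_combination h5
  have b1 : -p1 ≤ 3 * (d₁ * d₂ * d₃) ^ 2 := neg_le_of_pairs q1 q2 q3 n23 hQ
  have b2 : -p2 ≤ 3 * (d₁ * d₂ * d₃) ^ 2 :=
    neg_le_of_pairs q2 q1 q3 n13 (by linear_combination hQ)
  have b3 : -p3 ≤ 3 * (d₁ * d₂ * d₃) ^ 2 :=
    neg_le_of_pairs q3 q1 q2 n12 (by linear_combination hQ)
  have cu : bform u u ≤ 6 * (d₁ * d₂ * d₃) ^ 2 := by nlinarith
  have cw : bform w w ≤ 6 * (d₁ * d₂ * d₃) ^ 2 := by nlinarith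
  have cv : bform v v ≤ 6 * (d₁ * d₂ * d₃) ^ 2 := by nlinarith
  exact ⟨(nrm_le_bform u).trans cu, (nrm_le_bform w).trans cw, (nrm_le_bform v).trans cv⟩

end Fermat.Agent.S41.H07F
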