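import Mathlib
import Fermat.Agent.S41.IsectFin_helper69

/-!
# S41, node (C), leaf (FIN-deg) (helper69): the degenerate finiteness lemma

The comparison lemma `finite_sign_ne` with the second form replaced by the rank-one form
`l(u) l(w)` of a linear form `l` ("the base point is moved to the cusp `l = 0`"): only finitely
many pairs `(u, w)` of a fixed nonzero determinant with `l(u) ≠ 0 ≠ l(w)` have
`sign Q(u, w) ≠ sign (l(u) l(w))`.

* `finite_sign_ne_deg` : the neutral form (any positive definite `(A, B, C)`, carrier `ℤ × ℤ`).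
* `fin2_deg` : the literal shape over `IsectDef_helper11` with `l = det2 c ·`.
-/

set_option autoImplicit false

namespace Fermat.Agent.S41.H69

/-- Arithmetic core of the degenerate comparison lemma. -/
theorem deg_aux {r s Pu Pw Lu Lw d0 E D2 : ℤ} (hr : 1 ≤ r) (hs : 0 ≤ s) (hPu : 1 ≤ Pu)
    (hPw : 1 ≤ Pw) (hLu : 1 ≤ Lu) (hLw : 1 ≤ Lw)
    (h : (r * Pu + s * Lu) * (r * Pw + s * Lw) = (r ^ 2 * d0 + r * s * E) * D2) :
    Pu * Pw ≤ d0 * D2 ∨ Pu + Pw ≤ E * D2 := by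
  by_contra hcon
  rw [not_or, not_le, not_le] at hcon
  obtain ⟨h1, h2⟩ := hcon
  have hrs : 0 ≤ r * s := mul_nonneg (by linarith) hs
  have hr2 : 0 < r ^ 2 := by positivity
  have e1 : Pu ≤ Pu * Lw := by
    have := mul_le_mul_of_nonneg_left hLw (by linarith : (0 : ℤ) ≤ Pu)
    linarith
  have e2 : Pw ≤ Pw * Lu := by
    have := mul_le_mul_of_nonneg_left hLu (by linarith : (0 : ℤ) ≤ Pw)
    linarith
  have e3 : 0 ≤ s ^ 2 * (Lu * Lw) := by
    apply mul_nonneg (sq_nonneg s)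
    exact mul_nonneg (by linarith) (by linarith)
  have e4 : r * s * (Pu + Pw) ≤ r * s * (Pu * Lw + Pw * Lu) :=
    mul_le_mul_of_nonneg_left (by linarith) hrs
  have e5 : r ^ 2 * (d0 * D2 + 1) ≤ r ^ 2 * (Pu * Pw) :=
    mul_le_mul_of_nonneg_left (by linarith) hr2.le
  have e6 : r * s * (E * D2) ≤ r * s * (Pu + Pw) :=
    mul_le_mul_of_nonneg_left h2.le hrs
  have e7 : (r * Pu + s * Lu) * (r * Pw + s * Lw) =
      r ^ 2 * (Pu * Pw) + r * s * (Pu * Lw + Pw * Lu) + s ^ 2 * (Lu * Lw) := by ring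
  have e8 : (r ^ 2 * d0 + r * s * E) * D2 = r ^ 2 * (d0 * D2) + r * s * (E * D2) := by ring
  rw [e7, e8] at h
  have e9 : r ^ 2 * (d0 * D2 + 1) = r ^ 2 * (d0 * D2) + r ^ 2 := by ring
  linarith

/-- The rank-one form `l(u) l(w)` as a `qf`. -/
theorem qf_rank_one (l₁ l₂ : ℤ) (u w : ℤ × ℤ) :
    qf (l₁ ^ 2) (l₁ * l₂) (l₂ ^ 2) u w = (l₁ * u.1 + l₂ * u.2) * (l₁ * w.1 + l₂ * w.2) := by
  unfold qf; ring

/-- Core of (FIN-deg): a bound for `Q(u, u)` and `Q(w, w)`. -/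
theorem deg_bound {A B C : ℤ} (hA : 0 < A) (hd : 0 < A * C - B ^ 2) (l₁ l₂ : ℤ) {u w : ℤ × ℤ}
    (hD : dt u w ≠ 0) (hu : l₁ * u.1 + l₂ * u.2 ≠ 0) (hw : l₁ * w.1 + l₂ * w.2 ≠ 0)
    (hs : Int.sign (qf A B C u w) ≠
      Int.sign ((l₁ * u.1 + l₂ * u.2) * (l₁ * w.1 + l₂ * w.2))) :
    qf A B C u u ≤ ((A * C - B ^ 2) + |A * l₂ ^ 2 + l₁ ^ 2 * C - 2 * B * (l₁ * l₂)|) * dt u w ^ 2 ∧
    qf A B C w w ≤ ((A * C - B ^ 2) + |A * l₂ ^ 2 + l₁ ^ 2 * C - 2 * B * (l₁ * l₂)|) * dt u w ^ 2 := by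
  obtain ⟨e1, e2⟩ := sign_ne_cases hs
  set a := qf A B C u w with ha
  set b := (l₁ * u.1 + l₂ * u.2) * (l₁ * w.1 + l₂ * w.2) with hb
  have hb0 : b ≠ 0 := mul_ne_zero hu hw
  set r := |b| with hr
  set s := |a| with hs'
  have hr1 : 1 ≤ r := by
    have : 0 < |b| := abs_pos.mpr hb0
    omega
  have hs0 : 0 ≤ s := abs_nonneg _
  set E := A * l₂ ^ 2 + l₁ ^ 2 * C - 2 * B * (l₁ * l₂) with hE
  have hPu : 1 ≤ qf A B C u u := qf_self_pos hA hd (ne_zero_of_dt_left hD)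
  have hPw : 1 ≤ qf A B C w w := qf_self_pos hA hd (ne_zero_of_dt_right hD)
  have hLu : 1 ≤ (l₁ * u.1 + l₂ * u.2) ^ 2 := by
    have h1 : 0 < (l₁ * u.1 + l₂ * u.2) ^ 2 := by positivity
    omega
  have hLw : 1 ≤ (l₁ * w.1 + l₂ * w.2) ^ 2 := by
    have h1 : 0 < (l₁ * w.1 + l₂ * w.2) ^ 2 := by positivity
    omega
  -- the combined form kills (u, w)
  have hQ'uw : qf (r * A + s * l₁ ^ 2) (r * B + s * (l₁ * l₂)) (r * C + s * l₂ ^ 2) u w = 0 := by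
    rw [qf_lin, qf_rank_one]
    exact e1
  have hgram := qf_gram (r * A + s * l₁ ^ 2) (r * B + s * (l₁ * l₂)) (r * C + s * l₂ ^ 2) u w
  rw [hQ'uw, qf_lin, qf_lin, qf_rank_one, qf_rank_one] at hgram
  have key : (r * qf A B C u u + s * (l₁ * u.1 + l₂ * u.2) ^ 2) *
      (r * qf A B C w w + s * (l₁ * w.1 + l₂ * w.2) ^ 2) =
      (r ^ 2 * (A * C - B ^ 2) + r * s * E) * dt u w ^ 2 := by
    rw [hE]
    linear_combination hgram
  have hD2 : 0 < dt u w ^ 2 := by positivity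
  have hEabs : E ≤ |E| := le_abs_self E
  rcases deg_aux hr1 hs0 hPu hPw hLu hLw key with h | h
  · have h1 : qf A B C u u ≤ (A * C - B ^ 2) * dt u w ^ 2 := by
      have : qf A B C u u * 1 ≤ qf A B C u u * qf A B C w w :=
        mul_le_mul_of_nonneg_left hPw (by linarith)
      linarith
    have h2 : qf A B C w w ≤ (A * C - B ^ 2) * dt u w ^ 2 := by
      have : 1 * qf A B C w w ≤ qf A B C u u * qf A B C w w :=
        mul_le_mul_of_nonneg_right hPu (by linarith)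
      linarith
    have h3 : 0 ≤ |E| * dt u w ^ 2 := mul_nonneg (abs_nonneg _) hD2.le
    constructor <;> linarith
  · have h3 : E * dt u w ^ 2 ≤ |E| * dt u w ^ 2 := mul_le_mul_of_nonneg_right hEabs hD2.le
    have h4 : 0 ≤ (A * C - B ^ 2) * dt u w ^ 2 := mul_nonneg hd.le hD2.le
    constructor <;> linarith

/-- **(FIN-deg)**, neutral form: only finitely many pairs `(u, w)` of determinant `D ≠ 0` with
`l(u) ≠ 0 ≠ l(w)` satisfy `sign Q(u, w) ≠ sign (l(u) l(w))`. -/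
theorem finite_sign_ne_deg {A B C : ℤ} (hA : 0 < A) (hd : 0 < A * C - B ^ 2) (l₁ l₂ : ℤ) {D : ℤ}
    (hD : D ≠ 0) :
    {p : (ℤ × ℤ) × (ℤ × ℤ) | dt p.1 p.2 = D ∧ l₁ * p.1.1 + l₂ * p.1.2 ≠ 0 ∧
      l₁ * p.2.1 + l₂ * p.2.2 ≠ 0 ∧
      Int.sign (qf A B C p.1 p.2) ≠
        Int.sign ((l₁ * p.1.1 + l₂ * p.1.2) * (l₁ * p.2.1 + l₂ * p.2.2))}.Finite := by
  set X := ((A * C - B ^ 2) + |A * l₂ ^ 2 + l₁ ^ 2 * C - 2 * B * (l₁ * l₂)|) * D ^ 2 with hX
  set K := (A + C) * X with hK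
  refine Set.Finite.subset (((Set.finite_Icc (-K) K).prod (Set.finite_Icc (-K) K)).prod
    ((Set.finite_Icc (-K) K).prod (Set.finite_Icc (-K) K))) ?_
  rintro ⟨u, w⟩ ⟨hdt, hu, hw, hs⟩
  simp only at hdt hu hw hs
  have hdt0 : dt u w ≠ 0 := hdt ▸ hD
  obtain ⟨bu, bw⟩ := deg_bound hA hd l₁ l₂ hdt0 hu hw hs
  rw [hdt] at bu bw
  obtain ⟨h1, h2⟩ := coord_abs_le hA hd bu (le_refl K)
  obtain ⟨h3, h4⟩ := coord_abs_le hA hd bw (le_refl K)
  exact ⟨⟨abs_le.mp h1, abs_le.mp h2⟩, ⟨abs_le.mp h3, abs_le.mp h4⟩⟩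

/-- **(FIN-deg)**, literal shape over `IsectDef_helper11`: only finitely many symbols `{[u], [w]}`
of determinant `d` with no end at the cusp `[c]` separate the base point from `[c]`. -/
theorem fin2_deg (c : Fin 2 → ℤ) (d : ℤ) (hd : d ≠ 0) :
    {p : (Fin 2 → ℤ) × (Fin 2 → ℤ) | H11.det2 p.1 p.2 = d ∧ H11.det2 c p.1 ≠ 0 ∧
      H11.det2 c p.2 ≠ 0 ∧
      Int.sign (H11.bform p.1 p.2) ≠ Int.sign (H11.det2 c p.1 * H11.det2 c p.2)}.Finite := by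
  have hfin := finite_sign_ne_deg (A := 2) (B := 1) (C := 2) (by norm_num) (by norm_num)
    (- c 1) (c 0) hd
  have hpre := hfin.preimage
    (f := fun p : (Fin 2 → ℤ) × (Fin 2 → ℤ) => (toPair p.1, toPair p.2))
    (fun p _ q _ h => Prod.ext (toPair_injective (congrArg Prod.fst h))
      (toPair_injective (congrArg Prod.snd h)))
  refine hpre.subset ?_
  rintro ⟨u, w⟩ ⟨h1, h2, h3, h4⟩
  have e : ∀ v : Fin 2 → ℤ, H11.det2 c v = - c 1 * (toPair v).1 + c 0 * (toPair v).2 := by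
    intro v
    unfold H11.det2 toPair
    ring
  refine ⟨h1, ?_, ?_, ?_⟩
  · simp only
    rw [← e]; exact h2
  · simp only
    rw [← e]; exact h3
  · simp only
    rw [← e, ← e, ← bform_eq_qf]
    exact h4

end Fermat.Agent.S41.H69
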