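import Mathlib
import Fermat.Agent.S41.IsectDef_helper11

/-!
# S41, node (C), route C-I, leaf I2 (helper80): the two finiteness lemmas (FIN2), (FIN3)

For the hexagonal form `bform` and the side function `sg` of `IsectDef_helper11`:

* `fin2` : for an integer matrix `α` of nonzero determinant and `d ≠ 0`, only finitely many pairs
  `(u, w)` of integer vectors with `det2 u w = d` have
  `sign (bform (α u) (α w)) ≠ sign (bform u w)`.
* `fin3` : for nonzero `d₁ d₂ d₃`, only finitely many triples `(u, w, v)` with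
  `det2 u w = d₁`, `det2 w v = d₂`, `det2 v u = d₃` have
  `sg u w + sg w v + sg v u ≠ - sign (d₁ d₂ d₃)`.

Both are proved with explicit boxes: `fin2` from the Lagrange identity for a nonnegative
combination `a B + b (αᵀ B α)` that vanishes on `(u, w)`; `fin3` from the three linear relations
between the Gram entries and `B(v,u) B(w,w) = B(u,w) B(w,v) - 3 d₁ d₂`.
-/

set_option autoImplicit false

namespace Fermat.Agent.S41.H80

open Matrix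
open Fermat.Agent.S41.H11

/-- The squared euclidean norm of an integer vector. -/
def nsq (v : Fin 2 → ℤ) : ℤ := v 0 ^ 2 + v 1 ^ 2

theorem nsq_nonneg (v : Fin 2 → ℤ) : 0 ≤ nsq v := by
  unfold nsq; positivity

theorem abs_le_of_sq_le {t M : ℤ} (h : t ^ 2 ≤ M) : -M ≤ t ∧ t ≤ M := by
  constructor
  · nlinarith [sq_nonneg (t + 1)]
  · nlinarith [sq_nonneg (t - 1)]

theorem finite_nsq_le (M : ℤ) : {v : Fin 2 → ℤ | nsq v ≤ M}.Finite := by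
  have hfin : (Set.pi Set.univ (fun _ : Fin 2 => Set.Icc (-M) M)).Finite :=
    Set.Finite.pi fun _ => Set.finite_Icc _ _
  refine hfin.subset ?_
  intro v hv
  have hv' : v 0 ^ 2 + v 1 ^ 2 ≤ M := hv
  have h0 : v 0 ^ 2 ≤ M := by nlinarith [sq_nonneg (v 1)]
  have h1 : v 1 ^ 2 ≤ M := by nlinarith [sq_nonneg (v 0)]
  intro i _
  have hi : v i ^ 2 ≤ M := by
    fin_cases i
    · exact h0
    · exact h1
  exact Set.mem_Icc.mpr (abs_le_of_sq_le hi)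

theorem mulVec_zero' (α : Matrix (Fin 2) (Fin 2) ℤ) (u : Fin 2 → ℤ) :
    (α *ᵥ u) 0 = α 0 0 * u 0 + α 0 1 * u 1 := by
  simp [Matrix.mulVec, dotProduct, Fin.sum_univ_two]

theorem mulVec_one' (α : Matrix (Fin 2) (Fin 2) ℤ) (u : Fin 2 → ℤ) :
    (α *ᵥ u) 1 = α 1 0 * u 0 + α 1 1 * u 1 := by
  simp [Matrix.mulVec, dotProduct, Fin.sum_univ_two]

/-- If two integers have different signs, then a nonnegative combination with positive total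
weight kills them. -/
theorem exists_weights_of_sign_ne {x y : ℤ} (h : Int.sign y ≠ Int.sign x) :
    ∃ a b : ℤ, 0 ≤ a ∧ 0 ≤ b ∧ 0 < a + b ∧ a * x + b * y = 0 := by
  rcases lt_trichotomy x 0 with hx | hx | hx <;> rcases lt_trichotomy y 0 with hy | hy | hy
  · exact absurd (by rw [Int.sign_eq_neg_one_of_neg hx, Int.sign_eq_neg_one_of_neg hy]) h
  · exact ⟨0, 1, le_refl _, by norm_num, by norm_num, by simp [hy]⟩
  · exact ⟨y, -x, hy.le, by linarith, by linarith, by ring⟩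
  · exact ⟨1, 0, by norm_num, le_refl _, by norm_num, by simp [hx]⟩
  · exact absurd (by rw [hx, hy]) h
  · exact ⟨1, 0, by norm_num, le_refl _, by norm_num, by simp [hx]⟩
  · exact ⟨-y, x, by linarith, hx.le, by linarith, by ring⟩
  · exact ⟨0, 1, le_refl _, by norm_num, by norm_num, by simp [hy]⟩
  · exact absurd (by rw [Int.sign_eq_one_of_pos hx, Int.sign_eq_one_of_pos hy]) h

theorem eq_zero_of_sq_add_sq_le_zero {s t : ℤ} (h : s ^ 2 + t ^ 2 ≤ 0) : s = 0 ∧ t = 0 := by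
  have hs : s ^ 2 ≤ 0 := by nlinarith [sq_nonneg t]
  have ht : t ^ 2 ≤ 0 := by nlinarith [sq_nonneg s]
  exact ⟨pow_eq_zero_iff (two_ne_zero) |>.mp (le_antisymm hs (sq_nonneg s)),
    pow_eq_zero_iff (two_ne_zero) |>.mp (le_antisymm ht (sq_nonneg t))⟩

theorem one_le_sq_add_sq_left {u0 u1 w0 w1 : ℤ} (h : u0 * w1 - u1 * w0 ≠ 0) :
    1 ≤ u0 ^ 2 + u1 ^ 2 := by
  by_contra hcon
  have h0 : u0 ^ 2 + u1 ^ 2 ≤ 0 := by linarith
  obtain ⟨h1, h2⟩ := eq_zero_of_sq_add_sq_le_zero h0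
  apply h; rw [h1, h2]; ring

theorem one_le_sq_add_sq_right {u0 u1 w0 w1 : ℤ} (h : u0 * w1 - u1 * w0 ≠ 0) :
    1 ≤ w0 ^ 2 + w1 ^ 2 := by
  by_contra hcon
  have h0 : w0 ^ 2 + w1 ^ 2 ≤ 0 := by linarith
  obtain ⟨h1, h2⟩ := eq_zero_of_sq_add_sq_le_zero h0
  apply h; rw [h1, h2]; ring

theorem one_le_sumsq_of_det {p q r s : ℤ} (h : p * s - q * r ≠ 0) :
    1 ≤ p ^ 2 + q ^ 2 + r ^ 2 + s ^ 2 := by
  have := one_le_sq_add_sq_left (u0 := p) (u1 := q) (w0 := r) (w1 := s)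
    (by intro h'; apply h; linarith)
  nlinarith [sq_nonneg r, sq_nonneg s]

/-- The abstract inequality behind `fin2`. -/
theorem key_bound (a b x y d D K μ Buu Bww Cuu Cww nu nw : ℤ)
    (ha : 0 ≤ a) (hb : 0 ≤ b) (hab : 0 < a + b) (h0 : a * x + b * y = 0)
    (hL1 : Buu * Bww = x ^ 2 + 3 * d ^ 2) (hL2 : Cuu * Cww = y ^ 2 + 3 * D ^ 2 * d ^ 2)
    (hL3 : Buu * Cww + Cuu * Bww = 2 * x * y + μ * d ^ 2)
    (hμ0 : 0 ≤ μ) (hK1 : 1 ≤ K) (hnu0 : 0 ≤ nu) (hnw0 : 0 ≤ nw)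
    (hBu : nu ≤ Buu) (hBw : nw ≤ Bww) (hCu : nu ≤ K * Cuu) (hCw : nw ≤ K * Cww) :
    nu * nw ≤ K ^ 2 * d ^ 2 * (3 + 3 * D ^ 2 + μ) := by
  have hQ : (a * Buu + b * Cuu) * (a * Bww + b * Cww)
      = (a * x + b * y) ^ 2 + d ^ 2 * (3 * a ^ 2 + 3 * D ^ 2 * b ^ 2 + a * b * μ) := by
    linear_combination a ^ 2 * hL1 + b ^ 2 * hL2 + a * b * hL3
  rw [h0] at hQ
  have hBu' : nu ≤ K * Buu := by
    have h1 : 0 ≤ (K - 1) * Buu := mul_nonneg (by linarith) (by linarith)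
    linarith
  have hBw' : nw ≤ K * Bww := by
    have h1 : 0 ≤ (K - 1) * Bww := mul_nonneg (by linarith) (by linarith)
    linarith
  have hQu : (a + b) * nu ≤ K * (a * Buu + b * Cuu) := by
    have h1 := mul_le_mul_of_nonneg_left hBu' ha
    have h2 := mul_le_mul_of_nonneg_left hCu hb
    linarith
  have hQw : (a + b) * nw ≤ K * (a * Bww + b * Cww) := by
    have h1 := mul_le_mul_of_nonneg_left hBw' ha
    have h2 := mul_le_mul_of_nonneg_left hCw hb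
    linarith
  have hprod : ((a + b) * nu) * ((a + b) * nw)
      ≤ (K * (a * Buu + b * Cuu)) * (K * (a * Bww + b * Cww)) := by
    apply mul_le_mul hQu hQw
    · exact mul_nonneg hab.le hnw0
    · exact le_trans (mul_nonneg hab.le hnu0) hQu
  have hup : 3 * a ^ 2 + 3 * D ^ 2 * b ^ 2 + a * b * μ ≤ (3 + 3 * D ^ 2 + μ) * (a + b) ^ 2 := by
    have hab0 : 0 ≤ a * b := mul_nonneg ha hb
    have e : (3 + 3 * D ^ 2 + μ) * (a + b) ^ 2 - (3 * a ^ 2 + 3 * D ^ 2 * b ^ 2 + a * b * μ)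
        = 3 * b ^ 2 + 6 * (a * b) + 3 * D ^ 2 * a ^ 2 + 6 * D ^ 2 * (a * b)
          + μ * a ^ 2 + μ * b ^ 2 + μ * (a * b) := by ring
    have : 0 ≤ (3 + 3 * D ^ 2 + μ) * (a + b) ^ 2 - (3 * a ^ 2 + 3 * D ^ 2 * b ^ 2 + a * b * μ) := by
      rw [e]; positivity
    linarith
  have hmain : (a + b) ^ 2 * (nu * nw) ≤ (a + b) ^ 2 * (K ^ 2 * d ^ 2 * (3 + 3 * D ^ 2 + μ)) := by
    have h1 : (a + b) ^ 2 * (nu * nw) = ((a + b) * nu) * ((a + b) * nw) := by ring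
    have h2 : (K * (a * Buu + b * Cuu)) * (K * (a * Bww + b * Cww))
        = K ^ 2 * (d ^ 2 * (3 * a ^ 2 + 3 * D ^ 2 * b ^ 2 + a * b * μ)) := by
      have : (K * (a * Buu + b * Cuu)) * (K * (a * Bww + b * Cww))
          = K ^ 2 * ((a * Buu + b * Cuu) * (a * Bww + b * Cww)) := by ring
      rw [this, hQ]; ring
    have h3 : K ^ 2 * (d ^ 2 * (3 * a ^ 2 + 3 * D ^ 2 * b ^ 2 + a * b * μ))
        ≤ K ^ 2 * (d ^ 2 * ((3 + 3 * D ^ 2 + μ) * (a + b) ^ 2)) := by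
      apply mul_le_mul_of_nonneg_left _ (by positivity)
      apply mul_le_mul_of_nonneg_left hup (by positivity)
    calc (a + b) ^ 2 * (nu * nw) = ((a + b) * nu) * ((a + b) * nw) := h1
      _ ≤ (K * (a * Buu + b * Cuu)) * (K * (a * Bww + b * Cww)) := hprod
      _ = K ^ 2 * (d ^ 2 * (3 * a ^ 2 + 3 * D ^ 2 * b ^ 2 + a * b * μ)) := h2
      _ ≤ K ^ 2 * (d ^ 2 * ((3 + 3 * D ^ 2 + μ) * (a + b) ^ 2)) := h3
      _ = (a + b) ^ 2 * (K ^ 2 * d ^ 2 * (3 + 3 * D ^ 2 + μ)) := by ring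
  exact le_of_mul_le_mul_left hmain (by positivity)

/-- `K · |α v|² ≥ |v|²` in the form needed: `K * B(αv, αv) ≥ |v|²`. -/
theorem lower_C (p q r s v0 v1 : ℤ) (hD : p * s - q * r ≠ 0) :
    v0 ^ 2 + v1 ^ 2 ≤ (p ^ 2 + q ^ 2 + r ^ 2 + s ^ 2) *
      (2 * (p * v0 + q * v1) * (p * v0 + q * v1) + 2 * (p * v0 + q * v1) * (r * v0 + s * v1)
        + 2 * (r * v0 + s * v1) * (r * v0 + s * v1)) := by
  have hK1 := one_le_sumsq_of_det hD
  have hD2 : 1 ≤ (p * s - q * r) ^ 2 := by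
    have : 0 < (p * s - q * r) ^ 2 := by positivity
    linarith
  have e : (p ^ 2 + q ^ 2 + r ^ 2 + s ^ 2) *
      (2 * (p * v0 + q * v1) * (p * v0 + q * v1) + 2 * (p * v0 + q * v1) * (r * v0 + s * v1)
        + 2 * (r * v0 + s * v1) * (r * v0 + s * v1))
      = (p * s - q * r) ^ 2 * (v0 ^ 2 + v1 ^ 2)
        + (s * (r * v0 + s * v1) + q * (p * v0 + q * v1)) ^ 2
        + (p * (p * v0 + q * v1) + r * (r * v0 + s * v1)) ^ 2
        + (p ^ 2 + q ^ 2 + r ^ 2 + s ^ 2) * ((p * v0 + q * v1) + (r * v0 + s * v1)) ^ 2 := by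
    ring
  rw [e]
  have h1 : v0 ^ 2 + v1 ^ 2 ≤ (p * s - q * r) ^ 2 * (v0 ^ 2 + v1 ^ 2) := by
    have : 0 ≤ ((p * s - q * r) ^ 2 - 1) * (v0 ^ 2 + v1 ^ 2) :=
      mul_nonneg (by linarith) (by positivity)
    linarith
  have h2 : 0 ≤ (s * (r * v0 + s * v1) + q * (p * v0 + q * v1)) ^ 2 := sq_nonneg _
  have h3 : 0 ≤ (p * (p * v0 + q * v1) + r * (r * v0 + s * v1)) ^ 2 := sq_nonneg _
  have h4 : 0 ≤ (p ^ 2 + q ^ 2 + r ^ 2 + s ^ 2) * ((p * v0 + q * v1) + (r * v0 + s * v1)) ^ 2 :=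
    mul_nonneg (by linarith) (sq_nonneg _)
  linarith

theorem lower_B (v0 v1 : ℤ) : v0 ^ 2 + v1 ^ 2 ≤ 2 * v0 * v0 + 2 * v0 * v1 + 2 * v1 * v1 := by
  nlinarith [sq_nonneg (v0 + v1)]

/-- The scalar core of `fin2`. -/
theorem fin2_core (p q r s u0 u1 w0 w1 : ℤ) (hD : p * s - q * r ≠ 0)
    (hsign : Int.sign (2 * (p * u0 + q * u1) * (p * w0 + q * w1) + (p * u0 + q * u1) * (r * w0 + s * w1)
        + (r * u0 + s * u1) * (p * w0 + q * w1) + 2 * (r * u0 + s * u1) * (r * w0 + s * w1))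
      ≠ Int.sign (2 * u0 * w0 + u0 * w1 + u1 * w0 + 2 * u1 * w1)) :
    (u0 ^ 2 + u1 ^ 2) * (w0 ^ 2 + w1 ^ 2) ≤
      (p ^ 2 + q ^ 2 + r ^ 2 + s ^ 2) ^ 2 * (u0 * w1 - u1 * w0) ^ 2 *
        (3 + 3 * (p * s - q * r) ^ 2 +
          ((p ^ 2 + r ^ 2 + (p + r) ^ 2) + (q ^ 2 + s ^ 2 + (q + s) ^ 2)
            + ((p - q) ^ 2 + (r - s) ^ 2 + (p - q + (r - s)) ^ 2))) := by
  obtain ⟨a, b, ha, hb, hab, h0⟩ := exists_weights_of_sign_ne hsign
  refine key_bound a b _ _ (u0 * w1 - u1 * w0) (p * s - q * r) (p ^ 2 + q ^ 2 + r ^ 2 + s ^ 2) _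
    (2 * u0 * u0 + 2 * u0 * u1 + 2 * u1 * u1) (2 * w0 * w0 + 2 * w0 * w1 + 2 * w1 * w1)
    (2 * (p * u0 + q * u1) * (p * u0 + q * u1) + 2 * (p * u0 + q * u1) * (r * u0 + s * u1)
        + 2 * (r * u0 + s * u1) * (r * u0 + s * u1))
    (2 * (p * w0 + q * w1) * (p * w0 + q * w1) + 2 * (p * w0 + q * w1) * (r * w0 + s * w1)
        + 2 * (r * w0 + s * w1) * (r * w0 + s * w1))
    _ _ ha hb hab h0 ?_ ?_ ?_ ?_ (one_le_sumsq_of_det hD) (by positivity) (by positivity)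
    (lower_B u0 u1) (lower_B w0 w1) (lower_C p q r s u0 u1 hD) (lower_C p q r s w0 w1 hD)
  · ring
  · ring
  · ring
  · positivity

/-- (FIN2): for an integer matrix `α` of nonzero determinant and `d ≠ 0`, only finitely many
pairs `(u, w)` with `det2 u w = d` have `sign B(α u, α w) ≠ sign B(u, w)`. -/
theorem fin2 (α : Matrix (Fin 2) (Fin 2) ℤ) (hα : α.det ≠ 0) (d : ℤ) (hd : d ≠ 0) :
    {p : (Fin 2 → ℤ) × (Fin 2 → ℤ) | det2 p.1 p.2 = d ∧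
      Int.sign (bform (α *ᵥ p.1) (α *ᵥ p.2)) ≠ Int.sign (bform p.1 p.2)}.Finite := by
  set M : ℤ := (α 0 0 ^ 2 + α 0 1 ^ 2 + α 1 0 ^ 2 + α 1 1 ^ 2) ^ 2 * d ^ 2 *
        (3 + 3 * (α 0 0 * α 1 1 - α 0 1 * α 1 0) ^ 2 +
          ((α 0 0 ^ 2 + α 1 0 ^ 2 + (α 0 0 + α 1 0) ^ 2) + (α 0 1 ^ 2 + α 1 1 ^ 2 + (α 0 1 + α 1 1) ^ 2)
            + ((α 0 0 - α 0 1) ^ 2 + (α 1 0 - α 1 1) ^ 2 + (α 0 0 - α 0 1 + (α 1 0 - α 1 1)) ^ 2)))
    with hM
  have hfin : ({v : Fin 2 → ℤ | nsq v ≤ M} ×ˢ {v : Fin 2 → ℤ | nsq v ≤ M}).Finite :=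
    (finite_nsq_le M).prod (finite_nsq_le M)
  refine hfin.subset ?_
  rintro ⟨u, w⟩ ⟨hdet, hsign⟩
  have hdet' : u 0 * w 1 - u 1 * w 0 = d := hdet
  have hD : α 0 0 * α 1 1 - α 0 1 * α 1 0 ≠ 0 := by
    rw [Matrix.det_fin_two] at hα; exact hα
  have hd' : u 0 * w 1 - u 1 * w 0 ≠ 0 := by rw [hdet']; exact hd
  have hsign' : Int.sign (2 * (α 0 0 * u 0 + α 0 1 * u 1) * (α 0 0 * w 0 + α 0 1 * w 1)
        + (α 0 0 * u 0 + α 0 1 * u 1) * (α 1 0 * w 0 + α 1 1 * w 1)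
        + (α 1 0 * u 0 + α 1 1 * u 1) * (α 0 0 * w 0 + α 0 1 * w 1)
        + 2 * (α 1 0 * u 0 + α 1 1 * u 1) * (α 1 0 * w 0 + α 1 1 * w 1))
      ≠ Int.sign (2 * u 0 * w 0 + u 0 * w 1 + u 1 * w 0 + 2 * u 1 * w 1) := by
    simpa only [bform, mulVec_zero', mulVec_one'] using hsign
  have hcore := fin2_core (α 0 0) (α 0 1) (α 1 0) (α 1 1) (u 0) (u 1) (w 0) (w 1) hD hsign'
  rw [hdet'] at hcore
  have hu1 := one_le_sq_add_sq_left hd'
  have hw1 := one_le_sq_add_sq_right hd'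
  have hu : nsq u ≤ M := by
    have : u 0 ^ 2 + u 1 ^ 2 ≤ (u 0 ^ 2 + u 1 ^ 2) * (w 0 ^ 2 + w 1 ^ 2) := by nlinarith
    exact le_trans this hcore
  have hw : nsq w ≤ M := by
    have : w 0 ^ 2 + w 1 ^ 2 ≤ (u 0 ^ 2 + u 1 ^ 2) * (w 0 ^ 2 + w 1 ^ 2) := by nlinarith
    exact le_trans this hcore
  exact ⟨hu, hw⟩

/-- The sorted case of (FIN3), in abstract integers. -/
theorem core3 (D1 D2 D3 U W V X Y Z : ℤ) (h1 : 0 < D1) (h2 : 0 < D2) (h3 : 0 < D3)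
    (hU : 0 < U) (hW : 0 < W) (hV : 0 < V)
    (i : D2 * X + D1 * Y = D3 * W) (ii : D3 * X - D1 * Z = D2 * U) (iii : D3 * Y - D2 * Z = D1 * V)
    (iv : Z * W = X * Y - 3 * D1 * D2) (v : U * W = X ^ 2 + 3 * D1 ^ 2)
    (vi : W * V = Y ^ 2 + 3 * D2 ^ 2)
    (hne : Int.sign X + Int.sign Y - Int.sign Z ≠ 1) :
    U * W ≤ 7 * D1 ^ 2 ∨ W * V ≤ 7 * D2 ^ 2 := by
  -- sign facts
  have hXZ : X ≤ 0 → Z < 0 := by
    intro hX
    by_contra hZ
    rw [not_lt] at hZ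
    have : D3 * X - D1 * Z ≤ 0 := by
      have := mul_nonneg h1.le hZ
      have := mul_nonpos_of_nonneg_of_nonpos h3.le hX
      linarith
    have : 0 < D2 * U := mul_pos h2 hU
    linarith
  have hYZ : Y ≤ 0 → Z < 0 := by
    intro hY
    by_contra hZ
    rw [not_lt] at hZ
    have : D3 * Y - D2 * Z ≤ 0 := by
      have := mul_nonneg h2.le hZ
      have := mul_nonpos_of_nonneg_of_nonpos h3.le hY
      linarith
    have : 0 < D1 * V := mul_pos h1 hV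
    linarith
  have hXY : 0 < X ∨ 0 < Y := by
    by_contra hcon
    rw [not_or, not_lt, not_lt] at hcon
    have := mul_nonpos_of_nonneg_of_nonpos h2.le hcon.1
    have := mul_nonpos_of_nonneg_of_nonpos h1.le hcon.2
    have : 0 < D3 * W := mul_pos h3 hW
    linarith
  -- the exceptional configurations have X ≥ 0, Y ≥ 0, Z ≤ 0
  have hsigns : 0 ≤ X ∧ 0 ≤ Y ∧ Z ≤ 0 := by
    rcases lt_trichotomy X 0 with hX | hX | hX
    · -- X < 0 : then Z < 0, Y > 0, sum = 1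
      exfalso
      have hZ := hXZ hX.le
      have hY : 0 < Y := by
        rcases hXY with h | h
        · linarith
        · exact h
      apply hne
      rw [Int.sign_eq_neg_one_of_neg hX, Int.sign_eq_one_of_pos hY, Int.sign_eq_neg_one_of_neg hZ]
      norm_num
    · have hZ := hXZ hX.le
      have hY : 0 < Y := by
        rcases hXY with h | h
        · linarith
        · exact h
      exact ⟨hX.ge, hY.le, hZ.le⟩
    · rcases lt_trichotomy Y 0 with hY | hY | hY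
      · exfalso
        have hZ := hYZ hY.le
        apply hne
        rw [Int.sign_eq_one_of_pos hX, Int.sign_eq_neg_one_of_neg hY, Int.sign_eq_neg_one_of_neg hZ]
        norm_num
      · have hZ := hYZ hY.le
        exact ⟨hX.le, hY.ge, hZ.le⟩
      · refine ⟨hX.le, hY.le, ?_⟩
        by_contra hZ
        rw [not_le] at hZ
        apply hne
        rw [Int.sign_eq_one_of_pos hX, Int.sign_eq_one_of_pos hY, Int.sign_eq_one_of_pos hZ]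
        norm_num
  obtain ⟨hX0, hY0, hZ0⟩ := hsigns
  have hXYle : X * Y ≤ 3 * D1 * D2 := by
    have : Z * W ≤ 0 := mul_nonpos_of_nonpos_of_nonneg hZ0 hW.le
    linarith
  have hor : X ≤ 2 * D1 ∨ Y ≤ 2 * D2 := by
    by_contra hcon
    rw [not_or, not_le, not_le] at hcon
    have hX1 : 2 * D1 + 1 ≤ X := by linarith [hcon.1]
    have hY1 : 2 * D2 + 1 ≤ Y := by linarith [hcon.2]
    have hp : (2 * D1 + 1) * (2 * D2 + 1) ≤ X * Y :=
      mul_le_mul hX1 hY1 (by linarith) (by linarith)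
    have : 0 < D1 * D2 := mul_pos h1 h2
    nlinarith
  rcases hor with hX2 | hY2
  · left
    have : X ^ 2 ≤ 4 * D1 ^ 2 := by nlinarith
    linarith
  · right
    have : Y ^ 2 ≤ 4 * D2 ^ 2 := by nlinarith
    linarith

theorem sign_unit_mul {σ : ℤ} (hσ : σ = 1 ∨ σ = -1) (x : ℤ) : Int.sign (σ * x) = σ * Int.sign x := by
  rcases hσ with rfl | rfl <;> simp

/-- (FIN3) in abstract integers, for arbitrary signs of the determinants. -/
theorem core3' (σ1 σ2 σ3 d1 d2 d3 U W V X Y Z : ℤ)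
    (hσ1 : σ1 = 1 ∨ σ1 = -1) (hσ2 : σ2 = 1 ∨ σ2 = -1) (hσ3 : σ3 = 1 ∨ σ3 = -1)
    (hp1 : 0 < σ1 * d1) (hp2 : 0 < σ2 * d2) (hp3 : 0 < σ3 * d3)
    (hU : 0 < U) (hW : 0 < W) (hV : 0 < V)
    (R1 : d2 * U + d3 * X + d1 * Z = 0) (R2 : d2 * X + d3 * W + d1 * Y = 0)
    (R3 : d2 * Z + d3 * Y + d1 * V = 0)
    (iv : Z * W = X * Y - 3 * d1 * d2) (v : U * W = X ^ 2 + 3 * d1 ^ 2)
    (vi : W * V = Y ^ 2 + 3 * d2 ^ 2)
    (hne : σ1 * Int.sign X + σ2 * Int.sign Y + σ3 * Int.sign Z ≠ -(σ1 * σ2 * σ3)) :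
    U * W ≤ 7 * d1 ^ 2 ∨ W * V ≤ 7 * d2 ^ 2 := by
  have e1 : σ1 ^ 2 = 1 := by rcases hσ1 with rfl | rfl <;> norm_num
  have e2 : σ2 ^ 2 = 1 := by rcases hσ2 with rfl | rfl <;> norm_num
  have e3 : σ3 ^ 2 = 1 := by rcases hσ3 with rfl | rfl <;> norm_num
  have h23 : -(σ2 * σ3) = 1 ∨ -(σ2 * σ3) = -1 := by
    rcases hσ2 with rfl | rfl <;> rcases hσ3 with rfl | rfl <;> norm_num
  have h13 : -(σ1 * σ3) = 1 ∨ -(σ1 * σ3) = -1 := by
    rcases hσ1 with rfl | rfl <;> rcases hσ3 with rfl | rfl <;> norm_num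
  have h12 : σ1 * σ2 = 1 ∨ σ1 * σ2 = -1 := by
    rcases hσ1 with rfl | rfl <;> rcases hσ2 with rfl | rfl <;> norm_num
  have key := core3 (σ1 * d1) (σ2 * d2) (σ3 * d3) U W V (-(σ2 * σ3) * X) (-(σ1 * σ3) * Y)
    (σ1 * σ2 * Z) hp1 hp2 hp3 hU hW hV
    (by linear_combination (-σ3) * R2 - σ3 * d2 * X * e2 - σ3 * d1 * Y * e1)
    (by linear_combination (-σ2) * R1 - σ2 * d3 * X * e3 - σ2 * d1 * Z * e1)
    (by linear_combination (-σ1) * R3 - σ1 * d3 * Y * e3 - σ1 * d2 * Z * e2)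
    (by linear_combination (σ1 * σ2) * iv - σ1 * σ2 * X * Y * e3)
    (by linear_combination v - X ^ 2 * σ3 ^ 2 * e2 - X ^ 2 * e3 - 3 * d1 ^ 2 * e1)
    (by linear_combination vi - Y ^ 2 * σ3 ^ 2 * e1 - Y ^ 2 * e3 - 3 * d2 ^ 2 * e2)
    (by
      rw [sign_unit_mul h23, sign_unit_mul h13, sign_unit_mul h12]
      intro h
      apply hne
      linear_combination (-(σ1 * σ2 * σ3)) * h
        - (σ1 * Int.sign X * σ3 ^ 2) * e2 - (σ1 * Int.sign X) * e3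
        - (σ2 * Int.sign Y * σ3 ^ 2) * e1 - (σ2 * Int.sign Y) * e3
        - (σ3 * Int.sign Z * σ2 ^ 2) * e1 - (σ3 * Int.sign Z) * e2)
  have q1 : (σ1 * d1) ^ 2 = d1 ^ 2 := by linear_combination d1 ^ 2 * e1
  have q2 : (σ2 * d2) ^ 2 = d2 ^ 2 := by linear_combination d2 ^ 2 * e2
  rw [q1, q2] at key
  exact key

theorem sign_mul_self_pos {d : ℤ} (hd : d ≠ 0) :
    (Int.sign d = 1 ∨ Int.sign d = -1) ∧ 0 < Int.sign d * d := by
  rcases lt_trichotomy d 0 with h | h | h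
  · rw [Int.sign_eq_neg_one_of_neg h]; exact ⟨Or.inr rfl, by linarith⟩
  · exact absurd h hd
  · rw [Int.sign_eq_one_of_pos h]; exact ⟨Or.inl rfl, by linarith⟩

theorem bform_self_pos {u : Fin 2 → ℤ} (h : 1 ≤ u 0 ^ 2 + u 1 ^ 2) : 0 < bform u u := by
  have := lower_B (u 0) (u 1)
  have e : bform u u = 2 * u 0 * u 0 + 2 * u 0 * u 1 + 2 * u 1 * u 1 := by
    simp only [bform]; ring
  rw [e]; linarith

theorem nsq_le_bform (u : Fin 2 → ℤ) : nsq u ≤ bform u u := by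
  have := lower_B (u 0) (u 1)
  have e : bform u u = 2 * u 0 * u 0 + 2 * u 0 * u 1 + 2 * u 1 * u 1 := by
    simp only [bform]; ring
  rw [e]; exact this

/-- If `d1 v = -(d2 u + d3 w)` then `|v|²` is bounded by `|u|²`, `|w|²`. -/
theorem third_bound (d1 d2 d3 u0 u1 w0 w1 v0 v1 m : ℤ) (hd1 : d1 ≠ 0)
    (r0 : d2 * u0 + d3 * w0 + d1 * v0 = 0) (r1 : d2 * u1 + d3 * w1 + d1 * v1 = 0)
    (hu : u0 ^ 2 + u1 ^ 2 ≤ m) (hw : w0 ^ 2 + w1 ^ 2 ≤ m) :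
    v0 ^ 2 + v1 ^ 2 ≤ 2 * (d2 ^ 2 + d3 ^ 2) * m := by
  have hd1' : 1 ≤ d1 ^ 2 := by
    have : 0 < d1 ^ 2 := by positivity
    linarith
  have hm : 0 ≤ m := le_trans (by positivity) hu
  have e0 : d1 * v0 = -(d2 * u0 + d3 * w0) := by linarith
  have e1 : d1 * v1 = -(d2 * u1 + d3 * w1) := by linarith
  have h1 : d1 ^ 2 * (v0 ^ 2 + v1 ^ 2) = (d2 * u0 + d3 * w0) ^ 2 + (d2 * u1 + d3 * w1) ^ 2 := by
    have : d1 ^ 2 * (v0 ^ 2 + v1 ^ 2) = (d1 * v0) ^ 2 + (d1 * v1) ^ 2 := by ring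
    rw [this, e0, e1]; ring
  have h2 : (d2 * u0 + d3 * w0) ^ 2 + (d2 * u1 + d3 * w1) ^ 2
      ≤ 2 * d2 ^ 2 * (u0 ^ 2 + u1 ^ 2) + 2 * d3 ^ 2 * (w0 ^ 2 + w1 ^ 2) := by
    nlinarith [sq_nonneg (d2 * u0 - d3 * w0), sq_nonneg (d2 * u1 - d3 * w1)]
  have h3 : 2 * d2 ^ 2 * (u0 ^ 2 + u1 ^ 2) + 2 * d3 ^ 2 * (w0 ^ 2 + w1 ^ 2)
      ≤ 2 * (d2 ^ 2 + d3 ^ 2) * m := by
    have a1 : d2 ^ 2 * (u0 ^ 2 + u1 ^ 2) ≤ d2 ^ 2 * m := mul_le_mul_of_nonneg_left hu (by positivity)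
    have a2 : d3 ^ 2 * (w0 ^ 2 + w1 ^ 2) ≤ d3 ^ 2 * m := mul_le_mul_of_nonneg_left hw (by positivity)
    linarith
  have h4 : v0 ^ 2 + v1 ^ 2 ≤ d1 ^ 2 * (v0 ^ 2 + v1 ^ 2) := by
    have : 0 ≤ (d1 ^ 2 - 1) * (v0 ^ 2 + v1 ^ 2) := mul_nonneg (by linarith) (by positivity)
    linarith
  linarith

/-- From `U * W ≤ c` with `U, W ≥ 1`. -/
theorem le_of_mul_le_of_one_le {U W c : ℤ} (hU : 1 ≤ U) (hW : 1 ≤ W) (h : U * W ≤ c) :
    U ≤ c ∧ W ≤ c := by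
  constructor
  · nlinarith
  · nlinarith

/-- (FIN3): for nonzero `d₁, d₂, d₃`, only finitely many triples `(u, w, v)` with the prescribed
determinants violate the triangle relation for `sg`. -/
theorem fin3 (d₁ d₂ d₃ : ℤ) (h₁ : d₁ ≠ 0) (h₂ : d₂ ≠ 0) (h₃ : d₃ ≠ 0) :
    {t : (Fin 2 → ℤ) × (Fin 2 → ℤ) × (Fin 2 → ℤ) | det2 t.1 t.2.1 = d₁ ∧ det2 t.2.1 t.2.2 = d₂ ∧
      det2 t.2.2 t.1 = d₃ ∧
      sg t.1 t.2.1 + sg t.2.1 t.2.2 + sg t.2.2 t.1 ≠ - Int.sign (d₁ * d₂ * d₃)}.Finite := by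
  set M : ℤ := 14 * (d₁ ^ 2 + d₂ ^ 2 + d₃ ^ 2) * (7 * (d₁ ^ 2 + d₂ ^ 2 + d₃ ^ 2)) with hM
  have hfin : ({v : Fin 2 → ℤ | nsq v ≤ M} ×ˢ ({v : Fin 2 → ℤ | nsq v ≤ M} ×ˢ
      {v : Fin 2 → ℤ | nsq v ≤ M})).Finite :=
    (finite_nsq_le M).prod ((finite_nsq_le M).prod (finite_nsq_le M))
  refine hfin.subset ?_
  rintro ⟨u, w, v⟩ ⟨hd1, hd2, hd3, hne⟩
  have hd1' : u 0 * w 1 - u 1 * w 0 = d₁ := hd1
  have hd2' : w 0 * v 1 - w 1 * v 0 = d₂ := hd2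
  have hd3' : v 0 * u 1 - v 1 * u 0 = d₃ := hd3
  -- nonvanishing
  have hu1 : 1 ≤ u 0 ^ 2 + u 1 ^ 2 := one_le_sq_add_sq_left (by rw [hd1']; exact h₁)
  have hw1 : 1 ≤ w 0 ^ 2 + w 1 ^ 2 := one_le_sq_add_sq_right (by rw [hd1']; exact h₁)
  have hv1 : 1 ≤ v 0 ^ 2 + v 1 ^ 2 := one_le_sq_add_sq_right (by rw [hd2']; exact h₂)
  have hU := bform_self_pos hu1
  have hW := bform_self_pos hw1
  have hV := bform_self_pos hv1
  obtain ⟨hσ1, hp1⟩ := sign_mul_self_pos h₁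
  obtain ⟨hσ2, hp2⟩ := sign_mul_self_pos h₂
  obtain ⟨hσ3, hp3⟩ := sign_mul_self_pos h₃
  -- linear relation between the three vectors
  have r0 : d₂ * u 0 + d₃ * w 0 + d₁ * v 0 = 0 := by rw [← hd1', ← hd2', ← hd3']; ring
  have r1 : d₂ * u 1 + d₃ * w 1 + d₁ * v 1 = 0 := by rw [← hd1', ← hd2', ← hd3']; ring
  have R1 : d₂ * bform u u + d₃ * bform u w + d₁ * bform v u = 0 := by
    rw [← hd1', ← hd2', ← hd3']; simp only [bform]; ring
  have R2 : d₂ * bform u w + d₃ * bform w w + d₁ * bform w v = 0 := by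
    rw [← hd1', ← hd2', ← hd3']; simp only [bform]; ring
  have R3 : d₂ * bform v u + d₃ * bform w v + d₁ * bform v v = 0 := by
    rw [← hd1', ← hd2', ← hd3']; simp only [bform]; ring
  have iv : bform v u * bform w w = bform u w * bform w v - 3 * d₁ * d₂ := by
    rw [← hd1', ← hd2']; simp only [bform]; ring
  have v' : bform u u * bform w w = bform u w ^ 2 + 3 * d₁ ^ 2 := by
    rw [← hd1']; simp only [bform]; ring
  have vi : bform w w * bform v v = bform w v ^ 2 + 3 * d₂ ^ 2 := by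
    rw [← hd2']; simp only [bform]; ring
  have hne' : Int.sign d₁ * Int.sign (bform u w) + Int.sign d₂ * Int.sign (bform w v)
      + Int.sign d₃ * Int.sign (bform v u) ≠ -(Int.sign d₁ * Int.sign d₂ * Int.sign d₃) := by
    have : sg u w + sg w v + sg v u ≠ - Int.sign (d₁ * d₂ * d₃) := hne
    simpa only [sg, hd1, hd2, hd3, Int.sign_mul] using this
  have key := core3' (Int.sign d₁) (Int.sign d₂) (Int.sign d₃) d₁ d₂ d₃ (bform u u) (bform w w)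
    (bform v v) (bform u w) (bform w v) (bform v u) hσ1 hσ2 hσ3 hp1 hp2 hp3 hU hW hV R1 R2 R3
    iv v' vi hne'
  have hnu := nsq_le_bform u
  have hnw := nsq_le_bform w
  have hnv := nsq_le_bform v
  have hS : 0 ≤ d₁ ^ 2 + d₂ ^ 2 + d₃ ^ 2 := by positivity
  have hd1sq : 1 ≤ d₁ ^ 2 := by
    have : 0 < d₁ ^ 2 := by positivity
    linarith
  have hd2sq : 1 ≤ d₂ ^ 2 := by
    have : 0 < d₂ ^ 2 := by positivity
    linarith
  have hd3sq : 1 ≤ d₃ ^ 2 := by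
    have : 0 < d₃ ^ 2 := by positivity
    linarith
  set m : ℤ := 7 * (d₁ ^ 2 + d₂ ^ 2 + d₃ ^ 2) with hm
  have hm1 : 1 ≤ m := by rw [hm]; linarith
  have hmM : m ≤ M := by
    rw [hM]
    have : 0 ≤ (14 * (d₁ ^ 2 + d₂ ^ 2 + d₃ ^ 2) - 1) * m := mul_nonneg (by linarith) (by linarith)
    linarith
  have hbd : ∀ a b : ℤ, 0 ≤ a → 0 ≤ b → a + b ≤ d₁ ^ 2 + d₂ ^ 2 + d₃ ^ 2 → 2 * (a + b) * m ≤ M := by
    intro a b _ _ hab
    rw [hM]
    have : 0 ≤ (14 * (d₁ ^ 2 + d₂ ^ 2 + d₃ ^ 2) - 2 * (a + b)) * m :=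
      mul_nonneg (by linarith) (by linarith)
    linarith
  rcases key with hUW | hWV
  · -- u, w bounded; v determined
    obtain ⟨hUle, hWle⟩ := le_of_mul_le_of_one_le (by linarith) (by linarith) hUW
    have hu : nsq u ≤ m := by rw [hm]; linarith
    have hw : nsq w ≤ m := by rw [hm]; linarith
    have hv : nsq v ≤ 2 * (d₂ ^ 2 + d₃ ^ 2) * m :=
      third_bound d₁ d₂ d₃ (u 0) (u 1) (w 0) (w 1) (v 0) (v 1) m h₁ r0 r1 hu hw
    have hv' : nsq v ≤ M := le_trans hv (hbd _ _ (by positivity) (by positivity) (by linarith))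
    exact ⟨le_trans hu hmM, le_trans hw hmM, hv'⟩
  · -- w, v bounded; u determined
    obtain ⟨hWle, hVle⟩ := le_of_mul_le_of_one_le (by linarith) (by linarith) hWV
    have hw : nsq w ≤ m := by rw [hm]; linarith
    have hv : nsq v ≤ m := by rw [hm]; linarith
    have hu : nsq u ≤ 2 * (d₃ ^ 2 + d₁ ^ 2) * m :=
      third_bound d₂ d₃ d₁ (w 0) (w 1) (v 0) (v 1) (u 0) (u 1) m h₂
        (by linarith) (by linarith) hw hv
    have hu' : nsq u ≤ M := le_trans hu (hbd _ _ (by positivity) (by positivity) (by linarith))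
    exact ⟨hu', le_trans hw hmM, le_trans hv hmM⟩

end Fermat.Agent.S41.H80
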