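import Mathlib
import Fermat.Prelude.Def_ModularCurve_PeriodMap
import Fermat.Agent.S41.Isect_helper11

/-!
# S41, node (C), route C-I: (INJ-right) (helper43, second seat)

`inj_right`: if `w ∈ Γ` (finite index in `SL(2, ℤ)`) satisfies `p ∣ ipair Γ δ w` for all `δ ∈ Γ`
(`p` an odd prime), then `p ∣ ψ w` for every parabolic homomorphism `ψ : Γ → ℤ`.

Self-contained on top of the symbol calculus `Isect_helper11` (the two finiteness statements
`Fin2Stmt`, `Fin3Stmt` are hypotheses, as there).  The proof is the walk formula on the Farey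
tree: with `f` a `ρ`-invariant potential of `ψ` (`ρ = S T`), `n x = f (x S) - f x` and
`F = pot n`, the function `F + 8 f` is invariant under right multiplication by `S` and `ρ`,
hence constant; this gives `∑_{x ∈ Γ \ G} n x * isect Γ (x e₁) (x e₂) γ = 8 ψ γ`.  At `γ = w` the
left side vanishes mod `p` by two reindexings of `Γ \ G` (by `S` and by `T`), the second one
using a cusp potential of `ψ` (this is where parabolicity enters).
-/

set_option autoImplicit false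

namespace Fermat.Agent.S41.H43

open Matrix Fermat.Agent.S41.H11
open scoped MatrixGroups

local notation "Sm" => ModularGroup.S
local notation "Tm" => ModularGroup.T

/-! ### matrix facts -/

theorem S_pow_four : (Sm : SL(2, ℤ)) ^ 4 = 1 := by decide

theorem rho_cube : ((Sm * Tm : SL(2, ℤ))) ^ 3 = Sm ^ 2 := by decide

theorem rho_pow_six : ((Sm * Tm : SL(2, ℤ))) ^ 6 = 1 := by decide

theorem coe_S_inv : ((Sm⁻¹ : SL(2, ℤ)) : Matrix (Fin 2) (Fin 2) ℤ) = !![0, 1; -1, 0] := by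
  decide

theorem coe_rho_inv :
    (((Sm * Tm)⁻¹ : SL(2, ℤ)) : Matrix (Fin 2) (Fin 2) ℤ) = !![1, 1; -1, 0] := by
  decide

theorem coe_S_sq : ((Sm ^ 2 : SL(2, ℤ)) : Matrix (Fin 2) (Fin 2) ℤ) = !![-1, 0; 0, -1] := by
  decide

theorem coe_S_cube : ((Sm ^ 3 : SL(2, ℤ)) : Matrix (Fin 2) (Fin 2) ℤ) = !![0, 1; -1, 0] := by
  decide

theorem sl_det_eq (z : SL(2, ℤ)) : z 0 0 * z 1 1 - z 0 1 * z 1 0 = 1 := by
  have := z.2
  rw [Matrix.det_fin_two] at this
  exact this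

theorem sl_ext_entries {z z' : SL(2, ℤ)} (h00 : z 0 0 = z' 0 0) (h01 : z 0 1 = z' 0 1)
    (h10 : z 1 0 = z' 1 0) (h11 : z 1 1 = z' 1 1) : z = z' := by
  apply Subtype.ext
  ext i j
  fin_cases i <;> fin_cases j <;> assumption

theorem e2_ne_zero : (![0, 1] : Fin 2 → ℤ) ≠ 0 := by
  intro h
  have := congrFun h 1
  simp at this

/-! ### (KEY) -/

theorem sgSL_rho_inv_mul (z : SL(2, ℤ)) : sgSL ((Sm * Tm)⁻¹ * z) = sgSL z := by
  simp only [sgSL, Matrix.SpecialLinearGroup.coe_mul, coe_rho_inv, Matrix.mul_apply,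
    Fin.sum_univ_two]
  simp
  ring_nf

/-- The arithmetic core of (KEY). -/
theorem key_arith (a b c d : ℤ) (hdet : a * d - b * c = 1) (hX : a * b + c * d ≠ 0) :
    Int.sign (2 * (c * d + a * b) - (a * d + b * c)) =
      Int.sign (2 * (a * b + c * d) + (a * d + b * c)) := by
  have hY : (a * d + b * c) ^ 2 = 1 + 4 * (a * b) * (c * d) := by
    have : (a * d + b * c) ^ 2 = (a * d - b * c) ^ 2 + 4 * (a * b) * (c * d) := by ring
    rw [this, hdet]; ring
  have hX2 : 1 ≤ (a * b + c * d) ^ 2 := by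
    have := sq_nonneg (a * b + c * d)
    have h0 : (a * b + c * d) ^ 2 ≠ 0 := pow_ne_zero 2 hX
    omega
  have hlt : (a * d + b * c) ^ 2 < (2 * (a * b + c * d)) ^ 2 := by
    nlinarith [sq_nonneg (a * b - c * d)]
  have habs : |a * d + b * c| < |2 * (a * b + c * d)| := sq_lt_sq.mp hlt
  rcases lt_or_gt_of_ne hX with h | h
  · have h1 : |2 * (a * b + c * d)| = -(2 * (a * b + c * d)) := abs_of_neg (by linarith)
    rw [h1] at habs
    have h2 := abs_lt.mp habs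
    rw [Int.sign_eq_neg_one_of_neg (by linarith [h2.1, h2.2]),
      Int.sign_eq_neg_one_of_neg (by linarith [h2.1, h2.2])]
  · have h1 : |2 * (a * b + c * d)| = 2 * (a * b + c * d) := abs_of_pos (by linarith)
    rw [h1] at habs
    have h2 := abs_lt.mp habs
    rw [Int.sign_eq_one_of_pos (by linarith [h2.1, h2.2]),
      Int.sign_eq_one_of_pos (by linarith [h2.1, h2.2])]

theorem sgSL_S_inv_mul_eq (z : SL(2, ℤ)) (hz : z 0 0 * z 0 1 + z 1 0 * z 1 1 ≠ 0) :
    sgSL (Sm⁻¹ * z) = sgSL z := by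
  have hdet := sl_det_eq z
  simp only [sgSL, Matrix.SpecialLinearGroup.coe_mul, coe_S_inv, Matrix.mul_apply,
    Fin.sum_univ_two]
  simp
  have := key_arith _ _ _ _ hdet hz
  convert this using 2
  ring

/-- The exceptional set of (KEY). -/
theorem eq_of_X_eq_zero (z : SL(2, ℤ)) (hz : z 0 0 * z 0 1 + z 1 0 * z 1 1 = 0) :
    z = 1 ∨ z = Sm ^ 2 ∨ z = Sm ∨ z = Sm ^ 3 := by
  have hdet := sl_det_eq z
  set a := z 0 0 with ha
  set b := z 0 1 with hb
  set c := z 1 0 with hc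
  set d := z 1 1 with hd
  have hab : a * b = 0 := by
    have h1 : (a * d + b * c) ^ 2 = 1 - 4 * (a * b) ^ 2 := by
      have : (a * d + b * c) ^ 2 = (a * d - b * c) ^ 2 + 4 * (a * b) * (c * d) := by ring
      rw [this, hdet]
      have hcd : c * d = - (a * b) := by linarith
      rw [hcd]; ring
    have h2 : (a * b) ^ 2 ≤ 0 := by nlinarith [sq_nonneg (a * d + b * c)]
    have h3 : (a * b) ^ 2 = 0 := le_antisymm h2 (sq_nonneg _)
    exact pow_eq_zero_iff (by norm_num) |>.mp h3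
  have hcd : c * d = 0 := by linarith
  rcases mul_eq_zero.mp hab with h0 | h0
  · -- a = 0
    have hbc : b * c = -1 := by rw [h0] at hdet; linarith
    have hc0 : c ≠ 0 := by intro h; rw [h] at hbc; simp at hbc
    have hd0 : d = 0 := (mul_eq_zero.mp hcd).resolve_left hc0
    have hb' : b = 1 ∨ b = -1 := by
      have : b ∣ 1 := ⟨-c, by linarith⟩
      have h1 : IsUnit b := isUnit_of_dvd_one this
      exact Int.isUnit_iff.mp h1
    rcases hb' with h1 | h1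
    · have hc' : c = -1 := by rw [h1] at hbc; linarith
      right; right; right
      apply sl_ext_entries
      · rw [← ha, h0]; rw [coe_S_cube]; rfl
      · rw [← hb, h1]; rw [coe_S_cube]; rfl
      · rw [← hc, hc']; rw [coe_S_cube]; rfl
      · rw [← hd, hd0]; rw [coe_S_cube]; rfl
    · have hc' : c = 1 := by rw [h1] at hbc; linarith
      right; right; left
      apply sl_ext_entries
      · rw [← ha, h0]; rw [ModularGroup.coe_S]; rfl
      · rw [← hb, h1]; rw [ModularGroup.coe_S]; rfl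
      · rw [← hc, hc']; rw [ModularGroup.coe_S]; rfl
      · rw [← hd, hd0]; rw [ModularGroup.coe_S]; rfl
  · -- b = 0
    have had : a * d = 1 := by rw [h0] at hdet; linarith
    have hd0 : d ≠ 0 := by intro h; rw [h] at had; simp at had
    have hc0 : c = 0 := (mul_eq_zero.mp hcd).resolve_right hd0
    have ha' : a = 1 ∨ a = -1 := by
      have : a ∣ 1 := ⟨d, by linarith⟩
      have h1 : IsUnit a := isUnit_of_dvd_one this
      exact Int.isUnit_iff.mp h1
    rcases ha' with h1 | h1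
    · have hd' : d = 1 := by rw [h1] at had; linarith
      left
      apply sl_ext_entries
      · rw [← ha, h1]; rfl
      · rw [← hb, h0]; rfl
      · rw [← hc, hc0]; rfl
      · rw [← hd, hd']; rfl
    · have hd' : d = -1 := by rw [h1] at had; linarith
      right; left
      apply sl_ext_entries
      · rw [← ha, h1]; rw [coe_S_sq]; rfl
      · rw [← hb, h0]; rw [coe_S_sq]; rfl
      · rw [← hc, hc0]; rw [coe_S_sq]; rfl
      · rw [← hd, hd']; rw [coe_S_sq]; rfl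

/-! ### the potential of an edge function -/

theorem det2_cols (y : SL(2, ℤ)) : det2 (y.1 *ᵥ ![1, 0]) (y.1 *ᵥ ![0, 1]) = 1 := by
  rw [det2_sl]; simp [det2]

theorem sgSL_eq_sign (y : SL(2, ℤ)) :
    sgSL y = Int.sign (bform (y.1 *ᵥ ![1, 0]) (y.1 *ᵥ ![0, 1])) := by
  rw [sgSL_eq_sg, sg, det2_cols]; simp

/-- Finite support of `y ↦ sgSL (z * y) - sgSL y` (from `Fin2Stmt`). -/
theorem sgSL_mul_finite (h2 : Fin2Stmt) (z : SL(2, ℤ)) :
    {y : SL(2, ℤ) | sgSL (z * y) ≠ sgSL y}.Finite := by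
  have hfin := h2 z.1 (by rw [z.2]; exact one_ne_zero) 1 one_ne_zero
  let φ : SL(2, ℤ) → (Fin 2 → ℤ) × (Fin 2 → ℤ) := fun y => (y.1 *ᵥ ![1, 0], y.1 *ᵥ ![0, 1])
  have hφ : Function.Injective φ := by
    intro y₁ y₂ h
    have h1 := congrArg Prod.fst h
    have h2' := congrArg Prod.snd h
    exact sl_eq_of_mulVec_eq (u := ![1, 0]) (w := ![0, 1]) (by simp [det2]) h1 h2'
  refine (hfin.preimage (hφ.injOn)).subset ?_
  intro y hy
  simp only [Set.mem_ofPred_eq] at hy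
  show det2 (φ y).1 (φ y).2 = 1 ∧
    Int.sign (bform (z.1 *ᵥ (φ y).1) (z.1 *ᵥ (φ y).2)) ≠ Int.sign (bform (φ y).1 (φ y).2)
  refine ⟨det2_cols y, fun hs => hy ?_⟩
  rw [sgSL_eq_sign, sgSL_eq_sign, sl_mul_mulVec, sl_mul_mulVec]
  exact hs

theorem pot_term_finite (h2 : Fin2Stmt) (m : SL(2, ℤ) → ℤ) (z : SL(2, ℤ)) :
    (Function.support fun y : SL(2, ℤ) => m y * (sgSL (z * y) - sgSL y)).Finite := by
  refine (sgSL_mul_finite h2 z).subset ?_
  intro y hy
  simp only [Function.mem_support, ne_eq] at hy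
  simp only [Set.mem_ofPred_eq]
  intro h
  apply hy
  rw [h, sub_self, mul_zero]

/-- The step formula for the potential. -/
theorem pot_mul_sub (h2 : Fin2Stmt) (m : SL(2, ℤ) → ℤ) (x g : SL(2, ℤ)) :
    pot m (x * g) - pot m x = ∑ᶠ y : SL(2, ℤ), m (x * y) * (sgSL (g⁻¹ * y) - sgSL y) := by
  simp only [pot]
  rw [← finsum_sub_distrib (pot_term_finite h2 m _) (pot_term_finite h2 m _)]
  rw [← finsum_comp_equiv (Equiv.mulLeft x)
    (f := fun y => m y * (sgSL ((x * g)⁻¹ * y) - sgSL y) - m y * (sgSL (x⁻¹ * y) - sgSL y))]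
  refine finsum_congr fun y => ?_
  have e1 : (x * g)⁻¹ * (x * y) = g⁻¹ * y := by group
  have e2 : x⁻¹ * (x * y) = y := by group
  simp only [Equiv.coe_mulLeft, e1, e2]
  ring

theorem pot_one (m : SL(2, ℤ) → ℤ) : pot m 1 = 0 := by
  simp [pot]

theorem pot_mul_rho (h2 : Fin2Stmt) (m : SL(2, ℤ) → ℤ) (x : SL(2, ℤ)) :
    pot m (x * (Sm * Tm)) = pot m x := by
  have h := pot_mul_sub h2 m x (Sm * Tm)
  have h0 : (∑ᶠ y : SL(2, ℤ), m (x * y) * (sgSL ((Sm * Tm)⁻¹ * y) - sgSL y)) = 0 := by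
    rw [← finsum_zero (M := ℤ) (α := SL(2, ℤ))]
    refine finsum_congr fun y => ?_
    rw [sgSL_rho_inv_mul, sub_self, mul_zero]
  rw [h0] at h
  linarith

theorem pot_mul_S (h2 : Fin2Stmt) (m : SL(2, ℤ) → ℤ) (x : SL(2, ℤ)) :
    pot m (x * Sm) - pot m x =
      -2 * (m x + m (x * Sm ^ 2) - m (x * Sm) - m (x * Sm ^ 3)) := by
  rw [pot_mul_sub h2 m x Sm]
  have hsupp : (Function.support fun y : SL(2, ℤ) => m (x * y) * (sgSL (Sm⁻¹ * y) - sgSL y)) ⊆
      (({1, Sm ^ 2, Sm, Sm ^ 3} : Finset SL(2, ℤ)) : Set SL(2, ℤ)) := by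
    intro y hy
    simp only [Function.mem_support, ne_eq] at hy
    by_cases hX : y 0 0 * y 0 1 + y 1 0 * y 1 1 = 0
    · have := eq_of_X_eq_zero y hX
      simp only [Finset.coe_insert, Finset.coe_singleton, Set.mem_insert_iff,
        Set.mem_singleton_iff]
      exact this
    · exact absurd (by rw [sgSL_S_inv_mul_eq y hX, sub_self, mul_zero]) hy
  rw [finsum_eq_sum_of_support_subset _ hsupp]
  have d1 : (1 : SL(2, ℤ)) ∉ ({Sm ^ 2, Sm, Sm ^ 3} : Finset SL(2, ℤ)) := by decide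
  have d2 : (Sm ^ 2 : SL(2, ℤ)) ∉ ({Sm, Sm ^ 3} : Finset SL(2, ℤ)) := by decide
  have d3 : (Sm : SL(2, ℤ)) ≠ Sm ^ 3 := by decide
  rw [Finset.sum_insert d1, Finset.sum_insert d2, Finset.sum_pair d3]
  have v1 : sgSL (Sm⁻¹ * 1) - sgSL 1 = -2 := by decide
  have v2 : sgSL (Sm⁻¹ * Sm ^ 2) - sgSL (Sm ^ 2) = -2 := by decide
  have v3 : sgSL (Sm⁻¹ * Sm) - sgSL Sm = 2 := by decide
  have v4 : sgSL (Sm⁻¹ * Sm ^ 3) - sgSL (Sm ^ 3) = 2 := by decide
  rw [v1, v2, v3, v4, mul_one]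
  ring

/-! ### potentials of a homomorphism -/

/-- A potential of a homomorphism `ψ : Γ → ℤ` on a group `G`, invariant under right
multiplication by a subgroup `H`, exists as soon as `ψ` kills `Γ ∩ x H x⁻¹` for all `x`. -/
theorem exists_potential {G : Type*} [Group G] (Γ H : Subgroup G) (ψ : Additive Γ →+ ℤ)
    (hψ : ∀ (γ : Γ) (x h : G), h ∈ H → (γ : G) * x = x * h → ψ (Additive.ofMul γ) = 0) :
    ∃ f : G → ℤ, (∀ (γ : Γ) (x : G), f ((γ : G) * x) = f x + ψ (Additive.ofMul γ)) ∧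
      ∀ x h : G, h ∈ H → f (x * h) = f x := by
  classical
  let r : Setoid G :=
    { r := fun x y => ∃ γ : Γ, ∃ h : G, h ∈ H ∧ y = (γ : G) * x * h
      iseqv :=
        { refl := fun x => ⟨1, 1, H.one_mem, by simp⟩
          symm := by
            rintro x y ⟨γ, h, hh, rfl⟩
            exact ⟨γ⁻¹, h⁻¹, H.inv_mem hh, by simp [mul_assoc]⟩
          trans := by
            rintro x y z ⟨γ, h, hh, rfl⟩ ⟨γ', h', hh', rfl⟩
            exact ⟨γ' * γ, h * h', H.mul_mem hh hh', by simp [mul_assoc]⟩ } }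
  have hrep : ∀ x : G, ∃ γ : Γ, ∃ h : G, h ∈ H ∧
      x = (γ : G) * (Quotient.out (Quotient.mk r x)) * h := fun x =>
    Quotient.exact (Quotient.out_eq (Quotient.mk r x))
  choose γf hf hfH hfx using hrep
  -- the value does not depend on the chosen decomposition
  have key : ∀ (x : G) (γ : Γ) (h : G), h ∈ H →
      x = (γ : G) * (Quotient.out (Quotient.mk r x)) * h →
      ψ (Additive.ofMul γ) = ψ (Additive.ofMul (γf x)) := by
    intro x γ h hh hx
    have h1 := hfx x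
    set c := Quotient.out (Quotient.mk r x) with hc
    have h2 : (((γf x)⁻¹ * γ : Γ) : G) * c = c * (hf x * h⁻¹) := by
      have h3 : (γ : G) * c * h = (γf x : G) * c * hf x := by rw [← hx, ← h1]
      have h4 : (γ : G) * c = (γf x : G) * c * hf x * h⁻¹ := by
        rw [← h3]; simp [mul_assoc]
      rw [Subgroup.coe_mul, Subgroup.coe_inv, mul_assoc, h4]
      simp [mul_assoc]
    have h5 := hψ _ c _ (H.mul_mem (hfH x) (H.inv_mem hh)) h2
    have h6 : ψ (Additive.ofMul ((γf x)⁻¹ * γ)) =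
        - ψ (Additive.ofMul (γf x)) + ψ (Additive.ofMul γ) := by
      rw [ofMul_mul, map_add, ofMul_inv, map_neg]
    rw [h6] at h5
    linarith
  refine ⟨fun x => ψ (Additive.ofMul (γf x)), ?_, ?_⟩
  · intro γ x
    have hcls : Quotient.mk r ((γ : G) * x) = Quotient.mk r x :=
      Quotient.sound (Setoid.symm (⟨γ, 1, H.one_mem, by simp⟩ : r x ((γ : G) * x)))
    have hx' : (γ : G) * x = ((γ * γf x : Γ) : G) *
        (Quotient.out (Quotient.mk r ((γ : G) * x))) * hf x := by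
      rw [hcls, Subgroup.coe_mul, mul_assoc, mul_assoc, ← mul_assoc (γf x : G), ← hfx x]
    have := key ((γ : G) * x) (γ * γf x) (hf x) (hfH x) hx'
    show ψ (Additive.ofMul (γf ((γ : G) * x))) = ψ (Additive.ofMul (γf x)) + ψ (Additive.ofMul γ)
    rw [← this, ofMul_mul, map_add, add_comm]
  · intro x h hh
    have hcls : Quotient.mk r (x * h) = Quotient.mk r x :=
      Quotient.sound (Setoid.symm (⟨1, h, hh, by simp⟩ : r x (x * h)))
    have hx' : x * h = ((γf x : Γ) : G) *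
        (Quotient.out (Quotient.mk r (x * h))) * (hf x * h) := by
      rw [hcls, ← mul_assoc, ← hfx x]
    have := key (x * h) (γf x) (hf x * h) (H.mul_mem (hfH x) hh) hx'
    show ψ (Additive.ofMul (γf (x * h))) = ψ (Additive.ofMul (γf x))
    rw [← this]

/-- A `ρ`-invariant potential (`ρ = S T`, of order 6): `ψ` kills torsion. -/
theorem exists_rho_potential (Γ : Subgroup SL(2, ℤ)) (ψ : Additive Γ →+ ℤ) :
    ∃ f : SL(2, ℤ) → ℤ,
      (∀ (γ : Γ) (x : SL(2, ℤ)), f ((γ : SL(2, ℤ)) * x) = f x + ψ (Additive.ofMul γ)) ∧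
      ∀ x : SL(2, ℤ), f (x * (Sm * Tm)) = f x := by
  obtain ⟨f, hf1, hf2⟩ := exists_potential Γ (Subgroup.zpowers (Sm * Tm : SL(2, ℤ))) ψ (by
    intro γ x h hh hγ
    obtain ⟨k, rfl⟩ := Subgroup.mem_zpowers_iff.mp hh
    have h6 : ((Sm * Tm : SL(2, ℤ)) ^ k) ^ 6 = 1 := by
      rw [← zpow_natCast, ← _root_.zpow_mul, mul_comm, _root_.zpow_mul, zpow_natCast, rho_pow_six,
        _root_.one_zpow]
    have hγ' : (γ : SL(2, ℤ)) = x * (Sm * Tm : SL(2, ℤ)) ^ k * x⁻¹ := by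
      rw [← hγ]; group
    have hγ6 : γ ^ 6 = 1 := by
      apply Subtype.ext
      rw [Subgroup.coe_pow, hγ', conj_pow, h6]
      simp
    have h0 : ψ (Additive.ofMul (γ ^ 6)) = 6 • ψ (Additive.ofMul γ) := by
      rw [ofMul_pow, map_nsmul]
    rw [hγ6, ofMul_one, map_zero] at h0
    have h0' := h0.symm
    simpa using h0')
  exact ⟨f, hf1, fun x => hf2 x _ (Subgroup.mem_zpowers _)⟩

/-- The upper triangular subgroup (stabiliser of the cusp `∞`). -/
def upperSub : Subgroup SL(2, ℤ) where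
  carrier := {h | h 1 0 = 0}
  mul_mem' := by
    intro a b ha hb
    simp only [Set.mem_ofPred_eq] at ha hb ⊢
    rw [Matrix.SpecialLinearGroup.coe_mul, Matrix.mul_apply, Fin.sum_univ_two, ha, hb]
    simp
  one_mem' := by
    simp
  inv_mem' := by
    intro a ha
    simp only [Set.mem_ofPred_eq] at ha ⊢
    rw [Matrix.SpecialLinearGroup.coe_inv, Matrix.adjugate_fin_two]
    simp [ha]

theorem T_mem_upperSub : (Tm : SL(2, ℤ)) ∈ upperSub := by
  show (Tm : SL(2, ℤ)) 1 0 = 0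
  rw [ModularGroup.coe_T]; rfl

/-- A cusp potential: here parabolicity of `ψ` is used. -/
theorem exists_cusp_potential (Γ : Subgroup SL(2, ℤ)) (ψ : Additive Γ →+ ℤ)
    (hψ : ModularCurve.Period.IsParabolicHom Γ ψ) :
    ∃ u : SL(2, ℤ) → ℤ,
      (∀ (γ : Γ) (x : SL(2, ℤ)), u ((γ : SL(2, ℤ)) * x) = u x + ψ (Additive.ofMul γ)) ∧
      ∀ x : SL(2, ℤ), u (x * Tm) = u x := by
  obtain ⟨u, hu1, hu2⟩ := exists_potential Γ upperSub ψ (by
    intro γ x h hh hγ
    apply hψ γ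
    have hγ' : (γ : SL(2, ℤ)) = x * h * x⁻¹ := by
      rw [← hγ]; group
    have htr : ((γ : SL(2, ℤ)) : Matrix (Fin 2) (Fin 2) ℤ).trace =
        (h : Matrix (Fin 2) (Fin 2) ℤ).trace := by
      rw [hγ', mul_assoc, Matrix.SpecialLinearGroup.coe_mul, Matrix.trace_mul_comm,
        ← Matrix.SpecialLinearGroup.coe_mul, inv_mul_cancel_right]
    rw [htr, Matrix.trace_fin_two]
    have h10 : h 1 0 = 0 := hh
    have hdet := sl_det_eq h
    rw [h10, mul_zero, sub_zero] at hdet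
    have h00 : h 0 0 = 1 ∨ h 0 0 = -1 := by
      have : h 0 0 ∣ 1 := ⟨h 1 1, hdet.symm⟩
      exact Int.isUnit_iff.mp (isUnit_of_dvd_one this)
    rcases h00 with h1 | h1
    · have : h 1 1 = 1 := by rw [h1] at hdet; linarith
      rw [h1, this]; norm_num
    · have : h 1 1 = -1 := by rw [h1] at hdet; linarith
      rw [h1, this]; norm_num)
  exact ⟨u, hu1, fun x => hu2 x _ T_mem_upperSub⟩

/-! ### the walk formula -/

/-- A function on `SL(2, ℤ)` invariant under right multiplication by `S` and `ρ = S T` is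
constant. -/
theorem const_of_right_invariant {A : Type*} (C : SL(2, ℤ) → A)
    (hS : ∀ x, C (x * Sm) = C x) (hρ : ∀ x, C (x * (Sm * Tm)) = C x) (x : SL(2, ℤ)) :
    C x = C 1 := by
  let K : Subgroup SL(2, ℤ) :=
    { carrier := {g | ∀ x, C (x * g) = C x}
      mul_mem' := by
        intro a b ha hb x
        rw [← mul_assoc, hb, ha]
      one_mem' := by
        intro x
        rw [mul_one]
      inv_mem' := by
        intro a ha x
        have := ha (x * a⁻¹)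
        rw [inv_mul_cancel_right] at this
        exact this.symm }
  have hSK : (Sm : SL(2, ℤ)) ∈ K := hS
  have hρK : (Sm * Tm : SL(2, ℤ)) ∈ K := hρ
  have hTK : (Tm : SL(2, ℤ)) ∈ K := by
    have : (Tm : SL(2, ℤ)) = Sm⁻¹ * (Sm * Tm) := by group
    rw [this]
    exact K.mul_mem (K.inv_mem hSK) hρK
  have htop : K = ⊤ := by
    rw [eq_top_iff, ← SpecialLinearGroup.SL2Z_generators, Subgroup.closure_le]
    intro g hg
    rcases hg with rfl | hg
    · exact hSK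
    · rw [Set.mem_singleton_iff] at hg
      rw [hg]; exact hTK
  have hx : x ∈ K := by rw [htop]; exact Subgroup.mem_top x
  have := hx 1
  rw [one_mul] at this
  exact this

/-- The walk formula on `SL(2, ℤ)`: for a `ρ`-invariant potential `f` of `ψ` and
`n y = f (y S) - f y`, one has `∑_y n y (sgSL (γ y) - sgSL y) = 8 ψ γ` for `γ ∈ Γ`. -/
theorem walk_formula (h2 : Fin2Stmt) (Γ : Subgroup SL(2, ℤ)) (ψ : Additive Γ →+ ℤ)
    (f : SL(2, ℤ) → ℤ)
    (hfΓ : ∀ (γ : Γ) (x : SL(2, ℤ)), f ((γ : SL(2, ℤ)) * x) = f x + ψ (Additive.ofMul γ))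
    (hfρ : ∀ x : SL(2, ℤ), f (x * (Sm * Tm)) = f x) (γ : Γ) :
    ∑ᶠ y : SL(2, ℤ), (f (y * Sm) - f y) * (sgSL ((γ : SL(2, ℤ)) * y) - sgSL y) =
      8 * ψ (Additive.ofMul γ) := by
  set n : SL(2, ℤ) → ℤ := fun y => f (y * Sm) - f y with hn
  have hρ3 : ∀ x : SL(2, ℤ), f (x * Sm ^ 2) = f x := by
    intro x
    have e : x * Sm ^ 2 = x * (Sm * Tm) * (Sm * Tm) * (Sm * Tm) := by
      rw [← rho_cube, pow_succ, pow_succ, pow_one]
      simp only [mul_assoc]
    rw [e, hfρ, hfρ, hfρ]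
  have hnS : ∀ x : SL(2, ℤ), n (x * Sm) = - n x := by
    intro x
    simp only [hn]
    rw [mul_assoc, ← pow_two, hρ3]; ring
  have hn2 : ∀ x : SL(2, ℤ), n (x * Sm ^ 2) = n x := by
    intro x
    rw [pow_two, ← mul_assoc, hnS, hnS, neg_neg]
  have hn3 : ∀ x : SL(2, ℤ), n (x * Sm ^ 3) = - n x := by
    intro x
    rw [pow_succ, ← mul_assoc, hnS, hn2]
  have hCS : ∀ x : SL(2, ℤ), pot n (x * Sm) + 8 * f (x * Sm) = pot n x + 8 * f x := by
    intro x
    have h1 := pot_mul_S h2 n x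
    rw [hn2, hnS, hn3] at h1
    have h3 : n x = f (x * Sm) - f x := rfl
    linarith
  have hCρ : ∀ x : SL(2, ℤ), pot n (x * (Sm * Tm)) + 8 * f (x * (Sm * Tm)) =
      pot n x + 8 * f x := by
    intro x
    rw [pot_mul_rho h2, hfρ]
  have hconst := const_of_right_invariant (fun x => pot n x + 8 * f x) hCS hCρ
    ((γ : SL(2, ℤ))⁻¹)
  simp only [pot_one, zero_add] at hconst
  have h1 : f ((γ : SL(2, ℤ))⁻¹) = f 1 - ψ (Additive.ofMul γ) := by
    have := hfΓ γ⁻¹ 1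
    rw [mul_one, Subgroup.coe_inv, ofMul_inv, map_neg] at this
    linarith
  have h3 : pot n ((γ : SL(2, ℤ))⁻¹) =
      ∑ᶠ y : SL(2, ℤ), n y * (sgSL ((γ : SL(2, ℤ)) * y) - sgSL y) := by
    simp only [pot, inv_inv]
  rw [← h3]
  linarith

/-! ### sums over `Γ \ G` (realised on `G ⧸ Γ` through `x ↦ x⁻¹`) -/

/-- The bijection `(G ⧸ Γ) × Γ ≃ G`, `(q, d) ↦ d * q.out⁻¹`. -/
noncomputable def cosetEquiv {G : Type*} [Group G] (Γ : Subgroup G) : (G ⧸ Γ) × Γ ≃ G where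
  toFun qd := (qd.2 : G) * (Quotient.out qd.1)⁻¹
  invFun y := ((y⁻¹ : G), ⟨y * Quotient.out ((y⁻¹ : G) : G ⧸ Γ), by
    have h : ((y⁻¹ : G) : G ⧸ Γ) = ((Quotient.out ((y⁻¹ : G) : G ⧸ Γ) : G) : G ⧸ Γ) :=
      (QuotientGroup.out_eq' _).symm
    have := QuotientGroup.eq.mp h
    rwa [inv_inv] at this⟩)
  left_inv := by
    rintro ⟨q, d⟩
    have hq : ((((d : G) * (Quotient.out q)⁻¹)⁻¹ : G) : G ⧸ Γ) = q := by
      rw [_root_.mul_inv_rev, inv_inv]
      have : ((Quotient.out q * (d : G)⁻¹ : G) : G ⧸ Γ) = ((Quotient.out q : G) : G ⧸ Γ) := by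
        rw [QuotientGroup.eq]
        simp
      rw [this, QuotientGroup.out_eq']
    apply Prod.ext
    · exact hq
    · apply Subtype.ext
      simp only
      rw [hq]
      simp
  right_inv := by
    intro y
    simp

theorem cosetEquiv_apply {G : Type*} [Group G] (Γ : Subgroup G) (q : G ⧸ Γ) (d : Γ) :
    cosetEquiv Γ (q, d) = (d : G) * (Quotient.out q)⁻¹ := rfl

/-- Regrouping a finitely supported sum over `G` along the cosets `Γ x`. -/
theorem sum_quot_finsum {G : Type*} [Group G] (Γ : Subgroup G) [Fintype (G ⧸ Γ)] (φ : G → ℤ)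
    (hφ : (Function.support φ).Finite) :
    ∑ q : G ⧸ Γ, ∑ᶠ d : Γ, φ ((d : G) * (Quotient.out q)⁻¹) = ∑ᶠ y : G, φ y := by
  rw [← finsum_comp_equiv (cosetEquiv Γ) (f := φ)]
  rw [finsum_curry (fun qd => φ (cosetEquiv Γ qd))
    ((hφ.preimage ((cosetEquiv Γ).injective.injOn)).subset (fun qd hqd => hqd))]
  rw [finsum_eq_sum_of_fintype]
  rfl

/-- Reindexing `Γ \ G` by right multiplication. -/
theorem sum_quot_mul_right {G : Type*} [Group G] (Γ : Subgroup G) [Fintype (G ⧸ Γ)]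
    {M : Type*} [AddCommMonoid M] (φ : G → M)
    (hφ : ∀ (γ : Γ) (x : G), φ ((γ : G) * x) = φ x) (g : G) :
    ∑ q : G ⧸ Γ, φ ((Quotient.out q)⁻¹ * g) = ∑ q : G ⧸ Γ, φ ((Quotient.out q)⁻¹) := by
  have key : ∀ q : G ⧸ Γ, φ ((Quotient.out q)⁻¹ * g) =
      φ ((Quotient.out (g⁻¹ • q))⁻¹) := by
    intro q
    have hq : g⁻¹ • q = ((g⁻¹ * Quotient.out q : G) : G ⧸ Γ) := by
      conv_lhs => rw [← QuotientGroup.out_eq' q]
      rfl
    obtain ⟨h, hh⟩ := QuotientGroup.mk_out_eq_mul Γ (g⁻¹ * Quotient.out q)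
    rw [hq, hh]
    have : (g⁻¹ * Quotient.out q * (h : G))⁻¹ = ((h⁻¹ : Γ) : G) * ((Quotient.out q)⁻¹ * g) := by
      rw [Subgroup.coe_inv]; group
    rw [this, hφ]
  rw [Finset.sum_congr rfl (fun q _ => key q)]
  exact Equiv.sum_comp (MulAction.toPerm (g⁻¹ : G)) (fun q : G ⧸ Γ => φ ((Quotient.out q)⁻¹))

/-! ### (INJ-right) -/

theorem T_mulVec_e1 : (Tm : SL(2, ℤ)).1 *ᵥ ![1, 0] = ![1, 0] := by
  rw [ModularGroup.coe_T]
  ext i
  fin_cases i <;> simp [Matrix.mulVec, dotProduct, Fin.sum_univ_two]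

theorem S_mulVec_e1 : (Sm : SL(2, ℤ)).1 *ᵥ ![1, 0] = ![0, 1] := by
  rw [ModularGroup.coe_S]
  ext i
  fin_cases i <;> simp [Matrix.mulVec, dotProduct, Fin.sum_univ_two]

/-- **(INJ-right)**: if `p ∣ ipair Γ δ w` for all `δ ∈ Γ` (`p` an odd prime, `Γ` of finite
index), then `p ∣ ψ w` for every parabolic homomorphism `ψ : Γ → ℤ`. -/
theorem inj_right (h2 : Fin2Stmt) (h3 : Fin3Stmt) (Γ : Subgroup SL(2, ℤ)) [Γ.FiniteIndex]
    {p : ℕ} (hp : p.Prime) (hp2 : p ≠ 2) (w : Γ)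
    (h : ∀ δ : Γ, (p : ℤ) ∣ ipair Γ (δ : SL(2, ℤ)) (w : SL(2, ℤ)))
    (ψ : Additive Γ →+ ℤ) (hψ : ModularCurve.Period.IsParabolicHom Γ ψ) :
    (p : ℤ) ∣ ψ (Additive.ofMul w) := by
  classical
  let _ : Fintype (SL(2, ℤ) ⧸ Γ) := Subgroup.fintypeQuotientOfFiniteIndex
  obtain ⟨f, hfΓ, hfρ⟩ := exists_rho_potential Γ ψ
  obtain ⟨u, huΓ, huT⟩ := exists_cusp_potential Γ ψ hψ
  set n : SL(2, ℤ) → ℤ := fun y => f (y * Sm) - f y with hn
  set U : SL(2, ℤ) → ℤ := fun x => isect Γ ![1, 0] (x.1 *ᵥ ![1, 0]) (w : SL(2, ℤ)) with hU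
  -- facts on `f` and `n`
  have hρ3 : ∀ x : SL(2, ℤ), f (x * Sm ^ 2) = f x := by
    intro x
    have e : x * Sm ^ 2 = x * (Sm * Tm) * (Sm * Tm) * (Sm * Tm) := by
      rw [← rho_cube, pow_succ, pow_succ, pow_one]
      simp only [mul_assoc]
    rw [e, hfρ, hfρ, hfρ]
  have hnS : ∀ x : SL(2, ℤ), n (x * Sm) = - n x := by
    intro x
    simp only [hn]
    rw [mul_assoc, ← pow_two, hρ3]; ring
  have hnSinv : ∀ x : SL(2, ℤ), n (x * Sm⁻¹) = - n x := by
    intro x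
    have := hnS (x * Sm⁻¹)
    rw [inv_mul_cancel_right] at this
    linarith
  have hnΓ : ∀ (γ : Γ) (x : SL(2, ℤ)), n ((γ : SL(2, ℤ)) * x) = n x := by
    intro γ x
    simp only [hn]
    rw [mul_assoc, hfΓ, hfΓ]; ring
  have hfT : ∀ x : SL(2, ℤ), f (x * Tm) = f (x * Sm) := by
    intro x
    have e1 : x * Tm = x * Sm⁻¹ * (Sm * Tm) := by group
    have e2 : x * Sm⁻¹ = x * Sm * Sm ^ 2 := by
      have h4 : (Sm : SL(2, ℤ))⁻¹ = Sm * Sm ^ 2 := by decide
      rw [h4, mul_assoc]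
    rw [e1, hfρ, e2, hρ3]
  -- facts on `U`
  have hwΓ : (w : SL(2, ℤ)) ∈ Γ := w.2
  have hU1 : ∀ (γ : Γ) (x : SL(2, ℤ)), (p : ℤ) ∣ U ((γ : SL(2, ℤ)) * x) - U x := by
    intro γ x
    have e : U ((γ : SL(2, ℤ)) * x) - U x = ipair Γ (γ : SL(2, ℤ)) (w : SL(2, ℤ)) := by
      simp only [hU]
      rw [sl_mul_mulVec, isect_add h2 h3 Γ e1_ne_zero
        (sl_mulVec_ne_zero (γ : SL(2, ℤ)) e1_ne_zero)
        (sl_mulVec_ne_zero (γ : SL(2, ℤ)) (sl_mulVec_ne_zero x e1_ne_zero)) hwΓ,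
        isect_inv Γ γ.2]
      simp only [ipair]
      ring
    rw [e]
    exact h γ
  have hU2 : ∀ x : SL(2, ℤ), U (x * Tm) = U x := by
    intro x
    simp only [hU]
    rw [sl_mul_mulVec, T_mulVec_e1]
  have hU3 : ∀ x : SL(2, ℤ),
      isect Γ (x.1 *ᵥ ![1, 0]) (x.1 *ᵥ ![0, 1]) (w : SL(2, ℤ)) = U (x * Sm) - U x := by
    intro x
    simp only [hU]
    rw [sl_mul_mulVec, S_mulVec_e1, isect_add h2 h3 Γ (sl_mulVec_ne_zero x e1_ne_zero)
      e1_ne_zero (sl_mulVec_ne_zero x e2_ne_zero) hwΓ,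
      isect_swap Γ ![1, 0] (x.1 *ᵥ ![1, 0])]
    ring
  -- the walk formula, regrouped along `Γ \ G`
  have hwalk : ∑ q : SL(2, ℤ) ⧸ Γ, n ((Quotient.out q)⁻¹) *
      (U ((Quotient.out q)⁻¹ * Sm) - U ((Quotient.out q)⁻¹)) = 8 * ψ (Additive.ofMul w) := by
    have hW := walk_formula h2 Γ ψ f hfΓ hfρ w
    have hre := sum_quot_finsum Γ (fun y => n y * (sgSL ((w : SL(2, ℤ)) * y) - sgSL y))
      (pot_term_finite h2 n (w : SL(2, ℤ)))
    rw [← hW, ← hre]
    refine Finset.sum_congr rfl fun q _ => ?_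
    set x : SL(2, ℤ) := (Quotient.out q)⁻¹ with hx
    rw [← hU3 x]
    simp only [isect]
    rw [mul_finsum]
    refine finsum_congr fun d => ?_
    rw [hnΓ d x]
    congr 1
    simp only [isectTerm]
    rw [← sl_mul_mulVec, ← sl_mul_mulVec, ← sl_mul_mulVec, ← sl_mul_mulVec, ← sgSL_eq_sg,
      ← sgSL_eq_sg, mul_assoc]
  -- reduction mod `p`
  have hŪ : ∀ (γ : Γ) (x : SL(2, ℤ)),
      ((U ((γ : SL(2, ℤ)) * x) : ℤ) : ZMod p) = ((U x : ℤ) : ZMod p) := by
    intro γ x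
    rw [ZMod.intCast_eq_intCast_iff_dvd_sub]
    exact (dvd_sub_comm).mp (hU1 γ x)
  have hcast := congrArg (Int.cast : ℤ → ZMod p) hwalk
  push_cast at hcast
  simp only [mul_sub, Finset.sum_sub_distrib] at hcast
  -- first reindexing: by `S`
  have hA := sum_quot_mul_right Γ
    (fun x : SL(2, ℤ) => ((n (x * Sm⁻¹) : ℤ) : ZMod p) * ((U x : ℤ) : ZMod p))
    (by
      intro γ x
      rw [mul_assoc, hnΓ, hŪ]) Sm
  simp only [mul_inv_cancel_right, hnSinv] at hA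
  push_cast at hA
  simp only [neg_mul, Finset.sum_neg_distrib] at hA
  -- second reindexing: by `T`
  have hB := sum_quot_mul_right Γ
    (fun x : SL(2, ℤ) => ((f x - u x : ℤ) : ZMod p) * ((U x : ℤ) : ZMod p))
    (by
      intro γ x
      rw [hfΓ, huΓ, hŪ]
      congr 2
      ring) Tm
  simp only [hU2] at hB
  have hnh : ∀ x : SL(2, ℤ), n x = (f (x * Tm) - u (x * Tm)) - (f x - u x) := by
    intro x
    simp only [hn]
    rw [hfT, huT]; ring
  have hB0 : ∑ q : SL(2, ℤ) ⧸ Γ, ((n ((Quotient.out q)⁻¹) : ℤ) : ZMod p) *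
      ((U ((Quotient.out q)⁻¹) : ℤ) : ZMod p) = 0 := by
    have e : ∀ q : SL(2, ℤ) ⧸ Γ, ((n ((Quotient.out q)⁻¹) : ℤ) : ZMod p) *
        ((U ((Quotient.out q)⁻¹) : ℤ) : ZMod p) =
        ((f ((Quotient.out q)⁻¹ * Tm) - u ((Quotient.out q)⁻¹ * Tm) : ℤ) : ZMod p) *
          ((U ((Quotient.out q)⁻¹) : ℤ) : ZMod p) -
        ((f ((Quotient.out q)⁻¹) - u ((Quotient.out q)⁻¹) : ℤ) : ZMod p) *
          ((U ((Quotient.out q)⁻¹) : ℤ) : ZMod p) := by
      intro q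
      rw [hnh]
      push_cast
      ring
    rw [Finset.sum_congr rfl (fun q _ => e q), Finset.sum_sub_distrib, hB, sub_self]
  rw [hA, hB0] at hcast
  have h8 : ((8 * ψ (Additive.ofMul w) : ℤ) : ZMod p) = 0 := by
    push_cast
    rw [← hcast]; simp
  have hdvd : (p : ℤ) ∣ 8 * ψ (Additive.ofMul w) :=
    (ZMod.intCast_zmod_eq_zero_iff_dvd _ _).mp h8
  rcases (Nat.prime_iff_prime_int.mp hp).dvd_or_dvd hdvd with h1 | h1
  · exfalso
    have h1' : p ∣ 2 ^ 3 := by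
      have : ((p : ℕ) : ℤ) ∣ ((2 ^ 3 : ℕ) : ℤ) := by simpa using h1
      exact Int.natCast_dvd_natCast.mp this
    exact hp2 ((Nat.prime_dvd_prime_iff_eq hp Nat.prime_two).mp (hp.dvd_of_dvd_pow h1'))
  · exact h1

end Fermat.Agent.S41.H43
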