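import Mathlib
import Fermat.Prelude.Def_ModularCurve_PeriodMap
import Fermat.Agent.S41.IsectDef_helper11
import Fermat.Agent.S41.Isect_helper11
import Fermat.Agent.S41.IsectKey_helper4
import Fermat.Agent.S41.IsectFin_helper69

/-!
# S41, node (C), route C-I, leaf (INJ-right) (helper44)

`Γ ≤ SL(2, ℤ)` of finite index, `p` an odd prime, `w ∈ Γ`.  If `p` divides the intersection number
`ipair Γ δ w` for every `δ ∈ Γ`, then `p` divides `ψ w` for every homomorphism `ψ : Γ → ℤ` that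
vanishes on the parabolic elements.

Exports (namespace `Fermat.Agent.S41.H44.InjR`):

* `exists_potential` (POTL): a homomorphism `ψ : Γ → ℤ` that kills every element of `Γ` conjugate
  into a subgroup `H` has a potential `F : G → ℤ`, `F (γ x h) = F x + ψ γ`.
* `rrep`, `sum_rrep_mul`, `finsum_eq_sum_rrep` : sums over `Γ \ G`, written with the left coset
  space `G ⧸ Γ` and the representatives `q.out⁻¹`.
* `pot_mul_S` (POT b): the jump of `H11.pot m` across a Farey edge.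
* `eight_mul_eq_finsum` (STAR): `8 ψ w = ∑ᶠ y, (f (y S) - f y) (sgSL (w y) - sgSL y)` for a
  `ρ`-invariant potential `f` of `ψ`.
* `inj_right` : the statement, with the two finiteness statements of leaf I2 as hypotheses;
  `inj_right'` : the same with the hypotheses discharged by `H69.fin2`, `H69.fin3`.

Proof of `inj_right`.  `f`, `u` potentials of `ψ` that are right invariant under `ρ = S T` resp.
under `T`; `n x = f (x S) - f x = f (x T) - f x` is left `Γ`-invariant, `n (x S) = - n x`.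
The sum in (STAR) is split along the cosets `Γ x`: the inner sums are
`n x * isect Γ (x e₁) (x e₂) w = n x * (U (x S) - U x)`, `U x = isect Γ e₁ (x e₁) w`, and `U` is
left `Γ`-invariant modulo `p` (hypothesis) and right `T`-invariant.  Modulo `p`, reindexing the
finite sums over `Γ \ G` by `x ↦ x S` and `x ↦ x T` gives `8 ψ w ≡ -2 ∑ n U ≡ 0`, because
`n x = (f - u) (x T) - (f - u) x` with `f - u` left `Γ`-invariant.
-/

set_option autoImplicit false

namespace Fermat.Agent.S41.H44.InjR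

open Matrix MatrixGroups ModularGroup
open Fermat.Agent.S41.H11

/-! ### (POTL) potentials of a homomorphism along a subgroup -/

section Potential

variable {G : Type*} [Group G]

theorem map_ofMul_mul (Γ : Subgroup G) (ψ : Additive Γ →+ ℤ) (a b : Γ) :
    ψ (Additive.ofMul (a * b)) = ψ (Additive.ofMul a) + ψ (Additive.ofMul b) := by
  rw [ofMul_mul, map_add]

theorem map_ofMul_inv (Γ : Subgroup G) (ψ : Additive Γ →+ ℤ) (a : Γ) :
    ψ (Additive.ofMul a⁻¹) = - ψ (Additive.ofMul a) := by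
  rw [ofMul_inv, map_neg]

theorem map_ofMul_one (Γ : Subgroup G) (ψ : Additive Γ →+ ℤ) :
    ψ (Additive.ofMul (1 : Γ)) = 0 := by
  rw [ofMul_one, map_zero]

/-- A homomorphism to `ℤ` kills elements of finite order. -/
theorem map_eq_zero_of_pow_eq_one (Γ : Subgroup G) (ψ : Additive Γ →+ ℤ) (a : Γ) {k : ℕ}
    (hk : k ≠ 0) (ha : a ^ k = 1) : ψ (Additive.ofMul a) = 0 := by
  have h1 : ψ (Additive.ofMul (a ^ k)) = k • ψ (Additive.ofMul a) := by
    rw [ofMul_pow, map_nsmul]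
  rw [ha, map_ofMul_one] at h1
  have h2 : (k : ℤ) * ψ (Additive.ofMul a) = 0 := by
    rw [← nsmul_eq_mul]; exact h1.symm
  rcases mul_eq_zero.mp h2 with h | h
  · exact absurd (by exact_mod_cast h) hk
  · exact h

/-- (POTL) If `ψ : Γ → ℤ` kills every element of `Γ` that is conjugate into `H`, then `ψ` has a
potential on `G` that is right `H`-invariant. -/
theorem exists_potential (Γ H : Subgroup G) (ψ : Additive Γ →+ ℤ)
    (hψ : ∀ (γ : Γ) (x : G), x⁻¹ * (γ : G) * x ∈ H → ψ (Additive.ofMul γ) = 0) :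
    ∃ F : G → ℤ, ∀ (γ : Γ) (x h : G), h ∈ H →
      F ((γ : G) * x * h) = F x + ψ (Additive.ofMul γ) := by
  classical
  let rel : G → G → Prop := fun x y => ∃ γ : Γ, ∃ h ∈ H, y = (γ : G) * x * h
  have hrefl : ∀ x, rel x x := fun x => ⟨1, 1, H.one_mem, by simp⟩
  have hsymm : ∀ {x y}, rel x y → rel y x := by
    rintro x y ⟨γ, h, hh, rfl⟩
    exact ⟨γ⁻¹, h⁻¹, H.inv_mem hh, by simp [mul_assoc]⟩
  have htrans : ∀ {x y z}, rel x y → rel y z → rel x z := by
    rintro x y z ⟨γ, h, hh, rfl⟩ ⟨γ', h', hh', rfl⟩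
    exact ⟨γ' * γ, h * h', H.mul_mem hh hh', by simp [mul_assoc]⟩
  let s : Setoid G := ⟨rel, ⟨hrefl, hsymm, htrans⟩⟩
  let r : G → G := fun x => (Quotient.mk s x).out
  have hr : ∀ x, rel (r x) x := fun x => Quotient.mk_out (s := s) x
  choose c hc using hr
  refine ⟨fun x => ψ (Additive.ofMul (c x)), ?_⟩
  intro γ x h hh
  obtain ⟨h₁, hh₁, e₁⟩ := hc x
  obtain ⟨h₂, hh₂, e₂⟩ := hc ((γ : G) * x * h)
  have hrr : r ((γ : G) * x * h) = r x := by
    show (Quotient.mk s _).out = (Quotient.mk s _).out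
    congr 1
    exact Quotient.sound (hsymm ⟨γ, h, hh, rfl⟩)
  rw [hrr] at e₂
  show ψ (Additive.ofMul (c ((γ : G) * x * h))) = ψ (Additive.ofMul (c x)) + ψ (Additive.ofMul γ)
  generalize c ((γ : G) * x * h) = cy at e₂ ⊢
  generalize c x = cx at e₁ ⊢
  generalize r x = ρ at e₁ e₂
  -- `cy * ρ * h₂ = γ * (cx * ρ * h₁) * h`
  have key : ρ⁻¹ * (((γ * cx)⁻¹ * cy : Γ) : G) * ρ ∈ H := by
    have e₄ : ρ⁻¹ * (((γ * cx)⁻¹ * cy : Γ) : G) * ρ = h₁ * h * h₂⁻¹ := by
      have : (cy : G) * ρ = (γ : G) * ((cx : G) * ρ * h₁) * h * h₂⁻¹ := by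
        rw [← e₁, e₂]; group
      simp only [Subgroup.coe_mul, Subgroup.coe_inv, mul_assoc]
      rw [this]; group
    rw [e₄]
    exact H.mul_mem (H.mul_mem hh₁ hh) (H.inv_mem hh₂)
  have := hψ _ _ key
  rw [map_ofMul_mul, map_ofMul_inv, map_ofMul_mul] at this
  linarith

end Potential

section Coset

variable {G : Type*} [Group G] (Γ : Subgroup G)

/-- The representative of the right coset `Γ x` attached to the left coset `x⁻¹ Γ`. -/
noncomputable def rrep (q : G ⧸ Γ) : G := (q.out)⁻¹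

theorem rrep_smul (g : G) (q : G ⧸ Γ) :
    ∃ δ ∈ Γ, rrep Γ (g⁻¹ • q) = δ * (rrep Γ q * g) := by
  have h1 : ((g⁻¹ • q).out : G ⧸ Γ) = ((g⁻¹ * q.out : G) : G ⧸ Γ) := by
    rw [QuotientGroup.out_eq']
    conv_lhs => rw [← QuotientGroup.out_eq' q]
    rfl
  have h2 := QuotientGroup.eq.mp h1
  refine ⟨_, h2, ?_⟩
  simp only [rrep]
  group

/-- Reindexing a sum over `Γ \ G` by right multiplication. -/
theorem sum_rrep_mul [Fintype (G ⧸ Γ)] {A : Type*} [AddCommMonoid A] (F : G → A)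
    (hF : ∀ δ ∈ Γ, ∀ x, F (δ * x) = F x) (g : G) :
    ∑ q : G ⧸ Γ, F (rrep Γ q * g) = ∑ q : G ⧸ Γ, F (rrep Γ q) := by
  refine Fintype.sum_equiv (MulAction.toPerm (g⁻¹ : G)) _ _ (fun q => ?_)
  obtain ⟨δ, hδ, e⟩ := rrep_smul Γ g q
  show F (rrep Γ q * g) = F (rrep Γ (g⁻¹ • q))
  rw [e, hF δ hδ]

theorem rrep_bijective :
    Function.Bijective fun p : (G ⧸ Γ) × Γ => (p.2 : G) * rrep Γ p.1 := by
  constructor
  · rintro ⟨q₁, δ₁⟩ ⟨q₂, δ₂⟩ h
    simp only [rrep] at h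
    have hq : q₁ = q₂ := by
      rw [← QuotientGroup.out_eq' q₁, ← QuotientGroup.out_eq' q₂]
      apply QuotientGroup.eq.mpr
      have : (q₁.out)⁻¹ * q₂.out = (δ₁ : G)⁻¹ * δ₂ := by
        have h' : (q₁.out)⁻¹ = (δ₁ : G)⁻¹ * ((δ₂ : G) * (q₂.out)⁻¹) := by
          rw [← h]; group
        rw [h']; group
      rw [this]
      exact Γ.mul_mem (Γ.inv_mem δ₁.2) δ₂.2
    subst hq
    have : (δ₁ : G) = δ₂ := mul_right_cancel h
    rw [Subtype.ext this]
  · intro y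
    let q : G ⧸ Γ := ((y⁻¹ : G) : G ⧸ Γ)
    have h1 : ((q.out : G) : G ⧸ Γ) = ((y⁻¹ : G) : G ⧸ Γ) := QuotientGroup.out_eq' q
    have h2 := QuotientGroup.eq.mp h1
    have h3 : y * q.out ∈ Γ := by
      have := Γ.inv_mem h2
      simpa using this
    refine ⟨(q, ⟨y * q.out, h3⟩), ?_⟩
    simp [rrep]

/-- Decomposition of a finitely supported sum over `G` along the right cosets of `Γ`. -/
theorem finsum_eq_sum_rrep [Fintype (G ⧸ Γ)] (Φ : G → ℤ) (hΦ : (Function.support Φ).Finite) :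
    ∑ᶠ y, Φ y = ∑ q : G ⧸ Γ, ∑ᶠ δ : Γ, Φ ((δ : G) * rrep Γ q) := by
  have hb := rrep_bijective Γ
  have h1 : ∑ᶠ p : (G ⧸ Γ) × Γ, Φ ((p.2 : G) * rrep Γ p.1) = ∑ᶠ y, Φ y :=
    finsum_eq_of_bijective _ hb (fun _ => rfl)
  have hfin : (Function.support fun p : (G ⧸ Γ) × Γ => Φ ((p.2 : G) * rrep Γ p.1)).Finite :=
    (hΦ.preimage hb.injective.injOn).subset (fun p hp => hp)
  rw [← h1, finsum_curry _ hfin, finsum_eq_sum_of_fintype]

end Coset

/-! ### matrix facts -/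

theorem coe_rho : ((S * T : SL(2, ℤ)) : Matrix (Fin 2) (Fin 2) ℤ) = !![0, -1; 1, 1] := by
  rw [Matrix.SpecialLinearGroup.coe_mul, coe_S, coe_T, mul_fin_two]
  norm_num

theorem S_mul_S : (S * S : SL(2, ℤ)) = -1 := by
  apply Subtype.ext
  rw [Matrix.SpecialLinearGroup.coe_mul, coe_S, mul_fin_two, Matrix.SpecialLinearGroup.coe_neg,
    Matrix.SpecialLinearGroup.coe_one, one_fin_two]
  ext i j
  fin_cases i <;> fin_cases j <;> simp

theorem rho_cube : ((S * T) ^ 3 : SL(2, ℤ)) = -1 := by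
  apply Subtype.ext
  rw [pow_succ, pow_two, Matrix.SpecialLinearGroup.coe_mul, Matrix.SpecialLinearGroup.coe_mul,
    coe_rho, mul_fin_two, mul_fin_two, Matrix.SpecialLinearGroup.coe_neg,
    Matrix.SpecialLinearGroup.coe_one, one_fin_two]
  ext i j
  fin_cases i <;> fin_cases j <;> simp

theorem rho_pow_six : ((S * T) ^ 6 : SL(2, ℤ)) = 1 := by
  have h : ((S * T) ^ 6 : SL(2, ℤ)) = (S * T) ^ 3 * (S * T) ^ 3 := by rw [← pow_add]
  rw [h, rho_cube]; simp

theorem neg_one_mem_zpowers_rho : (-1 : SL(2, ℤ)) ∈ Subgroup.zpowers (S * T) :=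
  ⟨3, by rw [← rho_cube]; rfl⟩

theorem one_ne_neg_one : (1 : SL(2, ℤ)) ≠ -1 := by
  intro h
  have := congrArg (fun z : SL(2, ℤ) => z.1 0 0) h
  simp at this

theorem one_ne_S : (1 : SL(2, ℤ)) ≠ S := by
  intro h
  have := congrArg (fun z : SL(2, ℤ) => z.1 0 0) h
  simp [coe_S] at this

theorem one_ne_neg_S : (1 : SL(2, ℤ)) ≠ -S := by
  intro h
  have := congrArg (fun z : SL(2, ℤ) => z.1 0 0) h
  simp [coe_S] at this

theorem neg_one_ne_S : (-1 : SL(2, ℤ)) ≠ S := by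
  intro h
  have := congrArg (fun z : SL(2, ℤ) => z.1 0 0) h
  simp [coe_S] at this

theorem neg_one_ne_neg_S : (-1 : SL(2, ℤ)) ≠ -S := by
  intro h
  have := congrArg (fun z : SL(2, ℤ) => z.1 0 0) h
  simp [coe_S] at this

theorem S_ne_neg_S : (S : SL(2, ℤ)) ≠ -S := by
  intro h
  have := congrArg (fun z : SL(2, ℤ) => z.1 0 1) h
  simp [coe_S] at this

/-! ### (POT b): the jump of the potential across the edge -/

theorem pot_mul_S (h2 : Fin2Stmt) (m : SL(2, ℤ) → ℤ) (x : SL(2, ℤ)) :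
    pot m (x * S) - pot m x = 2 * (m (x * S) + m (x * -S) - m x - m (x * -1)) := by
  classical
  have hfin1 := H04.pot_support_finite h2 m (x * S)
  have hfin2 := H04.pot_support_finite h2 m x
  unfold pot
  rw [← finsum_sub_distrib hfin1 hfin2]
  have e : ∀ y, m y * (sgSL ((x * S)⁻¹ * y) - sgSL y) - m y * (sgSL (x⁻¹ * y) - sgSL y)
      = (fun z => m (x * z) * (sgSL (S⁻¹ * z) - sgSL z)) (Equiv.mulLeft x⁻¹ y) := by
    intro y
    simp only [Equiv.coe_mulLeft, _root_.mul_inv_rev, mul_inv_cancel_left, mul_assoc]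
    ring
  rw [finsum_congr e,
    finsum_comp_equiv (Equiv.mulLeft x⁻¹) (f := fun z => m (x * z) * (sgSL (S⁻¹ * z) - sgSL z))]
  have hsub : (Function.support fun z => m (x * z) * (sgSL (S⁻¹ * z) - sgSL z)) ⊆
      (({1, -1, S, -S} : Finset SL(2, ℤ)) : Set SL(2, ℤ)) := by
    intro z hz
    simp only [Function.mem_support] at hz
    by_contra hzA
    apply hz
    have hzA' : ¬ (z = 1 ∨ z = -1 ∨ z = S ∨ z = -S) := by
      simpa using hzA
    rw [H04.sgSL_S_inv_mul, if_neg hzA', sub_self, mul_zero]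
  rw [finsum_eq_sum_of_support_subset _ hsub]
  have hA1 : (1 : SL(2, ℤ)) ∉ ({-1, S, -S} : Finset SL(2, ℤ)) := by
    simp only [Finset.mem_insert, Finset.mem_singleton, not_or]
    exact ⟨one_ne_neg_one, one_ne_S, one_ne_neg_S⟩
  have hA2 : (-1 : SL(2, ℤ)) ∉ ({S, -S} : Finset SL(2, ℤ)) := by
    simp only [Finset.mem_insert, Finset.mem_singleton, not_or]
    exact ⟨neg_one_ne_S, neg_one_ne_neg_S⟩
  have hA3 : (S : SL(2, ℤ)) ∉ ({-S} : Finset SL(2, ℤ)) := by
    simp only [Finset.mem_singleton]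
    exact S_ne_neg_S
  rw [Finset.sum_insert hA1, Finset.sum_insert hA2, Finset.sum_insert hA3, Finset.sum_singleton]
  rw [H04.sgSL_S_inv_mul 1, if_pos (Or.inl rfl), H04.sgSL_S_inv_mul (-1),
    if_pos (Or.inr (Or.inl rfl)), H04.sgSL_S_inv_mul S, if_pos (Or.inr (Or.inr (Or.inl rfl))),
    H04.sgSL_S_inv_mul (-S), if_pos (Or.inr (Or.inr (Or.inr rfl))), H04.sgSL_neg, H04.sgSL_neg,
    H04.sgSL_one, H04.sgSL_S, mul_one]
  ring

/-! ### (STAR): the walk formula -/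

theorem eight_mul_eq_finsum (h2 : Fin2Stmt) (Γ : Subgroup SL(2, ℤ)) (ψ : Additive Γ →+ ℤ)
    (f : SL(2, ℤ) → ℤ)
    (hf : ∀ (γ : Γ) (x h : SL(2, ℤ)), h ∈ Subgroup.zpowers (S * T) →
      f ((γ : SL(2, ℤ)) * x * h) = f x + ψ (Additive.ofMul γ)) (w : Γ) :
    8 * ψ (Additive.ofMul w) =
      ∑ᶠ y : SL(2, ℤ), (f (y * S) - f y) * (sgSL ((w : SL(2, ℤ)) * y) - sgSL y) := by
  have f_rho : ∀ x, f (x * (S * T)) = f x := fun x => by
    have := hf 1 x (S * T) (Subgroup.mem_zpowers _)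
    simpa [map_ofMul_one] using this
  have f_neg : ∀ x, f (x * -1) = f x := fun x => by
    have := hf 1 x (-1) neg_one_mem_zpowers_rho
    simpa [map_ofMul_one] using this
  have f_left : ∀ (γ : Γ) x, f ((γ : SL(2, ℤ)) * x) = f x + ψ (Additive.ofMul γ) := fun γ x => by
    have := hf γ x 1 (Subgroup.one_mem _)
    simpa using this
  set n : SL(2, ℤ) → ℤ := fun y => f (y * S) - f y with hn
  have n_neg : ∀ x, n (x * -1) = n x := fun x => by
    simp only [hn]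
    rw [show x * -1 * S = x * S * -1 by simp, f_neg, f_neg]
  have n_S : ∀ x, n (x * S) = - n x := fun x => by
    simp only [hn]
    rw [mul_assoc, S_mul_S, f_neg]; ring
  have n_negS : ∀ x, n (x * -S) = - n x := fun x => by
    rw [show x * -S = x * S * -1 by simp, n_neg, n_S]
  have hQS : ∀ x, pot n (x * S) + 8 * f (x * S) = pot n x + 8 * f x := fun x => by
    have h := pot_mul_S h2 n x
    rw [n_S, n_negS, n_neg] at h
    have hnx : n x = f (x * S) - f x := rfl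
    linarith
  have hQρ : ∀ x, pot n (x * (S * T)) + 8 * f (x * (S * T)) = pot n x + 8 * f x := fun x => by
    rw [H04.pot_mul_rho, f_rho]
  have hQT : ∀ x, pot n (x * T) + 8 * f (x * T) = pot n x + 8 * f x := fun x => by
    have h1 := hQρ (x * S⁻¹)
    have h2' := hQS (x * S⁻¹)
    rw [show x * S⁻¹ * (S * T) = x * T by group] at h1
    rw [show x * S⁻¹ * S = x by group] at h2'
    rw [h1, ← h2']
  have hQ : ∀ g x, pot n (x * g) + 8 * f (x * g) = pot n x + 8 * f x := by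
    intro g
    have hg : g ∈ Subgroup.closure ({S, T} : Set SL(2, ℤ)) := by
      rw [SpecialLinearGroup.SL2Z_generators]; trivial
    induction hg using Subgroup.closure_induction with
    | mem y hy =>
      rcases hy with rfl | rfl
      · exact hQS
      · exact hQT
    | one => intro x; rw [mul_one]
    | mul a b _ _ ha hb => intro x; rw [← mul_assoc, hb, ha]
    | inv a _ ha =>
      intro x
      have := ha (x * a⁻¹)
      rw [inv_mul_cancel_right] at this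
      exact this.symm
  have h1 := hQ ((w : SL(2, ℤ))⁻¹) 1
  rw [one_mul] at h1
  have hp1 : pot n 1 = 0 := by simp [pot]
  have hfw : f ((w : SL(2, ℤ))⁻¹) = f 1 - ψ (Additive.ofMul w) := by
    have := f_left w⁻¹ 1
    rw [mul_one, map_ofMul_inv, Subgroup.coe_inv] at this
    rw [this]; ring
  have hpw : pot n ((w : SL(2, ℤ))⁻¹) = ∑ᶠ y, n y * (sgSL ((w : SL(2, ℤ)) * y) - sgSL y) := by
    simp only [pot, inv_inv]
  rw [← hpw]
  linarith

/-! ### the two kinds of elements killed by a parabolic homomorphism -/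

theorem kills_rho (Γ : Subgroup SL(2, ℤ)) (ψ : Additive Γ →+ ℤ) (γ : Γ) (x : SL(2, ℤ))
    (hx : x⁻¹ * (γ : SL(2, ℤ)) * x ∈ Subgroup.zpowers (S * T)) : ψ (Additive.ofMul γ) = 0 := by
  obtain ⟨k, hk⟩ := hx
  have hk' : (S * T) ^ k = x⁻¹ * (γ : SL(2, ℤ)) * x := hk
  have e : (γ : SL(2, ℤ)) = x * (S * T) ^ k * x⁻¹ := by rw [hk']; group
  have h6 : (γ : SL(2, ℤ)) ^ 6 = 1 := by
    rw [e, conj_pow, ← zpow_natCast, ← _root_.zpow_mul, mul_comm, _root_.zpow_mul, zpow_natCast,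
      rho_pow_six, _root_.one_zpow]
    group
  refine map_eq_zero_of_pow_eq_one Γ ψ γ (k := 6) (by norm_num) (Subtype.ext ?_)
  rw [Subgroup.coe_pow, h6, Subgroup.coe_one]

theorem kills_T (Γ : Subgroup SL(2, ℤ)) (ψ : Additive Γ →+ ℤ)
    (hψ : ModularCurve.Period.IsParabolicHom Γ ψ) (γ : Γ) (x : SL(2, ℤ))
    (hx : x⁻¹ * (γ : SL(2, ℤ)) * x ∈ Subgroup.zpowers T) : ψ (Additive.ofMul γ) = 0 := by
  obtain ⟨k, hk⟩ := hx
  have hk' : T ^ k = x⁻¹ * (γ : SL(2, ℤ)) * x := hk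
  have e : (γ : SL(2, ℤ)) = x * T ^ k * x⁻¹ := by rw [hk']; group
  apply hψ γ
  have htr : ((γ : SL(2, ℤ)) : Matrix (Fin 2) (Fin 2) ℤ).trace = 2 := by
    rw [e, Matrix.SpecialLinearGroup.coe_mul, Matrix.SpecialLinearGroup.coe_mul,
      Matrix.trace_mul_cycle, ← Matrix.SpecialLinearGroup.coe_mul, inv_mul_cancel,
      Matrix.SpecialLinearGroup.coe_one, one_mul, coe_T_zpow, Matrix.trace_fin_two_of]
    norm_num
  rw [htr]; norm_num

/-! ### facts about a `ρ`-invariant potential -/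

section FFacts

variable {Γ : Subgroup SL(2, ℤ)} {ψ : Additive Γ →+ ℤ} {f : SL(2, ℤ) → ℤ}

theorem potl_left {H : Subgroup SL(2, ℤ)}
    (hf : ∀ (γ : Γ) (x h : SL(2, ℤ)), h ∈ H →
      f ((γ : SL(2, ℤ)) * x * h) = f x + ψ (Additive.ofMul γ)) (γ : Γ) (x : SL(2, ℤ)) :
    f ((γ : SL(2, ℤ)) * x) = f x + ψ (Additive.ofMul γ) := by
  have := hf γ x 1 (Subgroup.one_mem _)
  simpa using this

theorem potl_right {H : Subgroup SL(2, ℤ)}
    (hf : ∀ (γ : Γ) (x h : SL(2, ℤ)), h ∈ H →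
      f ((γ : SL(2, ℤ)) * x * h) = f x + ψ (Additive.ofMul γ)) (x : SL(2, ℤ)) {h : SL(2, ℤ)}
    (hh : h ∈ H) : f (x * h) = f x := by
  have := hf 1 x h hh
  simpa [map_ofMul_one] using this

theorem T_mul_rho_sq : T * (S * T) ^ 2 = S := by
  apply Subtype.ext
  rw [pow_two, Matrix.SpecialLinearGroup.coe_mul, Matrix.SpecialLinearGroup.coe_mul, coe_rho,
    coe_T, coe_S, mul_fin_two, mul_fin_two]
  ext i j
  fin_cases i <;> fin_cases j <;> simp

end FFacts

/-! ### vectors -/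

theorem S_mulVec_e1 : (S : SL(2, ℤ)).1 *ᵥ ![1, 0] = ![0, 1] := by
  rw [coe_S]
  ext i
  fin_cases i <;> simp [Matrix.mulVec, dotProduct, Fin.sum_univ_two]

theorem T_mulVec_e1 : (T : SL(2, ℤ)).1 *ᵥ ![1, 0] = ![1, 0] := by
  rw [coe_T]
  ext i
  fin_cases i <;> simp [Matrix.mulVec, dotProduct, Fin.sum_univ_two]

theorem e2_ne_zero : (![0, 1] : Fin 2 → ℤ) ≠ 0 := by
  intro h
  have := congrFun h 1
  simp at this

/-! ### (INJ-right) -/

/-- (INJ-right) of the intersection route: if `p` (odd) divides `⟨δ, w⟩` for every `δ ∈ Γ`, then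
`p` divides `ψ w` for every parabolic homomorphism `ψ : Γ → ℤ`. -/
theorem inj_right (h2 : Fin2Stmt) (h3 : Fin3Stmt) (Γ : Subgroup SL(2, ℤ)) [Γ.FiniteIndex] {p : ℕ}
    (hp : p.Prime) (hp2 : p ≠ 2) (w : Γ) (h : ∀ δ : Γ, (p : ℤ) ∣ ipair Γ δ w)
    (ψ : Additive Γ →+ ℤ) (hψ : ModularCurve.Period.IsParabolicHom Γ ψ) :
    (p : ℤ) ∣ ψ (Additive.ofMul w) := by
  classical
  let _inst : Fintype (SL(2, ℤ) ⧸ Γ) := Fintype.ofFinite _
  have : NeZero p := ⟨hp.ne_zero⟩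
  obtain ⟨f, hf⟩ := exists_potential Γ (Subgroup.zpowers (S * T)) ψ (kills_rho Γ ψ)
  obtain ⟨u, hu⟩ := exists_potential Γ (Subgroup.zpowers T) ψ (kills_T Γ ψ hψ)
  have f_left := potl_left hf
  have u_left := potl_left hu
  have u_T : ∀ x, u (x * T) = u x := fun x => potl_right hu x (Subgroup.mem_zpowers _)
  have f_neg : ∀ x, f (x * -1) = f x := fun x => potl_right hf x neg_one_mem_zpowers_rho
  have f_S : ∀ x, f (x * S) = f (x * T) := fun x => by
    have := potl_right hf (x * T) (Subgroup.pow_mem _ (Subgroup.mem_zpowers (S * T)) 2)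
    rw [mul_assoc, T_mul_rho_sq] at this
    exact this
  set n : SL(2, ℤ) → ℤ := fun y => f (y * S) - f y with hn
  have n_inv : ∀ δ ∈ Γ, ∀ x, n (δ * x) = n x := by
    intro δ hδ x
    have e1 := f_left ⟨δ, hδ⟩ (x * S)
    have e2 := f_left ⟨δ, hδ⟩ x
    simp only [hn]
    rw [mul_assoc]
    linarith
  have n_S : ∀ x, n (x * S) = - n x := fun x => by
    simp only [hn]
    rw [mul_assoc, S_mul_S, f_neg]; ring
  -- the symbol function
  set U : SL(2, ℤ) → ℤ := fun x => isect Γ ![1, 0] (x.1 *ᵥ ![1, 0]) (w : SL(2, ℤ)) with hU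
  have U_left : ∀ δ (hδ : δ ∈ Γ) x, U (δ * x) = ipair Γ δ w + U x := by
    intro δ hδ x
    simp only [hU, ipair]
    rw [sl_mul_mulVec, isect_add h2 h3 Γ e1_ne_zero (sl_mulVec_ne_zero δ e1_ne_zero)
      (sl_mulVec_ne_zero δ (sl_mulVec_ne_zero x e1_ne_zero)) w.2, isect_inv Γ hδ]
  have U_T : ∀ x, U (x * T) = U x := fun x => by
    simp only [hU]
    rw [sl_mul_mulVec, T_mulVec_e1]
  have U_edge : ∀ x : SL(2, ℤ), isect Γ (x.1 *ᵥ ![1, 0]) (x.1 *ᵥ ![0, 1]) (w : SL(2, ℤ)) =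
      U (x * S) - U x := fun x => by
    simp only [hU]
    rw [sl_mul_mulVec, S_mulVec_e1, isect_add h2 h3 Γ (sl_mulVec_ne_zero x e1_ne_zero) e1_ne_zero
      (sl_mulVec_ne_zero x e2_ne_zero) w.2, isect_swap Γ ![1, 0] (x.1 *ᵥ ![1, 0])]
    ring
  -- the walk formula, decomposed along the cosets
  have hstar := eight_mul_eq_finsum h2 Γ ψ f hf w
  have hΦ : (Function.support fun y : SL(2, ℤ) =>
      (f (y * S) - f y) * (sgSL ((w : SL(2, ℤ)) * y) - sgSL y)).Finite := by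
    refine (H04.sgSL_mul_support_finite h2 (w : SL(2, ℤ))).subset ?_
    intro y hy
    simp only [Function.mem_support] at hy
    simp only [Set.mem_ofPred_eq]
    intro heq
    apply hy
    rw [heq, sub_self, mul_zero]
  rw [finsum_eq_sum_rrep Γ _ hΦ] at hstar
  have hinner : ∀ q : SL(2, ℤ) ⧸ Γ,
      ∑ᶠ δ : Γ, (f ((δ : SL(2, ℤ)) * rrep Γ q * S) - f ((δ : SL(2, ℤ)) * rrep Γ q)) *
        (sgSL ((w : SL(2, ℤ)) * ((δ : SL(2, ℤ)) * rrep Γ q)) - sgSL ((δ : SL(2, ℤ)) * rrep Γ q)) =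
      n (rrep Γ q) * (U (rrep Γ q * S) - U (rrep Γ q)) := by
    intro q
    rw [← U_edge, isect, mul_finsum]
    refine finsum_congr fun δ => ?_
    have e1 : f ((δ : SL(2, ℤ)) * rrep Γ q * S) - f ((δ : SL(2, ℤ)) * rrep Γ q) = n (rrep Γ q) :=
      n_inv δ δ.2 (rrep Γ q)
    rw [e1]
    congr 1
    simp only [isectTerm]
    rw [← sl_mul_mulVec, ← sl_mul_mulVec, ← sl_mul_mulVec, ← sl_mul_mulVec, ← sgSL_eq_sg,
      ← sgSL_eq_sg, mul_assoc]
  simp_rw [hinner] at hstar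
  -- reduction modulo `p`
  have hcast : ((8 * ψ (Additive.ofMul w) : ℤ) : ZMod p) = 0 := by
    rw [hstar]
    push_cast
    set Ub : SL(2, ℤ) → ZMod p := fun x => ((U x : ℤ) : ZMod p) with hUb
    have Ub_inv : ∀ δ ∈ Γ, ∀ x, Ub (δ * x) = Ub x := by
      intro δ hδ x
      simp only [hUb]
      rw [U_left δ hδ x]
      push_cast
      rw [(ZMod.intCast_zmod_eq_zero_iff_dvd _ p).mpr (h ⟨δ, hδ⟩), zero_add]
    have Ub_T : ∀ x, Ub (x * T) = Ub x := fun x => by simp only [hUb]; rw [U_T]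
    have hA : ∑ q : SL(2, ℤ) ⧸ Γ, ((n (rrep Γ q) : ℤ) : ZMod p) * Ub (rrep Γ q * S) =
        - ∑ q : SL(2, ℤ) ⧸ Γ, ((n (rrep Γ q) : ℤ) : ZMod p) * Ub (rrep Γ q) := by
      have := sum_rrep_mul Γ (fun x => ((n x : ℤ) : ZMod p) * Ub x)
        (fun δ hδ x => by rw [n_inv δ hδ, Ub_inv δ hδ]) S
      rw [← this, ← Finset.sum_neg_distrib]
      refine Finset.sum_congr rfl (fun q _ => ?_)
      rw [n_S]; push_cast; ring
    have hB : ∑ q : SL(2, ℤ) ⧸ Γ, ((n (rrep Γ q) : ℤ) : ZMod p) * Ub (rrep Γ q) = 0 := by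
      set D : SL(2, ℤ) → ℤ := fun x => f x - u x with hD
      have D_inv : ∀ δ ∈ Γ, ∀ x, D (δ * x) = D x := by
        intro δ hδ x
        have e1 := f_left ⟨δ, hδ⟩ x
        have e2 := u_left ⟨δ, hδ⟩ x
        simp only [hD]
        linarith
      have hnD : ∀ x, n x = D (x * T) - D x := fun x => by
        simp only [hn, hD]
        rw [f_S, u_T]; ring
      have := sum_rrep_mul Γ (fun x => ((D x : ℤ) : ZMod p) * Ub x)
        (fun δ hδ x => by rw [D_inv δ hδ, Ub_inv δ hδ]) T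
      calc ∑ q : SL(2, ℤ) ⧸ Γ, ((n (rrep Γ q) : ℤ) : ZMod p) * Ub (rrep Γ q)
          = ∑ q : SL(2, ℤ) ⧸ Γ, (((D (rrep Γ q * T) : ℤ) : ZMod p) * Ub (rrep Γ q * T) -
              ((D (rrep Γ q) : ℤ) : ZMod p) * Ub (rrep Γ q)) := by
            refine Finset.sum_congr rfl (fun q _ => ?_)
            rw [hnD, Ub_T]; push_cast; ring
        _ = 0 := by rw [Finset.sum_sub_distrib, this, sub_self]
    simp only [mul_sub, Finset.sum_sub_distrib]
    rw [hA, hB]; simp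
  have hdvd : (p : ℤ) ∣ 8 * ψ (Additive.ofMul w) :=
    (ZMod.intCast_zmod_eq_zero_iff_dvd _ p).mp hcast
  have hcop : IsCoprime (p : ℤ) 8 := by
    have h1 : Nat.Coprime p 2 := (Nat.coprime_primes hp Nat.prime_two).mpr hp2
    have h3' : Nat.Coprime p (2 ^ 3) := h1.pow_right 3
    exact_mod_cast (Nat.isCoprime_iff_coprime (m := p) (n := 8)).mpr h3'
  exact hcop.dvd_of_dvd_mul_left hdvd

/-- (INJ-right) with the finiteness statements of leaf I2 discharged. -/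
theorem inj_right' (Γ : Subgroup SL(2, ℤ)) [Γ.FiniteIndex] {p : ℕ}
    (hp : p.Prime) (hp2 : p ≠ 2) (w : Γ) (h : ∀ δ : Γ, (p : ℤ) ∣ ipair Γ δ w)
    (ψ : Additive Γ →+ ℤ) (hψ : ModularCurve.Period.IsParabolicHom Γ ψ) :
    (p : ℤ) ∣ ψ (Additive.ofMul w) :=
  inj_right (fun α hα d hd => H69.fin2 α hα d hd) (fun d₁ d₂ d₃ h₁ h₂ h₃ => H69.fin3 d₁ d₂ d₃ h₁ h₂ h₃)
    Γ hp hp2 w h ψ hψ

end Fermat.Agent.S41.H44.InjR
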