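import Mathlib
import Fermat.Prelude.Def_ModularCurve_PeriodMap
import Fermat.Agent.S41.Isect_helper11

/-!
# S41, node (C), route C-I, leaf (INJ-right) (helper73): right non-degeneracy modulo `p`

If `w ∈ Γ` pairs to `0` modulo an odd prime `p` with every element of `Γ` in the intersection
form `ipair Γ · w`, then every parabolic character of `Γ` kills `w` modulo `p`.

* `exists_potential` : a generic potential lemma for double cosets `Γ \ G / H`.
* `sgSL_S_inv_mul_of_ne`, `sgSL_rho_inv_mul` : the side function under `S⁻¹` and `ρ⁻¹`.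
* `walkA`, `walkA_S`, `walkA_rho` : the walk functional and its jumps.
* `walk_formula` : `∑ z, n z * (sgSL (γ z) - sgSL z) = 8 ψ γ` for the edge function `n` of a
  `ρ`-invariant potential of `ψ`.
* `sum_mul_right_transversal`, `finsum_eq_sum_transversal` : sums over a right transversal.
* `inj_right` : the statement.
-/

set_option autoImplicit false

namespace Fermat.Agent.S41.H73

open Matrix
open scoped MatrixGroups
open Fermat.Agent.S41.H11

/-! ### a generic potential lemma -/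

section Potential

variable {G : Type*} [Group G]

/-- The double coset relation of `Γ \ G / H`. -/
def dcSetoid (Γ H : Subgroup G) : Setoid G where
  r x y := ∃ (γ : Γ) (h : H), y = (γ : G) * x * (h : G)
  iseqv :=
    ⟨fun x => ⟨1, 1, by simp⟩,
      fun {x y} ⟨γ, h, e⟩ => ⟨γ⁻¹, h⁻¹, by rw [e]; simp [mul_assoc]⟩,
      fun {x y z} ⟨γ, h, e⟩ ⟨γ', h', e'⟩ => ⟨γ' * γ, h * h', by rw [e', e]; simp [mul_assoc]⟩⟩

/-- **Potentials.**  If the character `ψ` of `Γ` kills `Γ ∩ x H x⁻¹` for all `x`, then there is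
a function `f` on `G` with `f (γ x) = f x + ψ γ` and `f (x h) = f x`. -/
theorem exists_potential (Γ H : Subgroup G) (ψ : Additive Γ →+ ℤ)
    (hψ : ∀ (γ : Γ) (x : G) (h : H), (γ : G) * x = x * (h : G) → ψ (Additive.ofMul γ) = 0) :
    ∃ f : G → ℤ, (∀ (γ : Γ) (x : G), f ((γ : G) * x) = f x + ψ (Additive.ofMul γ)) ∧
      ∀ (x : G) (h : G), h ∈ H → f (x * h) = f x := by
  classical
  have hrep : ∀ x : G, ∃ (γ : Γ) (h : H),
      x = (γ : G) * (Quotient.out (Quotient.mk (dcSetoid Γ H) x)) * (h : G) := fun x =>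
    Quotient.mk_out (s := dcSetoid Γ H) x
  choose c d hcd using hrep
  have key : ∀ (x y : G) (γ : Γ) (h : H), y = (γ : G) * x * (h : G) →
      ψ (Additive.ofMul (c y)) = ψ (Additive.ofMul (c x)) + ψ (Additive.ofMul γ) := by
    intro x y γ h e
    have hq : Quotient.mk (dcSetoid Γ H) x = Quotient.mk (dcSetoid Γ H) y :=
      Quotient.sound (s := dcSetoid Γ H) ⟨γ, h, e⟩
    have hx := hcd x
    have hy := hcd y
    rw [← hq] at hy
    set r := Quotient.out (Quotient.mk (dcSetoid Γ H) x) with hr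
    have E : (c y : G) * r * (d y : G) = (γ : G) * ((c x : G) * r * (d x : G)) * (h : G) := by
      rw [← hy, ← hx, e]
    have hdy : (d y : G) = r⁻¹ * (c y : G)⁻¹ * ((γ : G) * ((c x : G) * r * (d x : G)) * (h : G)) := by
      rw [← E]; group
    have h0 := hψ ((c y)⁻¹ * γ * c x) r (d y * h⁻¹ * (d x)⁻¹) (by
      push_cast
      rw [hdy]; group)
    have h1 : ψ (Additive.ofMul ((c y)⁻¹ * γ * c x)) =
        - ψ (Additive.ofMul (c y)) + ψ (Additive.ofMul γ) + ψ (Additive.ofMul (c x)) := by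
      rw [ofMul_mul, ofMul_mul, ofMul_inv, map_add, map_add, map_neg]
    rw [h1] at h0
    linarith
  refine ⟨fun x => ψ (Additive.ofMul (c x)), fun γ x => ?_, fun x h hh => ?_⟩
  · exact key x _ γ 1 (by simp)
  · have := key x (x * h) 1 ⟨h, hh⟩ (by simp)
    simpa using this

end Potential

/-! ### the side function under `S⁻¹` and `ρ⁻¹` -/

theorem sl2_ext {z z' : SL(2, ℤ)} (h00 : z 0 0 = z' 0 0) (h01 : z 0 1 = z' 0 1)
    (h10 : z 1 0 = z' 1 0) (h11 : z 1 1 = z' 1 1) : z = z' := by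
  apply Subtype.ext
  ext i j
  fin_cases i <;> fin_cases j
  · exact h00
  · exact h01
  · exact h10
  · exact h11

theorem sl2_det (z : SL(2, ℤ)) : z 0 0 * z 1 1 - z 0 1 * z 1 0 = 1 := by
  have := z.2
  rw [Matrix.det_fin_two] at this
  exact this

theorem sign_eq_of_mul_pos {u v : ℤ} (h : 0 < u * v) : Int.sign u = Int.sign v := by
  rcases lt_trichotomy u 0 with hu | hu | hu
  · have hv : v < 0 := by
      by_contra hv
      have hv' : 0 ≤ v := not_lt.mp hv
      nlinarith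
    rw [Int.sign_eq_neg_one_of_neg hu, Int.sign_eq_neg_one_of_neg hv]
  · rw [hu] at h; simp at h
  · have hv : 0 < v := by
      by_contra hv
      have hv' : v ≤ 0 := not_lt.mp hv
      nlinarith
    rw [Int.sign_eq_one_of_pos hu, Int.sign_eq_one_of_pos hv]

theorem S_inv_mul_entries (z : SL(2, ℤ)) :
    (ModularGroup.S⁻¹ * z) 0 0 = z 1 0 ∧ (ModularGroup.S⁻¹ * z) 0 1 = z 1 1 ∧
      (ModularGroup.S⁻¹ * z) 1 0 = - z 0 0 ∧ (ModularGroup.S⁻¹ * z) 1 1 = - z 0 1 := by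
  rw [ModularGroup.S_inv]
  refine ⟨?_, ?_, ?_, ?_⟩ <;>
    simp [Matrix.SpecialLinearGroup.coe_mul, Matrix.SpecialLinearGroup.coe_neg,
      Matrix.vecMul, dotProduct, Fin.sum_univ_two]

/-- **(KEY)**: `sgSL (S⁻¹ z) = sgSL z` unless `z ∈ {1, -1, S, -S}`. -/
theorem sgSL_S_inv_mul_of_ne (z : SL(2, ℤ)) (h1 : z ≠ 1) (h2 : z ≠ -1)
    (h3 : z ≠ ModularGroup.S) (h4 : z ≠ -ModularGroup.S) :
    sgSL (ModularGroup.S⁻¹ * z) = sgSL z := by
  obtain ⟨e00, e01, e10, e11⟩ := S_inv_mul_entries z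
  have hdet := sl2_det z
  simp only [sgSL, e00, e01, e10, e11]
  set a := z 0 0 with ha
  set b := z 0 1 with hb
  set c := z 1 0 with hc
  set d := z 1 1 with hd
  by_cases hX : a * b + c * d = 0
  · exfalso
    -- then `z ∈ {±1, ±S}`
    have hab : a * b = 0 := by
      have h5 : (a * d + b * c) ^ 2 = 1 - 4 * (a * b) ^ 2 := by
        have : c * d = - (a * b) := by linarith
        have h6 : (a * d + b * c) ^ 2 = (a * d - b * c) ^ 2 + 4 * (a * b) * (c * d) := by ring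
        rw [h6, this, hdet]; ring
      have h7 : 4 * (a * b) ^ 2 ≤ 1 := by nlinarith [sq_nonneg (a * d + b * c)]
      have h8 : (a * b) ^ 2 = 0 := by nlinarith [sq_nonneg (a * b)]
      exact pow_eq_zero_iff (two_ne_zero) |>.mp h8
    have hcd : c * d = 0 := by linarith
    rcases mul_eq_zero.mp hab with ha0 | hb0
    · -- a = 0
      have hbc : b * c = -1 := by rw [ha0] at hdet; linarith
      have hd0 : d = 0 := by
        rcases mul_eq_zero.mp hcd with hc0 | hd0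
        · rw [hc0] at hbc; simp at hbc
        · exact hd0
      rcases Int.mul_eq_neg_one_iff_eq_one_or_neg_one.mp hbc with ⟨hb1, hc1⟩ | ⟨hb1, hc1⟩
      · apply h4
        apply sl2_ext <;>
          simp [Matrix.SpecialLinearGroup.coe_neg, ← ha, ← hb, ← hc, ← hd, ha0, hb1, hc1, hd0]
      · apply h3
        apply sl2_ext <;>
          simp [← ha, ← hb, ← hc, ← hd, ha0, hb1, hc1, hd0]
    · -- b = 0
      have had : a * d = 1 := by rw [hb0] at hdet; linarith
      have hc0 : c = 0 := by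
        rcases mul_eq_zero.mp hcd with hc0 | hd0
        · exact hc0
        · rw [hd0] at had; simp at had
      rcases Int.mul_eq_one_iff_eq_one_or_neg_one.mp had with ⟨ha1, hd1⟩ | ⟨ha1, hd1⟩
      · apply h1
        apply sl2_ext <;>
          simp [← ha, ← hb, ← hc, ← hd, ha1, hb0, hc0, hd1]
      · apply h2
        apply sl2_ext <;>
          simp [Matrix.SpecialLinearGroup.coe_neg, ← ha, ← hb, ← hc, ← hd, ha1, hb0, hc0, hd1]
  · apply sign_eq_of_mul_pos
    have hX1 : 1 ≤ (a * b + c * d) ^ 2 := by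
      have : 0 < (a * b + c * d) ^ 2 := by positivity
      linarith
    have hY : (a * d + b * c) ^ 2 ≤ 1 + (a * b + c * d) ^ 2 := by
      have h6 : (a * d + b * c) ^ 2 = (a * d - b * c) ^ 2 + 4 * (a * b) * (c * d) := by ring
      rw [h6, hdet]
      nlinarith [sq_nonneg (a * b - c * d)]
    nlinarith

theorem rho_inv_mul_entries (z : SL(2, ℤ)) :
    ((ModularGroup.S * ModularGroup.T)⁻¹ * z) 0 0 = z 0 0 + z 1 0 ∧
      ((ModularGroup.S * ModularGroup.T)⁻¹ * z) 0 1 = z 0 1 + z 1 1 ∧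
      ((ModularGroup.S * ModularGroup.T)⁻¹ * z) 1 0 = - z 0 0 ∧
      ((ModularGroup.S * ModularGroup.T)⁻¹ * z) 1 1 = - z 0 1 := by
  rw [_root_.mul_inv_rev, ModularGroup.S_inv]
  refine ⟨?_, ?_, ?_, ?_⟩ <;>
    simp [Matrix.SpecialLinearGroup.coe_mul, Matrix.SpecialLinearGroup.coe_neg,
      Matrix.vecMul, dotProduct, Fin.sum_univ_two] <;>
    ring

/-- The side function is invariant under `ρ⁻¹`, `ρ = S T`. -/
theorem sgSL_rho_inv_mul (z : SL(2, ℤ)) :
    sgSL ((ModularGroup.S * ModularGroup.T)⁻¹ * z) = sgSL z := by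
  obtain ⟨e00, e01, e10, e11⟩ := rho_inv_mul_entries z
  simp only [sgSL, e00, e01, e10, e11]
  congr 1
  ring

theorem sgSL_one : sgSL 1 = 1 := by decide
theorem sgSL_neg_one : sgSL (-1) = 1 := by decide
theorem sgSL_S : sgSL ModularGroup.S = -1 := by decide
theorem sgSL_neg_S : sgSL (-ModularGroup.S) = -1 := by decide
theorem sgSL_S_inv : sgSL ModularGroup.S⁻¹ = -1 := by decide


/-! ### finite support -/

theorem e1e2_det2 : det2 (![1, 0] : Fin 2 → ℤ) ![0, 1] = 1 := by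
  simp [det2]

/-- `sgSL z` is the sign of the base form at the two columns of `z`. -/
theorem sgSL_eq_sign_bform (z : SL(2, ℤ)) :
    sgSL z = Int.sign (bform (z.1 *ᵥ ![1, 0]) (z.1 *ᵥ ![0, 1])) := by
  rw [sgSL_eq_sg, sg, det2_sl, e1e2_det2]
  simp

theorem support_sgSL_mul_finite (h2 : Fin2Stmt) (x : SL(2, ℤ)) :
    (Function.support fun z : SL(2, ℤ) => sgSL (x * z) - sgSL z).Finite := by
  have hfin := h2 x.1 (by rw [x.2]; exact one_ne_zero) 1 one_ne_zero
  let φ : SL(2, ℤ) → (Fin 2 → ℤ) × (Fin 2 → ℤ) := fun z => (z.1 *ᵥ ![1, 0], z.1 *ᵥ ![0, 1])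
  have hφ : Function.Injective φ := by
    intro z₁ z₂ h
    have e1 := congrArg Prod.fst h
    have e2 := congrArg Prod.snd h
    exact sl_eq_of_mulVec_eq (by rw [e1e2_det2]; exact one_ne_zero) e1 e2
  refine (hfin.preimage (hφ.injOn)).subset ?_
  intro z hz
  simp only [Function.mem_support, ne_eq] at hz
  show det2 (φ z).1 (φ z).2 = 1 ∧
    Int.sign (bform (x.1 *ᵥ (φ z).1) (x.1 *ᵥ (φ z).2)) ≠ Int.sign (bform (φ z).1 (φ z).2)
  refine ⟨by rw [det2_sl, e1e2_det2], fun hs => hz ?_⟩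
  rw [sgSL_eq_sign_bform, sgSL_eq_sign_bform, sl_mul_mulVec, sl_mul_mulVec]
  show Int.sign (bform (x.1 *ᵥ (φ z).1) (x.1 *ᵥ (φ z).2)) - Int.sign (bform (φ z).1 (φ z).2) = 0
  rw [hs, sub_self]

/-! ### the walk functional -/

/-- `A n x = ∑ z, n z * (sgSL (x z) - sgSL z)`. -/
noncomputable def walkA (n : SL(2, ℤ) → ℤ) (x : SL(2, ℤ)) : ℤ :=
  ∑ᶠ z : SL(2, ℤ), n z * (sgSL (x * z) - sgSL z)

theorem walkA_support_finite (h2 : Fin2Stmt) (n : SL(2, ℤ) → ℤ) (x : SL(2, ℤ)) :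
    (Function.support fun z : SL(2, ℤ) => n z * (sgSL (x * z) - sgSL z)).Finite := by
  refine (support_sgSL_mul_finite h2 x).subset ?_
  intro z hz
  simp only [Function.mem_support, ne_eq] at hz ⊢
  intro h0
  apply hz
  rw [h0, mul_zero]

theorem walkA_one (n : SL(2, ℤ) → ℤ) : walkA n 1 = 0 := by
  simp [walkA]

theorem walkA_rho (n : SL(2, ℤ) → ℤ) (x : SL(2, ℤ)) :
    walkA n ((ModularGroup.S * ModularGroup.T)⁻¹ * x) = walkA n x := by
  simp only [walkA]
  refine finsum_congr fun z => ?_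
  rw [mul_assoc, sgSL_rho_inv_mul]

theorem four_ne : (1 : SL(2, ℤ)) ≠ -1 ∧ (1 : SL(2, ℤ)) ≠ ModularGroup.S ∧
    (1 : SL(2, ℤ)) ≠ -ModularGroup.S ∧ (-1 : SL(2, ℤ)) ≠ ModularGroup.S ∧
    (-1 : SL(2, ℤ)) ≠ -ModularGroup.S ∧ ModularGroup.S ≠ -ModularGroup.S := by decide

/-- The jump of the walk functional across the edge `y`. -/
theorem walkA_S (h2 : Fin2Stmt) (n : SL(2, ℤ) → ℤ) (y : SL(2, ℤ)) :
    walkA n (ModularGroup.S⁻¹ * y⁻¹) - walkA n y⁻¹ =
      -2 * n y - 2 * n (y * (-1)) + 2 * n (y * ModularGroup.S) +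
        2 * n (y * (-ModularGroup.S)) := by
  classical
  simp only [walkA]
  rw [← finsum_sub_distrib (walkA_support_finite h2 n _) (walkA_support_finite h2 n _)]
  have e1 : ∀ z : SL(2, ℤ), n z * (sgSL (ModularGroup.S⁻¹ * y⁻¹ * z) - sgSL z) -
      n z * (sgSL (y⁻¹ * z) - sgSL z) =
      (fun z' : SL(2, ℤ) => n (y * z') * (sgSL (ModularGroup.S⁻¹ * z') - sgSL z'))
        (Equiv.mulLeft y⁻¹ z) := by
    intro z
    simp only [Equiv.coe_mulLeft, mul_inv_cancel_left, mul_assoc]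
    ring
  rw [finsum_congr e1, finsum_comp_equiv (Equiv.mulLeft y⁻¹)
    (f := fun z' : SL(2, ℤ) => n (y * z') * (sgSL (ModularGroup.S⁻¹ * z') - sgSL z'))]
  obtain ⟨d1, d2, d3, d4, d5, d6⟩ := four_ne
  have hsub : (Function.support fun z' : SL(2, ℤ) =>
      n (y * z') * (sgSL (ModularGroup.S⁻¹ * z') - sgSL z')) ⊆
      (({1, -1, ModularGroup.S, -ModularGroup.S} : Finset SL(2, ℤ)) : Set SL(2, ℤ)) := by
    intro z hz
    simp only [Function.mem_support, ne_eq] at hz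
    by_contra hmem
    simp only [Finset.coe_insert, Finset.coe_singleton, Set.mem_insert_iff,
      Set.mem_singleton_iff, not_or] at hmem
    apply hz
    rw [sgSL_S_inv_mul_of_ne z hmem.1 hmem.2.1 hmem.2.2.1 hmem.2.2.2, sub_self, mul_zero]
  rw [finsum_eq_sum_of_support_subset _ hsub]
  rw [Finset.sum_insert (by simp [d1, d2, d3]), Finset.sum_insert (by simp [d4, d5]),
    Finset.sum_insert (by simp [d6]), Finset.sum_singleton]
  have v1 : sgSL (ModularGroup.S⁻¹ * 1) - sgSL 1 = -2 := by decide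
  have v2 : sgSL (ModularGroup.S⁻¹ * (-1)) - sgSL (-1) = -2 := by decide
  have v3 : sgSL (ModularGroup.S⁻¹ * ModularGroup.S) - sgSL ModularGroup.S = 2 := by decide
  have v4 : sgSL (ModularGroup.S⁻¹ * (-ModularGroup.S)) - sgSL (-ModularGroup.S) = 2 := by decide
  rw [v1, v2, v3, v4, mul_one]
  ring

/-! ### the walk formula -/

/-- A function on `SL(2, ℤ)` which is right-invariant under `S` and `ρ = S T` is constant. -/
theorem const_of_right_inv {M : Type*} (Φ : SL(2, ℤ) → M)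
    (hS : ∀ y, Φ (y * ModularGroup.S) = Φ y)
    (hρ : ∀ y, Φ (y * (ModularGroup.S * ModularGroup.T)) = Φ y) (g : SL(2, ℤ)) : Φ g = Φ 1 := by
  let H : Subgroup SL(2, ℤ) :=
    { carrier := {g | ∀ y, Φ (y * g) = Φ y}
      mul_mem' := by
        intro a b ha hb y
        rw [← mul_assoc, hb, ha]
      one_mem' := by intro y; rw [mul_one]
      inv_mem' := by
        intro a ha y
        have := ha (y * a⁻¹)
        rw [inv_mul_cancel_right] at this
        exact this.symm }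
  have hSm : ModularGroup.S ∈ H := hS
  have hTm : ModularGroup.T ∈ H := by
    have h1 : ModularGroup.S * ModularGroup.T ∈ H := hρ
    have h2 : ModularGroup.S⁻¹ * (ModularGroup.S * ModularGroup.T) ∈ H :=
      H.mul_mem (H.inv_mem hSm) h1
    rwa [inv_mul_cancel_left] at h2
  have htop : H = ⊤ := by
    rw [eq_top_iff, ← _root_.SpecialLinearGroup.SL2Z_generators, Subgroup.closure_le]
    intro x hx
    rcases hx with rfl | rfl
    · exact hSm
    · exact hTm
  have hg : g ∈ H := by rw [htop]; trivial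
  have := hg 1
  rwa [one_mul] at this

theorem neg_one_mul_S : (-1 : SL(2, ℤ)) * ModularGroup.S = ModularGroup.S * (-1) := by decide
theorem S_mul_S : ModularGroup.S * ModularGroup.S = (-1 : SL(2, ℤ)) := by decide
theorem neg_S_mul_S : (-ModularGroup.S) * ModularGroup.S = (1 : SL(2, ℤ)) := by decide
theorem neg_S_eq : (-ModularGroup.S : SL(2, ℤ)) = ModularGroup.S * (-1) := by decide
theorem S_inv_eq : (ModularGroup.S⁻¹ : SL(2, ℤ)) = ModularGroup.S * (-1) := by decide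
theorem T_eq : ModularGroup.T = ModularGroup.S⁻¹ * (ModularGroup.S * ModularGroup.T) := by
  rw [inv_mul_cancel_left]

/-- The edge function `n z = f (z S) - f z` of a function invariant under `ρ` and `-1`. -/
theorem edge_facts (f : SL(2, ℤ) → ℤ) (hfneg : ∀ x, f (x * (-1)) = f x) (y : SL(2, ℤ)) :
    (f (y * (-1) * ModularGroup.S) - f (y * (-1)) = f (y * ModularGroup.S) - f y) ∧
    (f (y * ModularGroup.S * ModularGroup.S) - f (y * ModularGroup.S) =
      - (f (y * ModularGroup.S) - f y)) ∧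
    (f (y * (-ModularGroup.S) * ModularGroup.S) - f (y * (-ModularGroup.S)) =
      - (f (y * ModularGroup.S) - f y)) := by
  refine ⟨?_, ?_, ?_⟩
  · rw [mul_assoc, neg_one_mul_S, ← mul_assoc, hfneg, hfneg]
  · rw [mul_assoc, S_mul_S, hfneg]; ring
  · rw [mul_assoc, neg_S_mul_S, mul_one, neg_S_eq, ← mul_assoc, hfneg]; ring

/-- **Walk formula, potential form.**  For a function `f` right-invariant under `ρ` and `-1`,
with edge function `n z = f (z S) - f z`: `A n x⁻¹ + 8 f x` is constant. -/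
theorem walkA_add_eq (h2 : Fin2Stmt) (f : SL(2, ℤ) → ℤ)
    (hfρ : ∀ x, f (x * (ModularGroup.S * ModularGroup.T)) = f x)
    (hfneg : ∀ x, f (x * (-1)) = f x) (x : SL(2, ℤ)) :
    walkA (fun z => f (z * ModularGroup.S) - f z) x⁻¹ + 8 * f x = 8 * f 1 := by
  have key := const_of_right_inv
    (fun y => walkA (fun z => f (z * ModularGroup.S) - f z) y⁻¹ + 8 * f y) ?_ ?_ x
  · simpa [walkA_one] using key
  · intro y
    have hj := walkA_S h2 (fun z => f (z * ModularGroup.S) - f z) y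
    obtain ⟨n1, n2, n3⟩ := edge_facts f hfneg y
    rw [n1, n2, n3] at hj
    show walkA _ (y * ModularGroup.S)⁻¹ + 8 * f (y * ModularGroup.S) = walkA _ y⁻¹ + 8 * f y
    rw [_root_.mul_inv_rev]
    linarith
  · intro y
    show walkA _ (y * (ModularGroup.S * ModularGroup.T))⁻¹ +
      8 * f (y * (ModularGroup.S * ModularGroup.T)) = walkA _ y⁻¹ + 8 * f y
    rw [_root_.mul_inv_rev, walkA_rho, hfρ]

/-! ### sums over a right transversal -/

section Transversal

variable {G : Type*} [Group G]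

/-- A left-`Γ`-invariant function has the same sum over a right transversal and over its right
translate. -/
theorem sum_mul_right_transversal {M : Type*} [AddCommMonoid M] (Γ : Subgroup G) {R : Set G}
    (hR : Subgroup.IsComplement (Γ : Set G) R) [Fintype R] (φ : G → M)
    (hφ : ∀ γ ∈ Γ, ∀ x : G, φ (γ * x) = φ x) (g : G) :
    ∑ r : R, φ ((r : G) * g) = ∑ r : R, φ (r : G) := by
  classical
  have hex : ∀ r : R, ∃ (γ : G) (r' : R), γ ∈ Γ ∧ (r : G) * g = γ * (r' : G) := by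
    intro r
    obtain ⟨⟨γ, r'⟩, h⟩ := hR.2 ((r : G) * g)
    exact ⟨γ.1, r', γ.2, h.symm⟩
  choose c e hc he using hex
  have hinj : Function.Injective e := by
    intro r₁ r₂ h12
    have h1 := he r₁
    have h2 := he r₂
    rw [h12] at h1
    have h3 : (r₁ : G) = c r₁ * (c r₂)⁻¹ * (r₂ : G) := by
      have e1 : (r₁ : G) = c r₁ * (e r₂ : G) * g⁻¹ := by rw [← h1]; group
      have e2 : (e r₂ : G) = (c r₂)⁻¹ * ((r₂ : G) * g) := by rw [h2]; group
      rw [e1, e2]; group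
    have h4 := hR.1 (a₁ := ⟨⟨1, Γ.one_mem⟩, r₁⟩)
      (a₂ := ⟨⟨c r₁ * (c r₂)⁻¹, Γ.mul_mem (hc r₁) (Γ.inv_mem (hc r₂))⟩, r₂⟩)
      (by
        show (1 : G) * (r₁ : G) = c r₁ * (c r₂)⁻¹ * (r₂ : G)
        rw [one_mul, ← h3])
    exact (Prod.ext_iff.mp h4).2
  have hbij : Function.Bijective e := Finite.injective_iff_bijective.mp hinj
  calc ∑ r : R, φ ((r : G) * g) = ∑ r : R, φ ((e r : R) : G) := by
        refine Finset.sum_congr rfl fun r _ => ?_
        rw [he r, hφ _ (hc r)]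
    _ = ∑ r : R, φ (r : G) := hbij.sum_comp (fun r : R => φ (r : G))

/-- A finitely supported sum over `G` as a sum over a right transversal of sums over `Γ`. -/
theorem finsum_eq_sum_transversal (Γ : Subgroup G) {R : Set G}
    (hR : Subgroup.IsComplement (Γ : Set G) R) [Fintype R] (F : G → ℤ)
    (hF : (Function.support F).Finite) :
    ∑ᶠ z : G, F z = ∑ r : R, ∑ᶠ δ : Γ, F ((δ : G) * (r : G)) := by
  classical
  let e : R × Γ ≃ G := (Equiv.prodComm R Γ).trans (Equiv.ofBijective _ hR)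
  have hfin : (Function.support fun q : R × Γ => F (e q)).Finite :=
    (hF.preimage e.injective.injOn).subset (fun q hq => hq)
  rw [← finsum_comp_equiv e, finsum_curry _ hfin, finsum_eq_sum_of_fintype]
  rfl

end Transversal

/-! ### potentials of a parabolic character -/

theorem rho_pow_six : (ModularGroup.S * ModularGroup.T) ^ 6 = 1 := by decide

theorem rho_pow_three : (ModularGroup.S * ModularGroup.T) ^ 3 = -1 := by decide

theorem S_mulVec_e1 : ModularGroup.S.1 *ᵥ ![1, 0] = ![0, 1] := by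
  ext i; fin_cases i <;> simp [Matrix.mulVec, dotProduct, Fin.sum_univ_two]

theorem T_mulVec_e1 : ModularGroup.T.1 *ᵥ ![1, 0] = ![1, 0] := by
  ext i; fin_cases i <;> simp [Matrix.mulVec, dotProduct, Fin.sum_univ_two]

theorem e2_ne_zero : (![0, 1] : Fin 2 → ℤ) ≠ 0 := by
  intro h
  have := congrFun h 1
  simp at this

/-- A `ρ`-invariant potential of a character (characters into `ℤ` kill torsion). -/
theorem exists_rho_potential (Γ : Subgroup SL(2, ℤ)) (ψ : Additive Γ →+ ℤ) :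
    ∃ f : SL(2, ℤ) → ℤ,
      (∀ (γ : Γ) (x : SL(2, ℤ)), f ((γ : SL(2, ℤ)) * x) = f x + ψ (Additive.ofMul γ)) ∧
      (∀ x, f (x * (ModularGroup.S * ModularGroup.T)) = f x) ∧ ∀ x, f (x * (-1)) = f x := by
  have hside : ∀ (γ : Γ) (x : SL(2, ℤ))
      (h : Subgroup.zpowers (ModularGroup.S * ModularGroup.T)),
      (γ : SL(2, ℤ)) * x = x * (h : SL(2, ℤ)) → ψ (Additive.ofMul γ) = 0 := by
    intro γ x h hγ
    obtain ⟨k, hk⟩ := Subgroup.mem_zpowers_iff.mp h.2
    have h6 : (h : SL(2, ℤ)) ^ 6 = 1 := by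
      rw [← hk, ← zpow_natCast, ← _root_.zpow_mul, mul_comm, _root_.zpow_mul, zpow_natCast, rho_pow_six,
        _root_.one_zpow]
    have hγ' : (γ : SL(2, ℤ)) = x * h * x⁻¹ := eq_mul_inv_of_mul_eq hγ
    have hγ6 : γ ^ 6 = 1 := by
      apply Subtype.ext
      rw [Subgroup.coe_pow, hγ', conj_pow, h6]
      simp
    have h0 : ψ (Additive.ofMul (γ ^ 6)) = 0 := by rw [hγ6]; simp
    rw [ofMul_pow, map_nsmul] at h0
    simpa using h0
  obtain ⟨f, hf1, hf2⟩ :=
    exists_potential Γ (Subgroup.zpowers (ModularGroup.S * ModularGroup.T)) ψ hside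
  refine ⟨f, hf1, fun x => hf2 x _ (Subgroup.mem_zpowers _), fun x => hf2 x _ ?_⟩
  rw [← rho_pow_three]
  exact Subgroup.pow_mem _ (Subgroup.mem_zpowers _) 3

/-- A cusp potential of a parabolic character. -/
theorem exists_cusp_potential (Γ : Subgroup SL(2, ℤ)) (ψ : Additive Γ →+ ℤ)
    (hψ : ModularCurve.Period.IsParabolicHom Γ ψ) :
    ∃ u : SL(2, ℤ) → ℤ,
      (∀ (γ : Γ) (x : SL(2, ℤ)), u ((γ : SL(2, ℤ)) * x) = u x + ψ (Additive.ofMul γ)) ∧
      ∀ x, u (x * ModularGroup.T) = u x := by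
  have hside : ∀ (γ : Γ) (x : SL(2, ℤ)) (h : Subgroup.zpowers ModularGroup.T),
      (γ : SL(2, ℤ)) * x = x * (h : SL(2, ℤ)) → ψ (Additive.ofMul γ) = 0 := by
    intro γ x h hγ
    obtain ⟨k, hk⟩ := Subgroup.mem_zpowers_iff.mp h.2
    have hγ' : (γ : SL(2, ℤ)) = x * h * x⁻¹ := eq_mul_inv_of_mul_eq hγ
    apply hψ γ
    have htr : ((γ : SL(2, ℤ)) : Matrix (Fin 2) (Fin 2) ℤ).trace = 2 := by
      rw [hγ', Matrix.SpecialLinearGroup.coe_mul, Matrix.trace_mul_comm,
        ← Matrix.SpecialLinearGroup.coe_mul, inv_mul_cancel_left, ← hk, ModularGroup.coe_T_zpow]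
      simp [Matrix.trace_fin_two]
    rw [htr]; norm_num
  obtain ⟨u, hu1, hu2⟩ := exists_potential Γ (Subgroup.zpowers ModularGroup.T) ψ hside
  exact ⟨u, hu1, fun x => hu2 x _ (Subgroup.mem_zpowers _)⟩

/-! ### the main theorem -/

/-- **(INJ-right).**  If `w ∈ Γ` is orthogonal modulo the odd prime `p` to all of `Γ` for the
intersection form (in the second slot), then every parabolic character of `Γ` kills `w`
modulo `p`. -/
theorem inj_right (h2 : Fin2Stmt) (h3 : Fin3Stmt) (Γ : Subgroup SL(2, ℤ)) [Γ.FiniteIndex]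
    {p : ℕ} (hp : p.Prime) (hp2 : p ≠ 2) (w : Γ)
    (h : ∀ δ : Γ, (p : ℤ) ∣ ipair Γ δ w) (ψ : Additive Γ →+ ℤ)
    (hψ : ModularCurve.Period.IsParabolicHom Γ ψ) : (p : ℤ) ∣ ψ (Additive.ofMul w) := by
  classical
  obtain ⟨R, hR, -⟩ := Subgroup.exists_isComplement_right Γ 1
  have : Finite R := hR.finite_right_iff.mpr inferInstance
  have : Fintype R := Fintype.ofFinite R
  obtain ⟨f, hfΓ, hfρ, hfneg⟩ := exists_rho_potential Γ ψ
  obtain ⟨u, huΓ, huT⟩ := exists_cusp_potential Γ ψ hψ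
  -- the edge function and its properties
  let n : SL(2, ℤ) → ℤ := fun z => f (z * ModularGroup.S) - f z
  have hn : ∀ z, n z = f (z * ModularGroup.S) - f z := fun z => rfl
  have hfSinv : ∀ x, f (x * ModularGroup.S⁻¹) = f (x * ModularGroup.S) := by
    intro x
    rw [S_inv_eq, ← mul_assoc, hfneg]
  have hfT : ∀ x, f (x * ModularGroup.T) = f (x * ModularGroup.S) := by
    intro x
    rw [T_eq, ← mul_assoc, hfρ, hfSinv]
  have hnΓ : ∀ γ ∈ Γ, ∀ x : SL(2, ℤ), n (γ * x) = n x := by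
    intro γ hγ x
    have e1 := hfΓ ⟨γ, hγ⟩ (x * ModularGroup.S)
    have e2 := hfΓ ⟨γ, hγ⟩ x
    simp only [hn, mul_assoc]
    rw [e1, e2]; ring
  have hnSinv : ∀ x, n (x * ModularGroup.S⁻¹) = - n x := by
    intro x
    simp only [hn]
    rw [inv_mul_cancel_right, hfSinv]; ring
  -- the walk formula
  have hwalk : walkA n (w : SL(2, ℤ)) = 8 * ψ (Additive.ofMul w) := by
    have e1 := walkA_add_eq h2 f hfρ hfneg ((w : SL(2, ℤ))⁻¹)
    rw [inv_inv] at e1
    have e2 := hfΓ w⁻¹ 1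
    rw [mul_one, ofMul_inv, map_neg, Subgroup.coe_inv] at e2
    have e3 : walkA n (w : SL(2, ℤ)) + 8 * f ((w : SL(2, ℤ))⁻¹) = 8 * f 1 := e1
    rw [e2] at e3
    linarith
  -- the symbol potential
  let U : SL(2, ℤ) → ℤ := fun x => isect Γ ![1, 0] (x.1 *ᵥ ![1, 0]) (w : SL(2, ℤ))
  have hU : ∀ x, U x = isect Γ ![1, 0] (x.1 *ᵥ ![1, 0]) (w : SL(2, ℤ)) := fun x => rfl
  have hUT : ∀ x : SL(2, ℤ), U (x * ModularGroup.T) = U x := by
    intro x
    simp only [hU]
    rw [sl_mul_mulVec, T_mulVec_e1]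
  have hUΓ : ∀ γ ∈ Γ, ∀ x : SL(2, ℤ), ((U (γ * x) : ℤ) : ZMod p) = ((U x : ℤ) : ZMod p) := by
    intro γ hγ x
    have e : U (γ * x) = ipair Γ γ (w : SL(2, ℤ)) + U x := by
      simp only [hU, ipair]
      rw [isect_add h2 h3 Γ e1_ne_zero (sl_mulVec_ne_zero γ e1_ne_zero)
        (sl_mulVec_ne_zero (γ * x) e1_ne_zero) w.2, sl_mul_mulVec, isect_inv Γ hγ]
    rw [e, Int.cast_add, (ZMod.intCast_zmod_eq_zero_iff_dvd _ p).mpr (h ⟨γ, hγ⟩), zero_add]
  -- the decomposition along the transversal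
  have hdec : walkA n (w : SL(2, ℤ)) =
      ∑ r : R, n (r : SL(2, ℤ)) * (U ((r : SL(2, ℤ)) * ModularGroup.S) - U (r : SL(2, ℤ))) := by
    rw [walkA, finsum_eq_sum_transversal Γ hR _ (walkA_support_finite h2 n _)]
    refine Finset.sum_congr rfl fun r _ => ?_
    have e1 : ∀ δ : Γ, n ((δ : SL(2, ℤ)) * (r : SL(2, ℤ))) *
        (sgSL ((w : SL(2, ℤ)) * ((δ : SL(2, ℤ)) * (r : SL(2, ℤ)))) -
          sgSL ((δ : SL(2, ℤ)) * (r : SL(2, ℤ)))) =
        n (r : SL(2, ℤ)) * isectTerm ((r : SL(2, ℤ)).1 *ᵥ ![1, 0]) ((r : SL(2, ℤ)).1 *ᵥ ![0, 1])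
          (w : SL(2, ℤ)) (δ : SL(2, ℤ)) := by
      intro δ
      rw [hnΓ _ δ.2, sgSL_eq_sg, sgSL_eq_sg, isectTerm, ← mul_assoc,
        sl_mul_mulVec _ (r : SL(2, ℤ)), sl_mul_mulVec _ (r : SL(2, ℤ)),
        sl_mul_mulVec (δ : SL(2, ℤ)) (r : SL(2, ℤ)), sl_mul_mulVec (δ : SL(2, ℤ)) (r : SL(2, ℤ))]
    rw [finsum_congr e1, ← mul_finsum]
    congr 1
    show isect Γ ((r : SL(2, ℤ)).1 *ᵥ ![1, 0]) ((r : SL(2, ℤ)).1 *ᵥ ![0, 1]) (w : SL(2, ℤ)) = _
    rw [isect_add h2 h3 Γ (sl_mulVec_ne_zero (r : SL(2, ℤ)) e1_ne_zero) e1_ne_zero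
      (sl_mulVec_ne_zero (r : SL(2, ℤ)) e2_ne_zero) w.2,
      isect_swap Γ ![1, 0] ((r : SL(2, ℤ)).1 *ᵥ ![1, 0])]
    simp only [hU]
    rw [sl_mul_mulVec, S_mulVec_e1]
    ring
  -- the two reindexings modulo `p`
  have hsum1 := sum_mul_right_transversal Γ hR
    (fun x => ((n (x * ModularGroup.S⁻¹) : ℤ) : ZMod p) * ((U x : ℤ) : ZMod p))
    (fun γ hγ x => by
      show ((n (γ * x * ModularGroup.S⁻¹) : ℤ) : ZMod p) * ((U (γ * x) : ℤ) : ZMod p) = _
      rw [mul_assoc, hnΓ γ hγ, hUΓ γ hγ]) ModularGroup.S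
  let hh : SL(2, ℤ) → ℤ := fun x => f x - u x
  have hhh : ∀ x, hh x = f x - u x := fun x => rfl
  have hsum2 := sum_mul_right_transversal Γ hR
    (fun x => ((hh x : ℤ) : ZMod p) * ((U x : ℤ) : ZMod p))
    (fun γ hγ x => by
      show ((hh (γ * x) : ℤ) : ZMod p) * ((U (γ * x) : ℤ) : ZMod p) = _
      have e1 := hfΓ ⟨γ, hγ⟩ x
      have e2 := huΓ ⟨γ, hγ⟩ x
      have e3 : hh (γ * x) = hh x := by
        simp only [hhh]
        rw [e1, e2]; ring
      rw [e3, hUΓ γ hγ]) ModularGroup.T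
  have hnh : ∀ x, n x = hh (x * ModularGroup.T) - hh x := by
    intro x
    simp only [hn, hhh]
    rw [hfT, huT]; ring
  have a1 : ∑ r : R, ((n (r : SL(2, ℤ)) : ℤ) : ZMod p) *
      ((U ((r : SL(2, ℤ)) * ModularGroup.S) : ℤ) : ZMod p) =
      - ∑ r : R, ((n (r : SL(2, ℤ)) : ℤ) : ZMod p) * ((U (r : SL(2, ℤ)) : ℤ) : ZMod p) := by
    rw [← Finset.sum_neg_distrib]
    refine Eq.trans (Eq.trans (Finset.sum_congr rfl fun r _ => ?_) hsum1)
      (Finset.sum_congr rfl fun r _ => ?_)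
    · show _ = ((n ((r : SL(2, ℤ)) * ModularGroup.S * ModularGroup.S⁻¹) : ℤ) : ZMod p) * _
      rw [mul_inv_cancel_right]
    · show ((n ((r : SL(2, ℤ)) * ModularGroup.S⁻¹) : ℤ) : ZMod p) * _ = _
      rw [hnSinv]
      push_cast
      ring
  have a2 : ∑ r : R, ((n (r : SL(2, ℤ)) : ℤ) : ZMod p) * ((U (r : SL(2, ℤ)) : ℤ) : ZMod p) =
      0 := by
    have e1 : ∀ r : R, ((n (r : SL(2, ℤ)) : ℤ) : ZMod p) * ((U (r : SL(2, ℤ)) : ℤ) : ZMod p) =
        ((hh ((r : SL(2, ℤ)) * ModularGroup.T) : ℤ) : ZMod p) *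
          ((U ((r : SL(2, ℤ)) * ModularGroup.T) : ℤ) : ZMod p) -
        ((hh (r : SL(2, ℤ)) : ℤ) : ZMod p) * ((U (r : SL(2, ℤ)) : ℤ) : ZMod p) := by
      intro r
      rw [hnh, hUT]
      push_cast
      ring
    rw [Finset.sum_congr rfl fun r _ => e1 r, Finset.sum_sub_distrib]
    exact sub_eq_zero.mpr hsum2
  have hzero : ((8 * ψ (Additive.ofMul w) : ℤ) : ZMod p) = 0 := by
    rw [← hwalk, hdec]
    push_cast
    simp only [mul_sub, Finset.sum_sub_distrib]
    rw [a1, a2]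
    simp
  have hdvd : (p : ℤ) ∣ 8 * ψ (Additive.ofMul w) :=
    (ZMod.intCast_zmod_eq_zero_iff_dvd _ p).mp hzero
  have hcop : IsCoprime (p : ℤ) 8 := by
    have h1 : Nat.Coprime p (2 ^ 3) :=
      Nat.Coprime.pow_right 3 ((Nat.coprime_primes hp Nat.prime_two).mpr hp2)
    have h2' := Nat.isCoprime_iff_coprime.mpr h1
    norm_num at h2'
    exact h2'
  exact hcop.dvd_of_dvd_mul_left hdvd

end Fermat.Agent.S41.H73
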