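/-
S41, node (C), route C-I, leaf I4(c) (helper41): a boundary-free Farey chain is a loop.

Given a potential `f : SL(2, ℤ) → ℤ` of a parabolic character `ψ` of `Γ` which is right invariant
under `ρ = S * T` and `-1`, the edge function `m x = f (x * S) - f x` defines the chain
`D = ∑ y, m (rep y) • {rep y e₁, rep y e₂}` over a system of representatives of `Γ \ SL(2, ℤ)`;
we produce `g ∈ Γ` with `isect Γ D γ = ipair Γ g γ` for all `γ ∈ Γ`.
-/
import Mathlib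
import Fermat.Agent.S41.Isect_helper11

set_option autoImplicit false

namespace Fermat.Agent.S41.H41L

open Matrix Fermat.Agent.S41.H11
open scoped MatrixGroups

/-! ### generalities -/

theorem exists_prod_eval {Γ : Type*} [Group Γ] {Y : Type*} [DecidableEq Y] (t : Finset Y)
    (c : Y → ℤ) (d : Y → Γ) :
    ∃ a : Γ, ∀ χ : Additive Γ →+ ℤ,
      ∑ y ∈ t, c y * χ (Additive.ofMul (d y)) = χ (Additive.ofMul a) := by
  induction t using Finset.induction_on with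
  | empty =>
    refine ⟨1, fun χ => ?_⟩
    rw [Finset.sum_empty, ofMul_one, map_zero]
  | insert y t hy ih =>
    obtain ⟨a, ha⟩ := ih
    refine ⟨d y ^ c y * a, fun χ => ?_⟩
    rw [Finset.sum_insert hy, ha χ, ofMul_mul, ofMul_zpow, map_add, map_zsmul, smul_eq_mul]

theorem S_mul_S : ModularGroup.S * ModularGroup.S = (-1 : SL(2, ℤ)) := by
  ext i j
  fin_cases i <;> fin_cases j <;> simp [ModularGroup.coe_S]

theorem S_inv : (ModularGroup.S)⁻¹ = -ModularGroup.S := by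
  apply inv_eq_of_mul_eq_one_right
  rw [mul_neg, S_mul_S, neg_neg]

theorem S_mulVec_e1 : (ModularGroup.S).1 *ᵥ ![1, 0] = ![0, 1] := by
  rw [ModularGroup.coe_S]
  ext i
  fin_cases i <;> simp [Matrix.mulVec, dotProduct, Fin.sum_univ_two]

theorem T_pow_mulVec_e1 (k : ℕ) : (ModularGroup.T ^ k).1 *ᵥ ![1, 0] = ![1, 0] := by
  have h := ModularGroup.coe_T_zpow (k : ℤ)
  rw [zpow_natCast] at h
  rw [h]
  ext i
  fin_cases i <;> simp [Matrix.mulVec, dotProduct, Fin.sum_univ_two]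

theorem trace_conj_T_pow (x : SL(2, ℤ)) (k : ℕ) :
    ((x * ModularGroup.T ^ k * x⁻¹ : SL(2, ℤ)) : Matrix (Fin 2) (Fin 2) ℤ).trace = 2 := by
  have h := ModularGroup.coe_T_zpow (k : ℤ)
  rw [zpow_natCast] at h
  have e : ((x * ModularGroup.T ^ k * x⁻¹ : SL(2, ℤ)) : Matrix (Fin 2) (Fin 2) ℤ) =
      x.1 * (ModularGroup.T ^ k).1 * (x⁻¹).1 := rfl
  rw [e, Matrix.trace_mul_cycle]
  have e2 : (x⁻¹).1 * x.1 = 1 := by
    have : ((x⁻¹ * x : SL(2, ℤ)) : Matrix (Fin 2) (Fin 2) ℤ) = (x⁻¹).1 * x.1 := rfl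
    rw [← this, inv_mul_cancel]
    rfl
  rw [e2, one_mul, h, Matrix.trace_fin_two]
  simp

theorem f_mul_T (f : SL(2, ℤ) → ℤ)
    (hfρ : ∀ x, f (x * (ModularGroup.S * ModularGroup.T)) = f x) (hfn : ∀ x, f (-x) = f x)
    (x : SL(2, ℤ)) : f (x * ModularGroup.T) = f (x * ModularGroup.S) := by
  have e : x * ModularGroup.T = -(x * ModularGroup.S) * (ModularGroup.S * ModularGroup.T) := by
    rw [neg_mul, ← mul_assoc, mul_assoc x, S_mul_S, mul_neg, mul_one, neg_mul, neg_neg]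
  rw [e, hfρ, hfn]

/-! ### reindexing sums over a system of representatives of `Γ \ SL(2, ℤ)` -/

section Reindex

variable {Γ : Subgroup SL(2, ℤ)} {Y : Type*} [Fintype Y] (rep : Y → SL(2, ℤ))

theorem sum_rep_mul_right
    (hrep : ∀ x : SL(2, ℤ), ∃! y : Y, ∃ γ : Γ, x = (γ : SL(2, ℤ)) * rep y)
    {A : Type*} [AddCommMonoid A] (Φ : SL(2, ℤ) → A)
    (hΦ : ∀ (γ : Γ) (x : SL(2, ℤ)), Φ ((γ : SL(2, ℤ)) * x) = Φ x) (h : SL(2, ℤ)) :
    ∑ y, Φ (rep y * h) = ∑ y, Φ (rep y) := by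
  have key : ∀ y, ∃ y', ∃ γ : Γ, rep y * h = (γ : SL(2, ℤ)) * rep y' :=
    fun y => (hrep (rep y * h)).exists
  choose σ γσ hσ using key
  have hinj : Function.Injective σ := by
    intro y₁ y₂ h12
    have e1 := hσ y₁
    have e2 := hσ y₂
    rw [h12] at e1
    have h1 : rep y₁ = (γσ y₁ : SL(2, ℤ)) * rep (σ y₂) * h⁻¹ := by
      rw [← e1]
      group
    have h2 : rep (σ y₂) = (γσ y₂ : SL(2, ℤ))⁻¹ * (rep y₂ * h) := by
      rw [e2]
      group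
    have e3 : rep y₁ = ((γσ y₁ * (γσ y₂)⁻¹ : Γ) : SL(2, ℤ)) * rep y₂ := by
      rw [h1, h2]
      push_cast
      group
    exact (hrep (rep y₁)).unique ⟨1, by simp⟩ ⟨_, e3⟩
  have hbij : Function.Bijective σ := Finite.injective_iff_bijective.mp hinj
  calc ∑ y, Φ (rep y * h) = ∑ y, Φ (rep (σ y)) :=
        Finset.sum_congr rfl fun y _ => by rw [hσ y, hΦ]
    _ = ∑ y, Φ (rep y) := hbij.sum_comp (fun y => Φ (rep y))

end Reindex

/-! ### the fan sums vanish -/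

section Fan

variable (Γ : Subgroup SL(2, ℤ)) [Γ.FiniteIndex] (ψ : Additive Γ →+ ℤ)
  (hψ : ∀ π : Γ, ((π : SL(2, ℤ)) : Matrix (Fin 2) (Fin 2) ℤ).trace ^ 2 = 4 →
    ψ (Additive.ofMul π) = 0)
  (f : SL(2, ℤ) → ℤ)
  (hf : ∀ (γ : Γ) (x : SL(2, ℤ)), f ((γ : SL(2, ℤ)) * x) = f x + ψ (Additive.ofMul γ))
  {Y : Type*} [Fintype Y] (rep : Y → SL(2, ℤ))
  (hrep : ∀ x : SL(2, ℤ), ∃! y : Y, ∃ γ : Γ, x = (γ : SL(2, ℤ)) * rep y)
  (K : (Fin 2 → ℤ) → ℤ) (hK : ∀ (δ : Γ) (v : Fin 2 → ℤ), K ((δ : SL(2, ℤ)).1 *ᵥ v) = K v)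

include hψ hf hrep hK

/-- The fan sum at the first column: telescoping along the `T`-orbits. -/
theorem fan_sum_T :
    ∑ y, (f (rep y * ModularGroup.T) - f (rep y)) * K ((rep y).1 *ᵥ ![1, 0]) = 0 := by
  classical
  set N : ℕ := Γ.normalCore.index with hN
  have hN0 : N ≠ 0 := Subgroup.FiniteIndex.index_ne_zero
  have hmem : ∀ x : SL(2, ℤ), x * ModularGroup.T ^ N * x⁻¹ ∈ Γ := fun x =>
    Γ.normalCore_le (Γ.normalCore_normal.conj_mem _ (Γ.normalCore.pow_index_mem _) x)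
  set Φ : SL(2, ℤ) → ℤ := fun x => (f (x * ModularGroup.T) - f x) * K (x.1 *ᵥ ![1, 0]) with hΦdef
  have hΦ : ∀ (γ : Γ) (x : SL(2, ℤ)), Φ ((γ : SL(2, ℤ)) * x) = Φ x := by
    intro γ x
    simp only [hΦdef]
    rw [mul_assoc, hf γ, hf γ, sl_mul_mulVec, hK]
    ring
  have hper : ∀ x : SL(2, ℤ), ∑ k ∈ Finset.range N, Φ (x * ModularGroup.T ^ k) = 0 := by
    intro x
    have e : ∀ k ∈ Finset.range N, Φ (x * ModularGroup.T ^ k) =
        K (x.1 *ᵥ ![1, 0]) * (f (x * ModularGroup.T ^ (k + 1)) - f (x * ModularGroup.T ^ k)) := by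
      intro k _
      simp only [hΦdef]
      rw [sl_mul_mulVec, T_pow_mulVec_e1, mul_assoc, ← pow_succ]
      ring
    rw [Finset.sum_congr rfl e, ← Finset.mul_sum,
      Finset.sum_range_sub (fun k => f (x * ModularGroup.T ^ k))]
    have e2 : x * ModularGroup.T ^ N =
        ((⟨x * ModularGroup.T ^ N * x⁻¹, hmem x⟩ : Γ) : SL(2, ℤ)) * x := by
      simp
    have e3 : ψ (Additive.ofMul (⟨x * ModularGroup.T ^ N * x⁻¹, hmem x⟩ : Γ)) = 0 := by
      apply hψ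
      show ((x * ModularGroup.T ^ N * x⁻¹ : SL(2, ℤ)) : Matrix (Fin 2) (Fin 2) ℤ).trace ^ 2 = 4
      rw [trace_conj_T_pow]
      norm_num
    rw [e2, hf, e3, pow_zero, mul_one]
    ring
  have hsum : (N : ℤ) * ∑ y, Φ (rep y) = 0 := by
    have e1 : ∀ k ∈ Finset.range N, ∑ y, Φ (rep y * ModularGroup.T ^ k) = ∑ y, Φ (rep y) :=
      fun k _ => sum_rep_mul_right rep hrep Φ hΦ _
    have e2 : ∑ k ∈ Finset.range N, ∑ y, Φ (rep y * ModularGroup.T ^ k) =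
        (N : ℤ) * ∑ y, Φ (rep y) := by
      rw [Finset.sum_congr rfl e1, Finset.sum_const, Finset.card_range, nsmul_eq_mul]
    rw [← e2, Finset.sum_comm]
    exact Finset.sum_eq_zero fun y _ => hper (rep y)
  rcases mul_eq_zero.mp hsum with h | h
  · exact absurd (by exact_mod_cast h) hN0
  · exact h

variable (hfρ : ∀ x, f (x * (ModularGroup.S * ModularGroup.T)) = f x) (hfn : ∀ x, f (-x) = f x)

include hfρ hfn

/-- The boundary of the chain at the first columns. -/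
theorem fan_sum_e1 :
    ∑ y, (f (rep y * ModularGroup.S) - f (rep y)) * K ((rep y).1 *ᵥ ![1, 0]) = 0 := by
  have h := fan_sum_T Γ ψ hψ f hf rep hrep K hK
  simpa only [f_mul_T f hfρ hfn] using h

/-- The boundary of the chain at the second columns. -/
theorem fan_sum_e2 :
    ∑ y, (f (rep y * ModularGroup.S) - f (rep y)) * K ((rep y).1 *ᵥ ![0, 1]) = 0 := by
  set Φ : SL(2, ℤ) → ℤ :=
    fun x => (f (x * ModularGroup.S) - f x) * K (x.1 *ᵥ ![1, 0]) with hΦdef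
  have hΦ : ∀ (γ : Γ) (x : SL(2, ℤ)), Φ ((γ : SL(2, ℤ)) * x) = Φ x := by
    intro γ x
    simp only [hΦdef]
    rw [mul_assoc, hf γ, hf γ, sl_mul_mulVec, hK]
    ring
  have e : ∀ y, (f (rep y * ModularGroup.S) - f (rep y)) * K ((rep y).1 *ᵥ ![0, 1]) =
      - Φ (rep y * ModularGroup.S) := by
    intro y
    simp only [hΦdef]
    rw [sl_mul_mulVec, S_mulVec_e1, mul_assoc, S_mul_S, mul_neg, mul_one, hfn]
    ring
  rw [Finset.sum_congr rfl fun y _ => e y, Finset.sum_neg_distrib,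
    sum_rep_mul_right rep hrep Φ hΦ, neg_eq_zero]
  exact fan_sum_e1 Γ ψ hψ f hf rep hrep K hK hfρ hfn

end Fan

/-! ### the loop -/

/-- **I4(c)**: the boundary-free chain attached to a `ρ`-invariant potential of a parabolic
character is a loop: its intersection numbers are those of an element `g ∈ Γ`. -/
theorem exists_loop (h2 : Fin2Stmt) (h3 : Fin3Stmt) (Γ : Subgroup SL(2, ℤ)) [Γ.FiniteIndex]
    (ψ : Additive Γ →+ ℤ)
    (hψ : ∀ π : Γ, ((π : SL(2, ℤ)) : Matrix (Fin 2) (Fin 2) ℤ).trace ^ 2 = 4 →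
      ψ (Additive.ofMul π) = 0)
    (f : SL(2, ℤ) → ℤ)
    (hf : ∀ (γ : Γ) (x : SL(2, ℤ)), f ((γ : SL(2, ℤ)) * x) = f x + ψ (Additive.ofMul γ))
    (hfρ : ∀ x, f (x * (ModularGroup.S * ModularGroup.T)) = f x) (hfn : ∀ x, f (-x) = f x)
    {Y : Type*} [Fintype Y] (rep : Y → SL(2, ℤ))
    (hrep : ∀ x : SL(2, ℤ), ∃! y : Y, ∃ γ : Γ, x = (γ : SL(2, ℤ)) * rep y) :
    ∃ g : Γ, ∀ γ : SL(2, ℤ), γ ∈ Γ →
      ∑ y, (f (rep y * ModularGroup.S) - f (rep y)) *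
        isect Γ ((rep y).1 *ᵥ ![1, 0]) ((rep y).1 *ᵥ ![0, 1]) γ = ipair Γ (g : SL(2, ℤ)) γ := by
  classical
  -- the `±Γ`-orbits of vectors
  let s : Setoid (Fin 2 → ℤ) :=
    { r := fun v v' => ∃ δ : SL(2, ℤ), δ ∈ Γ ∧ (v' = δ.1 *ᵥ v ∨ v' = -(δ.1 *ᵥ v))
      iseqv :=
        { refl := fun v => ⟨1, Γ.one_mem, Or.inl (by simp)⟩
          symm := by
            rintro v v' ⟨δ, hδ, h | h⟩
            · exact ⟨δ⁻¹, Γ.inv_mem hδ, Or.inl (by rw [h, sl_inv_mulVec])⟩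
            · exact ⟨δ⁻¹, Γ.inv_mem hδ, Or.inr (by rw [h, Matrix.mulVec_neg, sl_inv_mulVec, neg_neg])⟩
          trans := by
            rintro v v' v'' ⟨δ, hδ, h | h⟩ ⟨δ', hδ', h' | h'⟩
            · exact ⟨δ' * δ, Γ.mul_mem hδ' hδ, Or.inl (by rw [h', h, sl_mul_mulVec])⟩
            · exact ⟨δ' * δ, Γ.mul_mem hδ' hδ, Or.inr (by rw [h', h, sl_mul_mulVec])⟩
            · exact ⟨δ' * δ, Γ.mul_mem hδ' hδ,
                Or.inr (by rw [h', h, Matrix.mulVec_neg, sl_mul_mulVec])⟩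
            · exact ⟨δ' * δ, Γ.mul_mem hδ' hδ,
                Or.inl (by rw [h', h, Matrix.mulVec_neg, neg_neg, sl_mul_mulVec])⟩ } }
  let cl : (Fin 2 → ℤ) → (Fin 2 → ℤ) := fun v => (Quotient.mk s v).out
  have hcl : ∀ v, ∃ δ : Γ, v = (δ : SL(2, ℤ)).1 *ᵥ cl v ∨ v = -((δ : SL(2, ℤ)).1 *ᵥ cl v) := by
    intro v
    obtain ⟨δ, hδ, h⟩ : s.r (cl v) v := Quotient.exact (Quotient.out_eq (Quotient.mk s v))
    exact ⟨⟨δ, hδ⟩, h⟩
  have hcl_inv : ∀ (δ : Γ) (v : Fin 2 → ℤ), cl ((δ : SL(2, ℤ)).1 *ᵥ v) = cl v := by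
    intro δ v
    have : Quotient.mk s ((δ : SL(2, ℤ)).1 *ᵥ v) = Quotient.mk s v :=
      Quotient.sound (s.symm ⟨δ, δ.2, Or.inl rfl⟩)
    show (Quotient.mk s ((δ : SL(2, ℤ)).1 *ᵥ v)).out = (Quotient.mk s v).out
    rw [this]
  choose dl hdl using hcl
  -- the element `g`
  obtain ⟨g, hg⟩ := exists_prod_eval (Finset.univ : Finset Y)
    (fun y => f (rep y * ModularGroup.S) - f (rep y))
    (fun y => dl ((rep y).1 *ᵥ ![0, 1]) * (dl ((rep y).1 *ᵥ ![1, 0]))⁻¹)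
  refine ⟨g, fun γ hγ => ?_⟩
  -- the character `δ ↦ ipair Γ δ γ`
  let χ : Additive Γ →+ ℤ :=
    { toFun := fun δ => ipair Γ ((Additive.toMul δ : Γ) : SL(2, ℤ)) γ
      map_zero' := ipair_one_left Γ γ
      map_add' := fun a b => ipair_mul_left h2 h3 Γ (Additive.toMul a : Γ).2 _ hγ }
  have hχ : ∀ δ : Γ, χ (Additive.ofMul δ) = ipair Γ (δ : SL(2, ℤ)) γ := fun δ => rfl
  -- the potential of the symbols
  set φ : (Fin 2 → ℤ) → ℤ := fun v => isect Γ ![1, 0] v γ with hφdef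
  set K : (Fin 2 → ℤ) → ℤ := fun v => φ (cl v) with hKdef
  have hK : ∀ (δ : Γ) (v : Fin 2 → ℤ), K ((δ : SL(2, ℤ)).1 *ᵥ v) = K v := by
    intro δ v
    simp only [hKdef, hcl_inv]
  have hφδ : ∀ (δ : Γ) (v : Fin 2 → ℤ), v ≠ 0 →
      φ ((δ : SL(2, ℤ)).1 *ᵥ v) = φ v + ipair Γ (δ : SL(2, ℤ)) γ := by
    intro δ v hv
    simp only [hφdef]
    rw [isect_add h2 h3 Γ e1_ne_zero (sl_mulVec_ne_zero (δ : SL(2, ℤ)) e1_ne_zero)
      (sl_mulVec_ne_zero (δ : SL(2, ℤ)) hv) hγ, isect_inv Γ δ.2]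
    simp only [ipair]
    ring
  have hφneg : ∀ v : Fin 2 → ℤ, φ (-v) = φ v := by
    intro v
    simp only [hφdef]
    have := isect_smul_right Γ (a := -1) (by norm_num) ![1, 0] v γ
    rwa [neg_one_smul] at this
  have hφ : ∀ v : Fin 2 → ℤ, v ≠ 0 → φ v = K v + ipair Γ (dl v : SL(2, ℤ)) γ := by
    intro v hv
    have hc : cl v ≠ 0 := by
      intro h0
      rcases hdl v with h | h
      · rw [h0, Matrix.mulVec_zero] at h
        exact hv h
      · rw [h0, Matrix.mulVec_zero, neg_zero] at h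
        exact hv h
    rcases hdl v with h | h
    · conv_lhs => rw [h]
      rw [hφδ (dl v) (cl v) hc]
    · conv_lhs => rw [h]
      rw [hφneg, hφδ (dl v) (cl v) hc]
  have hedge : ∀ u w : Fin 2 → ℤ, u ≠ 0 → w ≠ 0 → isect Γ u w γ = φ w - φ u := by
    intro u w hu hw
    simp only [hφdef]
    rw [isect_add h2 h3 Γ e1_ne_zero hu hw hγ]
    ring
  have e2_ne_zero : (![0, 1] : Fin 2 → ℤ) ≠ 0 := by
    intro h
    have := congrFun h 1
    simp at this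
  have hterm : ∀ y, (f (rep y * ModularGroup.S) - f (rep y)) *
      isect Γ ((rep y).1 *ᵥ ![1, 0]) ((rep y).1 *ᵥ ![0, 1]) γ =
      (f (rep y * ModularGroup.S) - f (rep y)) * K ((rep y).1 *ᵥ ![0, 1]) -
      (f (rep y * ModularGroup.S) - f (rep y)) * K ((rep y).1 *ᵥ ![1, 0]) +
      (f (rep y * ModularGroup.S) - f (rep y)) *
        χ (Additive.ofMul (dl ((rep y).1 *ᵥ ![0, 1]) * (dl ((rep y).1 *ᵥ ![1, 0]))⁻¹)) := by
    intro y
    have hu := sl_mulVec_ne_zero (rep y) e1_ne_zero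
    have hw := sl_mulVec_ne_zero (rep y) e2_ne_zero
    rw [hedge _ _ hu hw, hφ _ hu, hφ _ hw, ofMul_mul, ofMul_inv, map_add, map_neg, hχ, hχ]
    ring
  rw [Finset.sum_congr rfl fun y _ => hterm y, Finset.sum_add_distrib, Finset.sum_sub_distrib,
    fan_sum_e2 Γ ψ hψ f hf rep hrep K hK hfρ hfn, fan_sum_e1 Γ ψ hψ f hf rep hrep K hK hfρ hfn,
    hg χ, hχ]
  ring

end Fermat.Agent.S41.H41L
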