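import Mathlib
import Fermat.Prelude.Def_ModularCurve_PeriodMap

/-!
# S41, node (C), route C-I, leaf I4(c) (helper58): a boundary-free chain of Farey edges is a loop

Let `Γ ≤ SL(2, ℤ)` be of finite index, `ψ : Γ → ℤ` a parabolic homomorphism and
`f : SL(2, ℤ) → ℤ` a potential of `ψ` (`f (γ x) = f x + ψ γ`, `f (-x) = f x`,
`f (x T) = f (x S)`).  The edge function `m y = f (y S) - f y` is `Γ`-invariant and defines
the chain `D = ∑_{y ∈ Γ \ G} m y • {y e₁, y e₂}`.  Then `D` is a loop: there is `g ∈ Γ` such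
that for EVERY symbol function `F` (antisymmetric, sign-invariant, triangle relation,
`Γ`-invariant)
`∑_{y ∈ R} m y * F (y e₁) (y e₂) = F e₁ (g e₁)`.
The proof: write `F e₁ v = G_F (δ_v) + K_F (v)` with `K_F` constant on `± Γ`-orbits of cusp
vectors and `G_F δ = F e₁ (δ e₁)` a homomorphism; the `K`-part of the sum vanishes by
reindexing along `S` and `T` (fan telescoping: `∑_{j<N} m (x T^j) = ψ (x T^N x⁻¹) = 0`).
-/

set_option autoImplicit false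

namespace Fermat.Agent.S41.H58

open Matrix ModularGroup
open scoped MatrixGroups

/-! ### small matrix facts -/

theorem sl_mulVec_mul (a b : SL(2, ℤ)) (v : Fin 2 → ℤ) :
    (a * b).1 *ᵥ v = a.1 *ᵥ (b.1 *ᵥ v) := by
  rw [Matrix.SpecialLinearGroup.coe_mul, Matrix.mulVec_mulVec]

theorem sl_mulVec_one (v : Fin 2 → ℤ) : (1 : SL(2, ℤ)).1 *ᵥ v = v := by
  rw [Matrix.SpecialLinearGroup.coe_one, Matrix.one_mulVec]

theorem sl_mulVec_neg (a : SL(2, ℤ)) (v : Fin 2 → ℤ) : (-a).1 *ᵥ v = -(a.1 *ᵥ v) := by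
  rw [Matrix.SpecialLinearGroup.coe_neg, Matrix.neg_mulVec]

theorem sl_mulVec_ne_zero (a : SL(2, ℤ)) {v : Fin 2 → ℤ} (hv : v ≠ 0) : a.1 *ᵥ v ≠ 0 := by
  intro h
  apply hv
  have := congrArg (fun w => (a⁻¹).1 *ᵥ w) h
  beta_reduce at this
  rw [← sl_mulVec_mul, inv_mul_cancel, sl_mulVec_one, Matrix.mulVec_zero] at this
  exact this

theorem S_mul_S_sl : (S : SL(2, ℤ)) * S = -1 := by
  apply Subtype.ext
  rw [Matrix.SpecialLinearGroup.coe_mul, ModularGroup.S_mul_S_eq]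
  simp

theorem S_mulVec_e1 : (S : SL(2, ℤ)).1 *ᵥ ![1, 0] = ![0, 1] := by
  funext i; fin_cases i <;> simp [ModularGroup.S, Matrix.mulVec, dotProduct, Fin.sum_univ_two]

theorem T_mulVec_e1 : (T : SL(2, ℤ)).1 *ᵥ ![1, 0] = ![1, 0] := by
  funext i; fin_cases i <;> simp [ModularGroup.T, Matrix.mulVec, dotProduct, Fin.sum_univ_two]

theorem e1_ne_zero : (![1, 0] : Fin 2 → ℤ) ≠ 0 := by
  intro h
  have := congrFun h 0
  simp at this

/-! ### reindexing sums over representatives of `Γ \ G` -/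

section reindex

variable {G : Type*} [Group G] (Γ : Subgroup G) (R : Finset G)

/-- `R` is a system of representatives of `Γ \ G`. -/
def IsRightReps : Prop := ∀ x : G, ∃! y, y ∈ R ∧ ∃ γ ∈ Γ, x = γ * y

variable {Γ R}

theorem IsRightReps.sum_mul_right {A : Type*} [AddCommMonoid A] (hR : IsRightReps Γ R)
    (φ : G → A) (hφ : ∀ γ ∈ Γ, ∀ x, φ (γ * x) = φ x) (a : G) :
    ∑ y ∈ R, φ (y * a) = ∑ y ∈ R, φ y := by
  classical
  let r : G → G := fun x => Classical.choose (hR x).exists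
  have hr : ∀ x, r x ∈ R ∧ ∃ γ ∈ Γ, x = γ * r x := fun x => Classical.choose_spec (hR x).exists
  have huniq : ∀ x y, y ∈ R → (∃ γ ∈ Γ, x = γ * y) → y = r x := by
    intro x y hy hxy
    exact (hR x).unique ⟨hy, hxy⟩ (hr x)
  have hinv : ∀ (b : G) (y : G), y ∈ R → r (r (y * b) * b⁻¹) = y := by
    intro b y hy
    obtain ⟨γ, hγ, hγy⟩ := (hr (y * b)).2
    symm
    apply huniq _ y hy
    refine ⟨γ⁻¹, Γ.inv_mem hγ, ?_⟩
    have : r (y * b) = γ⁻¹ * (y * b) := eq_inv_mul_of_mul_eq hγy.symm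
    rw [this]; group
  refine Finset.sum_nbij' (fun y => r (y * a)) (fun y => r (y * a⁻¹)) ?_ ?_ ?_ ?_ ?_
  · intro y _; exact (hr _).1
  · intro y _; exact (hr _).1
  · intro y hy; exact hinv a y hy
  · intro y hy
    have := hinv a⁻¹ y hy
    rwa [inv_inv] at this
  · intro y _
    obtain ⟨γ, hγ, hγy⟩ := (hr (y * a)).2
    show φ (y * a) = φ (r (y * a))
    conv_lhs => rw [hγy]
    exact hφ γ hγ _

end reindex

/-! ### cusp classes -/

section cusp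

variable (Γ : Subgroup SL(2, ℤ))

/-- Two vectors are in the same `± Γ`-orbit. -/
def cuspSetoid : Setoid (Fin 2 → ℤ) where
  r v v' := ∃ δ : SL(2, ℤ), δ ∈ Γ ∧ (v' = δ.1 *ᵥ v ∨ v' = -(δ.1 *ᵥ v))
  iseqv := by
    refine ⟨fun v => ⟨1, Γ.one_mem, Or.inl (sl_mulVec_one v).symm⟩, ?_, ?_⟩
    · rintro v v' ⟨δ, hδ, h | h⟩
      · refine ⟨δ⁻¹, Γ.inv_mem hδ, Or.inl ?_⟩
        rw [h, ← sl_mulVec_mul, inv_mul_cancel, sl_mulVec_one]
      · refine ⟨δ⁻¹, Γ.inv_mem hδ, Or.inr ?_⟩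
        rw [h, Matrix.mulVec_neg, neg_neg, ← sl_mulVec_mul, inv_mul_cancel, sl_mulVec_one]
    · rintro v v' v'' ⟨δ, hδ, h⟩ ⟨δ', hδ', h'⟩
      refine ⟨δ' * δ, Γ.mul_mem hδ' hδ, ?_⟩
      rw [sl_mulVec_mul]
      rcases h with h | h <;> rcases h' with h' | h'
      · left; rw [h', h]
      · right; rw [h', h]
      · right; rw [h', h, Matrix.mulVec_neg]
      · left; rw [h', h, Matrix.mulVec_neg, neg_neg]

/-- The chosen representative of the `± Γ`-orbit of `v`. -/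
noncomputable def cuspRep (v : Fin 2 → ℤ) : Fin 2 → ℤ :=
  (Quotient.mk (cuspSetoid Γ) v).out

theorem cuspRep_spec (v : Fin 2 → ℤ) :
    ∃ δ : SL(2, ℤ), δ ∈ Γ ∧ (v = δ.1 *ᵥ cuspRep Γ v ∨ v = -(δ.1 *ᵥ cuspRep Γ v)) :=
  Quotient.mk_out (s := cuspSetoid Γ) v

/-- The chosen element of `Γ` with `v = ± δ_v (cuspRep v)`. -/
noncomputable def cuspElt (v : Fin 2 → ℤ) : Γ :=
  ⟨Classical.choose (cuspRep_spec Γ v), (Classical.choose_spec (cuspRep_spec Γ v)).1⟩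

theorem cuspElt_spec (v : Fin 2 → ℤ) :
    v = (cuspElt Γ v : SL(2, ℤ)).1 *ᵥ cuspRep Γ v ∨
      v = -((cuspElt Γ v : SL(2, ℤ)).1 *ᵥ cuspRep Γ v) :=
  (Classical.choose_spec (cuspRep_spec Γ v)).2

theorem cuspRep_eq_of_rel {v v' : Fin 2 → ℤ}
    (h : ∃ δ : SL(2, ℤ), δ ∈ Γ ∧ (v' = δ.1 *ᵥ v ∨ v' = -(δ.1 *ᵥ v))) :
    cuspRep Γ v = cuspRep Γ v' := by
  unfold cuspRep
  congr 1
  exact Quotient.sound (s := cuspSetoid Γ) h

theorem cuspRep_smul {δ : SL(2, ℤ)} (hδ : δ ∈ Γ) (v : Fin 2 → ℤ) :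
    cuspRep Γ (δ.1 *ᵥ v) = cuspRep Γ v :=
  (cuspRep_eq_of_rel Γ ⟨δ, hδ, Or.inl rfl⟩).symm

theorem cuspRep_neg (v : Fin 2 → ℤ) : cuspRep Γ (-v) = cuspRep Γ v :=
  (cuspRep_eq_of_rel Γ ⟨1, Γ.one_mem, Or.inr (by rw [sl_mulVec_one])⟩).symm

theorem cuspRep_ne_zero {v : Fin 2 → ℤ} (hv : v ≠ 0) : cuspRep Γ v ≠ 0 := by
  intro h
  apply hv
  rcases cuspElt_spec Γ v with h' | h' <;> rw [h', h] <;> simp

end cusp

/-! ### symbol functions -/

section symbol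

variable (Γ : Subgroup SL(2, ℤ)) (F : (Fin 2 → ℤ) → (Fin 2 → ℤ) → ℤ)

/-- The hypotheses on a symbol function. -/
structure IsSymbol : Prop where
  anti : ∀ u w, F w u = - F u w
  sign : ∀ u w, F (-u) w = F u w
  tri : ∀ u w t, u ≠ 0 → w ≠ 0 → t ≠ 0 → F u w + F w t + F t u = 0
  inv : ∀ δ : SL(2, ℤ), δ ∈ Γ → ∀ u w, F (δ.1 *ᵥ u) (δ.1 *ᵥ w) = F u w

variable {Γ F}

theorem IsSymbol.sign_right (hF : IsSymbol Γ F) (u w : Fin 2 → ℤ) : F u (-w) = F u w := by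
  rw [hF.anti (-w) u, hF.sign, ← hF.anti]

theorem IsSymbol.add (hF : IsSymbol Γ F) {u w t : Fin 2 → ℤ} (hu : u ≠ 0) (hw : w ≠ 0)
    (ht : t ≠ 0) : F u t = F u w + F w t := by
  have h1 := hF.tri u w t hu hw ht
  have h2 := hF.anti u t
  linarith

/-- `δ ↦ F e₁ (δ e₁)` is a homomorphism on `Γ`. -/
noncomputable def IsSymbol.loopHom (hF : IsSymbol Γ F) : Additive Γ →+ ℤ :=
  AddMonoidHom.mk' (fun a => F ![1, 0] (((Additive.toMul a : Γ) : SL(2, ℤ)).1 *ᵥ ![1, 0]))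
    (by
      intro a b
      show F ![1, 0] ((((Additive.toMul a * Additive.toMul b : Γ)) : SL(2, ℤ)).1 *ᵥ ![1, 0]) = _
      rw [Subgroup.coe_mul, sl_mulVec_mul,
        hF.add e1_ne_zero (sl_mulVec_ne_zero (Additive.toMul a : Γ).1 e1_ne_zero)
          (sl_mulVec_ne_zero _ (sl_mulVec_ne_zero _ e1_ne_zero)),
        hF.inv _ (Additive.toMul a : Γ).2])

theorem IsSymbol.loopHom_apply (hF : IsSymbol Γ F) (δ : Γ) :
    hF.loopHom (Additive.ofMul δ) = F ![1, 0] ((δ : SL(2, ℤ)).1 *ᵥ ![1, 0]) := rfl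

/-- The decomposition `F e₁ v = G_F (δ_v) + F e₁ (c v)`. -/
theorem IsSymbol.decomp (hF : IsSymbol Γ F) {v : Fin 2 → ℤ} (hv : v ≠ 0) :
    F ![1, 0] v = hF.loopHom (Additive.ofMul (cuspElt Γ v)) + F ![1, 0] (cuspRep Γ v) := by
  have hc := cuspRep_ne_zero Γ hv
  have key : F ![1, 0] ((cuspElt Γ v : SL(2, ℤ)).1 *ᵥ cuspRep Γ v)
      = hF.loopHom (Additive.ofMul (cuspElt Γ v)) + F ![1, 0] (cuspRep Γ v) := by
    rw [hF.add e1_ne_zero (sl_mulVec_ne_zero (cuspElt Γ v : SL(2, ℤ)) e1_ne_zero)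
      (sl_mulVec_ne_zero _ hc), hF.inv _ (cuspElt Γ v).2, hF.loopHom_apply]
  rcases cuspElt_spec Γ v with h | h
  · rw [← key, ← h]
  · rw [← key]
    conv_lhs => rw [h]
    exact hF.sign_right _ _

end symbol

/-! ### the loop theorem -/

/-- **I4(c)**: the chain `∑_{y ∈ Γ \ G} (f (y S) - f y) • {y e₁, y e₂}` of a potential `f` of a
parabolic homomorphism `ψ` is a loop `{e₁, g e₁}`, `g ∈ Γ`, for every symbol function. -/
theorem exists_loop (Γ : Subgroup SL(2, ℤ)) [Γ.FiniteIndex] (ψ : Additive Γ →+ ℤ)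
    (hψ : ModularCurve.Period.IsParabolicHom Γ ψ)
    (f : SL(2, ℤ) → ℤ) (hfΓ : ∀ (γ : Γ) (x : SL(2, ℤ)), f (γ * x) = f x + ψ (Additive.ofMul γ))
    (hfneg : ∀ x, f (-x) = f x) (hfT : ∀ x, f (x * T) = f (x * S))
    (R : Finset SL(2, ℤ)) (hR : ∀ x : SL(2, ℤ), ∃! y, y ∈ R ∧ ∃ γ ∈ Γ, x = γ * y) :
    ∃ g : Γ, ∀ F : (Fin 2 → ℤ) → (Fin 2 → ℤ) → ℤ,
      (∀ u w, F w u = - F u w) → (∀ u w, F (-u) w = F u w) →
      (∀ u w t, u ≠ 0 → w ≠ 0 → t ≠ 0 → F u w + F w t + F t u = 0) →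
      (∀ δ : SL(2, ℤ), δ ∈ Γ → ∀ u w, F (δ.1 *ᵥ u) (δ.1 *ᵥ w) = F u w) →
      ∑ y ∈ R, (f (y * S) - f y) * F (y.1 *ᵥ ![1, 0]) (y.1 *ᵥ ![0, 1])
        = F ![1, 0] ((g : SL(2, ℤ)).1 *ᵥ ![1, 0]) := by
  classical
  have hR' : IsRightReps Γ R := hR
  -- the edge function
  set m : SL(2, ℤ) → ℤ := fun y => f (y * S) - f y with hm
  have hmΓ : ∀ γ ∈ Γ, ∀ x, m (γ * x) = m x := by
    intro γ hγ x
    have h1 := hfΓ ⟨γ, hγ⟩ (x * S)
    have h2 := hfΓ ⟨γ, hγ⟩ x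
    simp only [hm]
    rw [mul_assoc]
    simp only at h1 h2
    rw [h1, h2]; ring
  have hmS : ∀ x, m (x * S) = - m x := by
    intro x
    simp only [hm]
    rw [mul_assoc, S_mul_S_sl, mul_neg, mul_one, hfneg]; ring
  have hmT : ∀ x, m x = f (x * T) - f x := by
    intro x
    simp only [hm]
    rw [hfT]
  -- a uniform period of `T` on `Γ \ G`
  obtain ⟨N, hN0, hN⟩ : ∃ N : ℕ, N ≠ 0 ∧ ∀ x : SL(2, ℤ), x * T ^ N * x⁻¹ ∈ Γ := by
    have := Subgroup.finiteIndex_normalCore Γ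
    refine ⟨Γ.normalCore.index, Subgroup.FiniteIndex.index_ne_zero, fun x => ?_⟩
    apply Subgroup.normalCore_le Γ
    exact (Subgroup.normalCore_normal Γ).conj_mem _ (Subgroup.pow_index_mem _ T) x
  have hfan : ∀ x : SL(2, ℤ), ∑ j ∈ Finset.range N, m (x * T ^ j) = 0 := by
    intro x
    have h1 : ∑ j ∈ Finset.range N, m (x * T ^ j) = f (x * T ^ N) - f (x * T ^ 0) := by
      rw [← Finset.sum_range_sub (fun j => f (x * T ^ j)) N]
      refine Finset.sum_congr rfl (fun j _ => ?_)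
      rw [hmT, pow_succ, mul_assoc]
    rw [h1, pow_zero, mul_one]
    have h2 := hfΓ ⟨x * T ^ N * x⁻¹, hN x⟩ x
    simp only at h2
    have h3 : x * T ^ N * x⁻¹ * x = x * T ^ N := by group
    rw [h3] at h2
    have h4 : ψ (Additive.ofMul (⟨x * T ^ N * x⁻¹, hN x⟩ : Γ)) = 0 := by
      apply hψ
      show ((x * T ^ N * x⁻¹ : SL(2, ℤ)).1).trace ^ 2 = 4
      have htr : ((x * T ^ N * x⁻¹ : SL(2, ℤ)).1).trace = ((T ^ N : SL(2, ℤ)).1).trace := by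
        rw [Matrix.SpecialLinearGroup.coe_mul, Matrix.trace_mul_comm,
          ← Matrix.SpecialLinearGroup.coe_mul, inv_mul_cancel_left]
      rw [htr, ← zpow_natCast, ModularGroup.coe_T_zpow]
      simp [Matrix.trace_fin_two]
    rw [h2, h4]; ring
  -- the product element
  refine ⟨(R.toList.map fun y =>
      (cuspElt Γ (y.1 *ᵥ ![0, 1]) * (cuspElt Γ (y.1 *ᵥ ![1, 0]))⁻¹) ^ (m y)).prod, ?_⟩
  intro F h1 h2 h3 h4
  have hF : IsSymbol Γ F := ⟨h1, h2, h3, h4⟩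
  -- the cusp function
  set k : SL(2, ℤ) → ℤ := fun y => F ![1, 0] (cuspRep Γ (y.1 *ᵥ ![1, 0])) with hk
  have hkΓ : ∀ γ ∈ Γ, ∀ x, k (γ * x) = k x := by
    intro γ hγ x
    simp only [hk]
    rw [sl_mulVec_mul, cuspRep_smul Γ hγ]
  have hkT : ∀ (x : SL(2, ℤ)) (j : ℕ), k (x * T ^ j) = k x := by
    intro x j
    induction j with
    | zero => simp
    | succ j ih =>
      rw [pow_succ, ← mul_assoc]
      simp only [hk] at ih ⊢
      rw [sl_mulVec_mul, T_mulVec_e1, ih]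
  have e2ne : (![0, 1] : Fin 2 → ℤ) ≠ 0 := by
    intro h
    have := congrFun h 1
    simp at this
  -- each edge
  have hedge : ∀ y : SL(2, ℤ), F (y.1 *ᵥ ![1, 0]) (y.1 *ᵥ ![0, 1])
      = (hF.loopHom (Additive.ofMul (cuspElt Γ (y.1 *ᵥ ![0, 1])))
          - hF.loopHom (Additive.ofMul (cuspElt Γ (y.1 *ᵥ ![1, 0])))) + (k (y * S) - k y) := by
    intro y
    have hy1 : y.1 *ᵥ ![1, 0] ≠ 0 := sl_mulVec_ne_zero y e1_ne_zero
    have hy2 : y.1 *ᵥ ![0, 1] ≠ 0 := sl_mulVec_ne_zero y e2ne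
    have ha := hF.add hy1 e1_ne_zero hy2
    have hb := hF.anti ![1, 0] (y.1 *ᵥ ![1, 0])
    have hc := hF.decomp hy1
    have hd := hF.decomp hy2
    have hkS : k (y * S) = F ![1, 0] (cuspRep Γ (y.1 *ᵥ ![0, 1])) := by
      simp only [hk]
      rw [sl_mulVec_mul, S_mulVec_e1]
    rw [hkS]
    simp only [hk]
    linarith
  -- the `k`-part vanishes
  have hmk : ∑ y ∈ R, m y * k y = 0 := by
    have hstep : ∀ j : ℕ, ∑ y ∈ R, m (y * T ^ j) * k y = ∑ y ∈ R, m y * k y := by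
      intro j
      have := hR'.sum_mul_right (fun y => m y * k y)
        (fun γ hγ x => by
          show m (γ * x) * k (γ * x) = m x * k x
          rw [hmΓ γ hγ, hkΓ γ hγ]) (T ^ j)
      beta_reduce at this
      rw [← this]
      refine Finset.sum_congr rfl (fun y _ => ?_)
      rw [hkT]
    have hsum : ∑ j ∈ Finset.range N, ∑ y ∈ R, m (y * T ^ j) * k y = 0 := by
      rw [Finset.sum_comm]
      refine Finset.sum_eq_zero (fun y _ => ?_)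
      rw [← Finset.sum_mul, hfan, zero_mul]
    have hsum' : (N : ℤ) * ∑ y ∈ R, m y * k y = 0 := by
      rw [← hsum, Finset.sum_congr rfl (fun j _ => hstep j)]
      simp
    rcases mul_eq_zero.mp hsum' with h | h
    · exact absurd (by exact_mod_cast h) hN0
    · exact h
  have hmkS : ∑ y ∈ R, m y * k (y * S) = - ∑ y ∈ R, m y * k y := by
    have := hR'.sum_mul_right (fun z => m (z * S⁻¹) * k z)
      (fun γ hγ x => by
        show m (γ * x * S⁻¹) * k (γ * x) = m (x * S⁻¹) * k x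
        rw [mul_assoc, hmΓ γ hγ, hkΓ γ hγ]) S
    simp only [mul_inv_cancel_right] at this
    rw [this, ← Finset.sum_neg_distrib]
    refine Finset.sum_congr rfl (fun y _ => ?_)
    have := hmS (y * S⁻¹)
    rw [inv_mul_cancel_right] at this
    rw [this]; ring
  -- assemble
  have hloop : hF.loopHom (Additive.ofMul ((R.toList.map fun y =>
      (cuspElt Γ (y.1 *ᵥ ![0, 1]) * (cuspElt Γ (y.1 *ᵥ ![1, 0]))⁻¹) ^ (m y)).prod))
      = ∑ y ∈ R, m y * (hF.loopHom (Additive.ofMul (cuspElt Γ (y.1 *ᵥ ![0, 1])))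
          - hF.loopHom (Additive.ofMul (cuspElt Γ (y.1 *ᵥ ![1, 0])))) := by
    rw [ofMul_list_prod, map_list_sum, List.map_map, List.map_map, ← Finset.sum_map_toList]
    congr 1
    apply List.map_congr_left
    intro y _
    simp only [Function.comp_apply]
    rw [ofMul_zpow, map_zsmul, ofMul_mul, ofMul_inv, map_add, map_neg, smul_eq_mul]
    ring
  rw [← hF.loopHom_apply, hloop]
  calc ∑ y ∈ R, (f (y * S) - f y) * F (y.1 *ᵥ ![1, 0]) (y.1 *ᵥ ![0, 1])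
      = ∑ y ∈ R, (m y * (hF.loopHom (Additive.ofMul (cuspElt Γ (y.1 *ᵥ ![0, 1])))
          - hF.loopHom (Additive.ofMul (cuspElt Γ (y.1 *ᵥ ![1, 0]))))
          + (m y * k (y * S) - m y * k y)) := by
        refine Finset.sum_congr rfl (fun y _ => ?_)
        rw [hedge y]; ring
    _ = ∑ y ∈ R, m y * (hF.loopHom (Additive.ofMul (cuspElt Γ (y.1 *ᵥ ![0, 1])))
          - hF.loopHom (Additive.ofMul (cuspElt Γ (y.1 *ᵥ ![1, 0])))) := by
        rw [Finset.sum_add_distrib, Finset.sum_sub_distrib, hmkS, hmk]; ring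

/-- `f (x T) = f (x S)` for a `ρ`-invariant even function (`ρ = S T`). -/
theorem map_mul_T_of_rho (f : SL(2, ℤ) → ℤ) (hfneg : ∀ x, f (-x) = f x)
    (hfρ : ∀ x, f (x * (S * T)) = f x) (x : SL(2, ℤ)) : f (x * T) = f (x * S) := by
  have h1 : x * T = -(x * S) * (S * T) := by
    rw [neg_mul, ← mul_assoc, mul_assoc x S S, S_mul_S_sl, mul_neg, mul_one, neg_mul, neg_neg]
  rw [h1, hfρ, hfneg]

/-- **I4(c)** with the hypothesis in the `ρ`-invariant form. -/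
theorem exists_loop_rho (Γ : Subgroup SL(2, ℤ)) [Γ.FiniteIndex] (ψ : Additive Γ →+ ℤ)
    (hψ : ModularCurve.Period.IsParabolicHom Γ ψ)
    (f : SL(2, ℤ) → ℤ) (hfΓ : ∀ (γ : Γ) (x : SL(2, ℤ)), f (γ * x) = f x + ψ (Additive.ofMul γ))
    (hfneg : ∀ x, f (-x) = f x) (hfρ : ∀ x, f (x * (S * T)) = f x)
    (R : Finset SL(2, ℤ)) (hR : ∀ x : SL(2, ℤ), ∃! y, y ∈ R ∧ ∃ γ ∈ Γ, x = γ * y) :
    ∃ g : Γ, ∀ F : (Fin 2 → ℤ) → (Fin 2 → ℤ) → ℤ,
      (∀ u w, F w u = - F u w) → (∀ u w, F (-u) w = F u w) →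
      (∀ u w t, u ≠ 0 → w ≠ 0 → t ≠ 0 → F u w + F w t + F t u = 0) →
      (∀ δ : SL(2, ℤ), δ ∈ Γ → ∀ u w, F (δ.1 *ᵥ u) (δ.1 *ᵥ w) = F u w) →
      ∑ y ∈ R, (f (y * S) - f y) * F (y.1 *ᵥ ![1, 0]) (y.1 *ᵥ ![0, 1])
        = F ![1, 0] ((g : SL(2, ℤ)).1 *ᵥ ![1, 0]) :=
  exists_loop Γ ψ hψ f hfΓ hfneg (map_mul_T_of_rho f hfneg hfρ) R hR

/-- A system of representatives of the right cosets `Γ x` exists for a subgroup of finite
index. -/
theorem exists_isRightReps {G : Type*} [Group G] (Γ : Subgroup G) [Γ.FiniteIndex] :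
    ∃ R : Finset G, ∀ x : G, ∃! y, y ∈ R ∧ ∃ γ ∈ Γ, x = γ * y := by
  classical
  haveI : Fintype (G ⧸ Γ) := Subgroup.fintypeQuotientOfFiniteIndex
  -- representatives `q.out⁻¹` of the right cosets
  refine ⟨Finset.univ.image (fun q : G ⧸ Γ => (q.out)⁻¹), fun x => ?_⟩
  set q0 : G ⧸ Γ := QuotientGroup.mk (x⁻¹) with hq0
  have hx : (q0.out)⁻¹ * x⁻¹ ∈ Γ := by
    have h := QuotientGroup.out_eq' q0
    rw [hq0] at h ⊢
    exact QuotientGroup.eq.mp h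
  refine ⟨(q0.out)⁻¹, ⟨Finset.mem_image.mpr ⟨_, Finset.mem_univ _, rfl⟩,
    ((q0.out)⁻¹ * x⁻¹)⁻¹, Γ.inv_mem hx, by group⟩, ?_⟩
  rintro y ⟨hy, γ, hγ, hxy⟩
  obtain ⟨q, -, rfl⟩ := Finset.mem_image.mp hy
  have hq : q0 = q := by
    have h1 : q0 = QuotientGroup.mk q.out := by
      rw [hq0, QuotientGroup.eq]
      have : x⁻¹⁻¹ * q.out = γ := by rw [hxy]; group
      rw [this]; exact hγ
    rw [h1, QuotientGroup.out_eq']
  rw [hq]

end Fermat.Agent.S41.H58
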