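import Mathlib
import Fermat.Prelude.Def_ModularCurve_PeriodMap

/-!
# S41, node (C), intersection route, leaf I4(c) (helper45): "a boundary-free symbol is a loop"

Pure group theory and finite sums over `Γ \ SL(2, ℤ)`; no intersection numbers occur here.

* `dcSec Γ H : G → Γ` : a section of double-coset representatives, `x = dcSec x * r(Γ x H) * h`.
  For every additive character `χ` of `Γ` vanishing on the subgroups `Γ ∩ x H x⁻¹`, the function
  `χ ∘ dcSec` is a potential: it is `χ`-equivariant on the left and `H`-invariant on the right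
  (`map_dcSec_mul_left`, `map_dcSec_mul_right`).
* `exists_potential` : a triangle potential `f` of any character `ψ : Γ → ℤ`
  (`f (γ x) = f x + ψ γ`, `f (x ρ) = f x = f (-x)`, `ρ = S T`).
* `qsum Γ φ` : the sum of a function over (representatives of) `Γ \ SL(2, ℤ)`; it is invariant
  under right translations for `Γ`-invariant `φ` and can be computed on any transversal.
* `pds_loop` : for a parabolic character `ψ` with triangle potential `f` there is ONE `g ∈ Γ`
  such that `∑_{y ∈ Γ\G} (f (y S) - f y) (U (y S) - U y) = I g` for every cusp potential `U`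
  of every character `I`.
-/

set_option autoImplicit false

namespace Fermat.Agent.S41.H45L

open scoped MatrixGroups
open ModularGroup

/-! ### Double-coset sections -/

section DC

variable {G : Type*} [Group G] (Γ H : Subgroup G)

/-- The double-coset relation `y ∈ Γ x H`. -/
def dcSetoid : Setoid G where
  r x y := ∃ γ ∈ Γ, ∃ h ∈ H, y = γ * x * h
  iseqv :=
    ⟨fun x => ⟨1, Γ.one_mem, 1, H.one_mem, by simp⟩,
     fun {x y} ⟨γ, hγ, h, hh, e⟩ => ⟨γ⁻¹, Γ.inv_mem hγ, h⁻¹, H.inv_mem hh, by rw [e]; group⟩,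
     fun {x y z} ⟨γ, hγ, h, hh, e⟩ ⟨γ', hγ', h', hh', e'⟩ =>
      ⟨γ' * γ, Γ.mul_mem hγ' hγ, h * h', H.mul_mem hh hh', by rw [e', e]; group⟩⟩

/-- The chosen representative of the double coset `Γ x H`. -/
noncomputable def dcRep (x : G) : G :=
  @Quotient.out _ (dcSetoid Γ H) (Quotient.mk (dcSetoid Γ H) x)

theorem dcRep_spec (x : G) : ∃ γ ∈ Γ, ∃ h ∈ H, x = γ * dcRep Γ H x * h :=
  Quotient.exact (s := dcSetoid Γ H) (Quotient.out_eq _)

theorem dcRep_eq_of_rel {x y : G} (h : (dcSetoid Γ H).r x y) : dcRep Γ H x = dcRep Γ H y := by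
  unfold dcRep
  rw [Quotient.sound (s := dcSetoid Γ H) h]

/-- The `Γ`-part of `x` with respect to the chosen representative of `Γ x H`. -/
noncomputable def dcSec (x : G) : Γ :=
  ⟨(dcRep_spec Γ H x).choose, (dcRep_spec Γ H x).choose_spec.1⟩

theorem dcSec_spec (x : G) : ∃ h ∈ H, x = (dcSec Γ H x : G) * dcRep Γ H x * h :=
  (dcRep_spec Γ H x).choose_spec.2

/-- The key property of the section: for a character vanishing on all `Γ ∩ x H x⁻¹`. -/
theorem map_dcSec {A : Type*} [AddCommGroup A] (χ : Additive Γ →+ A)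
    (hχ : ∀ (π : Γ) (x h : G), h ∈ H → (π : G) = x * h * x⁻¹ → χ (Additive.ofMul π) = 0)
    (γ : Γ) (x h₀ : G) (hh₀ : h₀ ∈ H) :
    χ (Additive.ofMul (dcSec Γ H (γ * x * h₀)))
      = χ (Additive.ofMul (dcSec Γ H x)) + χ (Additive.ofMul γ) := by
  have hrel : (dcSetoid Γ H).r x (γ * x * h₀) := ⟨γ, γ.2, h₀, hh₀, rfl⟩
  have hr := dcRep_eq_of_rel Γ H hrel
  obtain ⟨h, hh, ex⟩ := dcSec_spec Γ H x
  obtain ⟨h', hh', ey⟩ := dcSec_spec Γ H (γ * x * h₀)
  rw [← hr] at ey
  set r := dcRep Γ H x with hr'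
  set dx := dcSec Γ H x with hdx
  set dy := dcSec Γ H (γ * x * h₀) with hdy
  have hπ : ((dy⁻¹ * γ * dx : Γ) : G) = r * (h' * h₀⁻¹ * h⁻¹) * r⁻¹ := by
    have e1 : (γ : G) * ((dx : G) * r * h) * h₀ = (dy : G) * r * h' := by
      rw [← ex]; exact ey
    have e2 : (dy : G)⁻¹ * (γ : G) * (dx : G) = r * (h' * h₀⁻¹ * h⁻¹) * r⁻¹ := by
      have e3 : (γ : G) * (dx : G) = (dy : G) * r * h' * h₀⁻¹ * h⁻¹ * r⁻¹ := by
        rw [← e1]; group
      rw [mul_assoc, e3]; group
    rw [← e2]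
    simp
  have h0 := hχ (dy⁻¹ * γ * dx) r (h' * h₀⁻¹ * h⁻¹)
    (H.mul_mem (H.mul_mem hh' (H.inv_mem hh₀)) (H.inv_mem hh)) hπ
  rw [ofMul_mul, ofMul_mul, ofMul_inv, map_add, map_add, map_neg] at h0
  have : χ (Additive.ofMul dy) = χ (Additive.ofMul γ) + χ (Additive.ofMul dx) := by
    have h1 : χ (Additive.ofMul dy) = χ (Additive.ofMul dy)
        + (-χ (Additive.ofMul dy) + χ (Additive.ofMul γ) + χ (Additive.ofMul dx)) := by
      rw [h0, add_zero]
    rw [h1]; abel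
  rw [this, add_comm]

theorem map_dcSec_mul_left {A : Type*} [AddCommGroup A] (χ : Additive Γ →+ A)
    (hχ : ∀ (π : Γ) (x h : G), h ∈ H → (π : G) = x * h * x⁻¹ → χ (Additive.ofMul π) = 0)
    (γ : Γ) (x : G) :
    χ (Additive.ofMul (dcSec Γ H (γ * x)))
      = χ (Additive.ofMul (dcSec Γ H x)) + χ (Additive.ofMul γ) := by
  have := map_dcSec Γ H χ hχ γ x 1 H.one_mem
  rwa [mul_one] at this

theorem map_dcSec_mul_right {A : Type*} [AddCommGroup A] (χ : Additive Γ →+ A)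
    (hχ : ∀ (π : Γ) (x h : G), h ∈ H → (π : G) = x * h * x⁻¹ → χ (Additive.ofMul π) = 0)
    (x h₀ : G) (hh₀ : h₀ ∈ H) :
    χ (Additive.ofMul (dcSec Γ H (x * h₀))) = χ (Additive.ofMul (dcSec Γ H x)) := by
  have := map_dcSec Γ H χ hχ 1 x h₀ hh₀
  rw [OneMemClass.coe_one, one_mul] at this
  rw [this]
  have : Additive.ofMul (1 : Γ) = 0 := rfl
  rw [this, map_zero, add_zero]

/-- **(DC)**: one section serves every character that dies on the subgroups `Γ ∩ x H x⁻¹`. -/
theorem exists_dc_section : ∃ δ : G → Γ, ∀ (χ : Additive Γ →+ ℤ),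
    (∀ (π : Γ) (x h : G), h ∈ H → (π : G) = x * h * x⁻¹ → χ (Additive.ofMul π) = 0) →
    (∀ (γ : Γ) (x : G), χ (Additive.ofMul (δ (γ * x)))
      = χ (Additive.ofMul (δ x)) + χ (Additive.ofMul γ)) ∧
    (∀ (x h : G), h ∈ H → χ (Additive.ofMul (δ (x * h))) = χ (Additive.ofMul (δ x))) :=
  ⟨dcSec Γ H, fun χ hχ => ⟨map_dcSec_mul_left Γ H χ hχ, map_dcSec_mul_right Γ H χ hχ⟩⟩

end DC

/-! ### Matrix facts in `SL(2, ℤ)` -/

theorem rho_pow_three : (S * T) ^ 3 = (-1 : SL(2, ℤ)) := by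
  ext i j
  fin_cases i <;> fin_cases j <;>
    simp [pow_succ, Matrix.mul_apply, Fin.sum_univ_two, coe_S, coe_T]

theorem S_mul_S : S * S = (-1 : SL(2, ℤ)) := by
  ext i j
  fin_cases i <;> fin_cases j <;>
    simp [Matrix.mul_apply, Fin.sum_univ_two, coe_S]

theorem rho_pow_six : (S * T) ^ 6 = (1 : SL(2, ℤ)) := by
  have h : (S * T) ^ 6 = ((S * T) ^ 3) ^ 2 := by rw [← pow_mul]
  rw [h, rho_pow_three, neg_one_sq]

theorem S_inv : S⁻¹ = (-S : SL(2, ℤ)) := by
  apply inv_eq_of_mul_eq_one_right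
  rw [mul_neg, S_mul_S, neg_neg]

theorem trace_conj (x h : SL(2, ℤ)) :
    ((x * h * x⁻¹ : SL(2, ℤ)) : Matrix (Fin 2) (Fin 2) ℤ).trace
      = (h : Matrix (Fin 2) (Fin 2) ℤ).trace := by
  rw [Matrix.SpecialLinearGroup.coe_mul, Matrix.SpecialLinearGroup.coe_mul, Matrix.trace_mul_comm,
    ← mul_assoc, ← Matrix.SpecialLinearGroup.coe_mul, inv_mul_cancel]
  simp

theorem trace_sq_of_upper (h : SL(2, ℤ)) (h10 : (h : Matrix (Fin 2) (Fin 2) ℤ) 1 0 = 0) :
    (h : Matrix (Fin 2) (Fin 2) ℤ).trace ^ 2 = 4 := by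
  have hdet : h.1 0 0 * h.1 1 1 - h.1 0 1 * h.1 1 0 = 1 := by
    have := h.2
    rw [Matrix.det_fin_two] at this
    exact this
  rw [h10, mul_zero, sub_zero] at hdet
  rw [Matrix.trace_fin_two]
  rcases Int.mul_eq_one_iff_eq_one_or_neg_one.1 hdet with ⟨a, b⟩ | ⟨a, b⟩
  · rw [a, b]; norm_num
  · rw [a, b]; norm_num

/-- The elements of the subgroup generated by `T` and `-1` are upper triangular. -/
theorem upper_of_mem_closure {h : SL(2, ℤ)} (hh : h ∈ Subgroup.closure ({T, -1} : Set SL(2, ℤ))) :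
    (h : Matrix (Fin 2) (Fin 2) ℤ) 1 0 = 0 := by
  refine Subgroup.closure_induction
    (p := fun (h : SL(2, ℤ)) _ => (h : Matrix (Fin 2) (Fin 2) ℤ) 1 0 = 0) ?_ ?_ ?_ ?_ hh
  · intro x hx
    rcases hx with rfl | rfl
    · simp [coe_T]
    · simp
  · simp
  · intro x y _ _ hx hy
    rw [Matrix.SpecialLinearGroup.coe_mul, Matrix.mul_apply, Fin.sum_univ_two, hx, hy]
    ring
  · intro x _ hx
    rw [Matrix.SpecialLinearGroup.SL2_inv_expl]
    simp [hx]

/-! ### Triangle potentials -/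

/-- **(a)**: every character `ψ : Γ → ℤ` has a triangle potential. -/
theorem exists_potential (Γ : Subgroup SL(2, ℤ)) (ψ : Additive Γ →+ ℤ) :
    ∃ f : SL(2, ℤ) → ℤ, (∀ (γ : Γ) (x : SL(2, ℤ)), f (γ * x) = f x + ψ (Additive.ofMul γ)) ∧
      (∀ x, f (x * (S * T)) = f x) ∧ (∀ x, f (-x) = f x) := by
  have hχ : ∀ (π : Γ) (x h : SL(2, ℤ)), h ∈ Subgroup.zpowers (S * T) →
      (π : SL(2, ℤ)) = x * h * x⁻¹ → ψ (Additive.ofMul π) = 0 := by
    intro π x h hh e
    obtain ⟨k, rfl⟩ := Subgroup.mem_zpowers_iff.1 hh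
    have h6 : π ^ 6 = 1 := by
      apply Subtype.ext
      rw [Subgroup.coe_pow, e, conj_pow, ← zpow_natCast, ← zpow_mul, mul_comm, zpow_mul,
        zpow_natCast, rho_pow_six, one_zpow]
      simp
    have h1 : (6 : ℕ) • ψ (Additive.ofMul π) = 0 := by
      rw [← map_nsmul, ← ofMul_pow, h6]
      exact map_zero ψ
    rw [nsmul_eq_mul] at h1
    have h2 : (6 : ℤ) * ψ (Additive.ofMul π) = 0 := by exact_mod_cast h1
    omega
  refine ⟨fun x => ψ (Additive.ofMul (dcSec Γ (Subgroup.zpowers (S * T)) x)),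
    map_dcSec_mul_left Γ _ ψ hχ,
    fun x => map_dcSec_mul_right Γ _ ψ hχ x _ (Subgroup.mem_zpowers _), fun x => ?_⟩
  have hx : -x = x * (S * T) ^ 3 := by rw [rho_pow_three, mul_neg, mul_one]
  show ψ (Additive.ofMul (dcSec Γ (Subgroup.zpowers (S * T)) (-x))) = _
  rw [hx]
  exact map_dcSec_mul_right Γ _ ψ hχ x _ (Subgroup.pow_mem _ (Subgroup.mem_zpowers _) 3)

/-! ### Sums over `Γ \ SL(2, ℤ)` -/

section QSum

variable (Γ : Subgroup SL(2, ℤ))

theorem finite_rightQuot [Γ.FiniteIndex] : Finite (Quotient (QuotientGroup.rightRel Γ)) :=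
  Finite.of_equiv _ (QuotientGroup.quotientRightRelEquivQuotientLeftRel Γ).symm

/-- The sum of `φ` over the chosen representatives of the right cosets `Γ y`. -/
noncomputable def qsum (φ : SL(2, ℤ) → ℤ) : ℤ :=
  ∑ᶠ q : Quotient (QuotientGroup.rightRel Γ), φ (Quotient.out q)

theorem qsum_eq_fintype_sum [Fintype (Quotient (QuotientGroup.rightRel Γ))] (φ : SL(2, ℤ) → ℤ) :
    qsum Γ φ = ∑ q : Quotient (QuotientGroup.rightRel Γ), φ (Quotient.out q) :=
  finsum_eq_sum_of_fintype _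

theorem exists_eq_mul_out (z : SL(2, ℤ)) :
    ∃ γ : Γ, z = γ * Quotient.out (Quotient.mk (QuotientGroup.rightRel Γ) z) := by
  have h : z * (Quotient.out (Quotient.mk (QuotientGroup.rightRel Γ) z))⁻¹ ∈ Γ :=
    QuotientGroup.rightRel_apply.1
      (Quotient.exact (s := QuotientGroup.rightRel Γ) (Quotient.out_eq _))
  exact ⟨⟨_, h⟩, by simp⟩

theorem apply_out_mk {φ : SL(2, ℤ) → ℤ} (hφ : ∀ (γ : Γ) (x : SL(2, ℤ)), φ (γ * x) = φ x)
    (z : SL(2, ℤ)) : φ (Quotient.out (Quotient.mk (QuotientGroup.rightRel Γ) z)) = φ z := by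
  obtain ⟨γ, hγ⟩ := exists_eq_mul_out Γ z
  conv_rhs => rw [hγ]
  rw [hφ]

/-- Right multiplication on right cosets. -/
def rm (t : SL(2, ℤ)) (q : Quotient (QuotientGroup.rightRel Γ)) :
    Quotient (QuotientGroup.rightRel Γ) :=
  Quotient.liftOn q (fun x => Quotient.mk (QuotientGroup.rightRel Γ) (x * t)) (fun a b hab =>
    Quotient.sound (s := QuotientGroup.rightRel Γ) (QuotientGroup.rightRel_apply.2 (by
      have := QuotientGroup.rightRel_apply.1 hab
      simpa [mul_assoc] using this)))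

theorem rm_mk (t x : SL(2, ℤ)) :
    rm Γ t (Quotient.mk (QuotientGroup.rightRel Γ) x) = Quotient.mk (QuotientGroup.rightRel Γ) (x * t) :=
  rfl

theorem rm_rm (s t : SL(2, ℤ)) (q : Quotient (QuotientGroup.rightRel Γ)) :
    rm Γ s (rm Γ t q) = rm Γ (t * s) q := by
  induction q using Quotient.inductionOn with
  | _ x => rw [rm_mk, rm_mk, rm_mk, mul_assoc]

theorem rm_one (q : Quotient (QuotientGroup.rightRel Γ)) : rm Γ 1 q = q := by
  induction q using Quotient.inductionOn with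
  | _ x => rw [rm_mk, mul_one]

theorem rm_bijective (t : SL(2, ℤ)) : Function.Bijective (rm Γ t) :=
  Function.bijective_iff_has_inverse.2 ⟨rm Γ t⁻¹,
    fun q => by rw [rm_rm, mul_inv_cancel, rm_one],
    fun q => by rw [rm_rm, inv_mul_cancel, rm_one]⟩

/-- Right translation invariance of the sum of a `Γ`-invariant function. -/
theorem qsum_mul_right {φ : SL(2, ℤ) → ℤ} (hφ : ∀ (γ : Γ) (x : SL(2, ℤ)), φ (γ * x) = φ x)
    (t : SL(2, ℤ)) : qsum Γ (fun y => φ (y * t)) = qsum Γ φ := by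
  unfold qsum
  apply finsum_eq_of_bijective (rm Γ t) (rm_bijective Γ t)
  intro q
  have h : rm Γ t q = Quotient.mk (QuotientGroup.rightRel Γ) (Quotient.out q * t) := by
    conv_lhs => rw [← Quotient.out_eq q]
    rfl
  rw [h, apply_out_mk Γ hφ]

/-- Any transversal computes the same sum. -/
theorem qsum_eq_sum [Γ.FiniteIndex] (R : Finset SL(2, ℤ))
    (hR : ∀ x : SL(2, ℤ), ∃! y, y ∈ R ∧ ∃ γ : Γ, x = γ * y)
    {φ : SL(2, ℤ) → ℤ} (hφ : ∀ (γ : Γ) (x : SL(2, ℤ)), φ (γ * x) = φ x) :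
    ∑ y ∈ R, φ y = qsum Γ φ := by
  classical
  have := finite_rightQuot Γ
  let _ : Fintype (Quotient (QuotientGroup.rightRel Γ)) := Fintype.ofFinite _
  rw [qsum_eq_fintype_sum]
  refine Finset.sum_bij (fun y _ => Quotient.mk (QuotientGroup.rightRel Γ) y)
    (fun y _ => Finset.mem_univ _) ?_ ?_ ?_
  · intro y hy y' hy' e
    have hrel := QuotientGroup.rightRel_apply.1 (Quotient.exact (s := QuotientGroup.rightRel Γ) e)
    obtain ⟨y₀, -, huniq⟩ := hR y'
    have e1 := huniq y' ⟨hy', 1, by simp⟩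
    have e2 := huniq y ⟨hy, ⟨_, hrel⟩, by simp⟩
    rw [e1, e2]
  · intro q _
    obtain ⟨y, ⟨hy, γ, hγ⟩, -⟩ := hR (Quotient.out q)
    refine ⟨y, hy, ?_⟩
    rw [← Quotient.out_eq q]
    apply Quotient.sound (s := QuotientGroup.rightRel Γ)
    apply QuotientGroup.rightRel_apply.2
    rw [hγ]
    simp
  · intro y _
    exact (apply_out_mk Γ hφ y).symm

end QSum

/-! ### The loop of a boundary-free symbol -/

/-- **I4(c)**: for a parabolic character `ψ` of `Γ` with triangle potential `f` there is one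
element `g ∈ Γ` such that, for every character `I` of `Γ` with a cusp potential `U`
(`U (γ x) = U x + I γ`, `U (x T) = U x = U (-x)`),
`∑_{y ∈ Γ \ G} (f (y S) - f y) (U (y S) - U y) = I g`. -/
theorem pds_loop (Γ : Subgroup SL(2, ℤ)) [Γ.FiniteIndex] (ψ : Additive Γ →+ ℤ)
    (hψ : ModularCurve.Period.IsParabolicHom Γ ψ) (f : SL(2, ℤ) → ℤ)
    (hf : ∀ (γ : Γ) (x : SL(2, ℤ)), f (γ * x) = f x + ψ (Additive.ofMul γ))
    (hfρ : ∀ x, f (x * (S * T)) = f x) (hfn : ∀ x, f (-x) = f x) :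
    ∃ g : Γ, ∀ (U : SL(2, ℤ) → ℤ) (I : Γ → ℤ),
      (∀ (γ : Γ) (x : SL(2, ℤ)), U (γ * x) = U x + I γ) → (∀ x, U (x * T) = U x) →
      (∀ x, U (-x) = U x) →
      qsum Γ (fun y => (f (y * S) - f y) * (U (y * S) - U y)) = I g := by
  classical
  have hfin := finite_rightQuot Γ
  let _inst : Fintype (Quotient (QuotientGroup.rightRel Γ)) := Fintype.ofFinite _
  obtain ⟨H, hH⟩ : ∃ H : Subgroup SL(2, ℤ), H = Subgroup.closure ({T, -1} : Set SL(2, ℤ)) :=
    ⟨_, rfl⟩
  have hTH : T ∈ H := by rw [hH]; exact Subgroup.subset_closure (by simp)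
  have hnegH : (-1 : SL(2, ℤ)) ∈ H := by rw [hH]; exact Subgroup.subset_closure (by simp)
  have htr : ∀ (x h : SL(2, ℤ)), h ∈ H →
      ((x * h * x⁻¹ : SL(2, ℤ)) : Matrix (Fin 2) (Fin 2) ℤ).trace ^ 2 = 4 := by
    intro x h hh
    rw [trace_conj]
    exact trace_sq_of_upper h (upper_of_mem_closure (by rw [← hH]; exact hh))
  -- `ψ` dies on the conjugates of `H`
  have hχψ : ∀ (π : Γ) (x h : SL(2, ℤ)), h ∈ H → (π : SL(2, ℤ)) = x * h * x⁻¹ →
      ψ (Additive.ofMul π) = 0 := by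
    intro π x h hh e
    apply hψ π
    rw [e]
    exact htr x h hh
  obtain ⟨δ, hδ⟩ : ∃ δ : SL(2, ℤ) → Γ, δ = dcSec Γ H := ⟨_, rfl⟩
  obtain ⟨m, hm⟩ : ∃ m : SL(2, ℤ) → ℤ, m = fun y => f (y * S) - f y := ⟨_, rfl⟩
  -- properties of `f` and `m`
  have hfT : ∀ x, f (x * T) = f (x * S) := by
    intro x
    have e : x * T = x * S⁻¹ * (S * T) := by group
    rw [e, hfρ, S_inv, mul_neg, hfn]
  have hmΓ : ∀ (γ : Γ) (y : SL(2, ℤ)), m (γ * y) = m y := by
    intro γ y
    rw [hm]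
    show f (γ * y * S) - f (γ * y) = f (y * S) - f y
    rw [mul_assoc, hf, hf]; ring
  have hmS : ∀ y, m (y * S) = - m y := by
    intro y
    rw [hm]
    show f (y * S * S) - f (y * S) = -(f (y * S) - f y)
    rw [mul_assoc, S_mul_S, mul_neg, mul_one, hfn]; ring
  -- the cusp potential of `ψ`
  have hu1 : ∀ (γ : Γ) (x : SL(2, ℤ)), ψ (Additive.ofMul (δ (γ * x)))
      = ψ (Additive.ofMul (δ x)) + ψ (Additive.ofMul γ) := by
    rw [hδ]; exact map_dcSec_mul_left Γ H ψ hχψ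
  have hu2 : ∀ (x h : SL(2, ℤ)), h ∈ H → ψ (Additive.ofMul (δ (x * h)))
      = ψ (Additive.ofMul (δ x)) := by
    rw [hδ]; exact map_dcSec_mul_right Γ H ψ hχψ
  refine ⟨((Finset.univ : Finset (Quotient (QuotientGroup.rightRel Γ))).toList.map
      (fun q => (δ (Quotient.out q * S) * (δ (Quotient.out q))⁻¹) ^ (m (Quotient.out q)))).prod, ?_⟩
  intro U I hU1 hU2 hU3
  -- `I` is a character
  have hIadd : ∀ a b : Γ, I (a * b) = I a + I b := by
    intro a b
    have e1 := hU1 (a * b) 1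
    have e2 := hU1 a ((b : SL(2, ℤ)) * 1)
    have e3 := hU1 b 1
    rw [Subgroup.coe_mul, mul_assoc] at e1
    linarith
  let Ihom : Additive Γ →+ ℤ := AddMonoidHom.mk' (fun a => I (Additive.toMul a))
    (fun a b => hIadd _ _)
  have hIhom : ∀ a : Γ, Ihom (Additive.ofMul a) = I a := fun a => rfl
  -- `U` is right `H`-invariant
  have hUH : ∀ h ∈ H, ∀ x, U (x * h) = U x := by
    intro h hh
    rw [hH] at hh
    refine Subgroup.closure_induction (p := fun (h : SL(2, ℤ)) _ => ∀ x, U (x * h) = U x)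
      ?_ ?_ ?_ ?_ hh
    · intro y hy x
      rcases hy with rfl | rfl
      · exact hU2 x
      · rw [mul_neg, mul_one]; exact hU3 x
    · intro x; rw [mul_one]
    · intro a b _ _ ha hb x
      rw [← mul_assoc, hb, ha]
    · intro a _ ha x
      have := ha (x * a⁻¹)
      rw [inv_mul_cancel_right] at this
      exact this.symm
  -- `I` dies on the conjugates of `H`
  have hχI : ∀ (π : Γ) (x h : SL(2, ℤ)), h ∈ H → (π : SL(2, ℤ)) = x * h * x⁻¹ →
      Ihom (Additive.ofMul π) = 0 := by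
    intro π x h hh e
    rw [hIhom]
    have e1 := hU1 π x
    rw [e, inv_mul_cancel_right, hUH h hh] at e1
    linarith
  have hV1' : ∀ (γ : Γ) (x : SL(2, ℤ)), I (δ (γ * x)) = I (δ x) + I γ := by
    intro γ x
    have := map_dcSec_mul_left Γ H Ihom hχI γ x
    rw [← hδ] at this
    exact this
  have hV2' : ∀ (x h : SL(2, ℤ)), h ∈ H → I (δ (x * h)) = I (δ x) := by
    intro x h hh
    have := map_dcSec_mul_right Γ H Ihom hχI x h hh
    rw [← hδ] at this
    exact this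
  -- the invariant part of `U`
  obtain ⟨V, hV⟩ : ∃ V : SL(2, ℤ) → ℤ, V = fun x => U x - I (δ x) := ⟨_, rfl⟩
  have hVΓ : ∀ (γ : Γ) (x : SL(2, ℤ)), V (γ * x) = V x := by
    intro γ x
    rw [hV]
    show U (γ * x) - I (δ (γ * x)) = U x - I (δ x)
    rw [hU1, hV1']; ring
  have hVT : ∀ x, V (x * T) = V x := by
    intro x
    rw [hV]
    show U (x * T) - I (δ (x * T)) = U x - I (δ x)
    rw [hU2, hV2' x T hTH]
  have hVn : ∀ x, V (-x) = V x := by
    intro x
    rw [hV]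
    show U (-x) - I (δ (-x)) = U x - I (δ x)
    have e : -x = x * (-1) := by rw [mul_neg, mul_one]
    rw [hU3, e, hV2' x (-1) hnegH]
  -- the invariant part of `f`
  obtain ⟨f₀, hf₀⟩ : ∃ f₀ : SL(2, ℤ) → ℤ, f₀ = fun x => f x - ψ (Additive.ofMul (δ x)) :=
    ⟨_, rfl⟩
  have hf₀Γ : ∀ (γ : Γ) (x : SL(2, ℤ)), f₀ (γ * x) = f₀ x := by
    intro γ x
    rw [hf₀]
    show f (γ * x) - ψ (Additive.ofMul (δ (γ * x))) = f x - ψ (Additive.ofMul (δ x))
    rw [hf, hu1]; ring
  have hmf₀ : ∀ y, m y = f₀ (y * T) - f₀ y := by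
    intro y
    rw [hm, hf₀]
    show f (y * S) - f y
      = f (y * T) - ψ (Additive.ofMul (δ (y * T))) - (f y - ψ (Additive.ofMul (δ y)))
    rw [hfT, hu2 y T hTH]; ring
  -- the sum against the invariant part vanishes
  have hB : qsum Γ (fun y => m y * V y) = 0 := by
    have h1 := qsum_mul_right Γ (φ := fun y => f₀ y * V y)
      (fun γ x => by show f₀ (γ * x) * V (γ * x) = f₀ x * V x; rw [hf₀Γ, hVΓ]) T
    rw [qsum_eq_fintype_sum, qsum_eq_fintype_sum] at h1
    rw [qsum_eq_fintype_sum, ← sub_eq_zero.2 h1, ← Finset.sum_sub_distrib]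
    apply Finset.sum_congr rfl
    intro q _
    show m (Quotient.out q) * V (Quotient.out q)
      = f₀ (Quotient.out q * T) * V (Quotient.out q * T) - f₀ (Quotient.out q) * V (Quotient.out q)
    rw [hmf₀, hVT]; ring
  have hA : qsum Γ (fun y => m y * V (y * S)) = - qsum Γ (fun y => m y * V y) := by
    have h1 := qsum_mul_right Γ (φ := fun y => m y * V (y * S))
      (fun γ x => by
        show m (γ * x) * V (γ * x * S) = m x * V (x * S)
        rw [hmΓ, mul_assoc, hVΓ]) S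
    rw [← h1, qsum_eq_fintype_sum, qsum_eq_fintype_sum, ← Finset.sum_neg_distrib]
    apply Finset.sum_congr rfl
    intro q _
    show m (Quotient.out q * S) * V (Quotient.out q * S * S) = -(m (Quotient.out q) * V (Quotient.out q))
    rw [hmS, mul_assoc, S_mul_S, mul_neg, mul_one, hVn]; ring
  -- the loop part
  have hloop : I (((Finset.univ : Finset (Quotient (QuotientGroup.rightRel Γ))).toList.map
      (fun q => (δ (Quotient.out q * S) * (δ (Quotient.out q))⁻¹) ^ (m (Quotient.out q)))).prod)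
      = ∑ q : Quotient (QuotientGroup.rightRel Γ),
          m (Quotient.out q) * (I (δ (Quotient.out q * S)) - I (δ (Quotient.out q))) := by
    rw [← hIhom, ofMul_list_prod, map_list_sum, List.map_map, List.map_map,
      Finset.sum_map_toList]
    apply Finset.sum_congr rfl
    intro q _
    show Ihom (Additive.ofMul ((δ (Quotient.out q * S) * (δ (Quotient.out q))⁻¹) ^ m (Quotient.out q)))
      = _
    rw [ofMul_zpow, map_zsmul, ofMul_mul, ofMul_inv, map_add, map_neg, hIhom, hIhom, smul_eq_mul]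
    ring
  rw [hloop]
  -- assemble
  have hsplit : qsum Γ (fun y => (f (y * S) - f y) * (U (y * S) - U y))
      = (qsum Γ (fun y => m y * V (y * S)) - qsum Γ (fun y => m y * V y))
        + ∑ q : Quotient (QuotientGroup.rightRel Γ),
            m (Quotient.out q) * (I (δ (Quotient.out q * S)) - I (δ (Quotient.out q))) := by
    rw [qsum_eq_fintype_sum, qsum_eq_fintype_sum, qsum_eq_fintype_sum, ← Finset.sum_sub_distrib,
      ← Finset.sum_add_distrib]
    apply Finset.sum_congr rfl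
    intro q _
    rw [hm, hV]
    ring
  rw [hsplit, hA, hB]
  ring

end Fermat.Agent.S41.H45L
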