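import Mathlib
import Fermat.Prelude.Def_ModularCurve_PeriodMap
import Fermat.Agent.S41.Isect_helper11
import Fermat.Agent.S41.IsectPotClosed_helper4
import Fermat.Agent.S41.PdsLoop_helper45

/-!
# S41, node (C), intersection route, leaf I4 = (PDS) (helper45): every parabolic character is an
intersection character

`pds` : for `Γ ≤ SL(2, ℤ)` of finite index and every parabolic `ψ : Γ → ℤ` there is `g ∈ Γ` with
`ipair Γ g γ = 8 ψ(γ)` for all `γ ∈ Γ`.

Assembly of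
* (a) `H45L.exists_potential` : a triangle potential `f` of `ψ`;
* (b) `pds_b` (here) : with `m y = f (y S) - f y`, the function `pot m + 8 f` is right-invariant
  under `S` and `ρ = S T` (`H04.pot_mul_S'`, `H04.pot_mul_rho`), hence constant, and
  `H04.pot_avg_smul` turns this into `∑_{y ∈ Γ\G} m y · isect Γ (y e₁) (y e₂) γ = 8 ψ(γ)`;
* (c) `H45L.pds_loop` : the left side is `ipair Γ g γ` for one `g`.
-/

set_option autoImplicit false

namespace Fermat.Agent.S41.H45P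

open Matrix
open scoped MatrixGroups
open ModularGroup
open Fermat.Agent.S41.H11 (isect ipair pot sgSL)
open Fermat.Agent.S41.H45L (qsum)

/-- Leaf I2, first statement (closed by `H45.fin2`). -/
theorem fin2Stmt : H11.Fin2Stmt := fun α hα d hd => H45.fin2 α hα d hd

/-- Leaf I2, second statement (closed by `H45.fin3`). -/
theorem fin3Stmt : H11.Fin3Stmt := fun d₁ d₂ d₃ h₁ h₂ h₃ => H45.fin3 d₁ d₂ d₃ h₁ h₂ h₃

/-- A function on `SL(2, ℤ)` that is right-invariant under `S` and `S T` is constant. -/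
theorem const_of_right_inv {A : Type*} (Φ : SL(2, ℤ) → A) (hS : ∀ x, Φ (x * S) = Φ x)
    (hρ : ∀ x, Φ (x * (S * T)) = Φ x) : ∀ x, Φ x = Φ 1 := by
  let H : Subgroup SL(2, ℤ) :=
    { carrier := {h | ∀ x, Φ (x * h) = Φ x}
      one_mem' := fun x => by rw [mul_one]
      mul_mem' := fun {a b} ha hb x => by rw [← mul_assoc, hb, ha]
      inv_mem' := fun {a} ha x => by
        have := ha (x * a⁻¹)
        rw [inv_mul_cancel_right] at this
        exact this.symm }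
  have hSH : S ∈ H := hS
  have hρH : S * T ∈ H := hρ
  have hTH : T ∈ H := by
    have := H.mul_mem (H.inv_mem hSH) hρH
    rwa [inv_mul_cancel_left] at this
  have htop : H = ⊤ := by
    rw [eq_top_iff, ← _root_.SpecialLinearGroup.SL2Z_generators, Subgroup.closure_le]
    rintro h (rfl | rfl)
    · exact hSH
    · exact hTH
  intro x
  have hx : x ∈ H := by rw [htop]; trivial
  have := hx 1
  rw [one_mul] at this
  exact this

section B

variable (Γ : Subgroup SL(2, ℤ))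

/-- The chosen transversal of `Γ \ SL(2, ℤ)`. -/
def outSet : Set SL(2, ℤ) :=
  Set.range (Quotient.out : Quotient (QuotientGroup.rightRel Γ) → SL(2, ℤ))

theorem outSet_finite [Γ.FiniteIndex] : (outSet Γ).Finite := by
  have := H45L.finite_rightQuot Γ
  exact Set.finite_range _

/-- Exactly one `Γ`-translate of `y` lies in the transversal. -/
theorem existsUnique_mul_mem_outSet (y : SL(2, ℤ)) :
    ∃ δ₀ : Γ, ((δ₀ : SL(2, ℤ)) * y ∈ outSet Γ) ∧
      ∀ δ : Γ, ((δ : SL(2, ℤ)) * y ∈ outSet Γ) → δ = δ₀ := by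
  obtain ⟨γ, hγ⟩ := H45L.exists_eq_mul_out Γ y
  have e0 : ((γ⁻¹ : Γ) : SL(2, ℤ)) * y =
      Quotient.out (Quotient.mk (QuotientGroup.rightRel Γ) y) := by
    conv_lhs => rw [hγ]
    simp
  refine ⟨γ⁻¹, ⟨_, e0.symm⟩, ?_⟩
  rintro δ ⟨q, hq⟩
  have hq' : q = Quotient.mk (QuotientGroup.rightRel Γ) y := by
    rw [← Quotient.out_eq q, hq]
    apply Quotient.sound (s := QuotientGroup.rightRel Γ)
    apply QuotientGroup.rightRel_apply.2
    have : y * ((δ : SL(2, ℤ)) * y)⁻¹ = ((δ⁻¹ : Γ) : SL(2, ℤ)) := by simp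
    rw [this]
    exact (δ⁻¹).2
  rw [hq', ← e0] at hq
  apply Subtype.ext
  exact (mul_right_cancel hq).symm

/-- The `Γ`-average of the restriction of a `Γ`-invariant `m` to the transversal is `m`. -/
theorem finsum_indicator_outSet (m : SL(2, ℤ) → ℤ)
    (hm : ∀ (γ : Γ) (x : SL(2, ℤ)), m (γ * x) = m x) (y : SL(2, ℤ)) :
    ∑ᶠ δ : Γ, (outSet Γ).indicator m ((δ : SL(2, ℤ)) * y) = m y := by
  obtain ⟨δ₀, h0, huniq⟩ := existsUnique_mul_mem_outSet Γ y
  rw [finsum_eq_single _ δ₀]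
  · rw [Set.indicator_of_mem h0, hm]
  · intro δ hδ
    apply Set.indicator_of_notMem
    intro hmem
    exact hδ (huniq δ hmem)

/-- A sum against the restriction to the transversal is a `qsum`. -/
theorem finsum_indicator_outSet_mul (m F : SL(2, ℤ) → ℤ) :
    ∑ᶠ y : SL(2, ℤ), (outSet Γ).indicator m y * F y = qsum Γ (fun y => m y * F y) := by
  have h1 : (fun y : SL(2, ℤ) => (outSet Γ).indicator m y * F y) =
      (outSet Γ).indicator (fun y => m y * F y) := by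
    funext y
    by_cases hy : y ∈ outSet Γ
    · rw [Set.indicator_of_mem hy, Set.indicator_of_mem hy]
    · rw [Set.indicator_of_notMem hy, Set.indicator_of_notMem hy, zero_mul]
  rw [h1, ← finsum_mem_def]
  unfold qsum outSet
  exact finsum_mem_range (Quotient.out_injective)

/-- **(b)**: the edge function `m y = f (y S) - f y` of a triangle potential `f` of `ψ` pairs
with the intersection numbers of the Farey edges to `8 ψ`. -/
theorem pds_b [Γ.FiniteIndex] (ψ : Additive Γ →+ ℤ) (f : SL(2, ℤ) → ℤ)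
    (hf : ∀ (γ : Γ) (x : SL(2, ℤ)), f (γ * x) = f x + ψ (Additive.ofMul γ))
    (hfρ : ∀ x, f (x * (S * T)) = f x) (hfn : ∀ x, f (-x) = f x) (γ : Γ) :
    qsum Γ (fun y => (f (y * S) - f y) *
        isect Γ (y.1 *ᵥ ![1, 0]) (y.1 *ᵥ ![0, 1]) (γ : SL(2, ℤ))) =
      8 * ψ (Additive.ofMul γ) := by
  set m : SL(2, ℤ) → ℤ := fun y => f (y * S) - f y with hm
  have hmΓ : ∀ (δ : Γ) (x : SL(2, ℤ)), m (δ * x) = m x := by
    intro δ x
    simp only [hm]
    rw [mul_assoc, hf, hf]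
    ring
  have hmn : ∀ x, m (-x) = m x := by
    intro x
    simp only [hm]
    rw [neg_mul, hfn, hfn]
  have hmS : ∀ x, m (x * S) = - m x := by
    intro x
    simp only [hm]
    rw [mul_assoc, H45L.S_mul_S, mul_neg, mul_one, hfn]
    ring
  -- the invariant function
  have hΦS : ∀ x, pot m (x * S) + 8 * f (x * S) = pot m x + 8 * f x := by
    intro x
    have h := H04.pot_mul_S' m x
    rw [hmn (x * S), hmn x, hmS x] at h
    have h' : f (x * S) = m x + f x := by simp only [hm]; ring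
    rw [h']
    linarith
  have hΦρ : ∀ x, pot m (x * (S * T)) + 8 * f (x * (S * T)) = pot m x + 8 * f x := by
    intro x
    rw [H04.pot_mul_rho, hfρ]
  have hconst := const_of_right_inv (fun x => pot m x + 8 * f x) hΦS hΦρ
  have h1 : pot m ((γ : SL(2, ℤ)) * 1) - pot m 1 = - (8 * ψ (Additive.ofMul γ)) := by
    have e1 : pot m ((γ : SL(2, ℤ)) * 1) + 8 * f ((γ : SL(2, ℤ)) * 1) = pot m 1 + 8 * f 1 :=
      hconst ((γ : SL(2, ℤ)) * 1)
    rw [hf] at e1
    linarith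
  -- the transversal restriction of `m`
  set m0 : SL(2, ℤ) → ℤ := (outSet Γ).indicator m with hm0
  have hm0fin : (Function.support m0).Finite :=
    (outSet_finite Γ).subset (Set.support_indicator_subset)
  have havg : (fun y : SL(2, ℤ) => ∑ᶠ δ : Γ, m0 ((δ : SL(2, ℤ)) * y)) = m := by
    funext y
    exact finsum_indicator_outSet Γ m hmΓ y
  have h2 := H04.pot_avg_smul Γ m0 hm0fin γ 1
  rw [havg, h1] at h2
  have h3 := finsum_indicator_outSet_mul Γ m
    (fun y => isect Γ (y.1 *ᵥ ![1, 0]) (y.1 *ᵥ ![0, 1]) (γ : SL(2, ℤ)))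
  rw [← h3]
  linarith

end B

/-- `S e₁ = e₂`. -/
theorem S_mulVec_e1 : (S : SL(2, ℤ)).1 *ᵥ ![1, 0] = ![0, 1] := by
  rw [ModularGroup.coe_S]
  ext i
  fin_cases i <;> simp [Matrix.mulVec, dotProduct, Fin.sum_univ_two]

/-- `T e₁ = e₁`. -/
theorem T_mulVec_e1 : (T : SL(2, ℤ)).1 *ᵥ ![1, 0] = ![1, 0] := by
  rw [ModularGroup.coe_T]
  ext i
  fin_cases i <;> simp [Matrix.mulVec, dotProduct, Fin.sum_univ_two]

theorem e2_ne_zero : (![0, 1] : Fin 2 → ℤ) ≠ 0 := by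
  intro h
  have := congrFun h 1
  simp at this

/-- **(PDS)** (leaf I4 of route C-I): every parabolic character of a finite-index subgroup of
`SL(2, ℤ)` is `8⁻¹` times an intersection character. -/
theorem pds (Γ : Subgroup SL(2, ℤ)) [Γ.FiniteIndex] (ψ : Additive Γ →+ ℤ)
    (hψ : ModularCurve.Period.IsParabolicHom Γ ψ) :
    ∃ g : Γ, ∀ γ : Γ, ipair Γ (g : SL(2, ℤ)) (γ : SL(2, ℤ)) = 8 * ψ (Additive.ofMul γ) := by
  obtain ⟨f, hf, hfρ, hfn⟩ := H45L.exists_potential Γ ψ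
  obtain ⟨g, hg⟩ := H45L.pds_loop Γ ψ hψ f hf hfρ hfn
  refine ⟨g, fun γ => ?_⟩
  have he1 := H11.e1_ne_zero
  have hU1 : ∀ (δ : Γ) (x : SL(2, ℤ)),
      isect Γ ![1, 0] (((δ : SL(2, ℤ)) * x).1 *ᵥ ![1, 0]) (γ : SL(2, ℤ)) =
        isect Γ ![1, 0] (x.1 *ᵥ ![1, 0]) (γ : SL(2, ℤ)) +
          ipair Γ (δ : SL(2, ℤ)) (γ : SL(2, ℤ)) := by
    intro δ x
    rw [H11.isect_add fin2Stmt fin3Stmt Γ he1 (H11.sl_mulVec_ne_zero (δ : SL(2, ℤ)) he1)
      (H11.sl_mulVec_ne_zero ((δ : SL(2, ℤ)) * x) he1) γ.2, H11.sl_mul_mulVec,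
      H11.isect_inv Γ δ.2]
    simp only [ipair]
    ring
  have hU2 : ∀ x : SL(2, ℤ),
      isect Γ ![1, 0] ((x * T).1 *ᵥ ![1, 0]) (γ : SL(2, ℤ)) =
        isect Γ ![1, 0] (x.1 *ᵥ ![1, 0]) (γ : SL(2, ℤ)) := by
    intro x
    rw [H11.sl_mul_mulVec, T_mulVec_e1]
  have hU3 : ∀ x : SL(2, ℤ),
      isect Γ ![1, 0] ((-x).1 *ᵥ ![1, 0]) (γ : SL(2, ℤ)) =
        isect Γ ![1, 0] (x.1 *ᵥ ![1, 0]) (γ : SL(2, ℤ)) := by
    intro x
    have h := H11.isect_smul_right Γ (a := -1) (by norm_num) ![1, 0] (x.1 *ᵥ ![1, 0])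
      (γ : SL(2, ℤ))
    rw [← h]
    congr 1
    rw [Matrix.SpecialLinearGroup.coe_neg, Matrix.neg_mulVec]
    simp
  have h : qsum Γ (fun y => (f (y * S) - f y) *
      (isect Γ ![1, 0] ((y * S).1 *ᵥ ![1, 0]) (γ : SL(2, ℤ)) -
        isect Γ ![1, 0] (y.1 *ᵥ ![1, 0]) (γ : SL(2, ℤ)))) =
      ipair Γ (g : SL(2, ℤ)) (γ : SL(2, ℤ)) :=
    hg (fun x => isect Γ ![1, 0] (x.1 *ᵥ ![1, 0]) (γ : SL(2, ℤ)))
      (fun δ => ipair Γ (δ : SL(2, ℤ)) (γ : SL(2, ℤ))) hU1 hU2 hU3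
  rw [← h, ← pds_b Γ ψ f hf hfρ hfn γ]
  congr 1
  funext y
  congr 1
  rw [H11.sl_mul_mulVec, S_mulVec_e1,
    H11.isect_add fin2Stmt fin3Stmt Γ he1 (H11.sl_mulVec_ne_zero y he1)
      (H11.sl_mulVec_ne_zero y e2_ne_zero) γ.2]
  ring

end Fermat.Agent.S41.H45P
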