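/-
S41 node (C), route C-I, leaf (PAR-R) (helper34): right-slot parabolic vanishing of the
intersection pairing `ipair` of `IsectDef_helper11`.

If `γ ∈ Γ` is parabolic (`trace ^ 2 = 4`) and `g ∈ Γ`, then `isect Γ u (g u) γ = 0`, provided the
summand has finite support (`hfin`; this is helper11's I1(a)).
-/
import Mathlib
import Fermat.Agent.S41.IsectDef_helper11

set_option autoImplicit false

namespace Fermat.Agent.S41.H34

open Matrix
open scoped MatrixGroups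
open Fermat.Agent.S41.H11

/-! ### Part 0: a telescoping lemma -/

/-- If `Ψ` vanishes on both tails of every `γ`-orbit and its `γ`-difference has finite support,
then `Ψ` has finite support. -/
theorem support_finite_of_tails {Γ : Type*} [Group Γ] (γ : Γ) (Ψ : Γ → ℤ)
    (hD : (Function.support fun δ => Ψ (γ * δ) - Ψ δ).Finite)
    (hback : ∀ δ, ∃ K : ℕ, ∀ k : ℕ, K ≤ k → Ψ (γ⁻¹ ^ k * δ) = 0)
    (hfwd : ∀ δ, ∃ K : ℕ, ∀ k : ℕ, K ≤ k → Ψ (γ ^ k * δ) = 0) :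
    (Function.support Ψ).Finite := by
  classical
  choose Kf hKf using hfwd
  have hfin : (⋃ s ∈ (Function.support fun δ => Ψ (γ * δ) - Ψ δ),
      (fun j : ℕ => γ ^ j * s) '' (Set.Iio (Kf s))).Finite := by
    refine Set.Finite.biUnion hD ?_
    intro s _
    exact (Set.finite_Iio _).image _
  refine hfin.subset ?_
  intro δ hδ
  have hδ' : Ψ δ ≠ 0 := hδ
  obtain ⟨K, hK⟩ := hback δ
  -- the least `j` with `Ψ (γ⁻¹ ^ j * δ) = 0`
  have hex : ∃ j : ℕ, Ψ (γ⁻¹ ^ j * δ) = 0 := ⟨K, hK K le_rfl⟩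
  let j := Nat.find hex
  have hj : Ψ (γ⁻¹ ^ j * δ) = 0 := Nat.find_spec hex
  have hjmin : ∀ i < j, Ψ (γ⁻¹ ^ i * δ) ≠ 0 := fun i hi => Nat.find_min hex hi
  have hjpos : 0 < j := by
    rcases Nat.eq_zero_or_pos j with h0 | h0
    · exfalso
      rw [h0] at hj
      simp at hj
      exact hδ' hj
    · exact h0
  set s := γ⁻¹ ^ j * δ with hs
  have hshift : ∀ i : ℕ, i ≤ j → γ ^ i * s = γ⁻¹ ^ (j - i) * δ := by
    intro i hi
    rw [hs, ← mul_assoc]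
    congr 1
    have : γ⁻¹ ^ j = γ⁻¹ ^ i * γ⁻¹ ^ (j - i) := by
      rw [← pow_add]; congr 1; omega
    rw [this, ← mul_assoc, inv_pow, inv_pow, mul_inv_cancel, one_mul]
  have hs_mem : s ∈ Function.support fun δ => Ψ (γ * δ) - Ψ δ := by
    show Ψ (γ * s) - Ψ s ≠ 0
    have h1 : γ * s = γ⁻¹ ^ (j - 1) * δ := by
      have := hshift 1 hjpos
      simpa using this
    rw [h1, hj, sub_zero]
    exact hjmin (j - 1) (by omega)
  have hδs : δ = γ ^ j * s := by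
    have := hshift j le_rfl
    simpa using this.symm
  have hjK : j < Kf s := by
    by_contra hcon
    have := hKf s j (not_lt.mp hcon)
    rw [← hδs] at this
    exact hδ' this
  simp only [Set.mem_iUnion, Set.mem_image, Set.mem_Iio, exists_prop]
  exact ⟨s, hs_mem, j, hjK, hδs.symm⟩

/-- The telescoping lemma. -/
theorem finsum_diff_eq_zero_of_tails {Γ : Type*} [Group Γ] (γ : Γ) (Ψ : Γ → ℤ)
    (hD : (Function.support fun δ => Ψ (γ * δ) - Ψ δ).Finite)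
    (hback : ∀ δ, ∃ K : ℕ, ∀ k : ℕ, K ≤ k → Ψ (γ⁻¹ ^ k * δ) = 0)
    (hfwd : ∀ δ, ∃ K : ℕ, ∀ k : ℕ, K ≤ k → Ψ (γ ^ k * δ) = 0) :
    ∑ᶠ δ, (Ψ (γ * δ) - Ψ δ) = 0 := by
  have hΨ := support_finite_of_tails γ Ψ hD hback hfwd
  have hΨ' : (Function.support fun δ => Ψ (γ * δ)).Finite := by
    have : (Function.support fun δ => Ψ (γ * δ)) = (fun δ => γ⁻¹ * δ) '' Function.support Ψ := by
      ext δ
      simp only [Function.mem_support, Set.mem_image]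
      constructor
      · intro h
        exact ⟨γ * δ, h, by simp⟩
      · rintro ⟨x, hx, rfl⟩
        simpa using hx
    rw [this]
    exact hΨ.image _
  rw [finsum_sub_distrib hΨ' hΨ]
  have : ∑ᶠ δ, Ψ (γ * δ) = ∑ᶠ δ, Ψ δ := finsum_comp_equiv (Equiv.mulLeft γ)
  rw [this, sub_self]

/-! ### Part 1: the nilpotent map, the forms along an orbit, and the tails -/

/-- The map `v ↦ M v` for `M = !![m, b; c, -m]`. -/
def nilV (m b c : ℤ) (v : Fin 2 → ℤ) : Fin 2 → ℤ := ![m * v 0 + b * v 1, c * v 0 - m * v 1]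

@[simp] theorem nilV_zero_apply (m b c : ℤ) (v : Fin 2 → ℤ) :
    nilV m b c v 0 = m * v 0 + b * v 1 := rfl

@[simp] theorem nilV_one_apply (m b c : ℤ) (v : Fin 2 → ℤ) :
    nilV m b c v 1 = c * v 0 - m * v 1 := rfl

theorem vec_eq_zero_iff (v : Fin 2 → ℤ) : v = 0 ↔ v 0 = 0 ∧ v 1 = 0 := by
  constructor
  · rintro rfl; exact ⟨rfl, rfl⟩
  · rintro ⟨h0, h1⟩
    funext i
    fin_cases i
    · exact h0
    · exact h1

theorem nilV_eq_zero_iff (m b c : ℤ) (v : Fin 2 → ℤ) :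
    nilV m b c v = 0 ↔ m * v 0 + b * v 1 = 0 ∧ c * v 0 - m * v 1 = 0 := by
  rw [vec_eq_zero_iff]; rfl

theorem nilV_neg (m b c : ℤ) (v : Fin 2 → ℤ) : nilV (-m) (-b) (-c) v = - nilV m b c v := by
  funext i
  fin_cases i
  · show -m * v 0 + -b * v 1 = -(m * v 0 + b * v 1); ring
  · show -c * v 0 - -m * v 1 = -(c * v 0 - m * v 1); ring

theorem nilV_nilV {m b c : ℤ} (h : m ^ 2 + b * c = 0) (v : Fin 2 → ℤ) :
    nilV m b c (nilV m b c v) = 0 := by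
  rw [nilV_eq_zero_iff]
  simp only [nilV_zero_apply, nilV_one_apply]
  constructor
  · linear_combination (v 0) * h
  · linear_combination (v 1) * h

theorem det2_shift {m b c : ℤ} (h : m ^ 2 + b * c = 0) (a d : Fin 2 → ℤ) (k : ℤ) :
    det2 (a + k • nilV m b c a) (d + k • nilV m b c d) = det2 a d := by
  simp only [det2, Pi.add_apply, Pi.smul_apply, smul_eq_mul, nilV_zero_apply, nilV_one_apply]
  linear_combination (-(k ^ 2) * (a 0 * d 1 - a 1 * d 0)) * h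

theorem bform_shift (m b c : ℤ) (a d : Fin 2 → ℤ) (k : ℤ) :
    bform (a + k • nilV m b c a) (d + k • nilV m b c d) =
      bform a d + k * (bform (nilV m b c a) d + bform a (nilV m b c d)) +
        k ^ 2 * bform (nilV m b c a) (nilV m b c d) := by
  simp only [bform, Pi.add_apply, Pi.smul_apply, smul_eq_mul, nilV_zero_apply, nilV_one_apply]
  ring

theorem bform_nil_right {m b c : ℤ} {a : Fin 2 → ℤ} (ha : nilV m b c a = 0) (d : Fin 2 → ℤ) :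
    bform a (nilV m b c d) = 2 * det2 a d * (b - m - c) := by
  obtain ⟨h0, h1⟩ := (nilV_eq_zero_iff m b c a).mp ha
  simp only [bform, det2, nilV_zero_apply, nilV_one_apply]
  linear_combination (2 * d 0 + d 1) * h0 + (d 0 + 2 * d 1) * h1

theorem bform_symm (a d : Fin 2 → ℤ) : bform a d = bform d a := by
  simp only [bform]; ring

theorem det2_swap (a d : Fin 2 → ℤ) : det2 a d = - det2 d a := by
  simp only [det2]; ring

theorem bform_nil_left {m b c : ℤ} {d : Fin 2 → ℤ} (hd : nilV m b c d = 0) (a : Fin 2 → ℤ) :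
    bform (nilV m b c a) d = -(2 * det2 a d * (b - m - c)) := by
  rw [bform_symm, bform_nil_right hd a, det2_swap d a]; ring

theorem bform_zero_left (d : Fin 2 → ℤ) : bform 0 d = 0 := by
  simp [bform]

theorem bform_zero_right (a : Fin 2 → ℤ) : bform a 0 = 0 := by
  simp [bform]

theorem bform_self_pos {v : Fin 2 → ℤ} (hv : v ≠ 0) : 0 < bform v v := by
  have h : ¬ (v 0 = 0 ∧ v 1 = 0) := fun h => hv ((vec_eq_zero_iff v).mpr h)
  simp only [bform]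
  by_contra hcon
  apply h
  have h1 : (v 0 + v 1) ^ 2 + (v 0) ^ 2 + (v 1) ^ 2 ≤ 0 := by nlinarith
  have h2 : (v 0) ^ 2 ≤ 0 := by nlinarith [sq_nonneg (v 0 + v 1), sq_nonneg (v 1)]
  have h3 : (v 1) ^ 2 ≤ 0 := by nlinarith [sq_nonneg (v 0 + v 1), sq_nonneg (v 0)]
  exact ⟨by nlinarith [sq_nonneg (v 0)], by nlinarith [sq_nonneg (v 1)]⟩

theorem lagrange (a d : Fin 2 → ℤ) :
    bform a a * bform d d - bform a d ^ 2 = 3 * det2 a d ^ 2 := by
  simp only [bform, det2]; ring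

theorem det2_nil_nil {m b c : ℤ} (h : m ^ 2 + b * c = 0) (a d : Fin 2 → ℤ) :
    det2 (nilV m b c a) (nilV m b c d) = 0 := by
  simp only [det2, nilV_zero_apply, nilV_one_apply]
  linear_combination (-(a 0 * d 1 - a 1 * d 0)) * h

theorem bform_nil_nil_ne {m b c : ℤ} (h : m ^ 2 + b * c = 0) {a d : Fin 2 → ℤ}
    (ha : nilV m b c a ≠ 0) (hd : nilV m b c d ≠ 0) :
    bform (nilV m b c a) (nilV m b c d) ≠ 0 := by
  intro h0
  have hl := lagrange (nilV m b c a) (nilV m b c d)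
  rw [h0, det2_nil_nil h] at hl
  have h1 := bform_self_pos ha
  have h2 := bform_self_pos hd
  nlinarith

/-- If `M a = 0`, `det2 a d ≠ 0` and `M ≠ 0` then `M d ≠ 0`. -/
theorem nilV_ne_zero_of_det2 {m b c : ℤ} (hM : ¬ (m = 0 ∧ b = 0 ∧ c = 0)) {a d : Fin 2 → ℤ}
    (ha : nilV m b c a = 0) (hdet : det2 a d ≠ 0) : nilV m b c d ≠ 0 := by
  intro hd
  obtain ⟨h0, h1⟩ := (nilV_eq_zero_iff m b c a).mp ha
  obtain ⟨g0, g1⟩ := (nilV_eq_zero_iff m b c d).mp hd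
  apply hM
  simp only [det2] at hdet
  have e1 : b * (a 0 * d 1 - a 1 * d 0) = 0 := by linear_combination (a 0) * g0 - (d 0) * h0
  have e2 : m * (a 0 * d 1 - a 1 * d 0) = 0 := by linear_combination (-(a 1)) * g0 + (d 1) * h0
  have e3 : c * (a 0 * d 1 - a 1 * d 0) = 0 := by linear_combination (-(a 1)) * g1 + (d 1) * h1
  refine ⟨?_, ?_, ?_⟩
  · rcases mul_eq_zero.mp e2 with h | h
    · exact h
    · exact absurd h hdet
  · rcases mul_eq_zero.mp e1 with h | h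
    · exact h
    · exact absurd h hdet
  · rcases mul_eq_zero.mp e3 with h | h
    · exact h
    · exact absurd h hdet

/-- The orientation `b - m - c` of a nonzero nilpotent `!![m, b; c, -m]` is nonzero. -/
theorem orient_ne_zero {m b c : ℤ} (h : m ^ 2 + b * c = 0) (hM : ¬ (m = 0 ∧ b = 0 ∧ c = 0)) :
    b - m - c ≠ 0 := by
  intro h0
  apply hM
  have hm : m = b - c := by linarith
  have hq : b ^ 2 - b * c + c ^ 2 = 0 := by rw [hm] at h; linarith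
  have hb : b = 0 := by nlinarith [sq_nonneg (b - c), sq_nonneg (b + c), sq_nonneg b, sq_nonneg c]
  have hc : c = 0 := by nlinarith [sq_nonneg (b - c), sq_nonneg (b + c), sq_nonneg b, sq_nonneg c]
  exact ⟨by rw [hm, hb, hc]; ring, hb, hc⟩

theorem sign_quadratic_tail (c0 c1 c2 : ℤ) (h2 : c2 ≠ 0) (k : ℕ) (hk : |c0| + |c1| < (k : ℤ)) :
    Int.sign (c0 + (k : ℤ) * c1 + (k : ℤ) ^ 2 * c2) = Int.sign c2 := by
  have hk1 : (1 : ℤ) ≤ k := by
    have := abs_nonneg c0; have := abs_nonneg c1; omega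
  have hbound : |c0 + (k : ℤ) * c1| < (k : ℤ) ^ 2 := by
    calc |c0 + (k : ℤ) * c1| ≤ |c0| + |(k : ℤ) * c1| := abs_add_le _ _
      _ = |c0| + (k : ℤ) * |c1| := by rw [abs_mul, abs_of_nonneg (by omega : (0 : ℤ) ≤ k)]
      _ ≤ (k : ℤ) * |c0| + (k : ℤ) * |c1| := by nlinarith [abs_nonneg c0]
      _ = (k : ℤ) * (|c0| + |c1|) := by ring
      _ < (k : ℤ) * (k : ℤ) := by nlinarith
      _ = (k : ℤ) ^ 2 := by ring
  have hb := abs_lt.mp hbound
  rcases lt_or_gt_of_ne h2 with hneg | hpos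
  · rw [Int.sign_eq_neg_one_of_neg hneg]
    apply Int.sign_eq_neg_one_of_neg
    have : (k : ℤ) ^ 2 * c2 ≤ -((k : ℤ) ^ 2) := by nlinarith [sq_nonneg (k : ℤ)]
    linarith [hb.2]
  · rw [Int.sign_eq_one_of_pos hpos]
    apply Int.sign_eq_one_of_pos
    have : (k : ℤ) ^ 2 ≤ (k : ℤ) ^ 2 * c2 := by nlinarith [sq_nonneg (k : ℤ)]
    linarith [hb.1]

theorem sign_linear_tail (c0 c1 : ℤ) (h1 : c1 ≠ 0) (k : ℕ) (hk : |c0| < (k : ℤ)) :
    Int.sign (c0 + (k : ℤ) * c1) = Int.sign c1 := by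
  have hb := abs_lt.mp hk
  rcases lt_or_gt_of_ne h1 with hneg | hpos
  · rw [Int.sign_eq_neg_one_of_neg hneg]
    apply Int.sign_eq_neg_one_of_neg
    have : (k : ℤ) * c1 ≤ -(k : ℤ) := by nlinarith
    linarith [hb.2]
  · rw [Int.sign_eq_one_of_pos hpos]
    apply Int.sign_eq_one_of_pos
    have : (k : ℤ) ≤ (k : ℤ) * c1 := by nlinarith
    linarith [hb.1]

theorem sign_mul_self_of_ne {d : ℤ} (hd : d ≠ 0) : Int.sign d * Int.sign d = 1 := by
  rcases lt_or_gt_of_ne hd with h | h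
  · rw [Int.sign_eq_neg_one_of_neg h]; rfl
  · rw [Int.sign_eq_one_of_pos h]; rfl

/-- Generic tail: both `M a` and `M d` are nonzero. -/
theorem tail_generic {m b c : ℤ} (h : m ^ 2 + b * c = 0) {a d : Fin 2 → ℤ}
    (ha : nilV m b c a ≠ 0) (hd : nilV m b c d ≠ 0) :
    ∃ K : ℕ, ∀ k : ℕ, K ≤ k → sg (a + (k : ℤ) • nilV m b c a) (d + (k : ℤ) • nilV m b c d) =
      Int.sign (det2 a d) * Int.sign (bform (nilV m b c a) (nilV m b c d)) := by
  have h2 := bform_nil_nil_ne h ha hd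
  refine ⟨(|bform a d| + |bform (nilV m b c a) d + bform a (nilV m b c d)|).toNat + 1, ?_⟩
  intro k hk
  rw [sg, det2_shift h, bform_shift]
  rw [sign_quadratic_tail _ _ _ h2 k]
  have : (0 : ℤ) ≤ |bform a d| + |bform (nilV m b c a) d + bform a (nilV m b c d)| := by positivity
  omega

/-- Tail of type A: `M a = 0`. -/
theorem tail_A {m b c : ℤ} (h : m ^ 2 + b * c = 0) (hM : ¬ (m = 0 ∧ b = 0 ∧ c = 0))
    {a d : Fin 2 → ℤ} (ha : nilV m b c a = 0) (hdet : det2 a d ≠ 0) :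
    ∃ K : ℕ, ∀ k : ℕ, K ≤ k → sg (a + (k : ℤ) • nilV m b c a) (d + (k : ℤ) • nilV m b c d) =
      Int.sign (b - m - c) := by
  have hs := orient_ne_zero h hM
  refine ⟨(|bform a d|).toNat + 1, ?_⟩
  intro k hk
  rw [sg, det2_shift h, bform_shift, ha, bform_zero_left, bform_zero_left, bform_nil_right ha,
    zero_add, mul_zero, add_zero]
  have hne : 2 * det2 a d * (b - m - c) ≠ 0 := by
    exact mul_ne_zero (mul_ne_zero two_ne_zero hdet) hs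
  rw [sign_linear_tail _ _ hne k (by have := abs_nonneg (bform a d); omega)]
  rw [Int.sign_mul, Int.sign_mul]
  have h2 : Int.sign (2 : ℤ) = 1 := rfl
  rw [h2, one_mul, ← mul_assoc, sign_mul_self_of_ne hdet, one_mul]

/-- Tail of type B: `M d = 0`. -/
theorem tail_B {m b c : ℤ} (h : m ^ 2 + b * c = 0) (hM : ¬ (m = 0 ∧ b = 0 ∧ c = 0))
    {a d : Fin 2 → ℤ} (hd : nilV m b c d = 0) (hdet : det2 a d ≠ 0) :
    ∃ K : ℕ, ∀ k : ℕ, K ≤ k → sg (a + (k : ℤ) • nilV m b c a) (d + (k : ℤ) • nilV m b c d) =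
      - Int.sign (b - m - c) := by
  have hs := orient_ne_zero h hM
  refine ⟨(|bform a d|).toNat + 1, ?_⟩
  intro k hk
  rw [sg, det2_shift h, bform_shift, hd, bform_zero_right, bform_zero_right, bform_nil_left hd,
    add_zero, mul_zero, add_zero]
  have hne : -(2 * det2 a d * (b - m - c)) ≠ 0 := by
    exact neg_ne_zero.mpr (mul_ne_zero (mul_ne_zero two_ne_zero hdet) hs)
  rw [sign_linear_tail _ _ hne k (by have := abs_nonneg (bform a d); omega)]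
  rw [Int.sign_neg, Int.sign_mul, Int.sign_mul]
  have h2 : Int.sign (2 : ℤ) = 1 := rfl
  rw [h2, one_mul, mul_neg, ← mul_assoc, sign_mul_self_of_ne hdet, one_mul]

/-! ### Part 2: the action of a parabolic element -/

theorem mulVec_zero_apply (A : Matrix (Fin 2) (Fin 2) ℤ) (v : Fin 2 → ℤ) :
    (A *ᵥ v) 0 = A 0 0 * v 0 + A 0 1 * v 1 := by
  simp [Matrix.mulVec, dotProduct, Fin.sum_univ_two]

theorem mulVec_one_apply (A : Matrix (Fin 2) (Fin 2) ℤ) (v : Fin 2 → ℤ) :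
    (A *ᵥ v) 1 = A 1 0 * v 0 + A 1 1 * v 1 := by
  simp [Matrix.mulVec, dotProduct, Fin.sum_univ_two]

theorem vec_ext {v w : Fin 2 → ℤ} (h0 : v 0 = w 0) (h1 : v 1 = w 1) : v = w := by
  funext i
  fin_cases i
  · exact h0
  · exact h1

theorem mulVec_mul_SL (x y : SL(2, ℤ)) (v : Fin 2 → ℤ) :
    (x * y).1 *ᵥ v = x.1 *ᵥ (y.1 *ᵥ v) := by
  rw [Matrix.SpecialLinearGroup.coe_mul, Matrix.mulVec_mulVec]

theorem det_SL (x : SL(2, ℤ)) : x.1 0 0 * x.1 1 1 - x.1 0 1 * x.1 1 0 = 1 := by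
  have := x.2
  rw [Matrix.det_fin_two] at this
  exact this

theorem det2_mulVec (x : SL(2, ℤ)) (a d : Fin 2 → ℤ) :
    det2 (x.1 *ᵥ a) (x.1 *ᵥ d) = det2 a d := by
  simp only [det2, mulVec_zero_apply, mulVec_one_apply]
  linear_combination (a 0 * d 1 - a 1 * d 0) * det_SL x

theorem sg_smul {ε : ℤ} (hε : ε = 1 ∨ ε = -1) (x y : Fin 2 → ℤ) :
    sg (ε • x) (ε • y) = sg x y := by
  have h2 : ε * ε = 1 := by rcases hε with h | h <;> rw [h] <;> rfl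
  have hd : det2 (ε • x) (ε • y) = det2 x y := by
    simp only [det2, Pi.smul_apply, smul_eq_mul]
    linear_combination (x 0 * y 1 - x 1 * y 0) * h2
  have hb : bform (ε • x) (ε • y) = bform x y := by
    simp only [bform, Pi.smul_apply, smul_eq_mul]
    linear_combination (2 * x 0 * y 0 + x 0 * y 1 + x 1 * y 0 + 2 * x 1 * y 1) * h2
  rw [sg, sg, hd, hb]

theorem nilV_smul (m b c ε : ℤ) (v : Fin 2 → ℤ) :
    nilV m b c (ε • v) = ε • nilV m b c v := by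
  apply vec_ext
  · simp only [nilV_zero_apply, Pi.smul_apply, smul_eq_mul]; ring
  · simp only [nilV_one_apply, Pi.smul_apply, smul_eq_mul]; ring

theorem nilV_scale (m b c η : ℤ) (v : Fin 2 → ℤ) :
    nilV (η * m) (η * b) (η * c) v = η • nilV m b c v := by
  apply vec_ext
  · simp only [nilV_zero_apply, Pi.smul_apply, smul_eq_mul]; ring
  · simp only [nilV_one_apply, Pi.smul_apply, smul_eq_mul]; ring

/-- `σ = e (1 + M)` with `M = !![m, b; c, -m]` nilpotent and `e = ±1`. -/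
def IsNil (σ : SL(2, ℤ)) (e m b c : ℤ) : Prop :=
  (e = 1 ∨ e = -1) ∧ m ^ 2 + b * c = 0 ∧ σ.1 0 0 = e * (1 + m) ∧ σ.1 0 1 = e * b ∧
    σ.1 1 0 = e * c ∧ σ.1 1 1 = e * (1 - m)

theorem exists_isNil (σ : SL(2, ℤ)) (htr : σ.1.trace ^ 2 = 4) : ∃ e m b c : ℤ, IsNil σ e m b c := by
  rw [Matrix.trace_fin_two] at htr
  have hdet := det_SL σ
  have ht : σ.1 0 0 + σ.1 1 1 = 2 ∨ σ.1 0 0 + σ.1 1 1 = -2 := by
    have h : (σ.1 0 0 + σ.1 1 1 - 2) * (σ.1 0 0 + σ.1 1 1 + 2) = 0 := by linear_combination htr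
    rcases mul_eq_zero.mp h with h | h
    · left; linarith
    · right; linarith
  rcases ht with ht | ht
  · refine ⟨1, σ.1 0 0 - 1, σ.1 0 1, σ.1 1 0, Or.inl rfl, ?_, ?_, ?_, ?_, ?_⟩
    · have h11 : σ.1 1 1 = 2 - σ.1 0 0 := by linarith
      rw [h11] at hdet
      linear_combination (-1 : ℤ) * hdet
    · ring
    · ring
    · ring
    · linarith
  · refine ⟨-1, -σ.1 0 0 - 1, -σ.1 0 1, -σ.1 1 0, Or.inr rfl, ?_, ?_, ?_, ?_, ?_⟩
    · have h11 : σ.1 1 1 = -2 - σ.1 0 0 := by linarith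
      rw [h11] at hdet
      linear_combination (-1 : ℤ) * hdet
    · ring
    · ring
    · ring
    · linarith

theorem IsNil.inv {σ : SL(2, ℤ)} {e m b c : ℤ} (h : IsNil σ e m b c) :
    IsNil σ⁻¹ e (-m) (-b) (-c) := by
  obtain ⟨he, hn, h00, h01, h10, h11⟩ := h
  have hinv := Matrix.SpecialLinearGroup.SL2_inv_expl σ
  have e00 : (σ⁻¹).1 0 0 = σ.1 1 1 := by rw [hinv]; rfl
  have e01 : (σ⁻¹).1 0 1 = -σ.1 0 1 := by rw [hinv]; rfl
  have e10 : (σ⁻¹).1 1 0 = -σ.1 1 0 := by rw [hinv]; rfl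
  have e11 : (σ⁻¹).1 1 1 = σ.1 0 0 := by rw [hinv]; rfl
  refine ⟨he, ?_, ?_, ?_, ?_, ?_⟩
  · linear_combination hn
  · rw [e00, h11]; ring
  · rw [e01, h01]; ring
  · rw [e10, h10]; ring
  · rw [e11, h00]; ring

theorem IsNil.mulVec {σ : SL(2, ℤ)} {e m b c : ℤ} (h : IsNil σ e m b c) (y : Fin 2 → ℤ) :
    σ.1 *ᵥ y = e • (y + nilV m b c y) := by
  obtain ⟨_, _, h00, h01, h10, h11⟩ := h
  apply vec_ext
  · rw [mulVec_zero_apply, h00, h01]
    simp only [Pi.smul_apply, Pi.add_apply, smul_eq_mul, nilV_zero_apply]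
    ring
  · rw [mulVec_one_apply, h10, h11]
    simp only [Pi.smul_apply, Pi.add_apply, smul_eq_mul, nilV_one_apply]
    ring

theorem nilV_step {m b c : ℤ} (h : m ^ 2 + b * c = 0) (v : Fin 2 → ℤ) (k : ℤ) :
    (v + k • nilV m b c v) + nilV m b c (v + k • nilV m b c v) = v + (k + 1) • nilV m b c v := by
  apply vec_ext
  · simp only [Pi.add_apply, Pi.smul_apply, smul_eq_mul, nilV_zero_apply, nilV_one_apply]
    linear_combination (k * v 0) * h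
  · simp only [Pi.add_apply, Pi.smul_apply, smul_eq_mul, nilV_zero_apply, nilV_one_apply]
    linear_combination (k * v 1) * h

/-- The orbit formula: `σ ^ k` acts as `± (1 + k M)`. -/
theorem IsNil.pow_mulVec {σ : SL(2, ℤ)} {e m b c : ℤ} (h : IsNil σ e m b c) (k : ℕ) :
    ∃ ε : ℤ, (ε = 1 ∨ ε = -1) ∧
      ∀ v : Fin 2 → ℤ, (σ ^ k).1 *ᵥ v = ε • (v + (k : ℤ) • nilV m b c v) := by
  induction k with
  | zero =>
    refine ⟨1, Or.inl rfl, ?_⟩
    intro v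
    simp
  | succ k ih =>
    obtain ⟨ε, hε, hv⟩ := ih
    refine ⟨e * ε, ?_, ?_⟩
    · rcases h.1 with he | he <;> rcases hε with hε | hε <;> rw [he, hε] <;> simp
    · intro v
      rw [pow_succ', mulVec_mul_SL, hv v, Matrix.mulVec_smul, h.mulVec, nilV_step h.2.1, smul_smul]
      push_cast
      rw [mul_comm]

/-! ### Part 3: the involution and the main theorem -/

section Main

variable (Γ : Subgroup SL(2, ℤ)) (g : Γ) (u : Fin 2 → ℤ) (m b c : ℤ)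

/-- The side function along `Γ`. -/
def Fv (δ : Γ) : ℤ := sg (δ.1.1 *ᵥ u) (δ.1.1 *ᵥ (g.1.1 *ᵥ u))

/-- The common tail value on generic orbits. -/
def Lv (δ : Γ) : ℤ :=
  Int.sign (det2 u (g.1.1 *ᵥ u)) *
    Int.sign (bform (nilV m b c (δ.1.1 *ᵥ u)) (nilV m b c (δ.1.1 *ᵥ (g.1.1 *ᵥ u))))

/-- Type A: the first end of the symbol sits at the fixed cusp. -/
def PA (δ : Γ) : Prop := nilV m b c (δ.1.1 *ᵥ u) = 0

/-- Type B: the second end of the symbol sits at the fixed cusp. -/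
def PB (δ : Γ) : Prop := nilV m b c (δ.1.1 *ᵥ (g.1.1 *ᵥ u)) = 0

open Classical in
/-- The involution exchanging type A and type B. -/
noncomputable def tau (δ : Γ) : Γ :=
  if PA Γ u m b c δ then δ * g⁻¹ else if PB Γ g u m b c δ then δ * g else δ

/-- The symmetrised, normalised side function. -/
noncomputable def Psi (δ : Γ) : ℤ :=
  (Fv Γ g u δ - Lv Γ g u m b c δ) +
    (Fv Γ g u (tau Γ g u m b c δ) - Lv Γ g u m b c (tau Γ g u m b c δ))

variable {Γ g u m b c}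

theorem coe_mul_mulVec (x y : Γ) (v : Fin 2 → ℤ) :
    (x * y).1.1 *ᵥ v = x.1.1 *ᵥ (y.1.1 *ᵥ v) := by
  rw [Subgroup.coe_mul, mulVec_mul_SL]

theorem PB_iff_PA_mul (δ : Γ) : PB Γ g u m b c δ ↔ PA Γ u m b c (δ * g) := by
  unfold PB PA
  rw [coe_mul_mulVec]

theorem PA_iff_PB_mul_inv (δ : Γ) : PA Γ u m b c δ ↔ PB Γ g u m b c (δ * g⁻¹) := by
  rw [PB_iff_PA_mul, inv_mul_cancel_right]

theorem det2_orbit (δ : Γ) :
    det2 (δ.1.1 *ᵥ u) (δ.1.1 *ᵥ (g.1.1 *ᵥ u)) = det2 u (g.1.1 *ᵥ u) :=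
  det2_mulVec _ _ _

theorem not_PA_and_PB (hM : ¬ (m = 0 ∧ b = 0 ∧ c = 0)) (hd0 : det2 u (g.1.1 *ᵥ u) ≠ 0) (δ : Γ) :
    ¬ (PA Γ u m b c δ ∧ PB Γ g u m b c δ) := by
  rintro ⟨hA, hB⟩
  have hdet : det2 (δ.1.1 *ᵥ u) (δ.1.1 *ᵥ (g.1.1 *ᵥ u)) ≠ 0 := by rw [det2_orbit]; exact hd0
  exact nilV_ne_zero_of_det2 hM hA hdet hB

theorem tau_of_PA {δ : Γ} (h : PA Γ u m b c δ) : tau Γ g u m b c δ = δ * g⁻¹ := by
  unfold tau; rw [if_pos h]

theorem tau_of_PB {δ : Γ} (hA : ¬ PA Γ u m b c δ) (hB : PB Γ g u m b c δ) :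
    tau Γ g u m b c δ = δ * g := by
  unfold tau; rw [if_neg hA, if_pos hB]

theorem tau_of_not {δ : Γ} (hA : ¬ PA Γ u m b c δ) (hB : ¬ PB Γ g u m b c δ) :
    tau Γ g u m b c δ = δ := by
  unfold tau; rw [if_neg hA, if_neg hB]

theorem tau_involutive (hM : ¬ (m = 0 ∧ b = 0 ∧ c = 0)) (hd0 : det2 u (g.1.1 *ᵥ u) ≠ 0) :
    Function.Involutive (tau Γ g u m b c) := by
  intro δ
  by_cases hA : PA Γ u m b c δ
  · have hB' : PB Γ g u m b c (δ * g⁻¹) := (PA_iff_PB_mul_inv δ).mp hA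
    have hA' : ¬ PA Γ u m b c (δ * g⁻¹) := fun h => not_PA_and_PB hM hd0 _ ⟨h, hB'⟩
    rw [tau_of_PA hA, tau_of_PB hA' hB', inv_mul_cancel_right]
  · by_cases hB : PB Γ g u m b c δ
    · have hA' : PA Γ u m b c (δ * g) := (PB_iff_PA_mul δ).mp hB
      rw [tau_of_PB hA hB, tau_of_PA hA', mul_inv_cancel_right]
    · rw [tau_of_not hA hB, tau_of_not hA hB]

/-- Orbit data: `σ ∈ Γ` is `± (1 + η M)`. -/
theorem orbit_mulVec {σ : Γ} {e η : ℤ} (hσ : IsNil σ.1 e (η * m) (η * b) (η * c)) (k : ℕ) :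
    ∃ ε : ℤ, (ε = 1 ∨ ε = -1) ∧ ∀ (δ : Γ) (v : Fin 2 → ℤ),
      (σ ^ k * δ).1.1 *ᵥ v =
        ε • (δ.1.1 *ᵥ v + ((k : ℤ) * η) • nilV m b c (δ.1.1 *ᵥ v)) := by
  obtain ⟨ε, hε, hv⟩ := hσ.pow_mulVec k
  refine ⟨ε, hε, ?_⟩
  intro δ v
  rw [coe_mul_mulVec, SubmonoidClass.coe_pow, hv, nilV_scale, smul_smul]

theorem nilV_orbit (hn : m ^ 2 + b * c = 0) (ε t : ℤ) (a : Fin 2 → ℤ) :
    nilV m b c (ε • (a + t • nilV m b c a)) = ε • nilV m b c a := by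
  rw [nilV_smul]
  congr 1
  apply vec_ext
  · simp only [nilV_zero_apply, nilV_one_apply, Pi.add_apply, Pi.smul_apply, smul_eq_mul]
    linear_combination (t * a 0) * hn
  · simp only [nilV_zero_apply, nilV_one_apply, Pi.add_apply, Pi.smul_apply, smul_eq_mul]
    linear_combination (t * a 1) * hn

theorem smul_eq_zero_iff_of_unit {ε : ℤ} (hε : ε = 1 ∨ ε = -1) (v : Fin 2 → ℤ) :
    ε • v = 0 ↔ v = 0 := by
  rcases hε with h | h
  · rw [h, one_smul]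
  · rw [h, neg_one_smul, neg_eq_zero]

end Main

section Orbit

variable {Γ : Subgroup SL(2, ℤ)} {g : Γ} {u : Fin 2 → ℤ} {m b c : ℤ}

theorem PA_orbit (hn : m ^ 2 + b * c = 0) {σ : Γ} {e η : ℤ}
    (hσ : IsNil σ.1 e (η * m) (η * b) (η * c)) (k : ℕ) (δ : Γ) :
    PA Γ u m b c (σ ^ k * δ) ↔ PA Γ u m b c δ := by
  obtain ⟨ε, hε, hv⟩ := orbit_mulVec (Γ := Γ) (m := m) (b := b) (c := c) hσ k
  unfold PA
  rw [hv δ u, nilV_orbit hn, smul_eq_zero_iff_of_unit hε]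

theorem PB_orbit (hn : m ^ 2 + b * c = 0) {σ : Γ} {e η : ℤ}
    (hσ : IsNil σ.1 e (η * m) (η * b) (η * c)) (k : ℕ) (δ : Γ) :
    PB Γ g u m b c (σ ^ k * δ) ↔ PB Γ g u m b c δ := by
  obtain ⟨ε, hε, hv⟩ := orbit_mulVec (Γ := Γ) (m := m) (b := b) (c := c) hσ k
  unfold PB
  rw [hv δ (g.1.1 *ᵥ u), nilV_orbit hn, smul_eq_zero_iff_of_unit hε]

theorem bform_smul_smul {ε : ℤ} (hε : ε = 1 ∨ ε = -1) (x y : Fin 2 → ℤ) :
    bform (ε • x) (ε • y) = bform x y := by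
  have h2 : ε * ε = 1 := by rcases hε with h | h <;> rw [h] <;> rfl
  simp only [bform, Pi.smul_apply, smul_eq_mul]
  linear_combination (2 * x 0 * y 0 + x 0 * y 1 + x 1 * y 0 + 2 * x 1 * y 1) * h2

theorem Lv_orbit (hn : m ^ 2 + b * c = 0) {σ : Γ} {e η : ℤ}
    (hσ : IsNil σ.1 e (η * m) (η * b) (η * c)) (k : ℕ) (δ : Γ) :
    Lv Γ g u m b c (σ ^ k * δ) = Lv Γ g u m b c δ := by
  obtain ⟨ε, hε, hv⟩ := orbit_mulVec (Γ := Γ) (m := m) (b := b) (c := c) hσ k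
  unfold Lv
  rw [hv δ u, hv δ (g.1.1 *ᵥ u), nilV_orbit hn, nilV_orbit hn, bform_smul_smul hε]

theorem tau_orbit (hn : m ^ 2 + b * c = 0) {σ : Γ} {e η : ℤ}
    (hσ : IsNil σ.1 e (η * m) (η * b) (η * c)) (k : ℕ) (δ : Γ) :
    tau Γ g u m b c (σ ^ k * δ) = σ ^ k * tau Γ g u m b c δ := by
  by_cases hA : PA Γ u m b c δ
  · have hA' : PA Γ u m b c (σ ^ k * δ) := (PA_orbit hn hσ k δ).mpr hA
    rw [tau_of_PA hA, tau_of_PA hA', mul_assoc]
  · have hA' : ¬ PA Γ u m b c (σ ^ k * δ) := fun h => hA ((PA_orbit hn hσ k δ).mp h)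
    by_cases hB : PB Γ g u m b c δ
    · have hB' : PB Γ g u m b c (σ ^ k * δ) := (PB_orbit hn hσ k δ).mpr hB
      rw [tau_of_PB hA hB, tau_of_PB hA' hB', mul_assoc]
    · have hB' : ¬ PB Γ g u m b c (σ ^ k * δ) := fun h => hB ((PB_orbit hn hσ k δ).mp h)
      rw [tau_of_not hA hB, tau_of_not hA' hB']

theorem Fv_orbit {σ : Γ} {e m' b' c' : ℤ} (hσ : IsNil σ.1 e m' b' c') (k : ℕ) (δ : Γ) :
    Fv Γ g u (σ ^ k * δ) =
      sg (δ.1.1 *ᵥ u + (k : ℤ) • nilV m' b' c' (δ.1.1 *ᵥ u))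
        (δ.1.1 *ᵥ (g.1.1 *ᵥ u) + (k : ℤ) • nilV m' b' c' (δ.1.1 *ᵥ (g.1.1 *ᵥ u))) := by
  obtain ⟨ε, hε, hv⟩ := hσ.pow_mulVec k
  unfold Fv
  rw [coe_mul_mulVec, coe_mul_mulVec, SubmonoidClass.coe_pow, hv, hv, sg_smul hε]

theorem Lv_of_PA {δ : Γ} (h : PA Γ u m b c δ) : Lv Γ g u m b c δ = 0 := by
  unfold Lv
  unfold PA at h
  rw [h, bform_zero_left, Int.sign_zero, mul_zero]

theorem Lv_of_PB {δ : Γ} (h : PB Γ g u m b c δ) : Lv Γ g u m b c δ = 0 := by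
  unfold Lv
  unfold PB at h
  rw [h, bform_zero_right, Int.sign_zero, mul_zero]

/-- `Psi` vanishes on the tail of every orbit of `σ = ± (1 + η M)`. -/
theorem Psi_tail (hn : m ^ 2 + b * c = 0) (hM : ¬ (m = 0 ∧ b = 0 ∧ c = 0))
    (hd0 : det2 u (g.1.1 *ᵥ u) ≠ 0) {σ : Γ} {e η : ℤ} (hη : η = 1 ∨ η = -1)
    (hσ : IsNil σ.1 e (η * m) (η * b) (η * c)) (δ : Γ) :
    ∃ K : ℕ, ∀ k : ℕ, K ≤ k → Psi Γ g u m b c (σ ^ k * δ) = 0 := by
  have hη2 : η * η = 1 := by rcases hη with h | h <;> rw [h] <;> rfl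
  have hη0 : η ≠ 0 := by rcases hη with h | h <;> rw [h] <;> decide
  have hn' : (η * m) ^ 2 + (η * b) * (η * c) = 0 := by
    linear_combination (η * η) * hn
  have hM' : ¬ (η * m = 0 ∧ η * b = 0 ∧ η * c = 0) := by
    rintro ⟨h1, h2, h3⟩
    exact hM ⟨(mul_eq_zero.mp h1).resolve_left hη0, (mul_eq_zero.mp h2).resolve_left hη0,
      (mul_eq_zero.mp h3).resolve_left hη0⟩
  have hzero : ∀ v : Fin 2 → ℤ, nilV (η * m) (η * b) (η * c) v = 0 ↔ nilV m b c v = 0 := by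
    intro v
    rw [nilV_scale, smul_eq_zero_iff_of_unit hη]
  have hdet : ∀ δ' : Γ, det2 (δ'.1.1 *ᵥ u) (δ'.1.1 *ᵥ (g.1.1 *ᵥ u)) ≠ 0 := by
    intro δ'; rw [det2_orbit]; exact hd0
  by_cases hA : PA Γ u m b c δ
  · -- type A
    have hB2 : PB Γ g u m b c (δ * g⁻¹) := (PA_iff_PB_mul_inv δ).mp hA
    obtain ⟨K1, hK1⟩ := tail_A hn' hM' ((hzero _).mpr hA) (hdet δ)
    obtain ⟨K2, hK2⟩ := tail_B hn' hM' ((hzero _).mpr hB2) (hdet (δ * g⁻¹))
    refine ⟨max K1 K2, ?_⟩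
    intro k hk
    have hAk : PA Γ u m b c (σ ^ k * δ) := (PA_orbit hn hσ k δ).mpr hA
    unfold Psi
    rw [tau_of_PA hAk, mul_assoc, Lv_orbit hn hσ, Lv_orbit hn hσ, Lv_of_PA hA, Lv_of_PB hB2,
      Fv_orbit hσ, Fv_orbit hσ, hK1 k (le_trans (le_max_left _ _) hk),
      hK2 k (le_trans (le_max_right _ _) hk)]
    ring
  · by_cases hB : PB Γ g u m b c δ
    · -- type B
      have hA2 : PA Γ u m b c (δ * g) := (PB_iff_PA_mul δ).mp hB
      obtain ⟨K1, hK1⟩ := tail_B hn' hM' ((hzero _).mpr hB) (hdet δ)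
      obtain ⟨K2, hK2⟩ := tail_A hn' hM' ((hzero _).mpr hA2) (hdet (δ * g))
      refine ⟨max K1 K2, ?_⟩
      intro k hk
      have hAk : ¬ PA Γ u m b c (σ ^ k * δ) := fun h => hA ((PA_orbit hn hσ k δ).mp h)
      have hBk : PB Γ g u m b c (σ ^ k * δ) := (PB_orbit hn hσ k δ).mpr hB
      have hB3 : PB Γ g u m b c (δ * g) → False := fun h => not_PA_and_PB hM hd0 _ ⟨hA2, h⟩
      unfold Psi
      rw [tau_of_PB hAk hBk, mul_assoc, Lv_orbit hn hσ, Lv_orbit hn hσ, Lv_of_PB hB, Lv_of_PA hA2,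
        Fv_orbit hσ, Fv_orbit hσ, hK1 k (le_trans (le_max_left _ _) hk),
        hK2 k (le_trans (le_max_right _ _) hk)]
      ring
    · -- generic type
      have hA' : nilV (η * m) (η * b) (η * c) (δ.1.1 *ᵥ u) ≠ 0 := fun h => hA ((hzero _).mp h)
      have hB' : nilV (η * m) (η * b) (η * c) (δ.1.1 *ᵥ (g.1.1 *ᵥ u)) ≠ 0 :=
        fun h => hB ((hzero _).mp h)
      obtain ⟨K, hK⟩ := tail_generic hn' hA' hB'
      refine ⟨K, ?_⟩
      intro k hk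
      have hAk : ¬ PA Γ u m b c (σ ^ k * δ) := fun h => hA ((PA_orbit hn hσ k δ).mp h)
      have hBk : ¬ PB Γ g u m b c (σ ^ k * δ) := fun h => hB ((PB_orbit hn hσ k δ).mp h)
      have hL : Lv Γ g u m b c δ = Int.sign (det2 (δ.1.1 *ᵥ u) (δ.1.1 *ᵥ (g.1.1 *ᵥ u))) *
          Int.sign (bform (nilV (η * m) (η * b) (η * c) (δ.1.1 *ᵥ u))
            (nilV (η * m) (η * b) (η * c) (δ.1.1 *ᵥ (g.1.1 *ᵥ u)))) := by
        unfold Lv
        rw [det2_orbit, nilV_scale, nilV_scale, bform_smul_smul hη]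
      unfold Psi
      rw [tau_of_not hAk hBk, Lv_orbit hn hσ, Fv_orbit hσ, hK k hk, hL]
      ring

end Orbit

theorem nilV_zero_coeffs (v : Fin 2 → ℤ) : nilV 0 0 0 v = 0 := by
  apply vec_ext
  · simp [nilV]
  · simp [nilV]

/-- **(PAR-R), symbol form.** If `γ ∈ Γ` is parabolic and `g ∈ Γ`, the intersection number of
the symbol `{u, g u}` with `γ` vanishes (given finite support of the summand). -/
theorem isect_parabolic (Γ : Subgroup SL(2, ℤ)) (g γ : SL(2, ℤ)) (hg : g ∈ Γ) (hγ : γ ∈ Γ)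
    (htr : γ.1.trace ^ 2 = 4) (u : Fin 2 → ℤ)
    (hfin : (Function.support fun δ : Γ => isectTerm u (g.1 *ᵥ u) γ (δ : SL(2, ℤ))).Finite) :
    isect Γ u (g.1 *ᵥ u) γ = 0 := by
  let gΓ : Γ := ⟨g, hg⟩
  let γΓ : Γ := ⟨γ, hγ⟩
  have hterm : ∀ δ : Γ, isectTerm u (g.1 *ᵥ u) γ (δ : SL(2, ℤ)) =
      Fv Γ gΓ u (γΓ * δ) - Fv Γ gΓ u δ := fun δ => rfl
  have hisect : isect Γ u (g.1 *ᵥ u) γ = ∑ᶠ δ : Γ, (Fv Γ gΓ u (γΓ * δ) - Fv Γ gΓ u δ) := rfl
  rw [hisect]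
  by_cases hd0 : det2 u (g.1 *ᵥ u) = 0
  · -- the symbol is degenerate: every term vanishes
    have hF : ∀ δ : Γ, Fv Γ gΓ u δ = 0 := by
      intro δ
      unfold Fv
      rw [sg, det2_mulVec]
      have : det2 u (gΓ.1.1 *ᵥ u) = 0 := hd0
      rw [this, Int.sign_zero, zero_mul]
    simp [hF]
  obtain ⟨e, m, b, c, hnil⟩ := exists_isNil γ htr
  by_cases hM : m = 0 ∧ b = 0 ∧ c = 0
  · -- `γ = ± 1`: every term vanishes
    obtain ⟨rfl, rfl, rfl⟩ := hM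
    have hF : ∀ δ : Γ, Fv Γ gΓ u (γΓ * δ) - Fv Γ gΓ u δ = 0 := by
      intro δ
      have h1 := Fv_orbit (Γ := Γ) (g := gΓ) (u := u) (σ := γΓ) hnil 1 δ
      rw [pow_one, nilV_zero_coeffs, nilV_zero_coeffs, smul_zero, add_zero, add_zero] at h1
      rw [h1]
      unfold Fv
      ring
    simp [hF]
  -- the main case
  have hn : m ^ 2 + b * c = 0 := hnil.2.1
  have hd0' : det2 u (gΓ.1.1 *ᵥ u) ≠ 0 := hd0
  have hσ1 : IsNil γΓ.1 e (1 * m) (1 * b) (1 * c) := by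
    rw [one_mul, one_mul, one_mul]; exact hnil
  have hσ2 : IsNil (γΓ⁻¹).1 e (-1 * m) (-1 * b) (-1 * c) := by
    rw [neg_one_mul, neg_one_mul, neg_one_mul]; exact hnil.inv
  have hDfin : (Function.support fun δ : Γ => Fv Γ gΓ u (γΓ * δ) - Fv Γ gΓ u δ).Finite := hfin
  have hτinv := tau_involutive (Γ := Γ) (g := gΓ) (u := u) hM hd0'
  have hDτfin : (Function.support fun δ : Γ =>
      Fv Γ gΓ u (γΓ * tau Γ gΓ u m b c δ) - Fv Γ gΓ u (tau Γ gΓ u m b c δ)).Finite :=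
    hDfin.preimage (hτinv.injective.injOn)
  have hkey : ∀ δ : Γ, Psi Γ gΓ u m b c (γΓ * δ) - Psi Γ gΓ u m b c δ =
      (Fv Γ gΓ u (γΓ * δ) - Fv Γ gΓ u δ) +
        (Fv Γ gΓ u (γΓ * tau Γ gΓ u m b c δ) - Fv Γ gΓ u (tau Γ gΓ u m b c δ)) := by
    intro δ
    have h1 := tau_orbit (Γ := Γ) (g := gΓ) (u := u) hn hσ1 1 δ
    have h2 := Lv_orbit (Γ := Γ) (g := gΓ) (u := u) hn hσ1 1 δ
    have h3 := Lv_orbit (Γ := Γ) (g := gΓ) (u := u) hn hσ1 1 (tau Γ gΓ u m b c δ)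
    rw [pow_one] at h1 h2 h3
    unfold Psi
    rw [h1, h2, h3]
    ring
  have hsum0 : ∑ᶠ δ : Γ, (Psi Γ gΓ u m b c (γΓ * δ) - Psi Γ gΓ u m b c δ) = 0 := by
    apply finsum_diff_eq_zero_of_tails
    · rw [funext hkey]
      exact (hDfin.union hDτfin).subset (Function.support_add _ _)
    · intro δ
      exact Psi_tail hn hM hd0' (Or.inr rfl) hσ2 δ
    · intro δ
      exact Psi_tail hn hM hd0' (Or.inl rfl) hσ1 δ
  rw [funext hkey, finsum_add_distrib hDfin hDτfin] at hsum0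
  have hsum2 : ∑ᶠ δ : Γ, (Fv Γ gΓ u (γΓ * tau Γ gΓ u m b c δ) - Fv Γ gΓ u (tau Γ gΓ u m b c δ))
      = ∑ᶠ δ : Γ, (Fv Γ gΓ u (γΓ * δ) - Fv Γ gΓ u δ) :=
    finsum_comp_equiv (hτinv.toPerm) (f := fun δ : Γ => Fv Γ gΓ u (γΓ * δ) - Fv Γ gΓ u δ)
  rw [hsum2] at hsum0
  omega

/-- **(PAR-R).** The intersection pairing vanishes when the right slot is parabolic. -/
theorem ipair_parabolic_right (Γ : Subgroup SL(2, ℤ)) (g γ : SL(2, ℤ)) (hg : g ∈ Γ) (hγ : γ ∈ Γ)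
    (htr : γ.1.trace ^ 2 = 4)
    (hfin : (Function.support fun δ : Γ =>
      isectTerm ![1, 0] (g.1 *ᵥ ![1, 0]) γ (δ : SL(2, ℤ))).Finite) :
    ipair Γ g γ = 0 :=
  isect_parabolic Γ g γ hg hγ htr ![1, 0] hfin

end Fermat.Agent.S41.H34
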