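/-
S41 node (C), route C-I, leaf (PAR-R) (helper34), closed form: right-slot parabolic vanishing of
the intersection pairing for EVERY subgroup `Γ ≤ SL(2, ℤ)` (no hypothesis on cusps, level 1
included), with the finiteness input discharged by the landed `H17.fin2Stmt` (= `H69.fin2`).
-/
import Mathlib
import Fermat.Prelude.Def_ModularCurve_PeriodMap
import Fermat.Agent.S41.IsectPar_helper34
import Fermat.Agent.S41.IsectParL_helper17

set_option autoImplicit false

namespace Fermat.Agent.S41.H34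

open Matrix
open scoped MatrixGroups

/-- **(PAR-R)**, symbol form, unconditional: for `g, π ∈ Γ` with `π` parabolic, the intersection
number of the symbol `{u, g u}` with `π` vanishes. -/
theorem isect_parabolic_closed (Γ : Subgroup SL(2, ℤ)) {g π : SL(2, ℤ)} (hg : g ∈ Γ) (hπ : π ∈ Γ)
    (htr : π.1.trace ^ 2 = 4) (u : Fin 2 → ℤ) :
    Fermat.Agent.S41.H11.isect Γ u (g.1 *ᵥ u) π = 0 :=
  isect_parabolic Γ g π hg hπ htr u
    (Fermat.Agent.S41.H11.isectTerm_support_finite Fermat.Agent.S41.H17.fin2Stmt Γ _ _ _)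

/-- **(PAR-R)**, unconditional, in the literal board shape (the `hparR` of
`H17.isParabolicHom_ipairHomRight`). -/
theorem ipair_parabolic_right_closed (Γ : Subgroup SL(2, ℤ)) {g π : SL(2, ℤ)} (hg : g ∈ Γ)
    (hπ : π ∈ Γ) (htr : π.1.trace ^ 2 = 4) : Fermat.Agent.S41.H11.ipair Γ g π = 0 :=
  isect_parabolic_closed Γ hg hπ htr ![1, 0]

/-- The second-slot homomorphisms `γ ↦ ipair Γ g γ` (`g ∈ Γ`) are parabolic. -/
theorem isParabolicHom_ipairHomRight_closed (Γ : Subgroup SL(2, ℤ)) (g : Γ) :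
    ModularCurve.Period.IsParabolicHom Γ
      (Fermat.Agent.S41.H17.ipairHomRight Γ (g : SL(2, ℤ))) :=
  Fermat.Agent.S41.H17.isParabolicHom_ipairHomRight Γ
    (fun hg hπ htr => ipair_parabolic_right_closed Γ hg hπ htr) g

theorem ipairHomRight_mem_parabolicHoms (Γ : Subgroup SL(2, ℤ)) (g : Γ) :
    Fermat.Agent.S41.H17.ipairHomRight Γ (g : SL(2, ℤ)) ∈
      ModularCurve.Period.parabolicHoms ℤ Γ ℤ :=
  isParabolicHom_ipairHomRight_closed Γ g

end Fermat.Agent.S41.H34
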