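import Mathlib
import Fermat.Agent.S41.IsectDef_helper11

/-!
# S41, node (C), route C-I: parabolicity of the intersection form in the `γ`-slot (helper76)

`isect Γ u w π = 0` whenever `π ∈ Γ` fixes a nonzero vector `v` up to sign and neither of the cusps
`[u]`, `[w]` is `Γ`-equivalent to the cusp `[v]`.  The proof is a reindexing of a finitely supported
sum: with `p = det2 v (δ u)`, `q = det2 v (δ w)`, `d = det2 u w` one has
`d² B(v,v) = q² B(δu,δu) - 2 p q B(δu,δw) + p² B(δw,δw)`, so `sign B(δu,δw) = sign (p q)` for all but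
finitely many `δ`, and `sign (p q)` is invariant under `δ ↦ π δ`.
-/

set_option autoImplicit false

namespace Fermat.Agent.S41.H76

open Matrix
open scoped MatrixGroups
open Fermat.Agent.S41.H11

theorem det2_mulVec (g : SL(2, ℤ)) (x y : Fin 2 → ℤ) :
    det2 (g.1 *ᵥ x) (g.1 *ᵥ y) = det2 x y := by
  have hdet : g.1 0 0 * g.1 1 1 - g.1 0 1 * g.1 1 0 = 1 := by
    have := g.2
    rw [Matrix.det_fin_two] at this
    exact this
  simp only [det2, Matrix.mulVec, dotProduct, Fin.sum_univ_two]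
  linear_combination (x 0 * y 1 - x 1 * y 0) * hdet

theorem det2_neg_left (x y : Fin 2 → ℤ) : det2 (-x) y = - det2 x y := by
  simp only [det2, Pi.neg_apply]; ring

theorem bform_key (v x y : Fin 2 → ℤ) :
    (det2 x y) ^ 2 * bform v v =
      (det2 v y) ^ 2 * bform x x - 2 * (det2 v x * det2 v y) * bform x y
        + (det2 v x) ^ 2 * bform y y := by
  simp only [det2, bform]; ring

theorem bform_self_nonneg (x : Fin 2 → ℤ) : 0 ≤ bform x x := by
  simp only [bform]; nlinarith [sq_nonneg (x 0 + x 1), sq_nonneg (x 0), sq_nonneg (x 1)]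

theorem sq_le_bform_self (x : Fin 2 → ℤ) (i : Fin 2) : x i ^ 2 ≤ bform x x := by
  have h0 : x 0 ^ 2 ≤ bform x x := by
    simp only [bform]; nlinarith [sq_nonneg (x 0 + x 1), sq_nonneg (x 0), sq_nonneg (x 1)]
  have h1 : x 1 ^ 2 ≤ bform x x := by
    simp only [bform]; nlinarith [sq_nonneg (x 0 + x 1), sq_nonneg (x 0), sq_nonneg (x 1)]
  fin_cases i
  · exact h0
  · exact h1

theorem finite_bform_le (M : ℤ) : {x : Fin 2 → ℤ | bform x x ≤ M}.Finite := by
  have h : (Set.univ.pi fun _ : Fin 2 => Set.Icc (-M) M).Finite :=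
    Set.Finite.pi fun _ => Set.finite_Icc _ _
  refine h.subset ?_
  intro x hx
  have hx : bform x x ≤ M := hx
  simp only [Set.mem_pi, Set.mem_univ, Set.mem_Icc, forall_true_left]
  intro i
  have h1 := sq_le_bform_self x i
  have h2 : x i ≤ x i ^ 2 := Int.le_self_sq (x i)
  have h3 : -x i ≤ (-x i) ^ 2 := Int.le_self_sq (-x i)
  have h4 : (-x i) ^ 2 = x i ^ 2 := by ring
  constructor <;> linarith

/-- the bound: if `p q B(x,y) ≤ 0` with `p = det2 v x ≠ 0`, `q = det2 v y ≠ 0`, then `B(x,x)` and `B(y,y)`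
are at most `d² B(v,v)`. -/
theorem bform_le_of_sign (v x y : Fin 2 → ℤ) (hp : det2 v x ≠ 0) (hq : det2 v y ≠ 0)
    (h : (det2 v x * det2 v y) * bform x y ≤ 0) :
    bform x x ≤ (det2 x y) ^ 2 * bform v v ∧ bform y y ≤ (det2 x y) ^ 2 * bform v v := by
  have key := bform_key v x y
  have hx := bform_self_nonneg x
  have hy := bform_self_nonneg y
  have hp1 : 1 ≤ (det2 v x) ^ 2 := by
    have : 0 < (det2 v x) ^ 2 := by positivity
    linarith
  have hq1 : 1 ≤ (det2 v y) ^ 2 := by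
    have : 0 < (det2 v y) ^ 2 := by positivity
    linarith
  constructor
  · nlinarith [mul_nonneg (sub_nonneg.mpr hq1) hx, mul_nonneg (sq_nonneg (det2 v x)) hy]
  · nlinarith [mul_nonneg (sub_nonneg.mpr hp1) hy, mul_nonneg (sq_nonneg (det2 v y)) hx]

theorem sign_ne_imp_mul_nonpos (a b : ℤ) (ha : a ≠ 0) (h : Int.sign b ≠ Int.sign a) : a * b ≤ 0 := by
  rcases lt_trichotomy b 0 with hb | hb | hb
  · rcases lt_or_gt_of_ne ha with ha' | ha'
    · exact absurd (by rw [Int.sign_eq_neg_one_of_neg hb, Int.sign_eq_neg_one_of_neg ha']) h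
    · exact le_of_lt (mul_neg_of_pos_of_neg ha' hb)
  · simp [hb]
  · rcases lt_or_gt_of_ne ha with ha' | ha'
    · exact le_of_lt (mul_neg_of_neg_of_pos ha' hb)
    · exact absurd (by rw [Int.sign_eq_one_of_pos hb, Int.sign_eq_one_of_pos ha']) h

/-- a matrix of `SL(2,ℤ)` is determined by its values on two independent vectors. -/
theorem eq_of_mulVec_eq {g g' : SL(2, ℤ)} {u w : Fin 2 → ℤ} (hd : det2 u w ≠ 0)
    (hu : g.1 *ᵥ u = g'.1 *ᵥ u) (hw : g.1 *ᵥ w = g'.1 *ᵥ w) : g = g' := by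
  have e1 := congrFun hu 0
  have e2 := congrFun hu 1
  have e3 := congrFun hw 0
  have e4 := congrFun hw 1
  simp only [Matrix.mulVec, dotProduct, Fin.sum_univ_two] at e1 e2 e3 e4
  simp only [det2] at hd
  have h00 : g.1 0 0 = g'.1 0 0 := by
    have : (g.1 0 0 - g'.1 0 0) * (u 0 * w 1 - u 1 * w 0) = 0 := by
      linear_combination w 1 * e1 - u 1 * e3
    rcases mul_eq_zero.mp this with h | h
    · linarith
    · exact absurd h hd
  have h01 : g.1 0 1 = g'.1 0 1 := by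
    have : (g.1 0 1 - g'.1 0 1) * (u 0 * w 1 - u 1 * w 0) = 0 := by
      linear_combination u 0 * e3 - w 0 * e1
    rcases mul_eq_zero.mp this with h | h
    · linarith
    · exact absurd h hd
  have h10 : g.1 1 0 = g'.1 1 0 := by
    have : (g.1 1 0 - g'.1 1 0) * (u 0 * w 1 - u 1 * w 0) = 0 := by
      linear_combination w 1 * e2 - u 1 * e4
    rcases mul_eq_zero.mp this with h | h
    · linarith
    · exact absurd h hd
  have h11 : g.1 1 1 = g'.1 1 1 := by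
    have : (g.1 1 1 - g'.1 1 1) * (u 0 * w 1 - u 1 * w 0) = 0 := by
      linear_combination u 0 * e4 - w 0 * e2
    rcases mul_eq_zero.mp this with h | h
    · linarith
    · exact absurd h hd
  apply Subtype.ext
  ext i j
  fin_cases i <;> fin_cases j
  · exact h00
  · exact h01
  · exact h10
  · exact h11

/-- the corrected side function: `sg (δ u) (δ w) - sign d * sign (p q)`. -/
noncomputable def sCorr (Γ : Subgroup SL(2, ℤ)) (u w v : Fin 2 → ℤ) (δ : Γ) : ℤ :=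
  sg ((δ : SL(2, ℤ)).1 *ᵥ u) ((δ : SL(2, ℤ)).1 *ᵥ w)
    - Int.sign (det2 u w) *
        Int.sign (det2 v ((δ : SL(2, ℤ)).1 *ᵥ u) * det2 v ((δ : SL(2, ℤ)).1 *ᵥ w))

theorem sCorr_support_finite (Γ : Subgroup SL(2, ℤ)) (u w v : Fin 2 → ℤ)
    (hu : ∀ δ ∈ Γ, det2 v ((δ : SL(2, ℤ)).1 *ᵥ u) ≠ 0)
    (hw : ∀ δ ∈ Γ, det2 v ((δ : SL(2, ℤ)).1 *ᵥ w) ≠ 0) :
    (Function.support (sCorr Γ u w v)).Finite := by
  by_cases hd : det2 u w = 0
  · have : Function.support (sCorr Γ u w v) = ∅ := by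
      ext δ
      simp only [Function.mem_support, Set.mem_empty_iff_false, iff_false, not_not]
      simp only [sCorr, sg]
      rw [det2_mulVec, hd]
      simp
    rw [this]; exact Set.finite_empty
  · set M : ℤ := (det2 u w) ^ 2 * bform v v with hM
    let F : Γ → (Fin 2 → ℤ) × (Fin 2 → ℤ) :=
      fun δ => ((δ : SL(2, ℤ)).1 *ᵥ u, (δ : SL(2, ℤ)).1 *ᵥ w)
    have hF : Function.Injective F := by
      intro δ δ' h
      have h1 : (δ : SL(2, ℤ)).1 *ᵥ u = (δ' : SL(2, ℤ)).1 *ᵥ u := congrArg Prod.fst h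
      have h2 : (δ : SL(2, ℤ)).1 *ᵥ w = (δ' : SL(2, ℤ)).1 *ᵥ w := congrArg Prod.snd h
      exact Subtype.ext (eq_of_mulVec_eq hd h1 h2)
    have hfin : ({x : Fin 2 → ℤ | bform x x ≤ M} ×ˢ {x : Fin 2 → ℤ | bform x x ≤ M}).Finite :=
      (finite_bform_le M).prod (finite_bform_le M)
    refine (hfin.preimage hF.injOn).subset ?_
    intro δ hδ
    simp only [Function.mem_support] at hδ
    show bform ((δ : SL(2, ℤ)).1 *ᵥ u) ((δ : SL(2, ℤ)).1 *ᵥ u) ≤ M ∧
      bform ((δ : SL(2, ℤ)).1 *ᵥ w) ((δ : SL(2, ℤ)).1 *ᵥ w) ≤ M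
    have hp := hu δ δ.2
    have hq := hw δ δ.2
    have hdd : det2 ((δ : SL(2, ℤ)).1 *ᵥ u) ((δ : SL(2, ℤ)).1 *ᵥ w) = det2 u w := det2_mulVec _ _ _
    have hne : Int.sign (bform ((δ : SL(2, ℤ)).1 *ᵥ u) ((δ : SL(2, ℤ)).1 *ᵥ w)) ≠
        Int.sign (det2 v ((δ : SL(2, ℤ)).1 *ᵥ u) * det2 v ((δ : SL(2, ℤ)).1 *ᵥ w)) := by
      intro heq
      apply hδ
      simp only [sCorr, sg]
      rw [hdd, heq]
      exact sub_self _
    have hle := sign_ne_imp_mul_nonpos _ _ (mul_ne_zero hp hq) hne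
    have := bform_le_of_sign v _ _ hp hq hle
    rw [hdd] at this
    exact this

/-- **Parabolicity in the `γ`-slot, general form.** -/
theorem isect_eq_zero_of_fixed (Γ : Subgroup SL(2, ℤ)) (u w : Fin 2 → ℤ) {π : SL(2, ℤ)} (hπ : π ∈ Γ)
    (v : Fin 2 → ℤ) (hv : π.1 *ᵥ v = v ∨ π.1 *ᵥ v = -v)
    (hu : ∀ δ ∈ Γ, det2 v ((δ : SL(2, ℤ)).1 *ᵥ u) ≠ 0)
    (hw : ∀ δ ∈ Γ, det2 v ((δ : SL(2, ℤ)).1 *ᵥ w) ≠ 0) :
    isect Γ u w π = 0 := by
  have hfin := sCorr_support_finite Γ u w v hu hw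
  let e : Γ ≃ Γ := Equiv.mulLeft (⟨π, hπ⟩ : Γ)
  -- invariance of `det2 v` under `π` up to sign
  have hdet : ∀ x : Fin 2 → ℤ, det2 v (π.1 *ᵥ x) = det2 v x ∨ det2 v (π.1 *ᵥ x) = - det2 v x := by
    intro x
    have h0 := det2_mulVec π v x
    rcases hv with h | h
    · left; rw [h] at h0; exact h0
    · right; rw [h, det2_neg_left] at h0; linarith
  have hterm : ∀ δ : Γ, isectTerm u w π (δ : SL(2, ℤ)) = sCorr Γ u w v (e δ) - sCorr Γ u w v δ := by
    intro δ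
    have he : ((e δ : Γ) : SL(2, ℤ)) = π * (δ : SL(2, ℤ)) := rfl
    have hmu : (π * (δ : SL(2, ℤ))).1 *ᵥ u = π.1 *ᵥ ((δ : SL(2, ℤ)).1 *ᵥ u) := by
      rw [Matrix.SpecialLinearGroup.coe_mul, Matrix.mulVec_mulVec]
    have hmw : (π * (δ : SL(2, ℤ))).1 *ᵥ w = π.1 *ᵥ ((δ : SL(2, ℤ)).1 *ᵥ w) := by
      rw [Matrix.SpecialLinearGroup.coe_mul, Matrix.mulVec_mulVec]
    have hprod : det2 v (π.1 *ᵥ ((δ : SL(2, ℤ)).1 *ᵥ u)) * det2 v (π.1 *ᵥ ((δ : SL(2, ℤ)).1 *ᵥ w))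
        = det2 v ((δ : SL(2, ℤ)).1 *ᵥ u) * det2 v ((δ : SL(2, ℤ)).1 *ᵥ w) := by
      rcases hv with h | h
      · have h1 := det2_mulVec π v ((δ : SL(2, ℤ)).1 *ᵥ u)
        have h2 := det2_mulVec π v ((δ : SL(2, ℤ)).1 *ᵥ w)
        rw [h] at h1 h2
        rw [h1, h2]
      · have h1 := det2_mulVec π v ((δ : SL(2, ℤ)).1 *ᵥ u)
        have h2 := det2_mulVec π v ((δ : SL(2, ℤ)).1 *ᵥ w)
        rw [h, det2_neg_left] at h1 h2
        have h1' : det2 v (π.1 *ᵥ ((δ : SL(2, ℤ)).1 *ᵥ u)) = - det2 v ((δ : SL(2, ℤ)).1 *ᵥ u) := by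
          linarith
        have h2' : det2 v (π.1 *ᵥ ((δ : SL(2, ℤ)).1 *ᵥ w)) = - det2 v ((δ : SL(2, ℤ)).1 *ᵥ w) := by
          linarith
        rw [h1', h2']; ring
    simp only [isectTerm, sCorr, he, hmu, hmw, hprod]
    ring
  have hfin' : (Function.support fun δ : Γ => sCorr Γ u w v (e δ)).Finite := by
    have : (Function.support fun δ : Γ => sCorr Γ u w v (e δ)) = e ⁻¹' Function.support (sCorr Γ u w v) := by
      ext δ; simp [Function.mem_support]
    rw [this]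
    exact hfin.preimage e.injective.injOn
  calc isect Γ u w π = ∑ᶠ δ : Γ, (sCorr Γ u w v (e δ) - sCorr Γ u w v δ) := by
        unfold isect
        exact finsum_congr hterm
    _ = (∑ᶠ δ : Γ, sCorr Γ u w v (e δ)) - ∑ᶠ δ : Γ, sCorr Γ u w v δ :=
        finsum_sub_distrib hfin' hfin
    _ = 0 := by
        rw [finsum_comp_equiv e]; exact sub_self _

end Fermat.Agent.S41.H76
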