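import Mathlib
import Fermat.Agent.S41.Isect_helper11
import Fermat.Agent.S41.IsectPar_helper76

/-!
# S41, node (C), route C-I: (PAR-R), the intersection form vanishes on parabolic `γ` (helper76)

`ipair Γ g π = 0` for `g, π ∈ Γ` with `trace π ^ 2 = 4`, for every subgroup `Γ` of `SL(2, ℤ)` in which
the cusps `∞` and `0` are inequivalent (`∀ δ ∈ Γ, δ 0 0 ≠ 0`), in particular for `Γ₀(M)`, `1 < M`.

* a parabolic `π` fixes a nonzero vector `v` up to sign;
* one of the two base cusps `e₁`, `e₂` has no `Γ`-translate parallel to `v`;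
* `isect Γ u (g u) π` does not depend on the base cusp `u` (triangle relation + invariance);
* conclude by `isect_eq_zero_of_fixed`.
-/

set_option autoImplicit false

namespace Fermat.Agent.S41.H76

open Matrix
open scoped MatrixGroups
open Fermat.Agent.S41.H11

/-- Cramer's rule: `det2 x y • v = det2 v y • x - det2 v x • y`. -/
theorem det2_cramer (v x y : Fin 2 → ℤ) (i : Fin 2) :
    det2 x y * v i = det2 v y * x i - det2 v x * y i := by
  fin_cases i
  · simp only [det2, Fin.zero_eta]; ring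
  · simp only [det2, Fin.mk_one]; ring

theorem det2_eq_zero_of_parallel {v x y : Fin 2 → ℤ} (hv : v ≠ 0) (hx : det2 v x = 0)
    (hy : det2 v y = 0) : det2 x y = 0 := by
  by_contra h
  apply hv
  funext i
  have h1 := det2_cramer v x y i
  rw [hx, hy] at h1
  have h2 : det2 x y * v i = 0 := by rw [h1]; ring
  exact (mul_eq_zero.mp h2).resolve_left h

theorem e2_ne_zero : (![0, 1] : Fin 2 → ℤ) ≠ 0 := by
  intro h
  have := congrFun h 1
  simp at this

theorem mulVec_fin_two (A : Matrix (Fin 2) (Fin 2) ℤ) (a b : ℤ) :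
    A *ᵥ ![a, b] = ![A 0 0 * a + A 0 1 * b, A 1 0 * a + A 1 1 * b] := by
  funext i
  fin_cases i <;> simp [Matrix.mulVec, dotProduct, Fin.sum_univ_two]

theorem vec2_ne_zero_left {a b : ℤ} (h : a ≠ 0) : (![a, b] : Fin 2 → ℤ) ≠ 0 := by
  intro h'
  have := congrFun h' 0
  simp at this
  exact h this

theorem vec2_ne_zero_right {a b : ℤ} (h : b ≠ 0) : (![a, b] : Fin 2 → ℤ) ≠ 0 := by
  intro h'
  have := congrFun h' 1
  simp at this
  exact h this

theorem vec2_neg (a b : ℤ) : -(![a, b] : Fin 2 → ℤ) = ![-a, -b] := by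
  funext i
  fin_cases i <;> simp

/-- A parabolic element (or `±1`) of `SL(2, ℤ)` fixes a nonzero vector up to sign. -/
theorem exists_fixed_of_trace (π : SL(2, ℤ)) (htr : π.1.trace ^ 2 = 4) :
    ∃ v : Fin 2 → ℤ, v ≠ 0 ∧ (π.1 *ᵥ v = v ∨ π.1 *ᵥ v = -v) := by
  have hdet : π.1 0 0 * π.1 1 1 - π.1 0 1 * π.1 1 0 = 1 := by
    have := π.2
    rw [Matrix.det_fin_two] at this
    exact this
  have htr' : (π.1 0 0 + π.1 1 1) ^ 2 = 4 := by
    rw [Matrix.trace_fin_two] at htr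
    exact htr
  have ht : π.1 0 0 + π.1 1 1 = 2 ∨ π.1 0 0 + π.1 1 1 = -2 := by
    have : (π.1 0 0 + π.1 1 1 - 2) * (π.1 0 0 + π.1 1 1 + 2) = 0 := by nlinarith
    rcases mul_eq_zero.mp this with h | h
    · left; linarith
    · right; linarith
  set a := π.1 0 0 with ha
  set b := π.1 0 1 with hb
  set c := π.1 1 0 with hc
  set d := π.1 1 1 with hd
  rcases ht with ht | ht
  · -- trace 2
    by_cases h1 : b ≠ 0 ∨ 1 - a ≠ 0
    · refine ⟨![b, 1 - a], ?_, Or.inl ?_⟩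
      · rcases h1 with h1 | h1
        · exact vec2_ne_zero_left h1
        · exact vec2_ne_zero_right h1
      · rw [mulVec_fin_two]
        have e0 : a * b + b * (1 - a) = b := by ring
        have e1 : c * b + d * (1 - a) = 1 - a := by linear_combination (-1 : ℤ) * hdet + ht
        rw [← ha, ← hb, ← hc, ← hd, e0, e1]
    · push Not at h1
      by_cases h2 : c ≠ 0
      · refine ⟨![1 - d, c], vec2_ne_zero_right h2, Or.inl ?_⟩
        rw [mulVec_fin_two]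
        have e0 : a * (1 - d) + b * c = 1 - d := by linear_combination (-1 : ℤ) * hdet + ht
        have e1 : c * (1 - d) + d * c = c := by ring
        rw [← ha, ← hb, ← hc, ← hd, e0, e1]
      · push Not at h2
        refine ⟨![1, 0], vec2_ne_zero_left one_ne_zero, Or.inl ?_⟩
        rw [mulVec_fin_two]
        have e0 : a * 1 + b * 0 = 1 := by linarith [h1.2]
        have e1 : c * 1 + d * 0 = 0 := by rw [h2]; ring
        rw [← ha, ← hb, ← hc, ← hd, e0, e1]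
  · -- trace -2
    by_cases h1 : b ≠ 0 ∨ -1 - a ≠ 0
    · refine ⟨![b, -1 - a], ?_, Or.inr ?_⟩
      · rcases h1 with h1 | h1
        · exact vec2_ne_zero_left h1
        · exact vec2_ne_zero_right h1
      · rw [mulVec_fin_two, vec2_neg]
        have e0 : a * b + b * (-1 - a) = -b := by ring
        have e1 : c * b + d * (-1 - a) = -(-1 - a) := by linear_combination (-1 : ℤ) * hdet - ht
        rw [← ha, ← hb, ← hc, ← hd, e0, e1]
    · push Not at h1
      by_cases h2 : c ≠ 0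
      · refine ⟨![-1 - d, c], vec2_ne_zero_right h2, Or.inr ?_⟩
        rw [mulVec_fin_two, vec2_neg]
        have e0 : a * (-1 - d) + b * c = -(-1 - d) := by linear_combination (-1 : ℤ) * hdet - ht
        have e1 : c * (-1 - d) + d * c = -c := by ring
        rw [← ha, ← hb, ← hc, ← hd, e0, e1]
      · push Not at h2
        refine ⟨![1, 0], vec2_ne_zero_left one_ne_zero, Or.inr ?_⟩
        rw [mulVec_fin_two, vec2_neg]
        have e0 : a * 1 + b * 0 = -1 := by linarith [h1.2]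
        have e1 : c * 1 + d * 0 = -0 := by rw [h2]; ring
        rw [← ha, ← hb, ← hc, ← hd, e0, e1]

/-- If the cusps `∞` and `0` are `Γ`-inequivalent, then for every nonzero `v` one of the two base
vectors `e₁`, `e₂` has no `Γ`-translate parallel to `v`. -/
theorem exists_base (Γ : Subgroup SL(2, ℤ)) (h0 : ∀ δ ∈ Γ, (δ : SL(2, ℤ)).1 0 0 ≠ 0)
    {v : Fin 2 → ℤ} (hv : v ≠ 0) :
    (∀ δ ∈ Γ, det2 v ((δ : SL(2, ℤ)).1 *ᵥ ![1, 0]) ≠ 0) ∨
      (∀ δ ∈ Γ, det2 v ((δ : SL(2, ℤ)).1 *ᵥ ![0, 1]) ≠ 0) := by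
  by_contra hcon
  push Not at hcon
  obtain ⟨⟨δ₁, hδ₁, h1⟩, ⟨δ₂, hδ₂, h2⟩⟩ := hcon
  have hpar : det2 (δ₂.1 *ᵥ ![0, 1]) (δ₁.1 *ᵥ ![1, 0]) = 0 := det2_eq_zero_of_parallel hv h2 h1
  have hx := det2_mulVec δ₂⁻¹ (δ₂.1 *ᵥ ![0, 1]) (δ₁.1 *ᵥ ![1, 0])
  rw [hpar, sl_inv_mulVec, ← sl_mul_mulVec, mulVec_fin_two] at hx
  have hmem : δ₂⁻¹ * δ₁ ∈ Γ := Γ.mul_mem (Γ.inv_mem hδ₂) hδ₁
  apply h0 _ hmem
  simp only [det2] at hx
  simp at hx
  exact hx

/-- Independence of the base cusp. -/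
theorem isect_base_change (h2 : Fin2Stmt) (h3 : Fin3Stmt) (Γ : Subgroup SL(2, ℤ)) {g π : SL(2, ℤ)}
    (hg : g ∈ Γ) (hπ : π ∈ Γ) {u u' : Fin 2 → ℤ} (hu : u ≠ 0) (hu' : u' ≠ 0) :
    isect Γ u (g.1 *ᵥ u) π = isect Γ u' (g.1 *ᵥ u') π := by
  have e1 := isect_add h2 h3 Γ hu hu' (sl_mulVec_ne_zero g hu) hπ
  have e2 := isect_add h2 h3 Γ hu' (sl_mulVec_ne_zero g hu') (sl_mulVec_ne_zero g hu) hπ
  have e3 := isect_inv Γ hg u' u π
  have e4 := isect_swap Γ u u' π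
  linarith

/-- **(PAR-R)**: the intersection form vanishes on parabolic elements in the `γ`-slot, for subgroups
with inequivalent cusps `∞`, `0`. -/
theorem ipair_parabolic_right_of_h0 (h2 : Fin2Stmt) (h3 : Fin3Stmt) (Γ : Subgroup SL(2, ℤ))
    (h0 : ∀ δ ∈ Γ, (δ : SL(2, ℤ)).1 0 0 ≠ 0) {g π : SL(2, ℤ)} (hg : g ∈ Γ) (hπ : π ∈ Γ)
    (htr : π.1.trace ^ 2 = 4) : ipair Γ g π = 0 := by
  obtain ⟨v, hv0, hv⟩ := exists_fixed_of_trace π htr
  rcases exists_base Γ h0 hv0 with hu | hu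
  · refine isect_eq_zero_of_fixed Γ _ _ hπ v hv hu fun δ hδ => ?_
    rw [← sl_mul_mulVec]
    exact hu (δ * g) (Γ.mul_mem hδ hg)
  · have h := isect_eq_zero_of_fixed Γ ![0, 1] (g.1 *ᵥ ![0, 1]) hπ v hv hu fun δ hδ => by
      rw [← sl_mul_mulVec]
      exact hu (δ * g) (Γ.mul_mem hδ hg)
    rw [ipair, isect_base_change h2 h3 Γ hg hπ e1_ne_zero e2_ne_zero]
    exact h

/-- In `Γ₀(M)`, `1 < M`, the cusps `∞` and `0` are inequivalent. -/
theorem Gamma0_apply_zero_zero_ne_zero {M : ℕ} (hM : 1 < M) :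
    ∀ δ ∈ CongruenceSubgroup.Gamma0 M, (δ : SL(2, ℤ)).1 0 0 ≠ 0 := by
  intro δ hδ h00
  rw [CongruenceSubgroup.Gamma0_mem] at hδ
  have hdvd : (M : ℤ) ∣ δ.1 1 0 := (ZMod.intCast_zmod_eq_zero_iff_dvd _ _).mp hδ
  have hdet : δ.1 0 0 * δ.1 1 1 - δ.1 0 1 * δ.1 1 0 = 1 := by
    have := δ.2
    rw [Matrix.det_fin_two] at this
    exact this
  rw [h00] at hdet
  have h1 : δ.1 1 0 ∣ 1 := ⟨-δ.1 0 1, by linarith⟩
  have h2 : (M : ℤ) ∣ 1 := dvd_trans hdvd h1
  have h3 : M ∣ 1 := by exact_mod_cast h2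
  have h4 : M = 1 := Nat.dvd_one.mp h3
  omega

/-- **(PAR-R) for `Γ₀(M)`, `1 < M`.** -/
theorem ipair_parabolic_right_Gamma0 (h2 : Fin2Stmt) (h3 : Fin3Stmt) {M : ℕ} (hM : 1 < M)
    {g π : SL(2, ℤ)} (hg : g ∈ CongruenceSubgroup.Gamma0 M) (hπ : π ∈ CongruenceSubgroup.Gamma0 M)
    (htr : π.1.trace ^ 2 = 4) : ipair (CongruenceSubgroup.Gamma0 M) g π = 0 :=
  ipair_parabolic_right_of_h0 h2 h3 _ (Gamma0_apply_zero_zero_ne_zero hM) hg hπ htr

end Fermat.Agent.S41.H76
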