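import Mathlib
import Fermat.Prelude.Def_ModularCurve_PeriodMap
import Fermat.Agent.S41.IsectParL_helper17
import Fermat.Agent.S41.IsectParR_helper76

/-!
# S41, node (C), route C-I: (PAR-R), hypothesis-free forms (helper76)

The right-slot parabolic vanishing of `IsectParR_helper76` with the finiteness statements closed
(`H17.fin2Stmt`, `H17.fin3Stmt`), and the second-slot homomorphisms `H17.ipairHomRight` as elements
of the parabolic lattice `parabolicHoms ℤ Γ ℤ`, for subgroups `Γ` with inequivalent cusps `∞`, `0`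
(`∀ δ ∈ Γ, δ 0 0 ≠ 0`), in particular for `Γ₀(M)`, `1 < M`.
-/

set_option autoImplicit false

namespace Fermat.Agent.S41.H76

open Matrix
open scoped MatrixGroups
open Fermat.Agent.S41.H11

/-- **(PAR-R)**, unconditional, for subgroups with inequivalent cusps `∞`, `0`. -/
theorem ipair_parabolic_right (Γ : Subgroup SL(2, ℤ)) (h0 : ∀ δ ∈ Γ, (δ : SL(2, ℤ)).1 0 0 ≠ 0)
    {g π : SL(2, ℤ)} (hg : g ∈ Γ) (hπ : π ∈ Γ) (htr : π.1.trace ^ 2 = 4) : ipair Γ g π = 0 :=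
  ipair_parabolic_right_of_h0 H17.fin2Stmt H17.fin3Stmt Γ h0 hg hπ htr

/-- **(PAR-R)**, unconditional, for `Γ₀(M)`, `1 < M`. -/
theorem ipair_parabolic_right_Gamma0' {M : ℕ} (hM : 1 < M) {g π : SL(2, ℤ)}
    (hg : g ∈ CongruenceSubgroup.Gamma0 M) (hπ : π ∈ CongruenceSubgroup.Gamma0 M)
    (htr : π.1.trace ^ 2 = 4) : ipair (CongruenceSubgroup.Gamma0 M) g π = 0 :=
  ipair_parabolic_right_Gamma0 H17.fin2Stmt H17.fin3Stmt hM hg hπ htr

/-- The second-slot homomorphisms `γ ↦ ipair Γ g γ`, `g ∈ Γ`, are parabolic. -/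
theorem isParabolicHom_ipairHomRight_of_h0 (Γ : Subgroup SL(2, ℤ))
    (h0 : ∀ δ ∈ Γ, (δ : SL(2, ℤ)).1 0 0 ≠ 0) (g : Γ) :
    ModularCurve.Period.IsParabolicHom Γ (H17.ipairHomRight Γ (g : SL(2, ℤ))) :=
  H17.isParabolicHom_ipairHomRight Γ (fun hg hπ htr => ipair_parabolic_right Γ h0 hg hπ htr) g

theorem ipairHomRight_mem_of_h0 (Γ : Subgroup SL(2, ℤ))
    (h0 : ∀ δ ∈ Γ, (δ : SL(2, ℤ)).1 0 0 ≠ 0) (g : Γ) :
    H17.ipairHomRight Γ (g : SL(2, ℤ)) ∈ ModularCurve.Period.parabolicHoms ℤ Γ ℤ :=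
  isParabolicHom_ipairHomRight_of_h0 Γ h0 g

/-- The second-slot homomorphisms of `Γ₀(M)`, `1 < M`, are parabolic. -/
theorem isParabolicHom_ipairHomRight_Gamma0 {M : ℕ} (hM : 1 < M)
    (g : CongruenceSubgroup.Gamma0 M) :
    ModularCurve.Period.IsParabolicHom (CongruenceSubgroup.Gamma0 M)
      (H17.ipairHomRight (CongruenceSubgroup.Gamma0 M) (g : SL(2, ℤ))) :=
  isParabolicHom_ipairHomRight_of_h0 _ (Gamma0_apply_zero_zero_ne_zero hM) g

theorem ipairHomRight_mem_Gamma0 {M : ℕ} (hM : 1 < M) (g : CongruenceSubgroup.Gamma0 M) :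
    H17.ipairHomRight (CongruenceSubgroup.Gamma0 M) (g : SL(2, ℤ)) ∈
      ModularCurve.Period.parabolicHoms ℤ (CongruenceSubgroup.Gamma0 M) ℤ :=
  isParabolicHom_ipairHomRight_Gamma0 hM g

/-- The second-slot homomorphism as an element of the parabolic lattice of `Γ₀(M)`, `1 < M`. -/
noncomputable def ipairParRight {M : ℕ} (hM : 1 < M) (g : CongruenceSubgroup.Gamma0 M) :
    ModularCurve.Period.parabolicHoms ℤ (CongruenceSubgroup.Gamma0 M) ℤ :=
  ⟨H17.ipairHomRight (CongruenceSubgroup.Gamma0 M) (g : SL(2, ℤ)), ipairHomRight_mem_Gamma0 hM g⟩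

@[simp] theorem coe_ipairParRight {M : ℕ} (hM : 1 < M) (g : CongruenceSubgroup.Gamma0 M) :
    ((ipairParRight hM g : ModularCurve.Period.parabolicHoms ℤ (CongruenceSubgroup.Gamma0 M) ℤ) :
      Additive (CongruenceSubgroup.Gamma0 M) →+ ℤ) =
      H17.ipairHomRight (CongruenceSubgroup.Gamma0 M) (g : SL(2, ℤ)) := rfl

theorem ipairParRight_apply {M : ℕ} (hM : 1 < M) (g γ : CongruenceSubgroup.Gamma0 M) :
    (ipairParRight hM g : Additive (CongruenceSubgroup.Gamma0 M) →+ ℤ) (Additive.ofMul γ) =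
      ipair (CongruenceSubgroup.Gamma0 M) (g : SL(2, ℤ)) (γ : SL(2, ℤ)) := rfl

/-- additivity in the parameter `g`. -/
theorem ipairParRight_mul {M : ℕ} (hM : 1 < M) (g₁ g₂ : CongruenceSubgroup.Gamma0 M) :
    ipairParRight hM (g₁ * g₂) = ipairParRight hM g₁ + ipairParRight hM g₂ :=
  Subtype.ext (H17.ipairHomRight_mul (CongruenceSubgroup.Gamma0 M) g₁ g₂)

end Fermat.Agent.S41.H76
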