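import Mathlib
import Fermat.Prelude.Def_ModularCurve_PeriodMap
import Fermat.Agent.S41.IsectPdsInst_helper62
import Fermat.Agent.S41.IsectPDS_helper12
import Fermat.Agent.S41.IsectClosed_helper11
import Fermat.Agent.S41.CITop_helper39

/-!
# S41, node (C), route C-I: the leaves (INJ-right), (INJ), (PAR-R), (PAR-L), hypothesis-free

`H12.pds` (leaf I4) is a term of `PdsStmt Γ 8`; with `IsectPdsInst_helper62` this closes

* `inj_right` / `inj` : non-degeneracy modulo an odd prime of the intersection form against the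
  parabolic homomorphisms (either slot), for every finite-index `Γ`;
* `injRStmt` : the leaf `H39.InjRStmt N p` of `H39.hkey_concrete`;
* `parRStmt`, `parLStmt` : the leaves `H39.ParRStmt M`, `H39.ParLStmt M`.
-/

set_option autoImplicit false

namespace Fermat.Agent.S41.H62

open Matrix CongruenceSubgroup
open scoped MatrixGroups
open Fermat.Agent.S41.H11

/-- Leaf I4 (PDS) in the form consumed by `IsectPdsInst_helper62`. -/
theorem pdsStmt (Γ : Subgroup SL(2, ℤ)) [Γ.FiniteIndex] : PdsStmt Γ 8 :=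
  fun ψ hψ => H12.pds Γ ψ hψ

/-- **(INJ-right)**: if `p ∣ ⟨δ, w⟩` for all `δ ∈ Γ`, then `p ∣ ψ w` for every parabolic `ψ`. -/
theorem inj_right (Γ : Subgroup SL(2, ℤ)) [Γ.FiniteIndex] {p : ℕ} (hp : p.Prime) (hp2 : p ≠ 2)
    (w : Γ) (h : ∀ δ : Γ, (p : ℤ) ∣ ipair Γ (δ : SL(2, ℤ)) (w : SL(2, ℤ)))
    (ψ : Additive Γ →+ ℤ) (hψ : ModularCurve.Period.IsParabolicHom Γ ψ) :
    (p : ℤ) ∣ ψ (Additive.ofMul w) :=
  inj_right_of_pds8 Γ (pdsStmt Γ) hp hp2 w h ψ hψ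

/-- **(INJ)**: if `p ∣ ⟨g, γ⟩` for all `γ ∈ Γ`, then `p ∣ ψ g` for every parabolic `ψ`. -/
theorem inj (Γ : Subgroup SL(2, ℤ)) [Γ.FiniteIndex] {p : ℕ} (hp : p.Prime) (hp2 : p ≠ 2)
    (g : Γ) (h : ∀ γ : Γ, (p : ℤ) ∣ ipair Γ (g : SL(2, ℤ)) (γ : SL(2, ℤ)))
    (ψ : Additive Γ →+ ℤ) (hψ : ModularCurve.Period.IsParabolicHom Γ ψ) :
    (p : ℤ) ∣ ψ (Additive.ofMul g) :=
  inj_of_pds8 fin2Stmt fin3Stmt Γ (pdsStmt Γ) hp hp2 g h ψ hψ

/-- The leaf (INJ-right) of `H39.hkey_concrete`. -/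
theorem injRStmt {N p : ℕ} (hN : 0 < N) (hp : p.Prime) (hp2 : p ≠ 2) : H39.InjRStmt N p := by
  have : NeZero N := ⟨hN.ne'⟩
  intro w h ψ hψ
  exact inj_right (Gamma0 N) hp hp2 w h ψ hψ

/-- The leaf (PAR-L) of `H39.hkey_concrete`. -/
theorem parLStmt (M : ℕ) : H39.ParLStmt M :=
  fun π γ htr => ipair_parabolic_left fin2Stmt fin3Stmt (Gamma0 M) π.2 γ.2 htr

/-- The leaf (PAR-R) of `H39.hkey_concrete` (second proof: from (PDS) by linear algebra). -/
theorem parRStmt {M : ℕ} (hM : 0 < M) : H39.ParRStmt M := by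
  have : NeZero M := ⟨hM.ne'⟩
  intro g π htr
  exact ipair_parabolic_right_of_pds fin2Stmt fin3Stmt (Gamma0 M) (by norm_num) (pdsStmt _) g π htr

end Fermat.Agent.S41.H62
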