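/-
S41, node (C), route C-I, leaf I4 (helper41): (PDS) - every parabolic character of a finite
index subgroup `Γ ≤ SL(2, ℤ)` is (one eighth of) the intersection form with a loop `g ∈ Γ`.

Closing copy on top of the landed leaves: `Isect_helper11` (symbol calculus), `IsectPot_helper4`
(potential calculus), `IsectFin_helper45` (finiteness) and `IsectLoop_helper41` (I4(c)).
-/
import Mathlib
import Fermat.Prelude.Def_ModularCurve_PeriodMap
import Fermat.Agent.S41.IsectLoop_helper41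
import Fermat.Agent.S41.IsectPotClosed_helper4

set_option autoImplicit false

namespace Fermat.Agent.S41.H41P

open Matrix Fermat.Agent.S41.H11
open scoped MatrixGroups

theorem fin2Stmt' : Fin2Stmt := fun α hα d hd => Fermat.Agent.S41.H45.fin2 α hα d hd

theorem fin3Stmt' : Fin3Stmt := fun d₁ d₂ d₃ h₁ h₂ h₃ =>
  Fermat.Agent.S41.H45.fin3 d₁ d₂ d₃ h₁ h₂ h₃

/-! ### (a) the potential -/

theorem rho_cube : (ModularGroup.S * ModularGroup.T) ^ 3 = (-1 : SL(2, ℤ)) := by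
  ext i j
  fin_cases i <;> fin_cases j <;>
    simp [pow_succ, ModularGroup.coe_S, ModularGroup.coe_T, Matrix.mul_apply, Fin.sum_univ_two]

theorem rho_pow_six : (ModularGroup.S * ModularGroup.T) ^ 6 = (1 : SL(2, ℤ)) := by
  rw [show 6 = 3 * 2 from rfl, pow_mul, rho_cube]
  simp

/-- A character with values in `ℤ` kills the elements of `Γ` conjugate to a power of `ρ`. -/
theorem psi_eq_zero_of_conj (Γ : Subgroup SL(2, ℤ)) (ψ : Additive Γ →+ ℤ) (γ : Γ)
    (z : SL(2, ℤ)) (a b : ℤ)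
    (h : (γ : SL(2, ℤ)) * z * (ModularGroup.S * ModularGroup.T) ^ a =
      z * (ModularGroup.S * ModularGroup.T) ^ b) : ψ (Additive.ofMul γ) = 0 := by
  set ρ : SL(2, ℤ) := ModularGroup.S * ModularGroup.T with hρ
  have hγ : (γ : SL(2, ℤ)) = z * ρ ^ (b - a) * z⁻¹ := by
    have h1 : (γ : SL(2, ℤ)) = z * ρ ^ b * (ρ ^ a)⁻¹ * z⁻¹ := by
      rw [← h]
      group
    rw [h1, _root_.zpow_sub]
    group
  have ht : (ρ ^ (b - a)) ^ 6 = 1 := by
    rw [← zpow_natCast, ← _root_.zpow_mul, mul_comm, _root_.zpow_mul, zpow_natCast, rho_pow_six, _root_.one_zpow]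
  have h6 : γ ^ 6 = 1 := by
    apply Subtype.ext
    rw [Subgroup.coe_pow, hγ, conj_pow, ht]
    simp
  have h7 : (6 : ℕ) • ψ (Additive.ofMul γ) = 0 := by
    rw [← map_nsmul, ← ofMul_pow, h6, ofMul_one, map_zero]
  rw [nsmul_eq_mul] at h7
  rcases mul_eq_zero.mp h7 with h8 | h8
  · norm_num at h8
  · exact h8

/-- Bookkeeping for the potential: two decompositions of `γ * x` over the same representative. -/
theorem decomp_left (Γ : Subgroup SL(2, ℤ)) (ρ : SL(2, ℤ)) (g' g'' γ : Γ) (r x : SL(2, ℤ))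
    (k k' : ℤ) (e2 : x = (g'' : SL(2, ℤ)) * r * ρ ^ k)
    (e1 : (γ : SL(2, ℤ)) * x = (g' : SL(2, ℤ)) * r * ρ ^ k') :
    ((g'⁻¹ * γ * g'' : Γ) : SL(2, ℤ)) * r * ρ ^ k = r * ρ ^ k' := by
  subst e2
  have h : (g' : SL(2, ℤ))⁻¹ * ((γ : SL(2, ℤ)) * ((g'' : SL(2, ℤ)) * r * ρ ^ k)) = r * ρ ^ k' := by
    rw [e1]
    group
  rw [← h]
  push_cast
  group

/-- Bookkeeping for the potential: two decompositions of `x * ρ` over the same representative. -/
theorem decomp_right (Γ : Subgroup SL(2, ℤ)) (ρ : SL(2, ℤ)) (g' g'' : Γ) (r x : SL(2, ℤ))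
    (k k' : ℤ) (e2 : x = (g'' : SL(2, ℤ)) * r * ρ ^ k)
    (e1 : x * ρ = (g' : SL(2, ℤ)) * r * ρ ^ k') :
    ((g'⁻¹ * g'' : Γ) : SL(2, ℤ)) * r * ρ ^ (k + 1) = r * ρ ^ k' := by
  subst e2
  have h : (g' : SL(2, ℤ))⁻¹ * ((g'' : SL(2, ℤ)) * r * ρ ^ k * ρ) = r * ρ ^ k' := by
    rw [e1]
    group
  rw [← h, _root_.zpow_add_one]
  push_cast
  group

/-- **(a)** the `ρ`-invariant potential of a character. -/
theorem exists_potential (Γ : Subgroup SL(2, ℤ)) (ψ : Additive Γ →+ ℤ) :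
    ∃ f : SL(2, ℤ) → ℤ,
      (∀ (γ : Γ) (x : SL(2, ℤ)), f ((γ : SL(2, ℤ)) * x) = f x + ψ (Additive.ofMul γ)) ∧
      (∀ x, f (x * (ModularGroup.S * ModularGroup.T)) = f x) ∧ ∀ x, f (-x) = f x := by
  classical
  set ρ : SL(2, ℤ) := ModularGroup.S * ModularGroup.T with hρ
  let s : Setoid SL(2, ℤ) :=
    { r := fun x x' => ∃ (γ : Γ) (k : ℤ), x' = (γ : SL(2, ℤ)) * x * ρ ^ k
      iseqv :=
        { refl := fun x => ⟨1, 0, by simp⟩
          symm := by
            rintro x x' ⟨γ, k, h⟩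
            refine ⟨γ⁻¹, -k, ?_⟩
            rw [h]
            push_cast
            group
          trans := by
            rintro x x' x'' ⟨γ, k, h⟩ ⟨γ', k', h'⟩
            refine ⟨γ' * γ, k + k', ?_⟩
            rw [h', h, _root_.zpow_add]
            push_cast
            group } }
  let rp : SL(2, ℤ) → SL(2, ℤ) := fun x => (Quotient.mk s x).out
  have hrp : ∀ x, ∃ (γ : Γ) (k : ℤ), x = (γ : SL(2, ℤ)) * rp x * ρ ^ k := fun x =>
    Quotient.exact (Quotient.out_eq (Quotient.mk s x))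
  have hrp_eq : ∀ x x', s.r x x' → rp x' = rp x := by
    intro x x' h
    have : Quotient.mk s x' = Quotient.mk s x := Quotient.sound (s.symm h)
    show (Quotient.mk s x').out = (Quotient.mk s x).out
    rw [this]
  choose gc kc hgc using hrp
  have hfγ : ∀ (γ : Γ) (x : SL(2, ℤ)),
      ψ (Additive.ofMul (gc ((γ : SL(2, ℤ)) * x))) =
        ψ (Additive.ofMul (gc x)) + ψ (Additive.ofMul γ) := by
    intro γ x
    have hr : rp ((γ : SL(2, ℤ)) * x) = rp x := hrp_eq x _ ⟨γ, 0, by simp⟩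
    have e1 := hgc ((γ : SL(2, ℤ)) * x)
    rw [hr] at e1
    have e2 := hgc x
    have key := decomp_left Γ ρ (gc ((γ : SL(2, ℤ)) * x)) (gc x) γ (rp x) x (kc x)
      (kc ((γ : SL(2, ℤ)) * x)) e2 e1
    have h0 := psi_eq_zero_of_conj Γ ψ _ _ _ _ key
    rw [ofMul_mul, ofMul_mul, ofMul_inv, map_add, map_add, map_neg] at h0
    linarith
  have hfρ : ∀ x : SL(2, ℤ), ψ (Additive.ofMul (gc (x * ρ))) = ψ (Additive.ofMul (gc x)) := by
    intro x
    have hr : rp (x * ρ) = rp x := hrp_eq x _ ⟨1, 1, by simp⟩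
    have e1 := hgc (x * ρ)
    rw [hr] at e1
    have e2 := hgc x
    have key := decomp_right Γ ρ (gc (x * ρ)) (gc x) (rp x) x (kc x) (kc (x * ρ)) e2 e1
    have h0 := psi_eq_zero_of_conj Γ ψ _ _ _ _ key
    rw [ofMul_mul, ofMul_inv, map_add, map_neg] at h0
    linarith
  refine ⟨fun x => ψ (Additive.ofMul (gc x)), hfγ, hfρ, fun x => ?_⟩
  have e : -x = x * ρ * ρ * ρ := by
    have h3 : ρ ^ 3 = -1 := rho_cube
    rw [mul_assoc, mul_assoc, ← mul_assoc ρ ρ ρ, ← pow_two, ← pow_succ, h3, mul_neg, mul_one]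
  show ψ (Additive.ofMul (gc (-x))) = ψ (Additive.ofMul (gc x))
  rw [e, hfρ, hfρ, hfρ]

/-! ### (b) the edge sum of the potential -/

/-- The total defect of the edge function `m x = f (x * S) - f x` is `8 ψ`. -/
theorem finsum_edge (Γ : Subgroup SL(2, ℤ)) (ψ : Additive Γ →+ ℤ) (f : SL(2, ℤ) → ℤ)
    (hf : ∀ (γ : Γ) (x : SL(2, ℤ)), f ((γ : SL(2, ℤ)) * x) = f x + ψ (Additive.ofMul γ))
    (hfρ : ∀ x, f (x * (ModularGroup.S * ModularGroup.T)) = f x) (hfn : ∀ x, f (-x) = f x)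
    (γ : Γ) :
    ∑ᶠ y : SL(2, ℤ), (f (y * ModularGroup.S) - f y) *
      (sgSL ((γ : SL(2, ℤ)) * y) - sgSL y) = 8 * ψ (Additive.ofMul γ) := by
  set m : SL(2, ℤ) → ℤ := fun y => f (y * ModularGroup.S) - f y with hm
  have hmΓ : ∀ y, m ((γ : SL(2, ℤ)) * y) = m y := by
    intro y
    simp only [hm]
    rw [mul_assoc, hf, hf]
    ring
  have hmneg : ∀ y, m (-y) = m y := by
    intro y
    simp only [hm]
    rw [neg_mul, hfn, hfn]
  have hmS : ∀ y, m (y * ModularGroup.S) = - m y := by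
    intro y
    simp only [hm]
    rw [mul_assoc, H41L.S_mul_S, mul_neg, mul_one, hfn]
    ring
  set Φ : SL(2, ℤ) → ℤ := fun x => pot m x + 8 * f x with hΦ
  have hΦS : ∀ x, Φ (x * ModularGroup.S) = Φ x := by
    intro x
    have h1 := Fermat.Agent.S41.H04.pot_mul_S' m x
    rw [hmneg (x * ModularGroup.S), hmS x, hmneg x] at h1
    simp only [hΦ]
    have h2 : m x = f (x * ModularGroup.S) - f x := rfl
    linarith
  have hΦρ : ∀ x, Φ (x * (ModularGroup.S * ModularGroup.T)) = Φ x := by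
    intro x
    simp only [hΦ]
    rw [Fermat.Agent.S41.H04.pot_mul_rho, hfρ]
  have hΦSinv : ∀ x, Φ (x * (ModularGroup.S)⁻¹) = Φ x := by
    intro x
    have := hΦS (x * (ModularGroup.S)⁻¹)
    rw [inv_mul_cancel_right] at this
    exact this.symm
  have hΦT : ∀ x, Φ (x * ModularGroup.T) = Φ x := by
    intro x
    have e : x * ModularGroup.T = x * (ModularGroup.S)⁻¹ * (ModularGroup.S * ModularGroup.T) := by
      group
    rw [e, hΦρ, hΦSinv]
  have hΦall : ∀ g : SL(2, ℤ), ∀ x, Φ (x * g) = Φ x := by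
    intro g
    have hg : g ∈ Subgroup.closure ({ModularGroup.S, ModularGroup.T} : Set SL(2, ℤ)) := by
      rw [SpecialLinearGroup.SL2Z_generators]
      exact Subgroup.mem_top g
    induction hg using Subgroup.closure_induction with
    | mem g hg =>
      rcases hg with rfl | hg
      · exact hΦS
      · rw [Set.mem_singleton_iff] at hg
        rw [hg]
        exact hΦT
    | one =>
      intro x
      rw [mul_one]
    | mul a b _ _ iha ihb =>
      intro x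
      rw [← mul_assoc, ihb, iha]
    | inv a _ iha =>
      intro x
      have := iha (x * a⁻¹)
      rw [inv_mul_cancel_right] at this
      exact this.symm
  have h1 : Φ ((γ : SL(2, ℤ)) * 1) = Φ 1 := by
    have := hΦall ((γ : SL(2, ℤ)) * 1) 1
    rwa [one_mul] at this
  have h2 := Fermat.Agent.S41.H04.pot_smul' m (γ : SL(2, ℤ)) 1 hmΓ
  simp only [hΦ] at h1
  rw [hf γ 1] at h1
  linarith

/-! ### from the sum over `SL(2, ℤ)` to the sum over a transversal -/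

theorem sum_rep_eq_finsum (Γ : Subgroup SL(2, ℤ)) {Y : Type*} [Fintype Y] (rep : Y → SL(2, ℤ))
    (hrep : ∀ x : SL(2, ℤ), ∃! y : Y, ∃ γ : Γ, x = (γ : SL(2, ℤ)) * rep y)
    (m : SL(2, ℤ) → ℤ) (hm : ∀ (δ : Γ) (y : SL(2, ℤ)), m ((δ : SL(2, ℤ)) * y) = m y)
    (γ : SL(2, ℤ)) :
    ∑ y, m (rep y) * isect Γ ((rep y).1 *ᵥ ![1, 0]) ((rep y).1 *ᵥ ![0, 1]) γ =
      ∑ᶠ y : SL(2, ℤ), m y * (sgSL (γ * y) - sgSL y) := by
  classical
  have hinj : Function.Injective rep := by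
    intro y₁ y₂ h
    exact (hrep (rep y₁)).unique ⟨1, by simp⟩ ⟨1, by simp [h]⟩
  set m0 : SL(2, ℤ) → ℤ := fun x => if x ∈ Set.range rep then m x else 0 with hm0
  have hm0fin : (Function.support m0).Finite := by
    refine (Set.finite_range rep).subset ?_
    intro x hx
    by_contra hx'
    exact hx (by simp only [hm0, if_neg hx'])
  have havg : ∀ y : SL(2, ℤ), ∑ᶠ δ : Γ, m0 ((δ : SL(2, ℤ)) * y) = m y := by
    intro y
    obtain ⟨y₀, ⟨γ₀, hγ₀⟩, -⟩ := hrep y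
    rw [finsum_eq_single _ (γ₀⁻¹ : Γ)]
    · have e : ((γ₀⁻¹ : Γ) : SL(2, ℤ)) * y = rep y₀ := by
        rw [hγ₀]
        push_cast
        group
      simp only [hm0]
      rw [if_pos (by rw [e]; exact ⟨y₀, rfl⟩), hm]
    · intro δ hδ
      simp only [hm0]
      rw [if_neg]
      rintro ⟨y₁, hy₁⟩
      apply hδ
      have e1 : y = ((δ⁻¹ : Γ) : SL(2, ℤ)) * rep y₁ := by
        rw [hy₁]
        push_cast
        group
      have e2 : y₁ = y₀ := (hrep y).unique ⟨δ⁻¹, e1⟩ ⟨γ₀, hγ₀⟩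
      rw [e2, hγ₀, ← mul_assoc] at hy₁
      have e3 : (δ : SL(2, ℤ)) * (γ₀ : SL(2, ℤ)) = 1 := by
        apply mul_right_cancel (b := rep y₀)
        rw [one_mul]
        exact hy₁.symm
      apply Subtype.ext
      push_cast
      exact eq_inv_of_mul_eq_one_left e3
  have h1 := Fermat.Agent.S41.H04.finsum_avg_mul_eq_isect' Γ m0 hm0fin γ
  rw [finsum_congr (fun y => by rw [havg y])] at h1
  rw [h1]
  have hsupp : Function.support (fun y : SL(2, ℤ) =>
      m0 y * isect Γ (y.1 *ᵥ ![1, 0]) (y.1 *ᵥ ![0, 1]) γ) ⊆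
      ((Finset.univ.image rep : Finset SL(2, ℤ)) : Set SL(2, ℤ)) := by
    intro x hx
    simp only [Finset.coe_image, Finset.coe_univ, Set.image_univ]
    by_contra hx'
    exact hx (by simp only [hm0, if_neg hx', zero_mul])
  rw [finsum_eq_sum_of_support_subset _ hsupp, Finset.sum_image (fun a _ b _ h => hinj h)]
  refine Finset.sum_congr rfl fun y _ => ?_
  simp only [hm0]
  rw [if_pos ⟨y, rfl⟩]

/-- A transversal of `Γ \ SL(2, ℤ)` indexed by a finite type. -/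
theorem exists_transversal (Γ : Subgroup SL(2, ℤ)) [Γ.FiniteIndex] :
    ∃ (Y : Type) (_ : Fintype Y) (rep : Y → SL(2, ℤ)),
      ∀ x : SL(2, ℤ), ∃! y : Y, ∃ γ : Γ, x = (γ : SL(2, ℤ)) * rep y := by
  classical
  letI : Fintype (SL(2, ℤ) ⧸ Γ) := Fintype.ofFinite _
  refine ⟨SL(2, ℤ) ⧸ Γ, inferInstance, fun q => (q.out)⁻¹, fun x => ?_⟩
  refine ⟨QuotientGroup.mk x⁻¹, ?_, ?_⟩
  · obtain ⟨h, hh⟩ := QuotientGroup.mk_out_eq_mul Γ x⁻¹
    refine ⟨h, ?_⟩
    show x = (h : SL(2, ℤ)) * ((QuotientGroup.mk x⁻¹ : SL(2, ℤ) ⧸ Γ).out)⁻¹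
    rw [hh]
    group
  · rintro q ⟨γ, hγ⟩
    have e : x⁻¹ = q.out * ((γ⁻¹ : Γ) : SL(2, ℤ)) := by
      rw [hγ]
      push_cast
      group
    rw [e, QuotientGroup.mk_mul_of_mem _ (γ⁻¹ : Γ).2, QuotientGroup.out_eq']

/-! ### (PDS) -/

/-- **I4 = (PDS)**, in the literal shape of the C-PROOF. -/
theorem pds (Γ : Subgroup SL(2, ℤ)) [Γ.FiniteIndex] (ψ : Additive Γ →+ ℤ)
    (hψ : ModularCurve.Period.IsParabolicHom Γ ψ) :
    ∃ g : Γ, ∀ γ : Γ, ipair Γ (g : SL(2, ℤ)) (γ : SL(2, ℤ)) = 8 * ψ (Additive.ofMul γ) := by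
  obtain ⟨f, hf, hfρ, hfn⟩ := exists_potential Γ ψ
  obtain ⟨Y, _, rep, hrep⟩ := exists_transversal Γ
  obtain ⟨g, hg⟩ := H41L.exists_loop fin2Stmt' fin3Stmt' Γ ψ hψ f hf hfρ hfn rep hrep
  refine ⟨g, fun γ => ?_⟩
  rw [← hg (γ : SL(2, ℤ)) γ.2,
    sum_rep_eq_finsum Γ rep hrep (fun y => f (y * ModularGroup.S) - f y) (fun δ y => by
      show f ((δ : SL(2, ℤ)) * y * ModularGroup.S) - f ((δ : SL(2, ℤ)) * y) =
        f (y * ModularGroup.S) - f y
      rw [mul_assoc, hf, hf]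
      ring) (γ : SL(2, ℤ))]
  exact finsum_edge Γ ψ f hf hfρ hfn γ

end Fermat.Agent.S41.H41P
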