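import Mathlib
import Fermat.Agent.S41.IsectDef_helper11

/-!
# S41, node (C), leaf I3 (helper29): the key lemma on Farey edges, the potential, Euclid chains

Notation of `IsectDef_helper11`: `sgSL z` is the side of the base point with respect to the Farey
edge `z`, `pot m x` the potential of an edge function `m`.

* `sgSL_S_inv_mul` (KEY): `sgSL (S⁻¹ z) = sgSL z` unless `z ∈ {1, -1, S, -S}`, where the sign flips.
* `sgSL_rho_inv_mul`, `sgSL_neg`: invariance under `ρ = S T` and under `-1`.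
* `pot_support_finite`, `pot_mul_S`, `pot_mul_rho`, `pot_neg`, `pot_smul`, `finsum_avg_eq_isect`.
* `cf`: every primitive vector is reached from `e₁` by a chain of Farey edges (Euclid).

The finiteness statement `fin2` of leaf I2 is carried as the hypothesis `Fin2Stmt`.
-/

set_option autoImplicit false

namespace Fermat.Agent.S41.H29

open Matrix
open scoped MatrixGroups
open Fermat.Agent.S41

local notation "S" => ModularGroup.S
local notation "T" => ModularGroup.T

/-- The finiteness statement of leaf I2 (`fin2`). -/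
def Fin2Stmt : Prop :=
  ∀ (α : Matrix (Fin 2) (Fin 2) ℤ), α.det ≠ 0 → ∀ d : ℤ, d ≠ 0 →
    {p : (Fin 2 → ℤ) × (Fin 2 → ℤ) | H11.det2 p.1 p.2 = d ∧
      Int.sign (H11.bform (α *ᵥ p.1) (α *ᵥ p.2)) ≠ Int.sign (H11.bform p.1 p.2)}.Finite

/-! ### Entries -/

theorem sl2_ext {z w : SL(2, ℤ)} (h00 : z 0 0 = w 0 0) (h01 : z 0 1 = w 0 1)
    (h10 : z 1 0 = w 1 0) (h11 : z 1 1 = w 1 1) : z = w := by
  apply Subtype.ext
  ext i j
  fin_cases i <;> fin_cases j <;> assumption

theorem sl2_det (z : SL(2, ℤ)) : z 0 0 * z 1 1 - z 0 1 * z 1 0 = 1 := by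
  have := z.2
  rw [Matrix.det_fin_two] at this
  exact this

theorem S_inv_mul_apply (z : SL(2, ℤ)) :
    (S⁻¹ * z) 0 0 = z 1 0 ∧ (S⁻¹ * z) 0 1 = z 1 1 ∧ (S⁻¹ * z) 1 0 = - z 0 0 ∧
      (S⁻¹ * z) 1 1 = - z 0 1 := by
  refine ⟨?_, ?_, ?_, ?_⟩ <;>
    simp [Matrix.SpecialLinearGroup.coe_mul, Matrix.SpecialLinearGroup.coe_inv,
      Matrix.adjugate_fin_two, ModularGroup.coe_S, Matrix.mul_apply, Fin.sum_univ_two]

theorem rho_inv_mul_apply (z : SL(2, ℤ)) :
    ((S * T)⁻¹ * z) 0 0 = z 0 0 + z 1 0 ∧ ((S * T)⁻¹ * z) 0 1 = z 0 1 + z 1 1 ∧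
      ((S * T)⁻¹ * z) 1 0 = - z 0 0 ∧ ((S * T)⁻¹ * z) 1 1 = - z 0 1 := by
  refine ⟨?_, ?_, ?_, ?_⟩ <;>
    simp [Matrix.SpecialLinearGroup.coe_mul, Matrix.SpecialLinearGroup.coe_inv,
      Matrix.adjugate_fin_two, ModularGroup.coe_S, ModularGroup.coe_T, Matrix.mul_apply,
      Fin.sum_univ_two]

theorem neg_apply' (z : SL(2, ℤ)) (i j : Fin 2) : (-z) i j = - z i j := by
  simp [Matrix.SpecialLinearGroup.coe_neg]

/-! ### (KEY) -/

theorem sgSL_one : H11.sgSL 1 = 1 := by
  simp [H11.sgSL]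

theorem sgSL_S : H11.sgSL S = -1 := by
  simp [H11.sgSL, ModularGroup.coe_S]

theorem sgSL_neg (z : SL(2, ℤ)) : H11.sgSL (-z) = H11.sgSL z := by
  unfold H11.sgSL
  rw [neg_apply', neg_apply', neg_apply', neg_apply']
  congr 1
  ring

theorem sgSL_rho_inv_mul (z : SL(2, ℤ)) : H11.sgSL ((S * T)⁻¹ * z) = H11.sgSL z := by
  obtain ⟨h00, h01, h10, h11⟩ := rho_inv_mul_apply z
  unfold H11.sgSL
  rw [h00, h01, h10, h11]
  congr 1
  ring

theorem int_key (a b c d : ℤ) (hdet : a * d - b * c = 1) (hx : a * b + c * d = 0) :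
    (a = 1 ∧ b = 0 ∧ c = 0 ∧ d = 1) ∨ (a = -1 ∧ b = 0 ∧ c = 0 ∧ d = -1) ∨
      (a = 0 ∧ b = -1 ∧ c = 1 ∧ d = 0) ∨ (a = 0 ∧ b = 1 ∧ c = -1 ∧ d = 0) := by
  have hL : (a ^ 2 + c ^ 2) * (b ^ 2 + d ^ 2) = 1 := by
    have : (a ^ 2 + c ^ 2) * (b ^ 2 + d ^ 2) = (a * b + c * d) ^ 2 + (a * d - b * c) ^ 2 := by
      ring
    rw [this, hx, hdet]; norm_num
  have h1 : a ^ 2 + c ^ 2 = 1 := by
    have hpos1 : 0 ≤ a ^ 2 + c ^ 2 := by positivity
    rcases Int.eq_one_or_neg_one_of_mul_eq_one hL with h | h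
    · exact h
    · omega
  have ha' : a = 0 ∨ a = 1 ∨ a = -1 := by
    have h2 : -1 ≤ a := by nlinarith [sq_nonneg c]
    have h3 : a ≤ 1 := by nlinarith [sq_nonneg c]
    omega
  rcases ha' with rfl | rfl | rfl
  · have hc : c = 1 ∨ c = -1 := by
      have h4 : (c - 1) * (c + 1) = 0 := by nlinarith
      rcases mul_eq_zero.1 h4 with h | h
      · left; omega
      · right; omega
    rcases hc with rfl | rfl
    · right; right; left
      refine ⟨rfl, by linarith, rfl, by linarith⟩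
    · right; right; right
      refine ⟨rfl, by linarith, rfl, by linarith⟩
  · have hc : c = 0 := by
      have h4 : c ^ 2 = 0 := by linarith
      exact pow_eq_zero_iff (two_ne_zero) |>.1 h4
    subst hc
    left
    refine ⟨rfl, by linarith, rfl, by linarith⟩
  · have hc : c = 0 := by
      have h4 : c ^ 2 = 0 := by linarith
      exact pow_eq_zero_iff (two_ne_zero) |>.1 h4
    subst hc
    right; left
    refine ⟨rfl, by linarith, rfl, by linarith⟩

/-- If `ab + cd = 0` then `z ∈ {1, -1, S, -S}`. -/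
theorem eq_of_x_eq_zero (z : SL(2, ℤ)) (hx : z 0 0 * z 0 1 + z 1 0 * z 1 1 = 0) :
    z = 1 ∨ z = -1 ∨ z = S ∨ z = -S := by
  have hdet := sl2_det z
  rcases int_key _ _ _ _ hdet hx with ⟨e1, e2, e3, e4⟩ | ⟨e1, e2, e3, e4⟩ | ⟨e1, e2, e3, e4⟩ |
    ⟨e1, e2, e3, e4⟩
  · left
    apply sl2_ext <;> simp [e1, e2, e3, e4]
  · right; left
    apply sl2_ext <;> simp [neg_apply', e1, e2, e3, e4]
  · right; right; left
    apply sl2_ext <;> simp [ModularGroup.coe_S, e1, e2, e3, e4]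
  · right; right; right
    apply sl2_ext <;> simp [neg_apply', ModularGroup.coe_S, e1, e2, e3, e4]

theorem sgSL_S_inv_mul (z : SL(2, ℤ)) :
    H11.sgSL (S⁻¹ * z) =
      if z = 1 ∨ z = -1 ∨ z = S ∨ z = -S then - H11.sgSL z else H11.sgSL z := by
  obtain ⟨h00, h01, h10, h11⟩ := S_inv_mul_apply z
  have hdet := sl2_det z
  have hL : H11.sgSL (S⁻¹ * z) = Int.sign (2 * (z 0 0 * z 0 1 + z 1 0 * z 1 1) -
      (z 0 0 * z 1 1 + z 0 1 * z 1 0)) := by
    unfold H11.sgSL
    rw [h00, h01, h10, h11]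
    congr 1
    ring
  have hR : H11.sgSL z = Int.sign (2 * (z 0 0 * z 0 1 + z 1 0 * z 1 1) +
      (z 0 0 * z 1 1 + z 0 1 * z 1 0)) := rfl
  by_cases hz : z = 1 ∨ z = -1 ∨ z = S ∨ z = -S
  · rw [if_pos hz]
    rcases hz with rfl | rfl | rfl | rfl
    · rw [hL, hR]; simp
    · rw [hL, hR]; simp [neg_apply']
    · rw [hL, hR]; simp [ModularGroup.coe_S]
    · rw [hL, hR]; simp [neg_apply', ModularGroup.coe_S]
  · rw [if_neg hz, hL, hR]
    set a := z 0 0 with ha
    set b := z 0 1 with hb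
    set c := z 1 0 with hc
    set d := z 1 1 with hd
    have hx : a * b + c * d ≠ 0 := fun h => hz (eq_of_x_eq_zero z h)
    -- `4 x² > y²`
    have hxy : (a * d + b * c) ^ 2 < 4 * (a * b + c * d) ^ 2 := by
      have h1 : (a * d + b * c) ^ 2 = 1 + 4 * (a * d) * (b * c) := by
        have : (a * d + b * c) ^ 2 = (a * d - b * c) ^ 2 + 4 * (a * d) * (b * c) := by ring
        rw [this, hdet]; ring
      have h2 : 4 * (a * d) * (b * c) ≤ (a * b + c * d) ^ 2 := by
        nlinarith [sq_nonneg (a * b - c * d)]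
      have h3 : 1 ≤ (a * b + c * d) ^ 2 := by
        have := sq_nonneg (a * b + c * d)
        have h0 : (a * b + c * d) ^ 2 ≠ 0 := pow_ne_zero 2 hx
        omega
      nlinarith
    rcases lt_or_gt_of_ne hx with hneg | hpos
    · have e1 : 2 * (a * b + c * d) - (a * d + b * c) < 0 := by nlinarith
      have e2 : 2 * (a * b + c * d) + (a * d + b * c) < 0 := by nlinarith
      rw [Int.sign_eq_neg_one_of_neg e1, Int.sign_eq_neg_one_of_neg e2]
    · have e1 : 0 < 2 * (a * b + c * d) - (a * d + b * c) := by nlinarith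
      have e2 : 0 < 2 * (a * b + c * d) + (a * d + b * c) := by nlinarith
      rw [Int.sign_eq_one_of_pos e1, Int.sign_eq_one_of_pos e2]

/-! ### Finiteness -/

theorem sgSL_eq_sign_bform (z : SL(2, ℤ)) :
    H11.sgSL z = Int.sign (H11.bform (z.1 *ᵥ ![1, 0]) (z.1 *ᵥ ![0, 1])) := by
  unfold H11.sgSL H11.bform
  congr 1
  simp [Matrix.mulVec, dotProduct, Fin.sum_univ_two]
  ring

theorem det2_cols (z : SL(2, ℤ)) : H11.det2 (z.1 *ᵥ ![1, 0]) (z.1 *ᵥ ![0, 1]) = 1 := by
  have := sl2_det z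
  simp [H11.det2, Matrix.mulVec, dotProduct, Fin.sum_univ_two]
  linarith

theorem cols_injective : Function.Injective
    (fun y : SL(2, ℤ) => ((y.1 *ᵥ ![1, 0], y.1 *ᵥ ![0, 1]) : (Fin 2 → ℤ) × (Fin 2 → ℤ))) := by
  intro y y' h
  simp only [Prod.mk.injEq] at h
  obtain ⟨h1, h2⟩ := h
  apply sl2_ext
  · have := congrFun h1 0
    simpa [Matrix.mulVec, dotProduct, Fin.sum_univ_two] using this
  · have := congrFun h2 0
    simpa [Matrix.mulVec, dotProduct, Fin.sum_univ_two] using this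
  · have := congrFun h1 1
    simpa [Matrix.mulVec, dotProduct, Fin.sum_univ_two] using this
  · have := congrFun h2 1
    simpa [Matrix.mulVec, dotProduct, Fin.sum_univ_two] using this

theorem finite_sgSL_ne (h2 : Fin2Stmt) (g : SL(2, ℤ)) :
    {y : SL(2, ℤ) | H11.sgSL (g * y) ≠ H11.sgSL y}.Finite := by
  have hfin := h2 g.1 (by rw [g.2]; exact one_ne_zero) 1 one_ne_zero
  refine (hfin.preimage cols_injective.injOn).subset ?_
  intro y hy
  simp only [Set.mem_preimage, Set.mem_ofPred_eq]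
  refine ⟨det2_cols y, ?_⟩
  rw [Matrix.mulVec_mulVec, Matrix.mulVec_mulVec, ← Matrix.SpecialLinearGroup.coe_mul,
    ← sgSL_eq_sign_bform, ← sgSL_eq_sign_bform]
  exact hy

/-! ### (POT) -/

theorem pot_support_finite (h2 : Fin2Stmt) (m : SL(2, ℤ) → ℤ) (x : SL(2, ℤ)) :
    (Function.support fun y => m y * (H11.sgSL (x⁻¹ * y) - H11.sgSL y)).Finite := by
  refine (finite_sgSL_ne h2 x⁻¹).subset ?_
  intro y hy
  simp only [Function.mem_support] at hy
  simp only [Set.mem_ofPred_eq]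
  intro h
  apply hy
  rw [h, sub_self, mul_zero]

theorem pot_mul_rho (m : SL(2, ℤ) → ℤ) (x : SL(2, ℤ)) :
    H11.pot m (x * (S * T)) = H11.pot m x := by
  unfold H11.pot
  refine finsum_congr fun y => ?_
  rw [_root_.mul_inv_rev, mul_assoc, sgSL_rho_inv_mul]

theorem neg_inv' (x : SL(2, ℤ)) : (-x)⁻¹ = -x⁻¹ := by
  apply inv_eq_of_mul_eq_one_right
  rw [neg_mul_neg, mul_inv_cancel]

theorem pot_neg (m : SL(2, ℤ) → ℤ) (x : SL(2, ℤ)) : H11.pot m (-x) = H11.pot m x := by
  unfold H11.pot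
  refine finsum_congr fun y => ?_
  rw [neg_inv', neg_mul, sgSL_neg]

theorem ne_of_apply_ne {z w : SL(2, ℤ)} (i j : Fin 2) (h : z i j ≠ w i j) : z ≠ w := by
  intro e
  exact h (by rw [e])

theorem one_ne_neg_one : (1 : SL(2, ℤ)) ≠ -1 :=
  ne_of_apply_ne 0 0 (by simp [neg_apply'])

theorem one_ne_S : (1 : SL(2, ℤ)) ≠ S :=
  ne_of_apply_ne 0 0 (by simp [ModularGroup.coe_S])

theorem one_ne_neg_S : (1 : SL(2, ℤ)) ≠ -S :=
  ne_of_apply_ne 0 0 (by simp [neg_apply', ModularGroup.coe_S])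

theorem neg_one_ne_S : (-1 : SL(2, ℤ)) ≠ S :=
  ne_of_apply_ne 0 0 (by simp [neg_apply', ModularGroup.coe_S])

theorem neg_one_ne_neg_S : (-1 : SL(2, ℤ)) ≠ -S :=
  ne_of_apply_ne 0 0 (by simp [neg_apply', ModularGroup.coe_S])

theorem S_ne_neg_S : (S : SL(2, ℤ)) ≠ -S :=
  ne_of_apply_ne 1 0 (by simp [neg_apply', ModularGroup.coe_S])

theorem pot_mul_S (h2 : Fin2Stmt) (m : SL(2, ℤ) → ℤ) (x : SL(2, ℤ)) :
    H11.pot m (x * S) - H11.pot m x = 2 * (m (x * S) + m (-(x * S)) - m x - m (-x)) := by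
  classical
  unfold H11.pot
  rw [← finsum_sub_distrib (pot_support_finite h2 m (x * S)) (pot_support_finite h2 m x)]
  set k : SL(2, ℤ) → ℤ := fun z =>
    m (x * z) * (if z = 1 ∨ z = -1 ∨ z = S ∨ z = -S then -2 * H11.sgSL z else 0) with hk
  have hterm : ∀ y, m y * (H11.sgSL ((x * S)⁻¹ * y) - H11.sgSL y) -
      m y * (H11.sgSL (x⁻¹ * y) - H11.sgSL y) = k (Equiv.mulLeft x⁻¹ y) := by
    intro y
    simp only [hk, Equiv.coe_mulLeft]
    rw [_root_.mul_inv_rev, mul_assoc, sgSL_S_inv_mul, mul_inv_cancel_left]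
    split_ifs <;> ring
  rw [finsum_congr hterm, finsum_comp_equiv (Equiv.mulLeft x⁻¹) (f := k)]
  have hsupp : Function.support k ⊆ (({1, -1, S, -S} : Finset SL(2, ℤ)) : Set SL(2, ℤ)) := by
    intro z hz
    simp only [Function.mem_support, hk] at hz
    by_contra hcon
    apply hz
    rw [if_neg, mul_zero]
    simpa using hcon
  rw [finsum_eq_sum_of_support_subset k hsupp]
  rw [Finset.sum_insert (by
      simp only [Finset.mem_insert, Finset.mem_singleton, not_or]
      exact ⟨one_ne_neg_one, one_ne_S, one_ne_neg_S⟩),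
    Finset.sum_insert (by
      simp only [Finset.mem_insert, Finset.mem_singleton, not_or]
      exact ⟨neg_one_ne_S, neg_one_ne_neg_S⟩),
    Finset.sum_insert (by
      simp only [Finset.mem_singleton]
      exact S_ne_neg_S),
    Finset.sum_singleton]
  simp only [hk]
  simp only [true_or, or_true, if_true, mul_one, mul_neg, sgSL_neg, sgSL_one, sgSL_S]
  ring

theorem pot_smul (h2 : Fin2Stmt) (Γ : Subgroup SL(2, ℤ)) (m : SL(2, ℤ) → ℤ)
    (hm : ∀ γ ∈ Γ, ∀ y, m (γ * y) = m y) (γ : SL(2, ℤ)) (hγ : γ ∈ Γ) (x : SL(2, ℤ)) :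
    H11.pot m (γ * x) - H11.pot m x =
      - ∑ᶠ y : SL(2, ℤ), m y * (H11.sgSL (γ * y) - H11.sgSL y) := by
  unfold H11.pot
  have h1 : ∑ᶠ y, m y * (H11.sgSL ((γ * x)⁻¹ * y) - H11.sgSL y) =
      ∑ᶠ y, m y * (H11.sgSL (x⁻¹ * y) - H11.sgSL (γ * y)) := by
    rw [← finsum_comp_equiv (Equiv.mulLeft γ)]
    refine finsum_congr fun y => ?_
    simp only [Equiv.coe_mulLeft]
    rw [hm γ hγ, _root_.mul_inv_rev, mul_assoc, inv_mul_cancel_left]
  rw [h1]
  have hs1 : (Function.support fun y =>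
      m y * (H11.sgSL (x⁻¹ * y) - H11.sgSL (γ * y))).Finite := by
    refine ((finite_sgSL_ne h2 x⁻¹).union (finite_sgSL_ne h2 γ)).subset ?_
    intro y hy
    simp only [Function.mem_support] at hy
    by_contra hcon
    simp only [Set.mem_union, Set.mem_ofPred_eq, not_or, not_not] at hcon
    apply hy
    rw [hcon.1, hcon.2, sub_self, mul_zero]
  rw [← finsum_sub_distrib hs1 (pot_support_finite h2 m x), ← finsum_neg_distrib]
  refine finsum_congr fun y => ?_
  ring

/-! ### (POT d'): the average of a finitely supported edge function -/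

theorem isect_cols (Γ : Subgroup SL(2, ℤ)) (y γ : SL(2, ℤ)) :
    H11.isect Γ (y.1 *ᵥ ![1, 0]) (y.1 *ᵥ ![0, 1]) γ =
      ∑ᶠ δ : Γ, (H11.sgSL (γ * ((δ : SL(2, ℤ)) * y)) - H11.sgSL ((δ : SL(2, ℤ)) * y)) := by
  unfold H11.isect H11.isectTerm
  refine finsum_congr fun δ => ?_
  rw [H11.sgSL_eq_sg, H11.sgSL_eq_sg]
  simp only [Matrix.SpecialLinearGroup.coe_mul, Matrix.mulVec_mulVec, Matrix.mul_assoc]

theorem finsum_avg_eq_isect (h2 : Fin2Stmt) (Γ : Subgroup SL(2, ℤ)) (m0 : SL(2, ℤ) → ℤ)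
    (hm0 : (Function.support m0).Finite) (γ : SL(2, ℤ)) :
    ∑ᶠ y : SL(2, ℤ), (∑ᶠ δ : Γ, m0 ((δ : SL(2, ℤ)) * y)) * (H11.sgSL (γ * y) - H11.sgSL y) =
      ∑ᶠ y : SL(2, ℤ), m0 y * H11.isect Γ (y.1 *ᵥ ![1, 0]) (y.1 *ᵥ ![0, 1]) γ := by
  set c : SL(2, ℤ) → ℤ := fun y => H11.sgSL (γ * y) - H11.sgSL y with hc
  have hcfin : (Function.support c).Finite := by
    refine (finite_sgSL_ne h2 γ).subset ?_
    intro y hy
    simp only [Function.mem_support, hc] at hy
    simp only [Set.mem_ofPred_eq]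
    intro h
    apply hy
    rw [h, sub_self]
  let F : SL(2, ℤ) × Γ → ℤ := fun p => m0 ((p.2 : SL(2, ℤ)) * p.1) * c p.1
  have hF : (Function.support F).Finite := by
    have hinj : Function.Injective
        (fun p : SL(2, ℤ) × Γ => (p.1, (p.2 : SL(2, ℤ)) * p.1)) := by
      intro p p' h
      simp only [Prod.mk.injEq] at h
      obtain ⟨h1, h2'⟩ := h
      rw [h1] at h2'
      exact Prod.ext h1 (Subtype.ext (mul_right_cancel h2'))
    refine ((hcfin.prod hm0).preimage hinj.injOn).subset ?_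
    intro p hp
    simp only [Function.mem_support, F] at hp
    simp only [Set.mem_preimage, Set.mem_prod, Function.mem_support]
    exact ⟨fun h => hp (by rw [h, mul_zero]), fun h => hp (by rw [h, zero_mul])⟩
  let e : SL(2, ℤ) × Γ ≃ SL(2, ℤ) × Γ :=
    { toFun := fun p => ((p.2 : SL(2, ℤ)) * p.1, p.2⁻¹)
      invFun := fun p => ((p.2 : SL(2, ℤ)) * p.1, p.2⁻¹)
      left_inv := by
        intro p
        apply Prod.ext
        · simp
        · simp
      right_inv := by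
        intro p
        apply Prod.ext
        · simp
        · simp }
  have hFe : ∀ p : SL(2, ℤ) × Γ, F (e p) = m0 p.1 * c ((p.2 : SL(2, ℤ)) * p.1) := by
    intro p
    simp [F, e]
  have hFe_fin : (Function.support fun p : SL(2, ℤ) × Γ => F (e p)).Finite := by
    have : (Function.support fun p : SL(2, ℤ) × Γ => F (e p)) = e ⁻¹' Function.support F := by
      ext p
      simp
    rw [this]
    exact hF.preimage e.injective.injOn
  have hL : ∑ᶠ y : SL(2, ℤ), (∑ᶠ δ : Γ, m0 ((δ : SL(2, ℤ)) * y)) * c y = ∑ᶠ p, F p := by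
    rw [finsum_curry F hF]
    refine finsum_congr fun y => ?_
    rw [finsum_mul]
  have hR : ∑ᶠ y : SL(2, ℤ), m0 y * H11.isect Γ (y.1 *ᵥ ![1, 0]) (y.1 *ᵥ ![0, 1]) γ =
      ∑ᶠ p, F (e p) := by
    rw [finsum_curry (fun p : SL(2, ℤ) × Γ => F (e p)) hFe_fin]
    refine finsum_congr fun y => ?_
    rw [isect_cols, mul_finsum]
    refine finsum_congr fun δ => ?_
    rw [hFe]
  rw [hL, hR, finsum_comp_equiv e]

/-! ### (CF): Euclid chains -/

theorem vec_eq (w : Fin 2 → ℤ) : w = ![w 0, w 1] := by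
  ext i
  fin_cases i <;> rfl

theorem cf_aux (n : ℕ) : ∀ v : Fin 2 → ℤ, IsCoprime (v 0) (v 1) → (v 1).natAbs = n →
    ∃ l : List SL(2, ℤ), ∀ F : (Fin 2 → ℤ) → (Fin 2 → ℤ) → ℤ,
      (∀ u w, F w u = - F u w) → (∀ u w, F (-u) w = F u w) →
      (∀ u w t, u ≠ 0 → w ≠ 0 → t ≠ 0 → F u w + F w t + F t u = 0) →
      F ![1, 0] v = (l.map fun y => F (y.1 *ᵥ ![1, 0]) (y.1 *ᵥ ![0, 1])).sum := by
  induction n using Nat.strong_induction_on with
  | _ n ih =>
    intro v hv hn
    by_cases hc : v 1 = 0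
    · -- `v = ± e₁`
      refine ⟨[], ?_⟩
      intro F hanti hsign htri
      rw [List.map_nil, List.sum_nil]
      have hunit : IsUnit (v 0) := by
        rw [hc] at hv
        exact isCoprime_zero_right.1 hv
      have h11 : F ![1, 0] ![1, 0] = 0 := by
        have := hanti ![1, 0] ![1, 0]
        omega
      rcases Int.isUnit_iff.1 hunit with h | h
      · have : v = ![1, 0] := by rw [vec_eq v, h, hc]
        rw [this, h11]
      · have : v = -![1, 0] := by
          rw [vec_eq v, h, hc]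
          ext i
          fin_cases i <;> simp
        rw [this, hanti, hsign, h11, neg_zero]
    · -- Euclid step
      obtain ⟨s, t, hst⟩ := hv
      set a := v 0 with ha
      set c := v 1 with hcdef
      set y : ℤ := (-s) % c with hy
      set k : ℤ := (-s) / c with hk
      have hyk : y + c * k = -s := Int.emod_add_mul_ediv (-s) c
      set x : ℤ := t - a * k with hx
      have hdet : x * c - y * a = 1 := by
        have : x * c - y * a = t * c - a * (y + c * k) := by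
          rw [hx]; ring
        rw [this, hyk]
        linarith
      have hy0 : 0 ≤ y := Int.emod_nonneg _ hc
      have hylt : y < |c| := Int.emod_lt_abs _ hc
      have hlt : y.natAbs < n := by
        rw [← hn]
        have h1 : (y.natAbs : ℤ) < (c.natAbs : ℤ) := by
          rw [Int.natAbs_of_nonneg hy0, Int.natCast_natAbs]
          exact hylt
        exact_mod_cast h1
      let w : Fin 2 → ℤ := ![x, y]
      have hwcop : IsCoprime (w 0) (w 1) := ⟨c, -a, by simp [w]; linarith⟩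
      obtain ⟨l, hl⟩ := ih y.natAbs hlt w hwcop (by simp [w])
      let g : SL(2, ℤ) := ⟨!![x, a; y, c], by rw [Matrix.det_fin_two_of]; linarith⟩
      have hg1 : g.1 *ᵥ ![1, 0] = w := by
        ext i
        fin_cases i <;> simp [g, w, Matrix.mulVec, dotProduct, Fin.sum_univ_two]
      have hg2 : g.1 *ᵥ ![0, 1] = v := by
        rw [vec_eq v]
        ext i
        fin_cases i <;> simp [g, Matrix.mulVec, dotProduct, Fin.sum_univ_two, ha, hcdef]
      refine ⟨l ++ [g], ?_⟩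
      intro F hanti hsign htri
      rw [List.map_append, List.sum_append, List.map_cons, List.map_nil, List.sum_cons,
        List.sum_nil, add_zero, ← hl F hanti hsign htri, hg1, hg2]
      have he1 : (![1, 0] : Fin 2 → ℤ) ≠ 0 := by
        intro h
        have := congrFun h 0
        simp at this
      have hw0 : w ≠ 0 := by
        intro h
        have h0 := congrFun h 0
        have h1 := congrFun h 1
        simp [w] at h0 h1
        rw [h0, h1] at hdet
        simp at hdet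
      have hv0 : v ≠ 0 := by
        intro h
        have h1 := congrFun h 1
        exact hc (by simpa using h1)
      have h3 := htri ![1, 0] w v he1 hw0 hv0
      have h4 := hanti ![1, 0] v
      linarith

theorem cf (v : Fin 2 → ℤ) (hv : IsCoprime (v 0) (v 1)) :
    ∃ l : List SL(2, ℤ), ∀ F : (Fin 2 → ℤ) → (Fin 2 → ℤ) → ℤ,
      (∀ u w, F w u = - F u w) → (∀ u w, F (-u) w = F u w) →
      (∀ u w t, u ≠ 0 → w ≠ 0 → t ≠ 0 → F u w + F w t + F t u = 0) →
      F ![1, 0] v = (l.map fun y => F (y.1 *ᵥ ![1, 0]) (y.1 *ᵥ ![0, 1])).sum :=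
  cf_aux _ v hv rfl

end Fermat.Agent.S41.H29
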