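import Mathlib
import Fermat.Agent.S41.IsectAdjInst_helper60
import Fermat.Agent.S41.IsectClosed_helper11
import Fermat.Agent.S41.IsectParL_helper17
import Fermat.Agent.S29.TransferHom_helper6
import Fermat.Agent.S29.CosetReps_helper36

/-!
# S41, node (C), route C-I: (A3) = `T_r` is self-adjoint, in the `S29.H06` vocabulary (helper88)

helper60's landed `H60.ipair_hecke_sa` is the self-adjointness of the Hecke operator `T_r`
(`r` prime, `r ∤ N`) for the intersection form of `Γ₀(N)`, stated for the integer Hecke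
representatives `H60.repTI r` and with helper11's adjunction theorem as a hypothesis
`H60.AdjStmt`.  Here

* `adjStmt` closes `H60.AdjStmt` with helper11's landed `H11.Cl.isect_adj`;
* `isDecomp_iff_int` identifies the `GL₂(ℝ)` coset decompositions `S29.H06.IsDecomp` with the
  integer ones along `H60.repTI r` (via `S29.H36.Reps.repT_mul_iff`);
* `ipair_hecke_sa_decomp` is (SA) for two arbitrary `S29.H06.IsDecomp` decompositions;
* `hsa_decompFun` is the literal hypothesis `hsa` of `H77.hkey_of_form` for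
  `B δ γ := ipair Γ₀(N) δ γ` and `s y γ := S29.H06.decompFun hr hrN γ y`;
* `heckeTr_ipairHomLeft`, `heckeTr_ipairHomRight` (and the `IsHeckeTr` forms): the transfer
  operator `S29.H06.heckeTr` on the slot homomorphisms of the intersection form.
-/

set_option autoImplicit false

namespace Fermat.Agent.S41.H88

open Matrix CongruenceSubgroup
open scoped MatrixGroups
open Fermat.Agent.S41.H11

universe u v

/-- helper60's `AdjStmt` (the literal statement of helper11's adjunction theorem), closed. -/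
theorem adjStmt : H60.AdjStmt.{u, v} := by
  intro X Y _ _ Γ Γ' α β hα hβ e he hinj γ hγ σ g' hg' hdec g₀ _ τ g hg hdec'
  exact H11.Cl.isect_adj Γ Γ' α β hα hβ e he hinj hγ σ g' hg' hdec g₀ τ g hg hdec'

/-- helper60's integer Hecke representatives are helper36's `cosetMat`. -/
theorem repTI_eq_cosetMat (r : ℕ) : H60.repTI r = S29.H36.Reps.cosetMat r := by
  funext x
  cases x <;> rfl

/-- A `GL₂(ℝ)` Hecke coset decomposition (`S29.H06.IsDecomp`) is the same as an integer one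
along `H60.repTI r`. -/
theorem isDecomp_iff_int {N r : ℕ} (hr0 : r ≠ 0) {γ : Gamma0 N}
    {σ : Equiv.Perm (Option (Fin r))} {g' : Option (Fin r) → Gamma0 N} :
    S29.H06.IsDecomp N r γ σ g' ↔
      ∀ x, H60.repTI r x * (γ : SL(2, ℤ)).1 = (g' x : SL(2, ℤ)).1 * H60.repTI r (σ x) := by
  rw [repTI_eq_cosetMat]
  exact forall_congr' fun x => S29.H36.Reps.repT_mul_iff hr0

/-- **(SA), `IsDecomp` form**: `T_r` is self-adjoint for the intersection form of `Γ₀(N)`
(`r` prime, `r ∤ N`).  If `g'` are the Hecke components of `γ` and `g` those of `g₀`, then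
`∑ x, ⟨g₀, g' x⟩ = ∑ y, ⟨g y, γ⟩`. -/
theorem ipair_hecke_sa_decomp {N r : ℕ} (hr : r.Prime) (hrN : ¬ r ∣ N) {γ g₀ : Gamma0 N}
    {σ τ : Equiv.Perm (Option (Fin r))} {g' g : Option (Fin r) → Gamma0 N}
    (hd : S29.H06.IsDecomp N r γ σ g') (hd' : S29.H06.IsDecomp N r g₀ τ g) :
    ∑ x, ipair (Gamma0 N) (g₀ : SL(2, ℤ)) (g' x : SL(2, ℤ))
      = ∑ y, ipair (Gamma0 N) (g y : SL(2, ℤ)) (γ : SL(2, ℤ)) :=
  H60.ipair_hecke_sa adjStmt hr hrN γ.2 g₀.2 σ τ
    (fun x => (g' x : SL(2, ℤ))) (fun y => (g y : SL(2, ℤ)))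
    (fun x => (g' x).2) (fun y => (g y).2)
    ((isDecomp_iff_int hr.ne_zero).mp hd) ((isDecomp_iff_int hr.ne_zero).mp hd')

/-- **(SA)** in the literal shape of the hypothesis `hsa` of `H77.hkey_of_form`, for
`B δ γ := ipair Γ₀(N) δ γ` and `s y γ := S29.H06.decompFun hr hrN γ y`. -/
theorem hsa_decompFun {N r : ℕ} (hr : r.Prime) (hrN : ¬ r ∣ N) (δ γ : Gamma0 N) :
    ∑ y, ipair (Gamma0 N) (S29.H06.decompFun hr hrN δ y : SL(2, ℤ)) (γ : SL(2, ℤ))
      = ∑ y, ipair (Gamma0 N) (δ : SL(2, ℤ)) (S29.H06.decompFun hr hrN γ y : SL(2, ℤ)) :=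
  (ipair_hecke_sa_decomp hr hrN (S29.H06.isDecomp_decomp hr hrN γ)
    (S29.H06.isDecomp_decomp hr hrN δ)).symm

/-! ### The transfer operator on the slot homomorphisms (helper17's `ipairHomLeft/Right`) -/

/-- Evaluation of the transfer of a first-slot homomorphism. -/
theorem heckeTr_ipairHomLeft_apply {N r : ℕ} (hr : r.Prime) (hrN : ¬ r ∣ N) (γ δ : Gamma0 N) :
    S29.H06.heckeTr hr hrN (H17.ipairHomLeft (Gamma0 N) γ) (Additive.ofMul δ)
      = ∑ y, ipair (Gamma0 N) (S29.H06.decompFun hr hrN δ y : SL(2, ℤ)) (γ : SL(2, ℤ)) := rfl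

/-- Evaluation of the transfer of a second-slot homomorphism. -/
theorem heckeTr_ipairHomRight_apply {N r : ℕ} (hr : r.Prime) (hrN : ¬ r ∣ N) (g₀ : SL(2, ℤ))
    (γ : Gamma0 N) :
    S29.H06.heckeTr hr hrN (H17.ipairHomRight (Gamma0 N) g₀) (Additive.ofMul γ)
      = ∑ x, ipair (Gamma0 N) g₀ (S29.H06.decompFun hr hrN γ x : SL(2, ℤ)) := rfl

/-- `T_r^tr ⟨·, γ⟩ = ∑ x, ⟨·, g' x⟩` for the Hecke components `g'` of `γ`. -/
theorem heckeTr_ipairHomLeft {N r : ℕ} (hr : r.Prime) (hrN : ¬ r ∣ N) (γ : Gamma0 N) :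
    S29.H06.heckeTr hr hrN (H17.ipairHomLeft (Gamma0 N) γ)
      = ∑ x, H17.ipairHomLeft (Gamma0 N) (S29.H06.decompFun hr hrN γ x) := by
  apply AddMonoidHom.ext
  intro a
  obtain ⟨δ, rfl⟩ := Additive.ofMul.surjective a
  rw [heckeTr_ipairHomLeft_apply, AddMonoidHom.finsetSum_apply]
  simp only [H17.ipairHomLeft_apply]
  exact hsa_decompFun hr hrN δ γ

/-- `T_r^tr ⟨g₀, ·⟩ = ∑ y, ⟨g y, ·⟩` for the Hecke components `g` of `g₀`. -/
theorem heckeTr_ipairHomRight {N r : ℕ} (hr : r.Prime) (hrN : ¬ r ∣ N) (g₀ : Gamma0 N) :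
    S29.H06.heckeTr hr hrN (H17.ipairHomRight (Gamma0 N) (g₀ : SL(2, ℤ)))
      = ∑ y, H17.ipairHomRight (Gamma0 N) (S29.H06.decompFun hr hrN g₀ y : SL(2, ℤ)) := by
  apply AddMonoidHom.ext
  intro a
  obtain ⟨γ, rfl⟩ := Additive.ofMul.surjective a
  rw [heckeTr_ipairHomRight_apply, AddMonoidHom.finsetSum_apply]
  simp only [H17.ipairHomRight_apply]
  exact (hsa_decompFun hr hrN g₀ γ).symm

/-- `IsHeckeTr` form of `heckeTr_ipairHomLeft`, for an arbitrary decomposition of `γ`. -/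
theorem isHeckeTr_ipairHomLeft {N r : ℕ} (hr : r.Prime) (hrN : ¬ r ∣ N) {γ : Gamma0 N}
    {σ : Equiv.Perm (Option (Fin r))} {g' : Option (Fin r) → Gamma0 N}
    (hd : S29.H06.IsDecomp N r γ σ g') :
    S29.H06.IsHeckeTr N r (H17.ipairHomLeft (Gamma0 N) γ)
      (∑ x, H17.ipairHomLeft (Gamma0 N) (g' x)) := by
  intro δ τ g hd'
  rw [AddMonoidHom.finsetSum_apply]
  simp only [H17.ipairHomLeft_apply]
  exact ipair_hecke_sa_decomp hr hrN hd hd'

/-- `IsHeckeTr` form of `heckeTr_ipairHomRight`, for an arbitrary decomposition of `g₀`. -/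
theorem isHeckeTr_ipairHomRight {N r : ℕ} (hr : r.Prime) (hrN : ¬ r ∣ N) {g₀ : Gamma0 N}
    {τ : Equiv.Perm (Option (Fin r))} {g : Option (Fin r) → Gamma0 N}
    (hd' : S29.H06.IsDecomp N r g₀ τ g) :
    S29.H06.IsHeckeTr N r (H17.ipairHomRight (Gamma0 N) (g₀ : SL(2, ℤ)))
      (∑ y, H17.ipairHomRight (Gamma0 N) (g y : SL(2, ℤ))) := by
  intro γ σ g' hd
  rw [AddMonoidHom.finsetSum_apply]
  simp only [H17.ipairHomRight_apply]
  exact (ipair_hecke_sa_decomp hr hrN hd hd').symm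

/-! ### The same for helper11's closed slot homomorphisms `H11.Cl.ipairHomLeft/Right` -/

theorem heckeTr_ipairHomLeft_cl {N r : ℕ} (hr : r.Prime) (hrN : ¬ r ∣ N) (γ : Gamma0 N) :
    S29.H06.heckeTr hr hrN (H11.Cl.ipairHomLeft (Gamma0 N) γ)
      = ∑ x, H11.Cl.ipairHomLeft (Gamma0 N) (S29.H06.decompFun hr hrN γ x) := by
  apply AddMonoidHom.ext
  intro a
  obtain ⟨δ, rfl⟩ := Additive.ofMul.surjective a
  rw [S29.H06.heckeTr_apply_apply, AddMonoidHom.finsetSum_apply]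
  simp only [H11.Cl.ipairHomLeft_apply]
  exact hsa_decompFun hr hrN δ γ

theorem heckeTr_ipairHomRight_cl {N r : ℕ} (hr : r.Prime) (hrN : ¬ r ∣ N) (g₀ : Gamma0 N) :
    S29.H06.heckeTr hr hrN (H11.Cl.ipairHomRight (Gamma0 N) (g₀ : SL(2, ℤ)))
      = ∑ y, H11.Cl.ipairHomRight (Gamma0 N) (S29.H06.decompFun hr hrN g₀ y : SL(2, ℤ)) := by
  apply AddMonoidHom.ext
  intro a
  obtain ⟨γ, rfl⟩ := Additive.ofMul.surjective a
  rw [S29.H06.heckeTr_apply_apply, AddMonoidHom.finsetSum_apply]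
  simp only [H11.Cl.ipairHomRight_apply]
  exact (hsa_decompFun hr hrN g₀ γ).symm

end Fermat.Agent.S41.H88

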