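import Mathlib
import Fermat.Agent.S41.LRCore_helper71

/-!
# (LR), dual side: `hDual` of `lr_core` from a pairing which is perfect modulo `p`

`exists_sep_of_pairing`: separation of a point from a subgroup by the pairing modulo `p`.
`hDual_of_pairing_gen` / `hDual_of_pairing`: the dual of Ihara's lemma from Ihara's lemma and
adjointness of `i` and `j`.
`lr_core_of_pairing`: `lr_core` with `hDual` replaced by the pairing hypotheses.
-/

namespace Fermat.Agent.S41.H71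

/-- Separation modulo `p`: if `Q` is left non-degenerate modulo `p` on a finitely generated abelian
group `Λ`, `W` a subgroup containing `p Λ` and `x ∉ W`, then some `Q k ·` vanishes modulo `p` on `W`
but not at `x`. -/
theorem exists_sep_of_pairing {Λ : Type*} [AddCommGroup Λ] [Module.Finite ℤ Λ] (p : ℕ)
    [Fact p.Prime] (Q : Λ →+ Λ →+ ℤ)
    (hQ : ∀ k : Λ, (∀ v : Λ, (p : ℤ) ∣ Q k v) → ∃ w : Λ, k = (p : ℤ) • w)
    (W : AddSubgroup Λ) (hW : ∀ v : Λ, (p : ℤ) • v ∈ W) (x : Λ) (hx : x ∉ W) :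
    ∃ k : Λ, (∀ w ∈ W, (p : ℤ) ∣ Q k w) ∧ ¬ (p : ℤ) ∣ Q k x := by
  classical
  have hp0 : p ≠ 0 := (Fact.out : p.Prime).ne_zero
  -- the quotient `V = Λ / pΛ`
  have hmk0 : ∀ k : Λ, ModN.mkQ p k = 0 ↔ ∃ w : Λ, k = (p : ℤ) • w := by
    intro k
    show Submodule.Quotient.mk k = 0 ↔ _
    rw [Submodule.Quotient.mk_eq_zero, LinearMap.mem_range]
    constructor
    · rintro ⟨w, hw⟩
      exact ⟨w, hw.symm⟩
    · rintro ⟨w, hw⟩
      exact ⟨w, hw.symm⟩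
  have hmksurj : Function.Surjective (ModN.mkQ p : Λ →+ ModN Λ p) :=
    Submodule.mkQ_surjective _
  have hfin : Finite (ModN Λ p) := by
    have : Module.Finite ℤ (ModN Λ p) :=
      Module.Finite.of_surjective (Submodule.mkQ _) (Submodule.mkQ_surjective _)
    apply Module.finite_of_fg_torsion
    intro y
    obtain ⟨u, rfl⟩ := hmksurj y
    refine ⟨⟨(p : ℤ), mem_nonZeroDivisors_of_ne_zero (by exact_mod_cast hp0)⟩, ?_⟩
    show (p : ℤ) • ModN.mkQ p u = 0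
    rw [← map_zsmul, hmk0]
    exact ⟨u, rfl⟩
  have hfd : Module.Finite (ZMod p) (ModN Λ p) := Module.Finite.of_finite
  -- the map `Φ : V → V^*`
  have hpz : ∀ a : ZMod p, p • a = 0 := fun a => by
    rw [nsmul_eq_mul, ZMod.natCast_self, zero_mul]
  let Ψ₀ : Λ → (ModN Λ p →ₗ[ZMod p] ZMod p) := fun k =>
    ModN.liftEquiv'.symm ⟨(Int.castAddHom (ZMod p)).comp (Q k), fun g => hpz _⟩
  have hΨ₀ : ∀ k v, Ψ₀ k (ModN.mkQ p v) = ((Q k v : ℤ) : ZMod p) := fun k v => rfl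
  let Ψ : Λ →+ (ModN Λ p →ₗ[ZMod p] ZMod p) := AddMonoidHom.mk' Ψ₀ (by
    intro a b
    apply LinearMap.ext
    intro y
    obtain ⟨v, rfl⟩ := hmksurj y
    rw [LinearMap.add_apply, hΨ₀, hΨ₀, hΨ₀, map_add, AddMonoidHom.add_apply, Int.cast_add])
  let Φ : ModN Λ p →ₗ[ZMod p] (ModN Λ p →ₗ[ZMod p] ZMod p) :=
    ModN.liftEquiv'.symm ⟨Ψ, fun g => by
      apply LinearMap.ext
      intro y
      rw [LinearMap.smul_apply, LinearMap.zero_apply]
      exact hpz _⟩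
  have hΦ : ∀ k v, Φ (ModN.mkQ p k) (ModN.mkQ p v) = ((Q k v : ℤ) : ZMod p) := fun k v => rfl
  have hΦinj : Function.Injective Φ := by
    rw [injective_iff_map_eq_zero]
    intro y hy
    obtain ⟨k, rfl⟩ := hmksurj y
    rw [hmk0]
    apply hQ
    intro v
    have h1 : Φ (ModN.mkQ p k) (ModN.mkQ p v) = 0 := by rw [hy, LinearMap.zero_apply]
    rw [hΦ] at h1
    exact (ZMod.intCast_zmod_eq_zero_iff_dvd _ _).mp h1
  have hΦsurj : Function.Surjective Φ :=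
    (LinearMap.injective_iff_surjective_of_finrank_eq_finrank
      (Subspace.dual_finrank_eq (K := ZMod p) (V := ModN Λ p)).symm).mp hΦinj
  -- the subspace `W̄`
  let Wbar : Submodule (ZMod p) (ModN Λ p) := AddSubgroup.toZModSubmodule p (W.map (ModN.mkQ p))
  have hWbar : ∀ y, y ∈ Wbar ↔ ∃ w ∈ W, ModN.mkQ p w = y := fun y => Iff.rfl
  have hxW : ModN.mkQ p x ∉ Wbar := by
    rw [hWbar]
    rintro ⟨w, hw, hwx⟩
    apply hx
    have h1 : ModN.mkQ p (x - w) = 0 := by rw [map_sub, hwx, sub_self]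
    obtain ⟨z, hz⟩ := (hmk0 _).mp h1
    have h2 : x = w + (p : ℤ) • z := by rw [← hz]; abel
    rw [h2]
    exact W.add_mem hw (hW z)
  obtain ⟨f, hfx, hfW⟩ := Submodule.exists_dual_map_eq_bot_of_notMem hxW inferInstance
  obtain ⟨kbar, hk⟩ := hΦsurj f
  obtain ⟨k, rfl⟩ := hmksurj kbar
  refine ⟨k, ?_, ?_⟩
  · intro w hw
    have h1 : f (ModN.mkQ p w) ∈ Wbar.map f := Submodule.mem_map_of_mem ((hWbar _).mpr ⟨w, hw, rfl⟩)
    rw [hfW, Submodule.mem_bot, ← hk, hΦ] at h1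
    exact (ZMod.intCast_zmod_eq_zero_iff_dvd _ _).mp h1
  · intro hdiv
    apply hfx
    rw [← hk, hΦ]
    exact (ZMod.intCast_zmod_eq_zero_iff_dvd _ _).mpr hdiv

/-- **Dual Ihara from Ihara** (general form).  `i : Λ → L'`, `j : L' → Λ` adjoint modulo `p` for
the pairings `Q` on `Λ` and `P'` on `L'`, both left non-degenerate modulo `p`; `r₀` self-adjoint
modulo `p` for `Q` and killing the kernel of `i` modulo `p`.  Then `r₀ Λ ⊆ j L' + p Λ`. -/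
theorem hDual_of_pairing_gen {R : Type*} [CommRing R] {Λ L' : Type*} [AddCommGroup Λ] [Module R Λ]
    [AddCommGroup L'] [Module R L'] [Module.Finite ℤ Λ] (p : ℕ) [Fact p.Prime]
    (i : Λ →ₗ[R] L') (j : L' →ₗ[R] Λ) (Q : Λ →+ Λ →+ ℤ) (P' : L' →+ L' →+ ℤ)
    (hadj : ∀ (u : Λ) (z : L'), (p : ℤ) ∣ P' (i u) z - Q u (j z))
    (hQ : ∀ k : Λ, (∀ v : Λ, (p : ℤ) ∣ Q k v) → ∃ w : Λ, k = (p : ℤ) • w)
    (hP' : ∀ z : L', (∀ z' : L', (p : ℤ) ∣ P' z z') → ∃ w : L', z = (p : ℤ) • w)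
    (r₀ : R) (hsa : ∀ u v : Λ, (p : ℤ) ∣ Q (r₀ • u) v - Q u (r₀ • v))
    (hIh : ∀ u : Λ, (∃ y : L', i u = (p : ℤ) • y) → ∃ v : Λ, r₀ • u = (p : ℤ) • v) :
    ∀ u : Λ, ∃ (y : L') (v : Λ), r₀ • u = j y + (p : ℤ) • v := by
  intro u
  by_contra hcon
  let W : AddSubgroup Λ := j.toAddMonoidHom.range ⊔ (zsmulAddGroupHom (p : ℤ) : Λ →+ Λ).range
  have hWmem : ∀ x, x ∈ W ↔ ∃ y v, x = j y + (p : ℤ) • v := by
    intro x
    rw [AddSubgroup.mem_sup]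
    constructor
    · rintro ⟨_, ⟨y, rfl⟩, _, ⟨v, rfl⟩, h⟩
      exact ⟨y, v, h.symm⟩
    · rintro ⟨y, v, rfl⟩
      exact ⟨_, ⟨y, rfl⟩, _, ⟨v, rfl⟩, rfl⟩
  have hx : r₀ • u ∉ W := fun h => hcon ((hWmem _).mp h)
  obtain ⟨k, hkW, hkx⟩ := exists_sep_of_pairing p Q hQ W
    (fun v => (hWmem _).mpr ⟨0, v, by rw [map_zero, zero_add]⟩) (r₀ • u) hx
  have hik : ∃ y, i k = (p : ℤ) • y := by
    apply hP'
    intro z
    have h1 := hadj k z
    have h2 := hkW (j z) ((hWmem _).mpr ⟨z, 0, by rw [smul_zero, add_zero]⟩)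
    have h3 := dvd_add h1 h2
    rwa [sub_add_cancel] at h3
  obtain ⟨v, hv⟩ := hIh k hik
  apply hkx
  have h3 := hsa k u
  rw [hv, map_zsmul, AddMonoidHom.smul_apply] at h3
  have h4 : (p : ℤ) ∣ (p : ℤ) • Q v u := ⟨Q v u, by rw [smul_eq_mul]⟩
  have h5 := dvd_sub h4 h3
  rwa [sub_sub_cancel] at h5

/-- The orthogonal sum of two copies of a pairing. -/
def prodPairing {L : Type*} [AddCommGroup L] (P : L →+ L →+ ℤ) : (L × L) →+ (L × L) →+ ℤ :=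
  AddMonoidHom.mk'
    (fun u => (P u.1).comp (AddMonoidHom.fst L L) + (P u.2).comp (AddMonoidHom.snd L L))
    (by
      intro a b
      apply AddMonoidHom.ext
      intro v
      simp only [Prod.fst_add, Prod.snd_add, map_add, AddMonoidHom.add_apply,
        AddMonoidHom.coe_comp, Function.comp_apply, AddMonoidHom.coe_fst, AddMonoidHom.coe_snd]
      abel)

theorem prodPairing_apply {L : Type*} [AddCommGroup L] (P : L →+ L →+ ℤ) (u v : L × L) :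
    prodPairing P u v = P u.1 v.1 + P u.2 v.2 := rfl

/-- **Dual Ihara from Ihara**, in the shape of the hypothesis `hDual` of `lr_core` (with
`r₁ = r₀`): `P` a pairing on `L`, `P'` a pairing on `L'`, both left non-degenerate modulo `p`,
`i` and `j` adjoint modulo `p`, `r₀` self-adjoint modulo `p` on `L`. -/
theorem hDual_of_pairing {R : Type*} [CommRing R] {L L' : Type*} [AddCommGroup L] [Module R L]
    [AddCommGroup L'] [Module R L'] [Module.Finite ℤ L] (p : ℕ) [Fact p.Prime]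
    (i : (L × L) →ₗ[R] L') (j : L' →ₗ[R] (L × L)) (P : L →+ L →+ ℤ) (P' : L' →+ L' →+ ℤ)
    (hadj : ∀ (x y : L) (z : L'), (p : ℤ) ∣ P' (i (x, y)) z - (P x (j z).1 + P y (j z).2))
    (hP : ∀ x : L, (∀ y : L, (p : ℤ) ∣ P x y) → ∃ w : L, x = (p : ℤ) • w)
    (hP' : ∀ z : L', (∀ z' : L', (p : ℤ) ∣ P' z z') → ∃ w : L', z = (p : ℤ) • w)
    (r₀ : R) (hsa : ∀ x y : L, (p : ℤ) ∣ P (r₀ • x) y - P x (r₀ • y))
    (hIh : ∀ u : L × L, (∃ y : L', i u = (p : ℤ) • y) → ∃ v : L × L, r₀ • u = (p : ℤ) • v) :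
    ∀ u : L × L, ∃ (y : L') (v : L × L), r₀ • u = j y + (p : ℤ) • v := by
  refine hDual_of_pairing_gen p i j (prodPairing P) P' ?_ ?_ hP' r₀ ?_ hIh
  · rintro ⟨x, y⟩ z
    exact hadj x y z
  · rintro ⟨k₁, k₂⟩ hk
    obtain ⟨w₁, hw₁⟩ := hP k₁ (fun y => by
      have h1 := hk (y, 0)
      rwa [prodPairing_apply, map_zero, add_zero] at h1)
    obtain ⟨w₂, hw₂⟩ := hP k₂ (fun y => by
      have h1 := hk (0, y)
      rwa [prodPairing_apply, map_zero, zero_add] at h1)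
    exact ⟨(w₁, w₂), by rw [hw₁, hw₂]; rfl⟩
  · rintro ⟨u₁, u₂⟩ ⟨v₁, v₂⟩
    have h1 := hsa u₁ v₁
    have h2 := hsa u₂ v₂
    have h3 := dvd_add h1 h2
    have h4 : prodPairing P (r₀ • (u₁, u₂)) (v₁, v₂) - prodPairing P (u₁, u₂) (r₀ • (v₁, v₂)) =
        P (r₀ • u₁) v₁ - P u₁ (r₀ • v₁) + (P (r₀ • u₂) v₂ - P u₂ (r₀ • v₂)) := by
      rw [prodPairing_apply, prodPairing_apply]
      simp only [Prod.smul_mk]
      abel
    rw [h4]
    exact h3

/-- `lr_core` with the dual statement replaced by a pairing which is perfect modulo `p`: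
the abstract level raising theorem with inputs (congruence) `hf`, (Ihara) `hIh` and
(duality) `P`, `P'`. -/
theorem lr_core_of_pairing {R : Type*} [CommRing R] {L L' : Type*} [AddCommGroup L] [Module R L]
    [AddCommGroup L'] [Module R L'] [Module.Finite ℤ L] [Module.Finite ℤ L']
    (p : ℕ) [Fact p.Prime] (𝔫 : Ideal R) [𝔫.IsMaximal] (hp𝔫 : (p : R) ∈ 𝔫)
    (i : (L × L) →ₗ[R] L') (j : L' →ₗ[R] (L × L)) (s : ℤ) (t : L →ₗ[R] L)
    (hji : ∀ x y : L, j (i (x, y)) = (s • x + t y, t x + s • y))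
    (ε : ℤ) (hε : ε = 1 ∨ ε = -1)
    (hf : ∃ x : L, x ∉ 𝔫 • (⊤ : Submodule R L) ⊔
      LinearMap.range (t - (ε * s) • (LinearMap.id : L →ₗ[R] L)))
    (r₀ : R) (hr₀ : r₀ ∉ 𝔫)
    (hIh : ∀ u : L × L, (∃ y : L', i u = (p : ℤ) • y) → ∃ v : L × L, r₀ • u = (p : ℤ) • v)
    (P : L →+ L →+ ℤ) (P' : L' →+ L' →+ ℤ)
    (hadj : ∀ (x y : L) (z : L'), (p : ℤ) ∣ P' (i (x, y)) z - (P x (j z).1 + P y (j z).2))
    (hP : ∀ x : L, (∀ y : L, (p : ℤ) ∣ P x y) → ∃ w : L, x = (p : ℤ) • w)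
    (hP' : ∀ z : L', (∀ z' : L', (p : ℤ) ∣ P' z z') → ∃ w : L', z = (p : ℤ) • w)
    (hsa : ∀ x y : L, (p : ℤ) ∣ P (r₀ • x) y - P x (r₀ • y)) :
    ¬ (LinearMap.ker j ≤ 𝔫 • LinearMap.ker j) :=
  lr_core p (Fact.out : p.Prime).ne_zero 𝔫 hp𝔫 i j s t hji ε hε hf ⟨r₀, hr₀, hIh⟩
    ⟨r₀, hr₀, hDual_of_pairing p i j P P' hadj hP hP' r₀ hsa hIh⟩

end Fermat.Agent.S41.H71
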