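import Mathlib
import Fermat.Agent.S41.LRCore_helper71
import Fermat.Agent.S41.HfInst_helper74
import Fermat.Agent.S41.HeckeMod_helper50
import Fermat.Agent.S41.PolyModule_helper59
import Fermat.Agent.S41.LevelOpsBridge_helper19
import Fermat.Agent.S41.ParOps_helper97
import Fermat.Agent.S41.Lattice_helper34

/-!
# (LR-INST): the instance of `lr_core` for the Betti lattices of `Γ₀(N)` and `Γ₀(N q)`

`lr_inst`: from the data of the frozen statement S41 (eigenform `f` of level `N`, congruences),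
a non-Eisenstein index `i₀`, Ihara's lemma in operator form (`hIH`) and its dual (`hDUAL`), the
`q`-new sublattice `K = ker (cores, cores ∘ w)` of `parabolicHoms ℤ Γ₀(N q) ℤ` has the maximal
ideal `𝔫 = evalIdeal p (a_ℓ(W))` of the Hecke polynomial ring in its support: `¬ K ≤ 𝔫 • K`.
-/

set_option autoImplicit false

namespace Fermat.Agent.S41.H71

open CongruenceSubgroup ModularCurve ModularCurve.Period
open Fermat.Agent.S29
open scoped MatrixGroups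

section Maps

variable {N q : ℕ} (hq : q.Prime) (hqN : ¬ q ∣ N)

/-- `i = res + w ∘ res` on the Betti lattices, as an additive map. -/
noncomputable def iLat :
    (parabolicHoms ℤ (Gamma0 N) ℤ × parabolicHoms ℤ (Gamma0 N) ℤ) →+
      parabolicHoms ℤ (Gamma0 (N * q)) ℤ where
  toFun u := ⟨H19.iOp hq hqN ((u.1 : Additive (Gamma0 N) →+ ℤ), (u.2 : Additive (Gamma0 N) →+ ℤ)),
    Submodule.add_mem _ (H97.tr_mem_parabolicHoms (H19.isTrFam_res N q) u.1.2)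
      (H97.tr_mem_parabolicHoms (H19.isTrFam_w hq hqN)
        (H97.tr_mem_parabolicHoms (H19.isTrFam_res N q) u.2.2))⟩
  map_zero' := by
    apply Subtype.ext
    show H19.iOp hq hqN (0 : (Additive (Gamma0 N) →+ ℤ) × (Additive (Gamma0 N) →+ ℤ)) = 0
    exact map_zero _
  map_add' u v := by
    apply Subtype.ext
    show H19.iOp hq hqN (((u.1 : Additive (Gamma0 N) →+ ℤ), (u.2 : Additive (Gamma0 N) →+ ℤ)) +
      ((v.1 : Additive (Gamma0 N) →+ ℤ), (v.2 : Additive (Gamma0 N) →+ ℤ))) = _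
    exact map_add _ _ _

theorem coe_iLat (u : parabolicHoms ℤ (Gamma0 N) ℤ × parabolicHoms ℤ (Gamma0 N) ℤ) :
    ((iLat hq hqN u : parabolicHoms ℤ (Gamma0 (N * q)) ℤ) : Additive (Gamma0 (N * q)) →+ ℤ) =
      H19.iOp hq hqN ((u.1 : Additive (Gamma0 N) →+ ℤ), (u.2 : Additive (Gamma0 N) →+ ℤ)) := rfl

/-- `j = (cores, cores ∘ w)` on the Betti lattices, as an additive map. -/
noncomputable def jLat :
    parabolicHoms ℤ (Gamma0 (N * q)) ℤ →+
      (parabolicHoms ℤ (Gamma0 N) ℤ × parabolicHoms ℤ (Gamma0 N) ℤ) where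
  toFun z := (⟨H19.coresOp hq hqN (z : Additive (Gamma0 (N * q)) →+ ℤ),
      H97.tr_mem_parabolicHoms (H19.isTrFam_cores hq hqN) z.2⟩,
    ⟨H19.coresOp hq hqN (H19.wOp hq hqN (z : Additive (Gamma0 (N * q)) →+ ℤ)),
      H97.tr_mem_parabolicHoms (H19.isTrFam_cores hq hqN)
        (H97.tr_mem_parabolicHoms (H19.isTrFam_w hq hqN) z.2)⟩)
  map_zero' := by
    apply Prod.ext
    · apply Subtype.ext
      show H19.coresOp hq hqN (0 : Additive (Gamma0 (N * q)) →+ ℤ) = 0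
      exact map_zero _
    · apply Subtype.ext
      show H19.coresOp hq hqN (H19.wOp hq hqN (0 : Additive (Gamma0 (N * q)) →+ ℤ)) = 0
      rw [map_zero, map_zero]
  map_add' z z' := by
    apply Prod.ext
    · apply Subtype.ext
      show H19.coresOp hq hqN ((z : Additive (Gamma0 (N * q)) →+ ℤ) +
        (z' : Additive (Gamma0 (N * q)) →+ ℤ)) = _
      exact map_add _ _ _
    · apply Subtype.ext
      show H19.coresOp hq hqN (H19.wOp hq hqN ((z : Additive (Gamma0 (N * q)) →+ ℤ) +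
        (z' : Additive (Gamma0 (N * q)) →+ ℤ))) = _
      rw [map_add, map_add]
      rfl

theorem coe_jLat_fst (z : parabolicHoms ℤ (Gamma0 (N * q)) ℤ) :
    (((jLat hq hqN z).1 : parabolicHoms ℤ (Gamma0 N) ℤ) : Additive (Gamma0 N) →+ ℤ) =
      H19.coresOp hq hqN (z : Additive (Gamma0 (N * q)) →+ ℤ) := rfl

theorem coe_jLat_snd (z : parabolicHoms ℤ (Gamma0 (N * q)) ℤ) :
    (((jLat hq hqN z).2 : parabolicHoms ℤ (Gamma0 N) ℤ) : Additive (Gamma0 N) →+ ℤ) =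
      H19.coresOp hq hqN (H19.wOp hq hqN (z : Additive (Gamma0 (N * q)) →+ ℤ)) := rfl

end Maps

/-- **(LR-INST)**: the `q`-new sublattice of the Betti lattice of level `N q` has the maximal
ideal `𝔫` attached to `W` modulo `p` in its support.  Inputs: the data of the frozen statement
S41 at level `N` (through `H74.hf_inst`), a non-Eisenstein index `i₀`, Ihara's lemma in operator
form `hIH` and its dual `hDUAL` for the prime `pr i₀`. -/
theorem lr_inst {W : WeierstrassCurve ℤ} {p N q : ℕ} [NeZero N] [NeZero (N * q)] [Fact p.Prime]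
    (hq : q.Prime) (hqN : ¬ q ∣ N)
    (f : CuspForm (Gamma0 N) 2) (𝔪 : Ideal (integralClosure ℤ ℂ))
    (hf : f.IsNormalizedEigenform) (hmax : 𝔪.IsMaximal) (hpm : (p : integralClosure ℤ ℂ) ∈ 𝔪)
    (hcong : ∀ ℓ : ℕ, ℓ.Prime → W.IsGoodPrimeFor ℓ → ¬ ℓ ∣ N → ℓ ≠ p →
      ∃ a : integralClosure ℤ ℂ, (a : ℂ) = ModularFormClass.qCoeff f ℓ ∧
        a - ((W.apOfModel ℓ : ℤ) : integralClosure ℤ ℂ) ∈ 𝔪)
    (hLR : ∃ a : integralClosure ℤ ℂ, (a : ℂ) = ModularFormClass.qCoeff f q ∧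
      a ^ 2 - ((q : integralClosure ℤ ℂ) + 1) ^ 2 ∈ 𝔪)
    {ι : Type*} (pr : ι → ℕ) (hpr : ∀ i, (pr i).Prime) (hprNq : ∀ i, ¬ pr i ∣ N * q)
    (hgood : ∀ i, W.IsGoodPrimeFor (pr i)) (hprp : ∀ i, pr i ≠ p)
    (i₀ : ι) (hi₀ : ((W.apOfModel (pr i₀) : ℤ) : ZMod p) ≠ (pr i₀ : ZMod p) + 1)
    (hIH : ∀ x y : Additive (Gamma0 N) →+ ℤ, IsParabolicHom (Gamma0 N) x →
      IsParabolicHom (Gamma0 N) y → ∀ z : Additive (Gamma0 (N * q)) →+ ℤ,
      H19.resOp N q x + H19.wOp hq hqN (H19.resOp N q y) = p • z →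
      ∃ v₁ v₂ : Additive (Gamma0 N) →+ ℤ, IsParabolicHom (Gamma0 N) v₁ ∧
        IsParabolicHom (Gamma0 N) v₂ ∧
        S29.H06.heckeTr (hpr i₀) (H19.not_dvd_left (hprNq i₀)) x - (pr i₀ + 1) • x = p • v₁ ∧
        S29.H06.heckeTr (hpr i₀) (H19.not_dvd_left (hprNq i₀)) y - (pr i₀ + 1) • y = p • v₂)
    (hDUAL : ∀ x y : Additive (Gamma0 N) →+ ℤ, IsParabolicHom (Gamma0 N) x →
      IsParabolicHom (Gamma0 N) y →
      ∃ (z : Additive (Gamma0 (N * q)) →+ ℤ) (v₁ v₂ : Additive (Gamma0 N) →+ ℤ),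
        IsParabolicHom (Gamma0 (N * q)) z ∧ IsParabolicHom (Gamma0 N) v₁ ∧
        IsParabolicHom (Gamma0 N) v₂ ∧
        S29.H06.heckeTr (hpr i₀) (H19.not_dvd_left (hprNq i₀)) x - (pr i₀ + 1) • x =
          H19.coresOp hq hqN z + p • v₁ ∧
        S29.H06.heckeTr (hpr i₀) (H19.not_dvd_left (hprNq i₀)) y - (pr i₀ + 1) • y =
          H19.coresOp hq hqN (H19.wOp hq hqN z) + p • v₂) :
    letI := H50.latModule (N * q) pr hpr hprNq
    ∃ K : Submodule (MvPolynomial ι ℤ) (parabolicHoms ℤ (Gamma0 (N * q)) ℤ),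
      ¬ (K ≤ H59.evalIdeal p (fun i => W.apOfModel (pr i)) • K) ∧
      ∀ x ∈ K, H19.coresOp hq hqN (x : Additive (Gamma0 (N * q)) →+ ℤ) = 0 ∧
        H19.coresOp hq hqN (H19.wOp hq hqN (x : Additive (Gamma0 (N * q)) →+ ℤ)) = 0 := by
  classical
  have hprN : ∀ i, ¬ pr i ∣ N := fun i => H19.not_dvd_left (hprNq i)
  let instN : Module (MvPolynomial ι ℤ) (parabolicHoms ℤ (Gamma0 N) ℤ) :=
    H50.latModule N pr hpr hprN
  let instNq : Module (MvPolynomial ι ℤ) (parabolicHoms ℤ (Gamma0 (N * q)) ℤ) :=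
    H50.latModule (N * q) pr hpr hprNq
  have hfinN : Module.Finite ℤ (parabolicHoms ℤ (Gamma0 N) ℤ) :=
    H34.finite_parabolicHoms_Gamma0 N
  have hfinNq : Module.Finite ℤ (parabolicHoms ℤ (Gamma0 (N * q)) ℤ) :=
    H34.finite_parabolicHoms_Gamma0 (N * q)
  have hXN : ∀ (i : ι) (x : parabolicHoms ℤ (Gamma0 N) ℤ),
      (MvPolynomial.X i : MvPolynomial ι ℤ) • x = H50.latT (hpr i) (hprN i) x :=
    fun i x => H50.latModule_X_smul N pr hpr hprN i x
  have hXNq : ∀ (i : ι) (x : parabolicHoms ℤ (Gamma0 (N * q)) ℤ),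
      (MvPolynomial.X i : MvPolynomial ι ℤ) • x = H50.latT (hpr i) (hprNq i) x :=
    fun i x => H50.latModule_X_smul (N * q) pr hpr hprNq i x
  have hCN : ∀ (n : ℤ) (x : parabolicHoms ℤ (Gamma0 N) ℤ),
      (MvPolynomial.C n : MvPolynomial ι ℤ) • x = n • x := by
    intro n x
    rw [show (MvPolynomial.C n : MvPolynomial ι ℤ) = ((n : ℤ) : MvPolynomial ι ℤ) from
      eq_intCast MvPolynomial.C n, Int.cast_smul_eq_zsmul (MvPolynomial ι ℤ) n x]
  -- the three linear maps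
  let iLin : (parabolicHoms ℤ (Gamma0 N) ℤ × parabolicHoms ℤ (Gamma0 N) ℤ) →ₗ[MvPolynomial ι ℤ]
      parabolicHoms ℤ (Gamma0 (N * q)) ℤ := H50.linearOfX (iLat hq hqN) (by
    intro k u
    apply Subtype.ext
    rw [hXNq, H50.coe_latT, coe_iLat, coe_iLat, Prod.smul_fst, Prod.smul_snd, hXN, hXN,
      H50.coe_latT, H50.coe_latT, ← H19.tOp_eq_heckeTr (hpr k) (hprNq k),
      H19.tOp_iOp hq hqN (hpr k) (hprNq k), H19.tOp_eq_heckeTr, H19.tOp_eq_heckeTr])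
  let jLin : parabolicHoms ℤ (Gamma0 (N * q)) ℤ →ₗ[MvPolynomial ι ℤ]
      (parabolicHoms ℤ (Gamma0 N) ℤ × parabolicHoms ℤ (Gamma0 N) ℤ) :=
    H50.linearOfX (jLat hq hqN) (by
    intro k z
    apply Prod.ext
    · apply Subtype.ext
      rw [Prod.smul_fst, hXN, H50.coe_latT, coe_jLat_fst, coe_jLat_fst, hXNq, H50.coe_latT,
        ← H19.tOp_eq_heckeTr (hpr k) (hprNq k), H19.coresOp_tOp hq hqN (hpr k) (hprNq k),
        H19.tOp_eq_heckeTr]
    · apply Subtype.ext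
      rw [Prod.smul_snd, hXN, H50.coe_latT, coe_jLat_snd, coe_jLat_snd, hXNq, H50.coe_latT,
        ← H19.tOp_eq_heckeTr (hpr k) (hprNq k), ← H19.tOp_wOp hq hqN (hpr k) (hprNq k),
        H19.coresOp_tOp hq hqN (hpr k) (hprNq k), H19.tOp_eq_heckeTr])
  let tLin : parabolicHoms ℤ (Gamma0 N) ℤ →ₗ[MvPolynomial ι ℤ] parabolicHoms ℤ (Gamma0 N) ℤ :=
    H50.linearOfX (H50.latT hq hqN) (by
    intro k x
    rw [hXN, hXN, H50.latT_comm])
  have hiLin : ∀ u, iLin u = iLat hq hqN u := fun u => rfl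
  have hjLin : ∀ z, jLin z = jLat hq hqN z := fun z => rfl
  have htLin : ∀ x, tLin x = H50.latT hq hqN x := fun x => rfl
  -- `j ∘ i`
  have hs : ((q : ℤ) + 1) = ((q + 1 : ℕ) : ℤ) := by push_cast; ring
  have hji : ∀ x y : parabolicHoms ℤ (Gamma0 N) ℤ,
      jLin (iLin (x, y)) = (((q : ℤ) + 1) • x + tLin y, tLin x + ((q : ℤ) + 1) • y) := by
    intro x y
    rw [hjLin, hiLin, htLin, htLin, hs, natCast_zsmul, natCast_zsmul]
    apply Prod.ext
    · apply Subtype.ext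
      rw [coe_jLat_fst, coe_iLat, H19.iOp_apply, H19.coresOp_i, H19.tOp_eq_heckeTr]
      rfl
    · apply Subtype.ext
      rw [coe_jLat_snd, coe_iLat, H19.iOp_apply, H19.coresOp_wOp_i, H19.tOp_eq_heckeTr]
      rfl
  -- the ideal and the non-Eisenstein element
  set a : ι → ℤ := fun i => W.apOfModel (pr i) with ha
  have hmaxn : (H59.evalIdeal p a).IsMaximal := H59.evalIdeal_isMaximal p a
  have hp𝔫 : ((p : ℕ) : MvPolynomial ι ℤ) ∈ H59.evalIdeal p a := H59.natCast_mem_evalIdeal p a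
  set r₀ : MvPolynomial ι ℤ := MvPolynomial.X i₀ - MvPolynomial.C (((pr i₀ + 1 : ℕ) : ℤ))
    with hr₀def
  have hr₀ : r₀ ∉ H59.evalIdeal p a := by
    apply H59.X_sub_C_not_mem_evalIdeal
    intro h
    apply hi₀
    rw [h]
    push_cast
    ring
  have hr₀smul : ∀ x : parabolicHoms ℤ (Gamma0 N) ℤ,
      ((r₀ • x : parabolicHoms ℤ (Gamma0 N) ℤ) : Additive (Gamma0 N) →+ ℤ) =
        S29.H06.heckeTr (hpr i₀) (hprN i₀) (x : Additive (Gamma0 N) →+ ℤ) -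
          (pr i₀ + 1) • (x : Additive (Gamma0 N) →+ ℤ) := by
    intro x
    rw [hr₀def, sub_smul, hXN, hCN, natCast_zsmul]
    rfl
  have hpsmul : ∀ (M : ℕ) (v : parabolicHoms ℤ (Gamma0 M) ℤ),
      ((((p : ℤ) • v : parabolicHoms ℤ (Gamma0 M) ℤ)) : Additive (Gamma0 M) →+ ℤ) =
        p • (v : Additive (Gamma0 M) →+ ℤ) := by
    intro M v
    rw [natCast_zsmul]
    rfl
  have hIh : ∃ r : MvPolynomial ι ℤ, r ∉ H59.evalIdeal p a ∧
      ∀ u : parabolicHoms ℤ (Gamma0 N) ℤ × parabolicHoms ℤ (Gamma0 N) ℤ,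
        (∃ y : parabolicHoms ℤ (Gamma0 (N * q)) ℤ, iLin u = (p : ℤ) • y) →
        ∃ v : parabolicHoms ℤ (Gamma0 N) ℤ × parabolicHoms ℤ (Gamma0 N) ℤ,
          r • u = (p : ℤ) • v := by
    refine ⟨r₀, hr₀, ?_⟩
    rintro ⟨x, y⟩ ⟨z, hz⟩
    have hz' : H19.resOp N q (x : Additive (Gamma0 N) →+ ℤ) +
        H19.wOp hq hqN (H19.resOp N q (y : Additive (Gamma0 N) →+ ℤ)) =
        p • (z : Additive (Gamma0 (N * q)) →+ ℤ) := by
      have h1 : ((iLin (x, y) : parabolicHoms ℤ (Gamma0 (N * q)) ℤ) :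
          Additive (Gamma0 (N * q)) →+ ℤ) =
          (((p : ℤ) • z : parabolicHoms ℤ (Gamma0 (N * q)) ℤ) :
            Additive (Gamma0 (N * q)) →+ ℤ) := by rw [hz]
      rw [hiLin, coe_iLat, H19.iOp_apply, hpsmul] at h1
      exact h1
    obtain ⟨v₁, v₂, hv₁, hv₂, e₁, e₂⟩ := hIH x y x.2 y.2 z hz'
    refine ⟨(⟨v₁, hv₁⟩, ⟨v₂, hv₂⟩), ?_⟩
    apply Prod.ext
    · apply Subtype.ext
      rw [Prod.smul_fst, Prod.smul_fst, hr₀smul, hpsmul]
      exact e₁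
    · apply Subtype.ext
      rw [Prod.smul_snd, Prod.smul_snd, hr₀smul, hpsmul]
      exact e₂
  have hDual : ∃ r : MvPolynomial ι ℤ, r ∉ H59.evalIdeal p a ∧
      ∀ u : parabolicHoms ℤ (Gamma0 N) ℤ × parabolicHoms ℤ (Gamma0 N) ℤ,
        ∃ (y : parabolicHoms ℤ (Gamma0 (N * q)) ℤ)
          (v : parabolicHoms ℤ (Gamma0 N) ℤ × parabolicHoms ℤ (Gamma0 N) ℤ),
          r • u = jLin y + (p : ℤ) • v := by
    refine ⟨r₀, hr₀, ?_⟩
    rintro ⟨x, y⟩
    obtain ⟨z, v₁, v₂, hz, hv₁, hv₂, e₁, e₂⟩ := hDUAL x y x.2 y.2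
    refine ⟨⟨z, hz⟩, (⟨v₁, hv₁⟩, ⟨v₂, hv₂⟩), ?_⟩
    apply Prod.ext
    · apply Subtype.ext
      rw [Prod.smul_fst, Prod.fst_add, Prod.smul_fst, Submodule.coe_add, hr₀smul, hpsmul, hjLin,
        coe_jLat_fst]
      exact e₁
    · apply Subtype.ext
      rw [Prod.smul_snd, Prod.snd_add, Prod.smul_snd, Submodule.coe_add, hr₀smul, hpsmul, hjLin,
        coe_jLat_snd]
      exact e₂
  -- the congruence hypothesis
  obtain ⟨ε, hε, hfx⟩ := H74.hf_inst hq hqN f 𝔪 hf hmax hpm hcong hLR pr hpr hprN hgood hprp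
    (fun i x => by rw [hXN, H50.coe_latT]) tLin (fun x => by rw [htLin, H50.coe_latT])
    (H59.evalIdeal p a) (fun r hr => (H59.mem_evalIdeal_iff_dvd p a r).mp hr)
  have key := lr_core p (Fact.out : p.Prime).ne_zero (H59.evalIdeal p a) hp𝔫 iLin jLin
    ((q : ℤ) + 1) tLin hji ε hε hfx hIh hDual
  refine ⟨LinearMap.ker jLin, key, fun x hx => ?_⟩
  have hx0 : jLat hq hqN x = 0 := hx
  constructor
  · rw [← coe_jLat_fst, hx0]
    rfl
  · rw [← coe_jLat_snd, hx0]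
    rfl

end Fermat.Agent.S41.H71
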