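import Mathlib
import Fermat.Agent.S49.LinAlg_h79

/-!
# (LR), lifting side: from `¬ (K ≤ 𝔫 • K)` to an eigenvector with eigenvalues congruent modulo `𝔪'`

`lr_lift_gen`: `K` an `R`-module, finitely generated over `ℤ`, with `¬ (⊤ ≤ 𝔫 • ⊤)`, embedded as a
spanning lattice in a complex vector space `V` on which `R` acts `ℂ`-linearly.  Then there is an
eigenvector whose eigencharacter `θ : R →+* ℤ̄` sends `𝔫` into a maximal ideal of `ℤ̄`
(Deligne-Serre lifting, via `S49.H79.abstract_lift`).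

`lr_lift_mvPoly`: the same for `R = ℤ[X_i]`, a submodule `K` of `M`, an additive map `e : M → H`
into a complex vector space and `ℂ`-linear maps `T i` of `H` extending the variables.
-/

namespace Fermat.Agent.S41.H71

/-- Deligne-Serre lifting for a module in whose support `𝔫` lies. -/
theorem lr_lift_gen {R : Type*} [CommRing R] {K : Type*} [AddCommGroup K] [Module R K]
    [Module.Finite ℤ K] (𝔫 : Ideal R)
    (hK : ¬ ((⊤ : Submodule R K) ≤ 𝔫 • (⊤ : Submodule R K)))
    {V : Type*} [AddCommGroup V] [Module ℂ V] (eK : K →+ V) (heK : Function.Injective eK)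
    (hspan : Submodule.span ℂ (Set.range eK) = ⊤)
    (ψ : R →+* Module.End ℂ V) (hψ : ∀ (r : R) (x : K), ψ r (eK x) = eK (r • x)) :
    ∃ (f : V) (θ : R →+* integralClosure ℤ ℂ) (𝔪' : Ideal (integralClosure ℤ ℂ)),
      f ≠ 0 ∧ (∀ r : R, ψ r f = ((θ r : integralClosure ℤ ℂ) : ℂ) • f) ∧ 𝔪'.IsMaximal ∧
        ∀ r ∈ 𝔫, θ r ∈ 𝔪' := by
  -- the lattice
  let Λ : Submodule ℤ V := LinearMap.range eK.toIntLinearMap
  have hΛmem : ∀ y : V, y ∈ Λ ↔ ∃ x : K, eK x = y := fun y => Iff.rfl
  have hΛfg : Λ.FG := by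
    show (LinearMap.range eK.toIntLinearMap).FG
    rw [LinearMap.range_eq_map]
    exact Submodule.FG.map _ Module.Finite.fg_top
  have hΛspan : Submodule.span ℂ (Λ : Set V) = ⊤ := by
    rw [← hspan]
    rfl
  -- the ring `A = R / ker ψ`
  have hφinj : Function.Injective (RingHom.kerLift ψ) := RingHom.kerLift_injective ψ
  have hstab : ∀ (a : R ⧸ RingHom.ker ψ) (y : V), y ∈ Λ → RingHom.kerLift ψ a y ∈ Λ := by
    intro a y hy
    obtain ⟨r, rfl⟩ := Ideal.Quotient.mk_surjective a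
    obtain ⟨x, rfl⟩ := (hΛmem y).mp hy
    rw [RingHom.kerLift_mk, hψ]
    exact (hΛmem _).mpr ⟨r • x, rfl⟩
  have hI : Ideal.map (Ideal.Quotient.mk (RingHom.ker ψ)) 𝔫 ≠ ⊤ := by
    intro htop
    apply hK
    have h1 : (1 : R ⧸ RingHom.ker ψ) ∈ Ideal.map (Ideal.Quotient.mk (RingHom.ker ψ)) 𝔫 := by
      rw [htop]
      exact Submodule.mem_top
    obtain ⟨n, hn, hn1⟩ :=
      (Ideal.mem_map_iff_of_surjective _ Ideal.Quotient.mk_surjective).mp h1
    have h2 : ψ n = 1 := by
      have h3 := congrArg (RingHom.kerLift ψ) hn1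
      rwa [RingHom.kerLift_mk, map_one] at h3
    intro x _
    have h4 : eK (n • x) = eK x := by
      rw [← hψ, h2, Module.End.one_apply]
    rw [← heK h4]
    exact Submodule.smul_mem_smul hn Submodule.mem_top
  obtain ⟨f, θ', 𝔪', hf0, hfeig, hmax, hθ'⟩ :=
    Fermat.Agent.S49.H79.abstract_lift (RingHom.kerLift ψ) hφinj Λ hΛfg hΛspan hstab _ hI
  refine ⟨f, θ'.comp (Ideal.Quotient.mk (RingHom.ker ψ)), 𝔪', hf0, fun r => ?_, hmax,
    fun r hr => ?_⟩
  · rw [← RingHom.kerLift_mk ψ r, hfeig]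
    rfl
  · exact hθ' _ (Ideal.mem_map_of_mem _ hr)

open scoped IsMulCommutative in
/-- Deligne-Serre lifting of the conclusion of `lr_core`, for `R = ℤ[X_i]`: `K` a submodule of
`M` with `K ⊄ 𝔫 K`, `e : M → H` additive into a complex vector space and injective on `K`,
`T i` complex linear maps of `H` extending the variables on `K`.  Then the `T i` have a common
eigenvector `v ≠ 0` in the complex span of `K` whose eigencharacter `θ` sends `𝔫` into a maximal
ideal `𝔪'` of the ring of algebraic integers. -/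
theorem lr_lift_mvPoly {ι : Type*} {M : Type*} [AddCommGroup M] [Module (MvPolynomial ι ℤ) M]
    [Module.Finite ℤ M] (K : Submodule (MvPolynomial ι ℤ) M) (𝔫 : Ideal (MvPolynomial ι ℤ))
    (hK : ¬ (K ≤ 𝔫 • K))
    {H : Type*} [AddCommGroup H] [Module ℂ H] (e : M →+ H) (he : ∀ x ∈ K, e x = 0 → x = 0)
    (T : ι → H →ₗ[ℂ] H)
    (hT : ∀ (i : ι), ∀ x ∈ K, T i (e x) = e ((MvPolynomial.X i : MvPolynomial ι ℤ) • x)) :
    ∃ (v : H) (θ : MvPolynomial ι ℤ →+* integralClosure ℤ ℂ)
      (𝔪' : Ideal (integralClosure ℤ ℂ)),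
      v ≠ 0 ∧ v ∈ Submodule.span ℂ (e '' (K : Set M)) ∧
      (∀ i : ι, T i v = ((θ (MvPolynomial.X i) : integralClosure ℤ ℂ) : ℂ) • v) ∧
      𝔪'.IsMaximal ∧ ∀ r ∈ 𝔫, θ r ∈ 𝔪' := by
  classical
  set V : Submodule ℂ H := Submodule.span ℂ (e '' (K : Set M)) with hVdef
  have hmem : ∀ x ∈ K, e x ∈ V := fun x hx => Submodule.subset_span ⟨x, hx, rfl⟩
  have hVstab : ∀ i, ∀ y ∈ V, T i y ∈ V := by
    intro i y hy
    have hle : V ≤ V.comap (T i) := by
      rw [hVdef, Submodule.span_le]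
      rintro _ ⟨x, hx, rfl⟩
      show T i (e x) ∈ Submodule.span ℂ (e '' (K : Set M))
      rw [hT i x hx]
      exact hmem _ (K.smul_mem _ hx)
    exact hle hy
  let T' : ι → Module.End ℂ V := fun i => (T i).restrict (hVstab i)
  have hT'coe : ∀ (i : ι) (y : V), ((T' i y : V) : H) = T i (y : H) := fun i y => rfl
  have hT'comm : ∀ i j, T' i * T' j = T' j * T' i := by
    intro i j
    have hker : V ≤ LinearMap.ker (T i ∘ₗ T j - T j ∘ₗ T i) := by
      rw [hVdef, Submodule.span_le]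
      rintro _ ⟨x, hx, rfl⟩
      rw [SetLike.mem_coe, LinearMap.mem_ker, LinearMap.sub_apply, LinearMap.comp_apply,
        LinearMap.comp_apply, hT j x hx, hT i _ (K.smul_mem _ hx), hT i x hx,
        hT j _ (K.smul_mem _ hx), smul_comm, sub_self]
    apply LinearMap.ext
    intro y
    apply Subtype.ext
    have h1 := hker y.2
    rw [LinearMap.mem_ker, LinearMap.sub_apply, sub_eq_zero] at h1
    exact h1
  -- the commutative subalgebra generated by the `T' i` and the action `ψ` of `ℤ[X_i]`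
  have hmc : IsMulCommutative (Algebra.adjoin ℤ (Set.range T')) :=
    Algebra.isMulCommutative_adjoin ℤ (by
      rintro _ ⟨i, rfl⟩ _ ⟨j, rfl⟩
      exact hT'comm i j)
  let instA : CommRing (Algebra.adjoin ℤ (Set.range T')) := inferInstance
  let ρ : MvPolynomial ι ℤ →ₐ[ℤ] (Algebra.adjoin ℤ (Set.range T')) :=
    MvPolynomial.aeval (fun i => ⟨T' i, Algebra.subset_adjoin ⟨i, rfl⟩⟩)
  let ψ : MvPolynomial ι ℤ →+* Module.End ℂ V :=
    ((Algebra.adjoin ℤ (Set.range T')).val.toRingHom).comp ρ.toRingHom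
  have hψX : ∀ i, ψ (MvPolynomial.X i) = T' i := by
    intro i
    show ((ρ (MvPolynomial.X i) : Algebra.adjoin ℤ (Set.range T')) : Module.End ℂ V) = T' i
    rw [MvPolynomial.aeval_X]
  -- the lattice
  let eK : K →+ V := AddMonoidHom.mk' (fun x : K => (⟨e x, hmem x x.2⟩ : V)) (by
    intro a b
    apply Subtype.ext
    show e ((a + b : K) : M) = e a + e b
    rw [Submodule.coe_add, map_add])
  have heKcoe : ∀ x : K, ((eK x : V) : H) = e x := fun x => rfl
  have heK : Function.Injective eK := by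
    intro x y hxy
    have h1 : e ((x : M) - (y : M)) = 0 := by
      rw [map_sub, ← heKcoe x, ← heKcoe y, hxy, sub_self]
    have h2 := he _ (K.sub_mem x.2 y.2) h1
    exact Subtype.ext (sub_eq_zero.mp h2)
  have hspan : Submodule.span ℂ (Set.range eK) = ⊤ := by
    apply Submodule.map_injective_of_injective V.injective_subtype
    rw [Submodule.map_span, Submodule.map_subtype_top]
    have himg : (V.subtype '' Set.range eK) = e '' (K : Set M) := by
      ext y
      constructor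
      · rintro ⟨_, ⟨x, rfl⟩, rfl⟩
        exact ⟨x, x.2, rfl⟩
      · rintro ⟨x, hx, rfl⟩
        exact ⟨eK ⟨x, hx⟩, ⟨⟨x, hx⟩, rfl⟩, rfl⟩
    rw [himg]
  have hψ : ∀ (r : MvPolynomial ι ℤ) (x : K), ψ r (eK x) = eK (r • x) := by
    intro r
    induction r using MvPolynomial.induction_on with
    | C n =>
      intro x
      have h1 : (MvPolynomial.C n : MvPolynomial ι ℤ) = ((n : ℤ) : MvPolynomial ι ℤ) :=
        eq_intCast MvPolynomial.C n
      rw [h1, map_intCast, Module.End.intCast_apply, Int.cast_smul_eq_zsmul (MvPolynomial ι ℤ) n x,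
        map_zsmul]
    | add a b iha ihb =>
      intro x
      rw [map_add, LinearMap.add_apply, iha, ihb, add_smul, map_add]
    | mul_X a i ih =>
      intro x
      have h2 : T' i (eK x) = eK ((MvPolynomial.X i : MvPolynomial ι ℤ) • x) := by
        apply Subtype.ext
        rw [hT'coe, heKcoe, heKcoe]
        exact hT i x x.2
      rw [map_mul, hψX, Module.End.mul_apply, h2, ih, mul_smul]
  have hNoeth : IsNoetherian ℤ M := isNoetherian_of_isNoetherianRing_of_finite ℤ M
  have hKfin : Module.Finite ℤ K :=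
    Module.Finite.of_injective (K.subtype.restrictScalars ℤ) K.injective_subtype
  have hK' : ¬ ((⊤ : Submodule (MvPolynomial ι ℤ) K) ≤ 𝔫 • (⊤ : Submodule (MvPolynomial ι ℤ) K)) := by
    intro htop
    apply hK
    have h1 := Submodule.map_mono (f := K.subtype) htop
    rwa [Submodule.map_smul'', Submodule.map_subtype_top] at h1
  obtain ⟨f, θ, 𝔪', hf0, hfeig, hmax, hθ⟩ := lr_lift_gen 𝔫 hK' eK heK hspan ψ hψ
  refine ⟨(f : H), θ, 𝔪', fun h => hf0 (Subtype.ext h), f.2, fun i => ?_, hmax, hθ⟩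
  rw [← hT'coe, ← hψX, hfeig]
  rfl

end Fermat.Agent.S41.H71
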