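import Mathlib
import Fermat.Agent.S21
import Fermat.Prelude.Def_FLTPrelim_ModularRep

/-!
# S41, leaf (N1): level-one dispatch (helper49)

There is no normalized eigenform of weight `2` and level `1`: every parabolic character of
`Γ₀(1) = SL(2, ℤ)` is trivial (`S ^ 4 = 1`, `T` is parabolic, `S` and `T` generate), so by the
Eichler–Shimura statement `S21` the space `S₂(Γ₀(1))` is zero.  Consequently a level `N > 0`
carrying a normalized eigenform satisfies `1 < N`.
-/

set_option autoImplicit false

namespace Fermat.Agent.S41.H49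

open scoped MatrixGroups
open Matrix CongruenceSubgroup

/-- Every element of `SL(2, ℤ)` lies in `Γ₀(1)`. -/
theorem mem_Gamma0_one (g : SL(2, ℤ)) : g ∈ Gamma0 1 := by
  rw [Gamma0_mem]
  exact Subsingleton.elim _ _

/-- A parabolic complex character of `Γ₀(1)` vanishes. -/
theorem parabolicHom_level_one_eq_zero (φ : Additive (Gamma0 1) →+ ℂ)
    (hφ : ModularCurve.Period.IsParabolicHom (Gamma0 1) φ) : φ = 0 := by
  -- transport to a function on `SL(2, ℤ)`
  set ψ : SL(2, ℤ) → ℂ := fun g => φ (Additive.ofMul ⟨g, mem_Gamma0_one g⟩) with hψ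
  have hmul : ∀ a b, ψ (a * b) = ψ a + ψ b := by
    intro a b
    have : (⟨a * b, mem_Gamma0_one (a * b)⟩ : Gamma0 1)
        = ⟨a, mem_Gamma0_one a⟩ * ⟨b, mem_Gamma0_one b⟩ := rfl
    simp only [hψ]
    rw [this, ofMul_mul, map_add]
  have hone : ψ 1 = 0 := by
    have h := hmul 1 1
    rw [mul_one] at h
    linear_combination -h
  have hinv : ∀ a, ψ a⁻¹ = - ψ a := by
    intro a
    have h := hmul a a⁻¹
    rw [mul_inv_cancel, hone] at h
    linear_combination -h
  have hT : ψ ModularGroup.T = 0 := by
    apply hφ ⟨ModularGroup.T, mem_Gamma0_one _⟩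
    simp [ModularGroup.T, Matrix.trace_fin_two]
  have hS : ψ ModularGroup.S = 0 := by
    have h4 : (ModularGroup.S : SL(2, ℤ)) * ModularGroup.S * (ModularGroup.S * ModularGroup.S) = 1 := by
      ext i j
      fin_cases i <;> fin_cases j <;> simp [ModularGroup.S, Matrix.mul_apply, Fin.sum_univ_two]
    have h := hmul (ModularGroup.S * ModularGroup.S) (ModularGroup.S * ModularGroup.S)
    rw [h4, hone, hmul] at h
    linear_combination -(1 / 4 : ℂ) * h
  have hall : ∀ g : SL(2, ℤ), ψ g = 0 := by
    intro g
    have hg : g ∈ Subgroup.closure ({ModularGroup.S, ModularGroup.T} : Set SL(2, ℤ)) := by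
      rw [SpecialLinearGroup.SL2Z_generators]
      exact Subgroup.mem_top g
    induction hg using Subgroup.closure_induction with
    | mem x hx =>
      rcases hx with rfl | rfl
      · exact hS
      · exact hT
    | one => exact hone
    | mul x y _ _ hx hy => rw [hmul, hx, hy, add_zero]
    | inv x _ hx => rw [hinv, hx, neg_zero]
  ext γ
  have h := hall (γ : SL(2, ℤ))
  simpa [hψ] using h

/-- The parabolic complex characters of `Γ₀(1)` form the zero module. -/
theorem parabolicHoms_level_one :
    ModularCurve.Period.parabolicHoms ℂ (Gamma0 1) ℂ = ⊥ := by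
  rw [eq_bot_iff]
  intro φ hφ
  rw [Submodule.mem_bot]
  exact parabolicHom_level_one_eq_zero φ hφ

/-- There is no nonzero cusp form of weight `2` and level `1`. -/
theorem cuspForm_level_one_eq_zero (f : CuspForm (Gamma0 1) 2) : f = 0 := by
  obtain ⟨hinj, hrange⟩ := Fermat.Agent.S21.result 1
  have hmem : ModularCurve.periodHomPair 1 (f, 0)
      ∈ ModularCurve.Period.parabolicHoms ℂ (Gamma0 1) ℂ := by
    rw [← hrange]
    exact LinearMap.mem_range_self _ _
  rw [parabolicHoms_level_one, Submodule.mem_bot] at hmem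
  have h0 : ModularCurve.periodHomPair 1 (f, 0) = ModularCurve.periodHomPair 1 (0, 0) := by
    rw [hmem]
    exact (map_zero _).symm
  have := hinj h0
  exact (Prod.ext_iff.mp this).1

/-- A positive level carrying a normalized eigenform of weight `2` is at least `2`. -/
theorem one_lt_level {N : ℕ} (hN : 0 < N) (f : CuspForm (Gamma0 N) 2)
    (hf : f.IsNormalizedEigenform) : 1 < N := by
  by_contra hlt
  have h1 : N = 1 := by omega
  subst h1
  exact hf.ne_zero (cuspForm_level_one_eq_zero f)

end Fermat.Agent.S41.H49
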