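import Fermat.Agent.S13.LadderPt_helper75

/-!
# S41, node (E0), part 2 (helper65): exactly `n²` points of odd order dividing `n` on
`Y² = X³ + a X² + b X` over an algebraically closed field of characteristic zero

Lower bound: with `X = ladX n`, `Z = ladZ n` (so that `x(nP) = X(x)/Z(x)`), for all but finitely
many `t` the monic polynomial `X - t Z` of degree `n²` has `n²` distinct roots, each of which is
the `x`-coordinate of a point `P` with `n P = ± Q` (`Q` a fixed point above `t`).  After flipping
signs the differences `P - P₁` are `n²` distinct points killed by `n`.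
The upper bound is the landed `H75.torsion_finite_card_le`.
-/

set_option autoImplicit false

namespace Fermat.Agent.S41.H65

open Polynomial WeierstrassCurve WeierstrassCurve.Affine
open Fermat.Agent.S13.H75

section Poly

variable {K : Type*} [Field K]

/-- A common root of `X - t Z` and of its derivative is a root of the Wronskian. -/
lemma wr_eval_eq_zero {X Z : K[X]} {t x : K} (h0 : (X - C t * Z).eval x = 0)
    (h1 : (derivative (X - C t * Z)).eval x = 0) :
    (derivative X * Z - X * derivative Z).eval x = 0 := by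
  simp only [eval_sub, eval_mul, eval_C, derivative_sub, derivative_mul, derivative_C, zero_mul,
    zero_add] at h0 h1 ⊢
  linear_combination (Z.eval x) * h1 - (derivative Z).eval x * h0

/-- The Wronskian of a monic `X` and a `Z` of degree one less is not zero (any characteristic):
its coefficient of degree `2 deg Z` is the leading coefficient of `Z`. -/
lemma wr_ne_zero {X Z : K[X]} (hX : X.Monic) (hdeg : X.natDegree = Z.natDegree + 1)
    (hd : 1 ≤ Z.natDegree) : derivative X * Z - X * derivative Z ≠ 0 := by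
  intro h0
  set d := Z.natDegree with hd'
  have hZ0 : Z ≠ 0 := by
    intro h
    rw [h, natDegree_zero] at hd'
    omega
  have hZ : Z.coeff d ≠ 0 := by
    rw [hd']
    exact leadingCoeff_ne_zero.mpr hZ0
  have hX1 : X.coeff (d + 1) = 1 := by
    rw [← hdeg]
    exact hX.coeff_natDegree
  have hdX : (derivative X).natDegree ≤ d := by
    have := natDegree_derivative_le X
    omega
  have hdZ : (derivative Z).natDegree ≤ d - 1 := natDegree_derivative_le Z
  have c1 : (derivative X * Z).coeff (d + d) = ((d : K) + 1) * Z.coeff d := by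
    rw [coeff_mul_add_eq_of_natDegree_le hdX le_rfl, coeff_derivative, hX1]
    ring
  have c2 : (X * derivative Z).coeff (d + 1 + (d - 1)) = (d : K) * Z.coeff d := by
    rw [coeff_mul_add_eq_of_natDegree_le hdeg.le hdZ, coeff_derivative, hX1]
    have e : d - 1 + 1 = d := by omega
    rw [e]
    have e' : ((d - 1 : ℕ) : K) + 1 = (d : K) := by
      have : ((d - 1 + 1 : ℕ) : K) = (d : K) := by rw [e]
      rw [← this]
      push_cast
      ring
    rw [e']
    ring
  have e2 : d + d = d + 1 + (d - 1) := by omega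
  have key : (derivative X * Z - X * derivative Z).coeff (d + d) = Z.coeff d := by
    rw [coeff_sub, c1, e2, c2]
    ring
  rw [h0, coeff_zero] at key
  exact hZ key.symm

/-- Over an algebraically closed field, a polynomial without a root in common with its
derivative has as many distinct roots as its degree. -/
lemma card_roots_toFinset_of_noCommonRoot [IsAlgClosed K] [DecidableEq K] {F : K[X]}
    (hF : F ≠ 0) (h : ∀ x, F.eval x = 0 → (derivative F).eval x ≠ 0) :
    F.roots.toFinset.card = F.natDegree := by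
  have hnd : F.roots.Nodup := by
    rw [Multiset.nodup_iff_count_le_one]
    intro a
    rw [count_roots]
    by_contra hlt
    rw [not_le] at hlt
    have h' := (one_lt_rootMultiplicity_iff_isRoot hF).mp hlt
    exact h a h'.1 h'.2
  rw [Multiset.toFinset_card_of_nodup hnd]
  exact IsAlgClosed.card_roots_eq_natDegree

end Poly

section Leg

variable {K : Type*} [Field K] [IsAlgClosed K] {W : WeierstrassCurve K}

/-- Over an algebraically closed field every `x` is the `x`-coordinate of a point. -/
lemma exists_point_of_x (h1 : W.a₁ = 0) (h3 : W.a₃ = 0) (h6 : W.a₆ = 0) (hΔ : W.Δ ≠ 0) (x : K) :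
    ∃ y, W.toAffine.Nonsingular x y := by
  obtain ⟨y, hy⟩ := IsAlgClosed.exists_pow_nat_eq (x ^ 3 + W.a₂ * x ^ 2 + W.a₄ * x)
    (n := 2) two_pos
  refine ⟨y, (equation_iff_nonsingular_of_Δ_ne_zero hΔ).mp ?_⟩
  rw [equation_iff, h1, h3, h6]
  linear_combination hy

variable [DecidableEq K]

/-- `ladX n` and `ladZ n` have no common root `x ≠ 0`. -/
lemma lad_no_common (h1 : W.a₁ = 0) (h3 : W.a₃ = 0) (h6 : W.a₆ = 0) (hΔ : W.Δ ≠ 0) (n : ℕ)
    {x : K} (hx : x ≠ 0) :
    ¬ ((ladX W.a₂ W.a₄ n).eval x = 0 ∧ (ladZ W.a₂ W.a₄ n).eval x = 0) := by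
  rintro ⟨hX, hZ⟩
  obtain ⟨y, hy⟩ := exists_point_of_x h1 h3 h6 hΔ x
  obtain ⟨c, hc, e1, e2⟩ := lad_spec h1 h3 h6 hΔ hy hx n
  rw [hX] at e1
  rw [hZ] at e2
  have p1 : px (n • Point.some x y hy) = 0 := by
    rcases mul_eq_zero.mp e1.symm with h | h
    · exact absurd h hc
    · exact h
  have p2 : pz (n • Point.some x y hy) = 0 := by
    rcases mul_eq_zero.mp e2.symm with h | h
    · exact absurd h hc
    · exact h
  rcases point_cases (n • Point.some x y hy) with h | ⟨x', y', h', h⟩
  · rw [h, px_zero] at p1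
    exact one_ne_zero p1
  · rw [h, pz_some] at p2
    exact one_ne_zero p2

variable [CharZero K]

/-- **Lower bound**: `n²` distinct points killed by an odd `n ≥ 3`. -/
theorem exists_torsion_finset (h1 : W.a₁ = 0) (h3 : W.a₃ = 0) (h6 : W.a₆ = 0) (hΔ : W.Δ ≠ 0)
    {n : ℕ} (hn : Odd n) (hn3 : 3 ≤ n) :
    ∃ s : Finset W.toAffine.Point, s.card = n ^ 2 ∧ ∀ P ∈ s, n • P = 0 := by
  classical
  set X := ladX W.a₂ W.a₄ n with hXdef
  set Z := ladZ W.a₂ W.a₄ n with hZdef
  have hXm : X.Monic := ladX_monic _ _ n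
  have hXd : X.natDegree = n ^ 2 := natDegree_ladX _ _ n
  have hZd : Z.natDegree + 1 = n ^ 2 := natDegree_ladZ_add_one _ _ (by omega)
  have hn9 : 9 ≤ n ^ 2 := by nlinarith
  have hZpos : 1 ≤ Z.natDegree := by omega
  set Wr := derivative X * Z - X * derivative Z with hWr
  have hWr0 : Wr ≠ 0 := wr_ne_zero hXm (by omega) hZpos
  -- the bad set
  set B : Finset K := insert 0 (Wr.roots.toFinset.image fun x => X.eval x / Z.eval x) with hB
  obtain ⟨t, ht⟩ := Infinite.exists_notMem_finset B
  have ht0 : t ≠ 0 := fun h => ht (by rw [h, hB]; exact Finset.mem_insert_self _ _)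
  set F := X - C t * Z with hF
  have hlt : (C t * Z).natDegree < X.natDegree := by
    calc (C t * Z).natDegree ≤ Z.natDegree := natDegree_C_mul_le _ _
      _ < X.natDegree := by omega
  have hFm : F.Monic := hXm.sub_of_left (degree_lt_degree hlt)
  have hFd : F.natDegree = n ^ 2 := by
    rw [hF, natDegree_sub_eq_left_of_natDegree_lt hlt, hXd]
  have hb : W.a₄ ≠ 0 := leg_b_ne h1 h3 h6 hΔ
  have hX00 : X.eval 0 = 0 := (eval_zero_aux _ _ n).2 hn
  have hZ00 : Z.eval 0 ≠ 0 := (eval_zero_ne _ _ hb n).2 hn
  -- roots of `F` are nonzero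
  have hroot0 : ∀ x, F.eval x = 0 → x ≠ 0 := by
    rintro x hx rfl
    rw [hF, eval_sub, eval_mul, eval_C, hX00, zero_sub, neg_eq_zero] at hx
    rcases mul_eq_zero.mp hx with h | h
    · exact ht0 h
    · exact hZ00 h
  -- no root in common with the derivative
  have hsep : ∀ x, F.eval x = 0 → (derivative F).eval x ≠ 0 := by
    intro x hx hx'
    have hw : Wr.eval x = 0 := wr_eval_eq_zero hx hx'
    have hx0 := hroot0 x hx
    have hxe : X.eval x = t * Z.eval x := by
      rw [hF, eval_sub, eval_mul, eval_C, sub_eq_zero] at hx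
      exact hx
    have hZx : Z.eval x ≠ 0 := by
      intro hZx
      have hXx : X.eval x = 0 := by rw [hxe, hZx, mul_zero]
      exact lad_no_common h1 h3 h6 hΔ n hx0 ⟨hXx, hZx⟩
    apply ht
    rw [hB, Finset.mem_insert]
    right
    rw [Finset.mem_image]
    refine ⟨x, ?_, ?_⟩
    · rw [Multiset.mem_toFinset, mem_roots hWr0]
      exact hw
    · rw [hxe]
      field_simp
  have hcard : F.roots.toFinset.card = n ^ 2 := by
    rw [card_roots_toFinset_of_noCommonRoot hFm.ne_zero hsep, hFd]
  -- a point above `t`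
  obtain ⟨yt, hQ⟩ := exists_point_of_x h1 h3 h6 hΔ t
  set Q : W.toAffine.Point := Point.some t yt hQ with hQdef
  -- every root is the `x`-coordinate of a point `P` with `n P = Q`
  have key : ∀ x ∈ F.roots.toFinset,
      ∃ P : W.toAffine.Point, px P = x ∧ n • P = Q := by
    intro x hx
    rw [Multiset.mem_toFinset, mem_roots hFm.ne_zero] at hx
    have hx' : F.eval x = 0 := hx
    have hx0 := hroot0 x hx'
    obtain ⟨y, hy⟩ := exists_point_of_x h1 h3 h6 hΔ x
    obtain ⟨c, hc, e1, e2⟩ := lad_spec h1 h3 h6 hΔ hy hx0 n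
    have hcross : px (n • Point.some x y hy) * pz Q - px Q * pz (n • Point.some x y hy) = 0 := by
      rw [hF, eval_sub, eval_mul, eval_C, e1, e2] at hx'
      have h2 : c * (px (n • Point.some x y hy) - t * pz (n • Point.some x y hy)) = 0 := by
        linear_combination hx'
      rcases mul_eq_zero.mp h2 with h | h
      · exact absurd h hc
      · rw [hQdef, px_some, pz_some]
        linear_combination h
    rcases (cross_eq_zero_iff _ _).mp hcross with h | h
    · exact ⟨Point.some x y hy, rfl, h⟩
    · refine ⟨-Point.some x y hy, ?_, ?_⟩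
      · rw [Point.neg_some]
        rfl
      · rw [smul_neg, h, neg_neg]
  choose! f hf using key
  have hinj : Set.InjOn f F.roots.toFinset := by
    intro x hx x' hx' hxx'
    rw [← (hf x hx).1, ← (hf x' hx').1, hxx']
  obtain ⟨x₁, hx₁⟩ : F.roots.toFinset.Nonempty := by
    rw [← Finset.card_pos, hcard]
    omega
  refine ⟨F.roots.toFinset.image (fun x => f x - f x₁), ?_, ?_⟩
  · rw [Finset.card_image_of_injOn, hcard]
    intro x hx x' hx' h
    exact hinj hx hx' (sub_left_injective h)
  · intro P hP
    rw [Finset.mem_image] at hP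
    obtain ⟨x, hx, rfl⟩ := hP
    rw [smul_sub, (hf x hx).2, (hf x₁ hx₁).2, sub_self]

/-- **Torsion count** on `Y² = X³ + a X² + b X`: exactly `n²` points killed by an odd `n ≥ 3`. -/
theorem ncard_torsion_leg (h1 : W.a₁ = 0) (h3 : W.a₃ = 0) (h6 : W.a₆ = 0) (hΔ : W.Δ ≠ 0)
    {n : ℕ} (hn : Odd n) (hn3 : 3 ≤ n) :
    Set.Finite {P : W.toAffine.Point | n • P = 0} ∧
      Set.ncard {P : W.toAffine.Point | n • P = 0} = n ^ 2 := by
  obtain ⟨hfin, hle⟩ := torsion_finite_card_le h1 h3 h6 hΔ hn
  obtain ⟨s, hs, hsP⟩ := exists_torsion_finset h1 h3 h6 hΔ hn hn3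
  refine ⟨hfin, le_antisymm hle ?_⟩
  rw [← hs, ← Set.ncard_coe_finset s]
  exact Set.ncard_le_ncard (fun P hP => hsP P hP) hfin

end Leg

end Fermat.Agent.S41.H65
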