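import Fermat.Agent.S41.Shift_helper65
import Fermat.Agent.S41.TorsLeg_helper65

/-!
# S41, node (E0), part 3 (helper65): `#E[n] = n²`

For an elliptic curve over an algebraically closed field of characteristic zero and an odd
`n ≥ 3` there are exactly `n²` points killed by `n`; in particular
`Nat.card (Submodule.torsionBy ℤ (E⁄(AlgebraicClosure ℚ)).Point p) = p ^ 2` for an odd prime `p`.
-/

set_option autoImplicit false

namespace Fermat.Agent.S41.H65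

open Polynomial WeierstrassCurve WeierstrassCurve.Affine

section General

variable {K : Type*} [Field K]

/-- The model `Y² = X³ + a X² + b X + c` after `x = x' + r`, `y = y' - (a₁/2) x' - (a₃ + r a₁)/2`. -/
noncomputable def legModel (E : WeierstrassCurve K) (r : K) : WeierstrassCurve K where
  a₁ := E.a₁ + 2 * (-E.a₁ / 2)
  a₂ := E.a₂ - (-E.a₁ / 2) * E.a₁ + 3 * r - (-E.a₁ / 2) ^ 2
  a₃ := E.a₃ + r * E.a₁ + 2 * (-(E.a₃ + r * E.a₁) / 2)
  a₄ := E.a₄ - (-E.a₁ / 2) * E.a₃ + 2 * r * E.a₂ - (-(E.a₃ + r * E.a₁) / 2 + r * (-E.a₁ / 2)) * E.a₁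
    + 3 * r ^ 2 - 2 * (-E.a₁ / 2) * (-(E.a₃ + r * E.a₁) / 2)
  a₆ := E.a₆ + r * E.a₄ + r ^ 2 * E.a₂ + r ^ 3 - (-(E.a₃ + r * E.a₁) / 2) * E.a₃
    - (-(E.a₃ + r * E.a₁) / 2) ^ 2 - r * (-(E.a₃ + r * E.a₁) / 2) * E.a₁

lemma legModel_shift (E : WeierstrassCurve K) (r : K) :
    Shift E (legModel E r) r (-E.a₁ / 2) (-(E.a₃ + r * E.a₁) / 2) :=
  ⟨rfl, rfl, rfl, rfl, rfl⟩

lemma legModel_a₁ (h2 : (2 : K) ≠ 0) (E : WeierstrassCurve K) (r : K) : (legModel E r).a₁ = 0 := by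
  show E.a₁ + 2 * (-E.a₁ / 2) = 0
  field_simp
  ring

lemma legModel_a₃ (h2 : (2 : K) ≠ 0) (E : WeierstrassCurve K) (r : K) : (legModel E r).a₃ = 0 := by
  show E.a₃ + r * E.a₁ + 2 * (-(E.a₃ + r * E.a₁) / 2) = 0
  field_simp
  ring

lemma legModel_a₆ (h2 : (2 : K) ≠ 0) (E : WeierstrassCurve K) {r : K}
    (hr : 4 * r ^ 3 + E.b₂ * r ^ 2 + 2 * E.b₄ * r + E.b₆ = 0) : (legModel E r).a₆ = 0 := by
  show E.a₆ + r * E.a₄ + r ^ 2 * E.a₂ + r ^ 3 - (-(E.a₃ + r * E.a₁) / 2) * E.a₃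
    - (-(E.a₃ + r * E.a₁) / 2) ^ 2 - r * (-(E.a₃ + r * E.a₁) / 2) * E.a₁ = 0
  have h4 : (4 : K) ≠ 0 := by
    have e : (4 : K) = 2 * 2 := by norm_num
    rw [e]
    exact mul_ne_zero h2 h2
  simp only [WeierstrassCurve.b₂, WeierstrassCurve.b₄, WeierstrassCurve.b₆] at hr
  have key : E.a₆ + r * E.a₄ + r ^ 2 * E.a₂ + r ^ 3 - (-(E.a₃ + r * E.a₁) / 2) * E.a₃
      - (-(E.a₃ + r * E.a₁) / 2) ^ 2 - r * (-(E.a₃ + r * E.a₁) / 2) * E.a₁ =
      (4 * r ^ 3 + (E.a₁ ^ 2 + 4 * E.a₂) * r ^ 2 + 2 * (2 * E.a₄ + E.a₁ * E.a₃) * r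
        + (E.a₃ ^ 2 + 4 * E.a₆)) / 4 := by
    field_simp
    ring
  rw [key, hr, zero_div]

lemma exists_two_division_root [IsAlgClosed K] (h2 : (2 : K) ≠ 0) (E : WeierstrassCurve K) :
    ∃ r : K, 4 * r ^ 3 + E.b₂ * r ^ 2 + 2 * E.b₄ * r + E.b₆ = 0 := by
  have h4 : (4 : K) ≠ 0 := by
    have e : (4 : K) = 2 * 2 := by norm_num
    rw [e]
    exact mul_ne_zero h2 h2
  obtain ⟨r, hr⟩ := IsAlgClosed.exists_root
    (C (4 : K) * X ^ 3 + C E.b₂ * X ^ 2 + C (2 * E.b₄) * X + C E.b₆)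
    (by rw [degree_cubic h4]; decide)
  refine ⟨r, ?_⟩
  simpa using hr

variable [DecidableEq K] [IsAlgClosed K] [CharZero K]

/-- **Torsion count**: an elliptic curve over an algebraically closed field of characteristic
zero has exactly `n²` points killed by an odd `n ≥ 3`. -/
theorem ncard_torsion (E : WeierstrassCurve K) (hΔ : E.Δ ≠ 0) {n : ℕ} (hn : Odd n)
    (hn3 : 3 ≤ n) :
    Set.Finite {P : E.toAffine.Point | n • P = 0} ∧
      Set.ncard {P : E.toAffine.Point | n • P = 0} = n ^ 2 := by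
  have h2 : (2 : K) ≠ 0 := two_ne_zero
  obtain ⟨r, hr⟩ := exists_two_division_root h2 E
  have H := legModel_shift E r
  have hΔ₂ : (legModel E r).Δ ≠ 0 := by
    rw [H.Δ_eq]
    exact hΔ
  obtain ⟨hfin, hc⟩ := ncard_torsion_leg (W := legModel E r) (legModel_a₁ h2 E r)
    (legModel_a₃ h2 E r) (legModel_a₆ h2 E hr) hΔ₂ hn hn3
  have hset : {P : E.toAffine.Point | n • P = 0} =
      H.equiv '' {P : (legModel E r).toAffine.Point | n • P = 0} := by
    ext P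
    constructor
    · intro hP
      refine ⟨H.equiv.symm P, ?_, H.equiv.apply_symm_apply P⟩
      show n • H.equiv.symm P = 0
      rw [← map_nsmul, show n • P = 0 from hP, map_zero]
    · rintro ⟨P', hP', rfl⟩
      show n • H.equiv P' = 0
      rw [← map_nsmul, show n • P' = 0 from hP', map_zero]
  rw [hset]
  exact ⟨hfin.image _, by rw [Set.ncard_image_of_injective _ H.equiv.injective, hc]⟩

end General

section Rat

/-- **`#E[p] = p²`** over `ℚ̄`, for every decidable-equality instance on `ℚ̄` (the group law on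
points depends on it). -/
theorem card_torsion [DecidableEq (AlgebraicClosure ℚ)] (E : WeierstrassCurve ℚ) (hΔ : E.Δ ≠ 0)
    {p : ℕ} (hp : p.Prime) (hp2 : p ≠ 2) :
    Nat.card (Submodule.torsionBy ℤ (E⁄(AlgebraicClosure ℚ)).Point p) = p ^ 2 := by
  have hodd : Odd p := hp.odd_of_ne_two hp2
  have hp3 : 3 ≤ p := by
    have := hp.two_le
    omega
  have hΔ' : (E.map (algebraMap ℚ (AlgebraicClosure ℚ))).Δ ≠ 0 := by
    rw [WeierstrassCurve.map_Δ]
    exact (map_ne_zero_iff _ (algebraMap ℚ (AlgebraicClosure ℚ)).injective).mpr hΔ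
  obtain ⟨-, hc⟩ := ncard_torsion (E.map (algebraMap ℚ (AlgebraicClosure ℚ))) hΔ' hodd hp3
  rw [← hc, ← Nat.card_coe_set_eq]
  refine Nat.card_congr (Equiv.subtypeEquivRight fun P => ?_)
  rw [Submodule.mem_torsionBy_iff, natCast_zsmul]
  rfl

/-- The same for an elliptic curve. -/
theorem card_torsion_of_isElliptic [DecidableEq (AlgebraicClosure ℚ)] (E : WeierstrassCurve ℚ)
    [E.IsElliptic] {p : ℕ} (hp : p.Prime) (hp2 : p ≠ 2) :
    Nat.card (Submodule.torsionBy ℤ (E⁄(AlgebraicClosure ℚ)).Point p) = p ^ 2 :=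
  card_torsion E E.isUnit_Δ.ne_zero hp hp2

/-- Consumer form: `E[p]` is finite with more than `p` elements. -/
theorem lt_card_torsion [DecidableEq (AlgebraicClosure ℚ)] (E : WeierstrassCurve ℚ) (hΔ : E.Δ ≠ 0)
    {p : ℕ} (hp : p.Prime) (hp2 : p ≠ 2) :
    Finite (Submodule.torsionBy ℤ (E⁄(AlgebraicClosure ℚ)).Point p) ∧
      p < Nat.card (Submodule.torsionBy ℤ (E⁄(AlgebraicClosure ℚ)).Point p) := by
  have h := card_torsion E hΔ hp hp2
  have hpos : 0 < p ^ 2 := pow_pos hp.pos 2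
  refine ⟨Nat.finite_of_card_ne_zero (by rw [h]; exact hpos.ne'), ?_⟩
  rw [h]
  nlinarith [hp.two_le]

end Rat

end Fermat.Agent.S41.H65
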