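import Fermat.Agent.S41.NonEis_helper86
import Fermat.Agent.S41.TorsCard_helper65

/-!
# S41, node (E) with (E0) plugged in (helper86)

`nonEis_of_frobQuad` : for an elliptic curve `E / ℚ` with integral model `W` and an odd prime `p`
with `E[p]` irreducible, the Frobenius quadratic `FrobQuadStmt E W p` (node (E1)) implies that
`E[p]` is not Eisenstein: outside every finite set of primes there is a good prime `r` with
`a_r ≠ r + 1` modulo `p`.  ((E0) = the landed `H65.card_torsion_of_isElliptic`.)
-/

set_option autoImplicit false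

open WeierstrassCurve WeierstrassCurve.Affine WeierstrassCurve.Affine.Point

namespace Fermat.Agent.S41.H86

/-- **(E)** from (E1) alone. -/
theorem nonEis_of_frobQuad (E : WeierstrassCurve ℚ) [E.IsElliptic] {W : WeierstrassCurve ℤ}
    (hW : W.IsIntegralModelOf E) {p : ℕ} (hp : p.Prime) (hp2 : p ≠ 2)
    (hirr : GaloisRepIsIrreducible (K := AlgebraicClosure ℚ) ℚ E p)
    (hE1 : FrobQuadStmt E W p) : NonEisStmt W p :=
  nonEis_of E hW hp hirr (Fermat.Agent.S41.H65.card_torsion_of_isElliptic E hp hp2) hE1

end Fermat.Agent.S41.H86
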