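import Mathlib

/-!
# S41, node (E3): the group theory (helper86)

`false_of_quadratic` : let `V` be a finite nonzero `ZMod p`-module with a linear action of a
group `G` such that every `G`-stable submodule is `⊥` or `⊤`, and such that no single vector
spans `V`.  Then there is no character `χ : G →* (ZMod p)ˣ` with
`(g - 1) (g - χ g) = 0` on `V` for every `g`.

Proof: `ker χ` acts through unipotent operators of exponent `p`, hence through a `p`-group, hence
fixes a nonzero vector; the fixed space is stable, so `ker χ` acts trivially; so the operators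
commute, `ker (g - 1)` is stable for every `g`, hence every `g` acts as a scalar, and every line
is stable.
-/

set_option autoImplicit false
set_option linter.unusedSectionVars false

namespace Fermat.Agent.S41.H86

section Abstract

variable {p : ℕ} [hp : Fact p.Prime] {G V : Type*} [Group G] [AddCommGroup V]
  [Module (ZMod p) V] [DistribMulAction G V] [SMulCommClass G (ZMod p) V]

/-- a unipotent element `h` (with `(h - 1)² = 0`) fixes `h • v - v`. -/
lemma unip_smul_sub (h : G)
    (hh : ∀ v : V, h • h • v - ((1 : ZMod p) + 1) • h • v + (1 : ZMod p) • v = 0) (v : V) :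
    h • (h • v - v) = h • v - v := by
  have h1 := hh v
  rw [add_smul, one_smul, one_smul] at h1
  rw [smul_sub, ← sub_eq_zero, ← h1]
  abel

/-- powers of a unipotent element. -/
lemma unip_pow_smul (h : G)
    (hh : ∀ v : V, h • h • v - ((1 : ZMod p) + 1) • h • v + (1 : ZMod p) • v = 0) (k : ℕ)
    (v : V) : h ^ k • v = v + k • (h • v - v) := by
  induction k with
  | zero => simp
  | succ k ih =>
    have e : h • (k • (h • v - v)) = k • (h • (h • v - v)) :=
      map_nsmul (DistribSMul.toAddMonoidHom V h) k (h • v - v)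
    rw [pow_succ', mul_smul, ih, smul_add, e, unip_smul_sub (p := p) h hh v, succ_nsmul]
    abel

/-- a unipotent element has exponent `p`. -/
lemma unip_pow_prime_smul (h : G)
    (hh : ∀ v : V, h • h • v - ((1 : ZMod p) + 1) • h • v + (1 : ZMod p) • v = 0) (v : V) :
    h ^ p • v = v := by
  rw [unip_pow_smul (p := p) h hh p v, ZModModule.char_nsmul_eq_zero p, add_zero]

/-- a group acting through unipotent operators on a finite nonzero `ZMod p`-module fixes a
nonzero vector. -/
theorem exists_fixed_ne_zero [Finite V] [Nontrivial V] (H : Subgroup G)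
    (hH : ∀ h ∈ H, ∀ v : V,
      h • h • v - ((1 : ZMod p) + 1) • h • v + (1 : ZMod p) • v = 0) :
    ∃ v : V, v ≠ 0 ∧ ∀ h ∈ H, h • v = v := by
  classical
  let K : Subgroup (Equiv.Perm V) := H.map (MulAction.toPermHom G V)
  have hK : IsPGroup p K := by
    rintro ⟨σ, h, hh, rfl⟩
    refine ⟨1, ?_⟩
    apply Subtype.ext
    apply Equiv.ext
    intro v
    show ((MulAction.toPermHom G V h) ^ p ^ 1) v = v
    rw [pow_one, ← map_pow]
    exact unip_pow_prime_smul (p := p) h (hH h hh) v
  have hdvd : p ∣ Nat.card V := by
    obtain ⟨x, hx⟩ := exists_ne (0 : V)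
    have h1 : addOrderOf x ∣ p := addOrderOf_dvd_of_nsmul_eq_zero (ZModModule.char_nsmul_eq_zero p x)
    have h2 : addOrderOf x = p := by
      rcases (Nat.dvd_prime hp.out).mp h1 with h | h
      · exact absurd (AddMonoid.addOrderOf_eq_one_iff.mp h) hx
      · exact h
    rw [← h2]
    exact addOrderOf_dvd_natCard x
  have h0 : (0 : V) ∈ MulAction.fixedPoints K V := by
    rintro ⟨σ, h, hh, rfl⟩
    exact smul_zero h
  obtain ⟨b, hb, hb0⟩ := hK.exists_fixed_point_of_prime_dvd_card_of_fixed_point V hdvd h0
  exact ⟨b, fun h => hb0 h.symm, fun h hh => hb ⟨MulAction.toPermHom G V h, h, hh, rfl⟩⟩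

/-- **(E3)**. -/
theorem false_of_quadratic [Finite V] [Nontrivial V]
    (hirr : ∀ N : Submodule (ZMod p) V, (∀ g : G, ∀ x ∈ N, g • x ∈ N) → N = ⊥ ∨ N = ⊤)
    (hrank : ∀ v : V, ∃ w : V, ∀ k : ZMod p, w ≠ k • v)
    (χ : G →* (ZMod p)ˣ)
    (hquad : ∀ (g : G) (v : V),
      g • g • v - ((1 : ZMod p) + (χ g : ZMod p)) • g • v + (χ g : ZMod p) • v = 0) :
    False := by
  -- `ker χ` acts trivially
  have hker : ∀ h ∈ χ.ker, ∀ v : V, h • v = v := by
    obtain ⟨v₀, hv₀, hfix⟩ := exists_fixed_ne_zero (p := p) (V := V) χ.ker (fun h hh v => by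
      have h1 := hquad h v
      rw [MonoidHom.mem_ker.mp hh] at h1
      simpa using h1)
    let N : Submodule (ZMod p) V :=
      { carrier := {v | ∀ h ∈ χ.ker, h • v = v}
        add_mem' := fun {a b} ha hb h hh => by rw [smul_add, ha h hh, hb h hh]
        zero_mem' := fun h _ => smul_zero h
        smul_mem' := fun c v hv h hh => by rw [smul_comm, hv h hh] }
    have hN : ∀ g : G, ∀ x ∈ N, g • x ∈ N := by
      intro g x hx h hh
      have h' : g⁻¹ * h * g ∈ χ.ker := by
        have h2 := (inferInstance : χ.ker.Normal).conj_mem h hh g⁻¹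
        simpa using h2
      have h3 : (g⁻¹ * h * g) • x = x := hx _ h'
      calc h • g • x = g • ((g⁻¹ * h * g) • x) := by simp [mul_smul]
        _ = g • x := by rw [h3]
    rcases hirr N hN with hbot | htop
    · exfalso
      apply hv₀
      have h1 : v₀ ∈ N := hfix
      rw [hbot] at h1
      exact (Submodule.mem_bot _).mp h1
    · intro h hh v
      have h1 : v ∈ N := by rw [htop]; trivial
      exact h1 h hh
  -- the operators commute
  have hcomm : ∀ (g g' : G) (v : V), g • g' • v = g' • g • v := by
    intro g g' v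
    have hmem : (g' * g)⁻¹ * (g * g') ∈ χ.ker := by
      rw [MonoidHom.mem_ker, map_mul, map_inv, map_mul, map_mul, mul_comm (χ g') (χ g)]
      exact inv_mul_cancel _
    have h1 := hker _ hmem v
    have h2 : (g' * g) • (((g' * g)⁻¹ * (g * g')) • v) = (g * g') • v := by
      rw [← mul_smul, mul_inv_cancel_left]
    rw [h1] at h2
    rw [← mul_smul, ← mul_smul, h2]
  -- every `g` acts as a scalar
  have hscal : ∀ g : G, ∃ c : ZMod p, ∀ v : V, g • v = c • v := by
    intro g
    let N : Submodule (ZMod p) V :=
      { carrier := {v | g • v = v}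
        add_mem' := fun {a b} ha hb => by
          show g • (a + b) = a + b
          rw [smul_add, ha, hb]
        zero_mem' := smul_zero g
        smul_mem' := fun c v hv => by
          show g • c • v = c • v
          rw [smul_comm, hv] }
    have hN : ∀ g' : G, ∀ x ∈ N, g' • x ∈ N := by
      intro g' x hx
      show g • g' • x = g' • x
      rw [hcomm, hx]
    rcases hirr N hN with hbot | htop
    · refine ⟨(χ g : ZMod p), fun v => ?_⟩
      have hmem : g • v - (χ g : ZMod p) • v ∈ N := by
        show g • (g • v - (χ g : ZMod p) • v) = g • v - (χ g : ZMod p) • v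
        have h1 := hquad g v
        rw [add_smul, one_smul] at h1
        rw [smul_sub, smul_comm g (χ g : ZMod p) v, ← sub_eq_zero, ← h1]
        abel
      rw [hbot, Submodule.mem_bot, sub_eq_zero] at hmem
      exact hmem
    · refine ⟨1, fun v => ?_⟩
      have h1 : v ∈ N := by rw [htop]; trivial
      rw [one_smul]
      exact h1
  -- a stable line
  obtain ⟨v, hv⟩ := exists_ne (0 : V)
  have hline : ∀ g : G, ∀ x ∈ Submodule.span (ZMod p) {v},
      g • x ∈ Submodule.span (ZMod p) {v} := by
    intro g x hx
    obtain ⟨c, hc⟩ := hscal g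
    rw [hc]
    exact Submodule.smul_mem _ _ hx
  rcases hirr _ hline with hbot | htop
  · exact hv (Submodule.span_singleton_eq_bot.mp hbot)
  · obtain ⟨w, hw⟩ := hrank v
    have h1 : w ∈ Submodule.span (ZMod p) {v} := by rw [htop]; trivial
    obtain ⟨k, hk⟩ := Submodule.mem_span_singleton.mp h1
    exact hw k hk.symm

end Abstract

end Fermat.Agent.S41.H86
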