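import Mathlib
import Fermat.Prelude.Def_FLTPrelim_Modularity
import Fermat.Prelude.Def_EllipticCurve_FrobeniusTrace
import Fermat.Prelude.Def_GaloisRep_Residual
import Fermat.Prelude.Def_ExtCitation_KummerBridge
import Fermat.Agent.S29.Cyclo_helper44
import Fermat.Agent.S29.FrobDensity_helper86
import Fermat.Agent.S41.NonEisStmt_helper86
import Fermat.Agent.S41.NonEisGroup_helper86

/-!
# S41, node (E): `E[p]` irreducible ⟹ not Eisenstein (helper86)

`nonEis_of` : let `E / ℚ` be an elliptic curve with integral model `W`, `p` a prime such that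
`E[p]` (over `Qbar`) is irreducible and has `p ^ 2` elements (node (E0)), and assume the
Frobenius quadratic `FrobQuadStmt E W p` (node (E1)).  Then outside every finite set of primes
there is a good prime `r` with `a_r ≠ r + 1` modulo `p`.

Proof.  Otherwise every Frobenius lift `τ` at a good prime `ℓ` outside a finite set satisfies
`(τ - 1) (τ - ℓ) = 0` on `E[p]`, and `ℓ` is the value of the mod `p` cyclotomic character `χ`
at `τ`.  By Frobenius density in the form `S29.H86.frobenius_power`, every `g` agrees with a power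
`τ ^ j` on a finite Galois level through which both `E[p]` and `χ` factor; hence
`(g - 1) (g - χ g) = 0` on `E[p]` for EVERY `g`.  This contradicts `false_of_quadratic` (E3).
-/

set_option autoImplicit false

open WeierstrassCurve WeierstrassCurve.Affine WeierstrassCurve.Affine.Point

namespace Fermat.Agent.S41.H86

local notation "Qb" => AlgebraicClosure ℚ

/-- every point over `Qbar` is fixed by the fixing subgroup of a finite extension. -/
lemma exists_fixing_point {W' : WeierstrassCurve ℚ} (x : (W'⁄(AlgebraicClosure ℚ)).Point) :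
    ∃ F : IntermediateField ℚ Qb, FiniteDimensional ℚ F ∧
      ∀ σ : Qb ≃ₐ[ℚ] Qb, (∀ z ∈ F, σ z = z) → σ • x = x := by
  rcases x with _ | ⟨x₀, y₀, h⟩
  · exact ⟨⊥, inferInstance, fun σ _ => rfl⟩
  · have hint : ∀ z : Qb, IsIntegral ℚ z := fun z => by
      have h : (DivisionRing.toRatAlgebra : Algebra ℚ (AlgebraicClosure ℚ)) =
          AlgebraicClosure.instAlgebra ℚ := Subsingleton.elim _ _
      have hz : @IsIntegral ℚ Qb _ _ (AlgebraicClosure.instAlgebra ℚ) z :=
        (AlgebraicClosure.isAlgebraic ℚ).isAlgebraic z |>.isIntegral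
      convert hz
    refine ⟨IntermediateField.adjoin ℚ {x₀, y₀}, ?_, fun σ hσ => ?_⟩
    · exact IntermediateField.finiteDimensional_adjoin fun z _ => hint z
    · have hx : σ x₀ = x₀ := hσ x₀ (IntermediateField.subset_adjoin ℚ _ (by simp))
      have hy : σ y₀ = y₀ := hσ y₀ (IntermediateField.subset_adjoin ℚ _ (by simp))
      rw [algEquiv_smul_def, Point.map_some]
      congr 1

/-- a finite Galois level for `E[p]` and the mod `p` cyclotomic character. -/
theorem exists_level (E : WeierstrassCurve ℚ) (p : ℕ) [Fact p.Prime]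
    [Finite (Submodule.torsionBy ℤ (E⁄(AlgebraicClosure ℚ)).Point p)] :
    ∃ K : IntermediateField ℚ Qb, FiniteDimensional ℚ K ∧ IsGalois ℚ K ∧
      (∀ σ : Qb ≃ₐ[ℚ] Qb, (∀ x ∈ K, σ x = x) →
        ∀ v : Submodule.torsionBy ℤ (E⁄(AlgebraicClosure ℚ)).Point p, σ • v = v) ∧
      (∀ σ : Qb ≃ₐ[ℚ] Qb, (∀ x ∈ K, σ x = x) → ExtCitation.cycloChar p σ = 1) := by
  choose F hF hfix using fun v : Submodule.torsionBy ℤ (E⁄(AlgebraicClosure ℚ)).Point p =>
    exists_fixing_point (W' := E) v.1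
  obtain ⟨L, hL, hχ⟩ := Fermat.Agent.S29.H44.cycloChar_finiteLevel p
  have hF1 : FiniteDimensional ℚ ↥(⨆ v, F v) := IntermediateField.finiteDimensional_iSup_of_finite
  let K : IntermediateField ℚ Qb :=
    IntermediateField.normalClosure ℚ ↥((⨆ v, F v) ⊔ L) Qb
  have hLK : (⨆ v, F v) ⊔ L ≤ K := ((⨆ v, F v) ⊔ L).le_normalClosure
  have hKfin : FiniteDimensional ℚ K := normalClosure.is_finiteDimensional _ _ _
  have hgQ : IsGalois ℚ Qb := Fermat.Agent.S54.H86.isGalois_algebraicClosure_rat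
  have hKn : Normal ℚ K := normalClosure.normal _ _ _
  have hKg : IsGalois ℚ K := ⟨⟩
  refine ⟨K, hKfin, hKg, fun σ hσ v => ?_, fun σ hσ => ?_⟩
  · apply Subtype.ext
    exact hfix v σ fun z hz => hσ z (hLK (le_sup_left (a := ⨆ v, F v) (le_iSup F v hz)))
  · exact hχ σ fun z hz => hσ z (hLK (le_sup_right (b := L) hz))

/-- the discriminant of an integral model of an elliptic curve is nonzero. -/
lemma Δ_ne_zero_of_isIntegralModelOf (E : WeierstrassCurve ℚ) [E.IsElliptic]
    {W : WeierstrassCurve ℤ} (hW : W.IsIntegralModelOf E) : W.Δ ≠ 0 := by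
  obtain ⟨C, hC⟩ := hW
  intro h0
  have h1 : (C • E).Δ = 0 := by
    rw [hC, WeierstrassCurve.map_Δ, h0, _root_.map_zero]
  rw [WeierstrassCurve.variableChange_Δ] at h1
  have h2 : E.Δ ≠ 0 := E.isUnit_Δ.ne_zero
  have h3 : ((C.u⁻¹ : ℚˣ) : ℚ) ^ 12 ≠ 0 := pow_ne_zero _ (Units.ne_zero _)
  exact (mul_ne_zero h3 h2) h1

/-- polynomial bookkeeping: `(T - 1) (T - c) = 0` implies `(T ^ j - 1) (T ^ j - c ^ j) = 0`. -/
lemma pow_quad_factor {R A : Type*} [CommRing R] [Ring A] [Algebra R A] (T : A) (c : R)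
    (h : (T - 1) * (T - algebraMap R A c) = 0) (j : ℕ) :
    (T ^ j - 1) * (T ^ j - algebraMap R A (c ^ j)) = 0 := by
  have hq : Polynomial.aeval T ((Polynomial.X - 1) * (Polynomial.X - Polynomial.C c) :
      Polynomial R) = 0 := by
    simpa using h
  have hdvd : ((Polynomial.X - 1) * (Polynomial.X - Polynomial.C c) : Polynomial R) ∣
      (Polynomial.X ^ j - 1) * (Polynomial.X ^ j - Polynomial.C (c ^ j)) := by
    refine mul_dvd_mul ?_ ?_
    · simpa using sub_dvd_pow_sub_pow (Polynomial.X : Polynomial R) 1 j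
    · simpa using sub_dvd_pow_sub_pow (Polynomial.X : Polynomial R) (Polynomial.C c) j
  obtain ⟨Q, hQ⟩ := hdvd
  have h2 : Polynomial.aeval T ((Polynomial.X ^ j - 1) *
      (Polynomial.X ^ j - Polynomial.C (c ^ j)) : Polynomial R) = 0 := by
    rw [hQ, map_mul, hq, zero_mul]
  simpa using h2

/-- **(E)**: irreducible ⟹ non-Eisenstein, from (E0) (`hcard`) and (E1) (`hE1`). -/
theorem nonEis_of (E : WeierstrassCurve ℚ) [E.IsElliptic] {W : WeierstrassCurve ℤ}
    (hW : W.IsIntegralModelOf E) {p : ℕ} (hp : p.Prime)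
    (hirr : GaloisRepIsIrreducible (K := AlgebraicClosure ℚ) ℚ E p)
    (hcard : Nat.card (Submodule.torsionBy ℤ (E⁄(AlgebraicClosure ℚ)).Point p) = p ^ 2)
    (hE1 : FrobQuadStmt E W p) : NonEisStmt W p := by
  intro S0
  by_contra hcon
  push Not at hcon
  have : Fact p.Prime := ⟨hp⟩
  have : NeZero p := ⟨hp.ne_zero⟩
  obtain ⟨hnt, hirr'⟩ := hirr
  have : Nontrivial (Submodule.torsionBy ℤ (E⁄(AlgebraicClosure ℚ)).Point p) := hnt
  have : Finite (Submodule.torsionBy ℤ (E⁄(AlgebraicClosure ℚ)).Point p) :=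
    Nat.finite_of_card_ne_zero (by rw [hcard]; exact pow_ne_zero 2 hp.ne_zero)
  -- no vector spans `E[p]`
  have hrank : ∀ v : Submodule.torsionBy ℤ (E⁄(AlgebraicClosure ℚ)).Point p,
      ∃ w : Submodule.torsionBy ℤ (E⁄(AlgebraicClosure ℚ)).Point p,
        ∀ k : ZMod p, w ≠ k • v := by
    intro v
    by_contra h
    push Not at h
    have hsurj : Function.Surjective (fun k : ZMod p => k • v) := fun w => by
      obtain ⟨k, hk⟩ := h w
      exact ⟨k, hk.symm⟩
    have h1 := Nat.card_le_card_of_surjective _ hsurj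
    rw [hcard, Nat.card_zmod] at h1
    have h2 := hp.two_le
    nlinarith
  -- the level
  obtain ⟨K, hKfin, hKgal, hKV, hKχ⟩ := exists_level E p
  obtain ⟨S1, hS1⟩ := hE1
  have hΔ : W.Δ ≠ 0 := Δ_ne_zero_of_isIntegralModelOf E hW
  -- the quadratic relation for every `g`
  have hquad : ∀ (g : Qb ≃ₐ[ℚ] Qb)
      (v : Submodule.torsionBy ℤ (E⁄(AlgebraicClosure ℚ)).Point p),
      g • g • v - ((1 : ZMod p) + ((ExtCitation.cycloChar p g : (ZMod p)ˣ) : ZMod p)) • g • v
        + ((ExtCitation.cycloChar p g : (ZMod p)ˣ) : ZMod p) • v = 0 := by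
    intro g v
    obtain ⟨ℓ, hℓ, hℓS, A, hA, τ, hτ, j, hj⟩ :=
      Fermat.Agent.S29.H86.frobenius_power K g (S0 ∪ S1 ∪ {p} ∪ W.Δ.natAbs.primeFactors)
    have hℓS0 : ℓ ∉ S0 := fun h => hℓS (by simp [h])
    have hℓS1 : ℓ ∉ S1 := fun h => hℓS (by simp [h])
    have hℓp : ℓ ≠ p := fun h => hℓS (by simp [h])
    have hgood : W.IsGoodPrimeFor ℓ := by
      intro hdvd
      apply hℓS
      have h1 : ℓ ∣ W.Δ.natAbs := Int.natCast_dvd.mp hdvd
      have h2 : ℓ ∈ W.Δ.natAbs.primeFactors :=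
        Nat.mem_primeFactors.mpr ⟨hℓ, h1, Int.natAbs_ne_zero.mpr hΔ⟩
      simp [h2]
    have hap : ((W.apOfModel ℓ : ℤ) : ZMod p) = (ℓ : ZMod p) + 1 := hcon ℓ hℓ hℓS0 hgood
    have hχτ : ((ExtCitation.cycloChar p τ : (ZMod p)ˣ) : ZMod p) = (ℓ : ZMod p) :=
      Fermat.Agent.S29.H44.cycloChar_frob p A hℓ hℓp hA τ hτ
    -- the operator of `τ`
    set T : Module.End (ZMod p) (Submodule.torsionBy ℤ (E⁄(AlgebraicClosure ℚ)).Point p) :=
      galoisRepModuleEnd ℚ E p τ with hT
    have hTquad : (T - 1) * (T - algebraMap (ZMod p) _ (ℓ : ZMod p)) = 0 := by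
      ext w
      have hw : ((p : ℕ) : ℤ) • (w : (E⁄(AlgebraicClosure ℚ)).Point) = 0 :=
        (Submodule.mem_torsionBy_iff _ _).mp w.2
      have h1 := hS1 ℓ hℓ hℓS1 hgood A hA τ hτ (w : (E⁄(AlgebraicClosure ℚ)).Point) hw
      have h2 : τ • τ • w - (W.apOfModel ℓ) • τ • w + (ℓ : ℤ) • w = 0 := Subtype.ext h1
      rw [← Int.cast_smul_eq_zsmul (ZMod p) (W.apOfModel ℓ),
        ← Int.cast_smul_eq_zsmul (ZMod p) (ℓ : ℤ), hap, Int.cast_natCast] at h2
      simp only [Module.End.mul_apply, LinearMap.sub_apply, Module.End.one_apply,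
        Module.algebraMap_end_apply, hT, galoisRepModuleEnd_apply, map_sub, LinearMap.map_smul,
        LinearMap.zero_apply]
      rw [← h2, add_smul, one_smul]
      abel_nf
    have hTj := pow_quad_factor T (ℓ : ZMod p) hTquad j
    -- `g` acts as `τ ^ j`
    have hfix : ∀ x ∈ K, ((τ ^ j)⁻¹ * g) x = x := by
      intro x hx
      rw [AlgEquiv.mul_apply, ← hj x hx]
      exact (τ ^ j).symm_apply_apply x
    have hgv : ∀ w : Submodule.torsionBy ℤ (E⁄(AlgebraicClosure ℚ)).Point p,
        g • w = (T ^ j) w := by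
      intro w
      have h1 := hKV _ hfix w
      have h2 : g • w = (τ ^ j) • (((τ ^ j)⁻¹ * g) • w) := by
        rw [← mul_smul, mul_inv_cancel_left]
      rw [h2, h1, hT, ← map_pow, galoisRepModuleEnd_apply]
    have hχg : ((ExtCitation.cycloChar p g : (ZMod p)ˣ) : ZMod p) = (ℓ : ZMod p) ^ j := by
      have h1 := hKχ _ hfix
      have h2 : ExtCitation.cycloChar p g = ExtCitation.cycloChar p τ ^ j := by
        calc ExtCitation.cycloChar p g
            = ExtCitation.cycloChar p (τ ^ j * ((τ ^ j)⁻¹ * g)) := by rw [mul_inv_cancel_left]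
          _ = ExtCitation.cycloChar p τ ^ j := by rw [map_mul, h1, mul_one, map_pow]
      rw [h2, Units.val_pow_eq_pow_val, hχτ]
    have h3 := congrArg (fun f : Module.End (ZMod p)
      (Submodule.torsionBy ℤ (E⁄(AlgebraicClosure ℚ)).Point p) => f v) hTj
    simp only [Module.End.mul_apply, LinearMap.sub_apply, Module.End.one_apply,
      Module.algebraMap_end_apply, map_sub, LinearMap.map_smul, LinearMap.zero_apply] at h3
    rw [hχg, hgv, hgv, ← h3, add_smul, one_smul]
    abel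
  exact false_of_quadratic (p := p) (fun N hN => hirr' N hN) hrank (ExtCitation.cycloChar p) hquad

end Fermat.Agent.S41.H86
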