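import Mathlib

/-!
# (C-ADJ): Heisenberg lifts and the projection formula for the residue pairing

For additive characters `φ ψ : Γ → A` a *Heisenberg lift* is `F : Γ → A` with
`F (g h) = F g + F h + φ g * ψ h`.  The residue pairing of two parabolic characters is the sum of
`F` over the (classes of) primitive positive parabolic elements.  This file proves, for an
arbitrary group `Γ`, a subgroup `Γ'` of finite index given with coset representatives and the
transfer decomposition `al x * γ = i' (g' γ x) * al (sig γ x)`: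

* `isHLift_coresLift`: a lift of `(res φ, ψ')` on `Γ'` pushes forward to a lift of
  `(φ, cores ψ')` on `Γ`;
* `sum_orbit_coresLift`: the part of the pushed-forward lift at `t` over a `σ_t`-orbit is the
  value of the original lift at `al x * t ^ e * (al x)⁻¹`;
* `residue_cores_eq`: the projection formula `E_Γ(φ, cores ψ') = E_Γ'(res φ, ψ')` for abstract
  cusp systems.
-/

namespace Fermat.Agent.S41.H17

open Finset

section lift

variable {Γ A : Type*} [Group Γ] [CommRing A]

/-- Heisenberg lift of a pair of additive characters. -/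
def IsHLift (φ ψ : Additive Γ →+ A) (F : Γ → A) : Prop :=
  ∀ g h : Γ, F (g * h) = F g + F h + φ (Additive.ofMul g) * ψ (Additive.ofMul h)

variable {φ ψ : Additive Γ →+ A} {F : Γ → A}

theorem addChar_one (φ : Additive Γ →+ A) : φ (Additive.ofMul (1 : Γ)) = 0 :=
  map_zero φ

theorem addChar_mul (φ : Additive Γ →+ A) (g h : Γ) :
    φ (Additive.ofMul (g * h)) = φ (Additive.ofMul g) + φ (Additive.ofMul h) :=
  map_add φ (Additive.ofMul g) (Additive.ofMul h)

theorem addChar_inv (φ : Additive Γ →+ A) (g : Γ) :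
    φ (Additive.ofMul g⁻¹) = - φ (Additive.ofMul g) :=
  map_neg φ (Additive.ofMul g)

theorem addChar_pow (φ : Additive Γ →+ A) (g : Γ) (n : ℕ) :
    φ (Additive.ofMul (g ^ n)) = n • φ (Additive.ofMul g) :=
  map_nsmul φ n (Additive.ofMul g)

theorem IsHLift.map_one (hF : IsHLift φ ψ F) : F 1 = 0 := by
  have h := hF 1 1
  rw [mul_one, addChar_one, zero_mul, add_zero] at h
  exact left_eq_add.mp h

theorem IsHLift.map_inv (hF : IsHLift φ ψ F) (g : Γ) :
    F g⁻¹ = - F g + φ (Additive.ofMul g) * ψ (Additive.ofMul g) := by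
  have h := hF g g⁻¹
  rw [mul_inv_cancel, hF.map_one, addChar_inv] at h
  linear_combination -h

/-- A lift is invariant under conjugation on elements killed by both characters. -/
theorem IsHLift.map_conj (hF : IsHLift φ ψ F) (g π : Γ) (hφ : φ (Additive.ofMul π) = 0)
    (hψ : ψ (Additive.ofMul π) = 0) : F (g * π * g⁻¹) = F π := by
  rw [hF (g * π) g⁻¹, hF g π, hF.map_inv, addChar_mul, addChar_inv, hφ, hψ]
  ring

end lift

section transfer

variable {Γ Γ' X A : Type*} [Group Γ] [Group Γ'] [CommRing A]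
variable (i' : Γ' →* Γ) (al : X → Γ) (sig : Γ → Equiv.Perm X) (g' : Γ → X → Γ')

/-- The transfer decomposition `al x * γ = i' (g' γ x) * al (sig γ x)` for all `γ`, with the
`al x` in distinct cosets of `i' Γ'`. -/
structure IsTransferData : Prop where
  inj : Function.Injective i'
  coset : ∀ (x y : X) (a : Γ'), al x = i' a * al y → x = y
  dec : ∀ (γ : Γ) (x : X), al x * γ = i' (g' γ x) * al (sig γ x)

variable {i' al sig g'}

theorem IsTransferData.unique (h : IsTransferData i' al sig g') {γ : Γ} {x y : X} {a : Γ'}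
    (hxy : al x * γ = i' a * al y) : sig γ x = y ∧ g' γ x = a := by
  have h1 := h.dec γ x
  rw [hxy] at h1
  have h2 : al y = i' (a⁻¹ * g' γ x) * al (sig γ x) := by
    rw [map_mul, map_inv, mul_assoc, ← h1, inv_mul_cancel_left]
  have h3 : y = sig γ x := h.coset _ _ _ h2
  subst h3
  refine ⟨rfl, ?_⟩
  have h4 : i' a = i' (g' γ x) := mul_right_cancel h1
  exact (h.inj h4).symm

theorem IsTransferData.sig_mul (h : IsTransferData i' al sig g') (γ₁ γ₂ : Γ) (x : X) :
    sig (γ₁ * γ₂) x = sig γ₂ (sig γ₁ x) ∧ g' (γ₁ * γ₂) x = g' γ₁ x * g' γ₂ (sig γ₁ x) := by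
  apply h.unique
  rw [← mul_assoc, h.dec γ₁ x, mul_assoc, h.dec γ₂, map_mul, mul_assoc]

theorem IsTransferData.sig_one (h : IsTransferData i' al sig g') (x : X) :
    sig 1 x = x ∧ g' 1 x = 1 := by
  apply h.unique
  rw [mul_one, map_one, one_mul]

theorem IsTransferData.sig_pow (h : IsTransferData i' al sig g') (t : Γ) (k : ℕ) (x : X) :
    sig (t ^ k) x = (sig t ^ k) x := by
  induction k with
  | zero => rw [pow_zero, pow_zero, (h.sig_one x).1]; rfl
  | succ n ih =>
    rw [pow_succ, (h.sig_mul _ _ x).1, ih, pow_succ', Equiv.Perm.mul_apply]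

/-- `φ` on the transfer factors. -/
theorem IsTransferData.char_factor (h : IsTransferData i' al sig g') (φ : Additive Γ →+ A)
    (γ : Γ) (x : X) :
    φ (Additive.ofMul (i' (g' γ x))) =
      φ (Additive.ofMul (al x)) + φ (Additive.ofMul γ) - φ (Additive.ofMul (al (sig γ x))) := by
  have h1 := congrArg (fun z => φ (Additive.ofMul z)) (h.dec γ x)
  simp only [addChar_mul] at h1
  linear_combination -h1

/-- The push-forward of a Heisenberg lift along the transfer. -/
def coresLift [Fintype X] (al : X → Γ) (g' : Γ → X → Γ') (φ : Additive Γ →+ A)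
    (ψ' : Additive Γ' →+ A) (F' : Γ' → A) : Γ → A :=
  fun γ => ∑ x, (F' (g' γ x) - φ (Additive.ofMul (al x)) * ψ' (Additive.ofMul (g' γ x)))

/-- **(ADJ-1)** A lift of `(res φ, ψ')` on `Γ'` pushes forward to a lift of `(φ, cores ψ')`. -/
theorem isHLift_coresLift [Fintype X] (h : IsTransferData i' al sig g')
    (φ : Additive Γ →+ A) (φ' ψ' : Additive Γ' →+ A) (χ : Additive Γ →+ A)
    (hφ' : ∀ a : Γ', φ' (Additive.ofMul a) = φ (Additive.ofMul (i' a)))
    (hχ : ∀ γ : Γ, χ (Additive.ofMul γ) = ∑ x, ψ' (Additive.ofMul (g' γ x)))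
    {F' : Γ' → A} (hF' : IsHLift φ' ψ' F') : IsHLift φ χ (coresLift al g' φ ψ' F') := by
  intro γ₁ γ₂
  unfold coresLift
  rw [hχ γ₂, Finset.mul_sum]
  rw [← Equiv.sum_comp (sig γ₁)
    (fun y => F' (g' γ₂ y) - φ (Additive.ofMul (al y)) * ψ' (Additive.ofMul (g' γ₂ y)))]
  rw [← Equiv.sum_comp (sig γ₁)
    (fun y => φ (Additive.ofMul γ₁) * ψ' (Additive.ofMul (g' γ₂ y)))]
  rw [← Finset.sum_add_distrib, ← Finset.sum_add_distrib]
  apply Finset.sum_congr rfl
  intro x _
  rw [(h.sig_mul γ₁ γ₂ x).2, hF', addChar_mul, hφ', h.char_factor φ γ₁ x]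
  ring

/-- **(ADJ-2)** Residues along an orbit. -/
theorem sum_orbit_coresLift (h : IsTransferData i' al sig g')
    (φ : Additive Γ →+ A) (φ' ψ' : Additive Γ' →+ A)
    (hφ' : ∀ a : Γ', φ' (Additive.ofMul a) = φ (Additive.ofMul (i' a)))
    {F' : Γ' → A} (hF' : IsHLift φ' ψ' F') {t : Γ} (ht : φ (Additive.ofMul t) = 0) (x : X)
    {e : ℕ} (he : (sig t ^ e) x = x) {t' : Γ'} (ht' : i' t' = al x * t ^ e * (al x)⁻¹)
    (hψ : ψ' (Additive.ofMul t') = 0) :
    ∑ k ∈ Finset.range e, (F' (g' t ((sig t ^ k) x))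
      - φ (Additive.ofMul (al ((sig t ^ k) x))) * ψ' (Additive.ofMul (g' t ((sig t ^ k) x))))
      = F' t' := by
  -- partial products
  have hP : ∀ k : ℕ, g' (t ^ (k + 1)) x = g' (t ^ k) x * g' t ((sig t ^ k) x) := by
    intro k
    rw [pow_succ, (h.sig_mul _ _ x).2, h.sig_pow]
  have hφP : ∀ k : ℕ, φ' (Additive.ofMul (g' (t ^ k) x)) =
      φ (Additive.ofMul (al x)) - φ (Additive.ofMul (al ((sig t ^ k) x))) := by
    intro k
    rw [hφ', h.char_factor φ (t ^ k) x, addChar_pow, ht, smul_zero, add_zero, h.sig_pow]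
  have key : ∀ n : ℕ, ∑ k ∈ Finset.range n, (F' (g' t ((sig t ^ k) x))
      - φ (Additive.ofMul (al ((sig t ^ k) x))) * ψ' (Additive.ofMul (g' t ((sig t ^ k) x))))
      = F' (g' (t ^ n) x) - φ (Additive.ofMul (al x)) * ψ' (Additive.ofMul (g' (t ^ n) x)) := by
    intro n
    induction n with
    | zero =>
      rw [Finset.sum_range_zero, pow_zero, (h.sig_one x).2, hF'.map_one, addChar_one]
      ring
    | succ n ih =>
      rw [Finset.sum_range_succ, ih, hP n, hF', addChar_mul, hφP n]
      ring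
  have hte : g' (t ^ e) x = t' := by
    have h1 := h.dec (t ^ e) x
    rw [h.sig_pow, he] at h1
    apply h.inj
    rw [ht', h1, mul_inv_cancel_right]
  rw [key e, hte, hψ, mul_zero, sub_zero]

/-- **(ADJ-3)** The push-forward at `t` (with `φ t = 0`) as a sum over orbit representatives. -/
theorem coresLift_eq_sum_orbits [Fintype X] (h : IsTransferData i' al sig g')
    (φ : Additive Γ →+ A) (φ' ψ' : Additive Γ' →+ A)
    (hφ' : ∀ a : Γ', φ' (Additive.ofMul a) = φ (Additive.ofMul (i' a)))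
    {F' : Γ' → A} (hF' : IsHLift φ' ψ' F') {t : Γ} (ht : φ (Additive.ofMul t) = 0)
    {J : Type*} [Fintype J] (xr : J → X) (e : J → ℕ) (t' : J → Γ')
    (hbij : Function.Bijective (fun z : (Σ j : J, Fin (e j)) => (sig t ^ (z.2 : ℕ)) (xr z.1)))
    (hper : ∀ j, (sig t ^ e j) (xr j) = xr j)
    (ht' : ∀ j, i' (t' j) = al (xr j) * t ^ e j * (al (xr j))⁻¹)
    (hψ : ∀ j, ψ' (Additive.ofMul (t' j)) = 0) :
    coresLift al g' φ ψ' F' t = ∑ j, F' (t' j) := by
  unfold coresLift
  rw [← Function.Bijective.sum_comp hbij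
    (fun y => F' (g' t y) - φ (Additive.ofMul (al y)) * ψ' (Additive.ofMul (g' t y)))]
  rw [Fintype.sum_sigma]
  apply Finset.sum_congr rfl
  intro j _
  rw [← sum_orbit_coresLift h φ φ' ψ' hφ' hF' ht (xr j) (hper j) (ht' j) (hψ j)]
  rw [Finset.sum_range]

/-- **(ADJ-4)** The projection formula for abstract cusp systems: `π : C → Γ` and
`π' : C' → Γ'` are the primitive positive parabolic representatives; over each `c` the
`σ_{π c}`-orbits on `X` are indexed by the fibre of `p : C' → C`, the orbit of `c'` having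
representative `xr c'` and length `e c'`, and `al (xr c') * (π c) ^ e c' * (al (xr c'))⁻¹` is
`Γ'`-conjugate (by `δ c'`) to `π' c'`.  Then the residue sum of the pushed-forward lift over `C`
is the residue sum of the original lift over `C'`. -/
theorem residue_cores_eq [Fintype X] (h : IsTransferData i' al sig g')
    (φ : Additive Γ →+ A) (φ' ψ' : Additive Γ' →+ A)
    (hφ' : ∀ a : Γ', φ' (Additive.ofMul a) = φ (Additive.ofMul (i' a)))
    {F' : Γ' → A} (hF' : IsHLift φ' ψ' F')
    {C C' : Type*} [Fintype C] [Fintype C'] [DecidableEq C]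
    (π : C → Γ) (π' : C' → Γ') (p : C' → C) (xr : C' → X) (e : C' → ℕ) (δ : C' → Γ')
    (hφ : ∀ c, φ (Additive.ofMul (π c)) = 0) (hψ' : ∀ c', ψ' (Additive.ofMul (π' c')) = 0)
    (hconj : ∀ c', i' (δ c' * π' c' * (δ c')⁻¹)
      = al (xr c') * π (p c') ^ e c' * (al (xr c'))⁻¹)
    (hbij : ∀ c, Function.Bijective
      (fun z : (Σ c' : {c' // p c' = c}, Fin (e c'.1)) => (sig (π c) ^ (z.2 : ℕ)) (xr z.1.1)))
    (hper : ∀ c', (sig (π (p c')) ^ e c') (xr c') = xr c') :
    ∑ c, coresLift al g' φ ψ' F' (π c) = ∑ c', F' (π' c') := by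
  -- `φ'` kills `π' c'`
  have hφπ' : ∀ c', φ' (Additive.ofMul (π' c')) = 0 := by
    intro c'
    have h1 : φ' (Additive.ofMul (δ c' * π' c' * (δ c')⁻¹)) = 0 := by
      rw [hφ', hconj, addChar_mul, addChar_mul, addChar_inv, addChar_pow, hφ, smul_zero]
      ring
    rw [addChar_mul, addChar_mul, addChar_inv] at h1
    linear_combination h1
  have hψconj : ∀ c', ψ' (Additive.ofMul (δ c' * π' c' * (δ c')⁻¹)) = 0 := by
    intro c'
    rw [addChar_mul, addChar_mul, addChar_inv, hψ']
    ring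
  rw [← Fintype.sum_fiberwise p (fun c' => F' (π' c'))]
  apply Finset.sum_congr rfl
  intro c _
  rw [coresLift_eq_sum_orbits h φ φ' ψ' hφ' hF' (hφ c)
    (fun j : {c' // p c' = c} => xr j.1) (fun j => e j.1)
    (fun j => δ j.1 * π' j.1 * (δ j.1)⁻¹) (hbij c)
    (fun j => by have := hper j.1; rw [j.2] at this; exact this)
    (fun j => by have := hconj j.1; rw [j.2] at this; exact this)
    (fun j => hψconj j.1)]
  apply Finset.sum_congr rfl
  intro j _
  exact hF'.map_conj _ _ (hφπ' j.1) (hψ' j.1)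

end transfer

end Fermat.Agent.S41.H17
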