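import Mathlib
import Fermat.Agent.S41.PDRes_helper95

/-!
# The perfectness algebra of the residue pairing, in the `σ/ρ`-data of `H95.resE`, modulo `p`
(helper52, node (C-ALG) of S41, second seat)

`resF` is helper95's explicit residue expression `H95.resE` written for the integer data
`a = φ ∘ σ`, `r = φ ∘ ρ`, `a' = ψ ∘ σ`, `r' = ψ ∘ ρ` (`resE_eq_resF`).

`exists_cobdry_mod_of_orth`: let `S`, `R` be permutations of a finite set `X` with `S² = 1`,
`R³ = 1`, acting transitively, and let `(a, r)` be an integral parabolic cocycle datum.  If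
`resF a r a' r'` is divisible by `6 p` for all normalised parabolic test data
`a' = 0`, `r' = w ∘ R - w` (with a `T`-potential `u`, `T = S * R`), then `(a, r)` is a coboundary
modulo `p`: `a ≡ v ∘ S - v`, `r ≡ v ∘ R - v`.
-/

set_option autoImplicit false

namespace Fermat.Agent.S41.H52

open Finset

section defs

variable {X : Type*} [Fintype X] {C : Type*} [Fintype C]

/-- helper95's `resE` in function form (`a = φ ∘ σ`, `r = φ ∘ ρ`, `a' = ψ ∘ σ`, `r' = ψ ∘ ρ`). -/
def resF (S R : Equiv.Perm X) (base : C → X) (len : C → ℕ) (a r a' r' : X → ℤ) : ℤ :=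
  3 * ∑ x, a x * a' x
    - 2 * ∑ x, (r (R x) * r' x + r (R (R x)) * r' (R x) + r (R (R x)) * r' x)
    + 6 * ∑ x, a (R x) * r' x
    + 6 * ∑ c, ∑ k ∈ range (len c),
        (a (R (((S * R) ^ k) (base c))) + r (((S * R) ^ k) (base c)))
        * ∑ j ∈ range k, (a' (R (((S * R) ^ j) (base c))) + r' (((S * R) ^ j) (base c)))

theorem resE_eq_resF {Γ : Type*} [Group Γ] (φ ψ : Additive Γ →+ ℤ) (S R : Equiv.Perm X)
    (σ ρ : X → Γ) (base : C → X) (len : C → ℕ) :
    H95.resE φ ψ S R σ ρ base len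
      = resF S R base len (fun x => φ (Additive.ofMul (σ x)))
          (fun x => φ (Additive.ofMul (ρ x)))
          (fun x => ψ (Additive.ofMul (σ x))) (fun x => ψ (Additive.ofMul (ρ x))) := by
  simp only [H95.resE, resF, ofMul_mul, map_add]

end defs

section aug

variable {X : Type*} [Fintype X]

/-- **Augmentation lemma**: if `⟨S, R⟩` acts transitively on `X`, every integer function of
total sum `0` is of the form `(g - g ∘ S) + (h - h ∘ R)`. -/
theorem aug (S R : Equiv.Perm X)
    (hconn : ∀ P : X → Prop, (∀ x, P x → P (S x)) → (∀ x, P x → P (R x)) → ∀ x y, P x → P y)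
    (f : X → ℤ) (hf : ∑ x, f x = 0) :
    ∃ g h : X → ℤ, ∀ x, f x = (g x - g (S x)) + (h x - h (R x)) := by
  classical
  rcases isEmpty_or_nonempty X with hX | ⟨⟨x₀⟩⟩
  · exact ⟨0, 0, fun x => (hX.false x).elim⟩
  let Φ : ((X → ℤ) × (X → ℤ)) →+ (X → ℤ) :=
    { toFun := fun gh x => (gh.1 x - gh.1 (S x)) + (gh.2 x - gh.2 (R x))
      map_zero' := by funext x; simp
      map_add' := by
        intro u v; funext x
        simp only [Prod.fst_add, Prod.snd_add, Pi.add_apply]; ring }
  have hΦ : ∀ (g h : X → ℤ) (x : X), Φ (g, h) x = (g x - g (S x)) + (h x - h (R x)) :=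
    fun _ _ _ => rfl
  have hS1 : ∀ x, (Pi.single (S x) 1 - Pi.single x 1 : X → ℤ) ∈ Φ.range := by
    intro x
    refine ⟨(Pi.single (S x) 1, 0), ?_⟩
    funext z
    rw [hΦ]
    simp only [Pi.zero_apply, sub_self, add_zero, Pi.sub_apply, Pi.single_apply,
      S.apply_eq_iff_eq]
  have hR1 : ∀ x, (Pi.single (R x) 1 - Pi.single x 1 : X → ℤ) ∈ Φ.range := by
    intro x
    refine ⟨(0, Pi.single (R x) 1), ?_⟩
    funext z
    rw [hΦ]
    simp only [Pi.zero_apply, sub_self, zero_add, Pi.sub_apply, Pi.single_apply,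
      R.apply_eq_iff_eq]
  have hP : ∀ x, (Pi.single x 1 - Pi.single x₀ 1 : X → ℤ) ∈ Φ.range := by
    intro x
    refine hconn (fun x => (Pi.single x 1 - Pi.single x₀ 1 : X → ℤ) ∈ Φ.range) ?_ ?_ x₀ x ?_
    · intro x hx
      have := Φ.range.add_mem (hS1 x) hx
      simpa using this
    · intro x hx
      have := Φ.range.add_mem (hR1 x) hx
      simpa using this
    · simp
  have hfe : f = ∑ x, f x • (Pi.single x 1 - Pi.single x₀ 1 : X → ℤ) := by
    funext z
    simp only [Finset.sum_apply, Pi.smul_apply, Pi.sub_apply, Pi.single_apply, smul_eq_mul,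
      mul_sub, mul_ite, mul_one, mul_zero, Finset.sum_sub_distrib, Finset.sum_ite_eq,
      Finset.mem_univ, if_true]
    by_cases hz : z = x₀ <;> simp [hz, hf]
  have hmem : f ∈ Φ.range := by
    rw [hfe]
    exact Φ.range.sum_mem (fun x _ => Φ.range.zsmul_mem (hP x) (f x))
  obtain ⟨⟨g, h⟩, hgh⟩ := hmem
  exact ⟨g, h, fun x => by rw [← hgh]; exact hΦ g h x⟩

end aug

section eval

variable {X : Type*} [Fintype X] {C : Type*} [Fintype C]

omit [Fintype X] in
/-- the `T`-potential relation for the test datum attached to a solution `y` of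
`(1 + s)(1 - ρ²) y = 0`: with `w = y ∘ S - y ∘ R²` and `u = 2 y + w` one has
`w ∘ R - w = u ∘ T - u`. -/
theorem test_potential (S R : Equiv.Perm X) (hS : ∀ x, S (S x) = x)
    (hR : ∀ x, R (R (R x)) = x) (y : X → ℤ)
    (hy : ∀ x, y x - y (R (R x)) + y (S x) - y (R (R (S x))) = 0) (x : X) :
    (y (S (R x)) - y (R (R (R x)))) - (y (S x) - y (R (R x)))
      = (2 * y (S (R x)) + (y (S (S (R x))) - y (R (R (S (R x))))))
        - (2 * y x + (y (S x) - y (R (R x)))) := by
  have h := hy (R x)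
  rw [hR] at h
  rw [hR, hS]
  linear_combination (-1 : ℤ) * h

/-- the residue expression against a normalised test datum `a' = 0`, `r' = w ∘ R - w` with
`T`-potential `u`. -/
theorem resF_test (S R : Equiv.Perm X) (base : C → X) (len : C → ℕ)
    (hsum : ∀ f : X → ℤ, ∑ x, f x = ∑ c, ∑ k ∈ range (len c), f (((S * R) ^ k) (base c)))
    (a r : X → ℤ) (hr : ∀ x, r (R (R x)) + r (R x) + r x = 0)
    (hpar : ∀ c, ∑ k ∈ range (len c),
      (a (R (((S * R) ^ k) (base c))) + r (((S * R) ^ k) (base c))) = 0)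
    (w u : X → ℤ) (hwu : ∀ x, w (R x) - w x = u (S (R x)) - u x) :
    resF S R base len a r 0 (fun x => w (R x) - w x)
      = -6 * ∑ x, r x * w x + 6 * (∑ x, a x * w x - ∑ x, a (R x) * w x)
        + 6 * ∑ x, (a (R x) + r x) * u x := by
  -- the `R`-triple term
  have hT1 : ∑ x, (r (R x) * (w (R x) - w x) + r (R (R x)) * (w (R (R x)) - w (R x))
      + r (R (R x)) * (w (R x) - w x)) = 3 * ∑ x, r x * w x := by
    have e1 : ∑ x, r (R x) * w (R x) = ∑ x, r x * w x :=
      Equiv.sum_comp R (fun x => r x * w x)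
    have e2 : ∑ x, r (R (R x)) * w (R (R x)) = ∑ x, r x * w x :=
      Equiv.sum_comp (R.trans R) (fun x => r x * w x)
    have e3 : ∀ x, r (R x) * (w (R x) - w x) + r (R (R x)) * (w (R (R x)) - w (R x))
        + r (R (R x)) * (w (R x) - w x)
        = r (R x) * w (R x) + r (R (R x)) * w (R (R x)) + r x * w x := by
      intro x
      linear_combination (- w x) * hr x
    rw [Finset.sum_congr rfl (fun x _ => e3 x), Finset.sum_add_distrib, Finset.sum_add_distrib,
      e1, e2]
    ring
  -- the `a ∘ R` term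
  have hT2 : ∑ x, a (R x) * (w (R x) - w x) = ∑ x, a x * w x - ∑ x, a (R x) * w x := by
    have e1 : ∑ x, a (R x) * w (R x) = ∑ x, a x * w x :=
      Equiv.sum_comp R (fun x => a x * w x)
    rw [← e1, ← Finset.sum_sub_distrib]
    exact Finset.sum_congr rfl (fun x _ => by ring)
  -- the cusp term
  have htel : ∀ (c : C) (k : ℕ), ∑ j ∈ range k,
      ((0 : X → ℤ) (R (((S * R) ^ j) (base c)))
        + (w (R (((S * R) ^ j) (base c))) - w (((S * R) ^ j) (base c))))
      = u (((S * R) ^ k) (base c)) - u (base c) := by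
    intro c k
    induction k with
    | zero => simp
    | succ k ih =>
      rw [Finset.sum_range_succ, ih, pow_succ', Equiv.Perm.mul_apply, Equiv.Perm.mul_apply,
        Pi.zero_apply, zero_add, hwu]
      ring
  have hT3 : ∑ c, ∑ k ∈ range (len c),
      (a (R (((S * R) ^ k) (base c))) + r (((S * R) ^ k) (base c)))
        * ∑ j ∈ range k, ((0 : X → ℤ) (R (((S * R) ^ j) (base c)))
          + (w (R (((S * R) ^ j) (base c))) - w (((S * R) ^ j) (base c))))
      = ∑ x, (a (R x) + r x) * u x := by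
    rw [hsum (fun x => (a (R x) + r x) * u x)]
    refine Finset.sum_congr rfl (fun c _ => ?_)
    have e1 : ∑ k ∈ range (len c),
        (a (R (((S * R) ^ k) (base c))) + r (((S * R) ^ k) (base c)))
          * ∑ j ∈ range k, ((0 : X → ℤ) (R (((S * R) ^ j) (base c)))
            + (w (R (((S * R) ^ j) (base c))) - w (((S * R) ^ j) (base c))))
        = ∑ k ∈ range (len c),
            (a (R (((S * R) ^ k) (base c))) + r (((S * R) ^ k) (base c)))
              * u (((S * R) ^ k) (base c))
          - (∑ k ∈ range (len c),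
            (a (R (((S * R) ^ k) (base c))) + r (((S * R) ^ k) (base c)))) * u (base c) := by
      rw [Finset.sum_mul, ← Finset.sum_sub_distrib]
      refine Finset.sum_congr rfl (fun k _ => ?_)
      rw [htel c k]
      ring
    rw [e1, hpar c, zero_mul, sub_zero]
  unfold resF
  rw [hT1, hT2, hT3]
  simp only [Pi.zero_apply, mul_zero, Finset.sum_const_zero]
  ring

/-- the residue expression against the test datum attached to `y`. -/
theorem resF_test_y (S R : Equiv.Perm X) (hS : ∀ x, S (S x) = x) (hR : ∀ x, R (R (R x)) = x)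
    (base : C → X) (len : C → ℕ)
    (hsum : ∀ f : X → ℤ, ∑ x, f x = ∑ c, ∑ k ∈ range (len c), f (((S * R) ^ k) (base c)))
    (a r : X → ℤ) (ha : ∀ x, a (S x) + a x = 0) (hr : ∀ x, r (R (R x)) + r (R x) + r x = 0)
    (hpar : ∀ c, ∑ k ∈ range (len c),
      (a (R (((S * R) ^ k) (base c))) + r (((S * R) ^ k) (base c))) = 0)
    (y : X → ℤ) (hy : ∀ x, y x - y (R (R x)) + y (S x) - y (R (R (S x))) = 0) :
    resF S R base len a r 0
        (fun x => (y (S (R x)) - y (R (R (R x)))) - (y (S x) - y (R (R x))))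
      = 6 * ∑ x, (2 * r x + a (R x) - a x) * y x := by
  have h := resF_test S R base len hsum a r hr hpar (fun x => y (S x) - y (R (R x)))
    (fun x => 2 * y x + (y (S x) - y (R (R x)))) (fun x => test_potential S R hS hR y hy x)
  beta_reduce at h
  rw [h]
  -- `⟨a, w⟩ = -⟨a, y⟩ - ⟨a ∘ R, y⟩`
  have e1 : ∑ x, a x * y (S x) = - ∑ x, a x * y x := by
    have e : ∑ x, a (S (S x)) * y (S x) = ∑ x, a (S x) * y x :=
      Equiv.sum_comp S (fun x => a (S x) * y x)
    rw [← Finset.sum_neg_distrib]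
    calc ∑ x, a x * y (S x) = ∑ x, a (S (S x)) * y (S x) :=
          Finset.sum_congr rfl (fun x _ => by rw [hS])
      _ = ∑ x, a (S x) * y x := e
      _ = ∑ x, -(a x * y x) :=
          Finset.sum_congr rfl (fun x _ => by linear_combination (y x) * ha x)
  have e2 : ∑ x, a x * y (R (R x)) = ∑ x, a (R x) * y x := by
    have e : ∑ x, a (R (R (R x))) * y (R (R x)) = ∑ x, a (R x) * y x :=
      Equiv.sum_comp (R.trans R) (fun x => a (R x) * y x)
    rw [← e]
    exact Finset.sum_congr rfl (fun x _ => by rw [hR])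
  have e3 : ∑ x, a x * (y (S x) - y (R (R x))) = - ∑ x, a x * y x - ∑ x, a (R x) * y x := by
    rw [← e1, ← e2, ← Finset.sum_sub_distrib]
    exact Finset.sum_congr rfl (fun x _ => by ring)
  have e4 : ∑ x, (a (R x) + r x) * (2 * y x + (y (S x) - y (R (R x))))
      = 2 * ∑ x, a (R x) * y x + ∑ x, a (R x) * (y (S x) - y (R (R x)))
        + 2 * ∑ x, r x * y x + ∑ x, r x * (y (S x) - y (R (R x))) := by
    simp only [Finset.mul_sum, ← Finset.sum_add_distrib]
    exact Finset.sum_congr rfl (fun x _ => by ring)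
  have e5 : ∑ x, (2 * r x + a (R x) - a x) * y x
      = 2 * ∑ x, r x * y x + ∑ x, a (R x) * y x - ∑ x, a x * y x := by
    simp only [Finset.mul_sum, ← Finset.sum_add_distrib, ← Finset.sum_sub_distrib]
    exact Finset.sum_congr rfl (fun x _ => by ring)
  rw [e3, e4, e5]
  ring

end eval

section modp

variable {X : Type*} [Fintype X] {C : Type*} [Fintype C]

/-- **Lifting**: twice any solution modulo `p` of `(1 + s)(1 - ρ²) y = 0` is the reduction of an
integral solution. -/
theorem lift_sol (S R : Equiv.Perm X) (hS : ∀ x, S (S x) = x) (hR : ∀ x, R (R (R x)) = x)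
    (hconn : ∀ P : X → Prop, (∀ x, P x → P (S x)) → (∀ x, P x → P (R x)) → ∀ x y, P x → P y)
    (p : ℕ) (hp0 : p ≠ 0) (yb : X → ZMod p)
    (hyb : ∀ x, yb x - yb (R (R x)) + yb (S x) - yb (R (R (S x))) = 0) :
    ∃ y : X → ℤ, (∀ x, y x - y (R (R x)) + y (S x) - y (R (R (S x))) = 0) ∧
      ∀ x, ((y x : ℤ) : ZMod p) = 2 * yb x := by
  choose y₀ hy₀ using fun x => ZMod.intCast_surjective (yb x)
  have hdvd : ∀ x, (p : ℤ) ∣ y₀ x - y₀ (R (R x)) + y₀ (S x) - y₀ (R (R (S x))) := by
    intro x
    rw [← ZMod.intCast_zmod_eq_zero_iff_dvd]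
    push_cast
    rw [hy₀, hy₀, hy₀, hy₀]
    exact hyb x
  choose e he using hdvd
  have hpz : (p : ℤ) ≠ 0 := by exact_mod_cast hp0
  have heS : ∀ x, e (S x) = e x := by
    intro x
    have h1 := he (S x)
    have h2 := he x
    rw [hS] at h1
    have h3 : (p : ℤ) * e (S x) = p * e x := by rw [← h1, ← h2]; ring
    exact mul_left_cancel₀ hpz h3
  have hesum : ∑ x, e x = 0 := by
    have h1 : (p : ℤ) * ∑ x, e x = 0 := by
      rw [Finset.mul_sum, ← Finset.sum_congr rfl (fun x _ => he x), Finset.sum_sub_distrib,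
        Finset.sum_add_distrib, Finset.sum_sub_distrib]
      have e1 : ∑ x, y₀ (R (R x)) = ∑ x, y₀ x := Equiv.sum_comp (R.trans R) y₀
      have e2 : ∑ x, y₀ (S x) = ∑ x, y₀ x := Equiv.sum_comp S y₀
      have e3 : ∑ x, y₀ (R (R (S x))) = ∑ x, y₀ x := Equiv.sum_comp (S.trans (R.trans R)) y₀
      rw [e1, e2, e3]
      ring
    rcases mul_eq_zero.mp h1 with h | h
    · exact absurd h hpz
    · exact h
  obtain ⟨g, h, hgh⟩ := aug S R hconn e hesum
  refine ⟨fun x => 2 * y₀ x + p * h (R x), fun x => ?_, fun x => ?_⟩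
  · have h1 := he x
    have h2 := hgh x
    have h3 := hgh (S x)
    rw [hS] at h3
    have h4 := heS x
    simp only []
    rw [hR x, hR (S x)]
    linear_combination 2 * h1 + (p : ℤ) * h2 + (p : ℤ) * h3 - (p : ℤ) * h4
  · push_cast
    rw [hy₀, ZMod.natCast_self, zero_mul, add_zero]

/-- **Field step**: a vector orthogonal to the kernel of `D = (1 + s)(1 - ρ²)` over `ZMod p`
lies in the range of the adjoint `(1 - ρ)(1 + s)`. -/
theorem field_step (S R : Equiv.Perm X) (hS : ∀ x, S (S x) = x) (hR : ∀ x, R (R (R x)) = x)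
    (p : ℕ) [Fact p.Prime] (xb : X → ZMod p)
    (h : ∀ yb : X → ZMod p, (∀ x, yb x - yb (R (R x)) + yb (S x) - yb (R (R (S x))) = 0) →
      ∑ x, xb x * yb x = 0) :
    ∃ zb : X → ZMod p, ∀ x, xb x = (zb x + zb (S x)) - (zb (R x) + zb (S (R x))) := by
  classical
  let D : (X → ZMod p) →ₗ[ZMod p] (X → ZMod p) :=
    { toFun := fun yb x => yb x - yb (R (R x)) + yb (S x) - yb (R (R (S x)))
      map_add' := by intro u v; funext x; simp only [Pi.add_apply]; ring
      map_smul' := by
        intro c u; funext x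
        simp only [Pi.smul_apply, smul_eq_mul, RingHom.id_apply]; ring }
  have hD : ∀ (yb : X → ZMod p) (x : X),
      D yb x = yb x - yb (R (R x)) + yb (S x) - yb (R (R (S x))) := fun _ _ => rfl
  let lam : Module.Dual (ZMod p) (X → ZMod p) :=
    { toFun := fun yb => ∑ x, xb x * yb x
      map_add' := by
        intro u v; simp only [Pi.add_apply, mul_add, Finset.sum_add_distrib]
      map_smul' := by
        intro c u
        simp only [Pi.smul_apply, smul_eq_mul, RingHom.id_apply, Finset.mul_sum]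
        exact Finset.sum_congr rfl (fun x _ => by ring) }
  have hlamdef : ∀ yb : X → ZMod p, lam yb = ∑ x, xb x * yb x := fun _ => rfl
  have hlam : lam ∈ (LinearMap.ker D).dualAnnihilator := by
    rw [Submodule.mem_dualAnnihilator]
    intro yb hyb
    rw [hlamdef]
    refine h yb (fun x => ?_)
    rw [← hD, LinearMap.mem_ker.mp hyb]
    rfl
  rw [← LinearMap.range_dualMap_eq_dualAnnihilator_ker] at hlam
  obtain ⟨mu, hmu⟩ := hlam
  refine ⟨fun x => mu (Pi.single x 1), fun x => ?_⟩
  have h1 : lam (Pi.single x 1) = xb x := by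
    rw [hlamdef]
    simp [Pi.single_apply]
  have h2 : D (Pi.single x 1)
      = Pi.single x 1 - Pi.single (R x) 1 + Pi.single (S x) 1 - Pi.single (S (R x)) 1 := by
    funext z
    rw [hD]
    simp only [Pi.sub_apply, Pi.add_apply, Pi.single_apply]
    have e1 : (R (R z) = x) ↔ (z = R x) :=
      ⟨fun h => by rw [← h, hR], fun h => by rw [h, hR]⟩
    have e2 : (S z = x) ↔ (z = S x) := ⟨fun h => by rw [← h, hS], fun h => by rw [h, hS]⟩
    have e3 : (R (R (S z)) = x) ↔ (z = S (R x)) :=
      ⟨fun h => by rw [← h, hR, hS], fun h => by rw [h, hS, hR]⟩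
    simp only [e1, e2, e3]
  have h3 : lam (Pi.single x 1) = mu (D (Pi.single x 1)) := by
    rw [← hmu]
    rfl
  rw [← h1, h3, h2]
  simp only [map_sub, map_add]
  ring

/-- **Perfectness of the residue pairing modulo `p`, in the `σ/ρ`-data.**  If the integral
parabolic cocycle datum `(a, r)` has `resF a r 0 (w ∘ R - w)` divisible by `6 p` for all
normalised parabolic test data, then `(a, r)` is a coboundary modulo `p`. -/
theorem exists_cobdry_mod_of_orth (S R : Equiv.Perm X) (hS : ∀ x, S (S x) = x)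
    (hR : ∀ x, R (R (R x)) = x)
    (hconn : ∀ P : X → Prop, (∀ x, P x → P (S x)) → (∀ x, P x → P (R x)) → ∀ x y, P x → P y)
    (base : C → X) (len : C → ℕ)
    (hsum : ∀ f : X → ℤ, ∑ x, f x = ∑ c, ∑ k ∈ range (len c), f (((S * R) ^ k) (base c)))
    {p : ℕ} (hp : p.Prime) (hp2 : p ≠ 2)
    (a r : X → ℤ) (ha : ∀ x, a (S x) + a x = 0) (hr : ∀ x, r (R (R x)) + r (R x) + r x = 0)
    (hpar : ∀ c, ∑ k ∈ range (len c),
      (a (R (((S * R) ^ k) (base c))) + r (((S * R) ^ k) (base c))) = 0)
    (horth : ∀ w u : X → ℤ, (∀ x, w (R x) - w x = u (S (R x)) - u x) →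
      (6 * (p : ℤ)) ∣ resF S R base len a r 0 (fun x => w (R x) - w x)) :
    ∃ v : X → ℤ, (∀ x, (p : ℤ) ∣ a x - (v (S x) - v x)) ∧
      (∀ x, (p : ℤ) ∣ r x - (v (R x) - v x)) := by
  have : Fact p.Prime := ⟨hp⟩
  have h2ne : (2 : ZMod p) ≠ 0 := by
    intro h
    have h' : ((2 : ℕ) : ZMod p) = 0 := by exact_mod_cast h
    have hdvd : p ∣ 2 := (ZMod.natCast_eq_zero_iff 2 p).mp h'
    exact hp2 ((Nat.prime_dvd_prime_iff_eq hp Nat.prime_two).mp hdvd)
  -- orthogonality against integral solutions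
  have hort : ∀ y : X → ℤ, (∀ x, y x - y (R (R x)) + y (S x) - y (R (R (S x))) = 0) →
      (p : ℤ) ∣ ∑ x, (2 * r x + a (R x) - a x) * y x := by
    intro y hy
    have h1 := horth (fun x => y (S x) - y (R (R x)))
      (fun x => 2 * y x + (y (S x) - y (R (R x))))
      (fun x => test_potential S R hS hR y hy x)
    beta_reduce at h1
    rw [resF_test_y S R hS hR base len hsum a r ha hr hpar y hy] at h1
    exact (mul_dvd_mul_iff_left (by norm_num : (6 : ℤ) ≠ 0)).mp h1
  -- the field step
  obtain ⟨zb, hzb⟩ := field_step S R hS hR p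
    (fun x => ((2 * r x + a (R x) - a x : ℤ) : ZMod p)) (by
      intro yb hyb
      obtain ⟨y, hy, hy2⟩ := lift_sol S R hS hR hconn p hp.ne_zero yb hyb
      have h1 := hort y hy
      have h2 : ((∑ x, (2 * r x + a (R x) - a x) * y x : ℤ) : ZMod p) = 0 :=
        (ZMod.intCast_zmod_eq_zero_iff_dvd _ p).mpr h1
      rw [Int.cast_sum] at h2
      have h3 : (2 : ZMod p) * ∑ x, ((2 * r x + a (R x) - a x : ℤ) : ZMod p) * yb x = 0 := by
        rw [Finset.mul_sum, ← h2]
        refine Finset.sum_congr rfl (fun x _ => ?_)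
        rw [Int.cast_mul, hy2]
        ring
      rcases mul_eq_zero.mp h3 with h | h
      · exact absurd h h2ne
      · exact h)
  choose v hv using fun x =>
    ZMod.intCast_surjective ((2 : ZMod p)⁻¹ * (-(a x : ZMod p) - (zb x + zb (S x))))
  refine ⟨v, fun x => ?_, fun x => ?_⟩
  · rw [← ZMod.intCast_zmod_eq_zero_iff_dvd]
    push_cast
    rw [hv, hv, hS]
    have ha' : ((a (S x) : ℤ) : ZMod p) = - (a x : ZMod p) := by
      have := congrArg (Int.cast : ℤ → ZMod p) (ha x)
      push_cast at this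
      linear_combination this
    rw [ha']
    field_simp
    ring
  · rw [← ZMod.intCast_zmod_eq_zero_iff_dvd]
    push_cast
    rw [hv, hv]
    have hz := hzb x
    push_cast at hz
    field_simp
    linear_combination hz

end modp

section corollaries

variable {X : Type*} [Fintype X] {C : Type*} [Fintype C]

omit [Fintype X] in
/-- telescoping along a `T`-orbit (`T = S * R`) for a `T`-potential `u` of `w ∘ R - w`. -/
theorem sum_range_potential (S R : Equiv.Perm X) (w u : X → ℤ)
    (hwu : ∀ x, w (R x) - w x = u (S (R x)) - u x) (b : X) (k : ℕ) :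
    ∑ j ∈ range k, (w (R (((S * R) ^ j) b)) - w (((S * R) ^ j) b))
      = u (((S * R) ^ k) b) - u b := by
  induction k with
  | zero => simp
  | succ k ih =>
    rw [Finset.sum_range_succ, ih, pow_succ', Equiv.Perm.mul_apply, Equiv.Perm.mul_apply, hwu]
    ring

/-- `exists_cobdry_mod_of_orth` with the orthogonality hypothesis over ALL integral parabolic
cocycle data `(a', r')`. -/
theorem exists_cobdry_mod_of_orth' (S R : Equiv.Perm X) (hS : ∀ x, S (S x) = x)
    (hR : ∀ x, R (R (R x)) = x)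
    (hconn : ∀ P : X → Prop, (∀ x, P x → P (S x)) → (∀ x, P x → P (R x)) → ∀ x y, P x → P y)
    (base : C → X) (len : C → ℕ)
    (hsum : ∀ f : X → ℤ, ∑ x, f x = ∑ c, ∑ k ∈ range (len c), f (((S * R) ^ k) (base c)))
    (hper : ∀ c, ((S * R) ^ len c) (base c) = base c)
    {p : ℕ} (hp : p.Prime) (hp2 : p ≠ 2)
    (a r : X → ℤ) (ha : ∀ x, a (S x) + a x = 0) (hr : ∀ x, r (R (R x)) + r (R x) + r x = 0)
    (hpar : ∀ c, ∑ k ∈ range (len c),
      (a (R (((S * R) ^ k) (base c))) + r (((S * R) ^ k) (base c))) = 0)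
    (horth : ∀ a' r' : X → ℤ, (∀ x, a' (S x) + a' x = 0) →
      (∀ x, r' (R (R x)) + r' (R x) + r' x = 0) →
      (∀ c, ∑ k ∈ range (len c),
        (a' (R (((S * R) ^ k) (base c))) + r' (((S * R) ^ k) (base c))) = 0) →
      (6 * (p : ℤ)) ∣ resF S R base len a r a' r') :
    ∃ v : X → ℤ, (∀ x, (p : ℤ) ∣ a x - (v (S x) - v x)) ∧
      (∀ x, (p : ℤ) ∣ r x - (v (R x) - v x)) :=
  exists_cobdry_mod_of_orth S R hS hR hconn base len hsum hp hp2 a r ha hr hpar
    (fun w u hwu => horth 0 (fun x => w (R x) - w x) (fun x => by simp)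
      (fun x => by rw [hR]; ring)
      (fun c => by
        simp only [Pi.zero_apply, zero_add]
        rw [sum_range_potential S R w u hwu, hper, sub_self]))

/-- Consumer form in helper95's vocabulary: `φ : Γ → ℤ` with Schreier data `σ`, `ρ`.  If for
every normalised test datum `(0, w ∘ R - w)` (with `T`-potential `u`) there is a character `ψ`
realising it with `6 p ∣ resE φ ψ`, then the datum of `φ` is a coboundary modulo `p`. -/
theorem exists_cobdry_mod_of_resE {Γ : Type*} [Group Γ] (φ : Additive Γ →+ ℤ)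
    (S R : Equiv.Perm X) (hS : ∀ x, S (S x) = x) (hR : ∀ x, R (R (R x)) = x)
    (hconn : ∀ P : X → Prop, (∀ x, P x → P (S x)) → (∀ x, P x → P (R x)) → ∀ x y, P x → P y)
    (σ ρ : X → Γ) (base : C → X) (len : C → ℕ)
    (hsum : ∀ f : X → ℤ, ∑ x, f x = ∑ c, ∑ k ∈ range (len c), f (((S * R) ^ k) (base c)))
    {p : ℕ} (hp : p.Prime) (hp2 : p ≠ 2)
    (ha : ∀ x, φ (Additive.ofMul (σ (S x))) + φ (Additive.ofMul (σ x)) = 0)
    (hr : ∀ x, φ (Additive.ofMul (ρ (R (R x)))) + φ (Additive.ofMul (ρ (R x)))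
      + φ (Additive.ofMul (ρ x)) = 0)
    (hpar : ∀ c, φ (Additive.ofMul
      (H95.cuspProd (fun x => σ (R x) * ρ x) (S * R) (base c) (len c))) = 0)
    (horth : ∀ w u : X → ℤ, (∀ x, w (R x) - w x = u (S (R x)) - u x) →
      ∃ ψ : Additive Γ →+ ℤ, (∀ x, ψ (Additive.ofMul (σ x)) = 0) ∧
        (∀ x, ψ (Additive.ofMul (ρ x)) = w (R x) - w x) ∧
        (6 * (p : ℤ)) ∣ H95.resE φ ψ S R σ ρ base len) :
    ∃ v : X → ℤ, (∀ x, (p : ℤ) ∣ φ (Additive.ofMul (σ x)) - (v (S x) - v x)) ∧
      (∀ x, (p : ℤ) ∣ φ (Additive.ofMul (ρ x)) - (v (R x) - v x)) := by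
  refine exists_cobdry_mod_of_orth S R hS hR hconn base len hsum hp hp2
    (fun x => φ (Additive.ofMul (σ x))) (fun x => φ (Additive.ofMul (ρ x))) ha hr ?_ ?_
  · intro c
    have h := hpar c
    rw [H95.map_cuspProd] at h
    rw [← h]
    refine Finset.sum_congr rfl (fun k _ => ?_)
    rw [ofMul_mul, map_add]
  · intro w u hwu
    obtain ⟨ψ, h1, h2, h3⟩ := horth w u hwu
    rw [resE_eq_resF] at h3
    have e1 : (fun x => ψ (Additive.ofMul (σ x))) = (0 : X → ℤ) := funext h1
    have e2 : (fun x => ψ (Additive.ofMul (ρ x))) = fun x => w (R x) - w x := funext h2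
    rw [e1, e2] at h3
    exact h3

end corollaries

section conn

variable {X : Type*}

/-- the connectedness hypothesis from transitivity of the subgroup generated by `S` and `R`. -/
theorem conn_of_closure (S R : Equiv.Perm X) (hS : ∀ x, S (S x) = x)
    (hR : ∀ x, R (R (R x)) = x)
    (htr : ∀ x y : X, ∃ g ∈ Subgroup.closure ({S, R} : Set (Equiv.Perm X)), g x = y) :
    ∀ P : X → Prop, (∀ x, P x → P (S x)) → (∀ x, P x → P (R x)) → ∀ x y, P x → P y := by
  intro P hPS hPR x y hx
  obtain ⟨g, hg, rfl⟩ := htr x y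
  have key : ∀ g ∈ Subgroup.closure ({S, R} : Set (Equiv.Perm X)), ∀ x, P x ↔ P (g x) := by
    intro g hg
    induction hg using Subgroup.closure_induction with
    | mem g hg =>
      rcases hg with rfl | hg
      · exact fun x => ⟨hPS x, fun h => by have := hPS _ h; rwa [hS] at this⟩
      · rw [Set.mem_singleton_iff] at hg
        subst hg
        exact fun x => ⟨hPR x, fun h => by have := hPR _ (hPR _ h); rwa [hR] at this⟩
    | one => exact fun x => Iff.rfl
    | mul g h _ _ ihg ihh => exact fun x => (ihh x).trans (ihg (h x))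
    | inv g _ ih =>
      intro x
      have := ih (g⁻¹ x)
      rw [show g (g⁻¹ x) = x from g.apply_symm_apply x] at this
      exact this.symm
  exact (key g hg x).mp hx

/-- the connectedness hypothesis for a transitive action of a group generated by two elements. -/
theorem conn_of_hom {G : Type*} [Group G] (f : G →* Equiv.Perm X) (s t : G)
    (hgen : Subgroup.closure ({s, t} : Set G) = ⊤) (htr : ∀ x y : X, ∃ g : G, f g x = y)
    (hS : ∀ x, f s (f s x) = x) (hR : ∀ x, f t (f t (f t x)) = x) :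
    ∀ P : X → Prop, (∀ x, P x → P (f s x)) → (∀ x, P x → P (f t x)) → ∀ x y, P x → P y := by
  refine conn_of_closure (f s) (f t) hS hR (fun x y => ?_)
  obtain ⟨g, hg⟩ := htr x y
  refine ⟨f g, ?_, hg⟩
  have h1 : g ∈ Subgroup.closure ({s, t} : Set G) := by rw [hgen]; exact Subgroup.mem_top g
  have h2 : f g ∈ (Subgroup.closure ({s, t} : Set G)).map f := Subgroup.mem_map_of_mem f h1
  rw [MonoidHom.map_closure, Set.image_pair] at h2
  exact h2

end conn

end Fermat.Agent.S41.H52
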