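import Mathlib

/-!
# Perfectness algebra for the residue pairing  (helper64, node (C-ALG) of S41)

`X` is a finite set with two permutations `S`, `R` (for the application: the coset space
`SL(2, ℤ) ⧸ Γ` with the actions of the standard generators).  Put `V = X → ℤ`.  A *W-datum* is a
pair `(a, c)` of functions with `(1 - S) a = (1 - R) c`; the common value `b` is a compactly
supported cocycle, and `a - c` represents the class of `b` in `V / (V^S + V^R)`.

The pairing of two W-data is `B((a', c'), (a, c)) = ∑ x, (a' x - a' (S x)) * (a x - c x)`.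

* `wDatum_skew`   : the pairing is skew-symmetric;
* `wDatum_nondeg` : non-degeneracy modulo every prime `p`: if `(a, c)` pairs to `0` modulo `p`
  with every W-datum, then `a - c` is `p` times the class of a W-datum, modulo `V^S + V^R`.

No hypothesis on the orders of `S` and `R`, no transitivity, no division by `2` or `3`.
Auxiliary statements of independent use: `exists_cobound_of_orth` (the orthogonal of the
`g`-invariant functions is the space of `g`-coboundaries, over any field),
`exists_wDatum_lift` (W-data modulo `p` lift to integral W-data) and `wDatum_of_div`.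
-/

set_option autoImplicit false

namespace Fermat.Agent.S41.H64

open Finset

variable {X : Type*}

/-- `(a, c)` is a W-datum for the pair of permutations `(S, R)`: `(1 - S) a = (1 - R) c`. -/
def IsWDatum (S R : Equiv.Perm X) (a c : X → ℤ) : Prop :=
  ∀ x, a x - a (S x) = c x - c (R x)

/-- The pairing of W-data is skew-symmetric. -/
theorem wDatum_skew [Fintype X] (S R : Equiv.Perm X) {a c a' c' : X → ℤ} (h : IsWDatum S R a c)
    (h' : IsWDatum S R a' c') :
    ∑ x, (a' x - a' (S x)) * (a x - c x) + ∑ x, (a x - a (S x)) * (a' x - c' x) = 0 := by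
  have pt : ∀ x, (a' x - a' (S x)) * (a x - c x) + (a x - a (S x)) * (a' x - c' x)
      = (a x * a' x - a (S x) * a' (S x)) - (c x * c' x - c (R x) * c' (R x)) := by
    intro x
    linear_combination (a' x - a' (S x) - c' x) * h x + (- c (R x)) * h' x
  rw [← Finset.sum_add_distrib, Finset.sum_congr rfl (fun x _ => pt x), Finset.sum_sub_distrib,
    Finset.sum_sub_distrib, Finset.sum_sub_distrib,
    Equiv.sum_comp S (fun x => a x * a' x), Equiv.sum_comp R (fun x => c x * c' x)]
  ring

section orth

variable {F : Type*} [Field F]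

/-- Over a field, a function orthogonal to all `g`-invariant functions is a `g`-coboundary
(`g` any permutation of the finite set `X`). -/
theorem exists_cobound_of_orth [Fintype X] (g : Equiv.Perm X) (w : X → F)
    (h : ∀ v : X → F, (∀ x, v (g x) = v x) → ∑ x, w x * v x = 0) :
    ∃ a : X → F, ∀ x, w x = a x - a (g x) := by
  classical
  let d : (X → F) →ₗ[F] (X → F) :=
    { toFun := fun a x => a x - a (g x)
      map_add' := by intro a a'; funext x; simp only [Pi.add_apply]; ring
      map_smul' := by
        intro r a; funext x; simp only [Pi.smul_apply, smul_eq_mul, RingHom.id_apply]; ring }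
  by_contra hcon
  have hw : w ∉ LinearMap.range d := by
    rintro ⟨a, ha⟩
    exact hcon ⟨a, fun x => (congrFun ha x).symm⟩
  obtain ⟨f, hfw, hker⟩ := Submodule.exists_le_ker_of_notMem hw
  set u : X → F := fun y => f (fun j => if y = j then 1 else 0) with hu
  have hf : ∀ v : X → F, f v = ∑ x, v x * u x := by
    intro v
    rw [LinearMap.pi_apply_eq_sum_univ f v]
    rfl
  -- `u` is `g`-invariant
  have hinv : ∀ x, u (g x) = u x := by
    intro x
    have h0 : f (d (fun j => if g x = j then 1 else 0)) = 0 :=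
      LinearMap.mem_ker.mp (hker (LinearMap.mem_range_self d _))
    have hd : d (fun j => if g x = j then 1 else 0)
        = (fun j => if g x = j then (1 : F) else 0) - (fun j => if x = j then (1 : F) else 0) := by
      funext j
      show (if g x = j then (1 : F) else 0) - (if g x = g j then (1 : F) else 0) = _
      simp only [Pi.sub_apply, g.injective.eq_iff]
    rw [hd, map_sub] at h0
    exact sub_eq_zero.mp h0
  apply hfw
  rw [hf w]
  exact h u hinv

end orth

/-- The group of functions of the form `(1 - S) α - (1 - R) γ`. -/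
def coboundSub (S R : Equiv.Perm X) : AddSubgroup (X → ℤ) where
  carrier := {e | ∃ α γ : X → ℤ, ∀ x, e x = (α x - α (S x)) - (γ x - γ (R x))}
  zero_mem' := ⟨0, 0, fun x => by simp⟩
  add_mem' := by
    rintro e e' ⟨α, γ, h⟩ ⟨α', γ', h'⟩
    refine ⟨α + α', γ + γ', fun x => ?_⟩
    simp only [Pi.add_apply, h x, h' x]
    ring
  neg_mem' := by
    rintro e ⟨α, γ, h⟩
    refine ⟨-α, -γ, fun x => ?_⟩
    simp only [Pi.neg_apply, h x]
    ring

theorem mem_coboundSub {S R : Equiv.Perm X} {e : X → ℤ} :
    e ∈ coboundSub S R ↔ ∃ α γ : X → ℤ, ∀ x, e x = (α x - α (S x)) - (γ x - γ (R x)) :=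
  Iff.rfl

/-- The relation generating the `⟨S, R⟩`-orbits. -/
def stepRel (S R : Equiv.Perm X) (x y : X) : Prop := y = S x ∨ y = R x

/-- A representative of the `⟨S, R⟩`-orbit of `x`. -/
noncomputable def orbRep (S R : Equiv.Perm X) (x : X) : X :=
  (Quotient.mk (Relation.EqvGen.setoid (stepRel S R)) x).out

theorem orbRep_S (S R : Equiv.Perm X) (x : X) : orbRep S R (S x) = orbRep S R x := by
  unfold orbRep
  congr 1
  exact (Quotient.sound (s := Relation.EqvGen.setoid (stepRel S R))
    (Relation.EqvGen.rel _ _ (Or.inl rfl))).symm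

theorem orbRep_R (S R : Equiv.Perm X) (x : X) : orbRep S R (R x) = orbRep S R x := by
  unfold orbRep
  congr 1
  exact (Quotient.sound (s := Relation.EqvGen.setoid (stepRel S R))
    (Relation.EqvGen.rel _ _ (Or.inr rfl))).symm

theorem eqvGen_orbRep (S R : Equiv.Perm X) (x : X) :
    Relation.EqvGen (stepRel S R) x (orbRep S R x) := by
  have h := Quotient.mk_out (s := Relation.EqvGen.setoid (stepRel S R)) x
  exact Relation.EqvGen.symm _ _ h

/-- Differences of indicator functions of points in the same orbit are coboundaries. -/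
theorem single_sub_single_mem [DecidableEq X] (S R : Equiv.Perm X) {x y : X}
    (h : Relation.EqvGen (stepRel S R) x y) :
    ((fun j => if x = j then (1 : ℤ) else 0) - fun j => if y = j then (1 : ℤ) else 0)
      ∈ coboundSub S R := by
  induction h with
  | rel x y hxy =>
    rcases hxy with rfl | rfl
    · refine ⟨fun j => -(if S x = j then (1 : ℤ) else 0), 0, fun j => ?_⟩
      simp only [Pi.sub_apply, Pi.zero_apply, S.injective.eq_iff]
      ring
    · refine ⟨0, fun j => if R x = j then (1 : ℤ) else 0, fun j => ?_⟩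
      simp only [Pi.sub_apply, Pi.zero_apply, R.injective.eq_iff]
      ring
  | refl x => simp [(coboundSub S R).zero_mem]
  | symm x y _ ih =>
    have := (coboundSub S R).neg_mem ih
    simpa using this
  | trans x y z _ _ ih1 ih2 =>
    have := (coboundSub S R).add_mem ih1 ih2
    simpa using this

/-- Orbit sums of coboundaries vanish. -/
theorem orbSum_eq_zero_of_mem [Fintype X] [DecidableEq X] (S R : Equiv.Perm X) {e : X → ℤ} (he : e ∈ coboundSub S R) (y : X) :
    ∑ x, (if orbRep S R x = y then e x else 0) = 0 := by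
  obtain ⟨α, γ, h⟩ := he
  have h1 : ∑ x, (if orbRep S R x = y then α (S x) else 0)
      = ∑ x, (if orbRep S R x = y then α x else 0) := by
    rw [← Equiv.sum_comp S (fun x => if orbRep S R x = y then α x else 0)]
    exact Finset.sum_congr rfl (fun x _ => by rw [orbRep_S])
  have h2 : ∑ x, (if orbRep S R x = y then γ (R x) else 0)
      = ∑ x, (if orbRep S R x = y then γ x else 0) := by
    rw [← Equiv.sum_comp R (fun x => if orbRep S R x = y then γ x else 0)]
    exact Finset.sum_congr rfl (fun x _ => by rw [orbRep_R])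
  have h3 : ∀ x, (if orbRep S R x = y then e x else 0)
      = ((if orbRep S R x = y then α x else 0) - (if orbRep S R x = y then α (S x) else 0))
        - ((if orbRep S R x = y then γ x else 0) - (if orbRep S R x = y then γ (R x) else 0)) := by
    intro x
    split_ifs
    · exact h x
    · ring
  rw [Finset.sum_congr rfl (fun x _ => h3 x), Finset.sum_sub_distrib, Finset.sum_sub_distrib,
    Finset.sum_sub_distrib, h1, h2]
  ring

/-- A function all of whose orbit sums vanish is a coboundary. -/
theorem mem_of_orbSum_eq_zero [Fintype X] [DecidableEq X] (S R : Equiv.Perm X) (e : X → ℤ)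
    (h : ∀ y, ∑ x, (if orbRep S R x = y then e x else 0) = 0) : e ∈ coboundSub S R := by
  have key : e = ∑ x, e x • ((fun j => if x = j then (1 : ℤ) else 0)
      - fun j => if orbRep S R x = j then (1 : ℤ) else 0) := by
    funext j
    simp only [Finset.sum_apply, Pi.smul_apply, Pi.sub_apply, smul_eq_mul, mul_sub,
      Finset.sum_sub_distrib, mul_ite, mul_one, mul_zero, Finset.sum_ite_eq', Finset.mem_univ,
      if_true]
    rw [h j, sub_zero]
  rw [key]
  exact (coboundSub S R).sum_mem
    (fun x _ => (coboundSub S R).zsmul_mem (single_sub_single_mem S R (eqvGen_orbRep S R x)) _)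

/-- The quotient by the coboundaries is torsion-free. -/
theorem mem_coboundSub_of_mul_mem [Fintype X] (S R : Equiv.Perm X) {n : ℤ} (hn : n ≠ 0)
    {e : X → ℤ} (h : (fun x => n * e x) ∈ coboundSub S R) : e ∈ coboundSub S R := by
  classical
  apply mem_of_orbSum_eq_zero
  intro y
  have h0 := orbSum_eq_zero_of_mem S R h y
  have h1 : ∑ x, (if orbRep S R x = y then n * e x else 0)
      = n * ∑ x, (if orbRep S R x = y then e x else 0) := by
    rw [Finset.mul_sum]
    exact Finset.sum_congr rfl (fun x _ => by split_ifs <;> simp)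
  rw [h1] at h0
  exact (mul_eq_zero.mp h0).resolve_left hn

/-- **(L1)** W-data modulo `p` lift to integral W-data. -/
theorem exists_wDatum_lift [Fintype X] (p : ℕ) [NeZero p] (S R : Equiv.Perm X) (ab cb : X → ZMod p)
    (h : ∀ x, ab x - ab (S x) = cb x - cb (R x)) :
    ∃ a c : X → ℤ, IsWDatum S R a c ∧
      ∀ x, ((a x - a (S x) : ℤ) : ZMod p) = ab x - ab (S x) := by
  have hp : (p : ℤ) ≠ 0 := by exact_mod_cast NeZero.ne p
  set a0 : X → ℤ := fun x => (ZMod.cast (ab x) : ℤ) with ha0
  set c0 : X → ℤ := fun x => (ZMod.cast (cb x) : ℤ) with hc0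
  have hca : ∀ x, ((a0 x : ℤ) : ZMod p) = ab x := fun x => ZMod.intCast_zmod_cast (ab x)
  have hcc : ∀ x, ((c0 x : ℤ) : ZMod p) = cb x := fun x => ZMod.intCast_zmod_cast (cb x)
  have hdvd : ∀ x, (p : ℤ) ∣ (a0 x - a0 (S x)) - (c0 x - c0 (R x)) := by
    intro x
    rw [← ZMod.intCast_zmod_eq_zero_iff_dvd]
    push_cast
    rw [hca, hca, hcc, hcc, h x, sub_self]
  choose e he using hdvd
  have hmem : (fun x => (p : ℤ) * e x) ∈ coboundSub S R :=
    ⟨a0, c0, fun x => (he x).symm⟩
  obtain ⟨α1, γ1, h1⟩ := mem_coboundSub_of_mul_mem S R hp hmem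
  refine ⟨fun x => a0 x - p * α1 x, fun x => c0 x - p * γ1 x, fun x => ?_, fun x => ?_⟩
  · show a0 x - p * α1 x - (a0 (S x) - p * α1 (S x)) = c0 x - p * γ1 x - (c0 (R x) - p * γ1 (R x))
    linear_combination he x + (p : ℤ) * h1 x
  · show (((a0 x - p * α1 x - (a0 (S x) - p * α1 (S x)) : ℤ)) : ZMod p) = ab x - ab (S x)
    push_cast
    rw [hca, hca]
    simp

section modp

variable (p : ℕ) [Fact p.Prime]

/-- The `g`-invariant functions with values in `ZMod p`. -/
def invSub (g : Equiv.Perm X) : Submodule (ZMod p) (X → ZMod p) where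
  carrier := {v | ∀ x, v (g x) = v x}
  zero_mem' := fun _ => rfl
  add_mem' := by
    intro v v' hv hv' x
    simp only [Pi.add_apply, hv x, hv' x]
  smul_mem' := by
    intro r v hv x
    simp only [Pi.smul_apply, hv x]

/-- **Step A**: a function orthogonal modulo `p` to all integral W-data is, modulo `p`, the sum of
an `S`-invariant and an `R`-invariant function. -/
theorem exists_inv_decomp_mod [Fintype X] (S R : Equiv.Perm X) (m : X → ℤ)
    (horth : ∀ a' c' : X → ℤ, IsWDatum S R a' c' → (p : ℤ) ∣ ∑ x, (a' x - a' (S x)) * m x) :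
    ∃ αb βb : X → ZMod p, (∀ x, αb (S x) = αb x) ∧ (∀ x, βb (R x) = βb x) ∧
      ∀ x, ((m x : ℤ) : ZMod p) = αb x + βb x := by
  classical
  have : NeZero p := ⟨(Fact.out : p.Prime).ne_zero⟩
  set mb : X → ZMod p := fun x => ((m x : ℤ) : ZMod p) with hmb
  by_contra hcon
  have hm : mb ∉ invSub p S ⊔ invSub p R := by
    intro hmem
    obtain ⟨y, hy, z, hz, hyz⟩ := Submodule.mem_sup.mp hmem
    exact hcon ⟨y, z, hy, hz, fun x => (congrFun hyz x).symm⟩
  obtain ⟨f, hfm, hker⟩ := Submodule.exists_le_ker_of_notMem hm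
  set u : X → ZMod p := fun y => f (fun j => if y = j then 1 else 0) with hu
  have hf : ∀ v : X → ZMod p, f v = ∑ x, v x * u x := by
    intro v
    rw [LinearMap.pi_apply_eq_sum_univ f v]
    rfl
  have hS : ∀ v : X → ZMod p, (∀ x, v (S x) = v x) → ∑ x, u x * v x = 0 := by
    intro v hv
    have h0 : f v = 0 := LinearMap.mem_ker.mp (hker (Submodule.mem_sup_left hv))
    rw [hf v] at h0
    rw [← h0]
    exact Finset.sum_congr rfl (fun x _ => mul_comm _ _)
  have hR : ∀ v : X → ZMod p, (∀ x, v (R x) = v x) → ∑ x, u x * v x = 0 := by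
    intro v hv
    have h0 : f v = 0 := LinearMap.mem_ker.mp (hker (Submodule.mem_sup_right hv))
    rw [hf v] at h0
    rw [← h0]
    exact Finset.sum_congr rfl (fun x _ => mul_comm _ _)
  obtain ⟨ab, hab⟩ := exists_cobound_of_orth S u hS
  obtain ⟨cb, hcb⟩ := exists_cobound_of_orth R u hR
  obtain ⟨a', c', hW, hcast⟩ := exists_wDatum_lift p S R ab cb (fun x => by rw [← hab x, ← hcb x])
  have hd := horth a' c' hW
  rw [← ZMod.intCast_zmod_eq_zero_iff_dvd] at hd
  apply hfm
  rw [hf mb, ← hd]
  push_cast
  refine Finset.sum_congr rfl (fun x _ => ?_)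
  have := hcast x
  push_cast at this
  rw [this, ← hab x, mul_comm]

end modp

/-- **(L3)** the classes of W-data form a saturated subgroup of `V / (V^S + V^R)`. -/
theorem wDatum_of_div (p : ℕ) [NeZero p] (S R : Equiv.Perm X) {a c v α β : X → ℤ}
    (h : IsWDatum S R a c) (hdiv : ∀ x, a x - c x = p * v x + α x + β x)
    (hα : ∀ x, α (S x) = α x) (hβ : ∀ x, β (R x) = β x) :
    ∃ a'' c'' : X → ℤ, IsWDatum S R a'' c'' ∧ ∀ x, a'' x - c'' x = v x := by
  have hp : (p : ℤ) ≠ 0 := by exact_mod_cast NeZero.ne p
  set y : X → ℤ := fun x => c (R x) + β x with hy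
  have hβ' : ∀ z, β (R.symm z) = β z := by
    intro z
    have := hβ (R.symm z)
    rw [Equiv.apply_symm_apply] at this
    exact this.symm
  have key : ∀ x, (p : ℤ) * (v x - v (S x)) = y (R.symm (S x)) - y x := by
    intro x
    have e1 : y (R.symm (S x)) = c (S x) + β (S x) := by
      show c (R (R.symm (S x))) + β (R.symm (S x)) = _
      rw [Equiv.apply_symm_apply, hβ']
    rw [e1]
    show _ = c (S x) + β (S x) - (c (R x) + β x)
    linear_combination -hdiv x + hdiv (S x) + h x + hα x
  set y0 : X → ℤ := fun x => (ZMod.cast ((y x : ℤ) : ZMod p) : ℤ) with hy0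
  have hinv : ∀ x, y0 (R.symm (S x)) = y0 x := by
    intro x
    have : ((y (R.symm (S x)) : ℤ) : ZMod p) = ((y x : ℤ) : ZMod p) := by
      have hk := congrArg (fun t : ℤ => (t : ZMod p)) (key x)
      simp only [Int.cast_mul, Int.cast_natCast, ZMod.natCast_self, zero_mul, Int.cast_sub] at hk
      exact (sub_eq_zero.mp hk.symm)
    show (ZMod.cast ((y (R.symm (S x)) : ℤ) : ZMod p) : ℤ) = (ZMod.cast ((y x : ℤ) : ZMod p) : ℤ)
    rw [this]
  have hdvd : ∀ x, (p : ℤ) ∣ y x - y0 x := by
    intro x
    rw [← ZMod.intCast_zmod_eq_zero_iff_dvd]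
    push_cast
    show ((y x : ℤ) : ZMod p) - (((ZMod.cast ((y x : ℤ) : ZMod p) : ℤ)) : ZMod p) = 0
    rw [ZMod.intCast_zmod_cast, sub_self]
  choose u hu using hdvd
  have key2 : ∀ x, v x - v (S x) = u (R.symm (S x)) - u x := by
    intro x
    apply mul_left_cancel₀ hp
    linear_combination key x + hu (R.symm (S x)) - hu x + hinv x
  refine ⟨fun z => v z + u (R.symm z), fun z => u (R.symm z), fun x => ?_, fun x => ?_⟩
  · show v x + u (R.symm x) - (v (S x) + u (R.symm (S x))) = u (R.symm x) - u (R.symm (R x))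
    rw [Equiv.symm_apply_apply]
    linear_combination key2 x
  · show v x + u (R.symm x) - u (R.symm x) = v x
    ring

/-- **Non-degeneracy modulo `p`.**  If the W-datum `(a, c)` pairs to `0` modulo `p` with every
W-datum, then the class of `a - c` modulo `V^S + V^R` is `p` times the class of a W-datum. -/
theorem wDatum_nondeg [Fintype X] (p : ℕ) [Fact p.Prime] (S R : Equiv.Perm X) {a c : X → ℤ}
    (h : IsWDatum S R a c)
    (horth : ∀ a' c' : X → ℤ, IsWDatum S R a' c' →
      (p : ℤ) ∣ ∑ x, (a' x - a' (S x)) * (a x - c x)) :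
    ∃ a'' c'' α β : X → ℤ, IsWDatum S R a'' c'' ∧ (∀ x, α (S x) = α x) ∧ (∀ x, β (R x) = β x) ∧
      ∀ x, a x - c x = p * (a'' x - c'' x) + α x + β x := by
  have : NeZero p := ⟨(Fact.out : p.Prime).ne_zero⟩
  obtain ⟨αb, βb, hαb, hβb, hm⟩ := exists_inv_decomp_mod p S R (fun x => a x - c x) horth
  set α : X → ℤ := fun x => (ZMod.cast (αb x) : ℤ) with hα
  set β : X → ℤ := fun x => (ZMod.cast (βb x) : ℤ) with hβ
  have hαS : ∀ x, α (S x) = α x := fun x => by show (ZMod.cast (αb (S x)) : ℤ) = _; rw [hαb x]
  have hβR : ∀ x, β (R x) = β x := fun x => by show (ZMod.cast (βb (R x)) : ℤ) = _; rw [hβb x]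
  have hdvd : ∀ x, (p : ℤ) ∣ a x - c x - α x - β x := by
    intro x
    rw [← ZMod.intCast_zmod_eq_zero_iff_dvd]
    have := hm x
    push_cast at this ⊢
    show (a x : ZMod p) - (c x : ZMod p) - (((ZMod.cast (αb x) : ℤ)) : ZMod p)
      - (((ZMod.cast (βb x) : ℤ)) : ZMod p) = 0
    rw [ZMod.intCast_zmod_cast, ZMod.intCast_zmod_cast, this]
    ring
  choose v hv using hdvd
  obtain ⟨a'', c'', hW, hv'⟩ := wDatum_of_div p S R (v := v) (α := α) (β := β) h
    (fun x => by linear_combination hv x) hαS hβR
  exact ⟨a'', c'', α, β, hW, hαS, hβR, fun x => by rw [hv' x]; linear_combination hv x⟩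

/-- The pairing only depends on the class of the second argument modulo `V^S + V^R`. -/
theorem wDatum_pair_inv [Fintype X] (S R : Equiv.Perm X) {a' c' α β : X → ℤ} (h' : IsWDatum S R a' c')
    (hα : ∀ x, α (S x) = α x) (hβ : ∀ x, β (R x) = β x) :
    ∑ x, (a' x - a' (S x)) * (α x + β x) = 0 := by
  have pt : ∀ x, (a' x - a' (S x)) * (α x + β x)
      = (a' x * α x - a' (S x) * α (S x)) + (c' x * β x - c' (R x) * β (R x)) := by
    intro x
    rw [hα x, hβ x]
    linear_combination (β x) * h' x
  rw [Finset.sum_congr rfl (fun x _ => pt x), Finset.sum_add_distrib, Finset.sum_sub_distrib,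
    Finset.sum_sub_distrib, Equiv.sum_comp S (fun x => a' x * α x),
    Equiv.sum_comp R (fun x => c' x * β x)]
  ring

end Fermat.Agent.S41.H64
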