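import Mathlib
import Fermat.Agent.S41.PDSchreier_helper18
import Fermat.Agent.S41.PDFib_helper17

/-!
# The concrete cusp system of `Γ ≤ SL(2, ℤ)` is a cusp system  (helper18, node (C-TOP) of S41)

* `PosPar g`: `g` is a positive parabolic element (trace `2`, `b - c > 0`);
  `posPar_conj_T_pow`, `exists_conj_of_posPar` (`g = x⁻¹ T ^ n x`, `n > 0`), `T_pow_conj`
  (the centraliser computation), `posPar_of_conj` (invariance under conjugation by real matrices
  of positive determinant).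
* `isCuspSys_cuspPi`: the elements `π_c = t_c⁻¹ T ^ h_c t_c` of `PDSchreier_helper18` form a
  cusp system in the sense of helper17's `H17.IsCuspSys` (`pos`, `cover`, `rigid`).
* `sum_eq_of_isCuspSys`: the sum of a class function over a cusp system does not depend on the
  system; `isCuspSys_map`: transport along an isomorphism.
-/

set_option autoImplicit false
set_option linter.unusedSectionVars false

namespace Fermat.Agent.S41.H18

open scoped MatrixGroups
open Finset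

/-! ### Positive parabolic elements of `SL(2, ℤ)` -/

/-- positive parabolic elements: trace `2` and `b - c > 0`. -/
def PosPar (g : SL(2, ℤ)) : Prop := g.1 0 0 + g.1 1 1 = 2 ∧ 0 < g.1 0 1 - g.1 1 0

theorem sl_det (x : SL(2, ℤ)) : x.1 0 0 * x.1 1 1 - x.1 0 1 * x.1 1 0 = 1 := by
  have := x.det_coe
  rw [Matrix.det_fin_two] at this
  exact this

theorem conj_T_zpow_apply (x : SL(2, ℤ)) (k : ℤ) :
    (x⁻¹ * ModularGroup.T ^ k * x).1 0 0 = 1 + k * x.1 1 0 * x.1 1 1 ∧
    (x⁻¹ * ModularGroup.T ^ k * x).1 0 1 = k * x.1 1 1 ^ 2 ∧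
    (x⁻¹ * ModularGroup.T ^ k * x).1 1 0 = - (k * x.1 1 0 ^ 2) ∧
    (x⁻¹ * ModularGroup.T ^ k * x).1 1 1 = 1 - k * x.1 1 0 * x.1 1 1 := by
  have hdet := sl_det x
  simp only [Matrix.SpecialLinearGroup.coe_mul, Matrix.SpecialLinearGroup.coe_inv,
    ModularGroup.coe_T_zpow, Matrix.adjugate_fin_two, Matrix.mul_apply, Fin.sum_univ_two,
    Matrix.of_apply, Matrix.cons_val_zero, Matrix.cons_val_one, Matrix.cons_val', Matrix.cons_val_fin_one]
  refine ⟨?_, ?_, ?_, ?_⟩
  · linear_combination hdet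
  · linear_combination 0 * hdet
  · linear_combination 0 * hdet
  · linear_combination hdet

theorem posPar_conj_T_pow (x : SL(2, ℤ)) {n : ℕ} (hn : 0 < n) :
    PosPar (x⁻¹ * ModularGroup.T ^ n * x) := by
  obtain ⟨h00, h01, h10, h11⟩ := conj_T_zpow_apply x (n : ℤ)
  rw [zpow_natCast] at h00 h01 h10 h11
  refine ⟨?_, ?_⟩
  · rw [h00, h11]; ring
  · rw [h01, h10]
    have hdet := sl_det x
    have h1 : 0 < x.1 1 1 ^ 2 + x.1 1 0 ^ 2 := by
      by_contra hcon
      have h2 : x.1 1 1 = 0 := by nlinarith [sq_nonneg (x.1 1 1), sq_nonneg (x.1 1 0)]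
      have h3 : x.1 1 0 = 0 := by nlinarith [sq_nonneg (x.1 1 1), sq_nonneg (x.1 1 0)]
      rw [h2, h3] at hdet
      simp at hdet
    have hn' : (0 : ℤ) < n := by exact_mod_cast hn
    nlinarith

theorem T_pow_conj {m : SL(2, ℤ)} {a b : ℕ} (hb : 0 < b)
    (h : m * ModularGroup.T ^ a = ModularGroup.T ^ b * m) :
    a = b ∧ ∃ j : ℤ, m = ModularGroup.T ^ j ∨ m = -ModularGroup.T ^ j := by
  have hdet := sl_det m
  have h' := congrArg (fun z : SL(2, ℤ) => z.1) h
  simp only [Matrix.SpecialLinearGroup.coe_mul] at h'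
  rw [← zpow_natCast, ← zpow_natCast, ModularGroup.coe_T_zpow, ModularGroup.coe_T_zpow] at h'
  have e00 := congrFun (congrFun h' 0) 0
  have e01 := congrFun (congrFun h' 0) 1
  simp only [Matrix.mul_apply, Fin.sum_univ_two, Matrix.of_apply, Matrix.cons_val_zero,
    Matrix.cons_val_one, Matrix.cons_val', Matrix.cons_val_fin_one] at e00 e01
  have hb' : (b : ℤ) ≠ 0 := by exact_mod_cast hb.ne'
  have h10 : m.1 1 0 = 0 := by
    have : (b : ℤ) * m.1 1 0 = 0 := by linear_combination -e00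
    rcases mul_eq_zero.1 this with h | h
    · exact absurd h hb'
    · exact h
  rw [h10] at hdet
  have hdet' : m.1 0 0 * m.1 1 1 = 1 := by linear_combination hdet
  rcases Int.eq_one_or_neg_one_of_mul_eq_one' hdet' with ⟨h00, h11⟩ | ⟨h00, h11⟩
  · refine ⟨?_, m.1 0 1, Or.inl ?_⟩
    · rw [h00, h11] at e01
      have : (a : ℤ) = b := by linear_combination e01
      exact_mod_cast this
    · apply Subtype.ext
      rw [ModularGroup.coe_T_zpow]
      ext i j
      fin_cases i <;> fin_cases j <;> simp [h00, h11, h10]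
  · refine ⟨?_, - m.1 0 1, Or.inr ?_⟩
    · rw [h00, h11] at e01
      have : (a : ℤ) = b := by linear_combination -e01
      exact_mod_cast this
    · apply Subtype.ext
      rw [Matrix.SpecialLinearGroup.coe_neg, ModularGroup.coe_T_zpow]
      ext i j
      fin_cases i <;> fin_cases j <;> simp [h00, h11, h10]

/-- a primitive vector fixed by a positive parabolic matrix. -/
theorem exists_fixed_vec {g : SL(2, ℤ)} (hg : PosPar g) :
    ∃ v₁ v₂ : ℤ, IsCoprime v₁ v₂ ∧ g.1 0 0 * v₁ + g.1 0 1 * v₂ = v₁ ∧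
      g.1 1 0 * v₁ + g.1 1 1 * v₂ = v₂ := by
  obtain ⟨htr, hpos⟩ := hg
  have hdet := sl_det g
  set p := g.1 0 0 with hp
  set q := g.1 0 1 with hq
  set r := g.1 1 0 with hr
  set s := g.1 1 1 with hs
  have hs' : s = 2 - p := by linarith
  -- `(p - 1) ^ 2 + q * r = 0`
  have hN : (p - 1) ^ 2 + q * r = 0 := by
    rw [hs'] at hdet
    linear_combination -hdet
  by_cases hq0 : q = 0
  · have hp1 : p = 1 := by
      rw [hq0] at hN
      have : (p - 1) ^ 2 = 0 := by linear_combination hN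
      have := pow_eq_zero_iff (two_ne_zero) |>.1 this
      linarith
    refine ⟨0, 1, isCoprime_zero_left.2 isUnit_one, ?_, ?_⟩
    · rw [hq0]; ring
    · rw [hs', hp1]; ring
  · have he : 0 < Int.gcd q (p - 1) := Int.gcd_pos_of_ne_zero_left _ hq0
    obtain ⟨q', hq'⟩ := Int.gcd_dvd_left q (p - 1)
    obtain ⟨a', ha'⟩ := Int.gcd_dvd_right q (p - 1)
    have he0 : ((Int.gcd q (p - 1) : ℕ) : ℤ) ≠ 0 := by exact_mod_cast he.ne'
    have hcop : IsCoprime q' a' := by
      rw [Int.isCoprime_iff_gcd_eq_one]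
      have h1 := Int.gcd_div_gcd_div_gcd he
      have h2 : q / (Int.gcd q (p - 1) : ℤ) = q' := Int.ediv_eq_of_eq_mul_right he0 hq'
      have h3 : (p - 1) / (Int.gcd q (p - 1) : ℤ) = a' := Int.ediv_eq_of_eq_mul_right he0 ha' 
      rw [h2, h3] at h1
      exact h1
    refine ⟨q', -a', hcop.neg_right, ?_, ?_⟩
    · apply mul_left_cancel₀ he0
      have e1 : ((Int.gcd q (p - 1) : ℕ) : ℤ) * (p * q' + q * -a')
          = p * (((Int.gcd q (p - 1) : ℕ) : ℤ) * q') - q * (((Int.gcd q (p - 1) : ℕ) : ℤ) * a') := by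
        ring
      rw [e1, ← hq', ← ha']
      ring
    · apply mul_left_cancel₀ he0
      have e1 : ((Int.gcd q (p - 1) : ℕ) : ℤ) * (r * q' + s * -a')
          = r * (((Int.gcd q (p - 1) : ℕ) : ℤ) * q') - s * (((Int.gcd q (p - 1) : ℕ) : ℤ) * a') := by
        ring
      have e2 : ((Int.gcd q (p - 1) : ℕ) : ℤ) * -a'
          = -(((Int.gcd q (p - 1) : ℕ) : ℤ) * a') := by ring
      rw [e1, e2, ← hq', ← ha', hs']
      linear_combination hN

theorem exists_conj_of_posPar {g : SL(2, ℤ)} (hg : PosPar g) :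
    ∃ (x : SL(2, ℤ)) (n : ℕ), 0 < n ∧ g = x⁻¹ * ModularGroup.T ^ n * x := by
  obtain ⟨v₁, v₂, hcop, hv1, hv2⟩ := exists_fixed_vec hg
  obtain ⟨y, hy0, hy1⟩ := IsCoprime.exists_SL2_col hcop 0
  have hdety := sl_det y
  have hdetg := sl_det g
  set m : SL(2, ℤ) := y⁻¹ * g * y with hm
  have hm00 : m.1 0 0 = 1 := by
    simp only [hm, Matrix.SpecialLinearGroup.coe_mul, Matrix.SpecialLinearGroup.coe_inv,
      Matrix.adjugate_fin_two, Matrix.mul_apply, Fin.sum_univ_two,
      Matrix.of_apply, Matrix.cons_val_zero, Matrix.cons_val_one, Matrix.cons_val',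
      Matrix.cons_val_fin_one]
    rw [hy0, hy1] at hdety ⊢
    linear_combination (y.1 1 1) * hv1 - (y.1 0 1) * hv2 + hdety
  have hm10 : m.1 1 0 = 0 := by
    simp only [hm, Matrix.SpecialLinearGroup.coe_mul, Matrix.SpecialLinearGroup.coe_inv,
      Matrix.adjugate_fin_two, Matrix.mul_apply, Fin.sum_univ_two,
      Matrix.of_apply, Matrix.cons_val_zero, Matrix.cons_val_one, Matrix.cons_val',
      Matrix.cons_val_fin_one]
    rw [hy0, hy1]
    linear_combination (-v₂) * hv1 + v₁ * hv2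
  have hm11 : m.1 1 1 = 1 := by
    have := sl_det m
    rw [hm00, hm10] at this
    linear_combination this
  have hmT : m = ModularGroup.T ^ (m.1 0 1) := by
    apply Subtype.ext
    rw [ModularGroup.coe_T_zpow]
    ext i j
    fin_cases i <;> fin_cases j <;> simp [hm00, hm10, hm11]
  have hg' : g = (y⁻¹)⁻¹ * ModularGroup.T ^ (m.1 0 1) * y⁻¹ := by
    rw [← hmT, hm]
    group
  obtain ⟨-, h01, h10, -⟩ := conj_T_zpow_apply (y⁻¹) (m.1 0 1)
  rw [← hg'] at h01 h10
  have hk : 0 < m.1 0 1 := by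
    have h1 := hg.2
    rw [h01, h10] at h1
    by_contra hcon
    have hcon' : m.1 0 1 ≤ 0 := not_lt.1 hcon
    nlinarith [sq_nonneg ((y⁻¹ : SL(2, ℤ)).1 1 1), sq_nonneg ((y⁻¹ : SL(2, ℤ)).1 1 0)]
  refine ⟨y⁻¹, (m.1 0 1).toNat, ?_, ?_⟩
  · omega
  · rw [hg']
    congr 2
    rw [← zpow_natCast, Int.toNat_of_nonneg hk.le]


/-- **Positive parabolic elements are stable under conjugation by real matrices of positive
determinant**: if `α * g = g' * α` with `det α > 0`, then `g` positive parabolic implies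
`g'` positive parabolic. -/
theorem posPar_of_conj {α : Matrix (Fin 2) (Fin 2) ℝ} (hα : 0 < α.det) {g g' : SL(2, ℤ)}
    (h : α * (g.1.map (Int.cast : ℤ → ℝ)) = (g'.1.map (Int.cast : ℤ → ℝ)) * α) (hg : PosPar g) :
    PosPar g' := by
  obtain ⟨htr, hpos⟩ := hg
  have hdet := sl_det g
  rw [Matrix.det_fin_two] at hα
  have e00 := congrFun (congrFun h 0) 0
  have e01 := congrFun (congrFun h 0) 1
  have e10 := congrFun (congrFun h 1) 0
  have e11 := congrFun (congrFun h 1) 1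
  simp only [Matrix.mul_apply, Fin.sum_univ_two, Matrix.map_apply] at e00 e01 e10 e11
  set p := α 0 0
  set q := α 0 1
  set r := α 1 0
  set s := α 1 1
  have htr' : ((g.1 0 0 : ℤ) : ℝ) + ((g.1 1 1 : ℤ) : ℝ) = 2 := by exact_mod_cast htr
  have hpos' : (0 : ℝ) < ((g.1 0 1 : ℤ) : ℝ) - ((g.1 1 0 : ℤ) : ℝ) := by exact_mod_cast hpos
  have hdet' : ((g.1 0 0 : ℤ) : ℝ) * ((g.1 1 1 : ℤ) : ℝ) - ((g.1 0 1 : ℤ) : ℝ) * ((g.1 1 0 : ℤ) : ℝ)
      = 1 := by exact_mod_cast hdet
  generalize ((g.1 0 0 : ℤ) : ℝ) = A at *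
  generalize ((g.1 0 1 : ℤ) : ℝ) = B at *
  generalize ((g.1 1 0 : ℤ) : ℝ) = C at *
  generalize ((g.1 1 1 : ℤ) : ℝ) = E at *
  have key : (((g'.1 0 0 : ℤ) : ℝ) + ((g'.1 1 1 : ℤ) : ℝ) = 2) ∧
      (0 : ℝ) < ((g'.1 0 1 : ℤ) : ℝ) - ((g'.1 1 0 : ℤ) : ℝ) := by
    generalize ((g'.1 0 0 : ℤ) : ℝ) = A' at *
    generalize ((g'.1 0 1 : ℤ) : ℝ) = B' at *
    generalize ((g'.1 1 0 : ℤ) : ℝ) = C' at *
    generalize ((g'.1 1 1 : ℤ) : ℝ) = E' at *
    have hD : p * s - q * r ≠ 0 := hα.ne'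
    have hA' : (p * s - q * r) * A' = s * (p * A + q * C) - r * (p * B + q * E) := by
      linear_combination (-s) * e00 + r * e01
    have hB' : (p * s - q * r) * B' = p * (p * B + q * E) - q * (p * A + q * C) := by
      linear_combination q * e00 - p * e01
    have hC' : (p * s - q * r) * C' = s * (r * A + s * C) - r * (r * B + s * E) := by
      linear_combination (-s) * e10 + r * e11
    have hE' : (p * s - q * r) * E' = p * (r * B + s * E) - q * (r * A + s * C) := by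
      linear_combination q * e10 - p * e11
    have hEA : E = 2 - A := by linarith
    have hN : (A - 1) ^ 2 + B * C = 0 := by
      rw [hEA] at hdet'
      linear_combination -hdet'
    refine ⟨?_, ?_⟩
    · apply mul_left_cancel₀ hD
      rw [mul_add, hA', hE']
      linear_combination (p * s - q * r) * htr'
    · have hkey : (B - C) * ((p * s - q * r) * (B' - C'))
          = (B * p - (A - 1) * q) ^ 2 + ((A - 1) * p + C * q) ^ 2
            + (B * r - (A - 1) * s) ^ 2 + ((A - 1) * r + C * s) ^ 2 := by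
        rw [mul_sub, hB', hC', hEA]
        linear_combination (-(p ^ 2 + q ^ 2 + r ^ 2 + s ^ 2)) * hN
      have hW : 0 < (B * p - (A - 1) * q) ^ 2 + ((A - 1) * p + C * q) ^ 2
            + (B * r - (A - 1) * s) ^ 2 + ((A - 1) * r + C * s) ^ 2 := by
        by_contra hcon
        have hcon' := not_lt.1 hcon
        have s1 := sq_nonneg (B * p - (A - 1) * q)
        have s2 := sq_nonneg ((A - 1) * p + C * q)
        have s3 := sq_nonneg (B * r - (A - 1) * s)
        have s4 := sq_nonneg ((A - 1) * r + C * s)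
        have z1 : B * p - (A - 1) * q = 0 := by
          have : (B * p - (A - 1) * q) ^ 2 = 0 := by linarith
          exact pow_eq_zero_iff (two_ne_zero) |>.1 this
        have z2 : (A - 1) * p + C * q = 0 := by
          have : ((A - 1) * p + C * q) ^ 2 = 0 := by linarith
          exact pow_eq_zero_iff (two_ne_zero) |>.1 this
        have z3 : B * r - (A - 1) * s = 0 := by
          have : (B * r - (A - 1) * s) ^ 2 = 0 := by linarith
          exact pow_eq_zero_iff (two_ne_zero) |>.1 this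
        have z4 : (A - 1) * r + C * s = 0 := by
          have : ((A - 1) * r + C * s) ^ 2 = 0 := by linarith
          exact pow_eq_zero_iff (two_ne_zero) |>.1 this
        have hB0 : B * (p * s - q * r) = 0 := by linear_combination s * z1 - q * z3
        have hC0 : C * (p * s - q * r) = 0 := by linear_combination p * z4 - r * z2
        have hB : B = 0 := by
          rcases mul_eq_zero.1 hB0 with h | h
          · exact h
          · exact absurd h hD
        have hC : C = 0 := by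
          rcases mul_eq_zero.1 hC0 with h | h
          · exact h
          · exact absurd h hD
        rw [hB, hC] at hpos'
        simp at hpos'
      rw [← hkey] at hW
      have h1 : 0 < (p * s - q * r) * (B' - C') := by
        by_contra hcon
        have hcon' := not_lt.1 hcon
        have := mul_nonpos_of_nonneg_of_nonpos hpos'.le hcon'
        linarith
      by_contra hcon
      have hcon' := not_lt.1 hcon
      have := mul_nonpos_of_nonneg_of_nonpos hα.le hcon'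
      linarith
  obtain ⟨k1, k2⟩ := key
  exact ⟨by exact_mod_cast k1, by exact_mod_cast k2⟩

/-! ### Abstract cusp systems: independence and transport -/

/-- **The sum of a class function over a cusp system does not depend on the system.** -/
theorem sum_eq_of_isCuspSys {Γ : Type*} [Group Γ] {P : Γ → Prop} {Z : Subgroup Γ}
    {C C' : Type*} [Fintype C] [Fintype C'] {π : C → Γ} {π' : C' → Γ}
    (hπ : H17.IsCuspSys P Z π) (hπ' : H17.IsCuspSys P Z π') {A : Type*} [AddCommMonoid A]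
    (F : Γ → A) (hF : ∀ g t, P t → F (g * t * g⁻¹) = F t) :
    ∑ c, F (π c) = ∑ c', F (π' c') := by
  classical
  have H : ∀ c' : C', ∃ (c : C) (γ : Γ), π' c' = γ * π c * γ⁻¹ := by
    intro c'
    obtain ⟨c, γ, k, hk, h1⟩ := hπ.cover _ (hπ'.pos c')
    obtain ⟨c'', γ₂, k₂, hk₂, h2⟩ := hπ'.cover _ (hπ.pos c)
    have h3 : (γ * γ₂) * π' c'' ^ (k₂ * k) * (γ * γ₂)⁻¹ = π' c' ^ 1 := by
      rw [pow_one, h1, h2, conj_pow, pow_mul]
      group
    obtain ⟨-, h4, -⟩ := hπ'.rigid c'' c' (k₂ * k) 1 (γ * γ₂) (Nat.mul_pos hk₂ hk) one_pos h3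
    have hk1 : k = 1 := Nat.eq_one_of_mul_eq_one_left h4
    refine ⟨c, γ, ?_⟩
    rw [h1, hk1, pow_one]
  choose f γ hf using H
  have hinj : Function.Injective f := by
    intro a b hab
    have h3 : (γ b * (γ a)⁻¹) * π' a ^ 1 * (γ b * (γ a)⁻¹)⁻¹ = π' b ^ 1 := by
      rw [pow_one, pow_one, hf a, hf b, hab]
      group
    exact (hπ'.rigid a b 1 1 _ one_pos one_pos h3).1
  have hsurj : Function.Surjective f := by
    intro c
    obtain ⟨c', γ₂, k₂, hk₂, h2⟩ := hπ'.cover _ (hπ.pos c)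
    refine ⟨c', ?_⟩
    have h3 : (γ₂ * γ c') * π (f c') ^ k₂ * (γ₂ * γ c')⁻¹ = π c ^ 1 := by
      rw [pow_one, h2, hf c', conj_pow]
      group
    exact (hπ.rigid (f c') c k₂ 1 _ hk₂ one_pos h3).1
  refine (Fintype.sum_bijective f ⟨hinj, hsurj⟩ (fun c' => F (π' c')) (fun c => F (π c)) ?_).symm
  intro c'
  rw [hf c', hF _ _ (hπ.pos _)]

/-- Transport of a cusp system along an isomorphism. -/
theorem isCuspSys_map {Γ₁ Γ₂ : Type*} [Group Γ₁] [Group Γ₂] {P₁ : Γ₁ → Prop} {P₂ : Γ₂ → Prop}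
    {Z₁ : Subgroup Γ₁} {Z₂ : Subgroup Γ₂} {C : Type*} {π : C → Γ₁}
    (e : Γ₁ ≃* Γ₂) (hP : ∀ t, P₂ (e t) ↔ P₁ t) (hZ : ∀ z ∈ Z₁, e z ∈ Z₂)
    (hπ : H17.IsCuspSys P₁ Z₁ π) : H17.IsCuspSys P₂ Z₂ (fun c => e (π c)) := by
  refine ⟨fun c => (hP _).2 (hπ.pos c), ?_, ?_⟩
  · intro t ht
    obtain ⟨t₁, rfl⟩ := e.surjective t
    obtain ⟨c, γ, k, hk, h⟩ := hπ.cover t₁ ((hP _).1 ht)
    exact ⟨c, e γ, k, hk, by rw [h]; simp⟩
  · intro c c' k k' γ hk hk' h
    obtain ⟨γ₁, rfl⟩ := e.surjective γ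
    have h' : γ₁ * π c ^ k * γ₁⁻¹ = π c' ^ k' := by
      apply e.injective
      simpa using h
    obtain ⟨h1, h2, j, z, hz, hγ⟩ := hπ.rigid c c' k k' γ₁ hk hk' h'
    exact ⟨h1, h2, j, e z, hZ z hz, by rw [hγ]; simp⟩

/-! ### The concrete cusp system -/

section cuspSys

variable (Γ : Subgroup SL(2, ℤ)) [Fintype (SL(2, ℤ) ⧸ Γ)] [DecidableEq (SL(2, ℤ) ⧸ Γ)]

theorem inv_mul_pow_mul {G : Type*} [Group G] (t X : G) (k : ℕ) :
    (t⁻¹ * X * t) ^ k = t⁻¹ * X ^ k * t := by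
  have h := conj_pow (a := t⁻¹) (b := X) (i := k)
  rw [inv_inv] at h
  exact h

theorem inv_mul_zpow_mul {G : Type*} [Group G] (t X : G) (k : ℤ) :
    (t⁻¹ * X * t) ^ k = t⁻¹ * X ^ k * t := by
  have h := conj_zpow (a := t⁻¹) (b := X) (i := k)
  rw [inv_inv] at h
  exact h

theorem coe_cuspPi_pow (hneg : (-1 : SL(2, ℤ)) ∈ Γ) (c : Cusp Γ) (k : ℕ) :
    ((cuspPi Γ hneg c ^ k : Γ) : SL(2, ℤ))
      = (cuspT Γ c)⁻¹ * ModularGroup.T ^ (cuspH Γ c * k) * cuspT Γ c := by
  rw [Subgroup.coe_pow, coe_cuspPi, inv_mul_pow_mul, pow_mul]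

theorem coe_cuspPi_zpow (hneg : (-1 : SL(2, ℤ)) ∈ Γ) (c : Cusp Γ) (j : ℤ) :
    ((cuspPi Γ hneg c ^ j : Γ) : SL(2, ℤ))
      = (cuspT Γ c)⁻¹ * ModularGroup.T ^ ((cuspH Γ c : ℤ) * j) * cuspT Γ c := by
  rw [Subgroup.coe_zpow, coe_cuspPi, inv_mul_zpow_mul, zpow_mul, zpow_natCast]

theorem neg_conj (a x : SL(2, ℤ)) : (-a)⁻¹ * x * (-a) = a⁻¹ * x * a := by
  rw [inv_neg, neg_mul, neg_mul, mul_neg, neg_neg]

theorem T_zpow_conj (k : ℤ) (n : ℕ) :
    (ModularGroup.T ^ k)⁻¹ * ModularGroup.T ^ n * ModularGroup.T ^ k = ModularGroup.T ^ n := by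
  rw [← zpow_natCast, ← zpow_neg, ← zpow_add, ← zpow_add]
  congr 1
  ring

/-- **The elements `π_c` form a cusp system** (helper17's `IsCuspSys`) for the positive
parabolic elements of `Γ`, with centre `{± 1}`. -/
theorem isCuspSys_cuspPi (hneg : (-1 : SL(2, ℤ)) ∈ Γ) :
    H17.IsCuspSys (fun γ : Γ => PosPar (γ : SL(2, ℤ))) (Subgroup.zpowers (negOne Γ hneg))
      (cuspPi Γ hneg) := by
  refine ⟨?_, ?_, ?_⟩
  · intro c
    exact posPar_conj_T_pow _ (cuspH_pos Γ c)
  · intro t ht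
    obtain ⟨x, n, hn, hx⟩ := exists_conj_of_posPar ht
    obtain ⟨c, hc, -⟩ := cusp_cov Γ hneg x
    obtain ⟨k, γ, hγ, hxk⟩ := hc
    have h1 : (t : SL(2, ℤ)) = γ⁻¹ * ((cuspT Γ c)⁻¹ * ModularGroup.T ^ n * cuspT Γ c) * γ := by
      have h0 : (ModularGroup.T ^ k * cuspT Γ c * γ)⁻¹ * ModularGroup.T ^ n
          * (ModularGroup.T ^ k * cuspT Γ c * γ)
          = γ⁻¹ * ((cuspT Γ c)⁻¹ * ModularGroup.T ^ n * cuspT Γ c) * γ := by
        have h00 := T_zpow_conj k n
        calc (ModularGroup.T ^ k * cuspT Γ c * γ)⁻¹ * ModularGroup.T ^ n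
              * (ModularGroup.T ^ k * cuspT Γ c * γ)
            = γ⁻¹ * ((cuspT Γ c)⁻¹ * ((ModularGroup.T ^ k)⁻¹ * ModularGroup.T ^ n
                * ModularGroup.T ^ k) * cuspT Γ c) * γ := by group
          _ = _ := by rw [h00]
      rcases hxk with h | h
      · rw [hx, h, h0]
      · rw [hx, h, neg_conj, h0]
    have h2 : (cuspT Γ c)⁻¹ * ModularGroup.T ^ n * cuspT Γ c ∈ Γ := by
      have : (cuspT Γ c)⁻¹ * ModularGroup.T ^ n * cuspT Γ c = γ * t * γ⁻¹ := by
        rw [h1]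
        group
      rw [this]
      exact Γ.mul_mem (Γ.mul_mem hγ t.2) (Γ.inv_mem hγ)
    obtain ⟨k', rfl⟩ := (cusp_mem_iff Γ hneg c n).1 h2
    refine ⟨c, ⟨γ⁻¹, Γ.inv_mem hγ⟩, k', ?_, ?_⟩
    · exact Nat.pos_of_ne_zero (by rintro rfl; simp at hn)
    · apply Subtype.ext
      rw [Subgroup.coe_mul, Subgroup.coe_mul, Subgroup.coe_inv, coe_cuspPi_pow, h1]
      simp
  · intro c c' k k' γ hk hk' h
    have h0 := congrArg Subtype.val h
    rw [Subgroup.coe_mul, Subgroup.coe_mul, Subgroup.coe_inv, coe_cuspPi_pow, coe_cuspPi_pow]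
      at h0
    have h1 : (cuspT Γ c' * γ * (cuspT Γ c)⁻¹) * ModularGroup.T ^ (cuspH Γ c * k)
        = ModularGroup.T ^ (cuspH Γ c' * k') * (cuspT Γ c' * γ * (cuspT Γ c)⁻¹) := by
      have h00 : ModularGroup.T ^ (cuspH Γ c' * k') = cuspT Γ c' * ((γ : SL(2, ℤ))
          * ((cuspT Γ c)⁻¹ * ModularGroup.T ^ (cuspH Γ c * k) * cuspT Γ c) * (γ : SL(2, ℤ))⁻¹)
          * (cuspT Γ c')⁻¹ := by
        rw [h0]
        group
      rw [h00]
      group
    obtain ⟨hab, j, hj⟩ := T_pow_conj (Nat.mul_pos (cuspH_pos Γ c') hk') h1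
    have h2 : ∃ (k : ℤ) (γ' : SL(2, ℤ)), γ' ∈ Γ ∧ (cuspT Γ c' = ModularGroup.T ^ k * cuspT Γ c * γ'
        ∨ cuspT Γ c' = -(ModularGroup.T ^ k * cuspT Γ c * γ')) := by
      refine ⟨j, (γ : SL(2, ℤ))⁻¹, Γ.inv_mem γ.2, ?_⟩
      rcases hj with hj | hj
      · left
        rw [← hj]
        group
      · right
        rw [← neg_mul, ← neg_mul, ← hj]
        group
    have h3 : c = c' := by
      obtain ⟨c₀, -, huniq⟩ := cusp_cov Γ hneg (cuspT Γ c')
      rw [huniq c h2, huniq c' ⟨0, 1, Γ.one_mem, Or.inl (by simp)⟩]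
    subst h3
    have h4 : k = k' := Nat.eq_of_mul_eq_mul_left (cuspH_pos Γ c) hab
    refine ⟨rfl, h4, ?_⟩
    have h5 : (cuspT Γ c)⁻¹ * ModularGroup.T ^ j * cuspT Γ c ∈ Γ := by
      rcases hj with hj | hj
      · have : (cuspT Γ c)⁻¹ * ModularGroup.T ^ j * cuspT Γ c = γ := by
          rw [← hj]
          group
        rw [this]
        exact γ.2
      · have : (cuspT Γ c)⁻¹ * ModularGroup.T ^ j * cuspT Γ c = -1 * γ := by
          have hj' : ModularGroup.T ^ j = -(cuspT Γ c * γ * (cuspT Γ c)⁻¹) := by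
            rw [hj, neg_neg]
          rw [hj', mul_neg, neg_mul, neg_one_mul]
          congr 1
          group
        rw [this]
        exact Γ.mul_mem hneg γ.2
    obtain ⟨j', rfl⟩ := (cusp_mem_zpow_iff Γ hneg c j).1 h5
    rcases hj with hj | hj
    · refine ⟨j', 1, Subgroup.one_mem _, ?_⟩
      apply Subtype.ext
      rw [one_mul, coe_cuspPi_zpow, ← hj]
      group
    · refine ⟨j', negOne Γ hneg, Subgroup.mem_zpowers _, ?_⟩
      apply Subtype.ext
      rw [Subgroup.coe_mul, coe_cuspPi_zpow]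
      have hj' : ModularGroup.T ^ ((cuspH Γ c : ℤ) * j') = -(cuspT Γ c * γ * (cuspT Γ c)⁻¹) := by
        rw [hj, neg_neg]
      rw [hj', mul_neg, neg_mul]
      show (γ : SL(2, ℤ)) = -1 * -_
      rw [neg_one_mul, neg_neg]
      group

end cuspSys

end Fermat.Agent.S41.H18
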