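/-
S41, node (C), leaf (C-PRES) (helper44): the presentation of `SL(2,ℤ)`,

  `SL(2,ℤ) = ⟨S, T | S ^ 4 = 1, (S * T) ^ 3 = S ^ 2⟩`,

as a universal property: for every group `H` and `s t : H` with `s ^ 4 = 1` and
`(s * t) ^ 3 = s ^ 2` there is a unique homomorphism `SL(2,ℤ) →* H` with `S ↦ s`, `T ↦ t`.

Proof.  Inside `H × SL(2,ℤ)` let `σ = (s, S)`, `ρ = (s t, S T)`, `ζ = σ² = ρ³` (central in
`K = ⟨σ, ρ⟩`, of order dividing two), `μ = σ ρ` (second component `-T`), `l = σ ρ⁻¹` (second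
component `[[1,0],[1,1]]`).  Every element of `K` is `ζ^e ρ^a m σ^b` with `a ≤ 2`, `b ≤ 1`
and `m` a positive word in `μ`, `l` (the set of such products is stable under left
multiplication by `σ`, `ρ`).  The second component of a positive word is `±` a matrix with
nonnegative entries and positive diagonal, and has a nonzero off-diagonal entry unless the word
is empty.  Comparing signs, `(h, 1) ∈ K` forces `h = 1`: so `K` is the graph of a homomorphism.
Mathlib only.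
-/
import Mathlib

set_option autoImplicit false

namespace Fermat.Agent.S41.H44

open Matrix MatrixGroups ModularGroup

/-! ### Explicit matrices -/

/-- `[[1,0],[1,1]]`. -/
def lowerOne : SL(2, ℤ) := ⟨!![1, 0; 1, 1], by simp [Matrix.det_fin_two_of]⟩

theorem coe_lowerOne : (lowerOne : Matrix (Fin 2) (Fin 2) ℤ) = !![1, 0; 1, 1] := rfl

theorem coe_S_mul_T : ((S * T : SL(2, ℤ)) : Matrix (Fin 2) (Fin 2) ℤ) = !![0, -1; 1, 1] := by
  rw [Matrix.SpecialLinearGroup.coe_mul, coe_S, coe_T, mul_fin_two]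
  norm_num

theorem coe_S_mul_T_sq :
    (((S * T) ^ 2 : SL(2, ℤ)) : Matrix (Fin 2) (Fin 2) ℤ) = !![-1, -1; 1, 0] := by
  rw [pow_two, Matrix.SpecialLinearGroup.coe_mul, coe_S_mul_T, mul_fin_two]
  norm_num

theorem coe_S_sq : ((S ^ 2 : SL(2, ℤ)) : Matrix (Fin 2) (Fin 2) ℤ) = !![-1, 0; 0, -1] := by
  rw [pow_two, Matrix.SpecialLinearGroup.coe_mul, coe_S, mul_fin_two]
  norm_num

theorem S_sq_eq_ST_cube : (S : SL(2, ℤ)) ^ 2 = (S * T) ^ 3 := by
  apply Subtype.ext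
  rw [pow_succ (S * T) 2, Matrix.SpecialLinearGroup.coe_mul, coe_S_mul_T_sq, coe_S_mul_T,
    coe_S_sq, mul_fin_two]
  norm_num

theorem S_pow_four : (S : SL(2, ℤ)) ^ 4 = 1 := by
  apply Subtype.ext
  have h : (S : SL(2, ℤ)) ^ 4 = S ^ 2 * S ^ 2 := by rw [← pow_add]
  rw [h, Matrix.SpecialLinearGroup.coe_mul, coe_S_sq, mul_fin_two,
    Matrix.SpecialLinearGroup.coe_one, one_fin_two]
  norm_num

theorem S_sq_ne_one : (S : SL(2, ℤ)) ^ 2 ≠ 1 := by
  intro h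
  have h1 : ((S ^ 2 : SL(2, ℤ)) : Matrix (Fin 2) (Fin 2) ℤ) 0 0
      = ((1 : SL(2, ℤ)) : Matrix (Fin 2) (Fin 2) ℤ) 0 0 := by rw [h]
  rw [coe_S_sq] at h1
  simp at h1

theorem S_mul_ST_inv : S * (S * T)⁻¹ = lowerOne := by
  rw [mul_inv_eq_iff_eq_mul]
  apply Subtype.ext
  rw [Matrix.SpecialLinearGroup.coe_mul, coe_lowerOne, coe_S_mul_T, coe_S, mul_fin_two]
  norm_num

theorem coe_S_mul_ST :
    ((S * (S * T) : SL(2, ℤ)) : Matrix (Fin 2) (Fin 2) ℤ) = !![-1, -1; 0, -1] := by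
  rw [Matrix.SpecialLinearGroup.coe_mul, coe_S_mul_T, coe_S, mul_fin_two]
  norm_num

theorem mul_apply_two (A g : SL(2, ℤ)) (i j : Fin 2) :
    (A * g) i j = A i 0 * g 0 j + A i 1 * g 1 j := by
  simp [Matrix.SpecialLinearGroup.coe_mul, Matrix.mul_apply, Fin.sum_univ_two]

/-! ### Sign patterns -/

/-- Nonnegative entries, positive diagonal. -/
def PosM (g : SL(2, ℤ)) : Prop := 0 < g 0 0 ∧ 0 ≤ g 0 1 ∧ 0 ≤ g 1 0 ∧ 0 < g 1 1

/-- Nonpositive entries, negative diagonal. -/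
def NegM (g : SL(2, ℤ)) : Prop := g 0 0 < 0 ∧ g 0 1 ≤ 0 ∧ g 1 0 ≤ 0 ∧ g 1 1 < 0

theorem posM_one : PosM 1 := by
  refine ⟨?_, ?_, ?_, ?_⟩ <;> simp

theorem signed_negT_mul {g : SL(2, ℤ)} (hg : PosM g ∨ NegM g) :
    (PosM (S * (S * T) * g) ∨ NegM (S * (S * T) * g)) ∧ (S * (S * T) * g) 0 1 ≠ 0 := by
  have e00 : (S * (S * T) * g) 0 0 = -(g 0 0 + g 1 0) := by
    rw [mul_apply_two, coe_S_mul_ST]; simp; ring
  have e01 : (S * (S * T) * g) 0 1 = -(g 0 1 + g 1 1) := by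
    rw [mul_apply_two, coe_S_mul_ST]; simp; ring
  have e10 : (S * (S * T) * g) 1 0 = -(g 1 0) := by
    rw [mul_apply_two, coe_S_mul_ST]; simp
  have e11 : (S * (S * T) * g) 1 1 = -(g 1 1) := by
    rw [mul_apply_two, coe_S_mul_ST]; simp
  rcases hg with ⟨h1, h2, h3, h4⟩ | ⟨h1, h2, h3, h4⟩
  · refine ⟨Or.inr ⟨?_, ?_, ?_, ?_⟩, ?_⟩ <;> first | (rw [e00]; omega) | (rw [e01]; omega) | (rw [e10]; omega) | (rw [e11]; omega)
  · refine ⟨Or.inl ⟨?_, ?_, ?_, ?_⟩, ?_⟩ <;> first | (rw [e00]; omega) | (rw [e01]; omega) | (rw [e10]; omega) | (rw [e11]; omega)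

theorem signed_lower_mul {g : SL(2, ℤ)} (hg : PosM g ∨ NegM g) :
    (PosM (lowerOne * g) ∨ NegM (lowerOne * g)) ∧ (lowerOne * g) 1 0 ≠ 0 := by
  have e00 : (lowerOne * g) 0 0 = g 0 0 := by
    rw [mul_apply_two, coe_lowerOne]; simp
  have e01 : (lowerOne * g) 0 1 = g 0 1 := by
    rw [mul_apply_two, coe_lowerOne]; simp
  have e10 : (lowerOne * g) 1 0 = g 0 0 + g 1 0 := by
    rw [mul_apply_two, coe_lowerOne]; simp
  have e11 : (lowerOne * g) 1 1 = g 0 1 + g 1 1 := by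
    rw [mul_apply_two, coe_lowerOne]; simp
  rcases hg with ⟨h1, h2, h3, h4⟩ | ⟨h1, h2, h3, h4⟩
  · refine ⟨Or.inl ⟨?_, ?_, ?_, ?_⟩, ?_⟩ <;> first | (rw [e00]; omega) | (rw [e01]; omega) | (rw [e10]; omega) | (rw [e11]; omega)
  · refine ⟨Or.inr ⟨?_, ?_, ?_, ?_⟩, ?_⟩ <;> first | (rw [e00]; omega) | (rw [e01]; omega) | (rw [e10]; omega) | (rw [e11]; omega)

theorem signed_rigid_gen {g R Q : SL(2, ℤ)}
    (R00 : R 0 0 = 0) (R01 : R 0 1 = -1) (R10 : R 1 0 = 1) (R11 : R 1 1 = 1)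
    (Q00 : Q 0 0 = -1) (Q01 : Q 0 1 = -1) (Q10 : Q 1 0 = 1) (Q11 : Q 1 1 = 0)
    (hQ : R ^ 2 = Q)
    (hg : PosM g ∨ NegM g) {a b : ℕ} (ha : a ≤ 2) (hb : b ≤ 1)
    (h : R ^ a * g * S ^ b = 1 ∨ R ^ a * g * S ^ b = S ^ 2) :
    a = 0 ∧ b = 0 ∧ g 0 1 = 0 ∧ g 1 0 = 0 := by
  -- entries of the target
  have key : ∀ i j : Fin 2, (R ^ a * g * S ^ b) i j = (1 : SL(2, ℤ)) i j ∨
      (R ^ a * g * S ^ b) i j = (S ^ 2 : SL(2, ℤ)) i j := by
    intro i j
    rcases h with h | h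
    · left; rw [h]
    · right; rw [h]
  have one01 : (1 : SL(2, ℤ)) 0 1 = 0 := by simp
  have one10 : (1 : SL(2, ℤ)) 1 0 = 0 := by simp
  have s01 : (S ^ 2 : SL(2, ℤ)) 0 1 = 0 := by rw [coe_S_sq]; simp
  have s10 : (S ^ 2 : SL(2, ℤ)) 1 0 = 0 := by rw [coe_S_sq]; simp
  have S00 : (S : SL(2, ℤ)) 0 0 = 0 := by rw [coe_S]; simp
  have S01 : (S : SL(2, ℤ)) 0 1 = -1 := by rw [coe_S]; simp
  have S10 : (S : SL(2, ℤ)) 1 0 = 1 := by rw [coe_S]; simp
  have S11 : (S : SL(2, ℤ)) 1 1 = 0 := by rw [coe_S]; simp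
  have k01 := key 0 1
  have k10 := key 1 0
  rw [one01, s01] at k01
  rw [one10, s10] at k10
  have ha' : a = 0 ∨ a = 1 ∨ a = 2 := by omega
  have hb' : b = 0 ∨ b = 1 := by omega
  rcases ha' with rfl | rfl | rfl <;> rcases hb' with rfl | rfl
  · -- a = 0, b = 0
    simp only [pow_zero, one_mul, mul_one] at k01 k10
    exact ⟨rfl, rfl, by tauto, by tauto⟩
  · -- a = 0, b = 1 : (g S) 0 1 = - g 0 0
    exfalso
    simp only [pow_zero, one_mul, pow_one] at k01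
    simp only [mul_apply_two, S01, S11] at k01
    rcases hg with ⟨h1, h2, h3, h4⟩ | ⟨h1, h2, h3, h4⟩ <;> rcases k01 with k | k <;> omega
  · -- a = 1, b = 0 : (R g) 0 1 = - g 1 1
    exfalso
    simp only [pow_zero, mul_one, pow_one] at k01
    simp only [mul_apply_two, R00, R01] at k01
    rcases hg with ⟨h1, h2, h3, h4⟩ | ⟨h1, h2, h3, h4⟩ <;> rcases k01 with k | k <;> omega
  · -- a = 1, b = 1 : (R g S) 1 0 = g 0 1 + g 1 1
    exfalso
    simp only [pow_one] at k10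
    simp only [mul_apply_two, S00, S10, R10, R11] at k10
    rcases hg with ⟨h1, h2, h3, h4⟩ | ⟨h1, h2, h3, h4⟩ <;> rcases k10 with k | k <;> omega
  · -- a = 2, b = 0 : (R² g) 1 0 = g 0 0
    exfalso
    simp only [pow_zero, mul_one, hQ] at k10
    simp only [mul_apply_two, Q10, Q11] at k10
    rcases hg with ⟨h1, h2, h3, h4⟩ | ⟨h1, h2, h3, h4⟩ <;> rcases k10 with k | k <;> omega
  · -- a = 2, b = 1 : (R² g S) 0 1 = -(g 0 0 + g 1 0)·(-1)
    exfalso
    simp only [pow_one, hQ] at k01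
    simp only [mul_apply_two, S01, S11, Q00, Q01] at k01
    rcases hg with ⟨h1, h2, h3, h4⟩ | ⟨h1, h2, h3, h4⟩ <;> rcases k01 with k | k <;> omega

/-- The six sign obstructions: `R^a * g * S^b ∈ {1, S²}` with `g` signed forces `a = b = 0`
and `g` diagonal. -/
theorem signed_rigid {g : SL(2, ℤ)} (hg : PosM g ∨ NegM g) {a b : ℕ} (ha : a ≤ 2) (hb : b ≤ 1)
    (h : (S * T) ^ a * g * S ^ b = 1 ∨ (S * T) ^ a * g * S ^ b = S ^ 2) :
    a = 0 ∧ b = 0 ∧ g 0 1 = 0 ∧ g 1 0 = 0 := by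
  refine signed_rigid_gen (R := S * T) (Q := (S * T) ^ 2) ?_ ?_ ?_ ?_ ?_ ?_ ?_ ?_ rfl hg ha hb h
  · rw [coe_S_mul_T]; simp
  · rw [coe_S_mul_T]; simp
  · rw [coe_S_mul_T]; simp
  · rw [coe_S_mul_T]; simp
  · rw [coe_S_mul_T_sq]; simp
  · rw [coe_S_mul_T_sq]; simp
  · rw [coe_S_mul_T_sq]; simp
  · rw [coe_S_mul_T_sq]; simp

/-! ### The graph subgroup -/

section Graph

variable {H : Type*} [Group H] (s t : H)

/-- `σ = (s, S)`. -/
def sig : H × SL(2, ℤ) := (s, S)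

/-- `ρ = (s t, S T)`. -/
def rho : H × SL(2, ℤ) := (s * t, S * T)

/-- Positive words in `μ = σ ρ` and `l = σ ρ⁻¹`. -/
inductive PosWord : H × SL(2, ℤ) → Prop
  | one : PosWord 1
  | mu (m : H × SL(2, ℤ)) : PosWord m → PosWord (sig s * rho s t * m)
  | lam (m : H × SL(2, ℤ)) : PosWord m → PosWord (sig s * (rho s t)⁻¹ * m)

variable {s t}

theorem PosWord.signed {m : H × SL(2, ℤ)} (hm : PosWord s t m) :
    (PosM m.2 ∨ NegM m.2) ∧ (m = 1 ∨ m.2 0 1 ≠ 0 ∨ m.2 1 0 ≠ 0) := by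
  induction hm with
  | one => exact ⟨Or.inl posM_one, Or.inl rfl⟩
  | mu m _ ih =>
    have h := signed_negT_mul ih.1
    have e : (sig s * rho s t * m).2 = S * (S * T) * m.2 := rfl
    rw [e]
    exact ⟨h.1, Or.inr (Or.inl h.2)⟩
  | lam m _ ih =>
    have h := signed_lower_mul ih.1
    have e : (sig s * (rho s t)⁻¹ * m).2 = lowerOne * m.2 := by
      show S * (S * T)⁻¹ * m.2 = lowerOne * m.2
      rw [S_mul_ST_inv]
    rw [e]
    exact ⟨h.1, Or.inr (Or.inr h.2)⟩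

variable (s t)

/-- Normal forms `ζ^e ρ^a m σ^b`. -/
def NF (x : H × SL(2, ℤ)) : Prop :=
  ∃ (e a b : ℕ) (m : H × SL(2, ℤ)), a ≤ 2 ∧ b ≤ 1 ∧ PosWord s t m ∧
    x = (sig s ^ 2) ^ e * rho s t ^ a * m * sig s ^ b

variable {s t}

theorem sig_sq_eq_rho_cube (hst : (s * t) ^ 3 = s ^ 2) : sig s ^ 2 = rho s t ^ 3 := by
  apply Prod.ext
  · exact hst.symm
  · exact S_sq_eq_ST_cube

theorem sig_pow_four (hs : s ^ 4 = 1) : sig s ^ 4 = 1 := by
  apply Prod.ext
  · exact hs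
  · exact S_pow_four

theorem zeta_sq (hs : s ^ 4 = 1) : (sig s ^ 2) ^ 2 = 1 := by
  rw [← pow_mul]; exact sig_pow_four hs

theorem zeta_comm_sig : Commute (sig s ^ 2) (sig s) := (Commute.refl _).pow_left 2

theorem zeta_comm_rho (hst : (s * t) ^ 3 = s ^ 2) : Commute (sig s ^ 2) (rho s t) := by
  rw [sig_sq_eq_rho_cube hst]; exact (Commute.refl _).pow_left 3

theorem NF_one : NF s t 1 := ⟨0, 0, 0, 1, by omega, by omega, PosWord.one, by simp⟩

theorem NF_rho (hst : (s * t) ^ 3 = s ^ 2) {x : H × SL(2, ℤ)} (hx : NF s t x) :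
    NF s t (rho s t * x) := by
  obtain ⟨e, a, b, m, ha, hb, hm, rfl⟩ := hx
  have hc : Commute (rho s t) ((sig s ^ 2) ^ e) := ((zeta_comm_rho hst).pow_left e).symm
  by_cases ha2 : a = 2
  · subst ha2
    refine ⟨e + 1, 0, b, m, by omega, hb, hm, ?_⟩
    calc rho s t * ((sig s ^ 2) ^ e * rho s t ^ 2 * m * sig s ^ b)
        = (rho s t * (sig s ^ 2) ^ e) * rho s t ^ 2 * m * sig s ^ b := by group
      _ = ((sig s ^ 2) ^ e * rho s t) * rho s t ^ 2 * m * sig s ^ b := by rw [hc.eq]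
      _ = (sig s ^ 2) ^ e * rho s t ^ 3 * m * sig s ^ b := by group
      _ = (sig s ^ 2) ^ (e + 1) * rho s t ^ 0 * m * sig s ^ b := by
          rw [← sig_sq_eq_rho_cube hst, pow_succ (sig s ^ 2) e, pow_zero, mul_one]
  · refine ⟨e, a + 1, b, m, by omega, hb, hm, ?_⟩
    calc rho s t * ((sig s ^ 2) ^ e * rho s t ^ a * m * sig s ^ b)
        = (rho s t * (sig s ^ 2) ^ e) * rho s t ^ a * m * sig s ^ b := by group
      _ = ((sig s ^ 2) ^ e * rho s t) * rho s t ^ a * m * sig s ^ b := by rw [hc.eq]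
      _ = (sig s ^ 2) ^ e * rho s t ^ (a + 1) * m * sig s ^ b := by
          rw [pow_succ' (rho s t) a]; group

theorem NF_sig (hst : (s * t) ^ 3 = s ^ 2) {x : H × SL(2, ℤ)} (hx : NF s t x) :
    NF s t (sig s * x) := by
  obtain ⟨e, a, b, m, ha, hb, hm, rfl⟩ := hx
  have hc : Commute (sig s) ((sig s ^ 2) ^ e) := (zeta_comm_sig.pow_left e).symm
  have hz : sig s ^ 2 = rho s t ^ 3 := sig_sq_eq_rho_cube hst
  have ha' : a = 0 ∨ a = 1 ∨ a = 2 := by omega
  rcases ha' with rfl | rfl | rfl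
  · -- a = 0: look at the first letter of `m`
    cases hm with
    | one =>
      have hb' : b = 0 ∨ b = 1 := by omega
      rcases hb' with rfl | rfl
      · refine ⟨e, 0, 1, 1, by omega, by omega, PosWord.one, ?_⟩
        simp only [pow_zero, mul_one, pow_one]
        exact hc.eq
      · refine ⟨e + 1, 0, 0, 1, by omega, by omega, PosWord.one, ?_⟩
        simp only [pow_zero, mul_one, pow_one]
        calc sig s * ((sig s ^ 2) ^ e * sig s)
            = (sig s * (sig s ^ 2) ^ e) * sig s := by group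
          _ = ((sig s ^ 2) ^ e * sig s) * sig s := by rw [hc.eq]
          _ = (sig s ^ 2) ^ (e + 1) := by rw [pow_succ (sig s ^ 2) e, pow_two]; group
    | mu m' hm' =>
      refine ⟨e + 1, 1, b, m', by omega, hb, hm', ?_⟩
      calc sig s * ((sig s ^ 2) ^ e * rho s t ^ 0 * (sig s * rho s t * m') * sig s ^ b)
          = (sig s * (sig s ^ 2) ^ e) * sig s * rho s t * m' * sig s ^ b := by group
        _ = ((sig s ^ 2) ^ e * sig s) * sig s * rho s t * m' * sig s ^ b := by rw [hc.eq]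
        _ = (sig s ^ 2) ^ (e + 1) * rho s t ^ 1 * m' * sig s ^ b := by
            rw [pow_succ (sig s ^ 2) e, pow_two, pow_one]; group
    | lam m' hm' =>
      refine ⟨e, 2, b, m', by omega, hb, hm', ?_⟩
      calc sig s * ((sig s ^ 2) ^ e * rho s t ^ 0 * (sig s * (rho s t)⁻¹ * m') * sig s ^ b)
          = (sig s * (sig s ^ 2) ^ e) * sig s * (rho s t)⁻¹ * m' * sig s ^ b := by group
        _ = ((sig s ^ 2) ^ e * sig s) * sig s * (rho s t)⁻¹ * m' * sig s ^ b := by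
            rw [hc.eq]
        _ = (sig s ^ 2) ^ e * (sig s ^ 2) * (rho s t)⁻¹ * m' * sig s ^ b := by
            rw [pow_two]; group
        _ = (sig s ^ 2) ^ e * rho s t ^ 2 * m' * sig s ^ b := by
            rw [hz]; group
  · -- a = 1
    refine ⟨e, 0, b, sig s * rho s t * m, by omega, hb, PosWord.mu m hm, ?_⟩
    calc sig s * ((sig s ^ 2) ^ e * rho s t ^ 1 * m * sig s ^ b)
        = (sig s * (sig s ^ 2) ^ e) * rho s t * m * sig s ^ b := by group
      _ = ((sig s ^ 2) ^ e * sig s) * rho s t * m * sig s ^ b := by rw [hc.eq]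
      _ = (sig s ^ 2) ^ e * rho s t ^ 0 * (sig s * rho s t * m) * sig s ^ b := by group
  · -- a = 2 : σ ρ² = (σ ρ⁻¹) ζ
    have hcr : Commute (rho s t) ((sig s ^ 2) ^ e) := ((zeta_comm_rho hst).pow_left e).symm
    refine ⟨e + 1, 0, b, sig s * (rho s t)⁻¹ * m, by omega, hb, PosWord.lam m hm, ?_⟩
    have h3 : rho s t ^ 2 = (rho s t)⁻¹ * sig s ^ 2 := by rw [hz]; group
    have hcz : Commute (sig s * (rho s t)⁻¹) (sig s ^ 2) :=
      (zeta_comm_sig.symm).mul_left (zeta_comm_rho hst).symm.inv_left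
    calc sig s * ((sig s ^ 2) ^ e * rho s t ^ 2 * m * sig s ^ b)
        = (sig s * (sig s ^ 2) ^ e) * rho s t ^ 2 * m * sig s ^ b := by group
      _ = ((sig s ^ 2) ^ e * sig s) * ((rho s t)⁻¹ * sig s ^ 2) * m * sig s ^ b := by
          rw [hc.eq, h3]
      _ = (sig s ^ 2) ^ e * ((sig s * (rho s t)⁻¹) * sig s ^ 2) * m * sig s ^ b := by
          group
      _ = (sig s ^ 2) ^ e * (sig s ^ 2 * (sig s * (rho s t)⁻¹)) * m * sig s ^ b := by
          rw [hcz.eq]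
      _ = (sig s ^ 2) ^ (e + 1) * rho s t ^ 0 * (sig s * (rho s t)⁻¹ * m) * sig s ^ b := by
          rw [pow_succ]; group

variable (s t)

/-- The subgroup of `H × SL(2,ℤ)` generated by `(s, S)` and `(s t, S T)`. -/
def graphSubgroup : Subgroup (H × SL(2, ℤ)) := Subgroup.closure {sig s, rho s t}

variable {s t}

theorem NF_of_mem (hs : s ^ 4 = 1) (hst : (s * t) ^ 3 = s ^ 2) {x : H × SL(2, ℤ)}
    (hx : x ∈ graphSubgroup s t) : NF s t x := by
  have hsig6 : (sig s)⁻¹ = sig s ^ 3 := by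
    rw [inv_eq_iff_mul_eq_one, ← pow_succ']; exact sig_pow_four hs
  have hrho6 : (rho s t)⁻¹ = rho s t ^ 5 := by
    rw [inv_eq_iff_mul_eq_one, ← pow_succ']
    have : rho s t ^ 6 = (rho s t ^ 3) ^ 2 := by rw [← pow_mul]
    rw [this, ← sig_sq_eq_rho_cube hst]; exact zeta_sq hs
  -- left multiplication by any element of the closure preserves `NF`
  have key : ∀ y : H × SL(2, ℤ), NF s t y → NF s t (x * y) := by
    unfold graphSubgroup at hx
    induction hx using Subgroup.closure_induction'' with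
    | mem z hz =>
      intro y hy
      rcases hz with rfl | rfl
      · exact NF_sig hst hy
      · exact NF_rho hst hy
    | inv_mem z hz =>
      intro y hy
      rcases hz with rfl | rfl
      · rw [hsig6, pow_succ, pow_two, mul_assoc, mul_assoc]
        exact NF_sig hst (NF_sig hst (NF_sig hst hy))
      · rw [hrho6]
        have e5 : rho s t ^ 5 * y = rho s t * (rho s t * (rho s t * (rho s t * (rho s t * y)))) := by
          simp only [pow_succ, pow_zero, one_mul, mul_assoc]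
        rw [e5]
        exact NF_rho hst (NF_rho hst (NF_rho hst (NF_rho hst (NF_rho hst hy))))
    | one => intro y hy; simpa using hy
    | mul a b _ _ iha ihb =>
      intro y hy
      rw [mul_assoc]
      exact iha _ (ihb _ hy)
  simpa using key 1 NF_one

/-- The graph subgroup meets `H × {1}` trivially. -/
theorem eq_one_of_mem_of_snd_eq_one (hs : s ^ 4 = 1) (hst : (s * t) ^ 3 = s ^ 2)
    {x : H × SL(2, ℤ)} (hx : x ∈ graphSubgroup s t) (h1 : x.2 = 1) : x = 1 := by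
  obtain ⟨e, a, b, m, ha, hb, hm, rfl⟩ := NF_of_mem hs hst hx
  have hsgn := hm.signed
  -- second components
  have h2 : (S ^ 2 : SL(2, ℤ)) ^ e * ((S * T) ^ a * m.2 * S ^ b) = 1 := by
    have : ((sig s ^ 2) ^ e * rho s t ^ a * m * sig s ^ b).2
        = (S ^ 2 : SL(2, ℤ)) ^ e * (S * T) ^ a * m.2 * S ^ b := rfl
    rw [this] at h1
    rw [← h1]; group
  have hz2 : (S ^ 2 : SL(2, ℤ)) ^ 2 = 1 := by rw [← pow_mul]; exact S_pow_four
  -- `(S²)^e` is `1` or `S²`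
  have hpar : ((S ^ 2 : SL(2, ℤ)) ^ e = 1 ∧ Even e) ∨ ((S ^ 2 : SL(2, ℤ)) ^ e = S ^ 2 ∧ Odd e) := by
    rcases Nat.even_or_odd e with he | he
    · left
      obtain ⟨k, rfl⟩ := he
      refine ⟨?_, ⟨k, rfl⟩⟩
      rw [← two_mul, pow_mul, hz2, one_pow]
    · right
      obtain ⟨k, rfl⟩ := he
      refine ⟨?_, ⟨k, rfl⟩⟩
      rw [pow_succ, pow_mul, hz2, one_pow, one_mul]
  have hY : (S * T) ^ a * m.2 * S ^ b = 1 ∨ (S * T) ^ a * m.2 * S ^ b = S ^ 2 := by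
    rcases hpar with ⟨h, _⟩ | ⟨h, _⟩
    · left; rw [h, one_mul] at h2; exact h2
    · right
      rw [h] at h2
      have h3 : (S * T) ^ a * m.2 * S ^ b = ((S : SL(2, ℤ)) ^ 2)⁻¹ := eq_inv_of_mul_eq_one_right h2
      have h4 : ((S : SL(2, ℤ)) ^ 2)⁻¹ = S ^ 2 :=
        inv_eq_of_mul_eq_one_right (by rw [← pow_two]; exact hz2)
      rw [h3, h4]
  obtain ⟨rfl, rfl, h01, h10⟩ := signed_rigid hsgn.1 ha hb hY
  have hm1 : m = 1 := by
    rcases hsgn.2 with h | h | h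
    · exact h
    · exact absurd h01 h
    · exact absurd h10 h
  subst hm1
  simp only [pow_zero, mul_one] at h2 ⊢
  have h2' : (S ^ 2 : SL(2, ℤ)) ^ e = 1 := by simpa using h2
  rcases hpar with ⟨_, he⟩ | ⟨h, _⟩
  · obtain ⟨k, rfl⟩ := he
    rw [← two_mul, pow_mul, zeta_sq hs, one_pow]
  · rw [h] at h2'
    exact absurd h2' S_sq_ne_one

theorem sig_mem : sig s ∈ graphSubgroup s t := Subgroup.subset_closure (by simp)

theorem rho_mem : rho s t ∈ graphSubgroup s t := Subgroup.subset_closure (by simp)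

theorem t_mem : ((t, T) : H × SL(2, ℤ)) ∈ graphSubgroup s t := by
  have h : ((t, T) : H × SL(2, ℤ)) = (sig s)⁻¹ * rho s t := by
    apply Prod.ext
    · show t = s⁻¹ * (s * t); group
    · show T = S⁻¹ * (S * T); group
  rw [h]
  exact (graphSubgroup s t).mul_mem ((graphSubgroup s t).inv_mem sig_mem) rho_mem

theorem exists_mem_snd (g : SL(2, ℤ)) : ∃ h : H, (h, g) ∈ graphSubgroup s t := by
  have hg : g ∈ Subgroup.closure ({S, T} : Set SL(2, ℤ)) := by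
    rw [SpecialLinearGroup.SL2Z_generators]; trivial
  induction hg using Subgroup.closure_induction with
  | mem x hx =>
    rcases hx with rfl | rfl
    · exact ⟨s, sig_mem⟩
    · exact ⟨t, t_mem⟩
  | one => exact ⟨1, (graphSubgroup s t).one_mem⟩
  | mul x y _ _ ihx ihy =>
    obtain ⟨h1, hh1⟩ := ihx
    obtain ⟨h2, hh2⟩ := ihy
    exact ⟨h1 * h2, (graphSubgroup s t).mul_mem hh1 hh2⟩
  | inv x _ ihx =>
    obtain ⟨h1, hh1⟩ := ihx
    exact ⟨h1⁻¹, (graphSubgroup s t).inv_mem hh1⟩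

end Graph

/-! ### The universal property -/

section Lift

variable {H : Type*} [Group H] (s t : H) (hs : s ^ 4 = 1) (hst : (s * t) ^ 3 = s ^ 2)

include hs hst in
theorem snd_bijective :
    Function.Bijective ((MonoidHom.snd H SL(2, ℤ)).comp (graphSubgroup s t).subtype) := by
  constructor
  · rw [injective_iff_map_eq_one]
    intro x hx
    have := eq_one_of_mem_of_snd_eq_one hs hst x.2 hx
    exact Subtype.ext this
  · intro g
    obtain ⟨h, hh⟩ := exists_mem_snd (s := s) (t := t) g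
    exact ⟨⟨(h, g), hh⟩, rfl⟩

/-- The homomorphism `SL(2,ℤ) →* H` with `S ↦ s`, `T ↦ t`, for `s ^ 4 = 1`,
`(s * t) ^ 3 = s ^ 2`. -/
noncomputable def sl2Lift : SL(2, ℤ) →* H :=
  ((MonoidHom.fst H SL(2, ℤ)).comp (graphSubgroup s t).subtype).comp
    (MulEquiv.ofBijective _ (snd_bijective s t hs hst)).symm.toMonoidHom

theorem sl2Lift_of_mem {h : H} {g : SL(2, ℤ)} (hm : (h, g) ∈ graphSubgroup s t) :
    sl2Lift s t hs hst g = h := by
  have e : (MulEquiv.ofBijective _ (snd_bijective s t hs hst)).symm g = ⟨(h, g), hm⟩ := by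
    rw [MulEquiv.symm_apply_eq]; rfl
  show ((MulEquiv.ofBijective _ (snd_bijective s t hs hst)).symm g).1.1 = h
  rw [e]

@[simp] theorem sl2Lift_S : sl2Lift s t hs hst S = s := sl2Lift_of_mem s t hs hst sig_mem

@[simp] theorem sl2Lift_T : sl2Lift s t hs hst T = t := sl2Lift_of_mem s t hs hst t_mem

theorem sl2Lift_S_mul_T : sl2Lift s t hs hst (S * T) = s * t := by
  rw [map_mul, sl2Lift_S, sl2Lift_T]

/-- Two homomorphisms out of `SL(2,ℤ)` agreeing on `S` and `T` are equal. -/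
theorem monoidHom_SL2Z_ext {H : Type*} [Monoid H] {φ ψ : SL(2, ℤ) →* H}
    (hS : φ S = ψ S) (hT : φ T = ψ T) : φ = ψ := by
  apply MonoidHom.eq_of_eqOn_dense SpecialLinearGroup.SL2Z_generators
  intro x hx
  rcases hx with rfl | rfl
  · exact hS
  · exact hT

include hs hst in
/-- **Presentation of `SL(2,ℤ)`** (universal property):
`SL(2,ℤ) = ⟨S, T | S ^ 4 = 1, (S * T) ^ 3 = S ^ 2⟩`. -/
theorem exists_unique_monoidHom_SL2Z :
    ∃! φ : Matrix.SpecialLinearGroup (Fin 2) ℤ →* H,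
      φ ModularGroup.S = s ∧ φ ModularGroup.T = t := by
  refine ⟨sl2Lift s t hs hst, ⟨sl2Lift_S s t hs hst, sl2Lift_T s t hs hst⟩, ?_⟩
  rintro ψ ⟨hS, hT⟩
  exact monoidHom_SL2Z_ext (by rw [hS, sl2Lift_S]) (by rw [hT, sl2Lift_T])

/-- The same presentation with generators `S` and `R = S * T` (orders `4` and `6`):
`SL(2,ℤ) = ⟨S, R | S ^ 4 = 1, R ^ 3 = S ^ 2⟩`. -/
theorem exists_unique_monoidHom_SL2Z_SR {H : Type*} [Group H] (s r : H) (hs : s ^ 4 = 1)
    (hr : r ^ 3 = s ^ 2) :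
    ∃! φ : Matrix.SpecialLinearGroup (Fin 2) ℤ →* H,
      φ ModularGroup.S = s ∧ φ (ModularGroup.S * ModularGroup.T) = r := by
  have hst : (s * (s⁻¹ * r)) ^ 3 = s ^ 2 := by rw [mul_inv_cancel_left]; exact hr
  refine ⟨sl2Lift s (s⁻¹ * r) hs hst, ⟨sl2Lift_S _ _ hs hst, ?_⟩, ?_⟩
  · rw [sl2Lift_S_mul_T, mul_inv_cancel_left]
  · rintro ψ ⟨hS, hR⟩
    refine monoidHom_SL2Z_ext (by rw [hS, sl2Lift_S]) ?_
    rw [sl2Lift_T]
    have : ψ T = (ψ S)⁻¹ * ψ (S * T) := by rw [map_mul, inv_mul_cancel_left]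
    rw [this, hS, hR]

end Lift

/-- The relations do hold in `SL(2,ℤ)`: `S ^ 4 = 1` and `(S * T) ^ 3 = S ^ 2`. -/
theorem SL2Z_relations : (S : SL(2, ℤ)) ^ 4 = 1 ∧ ((S * T : SL(2, ℤ))) ^ 3 = S ^ 2 :=
  ⟨S_pow_four, S_sq_eq_ST_cube.symm⟩

end Fermat.Agent.S41.H44
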