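import Mathlib
import Fermat.Agent.S41.SL2Pres_helper44
import Fermat.Agent.S41.PDRes_helper95

/-!
# (C-LIFT): Heisenberg lifts exist

For a subgroup `Γ ≤ SL(2,ℤ)` containing `-1` and two additive characters `φ ψ : Γ → A`
(`A` any commutative ring) killing the elements of finite order, there is a function
`F : Γ → A` with `F (g h) = F g + F h + φ g * ψ h` (a Heisenberg lift of `(φ, ψ)`).

Proof: Shapiro cocycles on `X = SL(2,ℤ) ⧸ Γ`, the twisted Heisenberg group `HK X A`,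
and the presentation of `SL(2,ℤ)` (landed `H44.exists_unique_monoidHom_SL2Z_SR`).
-/

set_option autoImplicit false

open scoped MatrixGroups

namespace Fermat.Agent.S41.H37

universe u v

/-- The twisted Heisenberg group over functions `X → A`, with a permutation component:
`(σ, a, b, z)` with `(σ,a,b,z)(τ,a',b',z') = (στ, a + σ·a', b + σ·b', z + σ·z' + a * σ·b')`,
where `(σ·f) x = f (σ⁻¹ x)`. -/
@[ext] structure HK (X : Type u) (A : Type v) where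
  σ : Equiv.Perm X
  a : X → A
  b : X → A
  z : X → A

namespace HK

variable {X : Type u} {A : Type v} [CommRing A]

theorem perm_symm_mul_apply (σ τ : Equiv.Perm X) (x : X) :
    (σ * τ).symm x = τ.symm (σ.symm x) := rfl

theorem perm_symm_one_apply (x : X) : (1 : Equiv.Perm X).symm x = x := rfl

theorem perm_symm_inv_apply (σ : Equiv.Perm X) (x : X) : (σ⁻¹).symm x = σ x := rfl

instance : Mul (HK X A) :=
  ⟨fun p q => ⟨p.σ * q.σ, fun x => p.a x + q.a (p.σ.symm x), fun x => p.b x + q.b (p.σ.symm x),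
    fun x => p.z x + q.z (p.σ.symm x) + p.a x * q.b (p.σ.symm x)⟩⟩

instance : One (HK X A) := ⟨⟨1, fun _ => 0, fun _ => 0, fun _ => 0⟩⟩

instance : Inv (HK X A) :=
  ⟨fun p => ⟨p.σ⁻¹, fun x => - p.a (p.σ x), fun x => - p.b (p.σ x),
    fun x => - p.z (p.σ x) + p.a (p.σ x) * p.b (p.σ x)⟩⟩

@[simp] theorem mul_σ (p q : HK X A) : (p * q).σ = p.σ * q.σ := rfl
@[simp] theorem mul_a (p q : HK X A) (x : X) : (p * q).a x = p.a x + q.a (p.σ.symm x) := rfl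
@[simp] theorem mul_b (p q : HK X A) (x : X) : (p * q).b x = p.b x + q.b (p.σ.symm x) := rfl
@[simp] theorem mul_z (p q : HK X A) (x : X) :
    (p * q).z x = p.z x + q.z (p.σ.symm x) + p.a x * q.b (p.σ.symm x) := rfl
@[simp] theorem one_σ : (1 : HK X A).σ = 1 := rfl
@[simp] theorem one_a (x : X) : (1 : HK X A).a x = 0 := rfl
@[simp] theorem one_b (x : X) : (1 : HK X A).b x = 0 := rfl
@[simp] theorem one_z (x : X) : (1 : HK X A).z x = 0 := rfl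
@[simp] theorem inv_σ (p : HK X A) : (p⁻¹).σ = p.σ⁻¹ := rfl
@[simp] theorem inv_a (p : HK X A) (x : X) : (p⁻¹).a x = - p.a (p.σ x) := rfl
@[simp] theorem inv_b (p : HK X A) (x : X) : (p⁻¹).b x = - p.b (p.σ x) := rfl
@[simp] theorem inv_z (p : HK X A) (x : X) :
    (p⁻¹).z x = - p.z (p.σ x) + p.a (p.σ x) * p.b (p.σ x) := rfl

instance : Group (HK X A) :=
  Group.ofLeftAxioms
    (by
      intro p q r
      ext x
      · simp [mul_assoc]
      · simp [add_assoc, perm_symm_mul_apply]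
      · simp [add_assoc, perm_symm_mul_apply]
      · simp [perm_symm_mul_apply]; ring)
    (by
      intro p
      ext x <;> simp [perm_symm_one_apply])
    (by
      intro p
      ext x <;> simp [perm_symm_inv_apply])

/-- projection to the permutation component. -/
def prσ : HK X A →* Equiv.Perm X where
  toFun p := p.σ
  map_one' := rfl
  map_mul' _ _ := rfl

end HK

section OrbitChoice

variable {X : Type u} {A : Type v} [AddCommGroup A]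

/-- solving `ξ + ξ ∘ τ = w` for an involution `τ` (one point per free orbit). -/
theorem exists_pair_sum (τ : Equiv.Perm X) (hτ : ∀ x, τ (τ x) = x) (w : X → A)
    (hw : ∀ x, w (τ x) = w x) (hfix : ∀ x, τ x = x → w x = 0) :
    ∃ ξ : X → A, ∀ x, ξ x + ξ (τ x) = w x := by
  classical
  obtain ⟨_, _⟩ := exists_wellFoundedLT X
  refine ⟨fun x => if x < τ x then w x else 0, fun x => ?_⟩
  simp only [hτ]
  rcases lt_trichotomy x (τ x) with h | h | h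
  · rw [if_pos h, if_neg (not_lt_of_gt h), add_zero]
  · rw [if_neg (by rw [← h]; exact lt_irrefl x), if_neg (by rw [← h]; exact lt_irrefl x), add_zero,
      hfix x h.symm]
  · rw [if_neg (not_lt_of_gt h), if_pos h, zero_add, hw]

/-- solving `ζ + ζ ∘ ρ + ζ ∘ ρ² = m` for a permutation `ρ` with `ρ³ = 1`
(one point per free orbit). -/
theorem exists_triple_sum (ρ : Equiv.Perm X) (hρ : ∀ x, ρ (ρ (ρ x)) = x) (m : X → A)
    (hm : ∀ x, m (ρ x) = m x) (hfix : ∀ x, ρ x = x → m x = 0) :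
    ∃ ζ : X → A, ∀ x, ζ x + ζ (ρ x) + ζ (ρ (ρ x)) = m x := by
  classical
  obtain ⟨_, _⟩ := exists_wellFoundedLT X
  refine ⟨fun x => if x < ρ x ∧ x < ρ (ρ x) then m x else 0, fun x => ?_⟩
  simp only [hρ]
  have hm1 : m (ρ x) = m x := hm x
  have hm2 : m (ρ (ρ x)) = m x := by rw [hm, hm]
  by_cases h01 : ρ x = x
  · have h02 : ρ (ρ x) = x := by rw [h01, h01]
    simp [h01, hfix x h01]
  · have h12 : ρ (ρ x) ≠ ρ x := fun h => h01 (ρ.injective h)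
    have h20 : ρ (ρ x) ≠ x := by
      intro h
      apply h01
      have := congrArg ρ h
      rw [hρ] at this
      exact this.symm
    rw [hm1, hm2]
    rcases lt_or_gt_of_ne h01 with a | a <;> rcases lt_or_gt_of_ne h12 with b | b <;>
      rcases lt_or_gt_of_ne h20 with c | c
    all_goals first
      | exact absurd (lt_trans (lt_trans a c) b) (lt_irrefl _)
      | exact absurd (lt_trans (lt_trans a b) c) (lt_irrefl _)
      | exact absurd (lt_trans (lt_trans b a) c) (lt_irrefl _)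
      | exact absurd (lt_trans (lt_trans c b) a) (lt_irrefl _)
      | simp [a, b, c, not_lt_of_gt a, not_lt_of_gt b, not_lt_of_gt c]

end OrbitChoice

section Shapiro

variable (Γ : Subgroup SL(2, ℤ))

/-- coset representatives of `SL(2,ℤ) ⧸ Γ`. -/
noncomputable def rep (x : SL(2, ℤ) ⧸ Γ) : SL(2, ℤ) := Quotient.out x

theorem rep_spec (x : SL(2, ℤ) ⧸ Γ) : ((rep Γ x : SL(2, ℤ)) : SL(2, ℤ) ⧸ Γ) = x :=
  QuotientGroup.out_eq' x

theorem kap_mem (g : SL(2, ℤ)) (y : SL(2, ℤ) ⧸ Γ) :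
    (rep Γ y)⁻¹ * g * rep Γ (g⁻¹ • y) ∈ Γ := by
  rw [mul_assoc, ← QuotientGroup.eq, rep_spec]
  have h : ((g * rep Γ (g⁻¹ • y) : SL(2, ℤ)) : SL(2, ℤ) ⧸ Γ) = g • ((rep Γ (g⁻¹ • y) : SL(2, ℤ)) : SL(2, ℤ) ⧸ Γ) := rfl
  rw [h, rep_spec, smul_inv_smul]

/-- the Shapiro cocycle element `κ(g, y) = t(y)⁻¹ g t(g⁻¹ y) ∈ Γ`. -/
noncomputable def kap (g : SL(2, ℤ)) (y : SL(2, ℤ) ⧸ Γ) : Γ :=
  ⟨(rep Γ y)⁻¹ * g * rep Γ (g⁻¹ • y), kap_mem Γ g y⟩

theorem kap_mul (g h : SL(2, ℤ)) (y : SL(2, ℤ) ⧸ Γ) :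
    kap Γ (g * h) y = kap Γ g y * kap Γ h (g⁻¹ • y) := by
  apply Subtype.ext
  simp only [kap, Subgroup.coe_mul, mul_inv_rev, mul_smul]
  group

theorem kap_one (y : SL(2, ℤ) ⧸ Γ) : kap Γ 1 y = 1 := by
  apply Subtype.ext
  simp [kap]

theorem kap_coe_of_fix {g : SL(2, ℤ)} {y : SL(2, ℤ) ⧸ Γ} (h : g⁻¹ • y = y) :
    ((kap Γ g y : Γ) : SL(2, ℤ)) = (rep Γ y)⁻¹ * g * rep Γ y := by
  simp [kap, h]

theorem kap_isOfFinOrder {g : SL(2, ℤ)} {y : SL(2, ℤ) ⧸ Γ} (h : g⁻¹ • y = y) {n : ℕ}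
    (hn : 0 < n) (hg : g ^ n = 1) : IsOfFinOrder (kap Γ g y) := by
  rw [isOfFinOrder_iff_pow_eq_one]
  refine ⟨n, hn, Subtype.ext ?_⟩
  rw [Subgroup.coe_pow, kap_coe_of_fix Γ h]
  have := conj_pow (a := (rep Γ y)⁻¹) (b := g) (i := n)
  rw [inv_inv] at this
  rw [this, hg]
  simp

variable {A : Type v} [CommRing A]

/-- the Shapiro cocycle of a character. -/
noncomputable def coc (φ : Additive Γ →+ A) (g : SL(2, ℤ)) : (SL(2, ℤ) ⧸ Γ) → A :=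
  fun y => φ (Additive.ofMul (kap Γ g y))

theorem coc_mul (φ : Additive Γ →+ A) (g h : SL(2, ℤ)) (y : SL(2, ℤ) ⧸ Γ) :
    coc Γ φ (g * h) y = coc Γ φ g y + coc Γ φ h (g⁻¹ • y) := by
  simp only [coc, kap_mul, ofMul_mul, map_add]

theorem coc_one (φ : Additive Γ →+ A) (y : SL(2, ℤ) ⧸ Γ) : coc Γ φ 1 y = 0 := by
  simp [coc, kap_one]

theorem coc_inv (φ : Additive Γ →+ A) (g : SL(2, ℤ)) (y : SL(2, ℤ) ⧸ Γ) :
    coc Γ φ g⁻¹ y = - coc Γ φ g (g • y) := by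
  have h := coc_mul Γ φ g⁻¹ g y
  rw [inv_mul_cancel, coc_one, inv_inv] at h
  exact eq_neg_of_add_eq_zero_left h.symm

end Shapiro

section Main

open ModularGroup

variable (Γ : Subgroup SL(2, ℤ)) {A : Type v} [CommRing A]

theorem neg_one_smul_quot (hneg : (-1 : SL(2, ℤ)) ∈ Γ) (y : SL(2, ℤ) ⧸ Γ) :
    (-1 : SL(2, ℤ)) • y = y := by
  induction y using QuotientGroup.induction_on with
  | H h =>
    show (((-1 : SL(2, ℤ)) * h : SL(2, ℤ)) : SL(2, ℤ) ⧸ Γ) = (h : SL(2, ℤ) ⧸ Γ)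
    rw [eq_comm, QuotientGroup.eq]
    simpa using hneg

theorem base_fix (γ : Γ) :
    ((γ : SL(2, ℤ)))⁻¹ • ((1 : SL(2, ℤ)) : SL(2, ℤ) ⧸ Γ) = ((1 : SL(2, ℤ)) : SL(2, ℤ) ⧸ Γ) := by
  show ((((γ : SL(2, ℤ)))⁻¹ * 1 : SL(2, ℤ)) : SL(2, ℤ) ⧸ Γ) = ((1 : SL(2, ℤ)) : SL(2, ℤ) ⧸ Γ)
  rw [QuotientGroup.eq]
  simp

theorem rep_base_mem : rep Γ ((1 : SL(2, ℤ)) : SL(2, ℤ) ⧸ Γ) ∈ Γ := by
  have h := rep_spec Γ ((1 : SL(2, ℤ)) : SL(2, ℤ) ⧸ Γ)
  rw [QuotientGroup.eq] at h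
  simpa using Γ.inv_mem h

theorem coc_base (χ : Additive Γ →+ A) (γ : Γ) :
    coc Γ χ (γ : SL(2, ℤ)) ((1 : SL(2, ℤ)) : SL(2, ℤ) ⧸ Γ) = χ (Additive.ofMul γ) := by
  have hk : kap Γ (γ : SL(2, ℤ)) ((1 : SL(2, ℤ)) : SL(2, ℤ) ⧸ Γ)
      = (⟨_, rep_base_mem Γ⟩ : Γ)⁻¹ * γ * ⟨_, rep_base_mem Γ⟩ := by
    apply Subtype.ext
    rw [kap_coe_of_fix Γ (base_fix Γ γ)]
    simp
  simp only [coc, hk, ofMul_mul, ofMul_inv, map_add, map_neg]
  abel

theorem S_mul_S_eq : (S * S : SL(2, ℤ)) = -1 := by decide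

theorem R_cube_eq : ((S * T) * (S * T) * (S * T) : SL(2, ℤ)) = -1 := by decide

theorem S_pow_four_eq : (S : SL(2, ℤ)) ^ 4 = 1 := by decide

theorem R_pow_six_eq : ((S * T : SL(2, ℤ))) ^ 6 = 1 := by decide

theorem neg_one_sq_eq : ((-1 : SL(2, ℤ))) ^ 2 = 1 := by decide

theorem T_eq_S_inv_mul : (T : SL(2, ℤ)) = S⁻¹ * (S * T) := by group

theorem neg_one_inv_smul_quot (hneg : (-1 : SL(2, ℤ)) ∈ Γ) (y : SL(2, ℤ) ⧸ Γ) :
    (-1 : SL(2, ℤ))⁻¹ • y = y := by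
  rw [inv_smul_eq_iff, neg_one_smul_quot Γ hneg]

theorem coc_neg_one (hneg : (-1 : SL(2, ℤ)) ∈ Γ) (χ : Additive Γ →+ A)
    (hχ : ∀ g : Γ, IsOfFinOrder g → χ (Additive.ofMul g) = 0) (y : SL(2, ℤ) ⧸ Γ) :
    coc Γ χ (-1) y = 0 :=
  hχ _ (kap_isOfFinOrder Γ (neg_one_inv_smul_quot Γ hneg y) (n := 2) (by norm_num) neg_one_sq_eq)

theorem coc_S_sum (hneg : (-1 : SL(2, ℤ)) ∈ Γ) (χ : Additive Γ →+ A)
    (hχ : ∀ g : Γ, IsOfFinOrder g → χ (Additive.ofMul g) = 0) (y : SL(2, ℤ) ⧸ Γ) :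
    coc Γ χ S y + coc Γ χ S ((S : SL(2, ℤ))⁻¹ • y) = 0 := by
  have h := coc_mul Γ χ S S y
  have h0 : coc Γ χ (S * S) y = 0 := by
    rw [S_mul_S_eq]; exact coc_neg_one Γ hneg χ hχ y
  rw [← h, h0]

theorem coc_S_fix (χ : Additive Γ →+ A)
    (hχ : ∀ g : Γ, IsOfFinOrder g → χ (Additive.ofMul g) = 0) (y : SL(2, ℤ) ⧸ Γ)
    (hy : (S : SL(2, ℤ))⁻¹ • y = y) : coc Γ χ S y = 0 :=
  hχ _ (kap_isOfFinOrder Γ hy (n := 4) (by norm_num) S_pow_four_eq)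

theorem coc_R_sum (hneg : (-1 : SL(2, ℤ)) ∈ Γ) (χ : Additive Γ →+ A)
    (hχ : ∀ g : Γ, IsOfFinOrder g → χ (Additive.ofMul g) = 0) (y : SL(2, ℤ) ⧸ Γ) :
    coc Γ χ (S * T) y + coc Γ χ (S * T) ((S * T : SL(2, ℤ))⁻¹ • y)
      + coc Γ χ (S * T) ((S * T : SL(2, ℤ))⁻¹ • (S * T : SL(2, ℤ))⁻¹ • y) = 0 := by
  have h1 := coc_mul Γ χ ((S * T) * (S * T)) (S * T) y
  have h2 := coc_mul Γ χ (S * T) (S * T) y
  have h0 : coc Γ χ ((S * T) * (S * T) * (S * T)) y = 0 := by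
    rw [R_cube_eq]; exact coc_neg_one Γ hneg χ hχ y
  have h3 : ((S * T) * (S * T) : SL(2, ℤ))⁻¹ • y
      = (S * T : SL(2, ℤ))⁻¹ • (S * T : SL(2, ℤ))⁻¹ • y := by
    rw [← mul_smul, ← mul_inv_rev]
  rw [h0, h2, h3] at h1
  exact h1.symm

theorem coc_R_fix (χ : Additive Γ →+ A)
    (hχ : ∀ g : Γ, IsOfFinOrder g → χ (Additive.ofMul g) = 0) (y : SL(2, ℤ) ⧸ Γ)
    (hy : (S * T : SL(2, ℤ))⁻¹ • y = y) : coc Γ χ (S * T) y = 0 :=
  hχ _ (kap_isOfFinOrder Γ hy (n := 6) (by norm_num) R_pow_six_eq)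

/-- the permutation `y ↦ S⁻¹ y` of the coset space. -/
def permS : Equiv.Perm (SL(2, ℤ) ⧸ Γ) := (MulAction.toPerm (S : SL(2, ℤ))).symm

/-- the permutation `y ↦ (S T)⁻¹ y` of the coset space. -/
def permR : Equiv.Perm (SL(2, ℤ) ⧸ Γ) := (MulAction.toPerm (S * T : SL(2, ℤ))).symm

theorem permS_apply (y : SL(2, ℤ) ⧸ Γ) : permS Γ y = (S : SL(2, ℤ))⁻¹ • y := rfl

theorem permR_apply (y : SL(2, ℤ) ⧸ Γ) : permR Γ y = (S * T : SL(2, ℤ))⁻¹ • y := rfl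

theorem permS_permS (hneg : (-1 : SL(2, ℤ)) ∈ Γ) (y : SL(2, ℤ) ⧸ Γ) :
    permS Γ (permS Γ y) = y := by
  rw [permS_apply, permS_apply, ← mul_smul, ← mul_inv_rev, S_mul_S_eq,
    neg_one_inv_smul_quot Γ hneg]

theorem permR_permR_permR (hneg : (-1 : SL(2, ℤ)) ∈ Γ) (y : SL(2, ℤ) ⧸ Γ) :
    permR Γ (permR Γ (permR Γ y)) = y := by
  rw [permR_apply, permR_apply, permR_apply, ← mul_smul, ← mul_smul, ← mul_inv_rev,
    ← mul_inv_rev, ← mul_assoc, R_cube_eq, neg_one_inv_smul_quot Γ hneg]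

/-- the `z`-component of the lift of `S`. -/
theorem exists_xi (hneg : (-1 : SL(2, ℤ)) ∈ Γ) (φ ψ : Additive Γ →+ A)
    (hφ : ∀ g : Γ, IsOfFinOrder g → φ (Additive.ofMul g) = 0)
    (hψ : ∀ g : Γ, IsOfFinOrder g → ψ (Additive.ofMul g) = 0) :
    ∃ ξ : (SL(2, ℤ) ⧸ Γ) → A, ∀ y,
      ξ y + ξ (permS Γ y) + coc Γ φ S y * coc Γ ψ S (permS Γ y) = 0 := by
  obtain ⟨ξ, hξ⟩ := exists_pair_sum (permS Γ) (permS_permS Γ hneg)
    (fun y => - (coc Γ φ S y * coc Γ ψ S (permS Γ y)))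
    (fun y => by
      have h1 : coc Γ φ S y + coc Γ φ S (permS Γ y) = 0 := coc_S_sum Γ hneg φ hφ y
      have h2 : coc Γ ψ S y + coc Γ ψ S (permS Γ y) = 0 := coc_S_sum Γ hneg ψ hψ y
      simp only [permS_permS Γ hneg]
      linear_combination (-(coc Γ ψ S y)) * h1 + (coc Γ φ S y) * h2)
    (fun y hy => by
      have h0 : coc Γ φ S y = 0 := coc_S_fix Γ φ hφ y hy
      simp only [h0, zero_mul, neg_zero])
  exact ⟨ξ, fun y => by linear_combination hξ y⟩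

/-- the `z`-component of the lift of `R = S T`. -/
theorem exists_zeta (hneg : (-1 : SL(2, ℤ)) ∈ Γ) (φ ψ : Additive Γ →+ A)
    (hφ : ∀ g : Γ, IsOfFinOrder g → φ (Additive.ofMul g) = 0)
    (hψ : ∀ g : Γ, IsOfFinOrder g → ψ (Additive.ofMul g) = 0) :
    ∃ ζ : (SL(2, ℤ) ⧸ Γ) → A, ∀ y,
      ζ y + ζ (permR Γ y) + coc Γ φ (S * T) y * coc Γ ψ (S * T) (permR Γ y)
        + ζ (permR Γ (permR Γ y))
        + (coc Γ φ (S * T) y + coc Γ φ (S * T) (permR Γ y))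
          * coc Γ ψ (S * T) (permR Γ (permR Γ y)) = 0 := by
  obtain ⟨ζ, hζ⟩ := exists_triple_sum (permR Γ) (permR_permR_permR Γ hneg)
    (fun y => - (coc Γ φ (S * T) y * coc Γ ψ (S * T) (permR Γ y)
      + coc Γ φ (S * T) y * coc Γ ψ (S * T) (permR Γ (permR Γ y))
      + coc Γ φ (S * T) (permR Γ y) * coc Γ ψ (S * T) (permR Γ (permR Γ y))))
    (fun y => by
      have h1 : coc Γ φ (S * T) y + coc Γ φ (S * T) (permR Γ y)
          + coc Γ φ (S * T) (permR Γ (permR Γ y)) = 0 := coc_R_sum Γ hneg φ hφ y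
      have h2 : coc Γ ψ (S * T) y + coc Γ ψ (S * T) (permR Γ y)
          + coc Γ ψ (S * T) (permR Γ (permR Γ y)) = 0 := coc_R_sum Γ hneg ψ hψ y
      simp only [permR_permR_permR Γ hneg]
      linear_combination (coc Γ φ (S * T) y) * h2 - (coc Γ ψ (S * T) y) * h1)
    (fun y hy => by
      have h0 : coc Γ φ (S * T) y = 0 := coc_R_fix Γ φ hφ y hy
      simp only [hy, h0, zero_mul, add_zero, neg_zero])
  exact ⟨ζ, fun y => by linear_combination hζ y⟩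

/-- **(C-LIFT)**: Heisenberg lifts exist. -/
theorem exists_lift (hneg : (-1 : SL(2, ℤ)) ∈ Γ) (φ ψ : Additive Γ →+ A)
    (hφ : ∀ g : Γ, IsOfFinOrder g → φ (Additive.ofMul g) = 0)
    (hψ : ∀ g : Γ, IsOfFinOrder g → ψ (Additive.ofMul g) = 0) :
    ∃ F : Γ → A, ∀ g h : Γ,
      F (g * h) = F g + F h + φ (Additive.ofMul g) * ψ (Additive.ofMul h) := by
  obtain ⟨ξ, hξ⟩ := exists_xi Γ hneg φ ψ hφ hψ
  obtain ⟨ζ, hζ⟩ := exists_zeta Γ hneg φ ψ hφ hψ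
  -- the two generators of the Heisenberg extension
  let s : HK (SL(2, ℤ) ⧸ Γ) A := ⟨MulAction.toPerm (S : SL(2, ℤ)), coc Γ φ S, coc Γ ψ S, ξ⟩
  let r : HK (SL(2, ℤ) ⧸ Γ) A :=
    ⟨MulAction.toPerm (S * T : SL(2, ℤ)), coc Γ φ (S * T), coc Γ ψ (S * T), ζ⟩
  have hs2 : s * s = 1 := by
    refine HK.ext ?_ (funext fun y => ?_) (funext fun y => ?_) (funext fun y => ?_)
    · refine Equiv.ext fun y => ?_
      show (S : SL(2, ℤ)) • (S : SL(2, ℤ)) • y = y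
      rw [← mul_smul, S_mul_S_eq, neg_one_smul_quot Γ hneg]
    · exact coc_S_sum Γ hneg φ hφ y
    · exact coc_S_sum Γ hneg ψ hψ y
    · exact hξ y
  have hr3 : r * r * r = 1 := by
    refine HK.ext ?_ (funext fun y => ?_) (funext fun y => ?_) (funext fun y => ?_)
    · refine Equiv.ext fun y => ?_
      show (S * T : SL(2, ℤ)) • (S * T : SL(2, ℤ)) • (S * T : SL(2, ℤ)) • y = y
      have h3 : (S * T : SL(2, ℤ)) • (S * T : SL(2, ℤ)) • (S * T : SL(2, ℤ)) • y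
          = ((S * T) * (S * T) * (S * T) : SL(2, ℤ)) • y := by
        simp only [mul_smul]
      rw [h3, R_cube_eq, neg_one_smul_quot Γ hneg]
    · exact coc_R_sum Γ hneg φ hφ y
    · exact coc_R_sum Γ hneg ψ hψ y
    · exact hζ y
  have hs4 : s ^ 4 = 1 := by
    have h : s ^ 4 = (s * s) ^ 2 := by rw [← pow_two, ← pow_mul]
    rw [h, hs2, one_pow]
  have hr3' : r ^ 3 = s ^ 2 := by
    have h1 : r ^ 3 = r * r * r := by rw [pow_succ, pow_two]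
    have h2 : s ^ 2 = s * s := pow_two s
    rw [h1, h2, hr3, hs2]
  obtain ⟨Φ, ⟨hΦS, hΦR⟩, -⟩ := Fermat.Agent.S41.H44.exists_unique_monoidHom_SL2Z_SR s r hs4 hr3'
  have hΦT : Φ T = s⁻¹ * r := by
    have h : Φ (S⁻¹ * (S * T)) = s⁻¹ * r := by rw [map_mul, map_inv, hΦS, hΦR]
    rwa [← T_eq_S_inv_mul] at h
  -- the permutation component is the action
  have hσ : ∀ g : SL(2, ℤ), (Φ g).σ = MulAction.toPerm g := by
    have h := Fermat.Agent.S41.H44.monoidHom_SL2Z_ext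
      (φ := (HK.prσ (X := SL(2, ℤ) ⧸ Γ) (A := A)).comp Φ)
      (ψ := MulAction.toPermHom SL(2, ℤ) (SL(2, ℤ) ⧸ Γ))
      (by
        show (Φ S).σ = MulAction.toPerm (S : SL(2, ℤ))
        rw [hΦS])
      (by
        show (Φ T).σ = MulAction.toPerm (T : SL(2, ℤ))
        rw [hΦT]
        show (MulAction.toPerm (S : SL(2, ℤ)))⁻¹ * MulAction.toPerm (S * T : SL(2, ℤ))
          = MulAction.toPerm (T : SL(2, ℤ))
        refine Equiv.ext fun y => ?_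
        show (S : SL(2, ℤ))⁻¹ • (S * T : SL(2, ℤ)) • y = (T : SL(2, ℤ)) • y
        rw [← mul_smul, ← T_eq_S_inv_mul])
    intro g
    exact congrArg (fun f : SL(2, ℤ) →* Equiv.Perm (SL(2, ℤ) ⧸ Γ) => f g) h
  -- the `a`, `b` components are the Shapiro cocycles
  have key : ∀ g : SL(2, ℤ), (Φ g).a = coc Γ φ g ∧ (Φ g).b = coc Γ ψ g := by
    have hone : (Φ 1).a = coc Γ φ 1 ∧ (Φ 1).b = coc Γ ψ 1 := by
      rw [map_one]
      exact ⟨funext fun y => (coc_one Γ φ y).symm, funext fun y => (coc_one Γ ψ y).symm⟩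
    have hmul : ∀ g h : SL(2, ℤ), ((Φ g).a = coc Γ φ g ∧ (Φ g).b = coc Γ ψ g) →
        ((Φ h).a = coc Γ φ h ∧ (Φ h).b = coc Γ ψ h) →
        ((Φ (g * h)).a = coc Γ φ (g * h) ∧ (Φ (g * h)).b = coc Γ ψ (g * h)) := by
      intro g h hg hh
      rw [map_mul]
      refine ⟨funext fun y => ?_, funext fun y => ?_⟩
      · rw [HK.mul_a, hg.1, hh.1, hσ g, coc_mul]; rfl
      · rw [HK.mul_b, hg.2, hh.2, hσ g, coc_mul]; rfl
    have hinv : ∀ g : SL(2, ℤ), ((Φ g).a = coc Γ φ g ∧ (Φ g).b = coc Γ ψ g) →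
        ((Φ g⁻¹).a = coc Γ φ g⁻¹ ∧ (Φ g⁻¹).b = coc Γ ψ g⁻¹) := by
      intro g hg
      rw [map_inv]
      refine ⟨funext fun y => ?_, funext fun y => ?_⟩
      · rw [HK.inv_a, hg.1, hσ g, coc_inv]; rfl
      · rw [HK.inv_b, hg.2, hσ g, coc_inv]; rfl
    have hS' : (Φ S).a = coc Γ φ S ∧ (Φ S).b = coc Γ ψ S := by rw [hΦS]; exact ⟨rfl, rfl⟩
    have hR' : (Φ (S * T)).a = coc Γ φ (S * T) ∧ (Φ (S * T)).b = coc Γ ψ (S * T) := by
      rw [hΦR]; exact ⟨rfl, rfl⟩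
    have hT' : (Φ T).a = coc Γ φ T ∧ (Φ T).b = coc Γ ψ T := by
      have := hmul S⁻¹ (S * T) (hinv S hS') hR'
      rwa [← T_eq_S_inv_mul] at this
    intro g
    have hg : g ∈ Subgroup.closure ({S, T} : Set SL(2, ℤ)) := by
      rw [SpecialLinearGroup.SL2Z_generators]; exact Subgroup.mem_top g
    induction hg using Subgroup.closure_induction with
    | mem x hx =>
      rcases hx with rfl | hx
      · exact hS'
      · rw [Set.mem_singleton_iff] at hx; subst hx; exact hT'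
    | one => exact hone
    | mul x y _ _ hx hy => exact hmul x y hx hy
    | inv x _ hx => exact hinv x hx
  -- the lift
  refine ⟨fun γ => (Φ (γ : SL(2, ℤ))).z ((1 : SL(2, ℤ)) : SL(2, ℤ) ⧸ Γ), fun g h => ?_⟩
  have hfix : (Φ (g : SL(2, ℤ))).σ.symm ((1 : SL(2, ℤ)) : SL(2, ℤ) ⧸ Γ)
      = ((1 : SL(2, ℤ)) : SL(2, ℤ) ⧸ Γ) := by
    rw [hσ]
    exact base_fix Γ g
  show (Φ ((g * h : Γ) : SL(2, ℤ))).z _ = _
  rw [Subgroup.coe_mul, map_mul, HK.mul_z, hfix, (key g).1, (key h).2, coc_base, coc_base]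

/-- **(C-LIFT)** in the literal shape of the landed `H95.IsHLift`. -/
theorem exists_isHLift (hneg : (-1 : SL(2, ℤ)) ∈ Γ) (φ ψ : Additive Γ →+ A)
    (hφ : ∀ g : Γ, IsOfFinOrder g → φ (Additive.ofMul g) = 0)
    (hψ : ∀ g : Γ, IsOfFinOrder g → ψ (Additive.ofMul g) = 0) :
    ∃ F : Γ → A, Fermat.Agent.S41.H95.IsHLift φ ψ F :=
  exists_lift Γ hneg φ ψ hφ hψ

/-- characters with values in a torsion-free group kill the elements of finite order. -/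
theorem map_eq_zero_of_isOfFinOrder {M : Type*} [AddCommGroup M]
    (hM : ∀ (n : ℕ) (a : M), n ≠ 0 → n • a = 0 → a = 0) (χ : Additive Γ →+ M) (g : Γ)
    (hg : IsOfFinOrder g) : χ (Additive.ofMul g) = 0 := by
  obtain ⟨n, hn, hgn⟩ := isOfFinOrder_iff_pow_eq_one.mp hg
  refine hM n _ hn.ne' ?_
  rw [← map_nsmul, ← ofMul_pow, hgn, ofMul_one, map_zero]

/-- **(C-LIFT)** for torsion-free coefficients (e.g. `ℤ`): no hypothesis on the characters. -/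
theorem exists_isHLift_of_torsionFree (hneg : (-1 : SL(2, ℤ)) ∈ Γ)
    (hA : ∀ (n : ℕ) (a : A), n ≠ 0 → n • a = 0 → a = 0) (φ ψ : Additive Γ →+ A) :
    ∃ F : Γ → A, Fermat.Agent.S41.H95.IsHLift φ ψ F :=
  exists_isHLift Γ hneg φ ψ (map_eq_zero_of_isOfFinOrder Γ hA φ)
    (map_eq_zero_of_isOfFinOrder Γ hA ψ)

/-- **(C-LIFT)** over `ℤ`. -/
theorem exists_isHLift_int (hneg : (-1 : SL(2, ℤ)) ∈ Γ) (φ ψ : Additive Γ →+ ℤ) :
    ∃ F : Γ → ℤ, Fermat.Agent.S41.H95.IsHLift φ ψ F :=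
  exists_isHLift_of_torsionFree Γ hneg
    (fun n a hn h => by
      rcases smul_eq_zero.mp h with h | h
      · exact absurd h hn
      · exact h) φ ψ

end Main

end Fermat.Agent.S41.H37
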