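import Mathlib
import Fermat.Agent.S41.PDCusp_helper18
import Fermat.Agent.S41.PDLift_helper37

/-!
# The residue pairing `pd` on `Hom(Γ, ℤ)`  (helper18, node (C-TOP) of S41)

For `Γ ≤ SL(2, ℤ)` of finite index with `-1 ∈ Γ`:

* `CuspIdx Γ`, `cuspTm`, `cuspWd`, `cuspElt`: the concrete cusp system of `PDSchreier_helper18`
  with the classical instances fixed once and for all (no instance arguments);
* `pd Γ hneg φ ψ : ℤ` := the sum over the cusps of any Heisenberg lift of `(φ, ψ)`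
  (`pd_eq_sum`); bi-additive (`pd_add_left`, `pd_add_right`), antisymmetric on characters
  killing the cusp elements (`pd_swap`), computed by any cusp system (`pd_eq_of_isCuspSys`);
* `pd_res_cores` : `pd Γ' (res φ) ψ' = pd Γ φ (cores ψ')`  (projection formula, via helper17's
  `residue_cores_eq_of_cuspSys`);
* `pd_comp_equiv` : invariance under isomorphisms preserving positive parabolic elements.
-/

set_option autoImplicit false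
set_option linter.unusedSectionVars false

namespace Fermat.Agent.S41.H18

open scoped MatrixGroups
open Finset

/-! ### More on positive parabolic elements -/

theorem posPar_conj (g : SL(2, ℤ)) {t : SL(2, ℤ)} (ht : PosPar t) : PosPar (g * t * g⁻¹) := by
  obtain ⟨x, n, hn, rfl⟩ := exists_conj_of_posPar ht
  have h : g * (x⁻¹ * ModularGroup.T ^ n * x) * g⁻¹ = (x * g⁻¹)⁻¹ * ModularGroup.T ^ n * (x * g⁻¹) := by
    group
  rw [h]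
  exact posPar_conj_T_pow _ hn

theorem posPar_pow {t : SL(2, ℤ)} (ht : PosPar t) {n : ℕ} (hn : 0 < n) : PosPar (t ^ n) := by
  obtain ⟨x, m, hm, rfl⟩ := exists_conj_of_posPar ht
  rw [inv_mul_pow_mul, ← pow_mul]
  exact posPar_conj_T_pow _ (Nat.mul_pos hm hn)

theorem posPar_trace {t : SL(2, ℤ)} (ht : PosPar t) : (t.1.trace) ^ 2 = 4 := by
  rw [Matrix.trace_fin_two, ht.1]
  norm_num

/-! ### The concrete cusp system without instance arguments -/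

section wrappers

variable (Γ : Subgroup SL(2, ℤ)) [Γ.FiniteIndex]

/-- The index type of the cusps of `Γ`. -/
def CuspIdx : Type := Cusp Γ

noncomputable instance instFintypeCuspIdx : Fintype (CuspIdx Γ) :=
  letI : Fintype (SL(2, ℤ) ⧸ Γ) := Fintype.ofFinite _
  letI : DecidableEq (SL(2, ℤ) ⧸ Γ) := Classical.decEq _
  inferInstanceAs (Fintype (Cusp Γ))

/-- the matrix `t_c`. -/
noncomputable def cuspTm (c : CuspIdx Γ) : SL(2, ℤ) :=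
  letI : Fintype (SL(2, ℤ) ⧸ Γ) := Fintype.ofFinite _
  letI : DecidableEq (SL(2, ℤ) ⧸ Γ) := Classical.decEq _
  cuspT Γ c

/-- the width `h_c`. -/
noncomputable def cuspWd (c : CuspIdx Γ) : ℕ :=
  letI : Fintype (SL(2, ℤ) ⧸ Γ) := Fintype.ofFinite _
  letI : DecidableEq (SL(2, ℤ) ⧸ Γ) := Classical.decEq _
  cuspH Γ c

/-- the cusp element `π_c = t_c⁻¹ T ^ h_c t_c ∈ Γ`. -/
noncomputable def cuspElt (hneg : (-1 : SL(2, ℤ)) ∈ Γ) (c : CuspIdx Γ) : Γ :=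
  letI : Fintype (SL(2, ℤ) ⧸ Γ) := Fintype.ofFinite _
  letI : DecidableEq (SL(2, ℤ) ⧸ Γ) := Classical.decEq _
  cuspPi Γ hneg c

theorem coe_cuspElt (hneg : (-1 : SL(2, ℤ)) ∈ Γ) (c : CuspIdx Γ) :
    ((cuspElt Γ hneg c : Γ) : SL(2, ℤ))
      = (cuspTm Γ c)⁻¹ * ModularGroup.T ^ cuspWd Γ c * cuspTm Γ c := rfl

theorem cuspWd_pos (c : CuspIdx Γ) : 0 < cuspWd Γ c :=
  letI : Fintype (SL(2, ℤ) ⧸ Γ) := Fintype.ofFinite _
  letI : DecidableEq (SL(2, ℤ) ⧸ Γ) := Classical.decEq _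
  cuspH_pos Γ c

theorem cuspElt_mem (hneg : (-1 : SL(2, ℤ)) ∈ Γ) (c : CuspIdx Γ) :
    (cuspTm Γ c)⁻¹ * ModularGroup.T ^ cuspWd Γ c * cuspTm Γ c ∈ Γ :=
  (cuspElt Γ hneg c).2

theorem cuspWd_min (hneg : (-1 : SL(2, ℤ)) ∈ Γ) (c : CuspIdx Γ) (k : ℕ) (hk : 0 < k)
    (h : (cuspTm Γ c)⁻¹ * ModularGroup.T ^ k * cuspTm Γ c ∈ Γ) : cuspWd Γ c ≤ k :=
  letI : Fintype (SL(2, ℤ) ⧸ Γ) := Fintype.ofFinite _
  letI : DecidableEq (SL(2, ℤ) ⧸ Γ) := Classical.decEq _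
  cusp_min Γ hneg c k hk h

theorem cuspWd_dvd (hneg : (-1 : SL(2, ℤ)) ∈ Γ) (c : CuspIdx Γ) (k : ℕ)
    (h : (cuspTm Γ c)⁻¹ * ModularGroup.T ^ k * cuspTm Γ c ∈ Γ) : cuspWd Γ c ∣ k :=
  letI : Fintype (SL(2, ℤ) ⧸ Γ) := Fintype.ofFinite _
  letI : DecidableEq (SL(2, ℤ) ⧸ Γ) := Classical.decEq _
  (cusp_mem_iff Γ hneg c k).1 h

/-- orbit decomposition, for any `Fintype` instance on the quotient. -/
theorem cuspIdx_sum (hneg : (-1 : SL(2, ℤ)) ∈ Γ) [inst : Fintype (SL(2, ℤ) ⧸ Γ)]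
    {A : Type*} [AddCommMonoid A] (f : SL(2, ℤ) ⧸ Γ → A) :
    ∑ x, f x = ∑ c : CuspIdx Γ, ∑ j ∈ range (cuspWd Γ c),
      f ((ModularGroup.T ^ j * cuspTm Γ c : SL(2, ℤ)) : SL(2, ℤ) ⧸ Γ) := by
  have h : inst = Fintype.ofFinite _ := Subsingleton.elim _ _
  subst h
  exact @cusp_sum Γ (Fintype.ofFinite _) (Classical.decEq _) hneg A _ f

/-- orbit decomposition for right-invariant functions, for any `Fintype` instance. -/
theorem cuspIdx_sum_out (hneg : (-1 : SL(2, ℤ)) ∈ Γ) [inst : Fintype (SL(2, ℤ) ⧸ Γ)]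
    {A : Type*} [AddCommMonoid A] (D : SL(2, ℤ) → A)
    (hD : ∀ (g : SL(2, ℤ)) (γ : Γ), D (g * γ) = D g) :
    ∑ x : SL(2, ℤ) ⧸ Γ, D x.out = ∑ c : CuspIdx Γ, ∑ k ∈ range (cuspWd Γ c),
      D (ModularGroup.T ^ k * cuspTm Γ c) := by
  have h : inst = Fintype.ofFinite _ := Subsingleton.elim _ _
  subst h
  exact @cusp_sum_out Γ (Fintype.ofFinite _) (Classical.decEq _) hneg A _ D hD

theorem cuspIdx_cov (hneg : (-1 : SL(2, ℤ)) ∈ Γ) (z : SL(2, ℤ)) :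
    ∃! c : CuspIdx Γ, ∃ (k : ℤ) (γ : SL(2, ℤ)), γ ∈ Γ ∧
      (z = ModularGroup.T ^ k * cuspTm Γ c * γ ∨ z = -(ModularGroup.T ^ k * cuspTm Γ c * γ)) :=
  letI : Fintype (SL(2, ℤ) ⧸ Γ) := Fintype.ofFinite _
  letI : DecidableEq (SL(2, ℤ) ⧸ Γ) := Classical.decEq _
  cusp_cov Γ hneg z

/-- **The cusp elements form a cusp system.** -/
theorem isCuspSys_cuspElt (hneg : (-1 : SL(2, ℤ)) ∈ Γ) :
    H17.IsCuspSys (fun γ : Γ => PosPar (γ : SL(2, ℤ))) (Subgroup.zpowers (negOne Γ hneg))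
      (cuspElt Γ hneg) :=
  letI : Fintype (SL(2, ℤ) ⧸ Γ) := Fintype.ofFinite _
  letI : DecidableEq (SL(2, ℤ) ⧸ Γ) := Classical.decEq _
  isCuspSys_cuspPi Γ hneg

/-- **Lift independence.** -/
theorem sum_cuspElt_eq (hneg : (-1 : SL(2, ℤ)) ∈ Γ) {φ ψ : Additive Γ →+ ℤ} {F F' : Γ → ℤ}
    (hF : H95.IsHLift φ ψ F) (hF' : H95.IsHLift φ ψ F') :
    ∑ c : CuspIdx Γ, F (cuspElt Γ hneg c) = ∑ c : CuspIdx Γ, F' (cuspElt Γ hneg c) :=
  letI : Fintype (SL(2, ℤ) ⧸ Γ) := Fintype.ofFinite _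
  letI : DecidableEq (SL(2, ℤ) ⧸ Γ) := Classical.decEq _
  sum_cuspPi_eq Γ hneg (fun a h => by omega) (fun a h => by omega) hF hF'

end wrappers

/-! ### The pairing -/

section pd

variable (Γ : Subgroup SL(2, ℤ)) [Γ.FiniteIndex]

/-- **The residue pairing**: the sum over the cusps of a Heisenberg lift of `(φ, ψ)`. -/
noncomputable def pd (hneg : (-1 : SL(2, ℤ)) ∈ Γ) (φ ψ : Additive Γ →+ ℤ) : ℤ :=
  ∑ c : CuspIdx Γ, Classical.choose (H37.exists_isHLift_int Γ hneg φ ψ) (cuspElt Γ hneg c)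

/-- `pd` is computed by any lift. -/
theorem pd_eq_sum (hneg : (-1 : SL(2, ℤ)) ∈ Γ) {φ ψ : Additive Γ →+ ℤ} {F : Γ → ℤ}
    (hF : H95.IsHLift φ ψ F) : pd Γ hneg φ ψ = ∑ c : CuspIdx Γ, F (cuspElt Γ hneg c) :=
  sum_cuspElt_eq Γ hneg (Classical.choose_spec (H37.exists_isHLift_int Γ hneg φ ψ)) hF

theorem exists_isHLift_pd (hneg : (-1 : SL(2, ℤ)) ∈ Γ) (φ ψ : Additive Γ →+ ℤ) :
    ∃ F : Γ → ℤ, H95.IsHLift φ ψ F ∧ pd Γ hneg φ ψ = ∑ c : CuspIdx Γ, F (cuspElt Γ hneg c) := by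
  obtain ⟨F, hF⟩ := H37.exists_isHLift_int Γ hneg φ ψ
  exact ⟨F, hF, pd_eq_sum Γ hneg hF⟩

theorem pd_add_left (hneg : (-1 : SL(2, ℤ)) ∈ Γ) (φ φ' ψ : Additive Γ →+ ℤ) :
    pd Γ hneg (φ + φ') ψ = pd Γ hneg φ ψ + pd Γ hneg φ' ψ := by
  obtain ⟨F, hF, e⟩ := exists_isHLift_pd Γ hneg φ ψ
  obtain ⟨F', hF', e'⟩ := exists_isHLift_pd Γ hneg φ' ψ
  rw [pd_eq_sum Γ hneg (hF.add_left hF'), e, e', ← Finset.sum_add_distrib]
  rfl

theorem pd_add_right (hneg : (-1 : SL(2, ℤ)) ∈ Γ) (φ ψ ψ' : Additive Γ →+ ℤ) :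
    pd Γ hneg φ (ψ + ψ') = pd Γ hneg φ ψ + pd Γ hneg φ ψ' := by
  obtain ⟨F, hF, e⟩ := exists_isHLift_pd Γ hneg φ ψ
  obtain ⟨F', hF', e'⟩ := exists_isHLift_pd Γ hneg φ ψ'
  rw [pd_eq_sum Γ hneg (hF.add_right hF'), e, e', ← Finset.sum_add_distrib]
  rfl

/-- **Antisymmetry** on characters killing the cusp elements. -/
theorem pd_swap (hneg : (-1 : SL(2, ℤ)) ∈ Γ) (φ ψ : Additive Γ →+ ℤ)
    (hφ : ∀ t : Γ, PosPar (t : SL(2, ℤ)) → φ (Additive.ofMul t) = 0) :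
    pd Γ hneg ψ φ = - pd Γ hneg φ ψ := by
  obtain ⟨F, hF, e⟩ := exists_isHLift_pd Γ hneg φ ψ
  have hF' : H95.IsHLift ψ φ (fun g => φ (Additive.ofMul g) * ψ (Additive.ofMul g) - F g) := by
    intro g h
    simp only [ofMul_mul, map_add, hF g h]
    ring
  rw [pd_eq_sum Γ hneg hF', e, ← Finset.sum_neg_distrib]
  refine Finset.sum_congr rfl (fun c _ => ?_)
  rw [hφ _ ((isCuspSys_cuspElt Γ hneg).pos c)]
  ring

/-- `pd` is computed by **any** cusp system and any lift, for characters killing the positive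
parabolic elements. -/
theorem pd_eq_of_isCuspSys (hneg : (-1 : SL(2, ℤ)) ∈ Γ) {φ ψ : Additive Γ →+ ℤ}
    (hφ : ∀ t : Γ, PosPar (t : SL(2, ℤ)) → φ (Additive.ofMul t) = 0)
    (hψ : ∀ t : Γ, PosPar (t : SL(2, ℤ)) → ψ (Additive.ofMul t) = 0)
    {C : Type*} [Fintype C] {π : C → Γ}
    (hπ : H17.IsCuspSys (fun γ : Γ => PosPar (γ : SL(2, ℤ))) (Subgroup.zpowers (negOne Γ hneg)) π)
    {F : Γ → ℤ} (hF : H95.IsHLift φ ψ F) : ∑ c, F (π c) = pd Γ hneg φ ψ := by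
  rw [pd_eq_sum Γ hneg hF]
  exact sum_eq_of_isCuspSys hπ (isCuspSys_cuspElt Γ hneg) F
    (fun g t ht => hF.map_conj g t (hφ t ht) (hψ t ht))

end pd

/-! ### The projection formula -/

section projection

variable {Γ Γ' : Subgroup SL(2, ℤ)} [Γ.FiniteIndex] [Γ'.FiniteIndex]

/-- **Projection formula** `pd Γ' (res φ) ψ' = pd Γ φ (cores ψ')`, in helper17's transfer
vocabulary (`i' : Γ' →* Γ` the inclusion, `al` coset representatives of `Γ' \ Γ`). -/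
theorem pd_res_cores (hneg : (-1 : SL(2, ℤ)) ∈ Γ) (hneg' : (-1 : SL(2, ℤ)) ∈ Γ')
    {X : Type*} [Fintype X] [Nonempty X] {i' : Γ' →* Γ}
    (hi' : ∀ a : Γ', ((i' a : Γ) : SL(2, ℤ)) = a)
    {al : X → Γ} {sig : Γ → Equiv.Perm X} {g' : Γ → X → Γ'}
    (h : H17.IsTransferData i' al sig g')
    (φ : Additive Γ →+ ℤ) (φ' ψ' : Additive Γ' →+ ℤ) (χ : Additive Γ →+ ℤ)
    (hφ' : ∀ a : Γ', φ' (Additive.ofMul a) = φ (Additive.ofMul (i' a)))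
    (hχ : ∀ γ : Γ, χ (Additive.ofMul γ) = ∑ x, ψ' (Additive.ofMul (g' γ x)))
    (hφ : ∀ t : Γ, PosPar (t : SL(2, ℤ)) → φ (Additive.ofMul t) = 0)
    (hψ' : ∀ t : Γ', PosPar (t : SL(2, ℤ)) → ψ' (Additive.ofMul t) = 0) :
    pd Γ' hneg' φ' ψ' = pd Γ hneg φ χ := by
  obtain ⟨F', hF', e'⟩ := exists_isHLift_pd Γ' hneg' φ' ψ'
  have hF'17 : H17.IsHLift φ' ψ' F' := fun g k => hF' g k
  have hlift : H95.IsHLift φ χ (H17.coresLift al g' φ ψ' F') := fun g k =>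
    H17.isHLift_coresLift h φ φ' ψ' χ hφ' hχ hF'17 g k
  rw [pd_eq_sum Γ hneg hlift, e']
  have hπ := isCuspSys_cuspElt Γ hneg
  have hπ' := isCuspSys_cuspElt Γ' hneg'
  have hfun : (fun t' : Γ' => PosPar (((i' t' : Γ)) : SL(2, ℤ)))
      = (fun t' : Γ' => PosPar (t' : SL(2, ℤ))) := by
    funext t'
    rw [hi']
  have hπ'' : H17.IsCuspSys (fun t' : Γ' => (fun γ : Γ => PosPar (γ : SL(2, ℤ))) (i' t'))
      (Subgroup.zpowers (negOne Γ' hneg')) (cuspElt Γ' hneg') := by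
    show H17.IsCuspSys (fun t' : Γ' => PosPar (((i' t' : Γ)) : SL(2, ℤ))) _ _
    rw [hfun]
    exact hπ'
  have hineg : i' (negOne Γ' hneg') = negOne Γ hneg := by
    apply Subtype.ext
    rw [hi']
    rfl
  symm
  refine H17.residue_cores_eq_of_cuspSys h (fun γ : Γ => PosPar (γ : SL(2, ℤ)))
    (fun g t ht => ?_) (fun t n ht hn => ?_) (Subgroup.zpowers (negOne Γ hneg)) ?_ ?_
    (Subgroup.zpowers (negOne Γ' hneg')) hπ hπ'' φ φ' ψ' hφ' hF'17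
    (fun c => hφ _ (hπ.pos c)) (fun c' => hψ' _ (hπ'.pos c'))
  · exact posPar_conj (g : SL(2, ℤ)) ht
  · exact posPar_pow ht hn
  · intro z hz g
    obtain ⟨k, rfl⟩ := Subgroup.mem_zpowers_iff.1 hz
    exact ((Commute.zpow_left (negOne_comm Γ hneg g) k)).eq
  · intro z hz
    obtain ⟨k, rfl⟩ := Subgroup.mem_zpowers_iff.1 hz
    exact ⟨negOne Γ' hneg' ^ k, by rw [map_zpow, hineg]⟩

end projection

/-! ### Invariance under isomorphisms -/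

section equiv

variable {Γ₁ Γ₂ : Subgroup SL(2, ℤ)} [Γ₁.FiniteIndex] [Γ₂.FiniteIndex]

/-- **Invariance of `pd` under an isomorphism preserving positive parabolic elements.** -/
theorem pd_comp_equiv (hneg₁ : (-1 : SL(2, ℤ)) ∈ Γ₁) (hneg₂ : (-1 : SL(2, ℤ)) ∈ Γ₂)
    (e : Γ₁ ≃* Γ₂)
    (hP : ∀ t : Γ₁, PosPar ((e t : Γ₂) : SL(2, ℤ)) ↔ PosPar (t : SL(2, ℤ)))
    (he : e (negOne Γ₁ hneg₁) = negOne Γ₂ hneg₂)
    (φ ψ : Additive Γ₂ →+ ℤ)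
    (hφ : ∀ t : Γ₂, PosPar (t : SL(2, ℤ)) → φ (Additive.ofMul t) = 0)
    (hψ : ∀ t : Γ₂, PosPar (t : SL(2, ℤ)) → ψ (Additive.ofMul t) = 0) :
    pd Γ₁ hneg₁ (φ.comp (MonoidHom.toAdditive e.toMonoidHom))
      (ψ.comp (MonoidHom.toAdditive e.toMonoidHom)) = pd Γ₂ hneg₂ φ ψ := by
  obtain ⟨F, hF, -⟩ := exists_isHLift_pd Γ₂ hneg₂ φ ψ
  rw [pd_eq_sum Γ₁ hneg₁ (hF.comp e.toMonoidHom)]
  have hsys : H17.IsCuspSys (fun γ : Γ₂ => PosPar (γ : SL(2, ℤ)))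
      (Subgroup.zpowers (negOne Γ₂ hneg₂)) (fun c => e (cuspElt Γ₁ hneg₁ c)) := by
    refine isCuspSys_map e hP ?_ (isCuspSys_cuspElt Γ₁ hneg₁)
    intro z hz
    obtain ⟨k, rfl⟩ := Subgroup.mem_zpowers_iff.1 hz
    rw [map_zpow, he]
    exact Subgroup.zpow_mem_zpowers _ k
  exact pd_eq_of_isCuspSys Γ₂ hneg₂ hφ hψ hsys hF

end equiv

end Fermat.Agent.S41.H18
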