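import Mathlib
import Fermat.Prelude.Def_ModularCurve_PeriodMap
import Fermat.Agent.S41.PDPair_helper18
import Fermat.Agent.S41.LevelOps_helper19
import Fermat.Agent.S41.ParOps_helper97

/-!
# The residue pairing on the Betti lattices of `Γ₀(M)`  (helper18, node (C-TOP) of S41)

In the vocabulary of helper19's landed `LevelOps_helper19` (`resOp`, `wOp`, `coresOp`, `tOp`):

* `pdG M φ ψ` : the residue pairing of `PDPair_helper18` for `Γ₀(M)`; `pdHom M` the induced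
  bi-additive map on `parabolicHoms ℤ (Gamma0 M) ℤ`;
* `pdG_resOp_coresOp` : `pd (res x) z = pd x (cores z)`;
* `pdG_wOp_wOp` : `pd (w a) (w b) = pd a b`;
* `pdG_adj` : the adjunction `hadj` of `H71.lr_core_of_pairing` for `i (x, y) = res x + w (res y)`,
  `j z = (cores z, cores (w z))`;
* `pdG_tOp_sa` : `pd (T_r x) y = pd x (T_r y)` (the `hsa` of `H71.lr_core_of_pairing`).
-/

set_option autoImplicit false
set_option linter.unusedSectionVars false

namespace Fermat.Agent.S41.H18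

open scoped MatrixGroups
open CongruenceSubgroup ModularCurve.Period Finset
open Fermat.Agent.S41.H06 (IsDec IsTrFam tr tr_apply tr_single_apply isDec_dec decPerm decFun)

/-! ### Generalities on `Γ₀(M)` -/

theorem neg_one_mem_Gamma0 (M : ℕ) : (-1 : SL(2, ℤ)) ∈ Gamma0 M := by
  rw [Gamma0_mem]
  simp

theorem par_posPar {Γ : Subgroup SL(2, ℤ)} {φ : Additive Γ →+ ℤ} (hφ : IsParabolicHom Γ φ) :
    ∀ t : Γ, PosPar (t : SL(2, ℤ)) → φ (Additive.ofMul t) = 0 :=
  fun t ht => hφ t (posPar_trace ht)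

/-- The residue pairing for `Γ₀(M)`. -/
noncomputable def pdG (M : ℕ) [NeZero M] (φ ψ : Additive (Gamma0 M) →+ ℤ) : ℤ :=
  pd (Gamma0 M) (neg_one_mem_Gamma0 M) φ ψ

theorem pdG_add_left (M : ℕ) [NeZero M] (φ φ' ψ : Additive (Gamma0 M) →+ ℤ) :
    pdG M (φ + φ') ψ = pdG M φ ψ + pdG M φ' ψ := pd_add_left _ _ φ φ' ψ

theorem pdG_add_right (M : ℕ) [NeZero M] (φ ψ ψ' : Additive (Gamma0 M) →+ ℤ) :
    pdG M φ (ψ + ψ') = pdG M φ ψ + pdG M φ ψ' := pd_add_right _ _ φ ψ ψ'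

theorem pdG_swap (M : ℕ) [NeZero M] (φ ψ : Additive (Gamma0 M) →+ ℤ)
    (hφ : IsParabolicHom (Gamma0 M) φ) : pdG M ψ φ = - pdG M φ ψ :=
  pd_swap _ _ φ ψ (par_posPar hφ)

/-- The real matrix of `gl M γ`. -/
theorem coe_gl (M : ℕ) (γ : Gamma0 M) :
    ((H19.gl M γ : GL (Fin 2) ℝ) : Matrix (Fin 2) (Fin 2) ℝ)
      = ((γ : SL(2, ℤ)).1).map (Int.cast : ℤ → ℝ) :=
  H06.isInt_gl M γ

/-- Conjugation by an element of `GL₂(ℝ)` of positive determinant preserves positive parabolic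
elements (both ways). -/
theorem posPar_iff_of_gl_conj {M : ℕ} (ω : GL (Fin 2) ℝ)
    (hω : 0 < (ω : Matrix (Fin 2) (Fin 2) ℝ).det) (t t' : Gamma0 M)
    (h : ω * H19.gl M t = H19.gl M t' * ω) :
    PosPar (t' : SL(2, ℤ)) ↔ PosPar (t : SL(2, ℤ)) := by
  constructor
  · intro ht'
    have h' : ω⁻¹ * H19.gl M t' = H19.gl M t * ω⁻¹ := by
      rw [inv_mul_eq_iff_eq_mul, ← mul_assoc, h, mul_inv_cancel_right]
    have hdet : 0 < ((ω⁻¹ : GL (Fin 2) ℝ) : Matrix (Fin 2) (Fin 2) ℝ).det := by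
      rw [Matrix.coe_units_inv, Matrix.det_nonsing_inv, Ring.inverse_eq_inv']
      exact inv_pos.2 hω
    have h2 := congrArg (fun z : GL (Fin 2) ℝ => (z : Matrix (Fin 2) (Fin 2) ℝ)) h'
    simp only [Units.val_mul, coe_gl] at h2
    exact posPar_of_conj hdet h2 ht'
  · intro ht
    have h2 := congrArg (fun z : GL (Fin 2) ℝ => (z : Matrix (Fin 2) (Fin 2) ℝ)) h
    simp only [Units.val_mul, coe_gl] at h2
    exact posPar_of_conj hω h2 ht

/-- `gl M (-1)` is central in `GL₂(ℝ)`. -/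
theorem gl_negOne_comm (M : ℕ) (g : GL (Fin 2) ℝ) :
    H19.gl M (negOne (Gamma0 M) (neg_one_mem_Gamma0 M)) * g
      = g * H19.gl M (negOne (Gamma0 M) (neg_one_mem_Gamma0 M)) := by
  apply Units.ext
  rw [Units.val_mul, Units.val_mul, coe_gl]
  have h : (((negOne (Gamma0 M) (neg_one_mem_Gamma0 M) : Gamma0 M) : SL(2, ℤ)).1).map
      (Int.cast : ℤ → ℝ) = -1 := by
    show ((-1 : SL(2, ℤ)).1).map (Int.cast : ℤ → ℝ) = -1
    ext i j
    fin_cases i <;> fin_cases j <;> simp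
  rw [h, neg_one_mul, mul_neg_one]

/-- An element of `GL₂(ℝ)` normalising `Γ₀(M)` whose square is central times an element of
`Γ₀(M)` induces an automorphism of `Γ₀(M)`. -/
theorem exists_mulEquiv_of_conj {M : ℕ} (ω : GL (Fin 2) ℝ)
    (h : ∀ γ : Gamma0 M, ∃ g' : Gamma0 M, ω * H19.gl M γ = H19.gl M g' * ω)
    (z : GL (Fin 2) ℝ) (hz : ∀ g, z * g = g * z) (γ₀ : Gamma0 M)
    (hsq : ω * ω = z * H19.gl M γ₀) :
    ∃ e : Gamma0 M ≃* Gamma0 M, ∀ γ, ω * H19.gl M γ = H19.gl M (e γ) * ω := by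
  choose f hf using h
  have hmul : ∀ a b, f (a * b) = f a * f b := by
    intro a b
    apply H19.gl_injective M
    apply mul_right_cancel (b := ω)
    rw [← hf, map_mul, map_mul, ← mul_assoc, hf a, mul_assoc, hf b, mul_assoc]
  have hff : ∀ a, f (f a) = γ₀ * a * γ₀⁻¹ := by
    intro a
    apply H19.gl_injective M
    have h1 : H19.gl M (f (f a)) * (ω * ω) = ω * ω * H19.gl M a := by
      rw [← mul_assoc, ← hf, mul_assoc, ← hf, mul_assoc]
    rw [hsq] at h1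
    have h2 : z * (H19.gl M (f (f a)) * H19.gl M γ₀) = z * (H19.gl M γ₀ * H19.gl M a) := by
      calc z * (H19.gl M (f (f a)) * H19.gl M γ₀)
          = H19.gl M (f (f a)) * (z * H19.gl M γ₀) := by rw [← mul_assoc, hz, mul_assoc]
        _ = z * H19.gl M γ₀ * H19.gl M a := h1
        _ = z * (H19.gl M γ₀ * H19.gl M a) := mul_assoc _ _ _
    have h3 := mul_left_cancel h2
    rw [map_mul, map_mul, map_inv, ← h3, mul_inv_cancel_right]
  have hinj : Function.Injective f := by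
    intro a b hab
    have h1 : γ₀ * a * γ₀⁻¹ = γ₀ * b * γ₀⁻¹ := by rw [← hff, ← hff, hab]
    exact mul_left_cancel (mul_right_cancel h1)
  have hsurj : Function.Surjective f := by
    intro y
    refine ⟨f (γ₀⁻¹ * y * γ₀), ?_⟩
    rw [hff]
    group
  exact ⟨MulEquiv.ofBijective (MonoidHom.mk' f hmul) ⟨hinj, hsurj⟩, fun γ => hf γ⟩

/-! ### The projection formula for `Γ₀(N q) ≤ Γ₀(N)` -/

section levels

variable {N q : ℕ} [NeZero N] [NeZero (N * q)]

/-- helper17's transfer data for helper19's corestriction family. -/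
theorem isTransferData_cores (hq : q.Prime) (hqN : ¬ q ∣ N) :
    H17.IsTransferData (H19.incl N q) (H19.beta N q)
      (fun γ => decPerm (H19.isTrFam_cores hq hqN) γ)
      (fun γ => decFun (H19.isTrFam_cores hq hqN) γ) := by
  refine ⟨Subgroup.inclusion_injective _, ?_, ?_⟩
  · intro x y a hxy
    refine H19.cores_inj hq hqN x y a ?_
    show H19.gl N (H19.beta N q x) = H19.gl (N * q) a * H19.gl N (H19.beta N q y)
    rw [hxy, map_mul, H19.gl_incl]
  · intro γ x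
    apply H19.gl_injective N
    rw [map_mul, map_mul, H19.gl_incl]
    exact isDec_dec (H19.isTrFam_cores hq hqN) γ x

/-- **(T1)** `pd (res x) z = pd x (cores z)`. -/
theorem pdG_resOp_coresOp (hq : q.Prime) (hqN : ¬ q ∣ N)
    (x : Additive (Gamma0 N) →+ ℤ) (z : Additive (Gamma0 (N * q)) →+ ℤ)
    (hx : IsParabolicHom (Gamma0 N) x) (hz : IsParabolicHom (Gamma0 (N * q)) z) :
    pdG (N * q) (H19.resOp N q x) z = pdG N x (H19.coresOp hq hqN z) := by
  refine pd_res_cores (Γ := Gamma0 N) (Γ' := Gamma0 (N * q)) (neg_one_mem_Gamma0 N)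
    (neg_one_mem_Gamma0 (N * q)) (i' := H19.incl N q) (fun a => rfl)
    (isTransferData_cores hq hqN) x (H19.resOp N q x) z (H19.coresOp hq hqN z)
    (fun a => H19.resOp_apply N q x a) (fun γ => ?_) (par_posPar hx) (par_posPar hz)
  exact tr_apply (H19.gl_injective (N * q)) (H19.isTrFam_cores hq hqN) z
    (isDec_dec (H19.isTrFam_cores hq hqN) γ)

/-- the automorphism of `Γ₀(N q)` induced by the Atkin–Lehner matrix. -/
theorem exists_omega_equiv (hq : q.Prime) (hqN : ¬ q ∣ N) :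
    ∃ e : Gamma0 (N * q) ≃* Gamma0 (N * q),
      ∀ γ, H19.omega N q * H19.gl (N * q) γ = H19.gl (N * q) (e γ) * H19.omega N q :=
  exists_mulEquiv_of_conj (H19.omega N q) (H19.omega_conj hq hqN) (H19.G2 q 0 0 q)
    (H19.G2_scalar_comm (q : ℤ) (H19.q_ne_zero hq)) (H19.gam21 N q) (H19.omega_sq hq hqN)

theorem det_omega_pos (hq : q.Prime) (hqN : ¬ q ∣ N) :
    0 < ((H19.omega N q : GL (Fin 2) ℝ) : Matrix (Fin 2) (Fin 2) ℝ).det := by
  unfold H19.omega
  rw [H19.G2_coe (H19.det_omega hq hqN), Matrix.det_fin_two_of]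
  have h0 := H19.bez hq hqN
  have h1 : ((q : ℤ) : ℝ) * (((q : ℤ) : ℝ) * ((H19.d0 N q : ℤ) : ℝ))
      - ((H19.b0 N q : ℤ) : ℝ) * (((q : ℤ) : ℝ) * ((N : ℤ) : ℝ)) = ((q : ℤ) : ℝ) := by
    have h2 : (q : ℤ) * ((q : ℤ) * H19.d0 N q) - H19.b0 N q * ((q : ℤ) * (N : ℤ)) = (q : ℤ) := by
      linear_combination (q : ℤ) * h0
    exact_mod_cast h2
  have hq0 : (0 : ℝ) < ((q : ℤ) : ℝ) := by exact_mod_cast hq.pos
  push_cast at h1 ⊢
  rw [h1]
  exact_mod_cast hq.pos

/-- **(T2)** `pd (w a) (w b) = pd a b`. -/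
theorem pdG_wOp_wOp (hq : q.Prime) (hqN : ¬ q ∣ N)
    (a b : Additive (Gamma0 (N * q)) →+ ℤ)
    (ha : IsParabolicHom (Gamma0 (N * q)) a) (hb : IsParabolicHom (Gamma0 (N * q)) b) :
    pdG (N * q) (H19.wOp hq hqN a) (H19.wOp hq hqN b) = pdG (N * q) a b := by
  obtain ⟨e, he⟩ := exists_omega_equiv (N := N) hq hqN
  have hw : ∀ c : Additive (Gamma0 (N * q)) →+ ℤ,
      H19.wOp hq hqN c = c.comp (MonoidHom.toAdditive e.toMonoidHom) := by
    intro c
    refine AddMonoidHom.ext fun γ => ?_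
    exact tr_single_apply (H19.gl_injective (N * q)) (H19.isTrFam_w hq hqN) c
      (he (Additive.toMul γ))
  rw [hw a, hw b]
  refine pd_comp_equiv (neg_one_mem_Gamma0 (N * q)) (neg_one_mem_Gamma0 (N * q)) e ?_ ?_ a b
    (par_posPar ha) (par_posPar hb)
  · intro t
    exact posPar_iff_of_gl_conj (H19.omega N q) (det_omega_pos hq hqN) t (e t) (he t)
  · apply H19.gl_injective (N * q)
    apply mul_right_cancel (b := H19.omega N q)
    rw [← he, gl_negOne_comm]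

theorem isParabolicHom_resOp (x : Additive (Gamma0 N) →+ ℤ) (hx : IsParabolicHom (Gamma0 N) x) :
    IsParabolicHom (Gamma0 (N * q)) (H19.resOp N q x) :=
  H97.isParabolicHom_tr (M := N * q) (M' := N) H97.int_torsionFree (H19.isTrFam_res N q) hx

theorem isParabolicHom_wOp (hq : q.Prime) (hqN : ¬ q ∣ N) (a : Additive (Gamma0 (N * q)) →+ ℤ)
    (ha : IsParabolicHom (Gamma0 (N * q)) a) :
    IsParabolicHom (Gamma0 (N * q)) (H19.wOp hq hqN a) :=
  H97.isParabolicHom_tr (M := N * q) (M' := N * q) H97.int_torsionFree (H19.isTrFam_w hq hqN) ha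

theorem isParabolicHom_coresOp (hq : q.Prime) (hqN : ¬ q ∣ N)
    (a : Additive (Gamma0 (N * q)) →+ ℤ) (ha : IsParabolicHom (Gamma0 (N * q)) a) :
    IsParabolicHom (Gamma0 N) (H19.coresOp hq hqN a) :=
  H97.isParabolicHom_tr (M := N) (M' := N * q) H97.int_torsionFree (H19.isTrFam_cores hq hqN) ha

/-- `pd (w a) b = pd a (w b)`. -/
theorem pdG_wOp_left (hq : q.Prime) (hqN : ¬ q ∣ N)
    (a b : Additive (Gamma0 (N * q)) →+ ℤ)
    (ha : IsParabolicHom (Gamma0 (N * q)) a) (hb : IsParabolicHom (Gamma0 (N * q)) b) :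
    pdG (N * q) (H19.wOp hq hqN a) b = pdG (N * q) a (H19.wOp hq hqN b) := by
  have h := pdG_wOp_wOp hq hqN a (H19.wOp hq hqN b) ha (isParabolicHom_wOp hq hqN b hb)
  rw [H19.wOp_wOp] at h
  exact h

/-- **The adjunction `hadj`**: for `i (x, y) = res x + w (res y)` and
`j z = (cores z, cores (w z))`. -/
theorem pdG_adj (hq : q.Prime) (hqN : ¬ q ∣ N) (x y : Additive (Gamma0 N) →+ ℤ)
    (z : Additive (Gamma0 (N * q)) →+ ℤ) (hx : IsParabolicHom (Gamma0 N) x)
    (hy : IsParabolicHom (Gamma0 N) y) (hz : IsParabolicHom (Gamma0 (N * q)) z) :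
    pdG (N * q) (H19.resOp N q x + H19.wOp hq hqN (H19.resOp N q y)) z
      = pdG N x (H19.coresOp hq hqN z) + pdG N y (H19.coresOp hq hqN (H19.wOp hq hqN z)) := by
  rw [pdG_add_left, pdG_resOp_coresOp hq hqN x z hx hz,
    pdG_wOp_left hq hqN _ z (isParabolicHom_resOp y hy) hz,
    pdG_resOp_coresOp hq hqN y _ hy (isParabolicHom_wOp hq hqN z hz)]

/-- **Self-adjointness of `T_q`** (`q` prime, `q ∤ N`) for the residue pairing at level `N`. -/
theorem pdG_tOp_sa (hq : q.Prime) (hqN : ¬ q ∣ N) (x y : Additive (Gamma0 N) →+ ℤ)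
    (hx : IsParabolicHom (Gamma0 N) x) (hy : IsParabolicHom (Gamma0 N) y) :
    pdG N (H19.tOp hq hqN x) y = pdG N x (H19.tOp hq hqN y) := by
  have hrx := isParabolicHom_resOp (q := q) x hx
  have hry := isParabolicHom_resOp (q := q) y hy
  have hwx := isParabolicHom_wOp hq hqN _ hrx
  have hwy := isParabolicHom_wOp hq hqN _ hry
  rw [← H19.coresOp_wOp_resOp hq hqN x, ← H19.coresOp_wOp_resOp hq hqN y]
  -- left side
  rw [pdG_swap N y _ hy, ← pdG_resOp_coresOp hq hqN y _ hy hwx,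
    ← pdG_wOp_left hq hqN _ _ hry hrx, pdG_swap (N * q) _ _ hrx, neg_neg,
    pdG_resOp_coresOp hq hqN x _ hx hwy]

end levels

/-! ### The pairing on the lattices -/

/-- The residue pairing on the Betti lattice `parabolicHoms ℤ (Gamma0 M) ℤ`. -/
noncomputable def pdHom (M : ℕ) [NeZero M] :
    parabolicHoms ℤ (Gamma0 M) ℤ →+ parabolicHoms ℤ (Gamma0 M) ℤ →+ ℤ :=
  AddMonoidHom.mk'
    (fun x => AddMonoidHom.mk' (fun y => pdG M (x : Additive (Gamma0 M) →+ ℤ) y)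
      (fun _ _ => pdG_add_right M _ _ _))
    (fun _ _ => AddMonoidHom.ext fun _ => pdG_add_left M _ _ _)

theorem pdHom_apply (M : ℕ) [NeZero M] (x y : parabolicHoms ℤ (Gamma0 M) ℤ) :
    pdHom M x y = pdG M (x : Additive (Gamma0 M) →+ ℤ) (y : Additive (Gamma0 M) →+ ℤ) := rfl

/-- **Self-adjointness of the Hecke operator `T_r`** (`r` prime, `r ∤ N`), in the vocabulary of
the landed relation `S29.H06.IsHeckeTr`. -/
theorem pdG_isHeckeTr_sa {N r : ℕ} [NeZero N] (hr : r.Prime) (hrN : ¬ r ∣ N)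
    {x y tx ty : Additive (Gamma0 N) →+ ℤ} (hx : IsParabolicHom (Gamma0 N) x)
    (hy : IsParabolicHom (Gamma0 N) y) (htx : Fermat.Agent.S29.H06.IsHeckeTr N r x tx)
    (hty : Fermat.Agent.S29.H06.IsHeckeTr N r y ty) : pdG N tx y = pdG N x ty := by
  haveI : NeZero (N * r) := ⟨Nat.mul_ne_zero (NeZero.ne N) hr.ne_zero⟩
  rw [htx.unique hr hrN (H19.isHeckeTr_tOp hr hrN x), hty.unique hr hrN (H19.isHeckeTr_tOp hr hrN y)]
  exact pdG_tOp_sa hr hrN x y hx hy

/-! ### Non-degeneracy modulo `p`: the interface -/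

/-- **(P4)** Left non-degeneracy modulo `p` of the residue pairing for `Γ₀(M)`. -/
def NondegStmt (M p : ℕ) [NeZero M] : Prop :=
  ∀ x : Additive (Gamma0 M) →+ ℤ, IsParabolicHom (Gamma0 M) x →
    (∀ y : Additive (Gamma0 M) →+ ℤ, IsParabolicHom (Gamma0 M) y → (p : ℤ) ∣ pdG M x y) →
    ∃ w : Additive (Gamma0 M) →+ ℤ, IsParabolicHom (Gamma0 M) w ∧ x = (p : ℤ) • w

/-- `NondegStmt` from a statement about one Heisenberg lift for every test character (the shape
"there is a lift whose cusp sum is divisible by `p`"). -/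
theorem nondegStmt_of_exists_lift {M p : ℕ} [NeZero M]
    (H : ∀ x : Additive (Gamma0 M) →+ ℤ, IsParabolicHom (Gamma0 M) x →
      (∀ y : Additive (Gamma0 M) →+ ℤ, IsParabolicHom (Gamma0 M) y →
        ∃ F : Gamma0 M → ℤ, H95.IsHLift x y F ∧
          (p : ℤ) ∣ ∑ c : CuspIdx (Gamma0 M), F (cuspElt (Gamma0 M) (neg_one_mem_Gamma0 M) c)) →
      ∃ w : Additive (Gamma0 M) →+ ℤ, IsParabolicHom (Gamma0 M) w ∧ x = (p : ℤ) • w) :
    NondegStmt M p := by
  intro x hx hdiv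
  refine H x hx (fun y hy => ?_)
  obtain ⟨F, hF, e⟩ := exists_isHLift_pd (Gamma0 M) (neg_one_mem_Gamma0 M) x y
  exact ⟨F, hF, e ▸ hdiv y hy⟩

/-- `NondegStmt` from a statement about all Heisenberg lifts for every test character. -/
theorem nondegStmt_of_forall_lift {M p : ℕ} [NeZero M]
    (H : ∀ x : Additive (Gamma0 M) →+ ℤ, IsParabolicHom (Gamma0 M) x →
      (∀ y : Additive (Gamma0 M) →+ ℤ, IsParabolicHom (Gamma0 M) y →
        ∀ F : Gamma0 M → ℤ, H95.IsHLift x y F →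
          (p : ℤ) ∣ ∑ c : CuspIdx (Gamma0 M), F (cuspElt (Gamma0 M) (neg_one_mem_Gamma0 M) c)) →
      ∃ w : Additive (Gamma0 M) →+ ℤ, IsParabolicHom (Gamma0 M) w ∧ x = (p : ℤ) • w) :
    NondegStmt M p := by
  intro x hx hdiv
  refine H x hx (fun y hy F hF => ?_)
  have e := pd_eq_sum (Gamma0 M) (neg_one_mem_Gamma0 M) hF
  exact e ▸ hdiv y hy

/-- Non-degeneracy on the lattice, in the shape of `hP`, `hP'` of `H71.hDual_of_pairing`. -/
theorem pdHom_nondeg {M p : ℕ} [NeZero M] (h : NondegStmt M p)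
    (x : parabolicHoms ℤ (Gamma0 M) ℤ)
    (hx : ∀ y : parabolicHoms ℤ (Gamma0 M) ℤ, (p : ℤ) ∣ pdHom M x y) :
    ∃ w : parabolicHoms ℤ (Gamma0 M) ℤ, x = (p : ℤ) • w := by
  obtain ⟨w, hw, e⟩ := h x.1 x.2 (fun y hy => hx ⟨y, hy⟩)
  exact ⟨⟨w, hw⟩, Subtype.ext e⟩

end Fermat.Agent.S41.H18
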