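import Mathlib
import Fermat.Agent.S41.PDTop_helper18
import Fermat.Agent.S41.Top_helper53
import Fermat.Agent.S41.LRDual_helper71

/-!
# The duality statement `(C)` of S41 from non-degeneracy of the residue pairing
(helper18, node (C-TOP), route C-H)

`dualStmt_of_nondeg` : helper53's `H53.DualStmt W p hq hqN i` (the hypothesis `hDual` of
`H71.lr_core` in the concrete setting) follows from helper71's `hDual_of_pairing` applied to the
residue pairings `pdHom N`, `pdHom (N * q)`, given only their left non-degeneracy modulo `p`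
(`NondegStmt N p`, `NondegStmt (N * q) p`).
-/

set_option autoImplicit false

namespace Fermat.Agent.S41.H18

open scoped MatrixGroups
open CongruenceSubgroup ModularCurve.Period

theorem pdHom_zsmul_left (M : ℕ) [NeZero M] (c : ℤ) (a b : parabolicHoms ℤ (Gamma0 M) ℤ) :
    pdHom M (c • a) b = c * pdHom M a b := by
  rw [map_zsmul]
  rfl

theorem pdHom_zsmul_right (M : ℕ) [NeZero M] (c : ℤ) (a b : parabolicHoms ℤ (Gamma0 M) ℤ) :
    pdHom M a (c • b) = c * pdHom M a b := by
  rw [map_zsmul]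
  rfl

/-- `hadj` for helper53's `iMap`, `jMap`. -/
theorem pdHom_adj {W : WeierstrassCurve ℤ} {N q p : ℕ} [NeZero N] [NeZero (N * q)]
    (hq : q.Prime) (hqN : ¬ q ∣ N) (x y : H53.Lat N) (z : H53.Lat (N * q)) :
    pdHom (N * q) (H53.iMap W p hq hqN (x, y)) z
      = pdHom N x (H53.jMap W p hq hqN z).1 + pdHom N y (H53.jMap W p hq hqN z).2 := by
  rw [pdHom_apply, pdHom_apply, pdHom_apply, H53.coe_iMap, H53.coe_jMap_fst, H53.coe_jMap_snd]
  exact pdG_adj hq hqN _ _ _ x.2 y.2 z.2

/-- `hsa` for helper53's `r0 i`. -/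
theorem pdHom_r0_sa {W : WeierstrassCurve ℤ} {N q p : ℕ} [NeZero N] (i : H53.Idx W N q p)
    (x y : H53.Lat N) : pdHom N (H53.r0 i • x) y = pdHom N x (H53.r0 i • y) := by
  rw [H53.r0_smul_lat, H53.r0_smul_lat, map_sub, map_sub, AddMonoidHom.sub_apply,
    pdHom_zsmul_left, pdHom_zsmul_right]
  have h : pdHom N (H50.latT i.prime i.not_dvd x) y = pdHom N x (H50.latT i.prime i.not_dvd y) := by
    rw [pdHom_apply, pdHom_apply]
    exact pdG_isHeckeTr_sa i.prime i.not_dvd x.2 y.2 (H50.isHeckeTr_latT i.prime i.not_dvd x)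
      (H50.isHeckeTr_latT i.prime i.not_dvd y)
  rw [h]

/-- **Route C-H, final plug**: helper53's duality statement from the non-degeneracy modulo `p`
of the residue pairings at the levels `N` and `N q`. -/
theorem dualStmt_of_nondeg {W : WeierstrassCurve ℤ} {N q p : ℕ} [NeZero N] [NeZero (N * q)]
    (hN : 0 < N) (hq : q.Prime) (hqN : ¬ q ∣ N) (hp : p.Prime) (hp2 : p ≠ 2)
    (hP : NondegStmt N p) (hP' : NondegStmt (N * q) p) (i : H53.Idx W N q p) :
    H53.DualStmt W p hq hqN i := by
  haveI : Fact p.Prime := ⟨hp⟩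
  haveI : Module.Finite ℤ (H53.Lat N) := H34.finite_parabolicHoms_Gamma0 N
  refine H71.hDual_of_pairing p (H53.iMap W p hq hqN) (H53.jMap W p hq hqN) (pdHom N)
    (pdHom (N * q)) ?_ (pdHom_nondeg hP) (pdHom_nondeg hP') (H53.r0 i) ?_
    (fun u hu => H53.ih_lat hN hq hqN hp hp2 i u hu)
  · intro x y z
    rw [pdHom_adj hq hqN x y z, sub_self]
    exact dvd_zero _
  · intro x y
    rw [pdHom_r0_sa i x y, sub_self]
    exact dvd_zero _

end Fermat.Agent.S41.H18
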