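import Mathlib
import Fermat.Prelude.Def_ModularCurve_PeriodMap
import Fermat.Agent.S41.PDRes_helper95
import Fermat.Agent.S41.SL2Pres_helper44
import Fermat.Agent.S21.Parabolic_helper23

/-!
# S41, node (C-ND) (helper46): left non-degeneracy mod `p` of the residue pairing

For a subgroup `Γ ≤ SL(2, ℤ)` containing `-1`, with a system of cusp representatives `t i`
and widths `h i`, the residue pairing of two parabolic characters `φ ψ : Γ → ℤ` is the sum of a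
Heisenberg lift `F` of `(φ, ψ)` over the primitive parabolic elements `(t i)⁻¹ T ^ (h i) (t i)`.
We show: if this sum is divisible by `p` for every parabolic `ψ` and every lift `F`, then `φ` is
divisible by `p` (`nondeg_of_pres`).

The proof constructs, for every `γ₀ ∈ Γ`, an explicit "Poincaré dual" parabolic character
`ψ` together with an explicit lift `F` whose residue sum is `φ γ₀`.  Both come from one
universal object, the *Manin cocycle* `manin f : SL(2, ℤ) → SL(2, ℤ) → ℤ` of an even function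
`f`, characterised by `m (g h) x = m g x + m h (x g)`, `m S x = f x - f (x S)`, `m (S T) = 0`.
Its existence is the only place where the presentation of `SL(2, ℤ)` is used (hypothesis
`Pres`, supplied by `SL2Pres_helper44` in `PDNondegTop_helper46`).
-/

set_option autoImplicit false

namespace Fermat.Agent.S41.H46

open scoped MatrixGroups
open ModularGroup Finset

/-! ### Elementary facts on `S`, `T` -/

theorem S_mul_S : (S * S : SL(2, ℤ)) = -1 := by decide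

theorem ST_cube : ((S * T) ^ 3 : SL(2, ℤ)) = -1 := by decide

theorem S_inv : (S⁻¹ : SL(2, ℤ)) = -S := by decide

/-! ### The group `(SL(2, ℤ) → ℤ) ⋊ SL(2, ℤ)` -/

/-- The semidirect product `(SL(2, ℤ) → ℤ) ⋊ SL(2, ℤ)`, `SL(2, ℤ)` acting on functions by right
translation of the argument. -/
structure MG where
  /-- the function component -/
  fn : SL(2, ℤ) → ℤ
  /-- the group component -/
  el : SL(2, ℤ)

namespace MG

theorem ext' {a b : MG} (h1 : ∀ x, a.fn x = b.fn x) (h2 : a.el = b.el) : a = b := by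
  cases a; cases b
  simp only [mk.injEq]
  exact ⟨funext h1, h2⟩

instance : Mul MG := ⟨fun a b => ⟨fun x => a.fn x + b.fn (x * a.el), a.el * b.el⟩⟩

instance : One MG := ⟨⟨fun _ => 0, 1⟩⟩

instance : Inv MG := ⟨fun a => ⟨fun x => -a.fn (x * a.el⁻¹), a.el⁻¹⟩⟩

@[simp] theorem mul_fn (a b : MG) (x : SL(2, ℤ)) : (a * b).fn x = a.fn x + b.fn (x * a.el) := rfl

@[simp] theorem mul_el (a b : MG) : (a * b).el = a.el * b.el := rfl

@[simp] theorem one_fn (x : SL(2, ℤ)) : (1 : MG).fn x = 0 := rfl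

@[simp] theorem one_el : (1 : MG).el = 1 := rfl

@[simp] theorem inv_fn (a : MG) (x : SL(2, ℤ)) : (a⁻¹).fn x = -a.fn (x * a.el⁻¹) := rfl

@[simp] theorem inv_el (a : MG) : (a⁻¹).el = a.el⁻¹ := rfl

instance : Group MG where
  mul_assoc a b c := ext' (fun x => by simp [mul_assoc, add_assoc]) (by simp [mul_assoc])
  one_mul a := ext' (fun x => by simp) (by simp)
  mul_one a := ext' (fun x => by simp) (by simp)
  inv_mul_cancel a := ext' (fun x => by simp) (by simp)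

/-- The projection to `SL(2, ℤ)`. -/
def elHom : MG →* SL(2, ℤ) where
  toFun := MG.el
  map_one' := rfl
  map_mul' _ _ := rfl

end MG

/-- The instance of the universal property of `SL(2, ℤ) = ⟨S, T | S⁴ = 1, (S T)³ = S²⟩` that is
used below. -/
def Pres : Prop :=
  ∀ s t : MG, s ^ 4 = 1 → (s * t) ^ 3 = s ^ 2 → ∃ Φ : SL(2, ℤ) →* MG, Φ S = s ∧ Φ T = t

/-! ### Cocycles -/

/-- `m : SL(2, ℤ) → (SL(2, ℤ) → ℤ)` is a cocycle for the right translation action. -/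
def IsCoc (m : SL(2, ℤ) → SL(2, ℤ) → ℤ) : Prop :=
  ∀ g h x, m (g * h) x = m g x + m h (x * g)

theorem IsCoc.map_one {m : SL(2, ℤ) → SL(2, ℤ) → ℤ} (hm : IsCoc m) (x : SL(2, ℤ)) : m 1 x = 0 := by
  have h := hm 1 1 x
  simp only [mul_one] at h
  linarith

theorem IsCoc.map_inv {m : SL(2, ℤ) → SL(2, ℤ) → ℤ} (hm : IsCoc m) (g x : SL(2, ℤ)) :
    m g⁻¹ x = -m g (x * g⁻¹) := by
  have h := hm g⁻¹ g x
  rw [inv_mul_cancel, hm.map_one] at h
  linarith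

/-- A cocycle vanishing on `S` and `S * T` vanishes. -/
theorem IsCoc.eq_zero {m : SL(2, ℤ) → SL(2, ℤ) → ℤ} (hm : IsCoc m) (hS : ∀ x, m S x = 0)
    (hR : ∀ x, m (S * T) x = 0) (g x : SL(2, ℤ)) : m g x = 0 := by
  have hT : ∀ x, m T x = 0 := by
    intro x
    have h := hm S⁻¹ (S * T) x
    rw [inv_mul_cancel_left, hm.map_inv, hS, hR] at h
    simpa using h
  have hg : g ∈ Subgroup.closure ({S, T} : Set SL(2, ℤ)) := by
    rw [SpecialLinearGroup.SL2Z_generators]; trivial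
  revert x
  induction hg using Subgroup.closure_induction_right with
  | one => exact fun x => hm.map_one x
  | mul_right y z hy hz ih =>
    intro x
    rw [hm, ih]
    rcases hz with rfl | rfl
    · rw [hS, add_zero]
    · rw [hT, add_zero]
  | mul_inv_cancel y z hy hz ih =>
    intro x
    rw [hm, ih, hm.map_inv]
    rcases hz with rfl | rfl
    · rw [hS]; simp
    · rw [hT]; simp

/-- Two cocycles agreeing on `S` and `S * T` agree. -/
theorem IsCoc.ext {m m' : SL(2, ℤ) → SL(2, ℤ) → ℤ} (hm : IsCoc m) (hm' : IsCoc m')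
    (hS : ∀ x, m S x = m' S x) (hR : ∀ x, m (S * T) x = m' (S * T) x) (g x : SL(2, ℤ)) :
    m g x = m' g x := by
  have hd : IsCoc (fun g x => m g x - m' g x) := by
    intro g h x
    simp only [hm g h x, hm' g h x]
    ring
  have := hd.eq_zero (fun x => by simp [hS x]) (fun x => by simp [hR x]) g x
  simpa [sub_eq_zero] using this

/-! ### The Manin cocycle of an even function -/

/-- Even functions on `SL(2, ℤ)`. -/
def IsEven (f : SL(2, ℤ) → ℤ) : Prop := ∀ x, f (-x) = f x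

theorem exists_manin (hP : Pres) (f : SL(2, ℤ) → ℤ) (hf : IsEven f) :
    ∃ m : SL(2, ℤ) → SL(2, ℤ) → ℤ, IsCoc m ∧ (∀ x, m S x = f x - f (x * S)) ∧
      ∀ x, m (S * T) x = 0 := by
  set s : MG := ⟨fun x => f x - f (x * S), S⟩ with hs
  set r : MG := ⟨fun _ => 0, S * T⟩ with hr
  have hss : s * s = ⟨fun _ => 0, -1⟩ := by
    refine MG.ext' (fun x => ?_) ?_
    · show f x - f (x * S) + (f (x * S) - f (x * S * S)) = 0
      rw [mul_assoc, S_mul_S, mul_neg, mul_one, hf x]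
      ring
    · exact S_mul_S
  have hs4 : s ^ 4 = 1 := by
    have : s ^ 4 = (s * s) * (s * s) := by simp [pow_succ, mul_assoc]
    rw [this, hss]
    refine MG.ext' (fun x => ?_) ?_
    · show (0 : ℤ) + 0 = 0
      rfl
    · show (-1 : SL(2, ℤ)) * -1 = 1
      simp
  have hr3 : r ^ 3 = s ^ 2 := by
    have h3 : r ^ 3 = r * r * r := by simp [pow_succ]
    have h2 : s ^ 2 = s * s := pow_two s
    rw [h3, h2, hss]
    refine MG.ext' (fun x => ?_) ?_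
    · show (0 : ℤ) + 0 + 0 = 0
      rfl
    · show S * T * (S * T) * (S * T) = (-1 : SL(2, ℤ))
      rw [← ST_cube]; simp [pow_succ, mul_assoc]
  have hst : (s * (s⁻¹ * r)) ^ 3 = s ^ 2 := by rw [mul_inv_cancel_left]; exact hr3
  obtain ⟨Φ, hΦS, hΦT⟩ := hP s (s⁻¹ * r) hs4 hst
  have hel : MG.elHom.comp Φ = MonoidHom.id _ := by
    apply MonoidHom.eq_of_eqOn_dense SpecialLinearGroup.SL2Z_generators
    rintro x (rfl | rfl)
    · show (Φ S).el = S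
      rw [hΦS]
    · show (Φ T).el = T
      rw [hΦT]
      show S⁻¹ * (S * T) = T
      group
  have hel' : ∀ g, (Φ g).el = g := fun g => by
    have := congrArg (fun ψ : SL(2, ℤ) →* SL(2, ℤ) => ψ g) hel
    exact this
  refine ⟨fun g x => (Φ g).fn x, ?_, ?_, ?_⟩
  · intro g h x
    show (Φ (g * h)).fn x = (Φ g).fn x + (Φ h).fn (x * g)
    rw [map_mul, MG.mul_fn, hel']
  · intro x
    show (Φ S).fn x = _
    rw [hΦS]
  · intro x
    show (Φ (S * T)).fn x = 0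
    rw [map_mul, hΦS, hΦT, mul_inv_cancel_left]

/-- The Manin cocycle of an even function. -/
noncomputable def manin (hP : Pres) (f : SL(2, ℤ) → ℤ) (hf : IsEven f) :
    SL(2, ℤ) → SL(2, ℤ) → ℤ :=
  Classical.choose (exists_manin hP f hf)

theorem manin_coc (hP : Pres) (f : SL(2, ℤ) → ℤ) (hf : IsEven f) : IsCoc (manin hP f hf) :=
  (Classical.choose_spec (exists_manin hP f hf)).1

theorem manin_S (hP : Pres) (f : SL(2, ℤ) → ℤ) (hf : IsEven f) (x : SL(2, ℤ)) :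
    manin hP f hf S x = f x - f (x * S) :=
  (Classical.choose_spec (exists_manin hP f hf)).2.1 x

theorem manin_R (hP : Pres) (f : SL(2, ℤ) → ℤ) (hf : IsEven f) (x : SL(2, ℤ)) :
    manin hP f hf (S * T) x = 0 :=
  (Classical.choose_spec (exists_manin hP f hf)).2.2 x

theorem manin_T (hP : Pres) (f : SL(2, ℤ) → ℤ) (hf : IsEven f) (x : SL(2, ℤ)) :
    manin hP f hf T x = f x - f (x * S) := by
  have h := manin_coc hP f hf S⁻¹ (S * T) x
  rw [inv_mul_cancel_left, (manin_coc hP f hf).map_inv, manin_S, manin_R, inv_mul_cancel_right,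
    S_inv, mul_neg, hf] at h
  linarith

theorem manin_T_pow (hP : Pres) (f : SL(2, ℤ) → ℤ) (hf : IsEven f) (k : ℕ) (x : SL(2, ℤ)) :
    manin hP f hf (T ^ k) x = ∑ j ∈ range k, (f (x * T ^ j) - f (x * T ^ j * S)) := by
  induction k with
  | zero => simp [(manin_coc hP f hf).map_one]
  | succ k ih =>
    rw [pow_succ, manin_coc hP f hf, ih, manin_T, sum_range_succ]

/-- The value at a conjugate. -/
theorem manin_conj (hP : Pres) (f : SL(2, ℤ) → ℤ) (hf : IsEven f) (k g : SL(2, ℤ)) :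
    manin hP f hf (k⁻¹ * g * k) 1 =
      manin hP f hf g k⁻¹ + (manin hP f hf k (k⁻¹ * g) - manin hP f hf k k⁻¹) := by
  have hm := manin_coc hP f hf
  rw [mul_assoc, hm, hm, hm.map_inv, one_mul]
  ring

/-- Linearity of the Manin cocycle in the function. -/
theorem manin_lin (hP : Pres) (f n f' : SL(2, ℤ) → ℤ) (hf : IsEven f) (hn : IsEven n)
    (hf' : IsEven f') (a : ℤ) (h : ∀ x, f' x = a * n x + f x) (g x : SL(2, ℤ)) :
    manin hP f' hf' g x = a * manin hP n hn g x + manin hP f hf g x := by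
  have hc : IsCoc (fun g x => a * manin hP n hn g x + manin hP f hf g x) := by
    intro g h x
    simp only [manin_coc hP n hn g h x, manin_coc hP f hf g h x]
    ring
  refine (manin_coc hP f' hf').ext hc (fun x => ?_) (fun x => ?_) g x
  · simp only [manin_S, h]
    ring
  · simp only [manin_R]
    ring

/-- Compatibility of the Manin cocycle with left translation of the function. -/
theorem manin_shift (hP : Pres) (f f' : SL(2, ℤ) → ℤ) (hf : IsEven f) (hf' : IsEven f')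
    (a : SL(2, ℤ)) (h : ∀ x, f' x = f (a * x)) (g x : SL(2, ℤ)) :
    manin hP f' hf' g x = manin hP f hf g (a * x) := by
  have hc : IsCoc (fun g x => manin hP f hf g (a * x)) := by
    intro g h x
    simp only [manin_coc hP f hf g h (a * x), mul_assoc]
  refine (manin_coc hP f' hf').ext hc (fun x => ?_) (fun x => ?_) g x
  · simp only [manin_S, h, mul_assoc]
  · simp only [manin_R]

/-! ### Characters of `Γ` from invariant functions, and explicit Heisenberg lifts -/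

section Gamma

variable (Γ : Subgroup SL(2, ℤ))

/-- Left `Γ`-invariant functions. -/
def IsInv (n : SL(2, ℤ) → ℤ) : Prop := ∀ γ ∈ Γ, ∀ x, n (γ * x) = n x

/-- Primitives of a character of `Γ`. -/
def IsPrim (φ : Additive Γ →+ ℤ) (Φ : SL(2, ℤ) → ℤ) : Prop :=
  ∀ (γ : Γ) (x : SL(2, ℤ)), Φ ((γ : SL(2, ℤ)) * x) = φ (Additive.ofMul γ) + Φ x

variable {Γ}

theorem IsInv.isEven (hneg : (-1 : SL(2, ℤ)) ∈ Γ) {n : SL(2, ℤ) → ℤ} (hn : IsInv Γ n) :
    IsEven n := by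
  intro x
  have := hn (-1) hneg x
  simpa using this

theorem map_neg_one (hneg : (-1 : SL(2, ℤ)) ∈ Γ) (φ : Additive Γ →+ ℤ) :
    φ (Additive.ofMul ⟨-1, hneg⟩) = 0 := by
  have h1 : (⟨-1, hneg⟩ : Γ) * ⟨-1, hneg⟩ = 1 := by
    apply Subtype.ext
    simp
  have h2 : φ (Additive.ofMul ((⟨-1, hneg⟩ : Γ) * ⟨-1, hneg⟩)) = 0 := by
    rw [h1]; exact map_zero φ
  rw [ofMul_mul, map_add] at h2
  omega

theorem IsPrim.isEven (hneg : (-1 : SL(2, ℤ)) ∈ Γ) {φ : Additive Γ →+ ℤ} {Φ : SL(2, ℤ) → ℤ}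
    (hΦ : IsPrim Γ φ Φ) : IsEven Φ := by
  intro x
  have := hΦ ⟨-1, hneg⟩ x
  rw [map_neg_one hneg φ] at this
  simpa using this

theorem isEven_mul {Φ n : SL(2, ℤ) → ℤ} (hΦ : IsEven Φ) (hn : IsEven n) :
    IsEven (fun x => Φ x * n x) := fun x => by
  show Φ (-x) * n (-x) = Φ x * n x
  rw [hΦ, hn]

theorem manin_inv_shift (hP : Pres) {n : SL(2, ℤ) → ℤ} (hn : IsEven n) (hinv : IsInv Γ n)
    (γ : SL(2, ℤ)) (hγ : γ ∈ Γ) (g x : SL(2, ℤ)) :
    manin hP n hn g (γ * x) = manin hP n hn g x :=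
  (manin_shift hP n n hn hn γ (fun x => (hinv γ hγ x).symm) g x).symm

theorem manin_prim_shift (hP : Pres) {φ : Additive Γ →+ ℤ} {Φ n : SL(2, ℤ) → ℤ}
    (hΦ : IsPrim Γ φ Φ) (hΦe : IsEven Φ) (hn : IsEven n) (hinv : IsInv Γ n) (γ : Γ)
    (g x : SL(2, ℤ)) :
    manin hP (fun x => Φ x * n x) (isEven_mul hΦe hn) g ((γ : SL(2, ℤ)) * x) =
      φ (Additive.ofMul γ) * manin hP n hn g x +
        manin hP (fun x => Φ x * n x) (isEven_mul hΦe hn) g x := by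
  have hf' : IsEven (fun x => Φ ((γ : SL(2, ℤ)) * x) * n ((γ : SL(2, ℤ)) * x)) := by
    intro x
    show Φ ((γ : SL(2, ℤ)) * -x) * n ((γ : SL(2, ℤ)) * -x) = _
    rw [mul_neg, hΦe, hn]
  rw [← manin_shift hP _ _ (isEven_mul hΦe hn) hf' γ (fun x => rfl) g x]
  exact manin_lin hP _ n _ (isEven_mul hΦe hn) hn hf' (φ (Additive.ofMul γ))
    (fun x => by rw [hΦ γ x, hinv γ γ.2 x]; ring) g x

/-- The character of `Γ` attached to an even invariant function. -/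
noncomputable def psiN (hP : Pres) (n : SL(2, ℤ) → ℤ) (hn : IsEven n) (hinv : IsInv Γ n) :
    Additive Γ →+ ℤ :=
  AddMonoidHom.mk' (fun γ => manin hP n hn ((Additive.toMul γ : Γ) : SL(2, ℤ)) 1) (by
    intro a b
    show manin hP n hn (((Additive.toMul a * Additive.toMul b : Γ)) : SL(2, ℤ)) 1 = _
    rw [Subgroup.coe_mul, manin_coc hP n hn, one_mul]
    congr 1
    have := manin_inv_shift hP hn hinv _ (Additive.toMul a).2 ((Additive.toMul b : Γ) : SL(2, ℤ)) 1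
    rwa [mul_one] at this)

theorem psiN_apply (hP : Pres) (n : SL(2, ℤ) → ℤ) (hn : IsEven n) (hinv : IsInv Γ n) (γ : Γ) :
    psiN hP n hn hinv (Additive.ofMul γ) = manin hP n hn (γ : SL(2, ℤ)) 1 := rfl

/-- The explicit Heisenberg lift of `(φ, psiN n)`. -/
theorem isHLift_manin (hP : Pres) {φ : Additive Γ →+ ℤ} {Φ n : SL(2, ℤ) → ℤ}
    (hΦ : IsPrim Γ φ Φ) (hΦe : IsEven Φ) (hn : IsEven n) (hinv : IsInv Γ n) :
    H95.IsHLift φ (psiN hP n hn hinv)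
      (fun γ : Γ => manin hP (fun x => Φ x * n x) (isEven_mul hΦe hn) (γ : SL(2, ℤ)) 1) := by
  intro g h
  show manin hP _ _ ((g * h : Γ) : SL(2, ℤ)) 1 = _
  rw [Subgroup.coe_mul, manin_coc hP _ _, one_mul]
  have := manin_prim_shift hP hΦ hΦe hn hinv g (h : SL(2, ℤ)) 1
  rw [mul_one] at this
  rw [this, psiN_apply]
  ring

/-- The value of the explicit lift on a primitive parabolic element. -/
theorem lift_cusp (hP : Pres) {φ : Additive Γ →+ ℤ} {Φ n : SL(2, ℤ) → ℤ}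
    (hΦ : IsPrim Γ φ Φ) (hΦe : IsEven Φ) (hn : IsEven n) (hinv : IsInv Γ n)
    (t : SL(2, ℤ)) (h : ℕ) (hmem : t⁻¹ * T ^ h * t ∈ Γ)
    (hφ0 : φ (Additive.ofMul ⟨t⁻¹ * T ^ h * t, hmem⟩) = 0) :
    manin hP (fun x => Φ x * n x) (isEven_mul hΦe hn) (t⁻¹ * T ^ h * t) 1 =
      ∑ j ∈ range h, (Φ (t⁻¹ * T ^ j) * n (t⁻¹ * T ^ j) -
        Φ (t⁻¹ * T ^ j * S) * n (t⁻¹ * T ^ j * S)) := by
  rw [manin_conj, manin_T_pow]
  have h1 : t⁻¹ * T ^ h = ((⟨t⁻¹ * T ^ h * t, hmem⟩ : Γ) : SL(2, ℤ)) * t⁻¹ := by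
    show t⁻¹ * T ^ h = t⁻¹ * T ^ h * t * t⁻¹
    group
  rw [h1, manin_prim_shift hP hΦ hΦe hn hinv, hφ0]
  ring

/-- The value of `psiN n` on a conjugate of a power of `T`. -/
theorem psiN_conj (hP : Pres) (n : SL(2, ℤ) → ℤ) (hn : IsEven n) (hinv : IsInv Γ n)
    (x : SL(2, ℤ)) (k : ℕ) (hmem : x * T ^ k * x⁻¹ ∈ Γ) :
    psiN hP n hn hinv (Additive.ofMul ⟨x * T ^ k * x⁻¹, hmem⟩) =
      ∑ j ∈ range k, (n (x * T ^ j) - n (x * T ^ j * S)) := by
  rw [psiN_apply]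
  show manin hP n hn (x * T ^ k * x⁻¹) 1 = _
  have h0 := manin_conj hP n hn x⁻¹ (T ^ k)
  rw [inv_inv] at h0
  rw [h0, manin_T_pow]
  have h1 : x * T ^ k = (x * T ^ k * x⁻¹) * x := by group
  rw [h1, manin_inv_shift hP hn hinv _ hmem]
  ring

end Gamma

/-! ### Path indicators: the Poincaré dual of an element of `Γ` -/

section Core

variable {Γ : Subgroup SL(2, ℤ)}

open Classical in
/-- The indicator function of the class `Γ y`. -/
noncomputable def ind (Γ : Subgroup SL(2, ℤ)) (y x : SL(2, ℤ)) : ℤ :=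
  if x * y⁻¹ ∈ Γ then 1 else 0

theorem ind_iff {y x y' x' : SL(2, ℤ)} (h : x * y⁻¹ ∈ Γ ↔ x' * y'⁻¹ ∈ Γ) :
    ind Γ y x = ind Γ y' x' := by
  unfold ind
  by_cases hx : x * y⁻¹ ∈ Γ
  · rw [if_pos hx, if_pos (h.mp hx)]
  · rw [if_neg hx, if_neg (fun h' => hx (h.mpr h'))]

theorem ind_inv (y : SL(2, ℤ)) : IsInv Γ (ind Γ y) := by
  intro γ hγ x
  apply ind_iff
  rw [mul_assoc]; exact Subgroup.mul_mem_cancel_left Γ hγ

theorem ind_mul_S (y x : SL(2, ℤ)) : ind Γ y (x * S) = ind Γ (y * S⁻¹) x := by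
  apply ind_iff
  rw [mul_inv_rev, inv_inv, mul_assoc]

theorem ind_congr {y y' : SL(2, ℤ)} (h : y' * y⁻¹ ∈ Γ) (x : SL(2, ℤ)) :
    ind Γ y' x = ind Γ y x := by
  apply ind_iff
  have e : x * y'⁻¹ * (y' * y⁻¹) = x * y⁻¹ := by group
  rw [← e]
  exact (Subgroup.mul_mem_cancel_right Γ h).symm

/-- The number of `j < k` with `x * T ^ j` in the class of `y`. -/
noncomputable def cnt (Γ : Subgroup SL(2, ℤ)) (x : SL(2, ℤ)) (k : ℕ) (y : SL(2, ℤ)) : ℤ :=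
  ∑ j ∈ range k, ind Γ y (x * T ^ j)

theorem cnt_congr {y y' : SL(2, ℤ)} (h : y' * y⁻¹ ∈ Γ) (x : SL(2, ℤ)) (k : ℕ) :
    cnt Γ x k y' = cnt Γ x k y := by
  unfold cnt
  exact sum_congr rfl fun j _ => ind_congr h _

theorem cnt_mul_T (x : SL(2, ℤ)) (k : ℕ) (y : SL(2, ℤ)) (hmem : x * T ^ k * x⁻¹ ∈ Γ) :
    cnt Γ x k (y * T) = cnt Γ x k y := by
  unfold cnt
  rcases k with _ | k
  · simp
  · rw [sum_range_succ', sum_range_succ]
    have h1 : ∀ j, ind Γ (y * T) (x * T ^ (j + 1)) = ind Γ y (x * T ^ j) := by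
      intro j
      apply ind_iff
      have e : x * T ^ (j + 1) * (y * T)⁻¹ = x * T ^ j * y⁻¹ := by
        rw [pow_succ]; group
      rw [e]
    have h2 : ind Γ (y * T) (x * T ^ 0) = ind Γ y (x * T ^ k) := by
      apply ind_iff
      have e : x * T ^ k * y⁻¹ = (x * T ^ (k + 1) * x⁻¹) * (x * T ^ 0 * (y * T)⁻¹) := by
        rw [pow_succ]; group
      rw [e]
      exact (Subgroup.mul_mem_cancel_left Γ hmem).symm
    rw [h2, sum_congr rfl fun j _ => h1 j]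

theorem cnt_mul_T_inv (x : SL(2, ℤ)) (k : ℕ) (y : SL(2, ℤ)) (hmem : x * T ^ k * x⁻¹ ∈ Γ) :
    cnt Γ x k (y * T⁻¹) = cnt Γ x k y := by
  have := cnt_mul_T x k (y * T⁻¹) hmem
  rw [inv_mul_cancel_right] at this
  exact this.symm

variable {I : Type*} [Fintype I]

/-- Admissible primitives of a character: `T`-invariant on the right and normalised at the
representatives. -/
def Adm (Γ : Subgroup SL(2, ℤ)) (rep : I → SL(2, ℤ)) (φ : Additive Γ →+ ℤ)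
    (Φ : SL(2, ℤ) → ℤ) : Prop :=
  IsPrim Γ φ Φ ∧ (∀ x, Φ (x * T) = Φ x) ∧ ∀ a, Φ (rep a) = 0

/-- The induction predicate: a "path indicator" from `1` to `g`. -/
def Q (Γ : Subgroup SL(2, ℤ)) (rep : I → SL(2, ℤ)) (g : SL(2, ℤ)) : Prop :=
  ∃ n : SL(2, ℤ) → ℤ, IsInv Γ n ∧
    (∀ (x : SL(2, ℤ)) (k : ℕ), x * T ^ k * x⁻¹ ∈ Γ →
      ∑ j ∈ range k, (n (x * T ^ j) - n (x * T ^ j * S)) = cnt Γ x k 1 - cnt Γ x k g) ∧
    ∀ (φ : Additive Γ →+ ℤ) (Φ : SL(2, ℤ) → ℤ), Adm Γ rep φ Φ →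
      ∑ a, (Φ (rep a) * n (rep a) - Φ (rep a * S) * n (rep a * S)) = Φ g - Φ 1

variable (hneg : (-1 : SL(2, ℤ)) ∈ Γ) (rep : I → SL(2, ℤ))
  (hrep : ∀ y : SL(2, ℤ), ∃! a, rep a * y⁻¹ ∈ Γ)

theorem Q_one : Q Γ rep 1 :=
  ⟨fun _ => 0, fun _ _ _ => rfl, fun x k _ => by simp, fun _ _ _ => by simp⟩

theorem Q_T {g : SL(2, ℤ)} (h : Q Γ rep g) : Q Γ rep (g * T) := by
  obtain ⟨n, h1, h2, h3⟩ := h
  refine ⟨n, h1, fun x k hmem => ?_, fun φ Φ hA => ?_⟩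
  · rw [h2 x k hmem, cnt_mul_T x k g hmem]
  · rw [h3 φ Φ hA, hA.2.1]

theorem Q_T_inv {g : SL(2, ℤ)} (h : Q Γ rep g) : Q Γ rep (g * T⁻¹) := by
  obtain ⟨n, h1, h2, h3⟩ := h
  refine ⟨n, h1, fun x k hmem => ?_, fun φ Φ hA => ?_⟩
  · rw [h2 x k hmem, cnt_mul_T_inv x k g hmem]
  · rw [h3 φ Φ hA]
    have := hA.2.1 (g * T⁻¹)
    rw [inv_mul_cancel_right] at this
    rw [this]

include hneg in
theorem Q_neg {g : SL(2, ℤ)} (h : Q Γ rep g) : Q Γ rep (-g) := by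
  obtain ⟨n, h1, h2, h3⟩ := h
  refine ⟨n, h1, fun x k hmem => ?_, fun φ Φ hA => ?_⟩
  · rw [h2 x k hmem, cnt_congr (y := g) (y' := -g) (by simpa using hneg)]
  · rw [h3 φ Φ hA, hA.1.isEven hneg g]

include hrep in
theorem Q_S_inv {g : SL(2, ℤ)} (h : Q Γ rep g) : Q Γ rep (g * S⁻¹) := by
  classical
  obtain ⟨n, h1, h2, h3⟩ := h
  refine ⟨fun x => n x + ind Γ g x, fun γ hγ x => ?_, fun x k hmem => ?_, fun φ Φ hA => ?_⟩
  · show n (γ * x) + ind Γ g (γ * x) = n x + ind Γ g x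
    rw [h1 γ hγ x, ind_inv g γ hγ x]
  · have e : ∑ j ∈ range k, ((n (x * T ^ j) + ind Γ g (x * T ^ j)) -
        (n (x * T ^ j * S) + ind Γ g (x * T ^ j * S))) =
        ∑ j ∈ range k, (n (x * T ^ j) - n (x * T ^ j * S)) +
          (cnt Γ x k g - cnt Γ x k (g * S⁻¹)) := by
      unfold cnt
      rw [← sum_sub_distrib, ← sum_add_distrib]
      refine sum_congr rfl fun j _ => ?_
      rw [ind_mul_S]
      ring
    rw [e, h2 x k hmem]
    ring
  · obtain ⟨hΦ, hΦT, hΦ0⟩ := hA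
    obtain ⟨a₀, ha₀, huniq⟩ := hrep (g * S⁻¹)
    have e1 : ∑ a, (Φ (rep a) * (n (rep a) + ind Γ g (rep a)) -
        Φ (rep a * S) * (n (rep a * S) + ind Γ g (rep a * S))) =
        ∑ a, (Φ (rep a) * n (rep a) - Φ (rep a * S) * n (rep a * S)) -
          ∑ a, Φ (rep a * S) * ind Γ (g * S⁻¹) (rep a) := by
      rw [← sum_sub_distrib]
      refine sum_congr rfl fun a _ => ?_
      rw [hΦ0 a, ind_mul_S]
      ring
    have e2 : ∑ a, Φ (rep a * S) * ind Γ (g * S⁻¹) (rep a) = Φ (rep a₀ * S) := by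
      rw [sum_eq_single a₀]
      · unfold ind
        rw [if_pos ha₀, mul_one]
      · intro b _ hb
        unfold ind
        rw [if_neg (fun hb' => hb (huniq b hb')), mul_zero]
      · intro h; exact absurd (mem_univ a₀) h
    have e3 : Φ (rep a₀ * S) = Φ g - Φ (g * S⁻¹) := by
      have hγ := hΦ ⟨rep a₀ * (g * S⁻¹)⁻¹, ha₀⟩
      have q1 := hγ (g * S⁻¹)
      have q2 := hγ g
      have r1 : rep a₀ * (g * S⁻¹)⁻¹ * (g * S⁻¹) = rep a₀ := by group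
      have r2 : rep a₀ * (g * S⁻¹)⁻¹ * g = rep a₀ * S := by group
      simp only [r1, r2, hΦ0] at q1 q2
      linarith
    show ∑ a, (Φ (rep a) * (n (rep a) + ind Γ g (rep a)) -
        Φ (rep a * S) * (n (rep a * S) + ind Γ g (rep a * S))) = _
    rw [e1, e2, e3, h3 φ Φ ⟨hΦ, hΦT, hΦ0⟩]
    ring

include hneg hrep in
theorem Q_S {g : SL(2, ℤ)} (h : Q Γ rep g) : Q Γ rep (g * S) := by
  have := Q_S_inv rep hrep (Q_neg hneg rep h)
  rwa [S_inv, neg_mul_neg] at this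

include hneg hrep in
theorem Q_all (g : SL(2, ℤ)) : Q Γ rep g := by
  have hg : g ∈ Subgroup.closure ({S, T} : Set SL(2, ℤ)) := by
    rw [SpecialLinearGroup.SL2Z_generators]; trivial
  induction hg using Subgroup.closure_induction_right with
  | one => exact Q_one rep
  | mul_right y z hy hz ih =>
    rcases hz with rfl | rfl
    · exact Q_S hneg rep hrep ih
    · exact Q_T rep ih
  | mul_inv_cancel y z hy hz ih =>
    rcases hz with rfl | rfl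
    · exact Q_S_inv rep hrep ih
    · exact Q_T_inv rep ih

include hneg hrep in
/-- The Poincaré dual of `γ₀ ∈ Γ`: an invariant function `n` with vanishing cusp sums whose
pairing against every admissible primitive `Φ` of a character `φ` along the adapted
representatives is `φ γ₀`. -/
theorem exists_dual (γ₀ : Γ) :
    ∃ n : SL(2, ℤ) → ℤ, IsInv Γ n ∧
      (∀ (x : SL(2, ℤ)) (k : ℕ), x * T ^ k * x⁻¹ ∈ Γ →
        ∑ j ∈ range k, (n (x * T ^ j) - n (x * T ^ j * S)) = 0) ∧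
      ∀ (φ : Additive Γ →+ ℤ) (Φ : SL(2, ℤ) → ℤ), Adm Γ rep φ Φ →
        ∑ a, (Φ (rep a) * n (rep a) - Φ (rep a * S) * n (rep a * S)) =
          φ (Additive.ofMul γ₀) := by
  obtain ⟨n, h1, h2, h3⟩ := Q_all hneg rep hrep (γ₀ : SL(2, ℤ))
  refine ⟨n, h1, fun x k hmem => ?_, fun φ Φ hA => ?_⟩
  · rw [h2 x k hmem, cnt_congr (y := 1) (y' := (γ₀ : SL(2, ℤ))) (by simp)]
    ring
  · rw [h3 φ Φ hA]
    have := hA.1 γ₀ 1
    rw [mul_one] at this
    rw [this]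
    ring

end Core

/-! ### Parabolicity of the dual character -/

section Par

variable {Γ : Subgroup SL(2, ℤ)}

theorem trace_conj_T_zpow (x : SL(2, ℤ)) (m : ℤ) :
    ((x * T ^ m * x⁻¹ : SL(2, ℤ)) : Matrix (Fin 2) (Fin 2) ℤ).trace = 2 := by
  rw [Matrix.SpecialLinearGroup.coe_mul, Matrix.trace_mul_comm,
    ← Matrix.SpecialLinearGroup.coe_mul, inv_mul_cancel_left, ModularGroup.coe_T_zpow,
    Matrix.trace_fin_two]
  simp

/-- If all cusp sums of `n` vanish then `psiN n` is a parabolic character. -/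
theorem psiN_parabolic (hneg : (-1 : SL(2, ℤ)) ∈ Γ) (hP : Pres) (n : SL(2, ℤ) → ℤ)
    (hn : IsEven n) (hinv : IsInv Γ n)
    (hcusp : ∀ (x : SL(2, ℤ)) (k : ℕ), x * T ^ k * x⁻¹ ∈ Γ →
        ∑ j ∈ range k, (n (x * T ^ j) - n (x * T ^ j * S)) = 0) :
    ModularCurve.Period.IsParabolicHom Γ (psiN hP n hn hinv) := by
  have key1 : ∀ (γ : Γ) (δ : SL(2, ℤ)) (k : ℕ), (γ : SL(2, ℤ)) = δ * T ^ k * δ⁻¹ →
      psiN hP n hn hinv (Additive.ofMul γ) = 0 := by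
    intro γ δ k h
    have hmem : δ * T ^ k * δ⁻¹ ∈ Γ := h ▸ γ.2
    have e : γ = ⟨δ * T ^ k * δ⁻¹, hmem⟩ := Subtype.ext h
    rw [e, psiN_conj, hcusp δ k hmem]
  have key2 : ∀ (γ : Γ) (δ : SL(2, ℤ)) (m : ℤ), (γ : SL(2, ℤ)) = δ * T ^ m * δ⁻¹ →
      psiN hP n hn hinv (Additive.ofMul γ) = 0 := by
    intro γ δ m h
    obtain ⟨k, rfl | rfl⟩ := Int.eq_nat_or_neg m
    · exact key1 γ δ k (by rw [h, zpow_natCast])
    · have h' : ((γ⁻¹ : Γ) : SL(2, ℤ)) = δ * T ^ k * δ⁻¹ := by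
        rw [Subgroup.coe_inv, h, zpow_neg, zpow_natCast]; group
      have := key1 γ⁻¹ δ k h'
      rw [ofMul_inv, map_neg, neg_eq_zero] at this
      exact this
  intro γ hγ
  obtain ⟨δ, m, h | h⟩ := Fermat.Agent.S21.H23.exists_conj_T_zpow (γ : SL(2, ℤ)) hγ
  · exact key2 γ δ m h
  · have h' : (((⟨-1, hneg⟩ : Γ) * γ : Γ) : SL(2, ℤ)) = δ * T ^ m * δ⁻¹ := by
      rw [Subgroup.coe_mul, h]; simp
    have := key2 _ δ m h'
    rw [ofMul_mul, map_add, map_neg_one hneg, zero_add] at this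
    exact this

end Par

/-! ### The cusp system `(t, h)`: adapted representatives and admissible primitives -/

section Cusp

variable {Γ : Subgroup SL(2, ℤ)} {ι : Type*} (t : ι → SL(2, ℤ)) (h : ι → ℕ)

/-- The adapted representatives `t_i⁻¹ T ^ j`, `j < h_i`, of `Γ \ SL(2, ℤ)`. -/
def crep (a : Σ i, Fin (h i)) : SL(2, ℤ) := (t a.1)⁻¹ * T ^ (a.2 : ℕ)

variable (hneg : (-1 : SL(2, ℤ)) ∈ Γ)
  (hmem : ∀ i, (t i)⁻¹ * T ^ h i * t i ∈ Γ)
  (hmin : ∀ i (k : ℕ), 0 < k → (t i)⁻¹ * T ^ k * t i ∈ Γ → h i ≤ k)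
  (hpos : ∀ i, 0 < h i)
  (hcov : ∀ z : SL(2, ℤ), ∃! i, ∃ (k : ℤ) (γ : SL(2, ℤ)),
    γ ∈ Γ ∧ (z = T ^ k * t i * γ ∨ z = -(T ^ k * t i * γ)))

include hneg in
theorem cov_pos {z : SL(2, ℤ)} {i : ι}
    (hz : ∃ (k : ℤ) (γ : SL(2, ℤ)), γ ∈ Γ ∧ (z = T ^ k * t i * γ ∨ z = -(T ^ k * t i * γ))) :
    ∃ (k : ℤ) (γ : SL(2, ℤ)), γ ∈ Γ ∧ z = T ^ k * t i * γ := by
  obtain ⟨k, γ, hγ, hz | hz⟩ := hz
  · exact ⟨k, γ, hγ, hz⟩
  · exact ⟨k, -1 * γ, Γ.mul_mem hneg hγ, by rw [hz]; simp⟩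

include hneg hcov in
theorem exists_dec (y : SL(2, ℤ)) :
    ∃ (i : ι) (k : ℤ) (γ : Γ), y = (γ : SL(2, ℤ)) * (t i)⁻¹ * T ^ k := by
  obtain ⟨i, hi, -⟩ := hcov y⁻¹
  obtain ⟨k, γ, hγ, hz⟩ := cov_pos t hneg hi
  refine ⟨i, -k, ⟨γ⁻¹, Γ.inv_mem hγ⟩, ?_⟩
  show y = γ⁻¹ * (t i)⁻¹ * T ^ (-k)
  have : y = (T ^ k * t i * γ)⁻¹ := by rw [← hz, inv_inv]
  rw [this]
  group

include hcov in
theorem dec_unique (φ : Additive Γ →+ ℤ) (hφ : ModularCurve.Period.IsParabolicHom Γ φ)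
    {i i' : ι} {k k' : ℤ} {γ γ' : Γ}
    (he : (γ : SL(2, ℤ)) * (t i)⁻¹ * T ^ k = (γ' : SL(2, ℤ)) * (t i')⁻¹ * T ^ k') :
    φ (Additive.ofMul γ) = φ (Additive.ofMul γ') := by
  have hi : i = i' := by
    obtain ⟨i₀, -, huniq⟩ := hcov (t i')
    have h1 : i' = i₀ := huniq i' ⟨0, 1, Γ.one_mem, Or.inl (by simp)⟩
    have e1 : t i' = T ^ (k' - k) * t i * ((γ : SL(2, ℤ))⁻¹ * γ') := by
      have e0 : (t i')⁻¹ =
          (γ' : SL(2, ℤ))⁻¹ * ((γ : SL(2, ℤ)) * (t i)⁻¹ * T ^ k) * (T ^ k')⁻¹ := by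
        rw [he]; group
      rw [← inv_inv (t i'), e0]; group
    have h2 : i = i₀ :=
      huniq i ⟨k' - k, (γ : SL(2, ℤ))⁻¹ * γ', Γ.mul_mem (Γ.inv_mem γ.2) γ'.2, Or.inl e1⟩
    rw [h2, h1]
  subst hi
  have hg : ((γ'⁻¹ * γ : Γ) : SL(2, ℤ)) = (t i)⁻¹ * T ^ (k' - k) * ((t i)⁻¹)⁻¹ := by
    have e0 : (γ : SL(2, ℤ)) = (γ : SL(2, ℤ)) * (t i)⁻¹ * T ^ k * (T ^ k)⁻¹ * t i := by group
    rw [Subgroup.coe_mul, Subgroup.coe_inv, e0, he]; group
  have h0 : φ (Additive.ofMul (γ'⁻¹ * γ)) = 0 := by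
    apply hφ
    rw [hg, trace_conj_T_zpow]; norm_num
  rw [ofMul_mul, map_add, ofMul_inv, map_neg] at h0
  linarith

include hneg hcov in
/-- A parabolic character has an admissible primitive. -/
theorem exists_adm (φ : Additive Γ →+ ℤ) (hφ : ModularCurve.Period.IsParabolicHom Γ φ) :
    ∃ Φ : SL(2, ℤ) → ℤ, Adm Γ (crep t h) φ Φ := by
  have key : ∀ y : SL(2, ℤ), ∃ v : ℤ, ∀ (i : ι) (k : ℤ) (γ : Γ),
      y = (γ : SL(2, ℤ)) * (t i)⁻¹ * T ^ k → φ (Additive.ofMul γ) = v := by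
    intro y
    obtain ⟨i₀, k₀, γ₀, h₀⟩ := exists_dec t hneg hcov y
    exact ⟨φ (Additive.ofMul γ₀), fun i k γ hy => dec_unique t hcov φ hφ (hy.symm.trans h₀)⟩
  choose Φ hΦ using key
  refine ⟨Φ, fun γ x => ?_, fun x => ?_, fun a => ?_⟩
  · obtain ⟨i, k, γ₁, hx⟩ := exists_dec t hneg hcov x
    have h1 := hΦ x i k γ₁ hx
    have h2 := hΦ ((γ : SL(2, ℤ)) * x) i k (γ * γ₁)
      (by rw [hx, Subgroup.coe_mul]; simp only [mul_assoc])
    rw [← h1, ← h2, ofMul_mul, map_add]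
  · obtain ⟨i, k, γ₁, hx⟩ := exists_dec t hneg hcov x
    have h1 := hΦ x i k γ₁ hx
    have h2 := hΦ (x * T) i (k + 1) γ₁ (by rw [hx, zpow_add_one]; simp only [mul_assoc])
    rw [← h1, ← h2]
  · have := hΦ (crep t h a) a.1 ((a.2 : ℕ) : ℤ) 1 (by unfold crep; simp)
    rw [← this]
    simp

include hmem in
theorem conj_zpow_mem (i : ι) (q : ℤ) : (t i)⁻¹ * T ^ ((h i : ℤ) * q) * t i ∈ Γ := by
  have e : (t i)⁻¹ * T ^ ((h i : ℤ) * q) * t i = ((t i)⁻¹ * T ^ h i * t i) ^ q := by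
    have := conj_zpow (i := q) (a := (t i)⁻¹) (b := T ^ h i)
    rw [inv_inv] at this
    rw [this, zpow_mul, zpow_natCast]
  rw [e]
  exact Γ.zpow_mem (hmem i) q

include hmin in
theorem crep_le (i : ι) {j j' : ℕ} (hj : j < h i)
    (hm : (t i)⁻¹ * T ^ j * ((t i)⁻¹ * T ^ j')⁻¹ ∈ Γ) : j ≤ j' := by
  by_contra hlt'
  have hlt : j' < j := Nat.lt_of_not_le hlt'
  have e : (t i)⁻¹ * T ^ j * ((t i)⁻¹ * T ^ j')⁻¹ = (t i)⁻¹ * T ^ (j - j') * t i := by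
    rw [pow_sub T hlt.le]; group
  rw [e] at hm
  have := hmin i (j - j') (Nat.sub_pos_of_lt hlt) hm
  omega

include hneg hmem hmin hpos hcov in
/-- The adapted representatives are a system of representatives of `Γ \ SL(2, ℤ)`. -/
theorem crep_existsUnique (y : SL(2, ℤ)) : ∃! a, crep t h a * y⁻¹ ∈ Γ := by
  obtain ⟨i, hi, -⟩ := hcov y⁻¹
  obtain ⟨k, γ, hγ, hz⟩ := cov_pos t hneg hi
  have hh : (0 : ℤ) < h i := by exact_mod_cast hpos i
  have hr0 : 0 ≤ (-k) % (h i : ℤ) := Int.emod_nonneg _ hh.ne'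
  have hr1 : (-k) % (h i : ℤ) < h i := Int.emod_lt_of_pos _ hh
  obtain ⟨j, hj⟩ := Int.eq_ofNat_of_zero_le hr0
  have hjlt : j < h i := by
    rw [hj] at hr1
    exact_mod_cast hr1
  have hq : (j : ℤ) + k = (h i : ℤ) * (-((-k) / (h i : ℤ))) := by
    have := Int.emod_add_mul_ediv (-k) (h i : ℤ)
    rw [hj] at this
    linarith
  have hm0 : (t i)⁻¹ * T ^ j * y⁻¹ ∈ Γ := by
    have e : (t i)⁻¹ * T ^ j * y⁻¹ =
        ((t i)⁻¹ * T ^ ((h i : ℤ) * (-((-k) / (h i : ℤ)))) * t i) * γ := by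
      rw [hz, ← hq, zpow_add, zpow_natCast]; group
    rw [e]
    exact Γ.mul_mem (conj_zpow_mem t h hmem i _) hγ
  refine ⟨⟨i, ⟨j, hjlt⟩⟩, hm0, ?_⟩
  rintro ⟨i', j'⟩ ha'
  have hm : (t i')⁻¹ * T ^ (j' : ℕ) * ((t i)⁻¹ * T ^ j)⁻¹ ∈ Γ := by
    have := Γ.mul_mem ha' (Γ.inv_mem hm0)
    have e : crep t h ⟨i', j'⟩ * y⁻¹ * ((t i)⁻¹ * T ^ j * y⁻¹)⁻¹ =
        (t i')⁻¹ * T ^ (j' : ℕ) * ((t i)⁻¹ * T ^ j)⁻¹ := by
      unfold crep; group
    rwa [e] at this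
  have hi' : i' = i := by
    obtain ⟨i₀, -, huniq⟩ := hcov (t i)
    have h1 : i = i₀ := huniq i ⟨0, 1, Γ.one_mem, Or.inl (by simp)⟩
    have h2 : i' = i₀ := huniq i' ⟨(j : ℤ) - ((j' : ℕ) : ℤ), _, hm, Or.inl (by
      rw [zpow_sub, zpow_natCast, zpow_natCast]; group)⟩
    rw [h2, h1]
  subst hi'
  have hle1 : (j' : ℕ) ≤ j := crep_le t h hmin i' j'.2 hm
  have hle2 : j ≤ (j' : ℕ) := crep_le t h hmin i' hjlt (by
    have := Γ.inv_mem hm
    have e : ((t i')⁻¹ * T ^ (j' : ℕ) * ((t i')⁻¹ * T ^ j)⁻¹)⁻¹ =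
        (t i')⁻¹ * T ^ j * ((t i')⁻¹ * T ^ (j' : ℕ))⁻¹ := by group
    rwa [e] at this)
  have : j' = ⟨j, hjlt⟩ := Fin.ext (le_antisymm hle1 hle2)
  rw [this]

end Cusp

/-! ### Main results -/

/-- The universal property of `SL(2, ℤ)` from helper44's presentation. -/
theorem pres : Pres := fun s t hs hst =>
  let ⟨Φ, hΦ, _⟩ := H44.exists_unique_monoidHom_SL2Z s t hs hst
  ⟨Φ, hΦ⟩

/-- **Poincaré duality, integral form**: for every `γ₀ ∈ Γ` there is a parabolic character `ψ` of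
`Γ` such that the residue pairing of any parabolic character `φ` against `ψ` (computed with a
suitable Heisenberg lift) is the evaluation `φ γ₀`. -/
theorem exists_dual_lift (Γ : Subgroup SL(2, ℤ)) (hneg : (-1 : SL(2, ℤ)) ∈ Γ) {ι : Type*}
    [Fintype ι] (t : ι → SL(2, ℤ)) (h : ι → ℕ) (hpos : ∀ i, 0 < h i)
    (hmem : ∀ i, (t i)⁻¹ * T ^ h i * t i ∈ Γ)
    (hmin : ∀ i (k : ℕ), 0 < k → (t i)⁻¹ * T ^ k * t i ∈ Γ → h i ≤ k)
    (hcov : ∀ z : SL(2, ℤ), ∃! i, ∃ (k : ℤ) (γ : SL(2, ℤ)),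
      γ ∈ Γ ∧ (z = T ^ k * t i * γ ∨ z = -(T ^ k * t i * γ)))
    (γ₀ : Γ) :
    ∃ ψ : Additive Γ →+ ℤ, ModularCurve.Period.IsParabolicHom Γ ψ ∧
      ∀ φ : Additive Γ →+ ℤ, ModularCurve.Period.IsParabolicHom Γ φ →
        ∃ F : Γ → ℤ, H95.IsHLift φ ψ F ∧
          ∑ i, F ⟨(t i)⁻¹ * T ^ h i * t i, hmem i⟩ = φ (Additive.ofMul γ₀) := by
  have hrep := crep_existsUnique t h hneg hmem hmin hpos hcov
  obtain ⟨n, hinv, hcusp, hsum⟩ := exists_dual hneg (crep t h) hrep γ₀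
  have hn : IsEven n := hinv.isEven hneg
  refine ⟨psiN pres n hn hinv, psiN_parabolic hneg pres n hn hinv hcusp, fun φ hφ => ?_⟩
  obtain ⟨Φ, hA⟩ := exists_adm t h hneg hcov φ hφ
  have hΦe : IsEven Φ := hA.1.isEven hneg
  refine ⟨_, isHLift_manin pres hA.1 hΦe hn hinv, ?_⟩
  rw [← hsum φ Φ hA, Fintype.sum_sigma]
  refine sum_congr rfl fun i _ => ?_
  have hφ0 : φ (Additive.ofMul ⟨(t i)⁻¹ * T ^ h i * t i, hmem i⟩) = 0 := by
    apply hφ
    show (((t i)⁻¹ * T ^ h i * t i : SL(2, ℤ)) : Matrix (Fin 2) (Fin 2) ℤ).trace ^ 2 = 4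
    have := trace_conj_T_zpow (t i)⁻¹ (h i)
    rw [inv_inv, zpow_natCast] at this
    rw [this]; norm_num
  show manin pres (fun x => Φ x * n x) (isEven_mul hΦe hn) ((t i)⁻¹ * T ^ h i * t i) 1 = _
  rw [lift_cusp pres hA.1 hΦe hn hinv (t i) (h i) (hmem i) hφ0]
  exact (Fin.sum_univ_eq_sum_range (fun j => Φ ((t i)⁻¹ * T ^ j) * n ((t i)⁻¹ * T ^ j) -
    Φ ((t i)⁻¹ * T ^ j * S) * n ((t i)⁻¹ * T ^ j * S)) (h i)).symm

/-- A parabolic character all of whose values are divisible by `p` is `p` times a parabolic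
character. -/
theorem exists_eq_nsmul {Γ : Subgroup SL(2, ℤ)} {p : ℕ} {φ : Additive Γ →+ ℤ}
    (hdvd : ∀ γ : Γ, (p : ℤ) ∣ φ (Additive.ofMul γ))
    (hφ : ModularCurve.Period.IsParabolicHom Γ φ) :
    ∃ w : Additive Γ →+ ℤ, ModularCurve.Period.IsParabolicHom Γ w ∧ φ = p • w := by
  refine ⟨AddMonoidHom.mk' (fun γ => φ γ / (p : ℤ)) (fun a b => ?_), fun γ hγ => ?_, ?_⟩
  · rw [map_add]
    exact Int.add_ediv_of_dvd_right (hdvd (Additive.toMul b))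
  · show φ (Additive.ofMul γ) / (p : ℤ) = 0
    rw [hφ γ hγ, Int.zero_ediv]
  · refine AddMonoidHom.ext fun γ => ?_
    show φ γ = p • (φ γ / (p : ℤ))
    rw [nsmul_eq_mul]
    exact (Int.mul_ediv_cancel' (hdvd (Additive.toMul γ))).symm

/-- **Left non-degeneracy mod `p` of the residue pairing** on parabolic characters. -/
theorem nondeg (Γ : Subgroup SL(2, ℤ)) (hneg : (-1 : SL(2, ℤ)) ∈ Γ) {ι : Type*} [Fintype ι]
    (t : ι → SL(2, ℤ)) (h : ι → ℕ) (hpos : ∀ i, 0 < h i)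
    (hmem : ∀ i, (t i)⁻¹ * T ^ h i * t i ∈ Γ)
    (hmin : ∀ i (k : ℕ), 0 < k → (t i)⁻¹ * T ^ k * t i ∈ Γ → h i ≤ k)
    (hcov : ∀ z : SL(2, ℤ), ∃! i, ∃ (k : ℤ) (γ : SL(2, ℤ)),
      γ ∈ Γ ∧ (z = T ^ k * t i * γ ∨ z = -(T ^ k * t i * γ)))
    (p : ℕ) (φ : Additive Γ →+ ℤ) (hφ : ModularCurve.Period.IsParabolicHom Γ φ)
    (H : ∀ ψ : Additive Γ →+ ℤ, ModularCurve.Period.IsParabolicHom Γ ψ → ∀ F : Γ → ℤ,
      H95.IsHLift φ ψ F → (p : ℤ) ∣ ∑ i, F ⟨(t i)⁻¹ * T ^ h i * t i, hmem i⟩) :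
    ∃ w : Additive Γ →+ ℤ, ModularCurve.Period.IsParabolicHom Γ w ∧ φ = p • w := by
  refine exists_eq_nsmul (fun γ₀ => ?_) hφ
  obtain ⟨ψ, hψ, hψ'⟩ := exists_dual_lift Γ hneg t h hpos hmem hmin hcov γ₀
  obtain ⟨F, hF, hsum⟩ := hψ' φ hφ
  rw [← hsum]
  exact H ψ hψ F hF

end Fermat.Agent.S41.H46
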