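import Mathlib
import Fermat.Agent.S41.PDNondeg_helper46
import Fermat.Agent.S41.PDPair_helper18

/-!
# Poincaré duality for the residue pairing `pd`  (helper46, node (C-ND) / (P4) of S41)

The results of `PDNondeg_helper46` in the vocabulary of helper18's pairing `H18.pd`:

* `pd_dual` : for every `γ₀ ∈ Γ` there is a parabolic character `ψ` with
  `pd φ ψ = φ γ₀` for every parabolic character `φ`;
* `pd_nondeg_left`, `pd_nondeg_right` : non-degeneracy modulo any natural number `p`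
  on parabolic characters.
-/

set_option autoImplicit false

namespace Fermat.Agent.S41.H46

open scoped MatrixGroups
open ModularGroup Finset

variable (Γ : Subgroup SL(2, ℤ)) [Γ.FiniteIndex] (hneg : (-1 : SL(2, ℤ)) ∈ Γ)

/-- **Evaluations are representable**: the Poincaré dual of `γ₀ ∈ Γ` is an integral parabolic
character. -/
theorem pd_dual (γ₀ : Γ) :
    ∃ ψ : Additive Γ →+ ℤ, ModularCurve.Period.IsParabolicHom Γ ψ ∧
      ∀ φ : Additive Γ →+ ℤ, ModularCurve.Period.IsParabolicHom Γ φ →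
        H18.pd Γ hneg φ ψ = φ (Additive.ofMul γ₀) := by
  obtain ⟨ψ, hψ, hψ'⟩ := exists_dual_lift Γ hneg (H18.cuspTm Γ) (H18.cuspWd Γ) (H18.cuspWd_pos Γ)
    (H18.cuspElt_mem Γ hneg) (H18.cuspWd_min Γ hneg) (H18.cuspIdx_cov Γ hneg) γ₀
  refine ⟨ψ, hψ, fun φ hφ => ?_⟩
  obtain ⟨F, hF, hsum⟩ := hψ' φ hφ
  rw [H18.pd_eq_sum Γ hneg hF, ← hsum]
  rfl

omit [Γ.FiniteIndex] in
/-- A parabolic character kills the positive parabolic elements. -/
theorem kills_posPar {φ : Additive Γ →+ ℤ} (hφ : ModularCurve.Period.IsParabolicHom Γ φ)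
    (t : Γ) (ht : H18.PosPar (t : SL(2, ℤ))) : φ (Additive.ofMul t) = 0 :=
  hφ t (H18.posPar_trace ht)

/-- **Left non-degeneracy mod `p`** of `pd` on parabolic characters. -/
theorem pd_nondeg_left (p : ℕ) (φ : Additive Γ →+ ℤ)
    (hφ : ModularCurve.Period.IsParabolicHom Γ φ)
    (H : ∀ ψ : Additive Γ →+ ℤ, ModularCurve.Period.IsParabolicHom Γ ψ →
      (p : ℤ) ∣ H18.pd Γ hneg φ ψ) :
    ∃ w : Additive Γ →+ ℤ, ModularCurve.Period.IsParabolicHom Γ w ∧ φ = (p : ℤ) • w := by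
  have hdvd : ∀ γ₀ : Γ, (p : ℤ) ∣ φ (Additive.ofMul γ₀) := by
    intro γ₀
    obtain ⟨ψ, hψ, hψ'⟩ := pd_dual Γ hneg γ₀
    rw [← hψ' φ hφ]
    exact H ψ hψ
  obtain ⟨w, hw, e⟩ := exists_eq_nsmul hdvd hφ
  exact ⟨w, hw, by rw [e, natCast_zsmul]⟩

/-- **Right non-degeneracy mod `p`** of `pd` on parabolic characters. -/
theorem pd_nondeg_right (p : ℕ) (φ : Additive Γ →+ ℤ)
    (hφ : ModularCurve.Period.IsParabolicHom Γ φ)
    (H : ∀ ψ : Additive Γ →+ ℤ, ModularCurve.Period.IsParabolicHom Γ ψ →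
      (p : ℤ) ∣ H18.pd Γ hneg ψ φ) :
    ∃ w : Additive Γ →+ ℤ, ModularCurve.Period.IsParabolicHom Γ w ∧ φ = (p : ℤ) • w := by
  refine pd_nondeg_left Γ hneg p φ hφ fun ψ hψ => ?_
  have := H18.pd_swap Γ hneg ψ φ (kills_posPar Γ hψ)
  have h2 : H18.pd Γ hneg φ ψ = - H18.pd Γ hneg ψ φ := this
  rw [h2]
  exact (dvd_neg).mpr (H ψ hψ)

end Fermat.Agent.S41.H46
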