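import Mathlib
import Fermat.Agent.S41.PDDual_helper18
import Fermat.Agent.S41.PDNondegTop_helper46
import Fermat.Agent.S41.Top2_helper53

/-!
# Route C-H closed: the duality statement of S41 from the residue pairing
(helper18, node (C-TOP))

* `nondegStmt` : the residue pairing of `Γ₀(M)` is left non-degenerate modulo every `p`
  (helper46's `pd_nondeg_left`);
* `dualStmt_CH` : helper53's `DualStmt`, hypothesis-free, by the pairing route
  (`H71.hDual_of_pairing` with the residue pairing);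
* `top_CH` : the frozen conclusion of S41 by this route (a second, independent proof of node (C);
  the first is helper39's intersection route).
-/

set_option autoImplicit false

namespace Fermat.Agent.S41.H18

open scoped MatrixGroups
open CongruenceSubgroup ModularCurve.Period

/-- **(P4)** The residue pairing of `Γ₀(M)` is left non-degenerate modulo `p`. -/
theorem nondegStmt (M p : ℕ) [NeZero M] : NondegStmt M p :=
  fun x hx H => H46.pd_nondeg_left (Gamma0 M) (neg_one_mem_Gamma0 M) p x hx H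

/-- **Node (C) by the pairing route**: helper53's duality statement, hypothesis-free. -/
theorem dualStmt_CH {W : WeierstrassCurve ℤ} {N q p : ℕ} [NeZero N] [NeZero (N * q)]
    (hN : 0 < N) (hq : q.Prime) (hqN : ¬ q ∣ N) (hp : p.Prime) (hp2 : p ≠ 2)
    (i : H53.Idx W N q p) : H53.DualStmt W p hq hqN i :=
  dualStmt_of_nondeg hN hq hqN hp hp2 (nondegStmt N p) (nondegStmt (N * q) p) i

/-- **S41 by the pairing route** (second proof of node (C)). -/
theorem top_CH (E : WeierstrassCurve ℚ) [E.IsElliptic] {W : WeierstrassCurve ℤ}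
    (hW : W.IsIntegralModelOf E) {p N q' : ℕ} (hp : p.Prime) (hp2 : p ≠ 2) (hN : 0 < N)
    (hq' : q'.Prime) (hq'N : ¬ q' ∣ N)
    (hirr : WeierstrassCurve.Affine.Point.GaloisRepIsIrreducible (K := AlgebraicClosure ℚ) ℚ E p)
    (f : CuspForm (CongruenceSubgroup.Gamma0 N) 2) (𝔪 : Ideal (integralClosure ℤ ℂ))
    (hf : f.IsNormalizedEigenform) (hmax : 𝔪.IsMaximal) (hpm : (p : integralClosure ℤ ℂ) ∈ 𝔪)
    (hcong : ∀ ℓ : ℕ, ℓ.Prime → W.IsGoodPrimeFor ℓ → ¬ ℓ ∣ N → ℓ ≠ p →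
      ∃ a : integralClosure ℤ ℂ, (a : ℂ) = ModularFormClass.qCoeff f ℓ ∧
        a - ((W.apOfModel ℓ : ℤ) : integralClosure ℤ ℂ) ∈ 𝔪)
    (hLR : ∃ a : integralClosure ℤ ℂ, (a : ℂ) = ModularFormClass.qCoeff f q' ∧
      a ^ 2 - ((q' : integralClosure ℤ ℂ) + 1) ^ 2 ∈ 𝔪) :
    ∃ (g : CuspForm (CongruenceSubgroup.Gamma0 (N * q')) 2) (𝔪' : Ideal (integralClosure ℤ ℂ)),
      g.IsNormalizedEigenform ∧ 𝔪'.IsMaximal ∧ (p : integralClosure ℤ ℂ) ∈ 𝔪' ∧
      (∀ ℓ : ℕ, ℓ.Prime → W.IsGoodPrimeFor ℓ → ¬ ℓ ∣ N * q' → ℓ ≠ p →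
        ∃ a : integralClosure ℤ ℂ, (a : ℂ) = ModularFormClass.qCoeff g ℓ ∧
          a - ((W.apOfModel ℓ : ℤ) : integralClosure ℤ ℂ) ∈ 𝔪') ∧
      g.IsNewAt q' := by
  haveI : NeZero N := ⟨hN.ne'⟩
  haveI : NeZero (N * q') := ⟨Nat.mul_ne_zero hN.ne' hq'.ne_zero⟩
  exact H53.top_of_dual E hW hp hp2 hN hq' hq'N hirr f 𝔪 hf hmax hpm hcong hLR
    (fun i => dualStmt_CH hN hq' hq'N hp hp2 i)

end Fermat.Agent.S41.H18
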