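/-
S41, node (C-LIFT) (helper72): existence of Heisenberg lifts.

For a subgroup `Γ ≤ SL(2, ℤ)` containing `-1` and two additive characters `φ ψ : Γ → A`
(`A` a commutative ring in which `2` and `3` are regular), there is `F : Γ → A` with
`F (g * h) = F g + F h + φ g * ψ h`.

The proof uses the presentation of `SL(2, ℤ)` only through the hypothesis `hpres`
(universal property for one explicit target group), which is discharged in
`PDLiftTop_helper72.lean` from the landed presentation.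
-/
import Mathlib

set_option autoImplicit false

namespace Fermat.Agent.S41.H72

open MatrixGroups ModularGroup

/-- The Heisenberg group over a commutative ring:
`(a, b, c) * (a', b', c') = (a + a', b + b', c + c' + a * b')`. -/
@[ext] structure Heis (A : Type*) where
  /-- first abelian coordinate -/
  a : A
  /-- second abelian coordinate -/
  b : A
  /-- central coordinate -/
  c : A

namespace Heis

variable {A : Type*} [CommRing A]

instance : Mul (Heis A) := ⟨fun x y => ⟨x.a + y.a, x.b + y.b, x.c + y.c + x.a * y.b⟩⟩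
instance : One (Heis A) := ⟨⟨0, 0, 0⟩⟩
instance : Inv (Heis A) := ⟨fun x => ⟨-x.a, -x.b, -x.c + x.a * x.b⟩⟩

@[simp] theorem mul_a (x y : Heis A) : (x * y).a = x.a + y.a := rfl
@[simp] theorem mul_b (x y : Heis A) : (x * y).b = x.b + y.b := rfl
@[simp] theorem mul_c (x y : Heis A) : (x * y).c = x.c + y.c + x.a * y.b := rfl
@[simp] theorem one_a : (1 : Heis A).a = 0 := rfl
@[simp] theorem one_b : (1 : Heis A).b = 0 := rfl
@[simp] theorem one_c : (1 : Heis A).c = 0 := rfl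
@[simp] theorem inv_a (x : Heis A) : x⁻¹.a = -x.a := rfl
@[simp] theorem inv_b (x : Heis A) : x⁻¹.b = -x.b := rfl
@[simp] theorem inv_c (x : Heis A) : x⁻¹.c = -x.c + x.a * x.b := rfl

instance : Group (Heis A) where
  mul_assoc x y z := by
    ext
    · simp [add_assoc]
    · simp [add_assoc]
    · simp only [mul_a, mul_b, mul_c]
      ring
  one_mul x := by ext <;> simp
  mul_one x := by ext <;> simp
  inv_mul_cancel x := by
    ext
    · simp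
    · simp
    · simp only [mul_c, inv_c, inv_a, one_c]
      ring

end Heis

section Cocycle

variable (Γ : Subgroup SL(2, ℤ))

theorem kap_mem (g : SL(2, ℤ)) (x : SL(2, ℤ) ⧸ Γ) :
    (Quotient.out x)⁻¹ * g * Quotient.out (g⁻¹ • x) ∈ Γ := by
  rw [mul_assoc, ← QuotientGroup.eq, QuotientGroup.out_eq']
  have h : ((g * Quotient.out (g⁻¹ • x) : SL(2, ℤ)) : SL(2, ℤ) ⧸ Γ)
      = g • ((Quotient.out (g⁻¹ • x) : SL(2, ℤ)) : SL(2, ℤ) ⧸ Γ) := rfl
  rw [h, QuotientGroup.out_eq', smul_inv_smul]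

/-- The coset cocycle `κ(g, x) = t_x⁻¹ g t_{g⁻¹ x} ∈ Γ`. -/
noncomputable def kap (g : SL(2, ℤ)) (x : SL(2, ℤ) ⧸ Γ) : Γ :=
  ⟨(Quotient.out x)⁻¹ * g * Quotient.out (g⁻¹ • x), kap_mem Γ g x⟩

theorem kap_mul (g h : SL(2, ℤ)) (x : SL(2, ℤ) ⧸ Γ) :
    kap Γ (g * h) x = kap Γ g x * kap Γ h (g⁻¹ • x) := by
  apply Subtype.ext
  simp only [kap, Subgroup.coe_mul, mul_inv_rev, mul_smul]
  group

theorem kap_one (x : SL(2, ℤ) ⧸ Γ) : kap Γ 1 x = 1 := by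
  apply Subtype.ext
  simp [kap]

variable {Γ}
variable {A : Type*} [CommRing A]

/-- The abelian cocycle attached to a character. -/
noncomputable def zc (χ : Additive Γ →+ A) (g : SL(2, ℤ)) (x : SL(2, ℤ) ⧸ Γ) : A :=
  χ (Additive.ofMul (kap Γ g x))

theorem zc_mul (χ : Additive Γ →+ A) (g h : SL(2, ℤ)) (x : SL(2, ℤ) ⧸ Γ) :
    zc χ (g * h) x = zc χ g x + zc χ h (g⁻¹ • x) := by
  simp only [zc, kap_mul, ofMul_mul, map_add]

theorem zc_one (χ : Additive Γ →+ A) (x : SL(2, ℤ) ⧸ Γ) : zc χ 1 x = 0 := by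
  simp only [zc, kap_one, ofMul_one, map_zero]

theorem zc_pow_of_fix (χ : Additive Γ →+ A) (h : SL(2, ℤ)) (y : SL(2, ℤ) ⧸ Γ)
    (hfix : h⁻¹ • y = y) (n : ℕ) : (h ^ n)⁻¹ • y = y ∧ zc χ (h ^ n) y = n * zc χ h y := by
  induction n with
  | zero => simp [zc_one]
  | succ n ih =>
    obtain ⟨ih1, ih2⟩ := ih
    refine ⟨?_, ?_⟩
    · rw [pow_succ, mul_inv_rev, mul_smul, ih1, hfix]
    · rw [pow_succ, zc_mul, ih1, ih2]
      push_cast
      ring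

theorem zc_fix (h2 : ∀ a : A, 2 * a = 0 → a = 0) (h3 : ∀ a : A, 3 * a = 0 → a = 0)
    (χ : Additive Γ →+ A) (h : SL(2, ℤ)) (y : SL(2, ℤ) ⧸ Γ)
    (hfix : h⁻¹ • y = y) (hord : h ^ 12 = 1) : zc χ h y = 0 := by
  have h12 := (zc_pow_of_fix χ h y hfix 12).2
  rw [hord, zc_one] at h12
  apply h3
  apply h2
  apply h2
  rw [h12]
  push_cast
  ring

theorem zc_eq_of_same (h2 : ∀ a : A, 2 * a = 0 → a = 0) (h3 : ∀ a : A, 3 * a = 0 → a = 0)
    (χ : Additive Γ →+ A) (g₁ g₂ : SL(2, ℤ)) (x : SL(2, ℤ) ⧸ Γ)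
    (hx : g₁⁻¹ • x = g₂⁻¹ • x) (hord : (g₂⁻¹ * g₁) ^ 12 = 1) : zc χ g₁ x = zc χ g₂ x := by
  have hg : g₁ = g₂ * (g₂⁻¹ * g₁) := by group
  have hfix : (g₂⁻¹ * g₁)⁻¹ • (g₂⁻¹ • x) = g₂⁻¹ • x := by
    rw [mul_inv_rev, inv_inv, mul_smul, smul_inv_smul, hx]
  conv_lhs => rw [hg]
  rw [zc_mul, zc_fix h2 h3 χ _ _ hfix hord, add_zero]

end Cocycle

section Orbit

variable (Γ : Subgroup SL(2, ℤ))

/-- The orbit relation of the cyclic group generated by `u` on the cosets. -/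
def orbSetoid (u : SL(2, ℤ)) : Setoid (SL(2, ℤ) ⧸ Γ) where
  r x y := ∃ n : ℤ, (u ^ n)⁻¹ • x = y
  iseqv :=
    ⟨fun x => ⟨0, by simp⟩,
     fun {x y} ⟨n, h⟩ => ⟨-n, by rw [← h, zpow_neg, inv_inv, smul_inv_smul]⟩,
     fun {x y z} ⟨n, h⟩ ⟨m, h'⟩ => ⟨n + m, by
      rw [← h', ← h, zpow_add, mul_inv_rev, mul_smul]⟩⟩

/-- A representative of the `u`-orbit of `x`. -/
noncomputable def rep (u : SL(2, ℤ)) (x : SL(2, ℤ) ⧸ Γ) : SL(2, ℤ) ⧸ Γ :=
  (Quotient.mk (orbSetoid Γ u) x).out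

theorem rep_spec (u : SL(2, ℤ)) (x : SL(2, ℤ) ⧸ Γ) : ∃ n : ℤ, (u ^ n)⁻¹ • x = rep Γ u x :=
  (orbSetoid Γ u).symm (Quotient.exact (Quotient.out_eq (Quotient.mk (orbSetoid Γ u) x)))

theorem rep_smul (u : SL(2, ℤ)) (x : SL(2, ℤ) ⧸ Γ) : rep Γ u (u⁻¹ • x) = rep Γ u x := by
  unfold rep
  congr 1
  apply Quotient.sound
  exact ⟨-1, by simp⟩

/-- An exponent moving `x` to the representative of its orbit. -/
noncomputable def nn (u : SL(2, ℤ)) (x : SL(2, ℤ) ⧸ Γ) : ℤ := Classical.choose (rep_spec Γ u x)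

theorem nn_spec (u : SL(2, ℤ)) (x : SL(2, ℤ) ⧸ Γ) : (u ^ nn Γ u x)⁻¹ • x = rep Γ u x :=
  Classical.choose_spec (rep_spec Γ u x)

variable {Γ}
variable {A : Type*} [CommRing A]

/-- A primitive of the abelian cocycle along the `u`-orbits. -/
noncomputable def prim (χ : Additive Γ →+ A) (u : SL(2, ℤ)) (x : SL(2, ℤ) ⧸ Γ) : A :=
  zc χ (u ^ nn Γ u x) x

theorem prim_sub (h2 : ∀ a : A, 2 * a = 0 → a = 0) (h3 : ∀ a : A, 3 * a = 0 → a = 0)
    (χ : Additive Γ →+ A) (u : SL(2, ℤ)) (hu : u ^ 12 = 1) (x : SL(2, ℤ) ⧸ Γ) :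
    prim χ u x = zc χ u x + prim χ u (u⁻¹ • x) := by
  unfold prim
  have e1 := nn_spec Γ u x
  have e2 := nn_spec Γ u (u⁻¹ • x)
  rw [rep_smul] at e2
  have hkey : zc χ (u ^ nn Γ u x) x = zc χ (u * u ^ nn Γ u (u⁻¹ • x)) x := by
    apply zc_eq_of_same h2 h3
    · rw [e1, mul_inv_rev, mul_smul, e2]
    · have : (u * u ^ nn Γ u (u⁻¹ • x))⁻¹ * u ^ nn Γ u x
          = u ^ (-(1 + nn Γ u (u⁻¹ • x)) + nn Γ u x) := by
        rw [← zpow_one_add, ← zpow_neg, ← zpow_add]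
      rw [this, ← zpow_natCast, ← zpow_mul, mul_comm, zpow_mul, zpow_natCast, hu, one_zpow]
  rw [hkey, zc_mul]

end Orbit

section Lift

variable {A : Type*} [CommRing A] {Γ : Subgroup SL(2, ℤ)}

/-- The target group of the nonabelian cocycle: `(cosets → Heis A) ⋊ SL(2, ℤ)`. -/
abbrev HG (Γ : Subgroup SL(2, ℤ)) (A : Type*) [CommRing A] : Type _ :=
  (SL(2, ℤ) ⧸ Γ → Heis A) ⋊[(mulAutArrow : SL(2, ℤ) →* MulAut (SL(2, ℤ) ⧸ Γ → Heis A))] SL(2, ℤ)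

theorem mulAutArrow_app (g : SL(2, ℤ)) (f : SL(2, ℤ) ⧸ Γ → Heis A) (x : SL(2, ℤ) ⧸ Γ) :
    (mulAutArrow (G := SL(2, ℤ)) (A := SL(2, ℤ) ⧸ Γ) (M := Heis A) g f) x = f (g⁻¹ • x) := rfl

/-- The Heisenberg-valued primitive along `u`-orbits. -/
noncomputable def mm (φ ψ : Additive Γ →+ A) (u : SL(2, ℤ)) (x : SL(2, ℤ) ⧸ Γ) : Heis A :=
  ⟨prim φ u x, prim ψ u x, 0⟩

/-- The value of the nonabelian cocycle on the generator `u`. -/
noncomputable def kk (φ ψ : Additive Γ →+ A) (u : SL(2, ℤ)) (x : SL(2, ℤ) ⧸ Γ) : Heis A :=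
  mm φ ψ u x * (mm φ ψ u (u⁻¹ • x))⁻¹

theorem kk_a (h2 : ∀ a : A, 2 * a = 0 → a = 0) (h3 : ∀ a : A, 3 * a = 0 → a = 0)
    (φ ψ : Additive Γ →+ A) (u : SL(2, ℤ)) (hu : u ^ 12 = 1) (x : SL(2, ℤ) ⧸ Γ) :
    (kk φ ψ u x).a = zc φ u x := by
  simp only [kk, mm, Heis.mul_a, Heis.inv_a]
  rw [prim_sub h2 h3 φ u hu x]
  ring

theorem kk_b (h2 : ∀ a : A, 2 * a = 0 → a = 0) (h3 : ∀ a : A, 3 * a = 0 → a = 0)
    (φ ψ : Additive Γ →+ A) (u : SL(2, ℤ)) (hu : u ^ 12 = 1) (x : SL(2, ℤ) ⧸ Γ) :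
    (kk φ ψ u x).b = zc ψ u x := by
  simp only [kk, mm, Heis.mul_b, Heis.inv_b]
  rw [prim_sub h2 h3 ψ u hu x]
  ring

theorem neg_one_smul_coset (hneg : (-1 : SL(2, ℤ)) ∈ Γ) (x : SL(2, ℤ) ⧸ Γ) :
    (-1 : SL(2, ℤ)) • x = x := by
  induction x using QuotientGroup.induction_on with
  | H y =>
    show ((-1 * y : SL(2, ℤ)) : SL(2, ℤ) ⧸ Γ) = (y : SL(2, ℤ) ⧸ Γ)
    rw [QuotientGroup.eq]
    have : ((-1 : SL(2, ℤ)) * y)⁻¹ * y = -1 := by simp
    rw [this]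
    exact hneg

theorem S_inv_smul_smul (hneg : (-1 : SL(2, ℤ)) ∈ Γ) (x : SL(2, ℤ) ⧸ Γ) :
    (S : SL(2, ℤ))⁻¹ • (S : SL(2, ℤ))⁻¹ • x = x := by
  rw [← mul_smul]
  have : (S : SL(2, ℤ))⁻¹ * S⁻¹ = -1 := by decide
  rw [this, neg_one_smul_coset hneg]

theorem R_inv_smul_smul_smul (hneg : (-1 : SL(2, ℤ)) ∈ Γ) (x : SL(2, ℤ) ⧸ Γ) :
    (S * T : SL(2, ℤ))⁻¹ • (S * T : SL(2, ℤ))⁻¹ • (S * T : SL(2, ℤ))⁻¹ • x = x := by
  rw [← mul_smul, ← mul_smul]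
  have : (S * T : SL(2, ℤ))⁻¹ * (S * T : SL(2, ℤ))⁻¹ * (S * T : SL(2, ℤ))⁻¹ = -1 := by decide
  rw [this, neg_one_smul_coset hneg]

/-- The image of `S`. -/
noncomputable def sS (φ ψ : Additive Γ →+ A) : HG Γ A := ⟨kk φ ψ S, S⟩

/-- The image of `R = S * T`. -/
noncomputable def rR (φ ψ : Additive Γ →+ A) : HG Γ A := ⟨kk φ ψ (S * T), S * T⟩

theorem sS_sq (hneg : (-1 : SL(2, ℤ)) ∈ Γ) (φ ψ : Additive Γ →+ A) :
    sS φ ψ ^ 2 = (⟨1, S ^ 2⟩ : HG Γ A) := by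
  rw [sq]
  apply SemidirectProduct.ext
  · funext x
    simp only [SemidirectProduct.mul_left, sS, Pi.mul_apply, Pi.one_apply, mulAutArrow_app, kk,
      S_inv_smul_smul hneg]
    group
  · simp only [SemidirectProduct.mul_right, sS, sq]

theorem sS_pow_four (hneg : (-1 : SL(2, ℤ)) ∈ Γ) (φ ψ : Additive Γ →+ A) :
    sS φ ψ ^ 4 = 1 := by
  have h : sS φ ψ ^ 4 = sS φ ψ ^ 2 * sS φ ψ ^ 2 := by rw [← pow_add]
  rw [h, sS_sq hneg]
  apply SemidirectProduct.ext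
  · simp only [SemidirectProduct.mul_left, map_one, mul_one, SemidirectProduct.one_left]
  · simp only [SemidirectProduct.mul_right, SemidirectProduct.one_right]
    decide

theorem rR_cube (hneg : (-1 : SL(2, ℤ)) ∈ Γ) (φ ψ : Additive Γ →+ A) :
    rR φ ψ ^ 3 = (⟨1, S ^ 2⟩ : HG Γ A) := by
  have h : rR φ ψ ^ 3 = rR φ ψ * (rR φ ψ * rR φ ψ) := by
    rw [pow_succ, pow_succ, pow_one, mul_assoc]
  rw [h]
  apply SemidirectProduct.ext
  · funext x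
    simp only [SemidirectProduct.mul_left, rR, Pi.mul_apply, Pi.one_apply, mulAutArrow_app, kk,
      R_inv_smul_smul_smul hneg]
    group
  · simp only [SemidirectProduct.mul_right, rR]
    decide

/-- Existence of Heisenberg lifts, with the presentation of `SL(2, ℤ)` as a hypothesis
for the single target group `HG Γ A`. -/
theorem exists_hLift_of_pres (h2 : ∀ a : A, 2 * a = 0 → a = 0) (h3 : ∀ a : A, 3 * a = 0 → a = 0)
    (Γ : Subgroup SL(2, ℤ)) (hneg : (-1 : SL(2, ℤ)) ∈ Γ) (φ ψ : Additive Γ →+ A)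
    (hpres : ∀ s t : HG Γ A, s ^ 4 = 1 → (s * t) ^ 3 = s ^ 2 →
      ∃ Φ : SL(2, ℤ) →* HG Γ A, Φ S = s ∧ Φ T = t) :
    ∃ F : Γ → A, ∀ g h : Γ,
      F (g * h) = F g + F h + φ (Additive.ofMul g) * ψ (Additive.ofMul h) := by
  have hS12 : (S : SL(2, ℤ)) ^ 12 = 1 := by decide
  have hR12 : (S * T : SL(2, ℤ)) ^ 12 = 1 := by decide
  obtain ⟨Φ, hΦS, hΦT⟩ := hpres (sS φ ψ) ((sS φ ψ)⁻¹ * rR φ ψ) (sS_pow_four hneg φ ψ)
    (by rw [mul_inv_cancel_left, rR_cube hneg, sS_sq hneg])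
  have hΦR : Φ (S * T) = rR φ ψ := by rw [map_mul, hΦS, hΦT, mul_inv_cancel_left]
  -- the right component is the identity
  have hright : ∀ g, (Φ g).right = g := by
    have : (SemidirectProduct.rightHom.comp Φ : SL(2, ℤ) →* SL(2, ℤ)) = MonoidHom.id _ := by
      apply MonoidHom.eq_of_eqOn_dense SpecialLinearGroup.SL2Z_generators
      intro g hg
      rcases hg with rfl | rfl
      · simp [hΦS, sS, SemidirectProduct.rightHom]
      · simp [hΦT, sS, rR, SemidirectProduct.rightHom]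
    intro g
    exact congrArg (fun f : SL(2, ℤ) →* SL(2, ℤ) => f g) this
  -- the nonabelian cocycle
  have hk_mul : ∀ g h x, (Φ (g * h)).left x = (Φ g).left x * (Φ h).left (g⁻¹ • x) := by
    intro g h x
    rw [map_mul, SemidirectProduct.mul_left, Pi.mul_apply, mulAutArrow_app, hright]
  have hk_one : ∀ x, (Φ 1).left x = 1 := by
    intro x
    rw [map_one]
    rfl
  -- abelian parts
  let P : Subgroup SL(2, ℤ) :=
    { carrier := {g | ∀ x, ((Φ g).left x).a = zc φ g x ∧ ((Φ g).left x).b = zc ψ g x}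
      one_mem' := by
        intro x
        rw [hk_one, zc_one, zc_one]
        exact ⟨rfl, rfl⟩
      mul_mem' := by
        intro g h hg hh x
        rw [hk_mul, zc_mul, zc_mul, Heis.mul_a, Heis.mul_b, (hg x).1, (hg x).2,
          (hh (g⁻¹ • x)).1, (hh (g⁻¹ • x)).2]
        exact ⟨rfl, rfl⟩
      inv_mem' := by
        intro g hg x
        have e1 := hk_mul g⁻¹ g x
        rw [inv_mul_cancel, hk_one, inv_inv] at e1
        have e2 := zc_mul φ g⁻¹ g x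
        rw [inv_mul_cancel, zc_one, inv_inv] at e2
        have e3 := zc_mul ψ g⁻¹ g x
        rw [inv_mul_cancel, zc_one, inv_inv] at e3
        have ea := congrArg Heis.a e1
        have eb := congrArg Heis.b e1
        rw [Heis.mul_a, Heis.one_a, (hg (g • x)).1] at ea
        rw [Heis.mul_b, Heis.one_b, (hg (g • x)).2] at eb
        constructor
        · linear_combination e2 - ea
        · linear_combination e3 - eb }
  have hPS : (S : SL(2, ℤ)) ∈ P := by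
    intro x
    rw [hΦS]
    exact ⟨kk_a h2 h3 φ ψ S hS12 x, kk_b h2 h3 φ ψ S hS12 x⟩
  have hPR : (S * T : SL(2, ℤ)) ∈ P := by
    intro x
    rw [hΦR]
    exact ⟨kk_a h2 h3 φ ψ (S * T) hR12 x, kk_b h2 h3 φ ψ (S * T) hR12 x⟩
  have hPT : (T : SL(2, ℤ)) ∈ P := by
    have := P.mul_mem (P.inv_mem hPS) hPR
    rwa [inv_mul_cancel_left] at this
  have hPtop : ∀ g : SL(2, ℤ), g ∈ P := by
    have hle : Subgroup.closure {(S : SL(2, ℤ)), T} ≤ P := by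
      rw [Subgroup.closure_le]
      intro g hg
      rcases hg with rfl | rfl
      · exact hPS
      · exact hPT
    rw [SpecialLinearGroup.SL2Z_generators] at hle
    intro g
    exact hle (Subgroup.mem_top g)
  -- the base point
  have hx0 : ∀ γ : Γ, ((γ : SL(2, ℤ)))⁻¹ • ((1 : SL(2, ℤ)) : SL(2, ℤ) ⧸ Γ)
      = ((1 : SL(2, ℤ)) : SL(2, ℤ) ⧸ Γ) := by
    intro γ
    show (((γ : SL(2, ℤ))⁻¹ * 1 : SL(2, ℤ)) : SL(2, ℤ) ⧸ Γ) = ((1 : SL(2, ℤ)) : SL(2, ℤ) ⧸ Γ)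
    rw [QuotientGroup.eq]
    simp
  have hout : Quotient.out ((1 : SL(2, ℤ)) : SL(2, ℤ) ⧸ Γ) ∈ Γ := by
    have h := QuotientGroup.out_eq' ((1 : SL(2, ℤ)) : SL(2, ℤ) ⧸ Γ)
    rw [QuotientGroup.eq] at h
    simpa using Γ.inv_mem h
  have hzc0 : ∀ (χ : Additive Γ →+ A) (γ : Γ),
      zc χ (γ : SL(2, ℤ)) ((1 : SL(2, ℤ)) : SL(2, ℤ) ⧸ Γ) = χ (Additive.ofMul γ) := by
    intro χ γ
    have hk : kap Γ (γ : SL(2, ℤ)) ((1 : SL(2, ℤ)) : SL(2, ℤ) ⧸ Γ)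
        = (⟨_, hout⟩ : Γ)⁻¹ * γ * ⟨_, hout⟩ := by
      apply Subtype.ext
      simp only [kap, hx0, Subgroup.coe_mul, Subgroup.coe_inv]
    rw [zc, hk, ofMul_mul, ofMul_mul, ofMul_inv, map_add, map_add, map_neg]
    ring
  refine ⟨fun γ => ((Φ (γ : SL(2, ℤ))).left ((1 : SL(2, ℤ)) : SL(2, ℤ) ⧸ Γ)).c, ?_⟩
  intro g h
  show ((Φ ((g * h : Γ) : SL(2, ℤ))).left _).c = _
  rw [Subgroup.coe_mul, hk_mul, hx0, Heis.mul_c, (hPtop g _).1, (hPtop h _).2, hzc0, hzc0]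

end Lift

end Fermat.Agent.S41.H72
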