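/-
S41, node (C), sub-leaf (PERF-BRIDGE) of the (C-PERF) chain (helper96).

The "bridge" identity between the residue (Heisenberg) pairing and the
area pairing of Manin symbols.  `Γ ≤ SL(2,ℤ)` contains `-1`, `x y : Γ → ℤ`
are homomorphisms, `F` is a Heisenberg lift of `(x, y)`, and `U`, `V` are
cusp potentials of `x`, `y` (right-equivariant, left `T`-invariant).
With the symbols `ξ (gΓ) = U (S g) - U g`, `η (gΓ) = V (S g) - V g` and a
`T`-orbit system `(t i, h i)` of the coset space: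

  6 * ∑ i, F (t i⁻¹ T ^ h i t i) = ∑ q, (ξ q * η (R q) - ξ (R q) * η q),   R = S * T,

and for weights `d` with `d q + d (R q) + d (R R q) = 1` off the `R`-fixed
points the right-hand side is three times the weighted area.

Mathlib only.
-/
import Mathlib

set_option autoImplicit false

open scoped MatrixGroups

namespace Fermat.Agent.S41.H96

/-! ### The abstract cocycle computation -/

section Abstract

variable {G X : Type*} [Group G] [MulAction G X]

/-- An additive cocycle is odd under an element whose square acts trivially. -/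
theorem cocycle_S_neg (a : G → X → ℤ)
    (ha : ∀ h k q, a (h * k) q = a h (k • q) + a k q)
    (S z : G) (hS : S * S = z) (haz : ∀ q, a z q = 0) (q : X) :
    a S (S • q) = - a S q := by
  have h := ha S S q
  rw [hS, haz] at h
  linarith

/-- The value of an additive cocycle on `R = S * T` when it vanishes on `T`. -/
theorem cocycle_R (a : G → X → ℤ)
    (ha : ∀ h k q, a (h * k) q = a h (k • q) + a k q)
    (S T z : G) (hS : S * S = z) (haz : ∀ q, a z q = 0) (haT : ∀ q, a T q = 0) (q : X) :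
    a (S * T) q = - a S ((S * T) • q) := by
  have h1 := ha S T q
  rw [haT, add_zero] at h1
  have h2 := cocycle_S_neg a ha S z hS haz (T • q)
  rw [mul_smul]
  linarith

theorem cube_smul (R z : G) (hR : R * R * R = z) (hz : ∀ q : X, z • q = q) (q : X) :
    R • R • R • q = q := by
  rw [smul_smul, smul_smul, hR, hz]

/-- The three-term relation of the symbol `a S`. -/
theorem cocycle_R_sum (a : G → X → ℤ)
    (ha : ∀ h k q, a (h * k) q = a h (k • q) + a k q)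
    (S T z : G) (hS : S * S = z) (hR : S * T * (S * T) * (S * T) = z)
    (hz : ∀ q : X, z • q = q) (haz : ∀ q, a z q = 0) (haT : ∀ q, a T q = 0) (q : X) :
    a S q + a S ((S * T) • q) + a S ((S * T) • (S * T) • q) = 0 := by
  have h1 := ha (S * T * (S * T)) (S * T) q
  have h2 := ha (S * T) (S * T) ((S * T) • q)
  rw [hR, haz] at h1
  have e1 := cocycle_R a ha S T z hS haz haT q
  have e2 := cocycle_R a ha S T z hS haz haT ((S * T) • q)
  have e3 := cocycle_R a ha S T z hS haz haT ((S * T) • (S * T) • q)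
  rw [cube_smul (S * T) z hR hz q] at e3
  linarith

theorem sum_smul_eq [Fintype X] (g : G) (f : X → ℤ) : ∑ q, f (g • q) = ∑ q, f q :=
  Equiv.sum_comp (MulAction.toPerm g) f

/-- **The abstract bridge identity.**  `a`, `b` additive cocycles of `G` with values in
functions on the finite `G`-set `X`, `D` a "Heisenberg" cocycle over `(a, b)`; `z = S²
= (S T)³` acts trivially and kills `a`, `b`, `D`; `T` kills `a`, `b`.  Then six times
the total mass of `D T` is the antisymmetrised pairing of the symbols `a S`, `b S`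
along `R = S * T`. -/
theorem cocycle_six_sum [Fintype X] (a b D : G → X → ℤ)
    (ha : ∀ h k q, a (h * k) q = a h (k • q) + a k q)
    (hb : ∀ h k q, b (h * k) q = b h (k • q) + b k q)
    (hD : ∀ h k q, D (h * k) q = D h (k • q) + D k q + a h (k • q) * b k q)
    (S T z : G) (hS : S * S = z) (hR : S * T * (S * T) * (S * T) = z)
    (hz : ∀ q : X, z • q = q) (haz : ∀ q, a z q = 0) (hbz : ∀ q, b z q = 0)
    (hDz : ∀ q, D z q = 0) (haT : ∀ q, a T q = 0) (hbT : ∀ q, b T q = 0) :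
    6 * ∑ q, D T q = ∑ q, (a S q * b S ((S * T) • q) - a S ((S * T) • q) * b S q) := by
  have aR := cocycle_R a ha S T z hS haz haT
  have bR := cocycle_R b hb S T z hS hbz hbT
  have aSum := cocycle_R_sum a ha S T z hS hR hz haz haT
  have hq := cube_smul (X := X) (S * T) z hR hz
  generalize hRdef : S * T = R at *
  -- pointwise identities
  have P3 : ∀ q, D T q = D R q - D S (T • q) := by
    intro q
    have h := hD S T q
    rw [hRdef, hbT, mul_zero, add_zero] at h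
    linarith
  have P4 : ∀ q, D S (S • q) + D S q = a S q * b S q := by
    intro q
    have h := hD S S q
    rw [hS, hDz, cocycle_S_neg a ha S z hS haz q] at h
    linarith
  have P5 : ∀ q, D R (R • R • q) + D R (R • q) + D R q
      = -(a S q * b S (R • R • q)) - a S q * b S (R • q) - a S (R • R • q) * b S (R • q) := by
    intro q
    have h1 := hD (R * R) R q
    have h2 := hD R R (R • q)
    have h3 := ha R R (R • q)
    rw [hR, hDz] at h1
    have eA1 := aR (R • R • q)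
    rw [hq q] at eA1
    have eA2 := aR (R • q)
    have eB0 := bR q
    have eB1 := bR (R • q)
    rw [h3, eA1, eA2, eB0] at h1
    rw [eA1, eB1] at h2
    linarith
  -- summed identities
  have sT : ∑ q, D T q = ∑ q, D R q - ∑ q, D S q := by
    rw [← sum_smul_eq T (D S), ← Finset.sum_sub_distrib]
    exact Finset.sum_congr rfl (fun q _ => P3 q)
  have sS : 2 * ∑ q, D S q = ∑ q, a S q * b S q := by
    have h : ∑ q, (D S (S • q) + D S q) = ∑ q, a S q * b S q :=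
      Finset.sum_congr rfl (fun q _ => P4 q)
    rw [Finset.sum_add_distrib, sum_smul_eq S (D S)] at h
    linarith
  have r1 : ∑ q, D R (R • q) = ∑ q, D R q := sum_smul_eq R (D R)
  have r2 : ∑ q, D R (R • R • q) = ∑ q, D R q := by
    have h := sum_smul_eq R (fun q => D R (R • q))
    exact h.trans r1
  have sR : 3 * ∑ q, D R q = -(∑ q, a S q * b S (R • R • q)) - ∑ q, a S q * b S (R • q)
      - ∑ q, a S (R • R • q) * b S (R • q) := by
    have h : ∑ q, (D R (R • R • q) + D R (R • q) + D R q)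
        = ∑ q, (-(a S q * b S (R • R • q)) - a S q * b S (R • q)
            - a S (R • R • q) * b S (R • q)) :=
      Finset.sum_congr rfl (fun q _ => P5 q)
    rw [Finset.sum_add_distrib, Finset.sum_add_distrib, Finset.sum_sub_distrib,
      Finset.sum_sub_distrib, Finset.sum_neg_distrib, r1, r2] at h
    linarith
  -- reindexing
  have A1 : ∑ q, a S q * b S (R • R • q) = ∑ q, a S (R • q) * b S q := by
    have h1 := sum_smul_eq R (fun q => a S (R • R • q) * b S (R • q))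
    have h2 := sum_smul_eq R (fun q => a S (R • q) * b S q)
    have h3 : ∑ q, a S q * b S (R • R • q)
        = ∑ q, a S (R • R • R • q) * b S (R • R • q) :=
      Finset.sum_congr rfl (fun q _ => by rw [hq q])
    exact h3.trans (h1.trans h2)
  have A2 : ∑ q, a S (R • R • q) * b S (R • q) = ∑ q, a S (R • q) * b S q :=
    sum_smul_eq R (fun q => a S (R • q) * b S q)
  have B1 : ∑ q, a S (R • R • q) * b S q = ∑ q, a S q * b S (R • q) := by
    have h1 := sum_smul_eq R (fun q => a S (R • q) * b S (R • R • q))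
    have h2 := sum_smul_eq R (fun q => a S q * b S (R • q))
    have h3 : ∑ q, a S (R • R • q) * b S q
        = ∑ q, a S (R • R • q) * b S (R • R • R • q) :=
      Finset.sum_congr rfl (fun q _ => by rw [hq q])
    exact h3.trans (h1.trans h2)
  have sC : (∑ q, a S q * b S q) + (∑ q, a S (R • q) * b S q)
      + ∑ q, a S (R • R • q) * b S q = 0 := by
    rw [← Finset.sum_add_distrib, ← Finset.sum_add_distrib]
    apply Finset.sum_eq_zero
    intro q _
    linear_combination (b S q) * aSum q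
  rw [Finset.sum_sub_distrib]
  linarith

/-- The antisymmetrised summand is invariant under `R` as soon as both symbols satisfy
the three-term relation. -/
theorem area_summand_invariant (R : G) (ξ η : X → ℤ)
    (hξ : ∀ q, ξ q + ξ (R • q) + ξ (R • R • q) = 0)
    (hη : ∀ q, η q + η (R • q) + η (R • R • q) = 0) (q : X) :
    ξ (R • q) * η (R • R • q) - ξ (R • R • q) * η (R • q)
      = ξ q * η (R • q) - ξ (R • q) * η q := by
  linear_combination (-(η (R • q))) * hξ q + ξ (R • q) * hη q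

/-- Unweighted area = 3 × weighted area, for weights summing to one on the free
`R`-orbits. -/
theorem sum_area_eq_three_mul [Fintype X] (R : G) (ξ η d : X → ℤ)
    (hξ : ∀ q, ξ q + ξ (R • q) + ξ (R • R • q) = 0)
    (hη : ∀ q, η q + η (R • q) + η (R • R • q) = 0)
    (hd : ∀ q, R • q ≠ q → d q + d (R • q) + d (R • R • q) = 1) :
    ∑ q, (ξ q * η (R • q) - ξ (R • q) * η q)
      = 3 * ∑ q, d q * (ξ q * η (R • q) - ξ (R • q) * η q) := by
  have inv := area_summand_invariant R ξ η hξ hη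
  have h1 := sum_smul_eq R (fun q => d q * (ξ q * η (R • q) - ξ (R • q) * η q))
  have h2 := sum_smul_eq R
    (fun q => d (R • q) * (ξ (R • q) * η (R • R • q) - ξ (R • R • q) * η (R • q)))
  have h2' := h2.trans h1
  have key : ∀ q, ξ q * η (R • q) - ξ (R • q) * η q
      = d q * (ξ q * η (R • q) - ξ (R • q) * η q)
        + d (R • q) * (ξ (R • q) * η (R • R • q) - ξ (R • R • q) * η (R • q))
        + d (R • R • q) * (ξ (R • R • q) * η (R • R • R • q)
            - ξ (R • R • R • q) * η (R • R • q)) := by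
    intro q
    by_cases hfix : R • q = q
    · simp only [hfix]; ring
    · have e1 := inv q
      have e2 := inv (R • q)
      rw [e2, e1]
      linear_combination (-(ξ q * η (R • q) - ξ (R • q) * η q)) * hd q hfix
  calc ∑ q, (ξ q * η (R • q) - ξ (R • q) * η q)
      = ∑ q, (d q * (ξ q * η (R • q) - ξ (R • q) * η q)
        + d (R • q) * (ξ (R • q) * η (R • R • q) - ξ (R • R • q) * η (R • q))
        + d (R • R • q) * (ξ (R • R • q) * η (R • R • R • q)
            - ξ (R • R • R • q) * η (R • R • q))) :=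
        Finset.sum_congr rfl (fun q _ => key q)
    _ = 3 * ∑ q, d q * (ξ q * η (R • q) - ξ (R • q) * η q) := by
        rw [Finset.sum_add_distrib, Finset.sum_add_distrib, h1, h2']
        ring

end Abstract

/-! ### The concrete bridge for a subgroup of `SL(2, ℤ)` -/

section Concrete

open ModularGroup

theorem S_mul_S_eq_neg_one : (S * S : SL(2, ℤ)) = -1 := by
  ext i j
  simp only [Matrix.SpecialLinearGroup.coe_mul, Matrix.SpecialLinearGroup.coe_neg,
    Matrix.SpecialLinearGroup.coe_one, coe_S]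
  fin_cases i <;> fin_cases j <;> simp [Matrix.mul_apply, Fin.sum_univ_two]

theorem ST_cube_eq_neg_one : (S * T * (S * T) * (S * T) : SL(2, ℤ)) = -1 := by
  ext i j
  simp only [Matrix.SpecialLinearGroup.coe_mul, Matrix.SpecialLinearGroup.coe_neg,
    Matrix.SpecialLinearGroup.coe_one, coe_S, coe_T]
  fin_cases i <;> fin_cases j <;> simp [Matrix.mul_apply, Fin.sum_univ_two]

variable (Γ : Subgroup SL(2, ℤ))

/-- Descent of a function on the group to the coset space through `Quotient.out`. -/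
noncomputable def desc (f : SL(2, ℤ) → ℤ) : SL(2, ℤ) ⧸ Γ → ℤ := fun q => f q.out

theorem desc_mk (f : SL(2, ℤ) → ℤ) (hf : ∀ (g : SL(2, ℤ)) (γ : Γ), f (g * γ) = f g)
    (g : SL(2, ℤ)) : desc Γ f (g : SL(2, ℤ) ⧸ Γ) = f g := by
  obtain ⟨γ, hγ⟩ := QuotientGroup.mk_out_eq_mul Γ g
  unfold desc
  rw [hγ, hf]

variable {Γ}

/-- The Heisenberg potential of a Heisenberg lift `F` and a potential `U`. -/
theorem exists_heis_potential (x y : Additive Γ →+ ℤ) (F : Γ → ℤ)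
    (hF : ∀ g g' : Γ, F (g * g') = F g + F g' + x (Additive.ofMul g) * y (Additive.ofMul g'))
    (U : SL(2, ℤ) → ℤ)
    (hU : ∀ (g : SL(2, ℤ)) (γ : Γ), U (g * γ) = U g + x (Additive.ofMul γ)) :
    ∃ W : SL(2, ℤ) → ℤ, ∀ (g : SL(2, ℤ)) (γ : Γ),
      W (g * γ) = W g + F γ + U g * y (Additive.ofMul γ) := by
  classical
  have hmem : ∀ g : SL(2, ℤ), (Quotient.out (g : SL(2, ℤ) ⧸ Γ))⁻¹ * g ∈ Γ := by
    intro g
    rw [← QuotientGroup.eq]
    exact QuotientGroup.out_eq' _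
  let δ : SL(2, ℤ) → Γ := fun g => ⟨(Quotient.out (g : SL(2, ℤ) ⧸ Γ))⁻¹ * g, hmem g⟩
  have hout : ∀ (g : SL(2, ℤ)) (γ : Γ),
      Quotient.out ((g * γ : SL(2, ℤ)) : SL(2, ℤ) ⧸ Γ) = Quotient.out (g : SL(2, ℤ) ⧸ Γ) := by
    intro g γ
    rw [QuotientGroup.mk_mul_of_mem g γ.2]
  have hδ : ∀ (g : SL(2, ℤ)) (γ : Γ), δ (g * γ) = δ g * γ := by
    intro g γ
    apply Subtype.ext
    show (Quotient.out ((g * γ : SL(2, ℤ)) : SL(2, ℤ) ⧸ Γ))⁻¹ * (g * γ)
      = (Quotient.out (g : SL(2, ℤ) ⧸ Γ))⁻¹ * g * γ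
    rw [hout, mul_assoc]
  have hgδ : ∀ g : SL(2, ℤ), Quotient.out (g : SL(2, ℤ) ⧸ Γ) * (δ g : SL(2, ℤ)) = g := by
    intro g
    show Quotient.out (g : SL(2, ℤ) ⧸ Γ) * ((Quotient.out (g : SL(2, ℤ) ⧸ Γ))⁻¹ * g) = g
    rw [mul_inv_cancel_left]
  refine ⟨fun g => F (δ g) + U (Quotient.out (g : SL(2, ℤ) ⧸ Γ)) * y (Additive.ofMul (δ g)), ?_⟩
  intro g γ
  have hUg : U g = U (Quotient.out (g : SL(2, ℤ) ⧸ Γ)) + x (Additive.ofMul (δ g)) := by
    have h := hU (Quotient.out (g : SL(2, ℤ) ⧸ Γ)) (δ g)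
    rw [hgδ] at h
    exact h
  show F (δ (g * γ)) + U (Quotient.out ((g * γ : SL(2, ℤ)) : SL(2, ℤ) ⧸ Γ))
        * y (Additive.ofMul (δ (g * γ)))
      = F (δ g) + U (Quotient.out (g : SL(2, ℤ) ⧸ Γ)) * y (Additive.ofMul (δ g)) + F γ
        + U g * y (Additive.ofMul γ)
  rw [hout, hδ, hF, ofMul_mul, map_add, hUg]
  ring

theorem hom_neg_one_eq_zero (hneg : (-1 : SL(2, ℤ)) ∈ Γ) (x : Additive Γ →+ ℤ) :
    x (Additive.ofMul (⟨-1, hneg⟩ : Γ)) = 0 := by
  have h2 : (⟨-1, hneg⟩ : Γ) * ⟨-1, hneg⟩ = 1 := Subtype.ext (by simp)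
  have h := congrArg (fun γ : Γ => x (Additive.ofMul γ)) h2
  simp only [ofMul_mul, map_add, ofMul_one, map_zero] at h
  linarith

theorem heis_neg_one_eq_zero (hneg : (-1 : SL(2, ℤ)) ∈ Γ) (x y : Additive Γ →+ ℤ) (F : Γ → ℤ)
    (hF : ∀ g g' : Γ, F (g * g') = F g + F g' + x (Additive.ofMul g) * y (Additive.ofMul g')) :
    F (⟨-1, hneg⟩ : Γ) = 0 := by
  have h1 := hF 1 1
  simp only [mul_one, ofMul_one, map_zero, mul_zero, add_zero] at h1
  have h2 : (⟨-1, hneg⟩ : Γ) * ⟨-1, hneg⟩ = 1 := Subtype.ext (by simp)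
  have h3 := hF ⟨-1, hneg⟩ ⟨-1, hneg⟩
  rw [h2, hom_neg_one_eq_zero hneg x, zero_mul, add_zero] at h3
  linarith

/-- A right-equivariant potential is even: `U (-g) = U g`. -/
theorem potential_neg (hneg : (-1 : SL(2, ℤ)) ∈ Γ) (x : Additive Γ →+ ℤ) (U : SL(2, ℤ) → ℤ)
    (hU : ∀ (g : SL(2, ℤ)) (γ : Γ), U (g * γ) = U g + x (Additive.ofMul γ)) (g : SL(2, ℤ)) :
    U (-1 * g) = U g := by
  have h := hU g ⟨-1, hneg⟩
  rw [hom_neg_one_eq_zero hneg x, add_zero] at h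
  have e : (-1 : SL(2, ℤ)) * g = g * ((⟨-1, hneg⟩ : Γ) : SL(2, ℤ)) := by
    show (-1 : SL(2, ℤ)) * g = g * -1
    rw [neg_one_mul, mul_neg_one]
  rw [e, h]

theorem potential_T_pow (U : SL(2, ℤ) → ℤ) (hUT : ∀ g, U (T * g) = U g) (n : ℕ) (g : SL(2, ℤ)) :
    U (T ^ n * g) = U g := by
  induction n with
  | zero => simp
  | succ n ih => rw [pow_succ', mul_assoc, hUT, ih]

end Concrete

/-! ### Cocycles on the coset space and the bridge identity -/

section Main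

open ModularGroup

variable (Γ : Subgroup SL(2, ℤ))

/-- The difference cocycle `g ↦ U (h g) - U g`, as a function on the coset space. -/
noncomputable def dpot (U : SL(2, ℤ) → ℤ) (h : SL(2, ℤ)) : SL(2, ℤ) ⧸ Γ → ℤ :=
  desc Γ (fun g => U (h * g) - U g)

/-- The Heisenberg cocycle `g ↦ W (h g) - W g - (U (h g) - U g) V g` on the coset space. -/
noncomputable def dheis (W U V : SL(2, ℤ) → ℤ) (h : SL(2, ℤ)) : SL(2, ℤ) ⧸ Γ → ℤ :=
  desc Γ (fun g => W (h * g) - W g - (U (h * g) - U g) * V g)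

variable {Γ}

theorem dpot_mk (x : Additive Γ →+ ℤ) (U : SL(2, ℤ) → ℤ)
    (hU : ∀ (g : SL(2, ℤ)) (γ : Γ), U (g * γ) = U g + x (Additive.ofMul γ))
    (h g : SL(2, ℤ)) : dpot Γ U h (g : SL(2, ℤ) ⧸ Γ) = U (h * g) - U g := by
  unfold dpot
  rw [desc_mk]
  intro g γ
  rw [← mul_assoc, hU, hU]
  ring

theorem dpot_mul (x : Additive Γ →+ ℤ) (U : SL(2, ℤ) → ℤ)
    (hU : ∀ (g : SL(2, ℤ)) (γ : Γ), U (g * γ) = U g + x (Additive.ofMul γ))
    (h k : SL(2, ℤ)) (q : SL(2, ℤ) ⧸ Γ) :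
    dpot Γ U (h * k) q = dpot Γ U h (k • q) + dpot Γ U k q := by
  induction q using QuotientGroup.induction_on with
  | H g =>
    rw [MulAction.Quotient.smul_mk, smul_eq_mul, dpot_mk x U hU, dpot_mk x U hU,
      dpot_mk x U hU, mul_assoc]
    ring

theorem neg_one_smul_coset (hneg : (-1 : SL(2, ℤ)) ∈ Γ) (q : SL(2, ℤ) ⧸ Γ) :
    (-1 : SL(2, ℤ)) • q = q := by
  induction q using QuotientGroup.induction_on with
  | H g =>
    rw [MulAction.Quotient.smul_mk, smul_eq_mul, neg_one_mul, ← mul_neg_one]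
    exact QuotientGroup.mk_mul_of_mem g hneg

theorem dpot_neg_one (hneg : (-1 : SL(2, ℤ)) ∈ Γ) (x : Additive Γ →+ ℤ) (U : SL(2, ℤ) → ℤ)
    (hU : ∀ (g : SL(2, ℤ)) (γ : Γ), U (g * γ) = U g + x (Additive.ofMul γ))
    (q : SL(2, ℤ) ⧸ Γ) : dpot Γ U (-1) q = 0 := by
  induction q using QuotientGroup.induction_on with
  | H g => rw [dpot_mk x U hU, potential_neg hneg x U hU, sub_self]

theorem dpot_T (x : Additive Γ →+ ℤ) (U : SL(2, ℤ) → ℤ)
    (hU : ∀ (g : SL(2, ℤ)) (γ : Γ), U (g * γ) = U g + x (Additive.ofMul γ))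
    (hUT : ∀ g, U (T * g) = U g) (q : SL(2, ℤ) ⧸ Γ) : dpot Γ U T q = 0 := by
  induction q using QuotientGroup.induction_on with
  | H g => rw [dpot_mk x U hU, hUT, sub_self]

theorem dheis_mk (x y : Additive Γ →+ ℤ) (F : Γ → ℤ) (W U V : SL(2, ℤ) → ℤ)
    (hW : ∀ (g : SL(2, ℤ)) (γ : Γ), W (g * γ) = W g + F γ + U g * y (Additive.ofMul γ))
    (hU : ∀ (g : SL(2, ℤ)) (γ : Γ), U (g * γ) = U g + x (Additive.ofMul γ))
    (hV : ∀ (g : SL(2, ℤ)) (γ : Γ), V (g * γ) = V g + y (Additive.ofMul γ))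
    (h g : SL(2, ℤ)) :
    dheis Γ W U V h (g : SL(2, ℤ) ⧸ Γ) = W (h * g) - W g - (U (h * g) - U g) * V g := by
  unfold dheis
  rw [desc_mk]
  intro g γ
  rw [← mul_assoc, hW, hW, hU, hU, hV]
  ring

theorem dheis_mul (x y : Additive Γ →+ ℤ) (F : Γ → ℤ) (W U V : SL(2, ℤ) → ℤ)
    (hW : ∀ (g : SL(2, ℤ)) (γ : Γ), W (g * γ) = W g + F γ + U g * y (Additive.ofMul γ))
    (hU : ∀ (g : SL(2, ℤ)) (γ : Γ), U (g * γ) = U g + x (Additive.ofMul γ))
    (hV : ∀ (g : SL(2, ℤ)) (γ : Γ), V (g * γ) = V g + y (Additive.ofMul γ))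
    (h k : SL(2, ℤ)) (q : SL(2, ℤ) ⧸ Γ) :
    dheis Γ W U V (h * k) q
      = dheis Γ W U V h (k • q) + dheis Γ W U V k q + dpot Γ U h (k • q) * dpot Γ V k q := by
  induction q using QuotientGroup.induction_on with
  | H g =>
    rw [MulAction.Quotient.smul_mk, smul_eq_mul, dheis_mk x y F W U V hW hU hV,
      dheis_mk x y F W U V hW hU hV, dheis_mk x y F W U V hW hU hV, dpot_mk x U hU,
      dpot_mk y V hV, mul_assoc]
    ring

theorem dheis_neg_one (hneg : (-1 : SL(2, ℤ)) ∈ Γ) (x y : Additive Γ →+ ℤ) (F : Γ → ℤ)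
    (hF : ∀ g g' : Γ, F (g * g') = F g + F g' + x (Additive.ofMul g) * y (Additive.ofMul g'))
    (W U V : SL(2, ℤ) → ℤ)
    (hW : ∀ (g : SL(2, ℤ)) (γ : Γ), W (g * γ) = W g + F γ + U g * y (Additive.ofMul γ))
    (hU : ∀ (g : SL(2, ℤ)) (γ : Γ), U (g * γ) = U g + x (Additive.ofMul γ))
    (hV : ∀ (g : SL(2, ℤ)) (γ : Γ), V (g * γ) = V g + y (Additive.ofMul γ))
    (q : SL(2, ℤ) ⧸ Γ) : dheis Γ W U V (-1) q = 0 := by
  induction q using QuotientGroup.induction_on with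
  | H g =>
    rw [dheis_mk x y F W U V hW hU hV, potential_neg hneg x U hU, sub_self, zero_mul,
      sub_zero]
    have h := hW g ⟨-1, hneg⟩
    rw [heis_neg_one_eq_zero hneg x y F hF, hom_neg_one_eq_zero hneg y, mul_zero, add_zero,
      add_zero] at h
    have e : (-1 : SL(2, ℤ)) * g = g * ((⟨-1, hneg⟩ : Γ) : SL(2, ℤ)) := by
      show (-1 : SL(2, ℤ)) * g = g * -1
      rw [neg_one_mul, mul_neg_one]
    rw [e, h, sub_self]

/-- The symbol `ξ (gΓ) = U (S g) - U g` of a cusp potential is `S`-odd. -/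
theorem symbol_S_neg (hneg : (-1 : SL(2, ℤ)) ∈ Γ) (x : Additive Γ →+ ℤ) (U : SL(2, ℤ) → ℤ)
    (hU : ∀ (g : SL(2, ℤ)) (γ : Γ), U (g * γ) = U g + x (Additive.ofMul γ))
    (ξ : SL(2, ℤ) ⧸ Γ → ℤ) (hξ : ∀ g : SL(2, ℤ), ξ (g : SL(2, ℤ) ⧸ Γ) = U (S * g) - U g)
    (q : SL(2, ℤ) ⧸ Γ) : ξ (S • q) = - ξ q := by
  have e : ξ = dpot Γ U S := by
    funext q
    induction q using QuotientGroup.induction_on with
    | H g => rw [hξ, dpot_mk x U hU]
  rw [e]
  exact cocycle_S_neg (dpot Γ U) (dpot_mul x U hU) S (-1) S_mul_S_eq_neg_one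
    (dpot_neg_one hneg x U hU) q

/-- The symbol of a cusp potential satisfies the three-term relation along `R = S * T`. -/
theorem symbol_R_sum (hneg : (-1 : SL(2, ℤ)) ∈ Γ) (x : Additive Γ →+ ℤ) (U : SL(2, ℤ) → ℤ)
    (hU : ∀ (g : SL(2, ℤ)) (γ : Γ), U (g * γ) = U g + x (Additive.ofMul γ))
    (hUT : ∀ g, U (T * g) = U g)
    (ξ : SL(2, ℤ) ⧸ Γ → ℤ) (hξ : ∀ g : SL(2, ℤ), ξ (g : SL(2, ℤ) ⧸ Γ) = U (S * g) - U g)
    (q : SL(2, ℤ) ⧸ Γ) : ξ q + ξ ((S * T) • q) + ξ ((S * T) • (S * T) • q) = 0 := by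
  have e : ξ = dpot Γ U S := by
    funext q
    induction q using QuotientGroup.induction_on with
    | H g => rw [hξ, dpot_mk x U hU]
  rw [e]
  exact cocycle_R_sum (dpot Γ U) (dpot_mul x U hU) S T (-1) S_mul_S_eq_neg_one
    ST_cube_eq_neg_one (neg_one_smul_coset hneg) (dpot_neg_one hneg x U hU)
    (dpot_T x U hU hUT) q

/-- The symbol of a cusp potential vanishes at the fixed points of `R = S * T`. -/
theorem symbol_R_fixed (hneg : (-1 : SL(2, ℤ)) ∈ Γ) (x : Additive Γ →+ ℤ) (U : SL(2, ℤ) → ℤ)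
    (hU : ∀ (g : SL(2, ℤ)) (γ : Γ), U (g * γ) = U g + x (Additive.ofMul γ))
    (hUT : ∀ g, U (T * g) = U g)
    (ξ : SL(2, ℤ) ⧸ Γ → ℤ) (hξ : ∀ g : SL(2, ℤ), ξ (g : SL(2, ℤ) ⧸ Γ) = U (S * g) - U g)
    (q : SL(2, ℤ) ⧸ Γ) (hfix : (S * T) • q = q) : ξ q = 0 := by
  have h := symbol_R_sum hneg x U hU hUT ξ hξ q
  rw [hfix, hfix] at h
  omega

/-- The value of a Heisenberg lift on the parabolic element `t⁻¹ T ^ n t` is the mass of
the Heisenberg cocycle `D_T` along the `T`-orbit of the coset `t Γ`. -/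
theorem heis_parabolic_eq_sum (x y : Additive Γ →+ ℤ) (F : Γ → ℤ) (W U V : SL(2, ℤ) → ℤ)
    (hW : ∀ (g : SL(2, ℤ)) (γ : Γ), W (g * γ) = W g + F γ + U g * y (Additive.ofMul γ))
    (hU : ∀ (g : SL(2, ℤ)) (γ : Γ), U (g * γ) = U g + x (Additive.ofMul γ))
    (hUT : ∀ g, U (T * g) = U g)
    (hV : ∀ (g : SL(2, ℤ)) (γ : Γ), V (g * γ) = V g + y (Additive.ofMul γ))
    (hVT : ∀ g, V (T * g) = V g)
    (t : SL(2, ℤ)) (n : ℕ) (hmem : t⁻¹ * T ^ n * t ∈ Γ) :
    F ⟨t⁻¹ * T ^ n * t, hmem⟩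
      = ∑ j ∈ Finset.range n, dheis Γ W U V T ((T ^ j * t : SL(2, ℤ)) : SL(2, ℤ) ⧸ Γ) := by
  have e : t * ((⟨t⁻¹ * T ^ n * t, hmem⟩ : Γ) : SL(2, ℤ)) = T ^ n * t := by
    show t * (t⁻¹ * T ^ n * t) = T ^ n * t
    group
  have hy : y (Additive.ofMul (⟨t⁻¹ * T ^ n * t, hmem⟩ : Γ)) = 0 := by
    have h := hV t ⟨t⁻¹ * T ^ n * t, hmem⟩
    rw [e, potential_T_pow V hVT] at h
    linarith
  have hFW : F ⟨t⁻¹ * T ^ n * t, hmem⟩ = W (T ^ n * t) - W t := by
    have h := hW t ⟨t⁻¹ * T ^ n * t, hmem⟩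
    rw [e, hy, mul_zero, add_zero] at h
    linarith
  have hD : ∀ j : ℕ, dheis Γ W U V T ((T ^ j * t : SL(2, ℤ)) : SL(2, ℤ) ⧸ Γ)
      = W (T ^ (j + 1) * t) - W (T ^ j * t) := by
    intro j
    rw [dheis_mk x y F W U V hW hU hV, hUT, sub_self, zero_mul, sub_zero, pow_succ', mul_assoc]
  rw [hFW, Finset.sum_congr rfl (fun j _ => hD j),
    Finset.sum_range_sub (fun j => W (T ^ j * t)) n]
  simp

/-- **(PERF-BRIDGE), unweighted form.**  Six times the residue pairing computed from a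
Heisenberg lift `F` on a `T`-orbit system equals the antisymmetrised pairing of the
symbols of the two cusp potentials along `R = S * T`. -/
theorem perf_bridge_all [Fintype (SL(2, ℤ) ⧸ Γ)] (hneg : (-1 : SL(2, ℤ)) ∈ Γ)
    (x y : Additive Γ →+ ℤ) (F : Γ → ℤ)
    (hF : ∀ g g' : Γ, F (g * g') = F g + F g' + x (Additive.ofMul g) * y (Additive.ofMul g'))
    (U V : SL(2, ℤ) → ℤ)
    (hU : ∀ (g : SL(2, ℤ)) (γ : Γ), U (g * γ) = U g + x (Additive.ofMul γ))
    (hUT : ∀ g, U (T * g) = U g)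
    (hV : ∀ (g : SL(2, ℤ)) (γ : Γ), V (g * γ) = V g + y (Additive.ofMul γ))
    (hVT : ∀ g, V (T * g) = V g)
    {ι : Type*} [Fintype ι] (t : ι → SL(2, ℤ)) (h : ι → ℕ)
    (hmem : ∀ i, (t i)⁻¹ * T ^ h i * t i ∈ Γ)
    (hsum : ∀ f : SL(2, ℤ) ⧸ Γ → ℤ, ∑ q, f q
      = ∑ i, ∑ j ∈ Finset.range (h i), f ((T ^ j * t i : SL(2, ℤ)) : SL(2, ℤ) ⧸ Γ))
    (ξ η : SL(2, ℤ) ⧸ Γ → ℤ)
    (hξ : ∀ g : SL(2, ℤ), ξ (g : SL(2, ℤ) ⧸ Γ) = U (S * g) - U g)
    (hη : ∀ g : SL(2, ℤ), η (g : SL(2, ℤ) ⧸ Γ) = V (S * g) - V g) :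
    6 * ∑ i, F ⟨(t i)⁻¹ * T ^ h i * t i, hmem i⟩
      = ∑ q : SL(2, ℤ) ⧸ Γ, (ξ q * η ((S * T) • q) - ξ ((S * T) • q) * η q) := by
  obtain ⟨W, hW⟩ := exists_heis_potential x y F hF U hU
  have eξ : ξ = dpot Γ U S := by
    funext q
    induction q using QuotientGroup.induction_on with
    | H g => rw [hξ, dpot_mk x U hU]
  have eη : η = dpot Γ V S := by
    funext q
    induction q using QuotientGroup.induction_on with
    | H g => rw [hη, dpot_mk y V hV]
  have hFsum : ∑ i, F ⟨(t i)⁻¹ * T ^ h i * t i, hmem i⟩ = ∑ q, dheis Γ W U V T q := by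
    rw [hsum (dheis Γ W U V T)]
    exact Finset.sum_congr rfl (fun i _ =>
      heis_parabolic_eq_sum x y F W U V hW hU hUT hV hVT (t i) (h i) (hmem i))
  rw [hFsum, eξ, eη]
  exact cocycle_six_sum (dpot Γ U) (dpot Γ V) (dheis Γ W U V) (dpot_mul x U hU)
    (dpot_mul y V hV) (dheis_mul x y F W U V hW hU hV) S T (-1) S_mul_S_eq_neg_one
    ST_cube_eq_neg_one (neg_one_smul_coset hneg) (dpot_neg_one hneg x U hU)
    (dpot_neg_one hneg y V hV) (dheis_neg_one hneg x y F hF W U V hW hU hV)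
    (dpot_T x U hU hUT) (dpot_T y V hV hVT)

/-- **(PERF-BRIDGE).**  Twice the residue pairing computed from a Heisenberg lift equals
the weighted area pairing of the symbols of the two cusp potentials, for any weights
`d` with `d q + d (R q) + d (R R q) = 1` off the fixed points of `R = S * T`. -/
theorem perf_bridge [Fintype (SL(2, ℤ) ⧸ Γ)] (hneg : (-1 : SL(2, ℤ)) ∈ Γ)
    (x y : Additive Γ →+ ℤ) (F : Γ → ℤ)
    (hF : ∀ g g' : Γ, F (g * g') = F g + F g' + x (Additive.ofMul g) * y (Additive.ofMul g'))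
    (U V : SL(2, ℤ) → ℤ)
    (hU : ∀ (g : SL(2, ℤ)) (γ : Γ), U (g * γ) = U g + x (Additive.ofMul γ))
    (hUT : ∀ g, U (T * g) = U g)
    (hV : ∀ (g : SL(2, ℤ)) (γ : Γ), V (g * γ) = V g + y (Additive.ofMul γ))
    (hVT : ∀ g, V (T * g) = V g)
    {ι : Type*} [Fintype ι] (t : ι → SL(2, ℤ)) (h : ι → ℕ)
    (hmem : ∀ i, (t i)⁻¹ * T ^ h i * t i ∈ Γ)
    (hsum : ∀ f : SL(2, ℤ) ⧸ Γ → ℤ, ∑ q, f q
      = ∑ i, ∑ j ∈ Finset.range (h i), f ((T ^ j * t i : SL(2, ℤ)) : SL(2, ℤ) ⧸ Γ))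
    (ξ η : SL(2, ℤ) ⧸ Γ → ℤ)
    (hξ : ∀ g : SL(2, ℤ), ξ (g : SL(2, ℤ) ⧸ Γ) = U (S * g) - U g)
    (hη : ∀ g : SL(2, ℤ), η (g : SL(2, ℤ) ⧸ Γ) = V (S * g) - V g)
    (d : SL(2, ℤ) ⧸ Γ → ℤ)
    (hd : ∀ q, (S * T) • q ≠ q → d q + d ((S * T) • q) + d ((S * T) • (S * T) • q) = 1) :
    2 * ∑ i, F ⟨(t i)⁻¹ * T ^ h i * t i, hmem i⟩
      = ∑ q : SL(2, ℤ) ⧸ Γ, d q * (ξ q * η ((S * T) • q) - ξ ((S * T) • q) * η q) := by
  have h6 := perf_bridge_all hneg x y F hF U V hU hUT hV hVT t h hmem hsum ξ η hξ hη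
  have h3 := sum_area_eq_three_mul (S * T) ξ η d (symbol_R_sum hneg x U hU hUT ξ hξ)
    (symbol_R_sum hneg y V hV hVT η hη) hd
  linarith

end Main

end Fermat.Agent.S41.H96
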