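import Mathlib

/-!
# The kernel of the area form on modular symbols (helper13, node (C-PERF) of S41)

`X` is a finite set with two permutations `S`, `R` (`S² = R³ = 1`), a *symbol* is a function
`ξ` on `X` which is `S`-antisymmetric, has vanishing `R`-triangle sums and vanishes at the
`R`-fixed points; a *boundary symbol* is `w ∘ S - w` for a function `w` with
`w ∘ S = w ∘ R²` (i.e. invariant under `T = S⁻¹ R`).  The *area form* (with a partition of
unity `d` along the `R`-orbits) is

  `area R d ξ η = ∑ x, d x * (ξ x * η (R x) - ξ (R x) * η x)`.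

Over a field in which `2 ≠ 0` its kernel on symbols is exactly the space of boundary symbols
(`isBdry_of_area_eq_zero`, `area_eq_zero_of_isBdry_left`); the file also contains the
dimension estimates needed to compare with the Betti lattice.
-/

set_option autoImplicit false

namespace Fermat.Agent.S41.H13

open Finset Module

section Defs

set_option linter.unusedSectionVars false

variable {X : Type*} [Fintype X] {A : Type*} [CommRing A]

/-- The weighted area form. -/
def area (R : Equiv.Perm X) (d : X → A) (ξ η : X → A) : A :=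
  ∑ x, d x * (ξ x * η (R x) - ξ (R x) * η x)

/-- Modular symbols. -/
def IsSym (S R : Equiv.Perm X) (ξ : X → A) : Prop :=
  (∀ x, ξ (S x) = - ξ x) ∧ (∀ x, ξ x + ξ (R x) + ξ (R (R x)) = 0) ∧ (∀ x, R x = x → ξ x = 0)

/-- Boundary symbols. -/
def IsBdry (S R : Equiv.Perm X) (ξ : X → A) : Prop :=
  ∃ w : X → A, (∀ x, w (S x) = w (R (R x))) ∧ ∀ x, ξ x = w (S x) - w x

theorem area_antisymm (R : Equiv.Perm X) (d : X → A) (ξ η : X → A) :
    area R d ξ η = - area R d η ξ := by
  unfold area
  rw [← Finset.sum_neg_distrib]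
  refine Finset.sum_congr rfl (fun x _ => ?_)
  ring

theorem area_add_right (R : Equiv.Perm X) (d : X → A) (ξ η η' : X → A) :
    area R d ξ (η + η') = area R d ξ η + area R d ξ η' := by
  unfold area
  rw [← Finset.sum_add_distrib]
  refine Finset.sum_congr rfl (fun x _ => ?_)
  simp only [Pi.add_apply]
  ring

theorem area_smul_right (R : Equiv.Perm X) (d : X → A) (c : A) (ξ η : X → A) :
    area R d ξ (c • η) = c * area R d ξ η := by
  unfold area
  rw [Finset.mul_sum]
  refine Finset.sum_congr rfl (fun x _ => ?_)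
  simp only [Pi.smul_apply, smul_eq_mul]
  ring

theorem area_sum_right {ι : Type*} (s : Finset ι) (R : Equiv.Perm X) (d : X → A) (ξ : X → A)
    (η : ι → X → A) : area R d ξ (∑ i ∈ s, η i) = ∑ i ∈ s, area R d ξ (η i) := by
  classical
  induction s using Finset.induction_on with
  | empty =>
    simp only [Finset.sum_empty]
    unfold area
    simp
  | insert a s ha ih => rw [Finset.sum_insert ha, Finset.sum_insert ha, area_add_right, ih]

/-- The area form commutes with ring homomorphisms. -/
theorem map_area {B : Type*} [CommRing B] (f : A →+* B) (R : Equiv.Perm X) (d : X → A)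
    (ξ η : X → A) :
    f (area R d ξ η) = area R (fun x => f (d x)) (fun x => f (ξ x)) (fun x => f (η x)) := by
  unfold area
  rw [map_sum]
  refine Finset.sum_congr rfl (fun x _ => ?_)
  simp only [map_mul, map_sub]

theorem IsSym.map {B : Type*} [CommRing B] (f : A →+* B) {S R : Equiv.Perm X} {ξ : X → A}
    (h : IsSym S R ξ) : IsSym S R (fun x => f (ξ x)) := by
  refine ⟨fun x => ?_, fun x => ?_, fun x hx => ?_⟩
  · show f (ξ (S x)) = - f (ξ x)
    rw [h.1 x, map_neg]
  · show f (ξ x) + f (ξ (R x)) + f (ξ (R (R x))) = 0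
    rw [← map_add, ← map_add, h.2.1 x, map_zero]
  · show f (ξ x) = 0
    rw [h.2.2 x hx, map_zero]

/-- Partition of unity along the `R`-orbits. -/
theorem sum_weight_orbit (R : Equiv.Perm X) (hR : ∀ x, R (R (R x)) = x) (d : X → A)
    (hd : ∀ x, R x ≠ x → d x + d (R x) + d (R (R x)) = 1) (h : X → A)
    (h0 : ∀ x, R x = x → h x = 0) :
    ∑ x, d x * (h x + h (R x) + h (R (R x))) = ∑ x, h x := by
  have e1 : ∑ x, d x * h (R x) = ∑ y, d (R (R y)) * h y := by
    refine Fintype.sum_equiv R _ _ (fun x => ?_)
    rw [hR]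
  have e2 : ∑ x, d x * h (R (R x)) = ∑ y, d (R y) * h y := by
    refine Fintype.sum_equiv (R * R) _ _ (fun x => ?_)
    simp only [Equiv.Perm.coe_mul, Function.comp_apply]
    rw [hR]
  have e3 : ∑ x, d x * (h x + h (R x) + h (R (R x)))
      = ∑ x, d x * h x + ∑ x, d x * h (R x) + ∑ x, d x * h (R (R x)) := by
    rw [← Finset.sum_add_distrib, ← Finset.sum_add_distrib]
    refine Finset.sum_congr rfl (fun x _ => ?_)
    ring
  rw [e3, e1, e2, ← Finset.sum_add_distrib, ← Finset.sum_add_distrib]
  refine Finset.sum_congr rfl (fun y _ => ?_)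
  by_cases hy : R y = y
  · rw [h0 y hy]; ring
  · have := hd y hy
    linear_combination h y * this

/-- Boundary symbols are symbols. -/
theorem IsBdry.isSym {S R : Equiv.Perm X} (hS : ∀ x, S (S x) = x)
    (hR : ∀ x, R (R (R x)) = x) {ξ : X → A} (h : IsBdry S R ξ) : IsSym S R ξ := by
  obtain ⟨w, hw, hξ⟩ := h
  have hξ' : ∀ x, ξ x = w (R (R x)) - w x := fun x => by rw [hξ, hw]
  refine ⟨fun x => ?_, fun x => ?_, fun x hx => ?_⟩
  · rw [hξ (S x), hξ x, hS]; ring
  · rw [hξ' x, hξ' (R x), hξ' (R (R x))]
    simp only [hR]; ring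
  · rw [hξ' x, hx, hx]; ring

/-- Boundary symbols are orthogonal to all symbols. -/
theorem area_eq_zero_of_isBdry_left {S R : Equiv.Perm X}
    (hR : ∀ x, R (R (R x)) = x) (d : X → A)
    (hd : ∀ x, R x ≠ x → d x + d (R x) + d (R (R x)) = 1) {β ξ : X → A}
    (hβ : IsBdry S R β) (hξ : IsSym S R ξ) : area R d β ξ = 0 := by
  obtain ⟨w, hw, hβw⟩ := hβ
  have hβ' : ∀ x, β x = w (R (R x)) - w x := fun x => by rw [hβw, hw]
  have key : area R d β ξ = ∑ x, d x * ((fun y => w y * ξ (R (R y))) x
      + (fun y => w y * ξ (R (R y))) (R x) + (fun y => w y * ξ (R (R y))) (R (R x))) := by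
    unfold area
    refine Finset.sum_congr rfl (fun x _ => ?_)
    rw [hβ' x, hβ' (R x)]
    simp only [hR]
    have := hξ.2.1 x
    linear_combination (- d x * w x) * this
  rw [key, sum_weight_orbit R hR d hd _ (fun x hx => by
    show w x * ξ (R (R x)) = 0
    rw [hx, hx, hξ.2.2 x hx, mul_zero])]
  -- now `∑ w y ξ (R² y) = 0`
  have h1 : ∀ y, ξ (R (R y)) = - ξ y + ξ ((S * R) y) := by
    intro y
    have h3 := hξ.2.1 y
    have h4 := hξ.1 (R y)
    simp only [Equiv.Perm.coe_mul, Function.comp_apply]
    linear_combination h3 - h4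
  have h2 : ∀ y, w ((S * R) y) = w y := by
    intro y
    simp only [Equiv.Perm.coe_mul, Function.comp_apply]
    rw [hw, hR]
  have h5 : ∑ y, w y * ξ ((S * R) y) = ∑ y, w y * ξ y := by
    refine Fintype.sum_equiv (S * R) _ _ (fun y => ?_)
    rw [h2]
  calc ∑ y, w y * ξ (R (R y)) = ∑ y, (- (w y * ξ y) + w y * ξ ((S * R) y)) := by
        refine Finset.sum_congr rfl (fun y _ => ?_)
        rw [h1]; ring
    _ = 0 := by
        rw [Finset.sum_add_distrib, Finset.sum_neg_distrib, h5]; ring

theorem area_eq_zero_of_isBdry_right {S R : Equiv.Perm X}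
    (hR : ∀ x, R (R (R x)) = x) (d : X → A)
    (hd : ∀ x, R x ≠ x → d x + d (R x) + d (R (R x)) = 1) {β ξ : X → A}
    (hβ : IsBdry S R β) (hξ : IsSym S R ξ) : area R d ξ β = 0 := by
  rw [area_antisymm, area_eq_zero_of_isBdry_left hR d hd hβ hξ, neg_zero]

end Defs

section Field

set_option linter.unusedSectionVars false

variable {X : Type*} [Fintype X] [DecidableEq X] {k : Type*} [Field k]

/-- invariant functions -/
def invSub (k : Type*) [Field k] (g : Equiv.Perm X) : Submodule k (X → k) where
  carrier := {a | ∀ x, a (g x) = a x}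
  zero_mem' := fun _ => rfl
  add_mem' := by
    intro a b ha hb x
    simp only [Pi.add_apply, ha x, hb x]
  smul_mem' := by
    intro c a ha x
    simp only [Pi.smul_apply, ha x]

theorem mem_invSub {g : Equiv.Perm X} {a : X → k} : a ∈ invSub k g ↔ ∀ x, a (g x) = a x :=
  Iff.rfl

/-- **The kernel of the area form on symbols consists of boundary symbols.** -/
theorem isBdry_of_area_eq_zero (h2 : (2 : k) ≠ 0) (S R : Equiv.Perm X)
    (hS : ∀ x, S (S x) = x) (hR : ∀ x, R (R (R x)) = x) (d : X → k)
    (hd : ∀ x, R x ≠ x → d x + d (R x) + d (R (R x)) = 1)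
    {ξ : X → k} (hξ : IsSym S R ξ) (h : ∀ η, IsSym S R η → area R d ξ η = 0) :
    IsBdry S R ξ := by
  classical
  set c : X → k := fun y => d (R (R y)) * ξ (R (R y)) - d y * ξ (R y) with hc
  have claim1 : ∀ η : X → k, area R d ξ η = ∑ y, c y * η y := by
    intro η
    unfold area
    have e1 : ∑ x, d x * (ξ x * η (R x)) = ∑ y, d (R (R y)) * ξ (R (R y)) * η y := by
      refine Fintype.sum_equiv R _ _ (fun x => ?_)
      rw [hR]; ring
    calc ∑ x, d x * (ξ x * η (R x) - ξ (R x) * η x)
        = ∑ x, d x * (ξ x * η (R x)) - ∑ x, d x * ξ (R x) * η x := by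
          rw [← Finset.sum_sub_distrib]
          refine Finset.sum_congr rfl (fun x _ => ?_)
          ring
      _ = ∑ y, c y * η y := by
          rw [e1, ← Finset.sum_sub_distrib]
          refine Finset.sum_congr rfl (fun x _ => ?_)
          rw [hc]; ring
  have claim2 : c ∈ invSub k S ⊔ invSub k R := by
    by_contra hcon
    obtain ⟨f, hfc, hf⟩ := Submodule.exists_le_ker_of_notMem hcon
    set η : X → k := fun x => f (Pi.single x 1) with hη
    have hfη : ∀ g : X → k, f g = ∑ x, g x * η x := by
      intro g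
      rw [LinearMap.pi_apply_eq_sum_univ f g]
      refine Finset.sum_congr rfl (fun x _ => ?_)
      rw [smul_eq_mul, hη]
      congr 2
      funext j
      simp only [Pi.single_apply]
      by_cases hxj : x = j
      · simp [hxj]
      · rw [if_neg hxj, if_neg (fun h' => hxj h'.symm)]
    have hS0 : ∀ a ∈ invSub k S, f a = 0 := fun a ha =>
      LinearMap.mem_ker.mp (hf (Submodule.mem_sup_left ha))
    have hR0 : ∀ b ∈ invSub k R, f b = 0 := fun b hb =>
      LinearMap.mem_ker.mp (hf (Submodule.mem_sup_right hb))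
    have hηsym : IsSym S R η := by
      refine ⟨fun x => ?_, fun x => ?_, fun x hx => ?_⟩
      · have hmem : (Pi.single x 1 + Pi.single (S x) 1 : X → k) ∈ invSub k S := by
          intro y
          simp only [Pi.add_apply, Pi.single_apply]
          have e1 : (S y = x) ↔ (y = S x) := by
            constructor
            · intro h'; rw [← h', hS]
            · intro h'; rw [h', hS]
          have e2 : (S y = S x) ↔ (y = x) := S.injective.eq_iff
          simp only [e1, e2]
          ring
        have := hS0 _ hmem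
        rw [map_add] at this
        rw [hη]
        linear_combination this
      · have hmem : (Pi.single x 1 + Pi.single (R x) 1 + Pi.single (R (R x)) 1 : X → k)
            ∈ invSub k R := by
          intro y
          simp only [Pi.add_apply, Pi.single_apply]
          have e1 : (R y = x) ↔ (y = R (R x)) := by
            constructor
            · intro h'; rw [← h', hR]
            · intro h'; rw [h', hR]
          have e2 : (R y = R x) ↔ (y = x) := R.injective.eq_iff
          have e3 : (R y = R (R x)) ↔ (y = R x) := R.injective.eq_iff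
          simp only [e1, e2, e3]
          ring
        have := hR0 _ hmem
        rw [map_add, map_add] at this
        rw [hη]
        linear_combination this
      · have hmem : (Pi.single x 1 : X → k) ∈ invSub k R := by
          intro y
          simp only [Pi.single_apply]
          have e1 : (R y = x) ↔ (y = x) := by
            constructor
            · intro h'; apply R.injective; rw [h', hx]
            · intro h'; rw [h', hx]
          simp only [e1]
        exact hR0 _ hmem
    apply hfc
    rw [hfη c, ← claim1 η]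
    exact h η hηsym
  obtain ⟨a, ha, b, hb, hab⟩ := Submodule.mem_sup.mp claim2
  rw [mem_invSub] at ha hb
  have hcab : ∀ y, c y = a y + b y := fun y => by rw [← hab]; rfl
  have claim3 : ∀ y, ξ y = a (R y) - a (R (R y)) := by
    intro y
    by_cases hy : R y = y
    · rw [hξ.2.2 y hy, hy, hy]; ring
    · have e1 := hcab (R y)
      have e2 := hcab (R (R y))
      rw [hc] at e1 e2
      simp only [hR] at e1 e2
      have e3 := hb (R y)
      have e4 := hξ.2.1 y
      have e5 := hd y hy
      linear_combination e1 - e2 - ξ y * e5 + d (R y) * e4 - e3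
  have hξS : ∀ x, a (R (S x)) - a (R (R (S x))) = - (a (R x) - a (R (R x))) := by
    intro x
    rw [← claim3, ← claim3, hξ.1]
  refine ⟨fun x => - (a x + a (R x) - a (R (R x))) / 2, fun x => ?_, fun x => ?_⟩
  · simp only []
    rw [ha x, hR]
    have := hξS x
    field_simp
    linear_combination (-1 : k) * this
  · simp only []
    rw [ha x, claim3 x]
    have := hξS x
    field_simp
    linear_combination this

end Field

section Dim

set_option linter.unusedSectionVars false

variable {X : Type*} [Fintype X] [DecidableEq X] {k : Type*} [Field k]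

/-- The space of symbols. -/
def symSub (k : Type*) [Field k] (S R : Equiv.Perm X) : Submodule k (X → k) where
  carrier := {ξ | IsSym S R ξ}
  zero_mem' := ⟨fun _ => by simp, fun _ => by simp, fun _ _ => rfl⟩
  add_mem' := by
    intro ξ η hξ hη
    refine ⟨fun x => ?_, fun x => ?_, fun x hx => ?_⟩
    · simp only [Pi.add_apply, hξ.1 x, hη.1 x]; ring
    · have h1 := hξ.2.1 x
      have h2 := hη.2.1 x
      simp only [Pi.add_apply]
      linear_combination h1 + h2
    · simp only [Pi.add_apply, hξ.2.2 x hx, hη.2.2 x hx, add_zero]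
  smul_mem' := by
    intro c ξ hξ
    refine ⟨fun x => ?_, fun x => ?_, fun x hx => ?_⟩
    · simp only [Pi.smul_apply, hξ.1 x, smul_eq_mul]; ring
    · have h1 := hξ.2.1 x
      simp only [Pi.smul_apply, smul_eq_mul]
      linear_combination c * h1
    · simp only [Pi.smul_apply, hξ.2.2 x hx, smul_zero]

theorem mem_symSub {S R : Equiv.Perm X} {ξ : X → k} : ξ ∈ symSub k S R ↔ IsSym S R ξ := Iff.rfl

/-- `T`-invariant functions, in the form `w ∘ S = w ∘ R²`. -/
def invTSub (k : Type*) [Field k] (S R : Equiv.Perm X) : Submodule k (X → k) where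
  carrier := {w | ∀ x, w (S x) = w (R (R x))}
  zero_mem' := fun _ => rfl
  add_mem' := by
    intro a b ha hb x
    simp only [Pi.add_apply, ha x, hb x]
  smul_mem' := by
    intro c a ha x
    simp only [Pi.smul_apply, ha x]

/-- `w ↦ w ∘ S - w`. -/
def bdryMap (k : Type*) [Field k] (S : Equiv.Perm X) : (X → k) →ₗ[k] (X → k) where
  toFun w := fun x => w (S x) - w x
  map_add' := by
    intro a b; funext x; simp only [Pi.add_apply]; ring
  map_smul' := by
    intro c a; funext x; simp only [Pi.smul_apply, smul_eq_mul, RingHom.id_apply]; ring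

/-- The space of boundary symbols. -/
def bdrySub (k : Type*) [Field k] (S R : Equiv.Perm X) : Submodule k (X → k) :=
  (invTSub k S R).map (bdryMap k S)

theorem mem_bdrySub {S R : Equiv.Perm X} {ξ : X → k} : ξ ∈ bdrySub k S R ↔ IsBdry S R ξ := by
  constructor
  · rintro ⟨w, hw, rfl⟩
    exact ⟨w, hw, fun x => rfl⟩
  · rintro ⟨w, hw, hξ⟩
    exact ⟨w, hw, by funext x; rw [hξ x]; rfl⟩

theorem bdrySub_le_symSub {S R : Equiv.Perm X} (hS : ∀ x, S (S x) = x)
    (hR : ∀ x, R (R (R x)) = x) : bdrySub k S R ≤ symSub k S R := by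
  intro ξ hξ
  exact (mem_bdrySub.mp hξ).isSym hS hR

/-- Symbols are orthogonal to `S`-invariant and to `R`-invariant functions. -/
theorem sum_mul_eq_zero_of_isSym (h2 : (2 : k) ≠ 0) {S R : Equiv.Perm X}
    (hR : ∀ x, R (R (R x)) = x) (d : X → k)
    (hd : ∀ x, R x ≠ x → d x + d (R x) + d (R (R x)) = 1) {ξ : X → k} (hξ : IsSym S R ξ)
    {w : X → k} (hw : w ∈ invSub k S ⊔ invSub k R) : ∑ x, ξ x * w x = 0 := by
  obtain ⟨a, ha, b, hb, rfl⟩ := Submodule.mem_sup.mp hw
  rw [mem_invSub] at ha hb
  have h1 : ∑ x, ξ x * a x = 0 := by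
    have e : ∑ x, ξ x * a x = ∑ x, ξ (S x) * a (S x) :=
      (Equiv.sum_comp S (fun x => ξ x * a x)).symm
    have e' : ∑ x, ξ (S x) * a (S x) = - ∑ x, ξ x * a x := by
      rw [← Finset.sum_neg_distrib]
      refine Finset.sum_congr rfl (fun x _ => ?_)
      rw [hξ.1 x, ha x]; ring
    have e2 : (2 : k) * ∑ x, ξ x * a x = 0 := by
      linear_combination e + e'
    rcases mul_eq_zero.mp e2 with h | h
    · exact absurd h h2
    · exact h
  have h3 : ∑ x, ξ x * b x = 0 := by
    rw [← sum_weight_orbit R hR d hd (fun x => ξ x * b x) (fun x hx => by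
      show ξ x * b x = 0
      rw [hξ.2.2 x hx, zero_mul])]
    refine Finset.sum_eq_zero (fun x _ => ?_)
    show d x * (ξ x * b x + ξ (R x) * b (R x) + ξ (R (R x)) * b (R (R x))) = 0
    rw [hb (R x), hb x]
    have := hξ.2.1 x
    linear_combination (d x * b x) * this
  calc ∑ x, ξ x * (a + b) x = ∑ x, ξ x * a x + ∑ x, ξ x * b x := by
        rw [← Finset.sum_add_distrib]
        refine Finset.sum_congr rfl (fun x _ => ?_)
        simp only [Pi.add_apply]; ring
    _ = 0 := by rw [h1, h3, add_zero]

/-- The dot-product map to the dual. -/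
def dotDual (k : Type*) [Field k] (X : Type*) [Fintype X] : (X → k) →ₗ[k] Module.Dual k (X → k) where
  toFun ξ :=
    { toFun := fun g => ∑ x, ξ x * g x
      map_add' := by
        intro g g'
        rw [← Finset.sum_add_distrib]
        refine Finset.sum_congr rfl (fun x _ => ?_)
        simp only [Pi.add_apply]; ring
      map_smul' := by
        intro c g
        simp only [RingHom.id_apply, smul_eq_mul]
        rw [Finset.mul_sum]
        refine Finset.sum_congr rfl (fun x _ => ?_)
        simp only [Pi.smul_apply, smul_eq_mul]; ring }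
  map_add' := by
    intro ξ η
    ext g
    simp only [LinearMap.coe_mk, AddHom.coe_mk, LinearMap.add_apply, Pi.add_apply]
    rw [← Finset.sum_add_distrib]
    refine Finset.sum_congr rfl (fun x _ => ?_)
    ring
  map_smul' := by
    intro c ξ
    ext g
    simp only [LinearMap.coe_mk, AddHom.coe_mk, LinearMap.smul_apply, Pi.smul_apply,
      smul_eq_mul, RingHom.id_apply]
    rw [Finset.mul_sum]
    refine Finset.sum_congr rfl (fun x _ => ?_)
    ring

theorem dotDual_apply (ξ g : X → k) : dotDual k X ξ g = ∑ x, ξ x * g x := rfl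

theorem dotDual_injective : Function.Injective (dotDual k X) := by
  intro ξ η h
  funext x
  have := congrArg (fun φ : Module.Dual k (X → k) => φ (Pi.single x 1)) h
  simp only [dotDual_apply] at this
  simpa [Pi.single_apply] using this

/-- `dim Sym + dim V^S + dim V^R ≤ |X| + 1` for a transitive pair. -/
theorem finrank_symSub_add_le (h2 : (2 : k) ≠ 0) {S R : Equiv.Perm X}
    (hR : ∀ x, R (R (R x)) = x) (d : X → k)
    (hd : ∀ x, R x ≠ x → d x + d (R x) + d (R (R x)) = 1)
    (htr : ∀ f : X → k, (∀ x, f (S x) = f x) → (∀ x, f (R x) = f x) → ∀ x y, f x = f y) :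
    finrank k (symSub k S R) + finrank k (invSub k S) + finrank k (invSub k R)
      ≤ Fintype.card X + 1 := by
  set W : Submodule k (X → k) := invSub k S ⊔ invSub k R with hW
  -- symbols inject into the annihilator of `W`
  have hmaps : ∀ ξ : symSub k S R, dotDual k X ξ.1 ∈ W.dualAnnihilator := by
    intro ξ
    rw [Submodule.mem_dualAnnihilator]
    intro w hw
    rw [dotDual_apply]
    exact sum_mul_eq_zero_of_isSym h2 hR d hd ξ.2 hw
  let Φ : symSub k S R →ₗ[k] W.dualAnnihilator :=
    LinearMap.codRestrict _ ((dotDual k X).comp (symSub k S R).subtype) hmaps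
  have hΦ : Function.Injective Φ := by
    intro ξ η h
    apply Subtype.ext
    apply dotDual_injective
    exact congrArg Subtype.val h
  have h1 : finrank k (symSub k S R) ≤ finrank k W.dualAnnihilator :=
    LinearMap.finrank_le_finrank_of_injective hΦ
  have h3 : finrank k W + finrank k W.dualAnnihilator = finrank k (X → k) :=
    Subspace.finrank_add_finrank_dualAnnihilator_eq W
  have h4 : finrank k (X → k) = Fintype.card X := Module.finrank_fintype_fun_eq_card k
  have h5 : finrank k W + finrank k (invSub k S ⊓ invSub k R : Submodule k (X → k))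
      = finrank k (invSub k S) + finrank k (invSub k R) :=
    Submodule.finrank_sup_add_finrank_inf_eq _ _
  have h6 : finrank k (invSub k S ⊓ invSub k R : Submodule k (X → k)) ≤ 1 := by
    refine finrank_le_one (⟨fun _ => 1, ⟨fun _ => rfl, fun _ => rfl⟩⟩ :
      (invSub k S ⊓ invSub k R : Submodule k (X → k))) (fun w => ?_)
    rcases isEmpty_or_nonempty X with hX | ⟨⟨x₀⟩⟩
    · exact ⟨0, Subtype.ext (funext fun x => (hX.false x).elim)⟩
    · refine ⟨w.1 x₀, Subtype.ext (funext fun x => ?_)⟩
      show w.1 x₀ * 1 = w.1 x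
      rw [mul_one]
      exact htr w.1 w.2.1 w.2.2 x₀ x
  omega

/-- `dim V^T ≤ dim Bdry + 1` for a transitive pair. -/
theorem finrank_invTSub_le {S R : Equiv.Perm X} (hR : ∀ x, R (R (R x)) = x)
    (htr : ∀ f : X → k, (∀ x, f (S x) = f x) → (∀ x, f (R x) = f x) → ∀ x y, f x = f y) :
    finrank k (invTSub k S R) ≤ finrank k (bdrySub k S R) + 1 := by
  let f : invTSub k S R →ₗ[k] (X → k) := (bdryMap k S).domRestrict (invTSub k S R)
  have hrange : LinearMap.range f = bdrySub k S R := by
    rw [bdrySub, LinearMap.range_domRestrict]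
  have h1 := LinearMap.finrank_range_add_finrank_ker f
  rw [hrange] at h1
  have hconst : ∀ w : LinearMap.ker f, ∀ x y, w.1.1 x = w.1.1 y := by
    intro w
    have hw : ∀ x, w.1.1 (S x) = w.1.1 x := by
      intro x
      have := congrFun (LinearMap.mem_ker.mp w.2) x
      have e : f w.1 x = w.1.1 (S x) - w.1.1 x := rfl
      rw [e] at this
      simpa [sub_eq_zero] using this
    have hw2 : ∀ x, w.1.1 (R (R x)) = w.1.1 x := fun x => by rw [← w.1.2 x, hw x]
    have hw3 : ∀ x, w.1.1 (R x) = w.1.1 x := by
      intro x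
      have := hw2 (R (R x))
      rw [hR] at this
      rw [this, hw2]
    exact htr w.1.1 hw hw3
  have h2 : finrank k (LinearMap.ker f) ≤ 1 := by
    have hmem : (fun _ => 1 : X → k) ∈ invTSub k S R := fun _ => rfl
    have hker : (⟨fun _ => 1, hmem⟩ : invTSub k S R) ∈ LinearMap.ker f := by
      rw [LinearMap.mem_ker]
      funext x
      show (1 : k) - 1 = 0
      ring
    refine finrank_le_one (⟨⟨fun _ => 1, hmem⟩, hker⟩ : LinearMap.ker f) (fun w => ?_)
    rcases isEmpty_or_nonempty X with hX | ⟨⟨x₀⟩⟩
    · exact ⟨0, Subtype.ext (Subtype.ext (funext fun x => (hX.false x).elim))⟩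
    · refine ⟨w.1.1 x₀, Subtype.ext (Subtype.ext (funext fun x => ?_))⟩
      show w.1.1 x₀ * 1 = w.1.1 x
      rw [mul_one]
      exact hconst w x₀ x
  omega

end Dim

end Fermat.Agent.S41.H13
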