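import Mathlib
import Fermat.Prelude.Def_ModularCurve_PeriodMap
import Fermat.Agent.S21.GroupBound_helper50
import Fermat.Agent.S41.PerfKer_helper13

/-!
# Cusp potentials and modular symbols of parabolic characters (helper13, (C-PERF) of S41)

For a subgroup `Γ ≤ SL(2, ℤ)` containing `-1` and a parabolic character `x : Γ → ℤ`:
* `exists_potential`: there is `U : SL(2, ℤ) → ℤ` with `U (g γ) = U g + x γ`, invariant under
  left multiplication by upper triangular matrices (a function on the cusps `g⁻¹ ∞`);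
* `symX Γ U (g Γ) = U (S g) - U g` is a modular symbol (`isSym_symX`);
* `dvd_of_isBdry_symX`: if the symbol is a boundary symbol mod `p`, then `p ∣ x γ` for all `γ`.
-/

set_option autoImplicit false

namespace Fermat.Agent.S41.H13

open scoped MatrixGroups
open ModularCurve.Period Fermat.Agent.S21

/-- upper triangular matrices in `SL(2, ℤ)` -/
def borel : Subgroup SL(2, ℤ) where
  carrier := {g | g.1 1 0 = 0}
  mul_mem' := by
    intro a b ha hb
    simp only [Set.mem_ofPred_eq] at ha hb ⊢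
    rw [Matrix.SpecialLinearGroup.coe_mul, Matrix.mul_apply, Fin.sum_univ_two, ha, hb]
    ring
  one_mem' := by simp
  inv_mem' := by
    intro a ha
    simp only [Set.mem_ofPred_eq] at ha ⊢
    rw [Matrix.SpecialLinearGroup.SL2_inv_expl]
    simp [ha]

theorem mem_borel {g : SL(2, ℤ)} : g ∈ borel ↔ g.1 1 0 = 0 := Iff.rfl

theorem T_mem_borel : ModularGroup.T ∈ borel := by
  rw [mem_borel, ModularGroup.coe_T]; rfl

theorem neg_one_mem_borel : (-1 : SL(2, ℤ)) ∈ borel := by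
  rw [mem_borel]; simp

theorem trace_sq_of_mem_borel {b : SL(2, ℤ)} (hb : b ∈ borel) : b.1.trace ^ 2 = 4 := by
  have hdet := b.2
  rw [Matrix.det_fin_two, mem_borel.mp hb, mul_zero, sub_zero] at hdet
  rw [Matrix.trace_fin_two]
  rcases Int.eq_one_or_neg_one_of_mul_eq_one' hdet with ⟨h1, h2⟩ | ⟨h1, h2⟩
  · rw [h1, h2]; norm_num
  · rw [h1, h2]; norm_num

theorem trace_conj (r c : SL(2, ℤ)) : (r⁻¹ * c * r).1.trace = c.1.trace := by
  rw [Matrix.SpecialLinearGroup.coe_mul, Matrix.trace_mul_comm,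
    ← Matrix.SpecialLinearGroup.coe_mul, mul_inv_cancel_left]

variable (Γ : Subgroup SL(2, ℤ))

theorem hom_eq_of_borel {x : Additive Γ →+ ℤ} (hx : IsParabolicHom Γ x) (r b₁ b₂ : SL(2, ℤ))
    (hb₁ : b₁ ∈ borel) (hb₂ : b₂ ∈ borel) (γ₁ γ₂ : Γ)
    (h : b₁ * r * (γ₁ : SL(2, ℤ)) = b₂ * r * (γ₂ : SL(2, ℤ))) :
    x (Additive.ofMul γ₁) = x (Additive.ofMul γ₂) := by
  have hδ : ((γ₁ * γ₂⁻¹ : Γ) : SL(2, ℤ)) = r⁻¹ * (b₁⁻¹ * b₂) * r := by
    have h1 : (γ₁ : SL(2, ℤ)) = r⁻¹ * b₁⁻¹ * (b₂ * r * (γ₂ : SL(2, ℤ))) := by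
      rw [← h]; group
    rw [Subgroup.coe_mul, Subgroup.coe_inv, h1]; group
  have htr : ((γ₁ * γ₂⁻¹ : Γ) : SL(2, ℤ)).1.trace ^ 2 = 4 := by
    rw [hδ, trace_conj]
    exact trace_sq_of_mem_borel (borel.mul_mem (borel.inv_mem hb₁) hb₂)
  have h0 := hx (γ₁ * γ₂⁻¹) htr
  rw [ofMul_mul, map_add, ofMul_inv, map_neg] at h0
  linarith

/-- **Cusp potentials exist.** -/
theorem exists_potential {x : Additive Γ →+ ℤ} (hx : IsParabolicHom Γ x) :
    ∃ U : SL(2, ℤ) → ℤ, (∀ (g : SL(2, ℤ)) (γ : Γ), U (g * γ) = U g + x (Additive.ofMul γ)) ∧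
      (∀ b ∈ borel, ∀ g, U (b * g) = U g) := by
  classical
  let s : Setoid SL(2, ℤ) :=
    { r := fun g g' => ∃ b ∈ borel, ∃ γ : Γ, g' = b * g * (γ : SL(2, ℤ))
      iseqv :=
        { refl := fun g => ⟨1, borel.one_mem, 1, by simp⟩
          symm := by
            rintro g g' ⟨b, hb, γ, rfl⟩
            refine ⟨b⁻¹, borel.inv_mem hb, γ⁻¹, ?_⟩
            rw [Subgroup.coe_inv]; group
          trans := by
            rintro g g' g'' ⟨b, hb, γ, rfl⟩ ⟨b', hb', γ', rfl⟩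
            refine ⟨b' * b, borel.mul_mem hb' hb, γ * γ', ?_⟩
            rw [Subgroup.coe_mul]; group } }
  let out : SL(2, ℤ) → SL(2, ℤ) := fun g => (Quotient.mk s g).out
  have hout : ∀ g, ∃ b ∈ borel, ∃ γ : Γ, g = b * out g * (γ : SL(2, ℤ)) := fun g =>
    (Quotient.mk_out (s := s) g)
  choose bb hbb γγ hdec using hout
  have hout_eq : ∀ g g', s.r g g' → out g = out g' := by
    intro g g' h
    show (Quotient.mk s g).out = (Quotient.mk s g').out
    rw [Quotient.sound h]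
  refine ⟨fun g => x (Additive.ofMul (γγ g)), fun g γ => ?_, fun b hb g => ?_⟩
  · have h1 : out g = out (g * γ) := hout_eq g (g * γ) ⟨1, borel.one_mem, γ, by simp⟩
    have h2 := hdec (g * γ)
    have h3 : g * (γ : SL(2, ℤ)) = bb g * out (g * γ) * ((γγ g * γ : Γ) : SL(2, ℤ)) := by
      rw [← h1, Subgroup.coe_mul, ← mul_assoc, ← hdec g]
    have h4 := hom_eq_of_borel Γ hx (out (g * γ)) (bb (g * γ)) (bb g) (hbb _) (hbb _)
      (γγ (g * γ)) (γγ g * γ) (by rw [← h2, ← h3])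
    show x (Additive.ofMul (γγ (g * γ))) = x (Additive.ofMul (γγ g)) + x (Additive.ofMul γ)
    rw [h4, ofMul_mul, map_add]
  · have h1 : out g = out (b * g) := hout_eq g (b * g) ⟨b, hb, 1, by simp⟩
    have h2 := hdec (b * g)
    have h3 : b * g = (b * bb g) * out (b * g) * ((γγ g : Γ) : SL(2, ℤ)) := by
      rw [← h1, mul_assoc b, mul_assoc b, ← hdec g]
    exact hom_eq_of_borel Γ hx (out (b * g)) (bb (b * g)) (b * bb g) (hbb _)
      (borel.mul_mem hb (hbb _)) (γγ (b * g)) (γγ g) (by rw [← h2, ← h3])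

/-- The permutations of `SL(2, ℤ) ⧸ Γ` induced by `S` and `R = S T`. -/
noncomputable def Sx : Equiv.Perm (SL(2, ℤ) ⧸ Γ) := MulAction.toPerm ModularGroup.S

noncomputable def Rx : Equiv.Perm (SL(2, ℤ) ⧸ Γ) :=
  MulAction.toPerm (ModularGroup.S * ModularGroup.T)

theorem Sx_mk (g : SL(2, ℤ)) : Sx Γ (g : SL(2, ℤ) ⧸ Γ) = ((ModularGroup.S * g : SL(2, ℤ)) :
    SL(2, ℤ) ⧸ Γ) := rfl

theorem Rx_mk (g : SL(2, ℤ)) : Rx Γ (g : SL(2, ℤ) ⧸ Γ) =
    ((ModularGroup.S * ModularGroup.T * g : SL(2, ℤ)) : SL(2, ℤ) ⧸ Γ) := rfl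

theorem Sx_Sx (hneg : (-1 : SL(2, ℤ)) ∈ Γ) (q : SL(2, ℤ) ⧸ Γ) : Sx Γ (Sx Γ q) = q := by
  show ModularGroup.S • ModularGroup.S • q = q
  rw [← mul_smul, ← pow_two, H50.S_sq]
  exact H50.neg_one_smul_coset Γ hneg q

theorem Rx_Rx_Rx (hneg : (-1 : SL(2, ℤ)) ∈ Γ) (q : SL(2, ℤ) ⧸ Γ) :
    Rx Γ (Rx Γ (Rx Γ q)) = q := by
  show (ModularGroup.S * ModularGroup.T) • (ModularGroup.S * ModularGroup.T) •
    (ModularGroup.S * ModularGroup.T) • q = q
  rw [← mul_smul, ← mul_smul, ← pow_two, ← pow_succ, H50.ST_cube]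
  exact H50.neg_one_smul_coset Γ hneg q

/-- The modular symbol of a potential. -/
noncomputable def symX (U : SL(2, ℤ) → ℤ) (q : SL(2, ℤ) ⧸ Γ) : ℤ :=
  U (ModularGroup.S * q.out) - U q.out

variable {Γ}

theorem symX_mk {x : Additive Γ →+ ℤ} {U : SL(2, ℤ) → ℤ}
    (hU : ∀ (g : SL(2, ℤ)) (γ : Γ), U (g * γ) = U g + x (Additive.ofMul γ)) (g : SL(2, ℤ)) :
    symX Γ U (g : SL(2, ℤ) ⧸ Γ) = U (ModularGroup.S * g) - U g := by
  obtain ⟨γ, hγ⟩ := QuotientGroup.mk_out_eq_mul Γ g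
  unfold symX
  rw [hγ, ← mul_assoc, hU, hU]
  ring

theorem S_mul_S : ModularGroup.S * ModularGroup.S = (-1 : SL(2, ℤ)) := by
  rw [← pow_two, H50.S_sq]

theorem R_mul_R : (ModularGroup.S * ModularGroup.T) * (ModularGroup.S * ModularGroup.T)
    = ModularGroup.T⁻¹ * ModularGroup.S := by
  ext i j
  simp only [Matrix.SpecialLinearGroup.coe_mul, ModularGroup.coe_S, ModularGroup.coe_T,
    ModularGroup.coe_T_inv]
  fin_cases i <;> fin_cases j <;> simp [Matrix.mul_apply, Fin.sum_univ_two]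

theorem S_mul_R : ModularGroup.S * (ModularGroup.S * ModularGroup.T)
    = (-1 : SL(2, ℤ)) * ModularGroup.T := by
  rw [← mul_assoc, S_mul_S]

theorem R_pow_six : (ModularGroup.S * ModularGroup.T) ^ 6 = (1 : SL(2, ℤ)) := by
  have : (ModularGroup.S * ModularGroup.T) ^ 6 = ((ModularGroup.S * ModularGroup.T) ^ 3) ^ 2 := by
    rw [← pow_mul]
  rw [this, H50.ST_cube]
  simp

section Sym

variable {x : Additive Γ →+ ℤ} {U : SL(2, ℤ) → ℤ}

theorem U_S_R (hUb : ∀ b ∈ borel, ∀ g, U (b * g) = U g) (g : SL(2, ℤ)) :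
    U (ModularGroup.S * (ModularGroup.S * ModularGroup.T * g)) = U g := by
  rw [← mul_assoc, S_mul_R, mul_assoc, hUb _ neg_one_mem_borel, hUb _ T_mem_borel]

theorem U_R_R (hUb : ∀ b ∈ borel, ∀ g, U (b * g) = U g) (g : SL(2, ℤ)) :
    U (ModularGroup.S * ModularGroup.T * (ModularGroup.S * ModularGroup.T * g))
      = U (ModularGroup.S * g) := by
  rw [← mul_assoc, R_mul_R, mul_assoc, hUb _ (borel.inv_mem T_mem_borel)]

theorem U_S_S (hUb : ∀ b ∈ borel, ∀ g, U (b * g) = U g) (g : SL(2, ℤ)) :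
    U (ModularGroup.S * (ModularGroup.S * g)) = U g := by
  rw [← mul_assoc, S_mul_S, hUb _ neg_one_mem_borel]

/-- The symbol of a potential is a modular symbol. -/
theorem isSym_symX (hU : ∀ (g : SL(2, ℤ)) (γ : Γ), U (g * γ) = U g + x (Additive.ofMul γ))
    (hUb : ∀ b ∈ borel, ∀ g, U (b * g) = U g) : IsSym (Sx Γ) (Rx Γ) (symX Γ U) := by
  refine ⟨fun q => ?_, fun q => ?_, fun q hq => ?_⟩
  · induction q using QuotientGroup.induction_on with
    | H g =>
      rw [Sx_mk, symX_mk hU, symX_mk hU, U_S_S hUb]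
      ring
  · induction q using QuotientGroup.induction_on with
    | H g =>
      rw [Rx_mk, Rx_mk, symX_mk hU, symX_mk hU, symX_mk hU, U_S_R hUb, U_S_R hUb, U_R_R hUb]
      ring
  · induction q using QuotientGroup.induction_on with
    | H g =>
      rw [Rx_mk, QuotientGroup.eq] at hq
      -- `γ₁ := (R g)⁻¹ g ∈ Γ`
      set γ₁ : Γ := ⟨(ModularGroup.S * ModularGroup.T * g)⁻¹ * g, hq⟩ with hγ₁
      have hg : g = ModularGroup.S * ModularGroup.T * g * (γ₁ : SL(2, ℤ)) := by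
        show g = ModularGroup.S * ModularGroup.T * g * ((ModularGroup.S * ModularGroup.T * g)⁻¹ * g)
        group
      have hx0 : x (Additive.ofMul γ₁) = 0 := by
        have h6 : γ₁ ^ 6 = 1 := by
          apply Subtype.ext
          rw [Subgroup.coe_pow, Subgroup.coe_one]
          have e : ((γ₁ : Γ) : SL(2, ℤ)) = g⁻¹ * (ModularGroup.S * ModularGroup.T)⁻¹ * g⁻¹⁻¹ := by
            rw [hγ₁]; simp [mul_assoc]
          rw [e, conj_pow, inv_pow, R_pow_six]
          simp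
        have h7 : x (Additive.ofMul (γ₁ ^ 6)) = 6 • x (Additive.ofMul γ₁) := by
          rw [ofMul_pow, map_nsmul]
        rw [h6, ofMul_one, map_zero, nsmul_eq_mul] at h7
        push_cast at h7
        omega
      rw [symX_mk hU, ← U_R_R hUb g]
      have e1 : U (ModularGroup.S * ModularGroup.T * g) = U g + - x (Additive.ofMul γ₁) := by
        have := hU (ModularGroup.S * ModularGroup.T * g) γ₁
        rw [← hg] at this
        linarith
      have e2 : U (ModularGroup.S * ModularGroup.T * (ModularGroup.S * ModularGroup.T * g))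
          = U (ModularGroup.S * ModularGroup.T * g) + - x (Additive.ofMul γ₁) := by
        have := hU (ModularGroup.S * ModularGroup.T * (ModularGroup.S * ModularGroup.T * g)) γ₁
        rw [mul_assoc (ModularGroup.S * ModularGroup.T) (ModularGroup.S * ModularGroup.T * g),
          ← hg] at this
        linarith
      rw [e2, e1, hx0]
      ring

end Sym

section Inj

variable {x : Additive Γ →+ ℤ} {U : SL(2, ℤ) → ℤ}

/-- **Injectivity mod `p`**: a potential whose symbol is a boundary symbol mod `p` belongs to a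
character divisible by `p`. -/
theorem dvd_of_isBdry_symX (hneg : (-1 : SL(2, ℤ)) ∈ Γ) (p : ℕ)
    (hU : ∀ (g : SL(2, ℤ)) (γ : Γ), U (g * γ) = U g + x (Additive.ofMul γ))
    (hUb : ∀ b ∈ borel, ∀ g, U (b * g) = U g)
    (hbd : IsBdry (Sx Γ) (Rx Γ) (fun q => ((symX Γ U q : ℤ) : ZMod p))) (γ : Γ) :
    (p : ℤ) ∣ x (Additive.ofMul γ) := by
  obtain ⟨w, hw, hξ⟩ := hbd
  -- the corrected potential mod `p`
  set V : SL(2, ℤ) → ZMod p := fun g => (U g : ZMod p) - w (g : SL(2, ℤ) ⧸ Γ) with hV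
  have hVS : ∀ g, V (ModularGroup.S * g) = V g := by
    intro g
    have h1 := hξ (g : SL(2, ℤ) ⧸ Γ)
    simp only [] at h1
    rw [symX_mk hU, Sx_mk] at h1
    simp only [hV]
    push_cast at h1
    linear_combination h1
  have hwT : ∀ g : SL(2, ℤ), w ((ModularGroup.T * g : SL(2, ℤ)) : SL(2, ℤ) ⧸ Γ)
      = w (g : SL(2, ℤ) ⧸ Γ) := by
    intro g
    have h1 := hw ((ModularGroup.S * ModularGroup.T * g : SL(2, ℤ)) : SL(2, ℤ) ⧸ Γ)
    have h2 := Rx_Rx_Rx Γ hneg (g : SL(2, ℤ) ⧸ Γ)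
    rw [Rx_mk] at h2
    rw [h2, Sx_mk, ← mul_assoc, S_mul_R, mul_assoc] at h1
    have h3 : (((-1 : SL(2, ℤ)) * (ModularGroup.T * g) : SL(2, ℤ)) : SL(2, ℤ) ⧸ Γ)
        = ((ModularGroup.T * g : SL(2, ℤ)) : SL(2, ℤ) ⧸ Γ) := by
      show (-1 : SL(2, ℤ)) • ((ModularGroup.T * g : SL(2, ℤ)) : SL(2, ℤ) ⧸ Γ) = _
      exact H50.neg_one_smul_coset Γ hneg _
    rw [h3] at h1
    exact h1
  have hVT : ∀ g, V (ModularGroup.T * g) = V g := by
    intro g
    simp only [hV]
    rw [hUb _ T_mem_borel, hwT]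
  have hVall : ∀ h g : SL(2, ℤ), V (h * g) = V g := by
    intro h
    have hmem : h ∈ Subgroup.closure ({ModularGroup.S, ModularGroup.T} : Set SL(2, ℤ)) := by
      rw [SpecialLinearGroup.SL2Z_generators]; trivial
    induction hmem using Subgroup.closure_induction with
    | mem y hy =>
      rcases hy with rfl | hy
      · exact hVS
      · rw [Set.mem_singleton_iff] at hy; subst hy; exact hVT
    | one => intro g; rw [one_mul]
    | mul a b _ _ ha hb => intro g; rw [mul_assoc, ha, hb]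
    | inv a _ ha =>
      intro g
      have := ha (a⁻¹ * g)
      rw [mul_inv_cancel_left] at this
      exact this.symm
  have h1 := hVall γ 1
  simp only [hV, mul_one] at h1
  have h2 : ((γ : SL(2, ℤ)) : SL(2, ℤ) ⧸ Γ) = ((1 : SL(2, ℤ)) : SL(2, ℤ) ⧸ Γ) := by
    rw [QuotientGroup.eq]; simp
  rw [h2] at h1
  have h3 := hU 1 γ
  rw [one_mul] at h3
  have h4 : ((x (Additive.ofMul γ) : ℤ) : ZMod p) = 0 := by
    have : (U γ : ZMod p) = (U 1 : ZMod p) := by linear_combination h1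
    rw [h3] at this
    push_cast at this
    linear_combination this
  exact (ZMod.intCast_zmod_eq_zero_iff_dvd _ p).mp h4

end Inj

end Fermat.Agent.S41.H13
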