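import Mathlib
import Fermat.Agent.S21
import Fermat.Agent.S20
import Fermat.Agent.S21.Bound_helper25
import Fermat.Agent.S41.Lattice_helper34

/-!
# The rank of the Betti lattice  (helper98, node (PERF-RANK) of S41)

`finrank_ℂ (parabolicHoms ℂ Γ₀(M) ℂ) = 2 · dim S₂(Γ₀(M))` (Eichler–Shimura, S21), the dimension
formula (S20) and the three orbit counts of S24 give

`index + 2 = finrank_ℂ (parabolicHoms ℂ Γ₀(M) ℂ) + #S-orbits + #ST-orbits + #T-orbits`,

and the complex parabolic characters are spanned by the integral ones, so the same holds as an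
inequality `≤` with the rank of the Betti lattice `parabolicHoms ℤ Γ₀(M) ℤ`.
-/

set_option autoImplicit false

namespace Fermat.Agent.S41.H98

open CongruenceSubgroup ModularCurve ModularCurve.Period
open scoped MatrixGroups

/-- The complex dimension of the parabolic characters is at most the rank of the Betti lattice
(any finite index subgroup). -/
theorem finrank_complex_le_finrank_int (Γ : Subgroup SL(2, ℤ)) [Γ.FiniteIndex] :
    Module.finrank ℂ (parabolicHoms ℂ Γ ℂ) ≤ Module.finrank ℤ (parabolicHoms ℤ Γ ℤ) := by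
  classical
  have := H34.finite_parabolicHoms Γ
  have := H34.free_parabolicHoms Γ
  let b := Module.Free.chooseBasis ℤ (parabolicHoms ℤ Γ ℤ)
  let v : Module.Free.ChooseBasisIndex ℤ (parabolicHoms ℤ Γ ℤ) → parabolicHoms ℂ Γ ℂ :=
    fun i => ⟨H34.castHom Γ ℂ ((b i : parabolicHoms ℤ Γ ℤ) : Additive Γ →+ ℤ),
      H34.castHom_mem_parabolicHoms ℂ (b i).2⟩
  have hspan : Submodule.span ℂ (Set.range v) = ⊤ := by
    rw [eq_top_iff]
    rintro ⟨w, hw⟩ -
    -- `w` lies in the span of the coefficient extensions of integral parabolic characters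
    have h1 := H34.mem_span_castHom Γ w hw
    -- push the statement to the ambient module through the subtype embedding
    have h2 : Submodule.span ℂ
        (Set.range (fun φ : parabolicHoms ℤ Γ ℤ => H34.castHom Γ ℂ (φ : Additive Γ →+ ℤ)))
        ≤ (Submodule.span ℂ (Set.range v)).map (parabolicHoms ℂ Γ ℂ).subtype := by
      rw [Submodule.span_le]
      rintro _ ⟨φ, rfl⟩
      -- `φ` is an integral combination of the basis
      have hφ : φ ∈ Submodule.span ℤ (Set.range b) := by
        rw [b.span_eq]; exact Submodule.mem_top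
      have key : ∀ ψ : parabolicHoms ℤ Γ ℤ, ψ ∈ Submodule.span ℤ (Set.range b) →
          H34.castHom Γ ℂ (ψ : Additive Γ →+ ℤ) ∈
            (Submodule.span ℂ (Set.range v)).map (parabolicHoms ℂ Γ ℂ).subtype := by
        intro ψ hψ
        induction hψ using Submodule.span_induction with
        | mem x hx =>
          obtain ⟨i, rfl⟩ := hx
          exact ⟨v i, Submodule.subset_span ⟨i, rfl⟩, rfl⟩
        | zero =>
          rw [Submodule.coe_zero, map_zero]
          exact Submodule.zero_mem _
        | add x y _ _ hx hy =>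
          rw [Submodule.coe_add, map_add]
          exact Submodule.add_mem _ hx hy
        | smul n x _ hx =>
          rw [Submodule.coe_smul, H34.castHom_zsmul]
          exact Submodule.smul_of_tower_mem _ n hx
      exact key φ hφ
    obtain ⟨w', hw', hw'w⟩ := h2 h1
    have : w' = ⟨w, hw⟩ := Subtype.ext hw'w
    rw [← this]
    exact hw'
  have h3 : Module.finrank ℂ (parabolicHoms ℂ Γ ℂ)
      = Module.finrank ℂ (Submodule.span ℂ (Set.range v)) := by
    rw [hspan, finrank_top]
  rw [h3, Module.finrank_eq_card_chooseBasisIndex ℤ (parabolicHoms ℤ Γ ℤ)]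
  exact finrank_range_le_card v

/-- Eichler–Shimura + dimension formula + coset counts: the exact complex dimension. -/
theorem index_add_two_eq_complex (M : ℕ) [NeZero M] :
    (Gamma0 M).index + 2 = Module.finrank ℂ (parabolicHoms ℂ (Gamma0 M) ℂ)
      + Nat.card (MulAction.orbitRel.Quotient (Subgroup.zpowers ModularGroup.S)
          (SL(2, ℤ) ⧸ Gamma0 M))
      + Nat.card (MulAction.orbitRel.Quotient (Subgroup.zpowers (ModularGroup.S * ModularGroup.T))
          (SL(2, ℤ) ⧸ Gamma0 M))
      + Nat.card (MulAction.orbitRel.Quotient (Subgroup.zpowers ModularGroup.T)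
          (SL(2, ℤ) ⧸ Gamma0 M)) := by
  have hle := (Fermat.Agent.S21.H50.finrank_parabolicHoms_Gamma0_add_le M).2
  have h21 := Fermat.Agent.S21.H25.two_mul_finrank_cuspForm_le M
  have h20 := Fermat.Agent.S20.result M
  have hS := Fermat.Agent.S24.H35.two_mul_card_orbits_S M
  have hST := Fermat.Agent.S24.H35.three_mul_card_orbits_ST M
  have hT := Fermat.Agent.S24.H20.card_orbits_T M
  have hI := Fermat.Agent.S24.H35.index_Gamma0 M (NeZero.ne M)
  refine le_antisymm ?_ hle
  -- the lower bound, over `ℚ`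
  have h21' : (2 : ℚ) * (Module.finrank ℂ (CuspForm (Gamma0 M) 2) : ℚ)
      ≤ (Module.finrank ℂ (parabolicHoms ℂ (Gamma0 M) ℂ) : ℚ) := by exact_mod_cast h21
  have hS' : (2 : ℚ) * (Nat.card (MulAction.orbitRel.Quotient (Subgroup.zpowers ModularGroup.S)
      (SL(2, ℤ) ⧸ Gamma0 M)) : ℚ) = (dedekindPsi M : ℚ) + (nuTwo M : ℚ) := by exact_mod_cast hS
  have hST' : (3 : ℚ) * (Nat.card (MulAction.orbitRel.Quotient
      (Subgroup.zpowers (ModularGroup.S * ModularGroup.T)) (SL(2, ℤ) ⧸ Gamma0 M)) : ℚ)
      = (dedekindPsi M : ℚ) + 2 * (nuThree M : ℚ) := by exact_mod_cast hST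
  have hT' : (Nat.card (MulAction.orbitRel.Quotient (Subgroup.zpowers ModularGroup.T)
      (SL(2, ℤ) ⧸ Gamma0 M)) : ℚ) = (cuspCount M : ℚ) := by exact_mod_cast hT
  have hI' : ((Gamma0 M).index : ℚ) = (dedekindPsi M : ℚ) := by exact_mod_cast hI
  rw [h20] at h21'
  unfold genusFormula at h21'
  have key : (((Gamma0 M).index + 2 : ℕ) : ℚ) ≤
      ((Module.finrank ℂ (parabolicHoms ℂ (Gamma0 M) ℂ)
      + Nat.card (MulAction.orbitRel.Quotient (Subgroup.zpowers ModularGroup.S)
          (SL(2, ℤ) ⧸ Gamma0 M))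
      + Nat.card (MulAction.orbitRel.Quotient (Subgroup.zpowers (ModularGroup.S * ModularGroup.T))
          (SL(2, ℤ) ⧸ Gamma0 M))
      + Nat.card (MulAction.orbitRel.Quotient (Subgroup.zpowers ModularGroup.T)
          (SL(2, ℤ) ⧸ Gamma0 M)) : ℕ) : ℚ) := by
    push_cast
    linarith
  exact_mod_cast key

/-- **(PERF-RANK)**: the rank of the Betti lattice of `Γ₀(M)` is at least
`index + 2 - #S-orbits - #ST-orbits - #T-orbits`. -/
theorem index_add_two_le (M : ℕ) [NeZero M] :
    (Gamma0 M).index + 2 ≤ Module.finrank ℤ (parabolicHoms ℤ (Gamma0 M) ℤ)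
      + Nat.card (MulAction.orbitRel.Quotient (Subgroup.zpowers ModularGroup.S)
          (SL(2, ℤ) ⧸ Gamma0 M))
      + Nat.card (MulAction.orbitRel.Quotient (Subgroup.zpowers (ModularGroup.S * ModularGroup.T))
          (SL(2, ℤ) ⧸ Gamma0 M))
      + Nat.card (MulAction.orbitRel.Quotient (Subgroup.zpowers ModularGroup.T)
          (SL(2, ℤ) ⧸ Gamma0 M)) := by
  have h1 := index_add_two_eq_complex M
  have h2 := finrank_complex_le_finrank_int (Gamma0 M)
  omega

end Fermat.Agent.S41.H98
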