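import Mathlib
import Fermat.Prelude.Def_ModularCurve_PeriodMap
import Fermat.Agent.S21.GroupBound_helper50
import Fermat.Agent.S41.Lattice_helper34
import Fermat.Agent.S41.PerfKer_helper13
import Fermat.Agent.S41.PerfPot_helper13
import Fermat.Agent.S41.PerfRank_helper98

/-!
# Non-degeneracy mod `p` of the area pairing on the Betti lattice (helper13, (C-PERF) of S41)

`nondeg_area`: for `Γ₀(M)`, an odd prime `p`, a parabolic character `x : Γ₀(M) → ℤ` with cusp
potential `U`: if the area pairing of the modular symbol of `U` with the modular symbols of all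
parabolic characters is divisible by `p`, then `x = p • w` with `w` parabolic.

Ingredients: the kernel of the area form over `ZMod p` (`PerfKer`), injectivity of the symbol
map mod `p` (`PerfPot`), and the dimension count from the landed S20/S21/S24 results
(`PerfRank_helper98`), which shows that the symbols of the lattice together with the boundary
symbols fill the whole space of symbols mod `p`.
-/

set_option autoImplicit false

namespace Fermat.Agent.S41.H13

open scoped MatrixGroups
open ModularCurve.Period Fermat.Agent.S21 Module CongruenceSubgroup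

section Weights

variable {X : Type*} [Fintype X]

/-- A partition of unity along the orbits of a permutation of order three. -/
theorem exists_weights (R : Equiv.Perm X) (hR : ∀ x, R (R (R x)) = x) :
    ∃ d : X → ℤ, ∀ x, R x ≠ x → d x + d (R x) + d (R (R x)) = 1 := by
  classical
  let e : X → ℕ := fun x => (Fintype.equivFin X x : ℕ)
  have he : Function.Injective e := fun a b h => (Fintype.equivFin X).injective (Fin.ext h)
  refine ⟨fun x => if e x < e (R x) ∧ e x < e (R (R x)) then 1 else 0, fun x hx => ?_⟩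
  have h1 : e x ≠ e (R x) := fun h => hx (he h).symm
  have h2 : e (R x) ≠ e (R (R x)) := fun h => hx (R.injective (he h)).symm
  have h3 : e (R (R x)) ≠ e x := by
    intro h
    have h' : R (R x) = x := he h
    apply hx
    have h'' := congrArg R h'
    rw [hR] at h''
    exact h''.symm
  simp only [hR]
  split_ifs <;> omega

end Weights

theorem exists_eq_zsmul_of_dvd {G : Type*} [AddGroup G] (p : ℕ) (hp : p ≠ 0) (w : G →+ ℤ)
    (h : ∀ g, (p : ℤ) ∣ w g) : ∃ v : G →+ ℤ, w = (p : ℤ) • v := by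
  have hp' : (p : ℤ) ≠ 0 := by exact_mod_cast hp
  refine ⟨AddMonoidHom.mk' (fun g => w g / (p : ℤ)) fun a b => ?_, ?_⟩
  · rw [map_add]
    exact Int.add_ediv_of_dvd_left (h a)
  · refine AddMonoidHom.ext fun g => ?_
    show w g = (p : ℤ) • (w g / (p : ℤ))
    rw [smul_eq_mul, Int.mul_ediv_cancel' (h g)]

section Concrete

variable (Γ : Subgroup SL(2, ℤ))

/-- `S` and `R` act transitively: a function invariant under both is constant. -/
theorem const_of_inv {k : Type*} (f : SL(2, ℤ) ⧸ Γ → k) (hS : ∀ q, f (Sx Γ q) = f q)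
    (hR : ∀ q, f (Rx Γ q) = f q) : ∀ q q', f q = f q' := by
  have key : ∀ h : SL(2, ℤ), ∀ q : SL(2, ℤ) ⧸ Γ, f (h • q) = f q := by
    intro h
    have hmem : h ∈ Subgroup.closure
        ({ModularGroup.S, ModularGroup.S * ModularGroup.T} : Set SL(2, ℤ)) := by
      rw [H50.closure_S_ST]; trivial
    induction hmem using Subgroup.closure_induction with
    | mem y hy =>
      rcases hy with rfl | hy
      · exact hS
      · rw [Set.mem_singleton_iff] at hy; subst hy; exact hR
    | one => intro q; rw [one_smul]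
    | mul a b _ _ ha hb => intro q; rw [mul_smul, ha, hb]
    | inv a _ ha =>
      intro q
      have := ha (a⁻¹ • q)
      rw [smul_inv_smul] at this
      exact this.symm
  intro q q'
  induction q using QuotientGroup.induction_on with
  | H a =>
    induction q' using QuotientGroup.induction_on with
    | H b =>
      have := key (b * a⁻¹) (a : SL(2, ℤ) ⧸ Γ)
      rw [MulAction.Quotient.smul_mk, smul_eq_mul, inv_mul_cancel_right] at this
      exact this.symm

theorem invSub_Sx (k : Type*) [Field k] : invSub k (Sx Γ) = H50.invFun k ModularGroup.S := rfl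

theorem invSub_Rx (k : Type*) [Field k] :
    invSub k (Rx Γ) = H50.invFun k (ModularGroup.S * ModularGroup.T) := rfl

theorem invTSub_eq (hneg : (-1 : SL(2, ℤ)) ∈ Γ) (k : Type*) [Field k] :
    invTSub k (Sx Γ) (Rx Γ) = H50.invFun (X := SL(2, ℤ) ⧸ Γ) k ModularGroup.T := by
  ext w
  constructor
  · intro hw
    show ∀ q, w (ModularGroup.T • q) = w q
    intro q
    have h1 := hw (Rx Γ q)
    rw [Rx_Rx_Rx Γ hneg] at h1
    have h2 : Sx Γ (Rx Γ q) = ModularGroup.T • q := by
      show ModularGroup.S • (ModularGroup.S * ModularGroup.T) • q = ModularGroup.T • q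
      rw [← mul_smul, S_mul_R, mul_smul]
      exact H50.neg_one_smul_coset Γ hneg _
    rw [h2] at h1
    exact h1
  · intro hw
    have hw' : ∀ q, w (ModularGroup.T • q) = w q := hw
    intro q
    have h2 : Rx Γ (Rx Γ q) = ModularGroup.T⁻¹ • Sx Γ q := by
      show (ModularGroup.S * ModularGroup.T) • (ModularGroup.S * ModularGroup.T) • q
        = ModularGroup.T⁻¹ • ModularGroup.S • q
      rw [← mul_smul, R_mul_R, mul_smul]
    rw [h2]
    have := hw' (ModularGroup.T⁻¹ • Sx Γ q)
    rw [smul_inv_smul] at this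
    exact this

variable {Γ}

/-- **Core**: non-degeneracy mod `p` from the rank inequality. -/
theorem nondeg_core [Γ.FiniteIndex] [Fintype (SL(2, ℤ) ⧸ Γ)] (hneg : (-1 : SL(2, ℤ)) ∈ Γ)
    (p : ℕ) [Fact p.Prime] (hp2 : p ≠ 2)
    (hrank : Fintype.card (SL(2, ℤ) ⧸ Γ) + 2 ≤ finrank ℤ (parabolicHoms ℤ Γ ℤ)
      + finrank (ZMod p) (invSub (ZMod p) (Sx Γ)) + finrank (ZMod p) (invSub (ZMod p) (Rx Γ))
      + finrank (ZMod p) (invTSub (ZMod p) (Sx Γ) (Rx Γ)))
    (d : SL(2, ℤ) ⧸ Γ → ℤ) (hd : ∀ q, Rx Γ q ≠ q → d q + d (Rx Γ q) + d (Rx Γ (Rx Γ q)) = 1)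
    (x : Additive Γ →+ ℤ) (U : SL(2, ℤ) → ℤ)
    (hU : ∀ (g : SL(2, ℤ)) (γ : Γ), U (g * γ) = U g + x (Additive.ofMul γ))
    (hUb : ∀ b ∈ borel, ∀ g, U (b * g) = U g)
    (H : ∀ y : Additive Γ →+ ℤ, IsParabolicHom Γ y → ∀ V : SL(2, ℤ) → ℤ,
      (∀ (g : SL(2, ℤ)) (γ : Γ), V (g * γ) = V g + y (Additive.ofMul γ)) →
      (∀ b ∈ borel, ∀ g, V (b * g) = V g) →
      (p : ℤ) ∣ area (Rx Γ) d (symX Γ U) (symX Γ V)) (γ : Γ) :
    (p : ℤ) ∣ x (Additive.ofMul γ) := by
  classical
  have hp : p.Prime := Fact.out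
  have h2 : (2 : ZMod p) ≠ 0 := by
    intro h
    have h' : ((2 : ℕ) : ZMod p) = 0 := by exact_mod_cast h
    rw [ZMod.natCast_eq_zero_iff] at h'
    have := Nat.le_of_dvd (by norm_num) h'
    have := hp.two_le
    omega
  have : NeZero p := ⟨hp.ne_zero⟩
  have : Module.Finite ℤ (parabolicHoms ℤ Γ ℤ) := H34.finite_parabolicHoms Γ
  have : Module.Free ℤ (parabolicHoms ℤ Γ ℤ) := H34.free_parabolicHoms Γ
  set S := Sx Γ with hSdef
  set R := Rx Γ with hRdef
  have hS : ∀ q, S (S q) = q := Sx_Sx Γ hneg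
  have hR : ∀ q, R (R (R q)) = q := Rx_Rx_Rx Γ hneg
  let dk : SL(2, ℤ) ⧸ Γ → (ZMod p) := fun q => ((d q : ℤ) : (ZMod p))
  have hdk : ∀ q, R q ≠ q → dk q + dk (R q) + dk (R (R q)) = 1 := by
    intro q hq
    have := congrArg (Int.cast : ℤ → (ZMod p)) (hd q hq)
    simpa [dk] using this
  have htr : ∀ f : SL(2, ℤ) ⧸ Γ → (ZMod p), (∀ q, f (S q) = f q) → (∀ q, f (R q) = f q) →
      ∀ q q', f q = f q' := fun f h1 h2 => const_of_inv Γ f h1 h2
  -- basis of the lattice and potentials
  let b := Module.Free.chooseBasis ℤ (parabolicHoms ℤ Γ ℤ)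
  have hpot : ∀ i, ∃ V : SL(2, ℤ) → ℤ,
      (∀ (g : SL(2, ℤ)) (γ : Γ), V (g * γ) = V g + (b i).1 (Additive.ofMul γ)) ∧
      (∀ c ∈ borel, ∀ g, V (c * g) = V g) := fun i => exists_potential Γ (b i).2
  choose Vb hVb hVbb using hpot
  let e : Module.Free.ChooseBasisIndex ℤ (parabolicHoms ℤ Γ ℤ) → (SL(2, ℤ) ⧸ Γ → (ZMod p)) :=
    fun i q => ((symX Γ (Vb i) q : ℤ) : (ZMod p))
  have he : ∀ i, e i ∈ symSub (ZMod p) S R := fun i =>
    (isSym_symX (hVb i) (hVbb i)).map (Int.castRingHom (ZMod p))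
  let Ψ : ((Module.Free.ChooseBasisIndex ℤ (parabolicHoms ℤ Γ ℤ) → (ZMod p)) × bdrySub (ZMod p) S R)
      →ₗ[(ZMod p)] (SL(2, ℤ) ⧸ Γ → (ZMod p)) :=
    (Fintype.linearCombination (ZMod p) e).comp (LinearMap.fst (ZMod p) _ _)
      + (bdrySub (ZMod p) S R).subtype.comp (LinearMap.snd (ZMod p) _ _)
  have hΨ : ∀ c β, Ψ (c, β) = ∑ i, c i • e i + β.1 := by
    intro c β
    simp [Ψ, Fintype.linearCombination_apply]
  have hΨinj : Function.Injective Ψ := by
    rw [injective_iff_map_eq_zero]
    rintro ⟨c, β⟩ h0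
    rw [hΨ] at h0
    -- integer lifts of the coefficients
    let n : Module.Free.ChooseBasisIndex ℤ (parabolicHoms ℤ Γ ℤ) → ℤ := fun i => ((c i).val : ℤ)
    have hn : ∀ i, ((n i : ℤ) : (ZMod p)) = c i := fun i => by
      show (((c i).val : ℤ) : ZMod p) = c i
      rw [Int.cast_natCast, ZMod.natCast_zmod_val]
    let y : Additive Γ →+ ℤ := ∑ i, n i • (b i).1
    let V : SL(2, ℤ) → ℤ := fun g => ∑ i, n i * Vb i g
    have hV : ∀ (g : SL(2, ℤ)) (γ : Γ), V (g * γ) = V g + y (Additive.ofMul γ) := by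
      intro g γ
      simp only [V, y, AddMonoidHom.finset_sum_apply, AddMonoidHom.smul_apply, smul_eq_mul]
      rw [← Finset.sum_add_distrib]
      refine Finset.sum_congr rfl (fun i _ => ?_)
      rw [hVb i]; ring
    have hVb' : ∀ c' ∈ borel, ∀ g, V (c' * g) = V g := by
      intro c' hc' g
      simp only [V]
      refine Finset.sum_congr rfl (fun i _ => ?_)
      rw [hVbb i c' hc']
    have hsym : ∀ q, symX Γ V q = ∑ i, n i * symX Γ (Vb i) q := by
      intro q
      simp only [symX, V]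
      rw [← Finset.sum_sub_distrib]
      refine Finset.sum_congr rfl (fun i _ => ?_)
      ring
    have hbd : IsBdry S R (fun q => ((symX Γ V q : ℤ) : (ZMod p))) := by
      have h1 : (fun q => ((symX Γ V q : ℤ) : (ZMod p))) = - β.1 := by
        funext q
        have h0q := congrFun h0 q
        simp only [Pi.add_apply, Finset.sum_apply, Pi.smul_apply, smul_eq_mul, Pi.zero_apply]
          at h0q
        have h3 : ∑ i, (n i : (ZMod p)) * ((symX Γ (Vb i) q : ℤ) : (ZMod p)) = ∑ i, c i * e i q := by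
          refine Finset.sum_congr rfl (fun i _ => ?_)
          rw [hn i]
        rw [hsym q, Int.cast_sum]
        simp only [Int.cast_mul, Pi.neg_apply]
        rw [h3]
        linear_combination h0q
      rw [h1]
      exact mem_bdrySub.mp (neg_mem β.2)
    have hdvd : ∀ γ : Γ, (p : ℤ) ∣ y (Additive.ofMul γ) :=
      dvd_of_isBdry_symX hneg p hV hVb' hbd
    obtain ⟨v, hv⟩ := exists_eq_zsmul_of_dvd p hp.ne_zero y (fun g => hdvd (Additive.toMul g))
    have hvpar : v ∈ parabolicHoms ℤ Γ ℤ := by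
      intro γ hγ
      have h1 : y (Additive.ofMul γ) = 0 := by
        simp only [y, AddMonoidHom.finset_sum_apply, AddMonoidHom.smul_apply]
        refine Finset.sum_eq_zero (fun i _ => ?_)
        rw [(b i).2 γ hγ, smul_zero]
      have h2' := DFunLike.congr_fun hv (Additive.ofMul γ)
      rw [h1] at h2'
      have h3 : (p : ℤ) * v (Additive.ofMul γ) = 0 := h2'.symm
      rcases mul_eq_zero.mp h3 with h4 | h4
      · exact absurd h4 (by exact_mod_cast hp.ne_zero)
      · exact h4
    have hL : ∑ i, n i • b i = (p : ℤ) • (⟨v, hvpar⟩ : parabolicHoms ℤ Γ ℤ) := by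
      apply Subtype.ext
      rw [Submodule.coe_sum, Submodule.coe_smul]
      simp only [Submodule.coe_smul]
      exact hv
    have hrepr : ∀ i, n i = (p : ℤ) * b.repr ⟨v, hvpar⟩ i := by
      intro i
      have h1 := congrArg (fun z => b.repr z i) hL
      simp only [map_smul, Finsupp.smul_apply, smul_eq_mul] at h1
      rw [← h1, b.repr_sum_self]
    have hc : c = 0 := by
      funext i
      rw [← hn i, hrepr i, Int.cast_mul, Int.cast_natCast, ZMod.natCast_self, zero_mul]
      rfl
    have hβ : β = 0 := by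
      apply Subtype.ext
      rw [hc] at h0
      simpa using h0
    rw [hc, hβ]
    rfl
  have hle : LinearMap.range Ψ ≤ symSub (ZMod p) S R := by
    rintro _ ⟨⟨c, β⟩, rfl⟩
    rw [hΨ]
    refine Submodule.add_mem _ (Submodule.sum_mem _ (fun i _ => Submodule.smul_mem _ _ (he i))) ?_
    exact bdrySub_le_symSub hS hR β.2
  have hfr : finrank (ZMod p) (LinearMap.range Ψ)
      = finrank ℤ (parabolicHoms ℤ Γ ℤ) + finrank (ZMod p) (bdrySub (ZMod p) S R) := by
    rw [LinearMap.finrank_range_of_inj hΨinj, Module.finrank_prod,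
      Module.finrank_fintype_fun_eq_card,
      Module.finrank_eq_card_chooseBasisIndex ℤ (parabolicHoms ℤ Γ ℤ)]
  have hd1 := finrank_symSub_add_le h2 hR dk hdk htr
  have hd2 := finrank_invTSub_le (k := ZMod p) hR htr
  have hfin : finrank (ZMod p) (symSub (ZMod p) S R) ≤ finrank (ZMod p) (LinearMap.range Ψ) := by
    rw [hfr]
    omega
  have heq : LinearMap.range Ψ = symSub (ZMod p) S R := Submodule.eq_of_le_of_finrank_le hle hfin
  -- the symbol of `x`
  have hξ : IsSym S R (fun q => ((symX Γ U q : ℤ) : (ZMod p))) :=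
    (isSym_symX hU hUb).map (Int.castRingHom (ZMod p))
  have harea : ∀ η, IsSym S R η → area R dk (fun q => ((symX Γ U q : ℤ) : (ZMod p))) η = 0 := by
    intro η hη
    have hmem : η ∈ LinearMap.range Ψ := by rw [heq]; exact hη
    obtain ⟨⟨c, β⟩, rfl⟩ := hmem
    rw [hΨ, area_add_right, area_sum_right,
      area_eq_zero_of_isBdry_right hR dk hdk (mem_bdrySub.mp β.2) hξ, add_zero]
    refine Finset.sum_eq_zero (fun i _ => ?_)
    rw [area_smul_right]
    have h1 := H (b i).1 (b i).2 (Vb i) (hVb i) (hVbb i)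
    have h3 := map_area (Int.castRingHom (ZMod p)) R d (symX Γ U) (symX Γ (Vb i))
    have h4 : (Int.castRingHom (ZMod p)) (area R d (symX Γ U) (symX Γ (Vb i))) = 0 := by
      rw [eq_intCast]
      exact (ZMod.intCast_zmod_eq_zero_iff_dvd _ p).mpr h1
    rw [h4] at h3
    have h5 : area R dk (fun q => ((symX Γ U q : ℤ) : (ZMod p))) (e i) = 0 := h3.symm
    rw [h5, mul_zero]
  have hbdry := isBdry_of_area_eq_zero h2 S R hS hR dk hdk hξ harea
  exact dvd_of_isBdry_symX hneg p hU hUb hbdry γ

end Concrete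

end Fermat.Agent.S41.H13
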