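import Mathlib
import Fermat.Agent.S41.PerfTop_helper13
import Fermat.Agent.S41.PerfBridge_helper96

/-!
# Left non-degeneracy mod `p` of the residue pairing on the Betti lattice of `Γ₀(M)`
(helper13, (C-PERF) of S41; `hP` / `hP'` of `H71.hDual_of_pairing` for the Heisenberg route)

`nondeg_mod_p`: let `p` be an odd prime, `x : Γ₀(M) → ℤ` a parabolic character, and `(t i, h i)`
a `T`-orbit system of `SL(2, ℤ) ⧸ Γ₀(M)` (so that `π i = (t i)⁻¹ T ^ (h i) (t i)` are the cusp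
generators).  If for every parabolic `y` some Heisenberg lift `F` of `(x, y)` has residue sum
`∑ i, F (π i)` divisible by `p`, then `x = p • w` with `w` parabolic.

`nondeg_area_Gamma0` is the same statement for the area pairing of modular symbols.
-/

set_option autoImplicit false

namespace Fermat.Agent.S41.H13

open scoped MatrixGroups
open ModularCurve.Period Fermat.Agent.S21 Module CongruenceSubgroup

/-- The rank inequality in the form needed by `nondeg_core`. -/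
theorem rank_Gamma0 (M : ℕ) [NeZero M] (p : ℕ) [Fact p.Prime] [Fintype (SL(2, ℤ) ⧸ Gamma0 M)] :
    Fintype.card (SL(2, ℤ) ⧸ Gamma0 M) + 2 ≤ finrank ℤ (parabolicHoms ℤ (Gamma0 M) ℤ)
      + finrank (ZMod p) (invSub (ZMod p) (Sx (Gamma0 M)))
      + finrank (ZMod p) (invSub (ZMod p) (Rx (Gamma0 M)))
      + finrank (ZMod p) (invTSub (ZMod p) (Sx (Gamma0 M)) (Rx (Gamma0 M))) := by
  have h := H98.index_add_two_le M
  rw [invSub_Sx, invSub_Rx, invTSub_eq (Gamma0 M) (H50.neg_one_mem_Gamma0 M),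
    H50.finrank_invFun, H50.finrank_invFun, H50.finrank_invFun]
  rw [Subgroup.index_eq_card, Nat.card_eq_fintype_card] at h
  exact h

/-- Non-degeneracy mod `p` of the area pairing on the Betti lattice of `Γ₀(M)`. -/
theorem nondeg_area_Gamma0 (M : ℕ) [NeZero M] (p : ℕ) [Fact p.Prime] (hp2 : p ≠ 2)
    [Fintype (SL(2, ℤ) ⧸ Gamma0 M)] (d : SL(2, ℤ) ⧸ Gamma0 M → ℤ)
    (hd : ∀ q, Rx (Gamma0 M) q ≠ q →
      d q + d (Rx (Gamma0 M) q) + d (Rx (Gamma0 M) (Rx (Gamma0 M) q)) = 1)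
    (x : Additive (Gamma0 M) →+ ℤ) (hx : IsParabolicHom (Gamma0 M) x) (U : SL(2, ℤ) → ℤ)
    (hU : ∀ (g : SL(2, ℤ)) (γ : Gamma0 M), U (g * γ) = U g + x (Additive.ofMul γ))
    (hUb : ∀ b ∈ borel, ∀ g, U (b * g) = U g)
    (H : ∀ y : Additive (Gamma0 M) →+ ℤ, IsParabolicHom (Gamma0 M) y → ∀ V : SL(2, ℤ) → ℤ,
      (∀ (g : SL(2, ℤ)) (γ : Gamma0 M), V (g * γ) = V g + y (Additive.ofMul γ)) →
      (∀ b ∈ borel, ∀ g, V (b * g) = V g) →
      (p : ℤ) ∣ area (Rx (Gamma0 M)) d (symX (Gamma0 M) U) (symX (Gamma0 M) V)) :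
    ∃ w : Additive (Gamma0 M) →+ ℤ, IsParabolicHom (Gamma0 M) w ∧ x = (p : ℤ) • w := by
  have hp : p.Prime := Fact.out
  have hdvd : ∀ γ : Gamma0 M, (p : ℤ) ∣ x (Additive.ofMul γ) :=
    nondeg_core (H50.neg_one_mem_Gamma0 M) p hp2 (rank_Gamma0 M p) d hd x U hU hUb H
  obtain ⟨v, hv⟩ := exists_eq_zsmul_of_dvd p hp.ne_zero x (fun g => hdvd (Additive.toMul g))
  refine ⟨v, fun γ hγ => ?_, hv⟩
  have h1 := DFunLike.congr_fun hv (Additive.ofMul γ)
  rw [hx γ hγ] at h1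
  have h3 : (p : ℤ) * v (Additive.ofMul γ) = 0 := h1.symm
  rcases mul_eq_zero.mp h3 with h4 | h4
  · exact absurd h4 (by exact_mod_cast hp.ne_zero)
  · exact h4

/-- **(C-PERF)**: left non-degeneracy mod `p` of the residue pairing (Heisenberg lifts summed
over the cusp generators) on the Betti lattice of `Γ₀(M)`, for every odd prime `p`. -/
theorem nondeg_mod_p (M : ℕ) [NeZero M] (p : ℕ) [Fact p.Prime] (hp2 : p ≠ 2)
    [Fintype (SL(2, ℤ) ⧸ Gamma0 M)] {ι : Type*} [Fintype ι] (t : ι → SL(2, ℤ)) (h : ι → ℕ)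
    (hmem : ∀ i, (t i)⁻¹ * ModularGroup.T ^ h i * t i ∈ Gamma0 M)
    (hsum : ∀ f : SL(2, ℤ) ⧸ Gamma0 M → ℤ, ∑ q, f q
      = ∑ i, ∑ j ∈ Finset.range (h i),
          f ((ModularGroup.T ^ j * t i : SL(2, ℤ)) : SL(2, ℤ) ⧸ Gamma0 M))
    (x : Additive (Gamma0 M) →+ ℤ) (hx : IsParabolicHom (Gamma0 M) x)
    (H : ∀ y : Additive (Gamma0 M) →+ ℤ, IsParabolicHom (Gamma0 M) y → ∃ F : Gamma0 M → ℤ,
      (∀ g g' : Gamma0 M, F (g * g') = F g + F g'
        + x (Additive.ofMul g) * y (Additive.ofMul g')) ∧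
      (p : ℤ) ∣ ∑ i, F ⟨(t i)⁻¹ * ModularGroup.T ^ h i * t i, hmem i⟩) :
    ∃ w : Additive (Gamma0 M) →+ ℤ, IsParabolicHom (Gamma0 M) w ∧ x = (p : ℤ) • w := by
  have hneg := H50.neg_one_mem_Gamma0 M
  obtain ⟨U, hU, hUb⟩ := exists_potential (Gamma0 M) hx
  obtain ⟨d, hd⟩ := exists_weights (Rx (Gamma0 M)) (Rx_Rx_Rx (Gamma0 M) hneg)
  refine nondeg_area_Gamma0 M p hp2 d hd x hx U hU hUb (fun y hy V hV hVb => ?_)
  obtain ⟨F, hF, hFdvd⟩ := H y hy
  have hb := H96.perf_bridge hneg x y F hF U V hU (fun g => hUb _ T_mem_borel g) hV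
    (fun g => hVb _ T_mem_borel g) t h hmem hsum (symX (Gamma0 M) U) (symX (Gamma0 M) V)
    (fun g => symX_mk hU g) (fun g => symX_mk hV g) d hd
  have harea : area (Rx (Gamma0 M)) d (symX (Gamma0 M) U) (symX (Gamma0 M) V)
      = 2 * ∑ i, F ⟨(t i)⁻¹ * ModularGroup.T ^ h i * t i, hmem i⟩ := hb.symm
  rw [harea]
  exact Dvd.dvd.mul_left hFdvd 2

end Fermat.Agent.S41.H13
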