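/-
S41, node (C), route C-H: the last leaf (P4).

`H18.NondegStmt M p` (non-degeneracy mod `p` of the residue pairing on the parabolic
lattice of `Γ₀(M)`) for every odd prime `p`, by plugging helper13's landed
`H13.nondeg_mod_p` into helper18's entry point `H18.nondegStmt_of_exists_lift` with
helper18's concrete cusp system; and the resulting hypothesis-free duality statement
`H53.DualStmt` of the (G) assembly (helper96).
-/
import Mathlib
import Fermat.Agent.S41.PDTop_helper18
import Fermat.Agent.S41.PDDual_helper18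
import Fermat.Agent.S41.PerfFinal_helper13

set_option autoImplicit false

open scoped MatrixGroups
open CongruenceSubgroup ModularCurve.Period

namespace Fermat.Agent.S41.H96

/-- **(P4).** The residue pairing on the parabolic lattice of `Γ₀(M)` is non-degenerate
modulo every odd prime `p`. -/
theorem nondegStmt (M p : ℕ) [NeZero M] (hp : p.Prime) (hp2 : p ≠ 2) : H18.NondegStmt M p := by
  haveI : Fact p.Prime := ⟨hp⟩
  haveI : Fintype (SL(2, ℤ) ⧸ Gamma0 M) := Fintype.ofFinite _
  refine H18.nondegStmt_of_exists_lift (fun x hx H => ?_)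
  refine H13.nondeg_mod_p M p hp2 (H18.cuspTm (Gamma0 M)) (H18.cuspWd (Gamma0 M))
    (H18.cuspElt_mem (Gamma0 M) (H18.neg_one_mem_Gamma0 M))
    (fun f => H18.cuspIdx_sum (Gamma0 M) (H18.neg_one_mem_Gamma0 M) f) x hx (fun y hy => ?_)
  obtain ⟨F, hF, hdvd⟩ := H y hy
  exact ⟨F, hF, hdvd⟩

/-- **Route C-H closed:** the duality input `hDual` of the (G) assembly, for every index. -/
theorem dualStmt_CH {W : WeierstrassCurve ℤ} {N q p : ℕ} [NeZero N] [NeZero (N * q)]
    (hN : 0 < N) (hq : q.Prime) (hqN : ¬ q ∣ N) (hp : p.Prime) (hp2 : p ≠ 2)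
    (i : H53.Idx W N q p) : H53.DualStmt W p hq hqN i :=
  H18.dualStmt_of_nondeg hN hq hqN hp hp2 (nondegStmt N p hp hp2)
    (nondegStmt (N * q) p hp hp2) i

end Fermat.Agent.S41.H96
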