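import Mathlib
import Fermat.Agent.S41.CuspConj_helper20
import Fermat.Agent.S41.PDLift_helper37

/-!
# S41 (C): the integral residue pairing `pdInt` with (T1) and (T2) (helper20)

For `Γ ≤ SL(2, ℤ)` of finite index with `-1 ∈ Γ` and `φ ψ : Additive Γ →+ ℤ`:

* `pdInt Γ hneg φ ψ : ℤ` := the common value of `∑ c, F (H18.cuspPi Γ hneg c)` over all Heisenberg
  lifts `F` of `(φ, ψ)` (`pdInt_eq`);
* `pdInt_add_left`, `pdInt_add_right`, `pdHom` (bi-additivity), `pdInt_swap` (antisymmetry);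
* `pdInt_cores` = (T1): `pd_Γ(φ, cores ψ') = pd_Γ'(res φ, ψ')` for transfer data of `Γ' ≤ Γ`;
  `pdInt_cores_left` the same with `cores` in the first slot;
* `pdInt_conj` = (T2): invariance under isomorphisms preserving positive parabolic elements.
-/

set_option autoImplicit false

namespace Fermat.Agent.S41.H20

open Matrix ModularGroup Matrix.SpecialLinearGroup Additive
open scoped MatrixGroups
open Finset

section basic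

variable (Γ : Subgroup SL(2, ℤ)) [Fintype (SL(2, ℤ) ⧸ Γ)] [DecidableEq (SL(2, ℤ) ⧸ Γ)]

/-- The residue pairing `pd_Γ(φ, ψ) = ∑_c F(π_c)`, `F` any Heisenberg lift of `(φ, ψ)`. -/
noncomputable def pdInt (hneg : (-1 : SL(2, ℤ)) ∈ Γ) (φ ψ : Additive Γ →+ ℤ) : ℤ :=
  ∑ c, Classical.choose (H37.exists_isHLift_int Γ hneg φ ψ) (H18.cuspPi Γ hneg c)

theorem pdInt_eq (hneg : (-1 : SL(2, ℤ)) ∈ Γ) {φ ψ : Additive Γ →+ ℤ} {F : Γ → ℤ}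
    (hF : H95.IsHLift φ ψ F) : pdInt Γ hneg φ ψ = ∑ c, F (H18.cuspPi Γ hneg c) :=
  H18.sum_cuspPi_eq Γ hneg (fun a h => by omega) (fun a h => by omega)
    (Classical.choose_spec (H37.exists_isHLift_int Γ hneg φ ψ)) hF

theorem pdInt_add_left (hneg : (-1 : SL(2, ℤ)) ∈ Γ) (φ φ' ψ : Additive Γ →+ ℤ) :
    pdInt Γ hneg (φ + φ') ψ = pdInt Γ hneg φ ψ + pdInt Γ hneg φ' ψ := by
  obtain ⟨F, hF⟩ := H37.exists_isHLift_int Γ hneg φ ψ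
  obtain ⟨F', hF'⟩ := H37.exists_isHLift_int Γ hneg φ' ψ
  rw [pdInt_eq Γ hneg (hF.add_left hF'), pdInt_eq Γ hneg hF, pdInt_eq Γ hneg hF',
    ← Finset.sum_add_distrib]
  rfl

theorem pdInt_add_right (hneg : (-1 : SL(2, ℤ)) ∈ Γ) (φ ψ ψ' : Additive Γ →+ ℤ) :
    pdInt Γ hneg φ (ψ + ψ') = pdInt Γ hneg φ ψ + pdInt Γ hneg φ ψ' := by
  obtain ⟨F, hF⟩ := H37.exists_isHLift_int Γ hneg φ ψ
  obtain ⟨F', hF'⟩ := H37.exists_isHLift_int Γ hneg φ ψ'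
  rw [pdInt_eq Γ hneg (hF.add_right hF'), pdInt_eq Γ hneg hF, pdInt_eq Γ hneg hF',
    ← Finset.sum_add_distrib]
  rfl

/-- The residue pairing as a bi-additive map. -/
noncomputable def pdHom (hneg : (-1 : SL(2, ℤ)) ∈ Γ) :
    (Additive Γ →+ ℤ) →+ (Additive Γ →+ ℤ) →+ ℤ :=
  AddMonoidHom.mk' (fun φ => AddMonoidHom.mk' (fun ψ => pdInt Γ hneg φ ψ)
    (fun ψ ψ' => pdInt_add_right Γ hneg φ ψ ψ'))
    (fun φ φ' => by
      ext ψ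
      exact pdInt_add_left Γ hneg φ φ' ψ)

@[simp] theorem pdHom_apply (hneg : (-1 : SL(2, ℤ)) ∈ Γ) (φ ψ : Additive Γ →+ ℤ) :
    pdHom Γ hneg φ ψ = pdInt Γ hneg φ ψ := rfl

/-- If `F` is a lift of `(φ, ψ)` then `g ↦ φ g * ψ g - F g` is a lift of `(ψ, φ)`. -/
theorem isHLift_swap {G : Type*} [Group G] {φ ψ : Additive G →+ ℤ} {F : G → ℤ}
    (hF : H95.IsHLift φ ψ F) :
    H95.IsHLift ψ φ (fun g => φ (ofMul g) * ψ (ofMul g) - F g) := by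
  intro g h
  simp only [ofMul_mul, map_add, hF g h]
  ring

/-- Antisymmetry of the residue pairing (one character killing the cusp elements suffices). -/
theorem pdInt_swap (hneg : (-1 : SL(2, ℤ)) ∈ Γ) {φ ψ : Additive Γ →+ ℤ}
    (hφ : ∀ c, φ (ofMul (H18.cuspPi Γ hneg c)) = 0) :
    pdInt Γ hneg ψ φ = - pdInt Γ hneg φ ψ := by
  obtain ⟨F, hF⟩ := H37.exists_isHLift_int Γ hneg φ ψ
  rw [pdInt_eq Γ hneg (isHLift_swap hF), pdInt_eq Γ hneg hF, ← Finset.sum_neg_distrib]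
  refine Finset.sum_congr rfl (fun c _ => ?_)
  rw [hφ c]
  ring

end basic

section T1

variable {Γ Γ' : Subgroup SL(2, ℤ)}
  [Fintype (SL(2, ℤ) ⧸ Γ)] [DecidableEq (SL(2, ℤ) ⧸ Γ)]
  [Fintype (SL(2, ℤ) ⧸ Γ')] [DecidableEq (SL(2, ℤ) ⧸ Γ')]

/-- **(T1)**: `pd_Γ(φ, cores ψ') = pd_Γ'(res φ, ψ')`, for transfer data of the inclusion
`Γ' ≤ Γ`; `χ` is the corestriction of `ψ'` (`hχ`). -/
theorem pdInt_cores (hle : Γ' ≤ Γ) (hneg : (-1 : SL(2, ℤ)) ∈ Γ')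
    {X : Type*} [Fintype X] [Nonempty X] {al : X → Γ} {sig : Γ → Equiv.Perm X}
    {g' : Γ → X → Γ'} (h : H17.IsTransferData (Subgroup.inclusion hle) al sig g')
    (φ χ : Additive Γ →+ ℤ) (ψ' : Additive Γ' →+ ℤ)
    (hχ : ∀ γ : Γ, χ (ofMul γ) = ∑ x, ψ' (ofMul (g' γ x)))
    (hφ : ∀ ρ : Γ, PosPar (ρ : SL(2, ℤ)) → φ (ofMul ρ) = 0)
    (hψ' : ∀ ρ : Γ', PosPar (ρ : SL(2, ℤ)) → ψ' (ofMul ρ) = 0) :
    pdInt Γ (hle hneg) φ χ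
      = pdInt Γ' hneg (φ.comp (MonoidHom.toAdditive (Subgroup.inclusion hle))) ψ' := by
  obtain ⟨F', hF'⟩ := H37.exists_isHLift_int Γ' hneg
    (φ.comp (MonoidHom.toAdditive (Subgroup.inclusion hle))) ψ'
  have hF'17 : H17.IsHLift (φ.comp (MonoidHom.toAdditive (Subgroup.inclusion hle))) ψ' F' :=
    fun g k => hF' g k
  have hlift : H17.IsHLift φ χ (H17.coresLift al g' φ ψ' F') :=
    H17.isHLift_coresLift h φ _ ψ' χ (fun a => rfl) hχ hF'17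
  have hlift95 : H95.IsHLift φ χ (H17.coresLift al g' φ ψ' F') := fun g k => hlift g k
  rw [pdInt_eq Γ (hle hneg) hlift95, pdInt_eq Γ' hneg hF']
  exact residue_cores_eq_cuspPi hle hneg h φ _ ψ' (fun a => rfl) hF'17
    (fun c => hφ _ ((isClassReps_cuspPi Γ (hle hneg)).1 c).1)
    (fun c' => hψ' _ ((isClassReps_cuspPi Γ' hneg).1 c').1)

/-- (T1) with the corestriction in the first slot: `pd_Γ(cores ψ', φ) = pd_Γ'(ψ', res φ)`. -/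
theorem pdInt_cores_left (hle : Γ' ≤ Γ) (hneg : (-1 : SL(2, ℤ)) ∈ Γ')
    {X : Type*} [Fintype X] [Nonempty X] {al : X → Γ} {sig : Γ → Equiv.Perm X}
    {g' : Γ → X → Γ'} (h : H17.IsTransferData (Subgroup.inclusion hle) al sig g')
    (φ χ : Additive Γ →+ ℤ) (ψ' : Additive Γ' →+ ℤ)
    (hχ : ∀ γ : Γ, χ (ofMul γ) = ∑ x, ψ' (ofMul (g' γ x)))
    (hφ : ∀ ρ : Γ, PosPar (ρ : SL(2, ℤ)) → φ (ofMul ρ) = 0)
    (hψ' : ∀ ρ : Γ', PosPar (ρ : SL(2, ℤ)) → ψ' (ofMul ρ) = 0) :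
    pdInt Γ (hle hneg) χ φ
      = pdInt Γ' hneg ψ' (φ.comp (MonoidHom.toAdditive (Subgroup.inclusion hle))) := by
  rw [pdInt_swap Γ (hle hneg) (φ := φ) (ψ := χ)
      (fun c => hφ _ ((isClassReps_cuspPi Γ (hle hneg)).1 c).1),
    pdInt_cores hle hneg h φ χ ψ' hχ hφ hψ',
    pdInt_swap Γ' hneg (φ := φ.comp (MonoidHom.toAdditive (Subgroup.inclusion hle))) (ψ := ψ')
      (fun c' => hφ _ ((isClassReps_cuspPi Γ' hneg).1 c').1)]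

end T1

section T2

variable {Γ₁ Γ₂ : Subgroup SL(2, ℤ)}
  [Fintype (SL(2, ℤ) ⧸ Γ₁)] [DecidableEq (SL(2, ℤ) ⧸ Γ₁)]
  [Fintype (SL(2, ℤ) ⧸ Γ₂)] [DecidableEq (SL(2, ℤ) ⧸ Γ₂)]

/-- **(T2)**: the residue pairing is invariant under isomorphisms preserving positive parabolic
elements (e.g. conjugation by a matrix of positive determinant, `posPar_iff_of_conj_GL`). -/
theorem pdInt_conj (hneg₁ : (-1 : SL(2, ℤ)) ∈ Γ₁) (hneg₂ : (-1 : SL(2, ℤ)) ∈ Γ₂)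
    (θ : Γ₁ ≃* Γ₂)
    (hθ : ∀ ρ : Γ₁, PosPar (ρ : SL(2, ℤ)) ↔ PosPar ((θ ρ : Γ₂) : SL(2, ℤ)))
    (φ ψ : Additive Γ₂ →+ ℤ)
    (hφ : ∀ ρ : Γ₂, PosPar (ρ : SL(2, ℤ)) → φ (ofMul ρ) = 0)
    (hψ : ∀ ρ : Γ₂, PosPar (ρ : SL(2, ℤ)) → ψ (ofMul ρ) = 0) :
    pdInt Γ₁ hneg₁ (φ.comp (MonoidHom.toAdditive θ.toMonoidHom))
        (ψ.comp (MonoidHom.toAdditive θ.toMonoidHom))
      = pdInt Γ₂ hneg₂ φ ψ := by
  obtain ⟨F, hF⟩ := H37.exists_isHLift_int Γ₂ hneg₂ φ ψ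
  obtain ⟨F₁, hF₁⟩ := H37.exists_isHLift_int Γ₁ hneg₁
    (φ.comp (MonoidHom.toAdditive θ.toMonoidHom)) (ψ.comp (MonoidHom.toAdditive θ.toMonoidHom))
  rw [pdInt_eq Γ₁ hneg₁ hF₁, pdInt_eq Γ₂ hneg₂ hF]
  exact sum_cuspPi_lift_congr hneg₁ hneg₂ θ hθ (fun a h => by omega) (fun a h => by omega)
    hF hφ hψ hF₁

end T2

end Fermat.Agent.S41.H20
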