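import Mathlib
import Fermat.Agent.S41.PDRes_helper95
import Fermat.Prelude.Def_ModularCurve_PeriodMap

/-!
# S41, node (C-PRIM), part 1 (helper51): potentials and the factor-2 bridge

`G = SL(2, ℤ)`, `Γ ≤ G`, characters `φ ψ : Additive Γ →+ ℤ`, `R = T * S`.

* `IsPrim Γ φ h P` : `P (g * γ) = P g + φ γ` and `P (h * g) = P g`.  Cusp potentials are
  `IsPrim Γ φ T P` (they exist for parabolic `φ`), triangle potentials are `IsPrim Γ ψ Rm Q`
  (they exist for every `ℤ`-valued `ψ`).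
* `cosetSum Γ D` : the sum of `D` over representatives of `G ⧸ Γ`; translation invariant for
  right-`Γ`-invariant `D`.
* `exists_heisPrim` : for a Heisenberg lift `F` of `(φ, ψ)` (helper95's `IsHLift`) and a
  primitive `P` of `φ` there is `FF` with `FF (g * γ) = FF g + F γ + P g * ψ γ`.
* `two_mul_cosetSum_eq_pair` : `2 * ∑_X (FF (T x) - FF x) = ∑_X (Q (S x) - Q x) * (P x - P (S x))`.
* `cosetSum_eq_sum_cusp` : `∑_X (FF (T x) - FF x) = ∑_c F (π_c)` (telescoping along `T`-orbits).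

So the residue pairing `∑_c F (π_c)` of helper95's design is `1/2` of the elementary pairing
`∑_X e_ψ * f_φ`, with `e_ψ g = Q (S g) - Q g` and `f_φ g = P g - P (S g)`.
-/

set_option autoImplicit false

namespace Fermat.Agent.S41.H51

open Matrix MatrixGroups ModularGroup Finset

/-- `R = T S`, of order `6` (`R ^ 3 = -1`). -/
def Rm : SL(2, ℤ) := T * S

theorem S_mul_S : (S : SL(2, ℤ)) * S = -1 := by
  ext i j; fin_cases i <;> fin_cases j <;> simp [coe_S, Matrix.mul_apply, Fin.sum_univ_two]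

theorem Rm_cube : Rm * Rm * Rm = -1 := by
  ext i j; fin_cases i <;> fin_cases j <;>
    simp [Rm, coe_S, coe_T, Matrix.mul_apply, Fin.sum_univ_two]

theorem T_eq_Rm_mul : (T : SL(2, ℤ)) = Rm * S⁻¹ := by
  simp [Rm]

theorem Sinv_eq : (S : SL(2, ℤ))⁻¹ = -S := by
  rw [inv_eq_iff_mul_eq_one, mul_neg, S_mul_S, neg_neg]

theorem Sinv_mul_Sinv : (S : SL(2, ℤ))⁻¹ * S⁻¹ = -1 := by
  rw [Sinv_eq, neg_mul_neg, S_mul_S]

theorem Rm_pow_six : Rm ^ 6 = 1 := by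
  have h : Rm ^ 6 = (Rm * Rm * Rm) * (Rm * Rm * Rm) := by
    simp [pow_succ, mul_assoc]
  rw [h, Rm_cube]; simp

/-- Right-`Γ`-equivariant primitive of `φ` on `SL(2, ℤ)`, invariant under left multiplication
by `h`. -/
structure IsPrim (Γ : Subgroup SL(2, ℤ)) (φ : Additive Γ →+ ℤ) (h : SL(2, ℤ))
    (P : SL(2, ℤ) → ℤ) : Prop where
  eqv : ∀ (g : SL(2, ℤ)) (γ : Γ), P (g * γ) = P g + φ (Additive.ofMul γ)
  inv : ∀ g : SL(2, ℤ), P (h * g) = P g

/-- The orbit relation of `⟨h⟩ × Γ` acting on `SL(2, ℤ)` by `g ↦ h ^ n * g * γ`. -/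
def primSetoid (Γ : Subgroup SL(2, ℤ)) (h : SL(2, ℤ)) : Setoid SL(2, ℤ) where
  r g g' := ∃ (n : ℤ) (γ : Γ), g' = h ^ n * g * γ
  iseqv := by
    refine ⟨fun g => ⟨0, 1, by simp⟩, ?_, ?_⟩
    · rintro g g' ⟨n, γ, rfl⟩
      refine ⟨-n, γ⁻¹, ?_⟩
      simp [mul_assoc]
    · rintro g g' g'' ⟨n, γ, rfl⟩ ⟨m, δ, rfl⟩
      refine ⟨m + n, γ * δ, ?_⟩
      simp [_root_.zpow_add, mul_assoc]

theorem exists_isPrim (Γ : Subgroup SL(2, ℤ)) (φ : Additive Γ →+ ℤ) (h : SL(2, ℤ))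
    (hφ : ∀ (γ : Γ) (g : SL(2, ℤ)) (n : ℤ), h ^ n * g * γ = g → φ (Additive.ofMul γ) = 0) :
    ∃ P : SL(2, ℤ) → ℤ, IsPrim Γ φ h P := by
  classical
  let s := primSetoid Γ h
  let rep : SL(2, ℤ) → SL(2, ℤ) := fun g => (Quotient.mk s g).out
  have hrep : ∀ g, ∃ (n : ℤ) (γ : Γ), g = h ^ n * rep g * γ := fun g =>
    Quotient.exact (Quotient.out_eq (Quotient.mk s g))
  let P : SL(2, ℤ) → ℤ := fun g => φ (Additive.ofMul (Classical.choose (Classical.choose_spec (hrep g))))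
  have hP : ∀ (g : SL(2, ℤ)) (n : ℤ) (γ : Γ), g = h ^ n * rep g * γ →
      P g = φ (Additive.ofMul γ) := by
    intro g n γ hg
    have h1 := Classical.choose_spec (Classical.choose_spec (hrep g))
    set n' := Classical.choose (hrep g)
    set γ' := Classical.choose (Classical.choose_spec (hrep g))
    show φ (Additive.ofMul γ') = φ (Additive.ofMul γ)
    have h2 : h ^ (n - n') * rep g * (γ * γ'⁻¹ : Γ) = rep g := by
      have h3 : h ^ n * rep g * γ = h ^ n' * rep g * γ' := hg.symm.trans h1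
      have h4 : rep g * γ = h ^ (n' - n) * rep g * γ' := by
        calc rep g * (γ : SL(2, ℤ)) = (h ^ n)⁻¹ * (h ^ n * rep g * γ) := by group
          _ = (h ^ n)⁻¹ * (h ^ n' * rep g * γ') := by rw [h3]
          _ = h ^ (n' - n) * rep g * γ' := by group
      calc h ^ (n - n') * rep g * ((γ * γ'⁻¹ : Γ) : SL(2, ℤ))
          = h ^ (n - n') * (rep g * γ) * (γ' : SL(2, ℤ))⁻¹ := by
            push_cast; simp [mul_assoc]
        _ = rep g := by
            rw [h4]; group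
    have h5 := hφ (γ * γ'⁻¹) (rep g) (n - n') h2
    have h6 : φ (Additive.ofMul (γ * γ'⁻¹)) = φ (Additive.ofMul γ) - φ (Additive.ofMul γ') := by
      rw [ofMul_mul, map_add, ofMul_inv, map_neg]; ring
    rw [h6] at h5; omega
  have hrep_eq : ∀ g g', s.r g g' → rep g = rep g' := by
    intro g g' hgg
    show (Quotient.mk s g).out = (Quotient.mk s g').out
    rw [Quotient.sound hgg]
  refine ⟨P, ⟨?_, ?_⟩⟩
  · intro g γ
    obtain ⟨n, δ, hg⟩ := hrep g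
    have hr : rep (g * γ) = rep g := (hrep_eq g (g * γ) ⟨0, γ, by simp⟩).symm
    have h1 : g * (γ : SL(2, ℤ)) = h ^ n * rep (g * γ) * ((δ * γ : Γ) : SL(2, ℤ)) := by
      rw [hr]; push_cast; rw [← mul_assoc, ← hg]
    rw [hP _ n (δ * γ) h1, hP g n δ hg, ofMul_mul, map_add]
  · intro g
    obtain ⟨n, δ, hg⟩ := hrep g
    have hr : rep (h * g) = rep g := (hrep_eq g (h * g) ⟨1, 1, by simp⟩).symm
    have h1 : h * g = h ^ (n + 1) * rep (h * g) * (δ : SL(2, ℤ)) := by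
      rw [hr]; conv_lhs => rw [hg]
      group
    rw [hP _ (n + 1) δ h1, hP g n δ hg]

/-- Triangle potentials exist for every `ℤ`-valued character. -/
theorem exists_isPrim_tree (Γ : Subgroup SL(2, ℤ)) (φ : Additive Γ →+ ℤ) :
    ∃ Q : SL(2, ℤ) → ℤ, IsPrim Γ φ Rm Q := by
  refine exists_isPrim Γ φ Rm ?_
  intro γ g n hg
  have h1 : (γ : SL(2, ℤ)) = g⁻¹ * Rm ^ (-n) * g⁻¹⁻¹ := by
    have : (γ : SL(2, ℤ)) = g⁻¹ * (Rm ^ n)⁻¹ * (Rm ^ n * g * γ) := by group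
    rw [this, hg]; group
  have h2 : (γ : SL(2, ℤ)) ^ 6 = 1 := by
    rw [h1, conj_pow, ← _root_.zpow_natCast, ← _root_.zpow_mul, mul_comm (-n) _, _root_.zpow_mul,
      _root_.zpow_natCast, Rm_pow_six]
    simp
  have h3 : γ ^ 6 = 1 := Subtype.ext (by simpa using h2)
  have h4 : (6 : ℕ) • φ (Additive.ofMul γ) = 0 := by
    rw [← map_nsmul, ← ofMul_pow, h3, ofMul_one, map_zero]
  simpa using h4

/-- Cusp potentials exist for parabolic characters. -/
theorem exists_isPrim_cusp (Γ : Subgroup SL(2, ℤ)) (φ : Additive Γ →+ ℤ)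
    (hφ : ModularCurve.Period.IsParabolicHom Γ φ) :
    ∃ P : SL(2, ℤ) → ℤ, IsPrim Γ φ T P := by
  refine exists_isPrim Γ φ T ?_
  intro γ g n hg
  apply hφ
  have h1 : (γ : SL(2, ℤ)) = g⁻¹ * (T ^ (-n) * g) := by
    have : (γ : SL(2, ℤ)) = g⁻¹ * (T ^ n)⁻¹ * (T ^ n * g * γ) := by group
    rw [this, hg]; group
  have h2 : ((γ : SL(2, ℤ)) : Matrix (Fin 2) (Fin 2) ℤ).trace = 2 := by
    rw [h1, Matrix.SpecialLinearGroup.coe_mul, Matrix.trace_mul_comm,
      ← Matrix.SpecialLinearGroup.coe_mul, mul_assoc, mul_inv_cancel, mul_one, coe_T_zpow,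
      Matrix.trace_fin_two_of]
    norm_num
  rw [h2]; norm_num


/-- Sum of a function on `SL(2, ℤ)` over the chosen representatives of `SL(2, ℤ) ⧸ Γ`
(canonical for right-`Γ`-invariant functions). -/
noncomputable def cosetSum (Γ : Subgroup SL(2, ℤ)) [Γ.FiniteIndex] (D : SL(2, ℤ) → ℤ) : ℤ :=
  letI : Fintype (SL(2, ℤ) ⧸ Γ) := Fintype.ofFinite _
  ∑ x : SL(2, ℤ) ⧸ Γ, D x.out

section cosetSum

variable (Γ : Subgroup SL(2, ℤ)) [Γ.FiniteIndex]

theorem cosetSum_congr {D D' : SL(2, ℤ) → ℤ} (h : ∀ g, D g = D' g) :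
    cosetSum Γ D = cosetSum Γ D' := by
  unfold cosetSum
  exact Finset.sum_congr rfl fun x _ => h _

theorem cosetSum_add (D D' : SL(2, ℤ) → ℤ) :
    cosetSum Γ (fun g => D g + D' g) = cosetSum Γ D + cosetSum Γ D' := by
  unfold cosetSum
  exact Finset.sum_add_distrib

theorem cosetSum_sub (D D' : SL(2, ℤ) → ℤ) :
    cosetSum Γ (fun g => D g - D' g) = cosetSum Γ D - cosetSum Γ D' := by
  unfold cosetSum
  exact Finset.sum_sub_distrib _ _

theorem cosetSum_neg (D : SL(2, ℤ) → ℤ) :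
    cosetSum Γ (fun g => - D g) = - cosetSum Γ D := by
  unfold cosetSum
  exact Finset.sum_neg_distrib _

theorem cosetSum_const_mul (c : ℤ) (D : SL(2, ℤ) → ℤ) :
    cosetSum Γ (fun g => c * D g) = c * cosetSum Γ D := by
  unfold cosetSum
  exact (Finset.mul_sum _ _ _).symm

theorem cosetSum_zero : cosetSum Γ (fun _ => 0) = 0 := by
  unfold cosetSum
  exact Finset.sum_const_zero

/-- Translation invariance of coset sums of right-`Γ`-invariant functions. -/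
theorem cosetSum_translate {D : SL(2, ℤ) → ℤ} (hD : ∀ (g : SL(2, ℤ)) (γ : Γ), D (g * γ) = D g)
    (a : SL(2, ℤ)) : cosetSum Γ (fun g => D (a * g)) = cosetSum Γ D := by
  classical
  unfold cosetSum
  let _ : Fintype (SL(2, ℤ) ⧸ Γ) := Fintype.ofFinite _
  have h1 : ∀ x : SL(2, ℤ) ⧸ Γ, D (a * x.out) = D ((a • x).out) := by
    intro x
    have h2 : (a • x) = QuotientGroup.mk (a * x.out) := by
      conv_lhs => rw [← QuotientGroup.out_eq' x]
      rfl
    obtain ⟨γ, hγ⟩ := QuotientGroup.mk_out_eq_mul Γ (a * x.out)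
    rw [h2, hγ, hD]
  calc ∑ x : SL(2, ℤ) ⧸ Γ, D (a * x.out) = ∑ x : SL(2, ℤ) ⧸ Γ, D ((a • x).out) :=
        Finset.sum_congr rfl fun x _ => h1 x
    _ = ∑ x : SL(2, ℤ) ⧸ Γ, D x.out :=
        Equiv.sum_comp (MulAction.toPerm a) (fun x : SL(2, ℤ) ⧸ Γ => D x.out)

omit [Γ.FiniteIndex] in
/-- The value of a right-invariant function at `x.out` can be computed at any representative. -/
theorem apply_out_mk {D : SL(2, ℤ) → ℤ} (hD : ∀ (g : SL(2, ℤ)) (γ : Γ), D (g * γ) = D g)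
    (g : SL(2, ℤ)) : D (QuotientGroup.mk g : SL(2, ℤ) ⧸ Γ).out = D g := by
  obtain ⟨γ, hγ⟩ := QuotientGroup.mk_out_eq_mul Γ g
  rw [hγ, hD]

end cosetSum

/-- Heisenberg primitives exist. -/
theorem exists_heisPrim (Γ : Subgroup SL(2, ℤ)) {φ ψ : Additive Γ →+ ℤ} {F : Γ → ℤ}
    (hF : H95.IsHLift φ ψ F) {P : SL(2, ℤ) → ℤ}
    (hP : ∀ (g : SL(2, ℤ)) (γ : Γ), P (g * γ) = P g + φ (Additive.ofMul γ)) :
    ∃ FF : SL(2, ℤ) → ℤ, ∀ (g : SL(2, ℤ)) (γ : Γ),
      FF (g * γ) = FF g + F γ + P g * ψ (Additive.ofMul γ) := by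
  classical
  let rep : SL(2, ℤ) → SL(2, ℤ) := fun g => (QuotientGroup.mk g : SL(2, ℤ) ⧸ Γ).out
  have hmem : ∀ g, (rep g)⁻¹ * g ∈ Γ := fun g =>
    QuotientGroup.leftRel_apply.mp (Quotient.exact (QuotientGroup.out_eq' (QuotientGroup.mk g : SL(2, ℤ) ⧸ Γ)))
  let c : SL(2, ℤ) → Γ := fun g => ⟨(rep g)⁻¹ * g, hmem g⟩
  have hc : ∀ g, g = rep g * (c g : SL(2, ℤ)) := fun g => by simp [c]
  have hrep : ∀ (g : SL(2, ℤ)) (γ : Γ), rep (g * γ) = rep g := by
    intro g γ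
    show (QuotientGroup.mk (g * γ) : SL(2, ℤ) ⧸ Γ).out = (QuotientGroup.mk g : SL(2, ℤ) ⧸ Γ).out
    congr 1
    exact (QuotientGroup.mk_mul_of_mem g γ.2)
  have hcmul : ∀ (g : SL(2, ℤ)) (γ : Γ), c (g * γ) = c g * γ := by
    intro g γ
    apply Subtype.ext
    show (rep (g * γ))⁻¹ * (g * γ) = (rep g)⁻¹ * g * γ
    rw [hrep, mul_assoc]
  refine ⟨fun g => F (c g) + P (rep g) * ψ (Additive.ofMul (c g)), ?_⟩
  intro g γ
  have hPg : P g = P (rep g) + φ (Additive.ofMul (c g)) := by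
    conv_lhs => rw [hc g]
    exact hP _ _
  show F (c (g * γ)) + P (rep (g * γ)) * ψ (Additive.ofMul (c (g * γ)))
    = F (c g) + P (rep g) * ψ (Additive.ofMul (c g)) + F γ + P g * ψ (Additive.ofMul γ)
  rw [hcmul, hrep, hF (c g) γ, ofMul_mul, map_add, hPg]
  ring


section bridge

variable (Γ : Subgroup SL(2, ℤ))

/-- The `Γ`-invariant defect `D_h(g) = FF(hg) - FF(g) - (P(hg) - P(g)) Q(g)`. -/
def defect (P Q FF : SL(2, ℤ) → ℤ) (h g : SL(2, ℤ)) : ℤ :=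
  FF (h * g) - FF g - (P (h * g) - P g) * Q g

variable {Γ}
variable {φ ψ : Additive Γ →+ ℤ} {F : Γ → ℤ} {P Q FF : SL(2, ℤ) → ℤ}

theorem defect_inv
    (hP : ∀ (g : SL(2, ℤ)) (γ : Γ), P (g * γ) = P g + φ (Additive.ofMul γ))
    (hQ : ∀ (g : SL(2, ℤ)) (γ : Γ), Q (g * γ) = Q g + ψ (Additive.ofMul γ))
    (hFF : ∀ (g : SL(2, ℤ)) (γ : Γ), FF (g * γ) = FF g + F γ + P g * ψ (Additive.ofMul γ))
    (h g : SL(2, ℤ)) (γ : Γ) : defect P Q FF h (g * γ) = defect P Q FF h g := by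
  unfold defect
  rw [← mul_assoc, hFF (h * g) γ, hFF g γ, hP (h * g) γ, hP g γ, hQ g γ]
  ring

theorem defect_mul (P Q FF : SL(2, ℤ) → ℤ) (h k g : SL(2, ℤ)) :
    defect P Q FF (h * k) g = defect P Q FF h (k * g) + defect P Q FF k g
      + (P (h * k * g) - P (k * g)) * (Q (k * g) - Q g) := by
  unfold defect
  rw [mul_assoc h k g]
  ring


/-- **The factor-2 bridge.** For a Heisenberg lift `F` of `(φ, ψ)`, a cusp potential `P` of `φ`,
a triangle potential `Q` of `ψ` and a Heisenberg primitive `FF`: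
`2 * ∑_X (FF(T x) - FF(x)) = ∑_X (Q(S x) - Q(x)) * (P(x) - P(S x))`. -/
theorem two_mul_cosetSum_eq_pair [Γ.FiniteIndex] (hneg : (-1 : SL(2, ℤ)) ∈ Γ)
    (hF : H95.IsHLift φ ψ F) (hP : IsPrim Γ φ T P) (hQ : IsPrim Γ ψ Rm Q)
    (hFF : ∀ (g : SL(2, ℤ)) (γ : Γ), FF (g * γ) = FF g + F γ + P g * ψ (Additive.ofMul γ)) :
    2 * cosetSum Γ (fun g => FF (T * g) - FF g)
      = cosetSum Γ (fun g => (Q (S * g) - Q g) * (P g - P (S * g))) := by
  have hεε : (⟨-1, hneg⟩ : Γ) * ⟨-1, hneg⟩ = 1 := Subtype.ext (by simp)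
  obtain ⟨hφε, hψε, hFε⟩ := hF.map_invol (fun a ha => by omega) hεε
  have hPneg : ∀ g, P (-g) = P g := by
    intro g
    have h := hP.eqv g ⟨-1, hneg⟩
    rw [hφε, add_zero] at h
    simpa using h
  have hQneg : ∀ g, Q (-g) = Q g := by
    intro g
    have h := hQ.eqv g ⟨-1, hneg⟩
    rw [hψε, add_zero] at h
    simpa using h
  have hFFneg : ∀ g, FF (-g) = FF g := by
    intro g
    have h := hFF g ⟨-1, hneg⟩
    rw [hψε, hFε, mul_zero, add_zero, add_zero] at h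
    simpa using h
  have hΔinv : ∀ (h g : SL(2, ℤ)) (γ : Γ), defect P Q FF h (g * γ) = defect P Q FF h g :=
    defect_inv hP.eqv hQ.eqv hFF
  have hΔneg : ∀ g, defect P Q FF (-1) g = 0 := by
    intro g
    unfold defect
    rw [neg_one_mul, hFFneg, hPneg]; ring
  have hR : ∀ g, defect P Q FF Rm g + defect P Q FF Rm (Rm * g)
      + defect P Q FF Rm (Rm * Rm * g) = 0 := by
    intro g
    have e1 := defect_mul P Q FF Rm Rm g
    have e2 := defect_mul P Q FF Rm (Rm * Rm) g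
    have hq1 : Q (Rm * g) = Q g := hQ.inv g
    have hq2 : Q (Rm * Rm * g) = Q g := by rw [mul_assoc, hQ.inv, hQ.inv]
    have h3 : Rm * (Rm * Rm) = -1 := by rw [← mul_assoc, Rm_cube]
    rw [h3, hΔneg, hq2] at e2
    rw [hq1] at e1
    linarith
  have hS : ∀ g, defect P Q FF S⁻¹ (S⁻¹ * g) + defect P Q FF S⁻¹ g
      = (P g - P (S⁻¹ * g)) * (Q g - Q (S⁻¹ * g)) := by
    intro g
    have e := defect_mul P Q FF S⁻¹ S⁻¹ g
    rw [Sinv_mul_Sinv, hΔneg, neg_one_mul, hPneg] at e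
    linarith
  have hT : ∀ g, FF (T * g) - FF g = defect P Q FF Rm (S⁻¹ * g) + defect P Q FF S⁻¹ g
      + (P g - P (S⁻¹ * g)) * (Q (S⁻¹ * g) - Q g) := by
    intro g
    have e := defect_mul P Q FF Rm S⁻¹ g
    rw [← T_eq_Rm_mul, hP.inv] at e
    have e' : defect P Q FF T g = FF (T * g) - FF g := by
      unfold defect; rw [hP.inv]; ring
    rw [← e', e]
  -- the three sums
  have hAR : cosetSum Γ (defect P Q FF Rm) = 0 := by
    have t1 : cosetSum Γ (fun g => defect P Q FF Rm (Rm * g)) = cosetSum Γ (defect P Q FF Rm) :=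
      cosetSum_translate Γ (hΔinv Rm) Rm
    have t2 : cosetSum Γ (fun g => defect P Q FF Rm (Rm * Rm * g))
        = cosetSum Γ (defect P Q FF Rm) := cosetSum_translate Γ (hΔinv Rm) (Rm * Rm)
    have t3 : cosetSum Γ (fun g => defect P Q FF Rm g + defect P Q FF Rm (Rm * g)
        + defect P Q FF Rm (Rm * Rm * g)) = 0 := by
      rw [cosetSum_congr Γ hR]; exact cosetSum_zero Γ
    rw [cosetSum_add, cosetSum_add, t1, t2] at t3
    linarith
  have hAS : 2 * cosetSum Γ (defect P Q FF S⁻¹)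
      = cosetSum Γ (fun g => (P g - P (S⁻¹ * g)) * (Q g - Q (S⁻¹ * g))) := by
    have t1 : cosetSum Γ (fun g => defect P Q FF S⁻¹ (S⁻¹ * g))
        = cosetSum Γ (defect P Q FF S⁻¹) := cosetSum_translate Γ (hΔinv S⁻¹) S⁻¹
    rw [← cosetSum_congr Γ hS, cosetSum_add, t1]; ring
  have hTsum : cosetSum Γ (fun g => FF (T * g) - FF g)
      = cosetSum Γ (defect P Q FF Rm) + cosetSum Γ (defect P Q FF S⁻¹)
        - cosetSum Γ (fun g => (P g - P (S⁻¹ * g)) * (Q g - Q (S⁻¹ * g))) := by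
    have t1 : cosetSum Γ (fun g => defect P Q FF Rm (S⁻¹ * g))
        = cosetSum Γ (defect P Q FF Rm) := cosetSum_translate Γ (hΔinv Rm) S⁻¹
    have t2 : cosetSum Γ (fun g => (P g - P (S⁻¹ * g)) * (Q (S⁻¹ * g) - Q g))
        = - cosetSum Γ (fun g => (P g - P (S⁻¹ * g)) * (Q g - Q (S⁻¹ * g))) := by
      rw [← cosetSum_neg]
      exact cosetSum_congr Γ fun g => by ring
    rw [cosetSum_congr Γ hT, cosetSum_add, cosetSum_add, t1, t2]
    ring
  have hfin : cosetSum Γ (fun g => (Q (S * g) - Q g) * (P g - P (S * g)))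
      = - cosetSum Γ (fun g => (P g - P (S⁻¹ * g)) * (Q g - Q (S⁻¹ * g))) := by
    rw [← cosetSum_neg]
    refine cosetSum_congr Γ fun g => ?_
    rw [Sinv_eq, neg_mul, hPneg, hQneg]; ring
  rw [hTsum, hfin, hAR]
  linarith


/-- Telescoping along the `T`-orbits: the coset sum of `FF(T x) - FF(x)` is the cusp sum
`∑_c F(π_c)` of the Heisenberg lift. `horb` is the decomposition of `SL(2, ℤ) ⧸ Γ` into
`T`-orbits with representatives `t i` and lengths `h i`. -/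
theorem cosetSum_eq_sum_cusp [Γ.FiniteIndex]
    (hP : IsPrim Γ φ T P)
    (hFF : ∀ (g : SL(2, ℤ)) (γ : Γ), FF (g * γ) = FF g + F γ + P g * ψ (Additive.ofMul γ))
    {ι : Type*} [Fintype ι] (t : ι → SL(2, ℤ)) (h : ι → ℕ)
    (hmem : ∀ i, (t i)⁻¹ * T ^ h i * t i ∈ Γ)
    (horb : ∀ D : SL(2, ℤ) → ℤ, (∀ (g : SL(2, ℤ)) (γ : Γ), D (g * γ) = D g) →
      cosetSum Γ D = ∑ i, ∑ k ∈ Finset.range (h i), D (T ^ k * t i))
    (hψ : ∀ i, ψ (Additive.ofMul (⟨(t i)⁻¹ * T ^ h i * t i, hmem i⟩ : Γ)) = 0) :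
    cosetSum Γ (fun g => FF (T * g) - FF g)
      = ∑ i, F ⟨(t i)⁻¹ * T ^ h i * t i, hmem i⟩ := by
  have hinv : ∀ (g : SL(2, ℤ)) (γ : Γ),
      (fun g => FF (T * g) - FF g) (g * γ) = (fun g => FF (T * g) - FF g) g := by
    intro g γ
    show FF (T * (g * γ)) - FF (g * γ) = FF (T * g) - FF g
    rw [← mul_assoc, hFF (T * g) γ, hFF g γ, hP.inv]; ring
  rw [horb _ hinv]
  refine Finset.sum_congr rfl fun i _ => ?_
  have htel : ∑ k ∈ Finset.range (h i), (FF (T * (T ^ k * t i)) - FF (T ^ k * t i))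
      = FF (T ^ h i * t i) - FF (t i) := by
    have h1 : ∀ k : ℕ, T * (T ^ k * t i) = T ^ (k + 1) * t i := by
      intro k; rw [← mul_assoc, ← pow_succ']
    simp_rw [h1]
    rw [Finset.sum_range_sub (fun k => FF (T ^ k * t i)) (h i)]
    simp
  rw [htel]
  have h2 : T ^ h i * t i = t i * ((⟨(t i)⁻¹ * T ^ h i * t i, hmem i⟩ : Γ) : SL(2, ℤ)) := by
    simp [mul_assoc]
  rw [h2, hFF, hψ i]; ring

end bridge

end Fermat.Agent.S41.H51
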