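import Mathlib
import Fermat.Agent.S41.PDPrim_helper51
import Fermat.Agent.S41.SL2Pres_helper44
import Fermat.Agent.S41.GraphSat_helper41
import Fermat.Agent.S21.Parabolic_helper23

/-!
# S41, node (C-PRIM), part 2 (helper51): perfectness of the residue pairing mod an odd prime

Notation of `PDPrim_helper51`: `G = SL(2, ℤ)`, `Γ ≤ G` of finite index with `-1 ∈ Γ`,
`X = G ⧸ Γ`, `R = T * S`.

* `const_of_left_inv` : a function on `G` invariant under left multiplication by `S` and `T` is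
  constant.
* `exists_tree_potential` (**tree lemma**, from helper44's presentation of `SL(2, ℤ)`): every
  `S`-antisymmetric `e : G → ℤ` is `e g = E (S g) - E g` for an `R`-invariant `E`.
* `exists_char_of_edge`, `isParabolicHom_of_edge` : a `Γ`-invariant `S`-antisymmetric edge
  function `e` is the edge function of a triangle potential of a character `ψ_e` of `Γ`, which is
  parabolic when the `T`-orbit sums of `e` vanish.
* `exists_decomp_of_orth` (**duality**): a `Γ`-invariant `f` orthogonal mod `p` to all such `e`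
  lies in `V^S + V^T + p V` (`V = ℤ^X`; uses helper41's saturation lemma and freeness of the
  torsion-free quotient `V ⧸ (V^S + V^T)`).
* `dvd_of_lifts`, `perfect_of_lifts` : if for every parabolic `ψ` some Heisenberg lift `F` of
  `(φ, ψ)` has `p ∣ ∑_c F (π_c)`, then `φ ≡ 0 mod p`, i.e. `φ = p • φ'` with `φ'` parabolic.
  This is the left non-degeneracy mod `p` (`p` odd, `p = 3` included) of the residue pairing.
-/

set_option autoImplicit false

namespace Fermat.Agent.S41.H51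

open Matrix MatrixGroups ModularGroup Finset

/-- A function on `SL(2, ℤ)` invariant under left multiplication by `S` and `T` is constant. -/
theorem const_of_left_inv {α : Type*} (u : SL(2, ℤ) → α) (hS : ∀ g, u (S * g) = u g)
    (hT : ∀ g, u (T * g) = u g) (g : SL(2, ℤ)) : u g = u 1 := by
  have key : ∀ w : SL(2, ℤ), ∀ g, u (w * g) = u g := by
    intro w
    have hw : w ∈ Subgroup.closure ({S, T} : Set SL(2, ℤ)) := by
      rw [_root_.SpecialLinearGroup.SL2Z_generators]; trivial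
    induction hw using Subgroup.closure_induction with
    | mem x hx =>
      rcases hx with rfl | rfl
      · exact hS
      · exact hT
    | one => intro g; rw [one_mul]
    | mul x y _ _ hx hy => intro g; rw [mul_assoc, hx, hy]
    | inv x _ hx => intro g; rw [← hx (x⁻¹ * g), mul_inv_cancel_left]
  simpa using key g 1

/-! ### The tree lemma -/

/-- `σ (g, a) = (S g, a + e g)`. -/
def sigmaPerm (e : SL(2, ℤ) → ℤ) : Equiv.Perm (SL(2, ℤ) × ℤ) where
  toFun z := (S * z.1, z.2 + e z.1)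
  invFun z := (S⁻¹ * z.1, z.2 - e (S⁻¹ * z.1))
  left_inv z := by simp
  right_inv z := by simp

/-- `ρ (g, a) = (R g, a)`. -/
def rhoPerm : Equiv.Perm (SL(2, ℤ) × ℤ) where
  toFun z := (Rm * z.1, z.2)
  invFun z := (Rm⁻¹ * z.1, z.2)
  left_inv z := by simp
  right_inv z := by simp

/-- `ν (g, a) = (-g, a)`. -/
def nuPerm : Equiv.Perm (SL(2, ℤ) × ℤ) where
  toFun z := (-z.1, z.2)
  invFun z := (-z.1, z.2)
  left_inv z := by simp
  right_inv z := by simp

theorem sigmaPerm_sq (e : SL(2, ℤ) → ℤ) (he : ∀ g, e (S * g) = - e g) :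
    sigmaPerm e ^ 2 = nuPerm := by
  ext z
  · show ((S * (S * z.1) : SL(2, ℤ)) : Matrix (Fin 2) (Fin 2) ℤ) _ _ = ((-z.1 : SL(2, ℤ)) : Matrix (Fin 2) (Fin 2) ℤ) _ _
    rw [← mul_assoc, S_mul_S, neg_one_mul]
  · show z.2 + e z.1 + e (S * z.1) = z.2
    rw [he]; ring

theorem rhoPerm_cube : rhoPerm ^ 3 = nuPerm := by
  ext z
  · show ((Rm * (Rm * (Rm * z.1)) : SL(2, ℤ)) : Matrix (Fin 2) (Fin 2) ℤ) _ _ = ((-z.1 : SL(2, ℤ)) : Matrix (Fin 2) (Fin 2) ℤ) _ _
    rw [← mul_assoc, ← mul_assoc, Rm_cube, neg_one_mul]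
  · rfl

theorem nuPerm_sq : nuPerm ^ 2 = 1 := by
  ext z
  · show ((- -z.1 : SL(2, ℤ)) : Matrix (Fin 2) (Fin 2) ℤ) _ _ = _
    rw [neg_neg]; rfl
  · rfl

/-- **The tree lemma.** Every `S`-antisymmetric function on `SL(2, ℤ)` is the `S`-coboundary of
an `R`-invariant function. -/
theorem exists_tree_potential (e : SL(2, ℤ) → ℤ) (he : ∀ g, e (S * g) = - e g) :
    ∃ E : SL(2, ℤ) → ℤ, (∀ g, E (Rm * g) = E g) ∧ ∀ g, E (S * g) - E g = e g := by
  set σ := sigmaPerm e with hσ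
  set τ : Equiv.Perm (SL(2, ℤ) × ℤ) := rhoPerm * σ⁻¹ with hτ
  have hs : σ ^ 4 = 1 := by
    have : σ ^ 4 = (σ ^ 2) ^ 2 := by rw [← pow_mul]
    rw [this, sigmaPerm_sq e he, nuPerm_sq]
  have hst : (σ * τ) ^ 3 = σ ^ 2 := by
    have h1 : σ * τ = σ * rhoPerm * σ⁻¹ := by rw [hτ, mul_assoc]
    have h2 : nuPerm = σ ^ 2 := (sigmaPerm_sq e he).symm
    rw [h1, conj_pow, rhoPerm_cube, h2]
    group
  set Φ := H44.sl2Lift σ τ hs hst with hΦ
  have hΦS : Φ S = σ := H44.sl2Lift_S σ τ hs hst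
  have hΦT : Φ T = τ := H44.sl2Lift_T σ τ hs hst
  have hfst : ∀ (w : SL(2, ℤ)) (z : SL(2, ℤ) × ℤ), (Φ w z).1 = w * z.1 := by
    intro w
    have hw : w ∈ Subgroup.closure ({S, T} : Set SL(2, ℤ)) := by
      rw [_root_.SpecialLinearGroup.SL2Z_generators]; trivial
    induction hw using Subgroup.closure_induction with
    | mem x hx =>
      rcases hx with rfl | rfl
      · intro z; rw [hΦS]; rfl
      · intro z; rw [hΦT]
        show Rm * (S⁻¹ * z.1) = T * z.1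
        rw [← mul_assoc, ← T_eq_Rm_mul]
    | one => intro z; simp
    | mul x y _ _ hx hy => intro z; rw [map_mul, Equiv.Perm.mul_apply, hx, hy, mul_assoc]
    | inv x _ hx =>
      intro z
      have h1 := hx (Φ x⁻¹ z)
      rw [← Equiv.Perm.mul_apply, ← map_mul, mul_inv_cancel, map_one, Equiv.Perm.one_apply] at h1
      rw [h1, inv_mul_cancel_left]
  refine ⟨fun g => (Φ g (1, 0)).2, ?_, ?_⟩
  · intro g
    have hR : Φ Rm = rhoPerm := by
      show Φ (T * S) = rhoPerm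
      rw [map_mul, hΦS, hΦT, hτ]; group
    show (Φ (Rm * g) (1, 0)).2 = (Φ g (1, 0)).2
    rw [map_mul, Equiv.Perm.mul_apply, hR]; rfl
  · intro g
    show (Φ (S * g) (1, 0)).2 - (Φ g (1, 0)).2 = e g
    rw [map_mul, Equiv.Perm.mul_apply, hΦS]
    show (Φ g (1, 0)).2 + e (Φ g (1, 0)).1 - (Φ g (1, 0)).2 = e g
    rw [hfst]; simp


/-- An `R`-invariant function with `S`-coboundary `e` has `T`-coboundary `e` as well. -/
theorem tree_T_step {E e : SL(2, ℤ) → ℤ} (hR : ∀ g, E (Rm * g) = E g)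
    (hS : ∀ g, E (S * g) - E g = e g) (g : SL(2, ℤ)) : E (T * g) - E g = e g := by
  have hneg : ∀ x, E (-x) = E x := by
    intro x
    have h1 : -x = Rm * (Rm * (Rm * x)) := by
      rw [← mul_assoc, ← mul_assoc, Rm_cube, neg_one_mul]
    rw [h1, hR, hR, hR]
  have h2 : T * g = Rm * (-(S * g)) := by
    rw [T_eq_Rm_mul, Sinv_eq, mul_assoc, neg_mul]
  rw [h2, hR, hneg]
  exact hS g

/-- The character of `Γ` attached to a `Γ`-invariant `S`-antisymmetric edge function, with its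
triangle potential. -/
theorem exists_char_of_edge (Γ : Subgroup SL(2, ℤ)) (e : SL(2, ℤ) → ℤ)
    (heΓ : ∀ (g : SL(2, ℤ)) (γ : Γ), e (g * γ) = e g) (heS : ∀ g, e (S * g) = - e g) :
    ∃ (ψ : Additive Γ →+ ℤ) (E : SL(2, ℤ) → ℤ), IsPrim Γ ψ Rm E ∧ ∀ g, E (S * g) - E g = e g := by
  obtain ⟨E, hER, hES⟩ := exists_tree_potential e heS
  have hET := tree_T_step hER hES
  have hconst : ∀ (γ : Γ) (g : SL(2, ℤ)), E (g * γ) - E g = E ((1 : SL(2, ℤ)) * γ) - E 1 := by
    intro γ g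
    refine const_of_left_inv (fun g => E (g * γ) - E g) ?_ ?_ g
    · intro g
      show E (S * g * γ) - E (S * g) = E (g * γ) - E g
      have h1 := hES (g * γ)
      have h2 := hES g
      rw [← mul_assoc, heΓ] at h1
      linarith
    · intro g
      show E (T * g * γ) - E (T * g) = E (g * γ) - E g
      have h1 := hET (g * γ)
      have h2 := hET g
      rw [← mul_assoc, heΓ] at h1
      linarith
  let ψ : Additive Γ →+ ℤ := AddMonoidHom.mk'
    (fun a => E ((1 : SL(2, ℤ)) * (Additive.toMul a : Γ)) - E 1) (by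
      intro a b
      show E ((1 : SL(2, ℤ)) * ((Additive.toMul a * Additive.toMul b : Γ) : SL(2, ℤ))) - E 1
        = (E ((1 : SL(2, ℤ)) * (Additive.toMul a : Γ)) - E 1)
          + (E ((1 : SL(2, ℤ)) * (Additive.toMul b : Γ)) - E 1)
      have h1 := hconst (Additive.toMul b) ((1 : SL(2, ℤ)) * (Additive.toMul a : Γ))
      push_cast
      rw [← mul_assoc]
      linarith)
  refine ⟨ψ, E, ⟨?_, hER⟩, hES⟩
  intro g γ
  have h1 := hconst γ g
  show E (g * γ) = E g + (E ((1 : SL(2, ℤ)) * (γ : SL(2, ℤ))) - E 1)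
  linarith

/-- The character attached to an edge function with vanishing `T`-orbit sums is parabolic. -/
theorem isParabolicHom_of_edge (Γ : Subgroup SL(2, ℤ)) (hneg : (-1 : SL(2, ℤ)) ∈ Γ)
    {ψ : Additive Γ →+ ℤ} {E e : SL(2, ℤ) → ℤ} (hE : IsPrim Γ ψ Rm E)
    (hEe : ∀ g, E (S * g) - E g = e g)
    (hT : ∀ (g : SL(2, ℤ)) (n : ℕ), g⁻¹ * T ^ n * g ∈ Γ →
      ∑ k ∈ Finset.range n, e (T ^ k * g) = 0) :
    ModularCurve.Period.IsParabolicHom Γ ψ := by
  have hET := tree_T_step hE.inv hEe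
  -- the core computation
  have core : ∀ (g : SL(2, ℤ)) (n : ℕ) (γ : Γ), (γ : SL(2, ℤ)) = g⁻¹ * T ^ n * g →
      ψ (Additive.ofMul γ) = 0 := by
    intro g n γ hγ
    have hmem : g⁻¹ * T ^ n * g ∈ Γ := hγ ▸ γ.2
    have h1 : E (g * γ) = E g + ψ (Additive.ofMul γ) := hE.eqv g γ
    have h2 : g * (γ : SL(2, ℤ)) = T ^ n * g := by rw [hγ]; group
    have h3 : ∑ k ∈ Finset.range n, (E (T ^ (k + 1) * g) - E (T ^ k * g))
        = E (T ^ n * g) - E (T ^ 0 * g) :=
      Finset.sum_range_sub (fun k => E (T ^ k * g)) n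
    have h4 : ∑ k ∈ Finset.range n, (E (T ^ (k + 1) * g) - E (T ^ k * g))
        = ∑ k ∈ Finset.range n, e (T ^ k * g) := by
      refine Finset.sum_congr rfl fun k _ => ?_
      rw [pow_succ', mul_assoc]; exact hET _
    rw [h4, hT g n hmem, pow_zero, one_mul] at h3
    rw [h2] at h1
    linarith
  -- conjugates of integral powers of `T`
  have core' : ∀ (δ : SL(2, ℤ)) (m : ℤ) (γ : Γ), (γ : SL(2, ℤ)) = δ * T ^ m * δ⁻¹ →
      ψ (Additive.ofMul γ) = 0 := by
    intro δ m γ hγ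
    obtain ⟨n, rfl | rfl⟩ := Int.eq_nat_or_neg m
    · refine core δ⁻¹ n γ ?_
      rw [hγ, inv_inv, zpow_natCast]
    · have h1 : ((γ⁻¹ : Γ) : SL(2, ℤ)) = δ⁻¹⁻¹ * T ^ n * δ⁻¹ := by
        push_cast; rw [hγ, inv_inv]; group
      have h2 := core δ⁻¹ n γ⁻¹ h1
      rw [ofMul_inv, map_neg] at h2
      linarith
  intro γ hγ
  obtain ⟨δ, m, h | h⟩ := Fermat.Agent.S21.H23.exists_conj_T_zpow (γ : SL(2, ℤ)) hγ
  · exact core' δ m γ h
  · have hεε : (⟨-1, hneg⟩ : Γ) * ⟨-1, hneg⟩ = 1 := Subtype.ext (by simp)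
    have hψε : ψ (Additive.ofMul (⟨-1, hneg⟩ : Γ)) = 0 := by
      have h1 : ψ (Additive.ofMul ((⟨-1, hneg⟩ : Γ) * ⟨-1, hneg⟩)) = 0 := by
        rw [hεε]; simp
      rw [ofMul_mul, map_add] at h1
      linarith
    have h1 : ((γ * ⟨-1, hneg⟩ : Γ) : SL(2, ℤ)) = δ * T ^ m * δ⁻¹ := by
      push_cast; rw [h]; simp
    have h2 := core' δ m (γ * ⟨-1, hneg⟩) h1
    rw [ofMul_mul, map_add, hψε, add_zero] at h2
    exact h2


/-! ### Duality on `ℤ ^ (SL(2, ℤ) ⧸ Γ)` -/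

section duality

variable (Γ : Subgroup SL(2, ℤ))

/-- Functions on `SL(2, ℤ) ⧸ Γ` invariant under translation by `a`. -/
def invSub (a : SL(2, ℤ)) : Submodule ℤ ((SL(2, ℤ) ⧸ Γ) → ℤ) where
  carrier := {v | ∀ x, v (a • x) = v x}
  add_mem' := by
    intro v w hv hw x
    show v (a • x) + w (a • x) = v x + w x
    rw [hv x, hw x]
  zero_mem' := fun _ => rfl
  smul_mem' := by
    intro n v hv x
    show n • v (a • x) = n • v x
    rw [hv x]

theorem mem_invSub {a : SL(2, ℤ)} {v : (SL(2, ℤ) ⧸ Γ) → ℤ} :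
    v ∈ invSub Γ a ↔ ∀ x, v (a • x) = v x := Iff.rfl

theorem S_smul_S_smul (hneg : (-1 : SL(2, ℤ)) ∈ Γ) (x : SL(2, ℤ) ⧸ Γ) : S • S • x = x := by
  induction x using QuotientGroup.induction_on with
  | H g =>
    show ((S * (S * g) : SL(2, ℤ)) : SL(2, ℤ) ⧸ Γ) = (g : SL(2, ℤ) ⧸ Γ)
    have h1 : S * (S * g) = g * (-1) := by
      rw [← mul_assoc, S_mul_S]; simp
    rw [h1]
    exact QuotientGroup.mk_mul_of_mem g hneg

theorem sat_invSub (n : ℤ) (hn : n ≠ 0) (v : (SL(2, ℤ) ⧸ Γ) → ℤ)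
    (h : n • v ∈ invSub Γ S ⊔ invSub Γ T) : v ∈ invSub Γ S ⊔ invSub Γ T := by
  obtain ⟨s, hs, c, hc, hsc⟩ := Submodule.mem_sup.mp h
  obtain ⟨s', c', hs', hc', hv'⟩ := H41.exists_inv_add_inv_of_mul_rel
    (fun x y : SL(2, ℤ) ⧸ Γ => y = S • x) (fun x y => y = T • x) n hn v s c
    (fun x y hxy => by rw [hxy]; exact (hs x).symm)
    (fun x y hxy => by rw [hxy]; exact (hc x).symm)
    (fun x => by
      have := congrFun hsc x
      simpa using this.symm)
  refine Submodule.mem_sup.mpr ⟨s', fun x => (hs' x _ rfl).symm, c', fun x => (hc' x _ rfl).symm, ?_⟩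
  ext x
  simp [hv' x]

variable [Γ.FiniteIndex]

/-- **Duality step.** If a `Γ`-invariant `f` is orthogonal mod `p` to all `S`-antisymmetric
`Γ`-invariant edge functions with vanishing `T`-orbit sums, then `f ∈ V^S + V^T + p V`. -/
theorem exists_decomp_of_orth (hneg : (-1 : SL(2, ℤ)) ∈ Γ)
    (p : ℕ) (f : SL(2, ℤ) → ℤ) (hfΓ : ∀ (g : SL(2, ℤ)) (γ : Γ), f (g * γ) = f g)
    (horth : ∀ e : SL(2, ℤ) → ℤ, (∀ (g : SL(2, ℤ)) (γ : Γ), e (g * γ) = e g) →
      (∀ g, e (S * g) = - e g) →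
      (∀ (g : SL(2, ℤ)) (n : ℕ), g⁻¹ * T ^ n * g ∈ Γ →
        ∑ k ∈ Finset.range n, e (T ^ k * g) = 0) →
      (p : ℤ) ∣ cosetSum Γ (fun g => e g * f g)) :
    ∃ s c w : SL(2, ℤ) → ℤ, (∀ (g : SL(2, ℤ)) (γ : Γ), c (g * γ) = c g) ∧
      (∀ g, s (S * g) = s g) ∧ (∀ g, c (T * g) = c g) ∧
      ∀ g, f g = s g + c g + p * w g := by
  classical
  let _ : Fintype (SL(2, ℤ) ⧸ Γ) := Fintype.ofFinite _
  set D : Submodule ℤ ((SL(2, ℤ) ⧸ Γ) → ℤ) := invSub Γ S ⊔ invSub Γ T with hD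
  have : Module.IsTorsionFree ℤ (((SL(2, ℤ) ⧸ Γ) → ℤ) ⧸ D) := by
    refine ⟨fun r hr => ?_⟩
    intro q₁ q₂ h
    obtain ⟨v₁, rfl⟩ := D.mkQ_surjective q₁
    obtain ⟨v₂, rfl⟩ := D.mkQ_surjective q₂
    have h1 : D.mkQ (r • (v₁ - v₂)) = 0 := by
      have h' : r • D.mkQ v₁ = r • D.mkQ v₂ := h
      rw [map_smul, map_sub, smul_sub, h', sub_self]
    have h2 : r • (v₁ - v₂) ∈ D := (Submodule.Quotient.mk_eq_zero D).mp h1
    have h3 := sat_invSub Γ r hr.ne_zero (v₁ - v₂) h2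
    have h4 : D.mkQ (v₁ - v₂) = 0 := (Submodule.Quotient.mk_eq_zero D).mpr h3
    rw [map_sub, sub_eq_zero] at h4
    exact h4
  obtain ⟨n, b⟩ := Module.basisOfFiniteTypeTorsionFree' (R := ℤ)
    (M := ((SL(2, ℤ) ⧸ Γ) → ℤ) ⧸ D)
  let ind : (SL(2, ℤ) ⧸ Γ) → (SL(2, ℤ) ⧸ Γ) → ℤ := fun x y => if x = y then 1 else 0
  let μ : Fin n → ((SL(2, ℤ) ⧸ Γ) → ℤ) →ₗ[ℤ] ℤ := fun j => (b.coord j) ∘ₗ D.mkQ
  have hμ : ∀ j v, μ j v = ∑ x, v x * μ j (ind x) := by
    intro j v
    have := LinearMap.pi_apply_eq_sum_univ (μ j) v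
    simpa [smul_eq_mul] using this
  have hμD : ∀ j v, v ∈ D → μ j v = 0 := by
    intro j v hv
    show b.coord j (D.mkQ v) = 0
    have : D.mkQ v = 0 := by simpa using hv
    rw [this, map_zero]
  have hdiv : ∀ j, (p : ℤ) ∣ μ j (fun x => f x.out) := by
    intro j
    have h1 := horth (fun g => μ j (ind (QuotientGroup.mk g))) ?_ ?_ ?_
    · have h2 : cosetSum Γ (fun g => μ j (ind (QuotientGroup.mk g)) * f g)
          = μ j (fun x => f x.out) := by
        rw [hμ j (fun x => f x.out)]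
        unfold cosetSum
        refine Finset.sum_congr rfl fun x _ => ?_
        show μ j (ind (QuotientGroup.mk x.out)) * f x.out = f x.out * μ j (ind x)
        rw [QuotientGroup.out_eq', mul_comm]
      rwa [h2] at h1
    · intro g γ
      show μ j (ind (QuotientGroup.mk (g * γ))) = μ j (ind (QuotientGroup.mk g))
      rw [QuotientGroup.mk_mul_of_mem g γ.2]
    · intro g
      show μ j (ind (S • (QuotientGroup.mk g : SL(2, ℤ) ⧸ Γ))) = - μ j (ind (QuotientGroup.mk g))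
      set x : SL(2, ℤ) ⧸ Γ := QuotientGroup.mk g
      have hmem : ind x + ind (S • x) ∈ D := by
        refine Submodule.mem_sup_left ?_
        intro y
        show (if x = S • y then (1 : ℤ) else 0) + (if S • x = S • y then 1 else 0)
          = (if x = y then 1 else 0) + (if S • x = y then 1 else 0)
        have e1 : (x = S • y) ↔ (S • x = y) := by
          constructor
          · intro h; rw [h, S_smul_S_smul Γ hneg]
          · intro h; rw [← h, S_smul_S_smul Γ hneg]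
        have e2 : (S • x = S • y) ↔ (x = y) := smul_left_cancel_iff S
        simp only [e1, e2]
        ring
      have h2 := hμD j _ hmem
      rw [map_add] at h2
      linarith
    · intro g m hm
      show ∑ k ∈ Finset.range m, μ j (ind (QuotientGroup.mk (T ^ k * g))) = 0
      set x₀ : SL(2, ℤ) ⧸ Γ := QuotientGroup.mk g
      have hx₀ : T ^ m • x₀ = x₀ := by
        show ((T ^ m * g : SL(2, ℤ)) : SL(2, ℤ) ⧸ Γ) = (g : SL(2, ℤ) ⧸ Γ)
        have h1 : T ^ m * g = g * (g⁻¹ * T ^ m * g) := by group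
        rw [h1]
        exact QuotientGroup.mk_mul_of_mem g hm
      have hk : ∀ k : ℕ, (QuotientGroup.mk (T ^ k * g) : SL(2, ℤ) ⧸ Γ) = T ^ k • x₀ := fun k => rfl
      simp_rw [hk]
      rcases m with _ | m
      · simp
      · have hmem : (∑ k ∈ Finset.range (m + 1), ind (T ^ k • x₀)) ∈ D := by
          refine Submodule.mem_sup_right ?_
          intro y
          rw [Finset.sum_apply, Finset.sum_apply, Finset.sum_range_succ', Finset.sum_range_succ]
          have e1 : ∀ k : ℕ, ind (T ^ (k + 1) • x₀) (T • y) = ind (T ^ k • x₀) y := by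
            intro k
            show (if T ^ (k + 1) • x₀ = T • y then (1 : ℤ) else 0)
              = (if T ^ k • x₀ = y then 1 else 0)
            have : (T ^ (k + 1) • x₀ = T • y) ↔ (T ^ k • x₀ = y) := by
              rw [pow_succ', mul_smul]; exact smul_left_cancel_iff T
            simp only [this]
          have e2 : ind (T ^ 0 • x₀) (T • y) = ind (T ^ m • x₀) y := by
            show (if T ^ 0 • x₀ = T • y then (1 : ℤ) else 0)
              = (if T ^ m • x₀ = y then 1 else 0)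
            have : (T ^ 0 • x₀ = T • y) ↔ (T ^ m • x₀ = y) := by
              rw [pow_zero, one_smul]
              conv_lhs => rw [← hx₀, pow_succ', mul_smul]
              exact smul_left_cancel_iff T
            simp only [this]
          rw [e2]
          simp_rw [e1]
        have h2 := hμD j _ hmem
        rw [map_sum] at h2
        exact h2
  -- all coordinates of `f` modulo `D` are divisible by `p`
  choose q hq using hdiv
  have h1 : D.mkQ (fun x => f x.out) = (p : ℤ) • ∑ j, q j • b j := by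
    conv_lhs => rw [← b.sum_repr (D.mkQ (fun x => f x.out))]
    rw [Finset.smul_sum]
    refine Finset.sum_congr rfl fun j _ => ?_
    have h2 : b.repr (D.mkQ (fun x => f x.out)) j = (p : ℤ) * q j := hq j
    rw [h2, mul_smul]
  obtain ⟨wt, hwt⟩ := D.mkQ_surjective (∑ j, q j • b j)
  have h2 : (fun x : SL(2, ℤ) ⧸ Γ => f x.out) - (p : ℤ) • wt ∈ D := by
    have h3 : D.mkQ ((fun x : SL(2, ℤ) ⧸ Γ => f x.out) - (p : ℤ) • wt) = 0 := by
      rw [map_sub, map_smul, hwt, h1, sub_self]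
    exact (Submodule.Quotient.mk_eq_zero D).mp h3
  obtain ⟨st, hst, ct, hct, hsum⟩ := Submodule.mem_sup.mp h2
  refine ⟨fun g => st (QuotientGroup.mk g), fun g => ct (QuotientGroup.mk g),
    fun g => wt (QuotientGroup.mk g), ?_, ?_, ?_, ?_⟩
  · intro g γ
    show ct (QuotientGroup.mk (g * γ)) = ct (QuotientGroup.mk g)
    rw [QuotientGroup.mk_mul_of_mem g γ.2]
  · intro g
    exact hst (QuotientGroup.mk g)
  · intro g
    exact hct (QuotientGroup.mk g)
  · intro g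
    have h3 := congrFun hsum (QuotientGroup.mk g)
    have h4 : f (QuotientGroup.mk g : SL(2, ℤ) ⧸ Γ).out = f g := apply_out_mk Γ hfΓ g
    simp only [Pi.add_apply, Pi.sub_apply, Pi.smul_apply, smul_eq_mul] at h3
    rw [h4] at h3
    linarith

end duality


/-! ### Perfectness -/

section perfect

variable (Γ : Subgroup SL(2, ℤ))

/-- If the edge function `g ↦ P g - P (S g)` of a cusp potential of `φ` lies in
`V^S + V^T + p V`, then `φ ≡ 0 mod p` (`p` an odd prime). -/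
theorem dvd_of_decomp (hneg : (-1 : SL(2, ℤ)) ∈ Γ) {p : ℕ} (hp : p.Prime) (hp2 : p ≠ 2)
    {φ : Additive Γ →+ ℤ} {P : SL(2, ℤ) → ℤ} (hP : IsPrim Γ φ T P) {s c w : SL(2, ℤ) → ℤ}
    (hcΓ : ∀ (g : SL(2, ℤ)) (γ : Γ), c (g * γ) = c g) (hsS : ∀ g, s (S * g) = s g)
    (hcT : ∀ g, c (T * g) = c g) (hdec : ∀ g, P g - P (S * g) = s g + c g + p * w g)
    (γ : Γ) : (p : ℤ) ∣ φ (Additive.ofMul γ) := by
  have hεε : (⟨-1, hneg⟩ : Γ) * ⟨-1, hneg⟩ = 1 := Subtype.ext (by simp)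
  have hφε : φ (Additive.ofMul (⟨-1, hneg⟩ : Γ)) = 0 := by
    have h1 : φ (Additive.ofMul ((⟨-1, hneg⟩ : Γ) * ⟨-1, hneg⟩)) = 0 := by
      rw [hεε]; simp
    rw [ofMul_mul, map_add] at h1
    linarith
  have hPneg : ∀ g, P (-g) = P g := by
    intro g
    have h := hP.eqv g ⟨-1, hneg⟩
    rw [hφε, add_zero] at h
    simpa using h
  let u : SL(2, ℤ) → ZMod p := fun g => ((2 * P g - c g : ℤ) : ZMod p)
  have huT : ∀ g, u (T * g) = u g := by
    intro g
    show ((2 * P (T * g) - c (T * g) : ℤ) : ZMod p) = ((2 * P g - c g : ℤ) : ZMod p)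
    rw [hP.inv, hcT]
  have huS : ∀ g, u (S * g) = u g := by
    intro g
    show ((2 * P (S * g) - c (S * g) : ℤ) : ZMod p) = ((2 * P g - c g : ℤ) : ZMod p)
    have h1 := hdec g
    have h2 := hdec (S * g)
    rw [← mul_assoc, S_mul_S, neg_one_mul, hPneg, hsS] at h2
    have h3 : 2 * P (S * g) - c (S * g) = (2 * P g - c g) + p * (w (S * g) - w g) := by
      linarith
    rw [h3]
    push_cast
    simp
  have hconst := const_of_left_inv u huS huT
  have h1 : u ((1 : SL(2, ℤ)) * γ) = u 1 := hconst _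
  have h2 : ((2 * P ((1 : SL(2, ℤ)) * γ) - c ((1 : SL(2, ℤ)) * γ) : ℤ) : ZMod p)
      = ((2 * P 1 - c 1 : ℤ) : ZMod p) := h1
  rw [hP.eqv, hcΓ] at h2
  have h3 : (((2 * φ (Additive.ofMul γ) : ℤ)) : ZMod p) = 0 := by
    have h4 : 2 * φ (Additive.ofMul γ)
        = (2 * (P 1 + φ (Additive.ofMul γ)) - c 1) - (2 * P 1 - c 1) := by ring
    rw [h4, Int.cast_sub, h2, sub_self]
  have h5 : (p : ℤ) ∣ 2 * φ (Additive.ofMul γ) :=
    (ZMod.intCast_zmod_eq_zero_iff_dvd _ p).mp h3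
  rcases (Nat.prime_iff_prime_int.mp hp).dvd_or_dvd h5 with h6 | h6
  · exfalso
    have h7 : p ∣ 2 := by exact_mod_cast h6
    have h8 := (Nat.prime_dvd_prime_iff_eq hp Nat.prime_two).mp h7
    exact hp2 h8
  · exact h6

theorem trace_conj_T_pow (t : SL(2, ℤ)) (n : ℕ) :
    ((t⁻¹ * T ^ n * t : SL(2, ℤ)) : Matrix (Fin 2) (Fin 2) ℤ).trace ^ 2 = 4 := by
  have h1 : t⁻¹ * T ^ n * t = t⁻¹ * (T ^ (n : ℤ) * t) := by
    rw [zpow_natCast, mul_assoc]
  have h2 : ((t⁻¹ * T ^ n * t : SL(2, ℤ)) : Matrix (Fin 2) (Fin 2) ℤ).trace = 2 := by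
    rw [h1, Matrix.SpecialLinearGroup.coe_mul, Matrix.trace_mul_comm,
      ← Matrix.SpecialLinearGroup.coe_mul, mul_assoc, mul_inv_cancel, mul_one, coe_T_zpow,
      Matrix.trace_fin_two_of]
    norm_num
  rw [h2]; norm_num

variable [Γ.FiniteIndex]

/-- **Perfectness mod an odd prime of the residue pairing, pointwise form.** -/
theorem dvd_of_lifts (hneg : (-1 : SL(2, ℤ)) ∈ Γ) {p : ℕ} (hp : p.Prime) (hp2 : p ≠ 2)
    {ι : Type*} [Fintype ι] (t : ι → SL(2, ℤ)) (h : ι → ℕ)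
    (hmem : ∀ i, (t i)⁻¹ * T ^ h i * t i ∈ Γ)
    (horb : ∀ D : SL(2, ℤ) → ℤ, (∀ (g : SL(2, ℤ)) (γ : Γ), D (g * γ) = D g) →
      cosetSum Γ D = ∑ i, ∑ k ∈ Finset.range (h i), D (T ^ k * t i))
    (φ : Additive Γ →+ ℤ) (hφ : ModularCurve.Period.IsParabolicHom Γ φ)
    (H : ∀ ψ : Additive Γ →+ ℤ, ModularCurve.Period.IsParabolicHom Γ ψ →
      ∃ F : Γ → ℤ, H95.IsHLift φ ψ F ∧
        (p : ℤ) ∣ ∑ i, F ⟨(t i)⁻¹ * T ^ h i * t i, hmem i⟩)
    (γ : Γ) : (p : ℤ) ∣ φ (Additive.ofMul γ) := by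
  obtain ⟨P, hP⟩ := exists_isPrim_cusp Γ φ hφ
  have hfΓ : ∀ (g : SL(2, ℤ)) (γ : Γ),
      (fun g => P g - P (S * g)) (g * γ) = (fun g => P g - P (S * g)) g := by
    intro g γ
    show P (g * γ) - P (S * (g * γ)) = P g - P (S * g)
    rw [← mul_assoc, hP.eqv, hP.eqv]; ring
  have horth : ∀ e : SL(2, ℤ) → ℤ, (∀ (g : SL(2, ℤ)) (γ : Γ), e (g * γ) = e g) →
      (∀ g, e (S * g) = - e g) →
      (∀ (g : SL(2, ℤ)) (n : ℕ), g⁻¹ * T ^ n * g ∈ Γ →
        ∑ k ∈ Finset.range n, e (T ^ k * g) = 0) →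
      (p : ℤ) ∣ cosetSum Γ (fun g => e g * (fun g => P g - P (S * g)) g) := by
    intro e heΓ heS heT
    obtain ⟨ψ, E, hE, hEe⟩ := exists_char_of_edge Γ e heΓ heS
    have hψ := isParabolicHom_of_edge Γ hneg hE hEe heT
    obtain ⟨F, hF, hdvd⟩ := H ψ hψ
    obtain ⟨FF, hFF⟩ := exists_heisPrim Γ hF hP.eqv
    have b1 := two_mul_cosetSum_eq_pair hneg hF hP hE hFF
    have b2 := cosetSum_eq_sum_cusp hP hFF t h hmem horb
      (fun i => hψ _ (trace_conj_T_pow (t i) (h i)))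
    have b3 : cosetSum Γ (fun g => e g * (fun g => P g - P (S * g)) g)
        = cosetSum Γ (fun g => (E (S * g) - E g) * (P g - P (S * g))) :=
      cosetSum_congr Γ fun g => by rw [hEe]
    rw [b3, ← b1, b2]
    exact Dvd.dvd.mul_left hdvd 2
  obtain ⟨s, c, w, hcΓ, hsS, hcT, hdec⟩ :=
    exists_decomp_of_orth Γ hneg p (fun g => P g - P (S * g)) hfΓ horth
  exact dvd_of_decomp Γ hneg hp hp2 hP hcΓ hsS hcT hdec γ

/-- **Perfectness mod an odd prime of the residue pairing** (left slot, helper71's `hP`): if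
`∑_c F (π_c) ≡ 0 mod p` for a Heisenberg lift of `(φ, ψ)`, for every parabolic `ψ`, then
`φ = p • φ'` with `φ'` parabolic. -/
theorem perfect_of_lifts (hneg : (-1 : SL(2, ℤ)) ∈ Γ) {p : ℕ} (hp : p.Prime) (hp2 : p ≠ 2)
    {ι : Type*} [Fintype ι] (t : ι → SL(2, ℤ)) (h : ι → ℕ)
    (hmem : ∀ i, (t i)⁻¹ * T ^ h i * t i ∈ Γ)
    (horb : ∀ D : SL(2, ℤ) → ℤ, (∀ (g : SL(2, ℤ)) (γ : Γ), D (g * γ) = D g) →
      cosetSum Γ D = ∑ i, ∑ k ∈ Finset.range (h i), D (T ^ k * t i))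
    (φ : Additive Γ →+ ℤ) (hφ : ModularCurve.Period.IsParabolicHom Γ φ)
    (H : ∀ ψ : Additive Γ →+ ℤ, ModularCurve.Period.IsParabolicHom Γ ψ →
      ∃ F : Γ → ℤ, H95.IsHLift φ ψ F ∧
        (p : ℤ) ∣ ∑ i, F ⟨(t i)⁻¹ * T ^ h i * t i, hmem i⟩) :
    ∃ φ' : Additive Γ →+ ℤ, ModularCurve.Period.IsParabolicHom Γ φ' ∧ φ = p • φ' := by
  have hdiv := dvd_of_lifts Γ hneg hp hp2 t h hmem horb φ hφ H
  have hp0 : (p : ℤ) ≠ 0 := by exact_mod_cast hp.ne_zero
  have hdiv' : ∀ a : Additive Γ, (p : ℤ) ∣ φ a := fun a => hdiv (Additive.toMul a)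
  let φ' : Additive Γ →+ ℤ := AddMonoidHom.mk' (fun a => φ a / p) (by
    intro a b
    show φ (a + b) / (p : ℤ) = φ a / p + φ b / p
    rw [map_add, Int.add_ediv_of_dvd_left (hdiv' a)])
  have hφ' : ∀ a, φ a = p * φ' a := fun a => (Int.mul_ediv_cancel' (hdiv' a)).symm
  refine ⟨φ', ?_, ?_⟩
  · intro γ hγ
    have h1 := hφ γ hγ
    rw [hφ'] at h1
    rcases mul_eq_zero.mp h1 with h2 | h2
    · exact absurd h2 hp0
    · exact h2
  · refine AddMonoidHom.ext fun a => ?_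
    rw [hφ' a]
    simp

end perfect

end Fermat.Agent.S41.H51
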