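import Mathlib
import Fermat.Agent.S41.PDPerf_helper51
import Fermat.Agent.S41.PDSchreier_helper18

/-!
# S41, node (C-PRIM), part 3 (helper51): perfectness in helper18's cusp vocabulary

`perfect_of_lifts` of `PDPerf_helper51` instantiated with helper18's Schreier cusp data
(`H18.Cusp Γ`, `H18.cuspT`, `H18.cuspH`, `H18.cuspPi`, orbit decomposition `H18.cusp_sum_out`):
if for every parabolic `ψ` some Heisenberg lift `F` of `(φ, ψ)` has
`p ∣ ∑ c : H18.Cusp Γ, F (H18.cuspPi Γ hneg c)`, then `φ = p • φ'` with `φ'` parabolic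
(`p` an odd prime).  Also: the cusp sum of any lift is half of the elementary pairing of
potentials (`two_mul_sum_cuspPi`).
-/

set_option autoImplicit false

namespace Fermat.Agent.S41.H51

open Matrix MatrixGroups ModularGroup Finset

variable (Γ : Subgroup SL(2, ℤ)) [Γ.FiniteIndex] [Fintype (SL(2, ℤ) ⧸ Γ)]
  [DecidableEq (SL(2, ℤ) ⧸ Γ)]

/-- helper18's orbit decomposition, in the `horb` shape of `PDPrim_helper51`. -/
theorem horb_cusp (hneg : (-1 : SL(2, ℤ)) ∈ Γ) (D : SL(2, ℤ) → ℤ)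
    (hD : ∀ (g : SL(2, ℤ)) (γ : Γ), D (g * γ) = D g) :
    cosetSum Γ D = ∑ c : H18.Cusp Γ, ∑ k ∈ Finset.range (H18.cuspH Γ c),
      D (T ^ k * H18.cuspT Γ c) := by
  rw [← H18.cusp_sum_out Γ hneg D hD]
  unfold cosetSum
  exact Finset.sum_congr (by ext; simp) (fun _ _ => rfl)

/-- **The cusp sum of a Heisenberg lift is half the elementary pairing of potentials**:
`2 * ∑_c F (π_c) = ∑_X (Q (S x) - Q x) * (P x - P (S x))` for any cusp potential `P` of `φ` and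
any triangle potential `Q` of `ψ` (`ψ` parabolic). -/
theorem two_mul_sum_cuspPi (hneg : (-1 : SL(2, ℤ)) ∈ Γ) {φ ψ : Additive Γ →+ ℤ} {F : Γ → ℤ}
    (hF : H95.IsHLift φ ψ F) (hψ : ModularCurve.Period.IsParabolicHom Γ ψ)
    {P Q : SL(2, ℤ) → ℤ} (hP : IsPrim Γ φ T P) (hQ : IsPrim Γ ψ Rm Q) :
    2 * ∑ c : H18.Cusp Γ, F (H18.cuspPi Γ hneg c)
      = cosetSum Γ (fun g => (Q (S * g) - Q g) * (P g - P (S * g))) := by
  obtain ⟨FF, hFF⟩ := exists_heisPrim Γ hF hP.eqv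
  have b1 := two_mul_cosetSum_eq_pair hneg hF hP hQ hFF
  have b2 := cosetSum_eq_sum_cusp hP hFF (H18.cuspT Γ) (H18.cuspH Γ) (H18.cusp_mem Γ hneg)
    (horb_cusp Γ hneg) (fun c => hψ _ (trace_conj_T_pow (H18.cuspT Γ c) (H18.cuspH Γ c)))
  rw [← b1, b2]
  rfl

/-- **Perfectness mod an odd prime, pointwise form, helper18's cusp data.** -/
theorem dvd_of_lifts_cusp (hneg : (-1 : SL(2, ℤ)) ∈ Γ) {p : ℕ} (hp : p.Prime) (hp2 : p ≠ 2)
    (φ : Additive Γ →+ ℤ) (hφ : ModularCurve.Period.IsParabolicHom Γ φ)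
    (H : ∀ ψ : Additive Γ →+ ℤ, ModularCurve.Period.IsParabolicHom Γ ψ →
      ∃ F : Γ → ℤ, H95.IsHLift φ ψ F ∧ (p : ℤ) ∣ ∑ c : H18.Cusp Γ, F (H18.cuspPi Γ hneg c))
    (γ : Γ) : (p : ℤ) ∣ φ (Additive.ofMul γ) :=
  dvd_of_lifts Γ hneg hp hp2 (H18.cuspT Γ) (H18.cuspH Γ) (H18.cusp_mem Γ hneg)
    (horb_cusp Γ hneg) φ hφ H γ

/-- **Perfectness mod an odd prime of the residue pairing** (left slot), helper18's cusp data:
helper71's `hP` for `P x y := ∑ c, F_{x,y} (cuspPi c)`. -/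
theorem perfect_of_lifts_cusp (hneg : (-1 : SL(2, ℤ)) ∈ Γ) {p : ℕ} (hp : p.Prime) (hp2 : p ≠ 2)
    (φ : Additive Γ →+ ℤ) (hφ : ModularCurve.Period.IsParabolicHom Γ φ)
    (H : ∀ ψ : Additive Γ →+ ℤ, ModularCurve.Period.IsParabolicHom Γ ψ →
      ∃ F : Γ → ℤ, H95.IsHLift φ ψ F ∧ (p : ℤ) ∣ ∑ c : H18.Cusp Γ, F (H18.cuspPi Γ hneg c)) :
    ∃ φ' : Additive Γ →+ ℤ, ModularCurve.Period.IsParabolicHom Γ φ' ∧ φ = p • φ' :=
  perfect_of_lifts Γ hneg hp hp2 (H18.cuspT Γ) (H18.cuspH Γ) (H18.cusp_mem Γ hneg)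
    (horb_cusp Γ hneg) φ hφ H

end Fermat.Agent.S41.H51
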