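import Mathlib
import Fermat.Agent.S41.PDRes_helper95

/-!
# Two finite-sum identities for the residue expression `H95.resE`  (helper64, S41 node (C-PERF))

Setting of `H95.IsHLift.six_mul_sum_cusp`: a finite set `X` with permutations `S`, `R`
(`S² = R³ = 1`), Schreier-type data `σ ρ : X → Γ` with `σ (S x) * σ x = ε`,
`ρ (R² x) * ρ (R x) * ρ x = ε` (`ε² = 1`), the cusps being the cycles of `T = S * R`.

* `resE_eq_of_potential` (b): if `φ` kills the cusp elements and `ψ` is given on the Schreier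
  elements by `ψ (σ x) = β x + d x - d (S x)`, `ψ (ρ x) = - β (R x) + d x - d (R x)`, then
  `resE φ ψ = -3 Σ φ(σ x) β x + 4 Σ φ(ρ x) β x + 2 Σ φ(ρ (R x)) β x`; the gauge `d` drops out.
* `resE_eq_six_mul` (d): if moreover `β = m ∘ S - m` and `m (S y) - m y + n (R² y) - n y = 0`,
  then `resE φ ψ = 6 (Σ φ(σ x) m x + Σ φ(ρ x) n x)`.
* `sum_cusp_eq_of_potential`: the corresponding statement for the cusp sum of a Heisenberg lift.
-/

set_option autoImplicit false

namespace Fermat.Agent.S41.H64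

open Additive Finset Fermat.Agent.S41.H95

section residue

variable {Γ : Type*} [Group Γ] {A : Type*} [CommRing A] {X : Type*}

/-- `φ (σ (S x)) = - φ (σ x)` for Schreier data with a central-type involution `ε`. -/
theorem map_sigma_S (h2 : ∀ a : A, a + a = 0 → a = 0) (φ : Additive Γ →+ A)
    (S : Equiv.Perm X) (σ : X → Γ) {ε : Γ} (hε : ε * ε = 1) (hσ : ∀ x, σ (S x) * σ x = ε)
    (x : X) : φ (ofMul (σ (S x))) = - φ (ofMul (σ x)) := by
  have hφε : φ (ofMul ε) = 0 := by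
    apply h2
    rw [← map_add, ← ofMul_mul, hε, ofMul_one, map_zero]
  have h := congrArg (fun g => φ (ofMul g)) (hσ x)
  simp only [ofMul_mul, map_add, hφε] at h
  linear_combination h

/-- `φ (ρ (R² x)) + φ (ρ (R x)) + φ (ρ x) = 0` for Schreier data with a central-type
involution `ε`. -/
theorem map_rho_R (h2 : ∀ a : A, a + a = 0 → a = 0) (φ : Additive Γ →+ A)
    (R : Equiv.Perm X) (ρ : X → Γ) {ε : Γ} (hε : ε * ε = 1)
    (hρ : ∀ x, ρ (R (R x)) * ρ (R x) * ρ x = ε) (x : X) :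
    φ (ofMul (ρ (R (R x)))) + φ (ofMul (ρ (R x))) + φ (ofMul (ρ x)) = 0 := by
  have hφε : φ (ofMul ε) = 0 := by
    apply h2
    rw [← map_add, ← ofMul_mul, hε, ofMul_one, map_zero]
  have h := congrArg (fun g => φ (ofMul g)) (hρ x)
  simp only [ofMul_mul, map_add, hφε] at h
  exact h

/-- Telescoping of a gauge term along a `T`-orbit. -/
theorem sum_range_gauge (T : Equiv.Perm X) (d : X → A) (b : X) (k : ℕ) :
    ∑ j ∈ range k, (d ((T ^ j) b) - d (T ((T ^ j) b))) = d b - d ((T ^ k) b) := by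
  induction k with
  | zero => simp
  | succ k ih =>
    rw [Finset.sum_range_succ, ih, pow_succ', Equiv.Perm.mul_apply]
    ring

variable [Fintype X] {C : Type*} [Fintype C]

/-- **(b)** The residue expression against a character `ψ` given by "potential data" `(β, d)`
on the Schreier elements: the gauge `d` drops out as soon as `φ` kills the cusp elements. -/
theorem resE_eq_of_potential (h2 : ∀ a : A, a + a = 0 → a = 0) (φ ψ : Additive Γ →+ A)
    (S R : Equiv.Perm X) (σ ρ : X → Γ) {ε : Γ} (hε : ε * ε = 1)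
    (hσ : ∀ x, σ (S x) * σ x = ε) (hρ : ∀ x, ρ (R (R x)) * ρ (R x) * ρ x = ε)
    (hS : ∀ x, S (S x) = x)
    (base : C → X) (len : C → ℕ)
    (hsum : ∀ f : X → A, ∑ x, f x = ∑ c, ∑ k ∈ range (len c), f (((S * R) ^ k) (base c)))
    (hφc : ∀ c, φ (ofMul (cuspProd (fun x => σ (R x) * ρ x) (S * R) (base c) (len c))) = 0)
    (β d : X → A)
    (hψσ : ∀ x, ψ (ofMul (σ x)) = β x + d x - d (S x))
    (hψρ : ∀ x, ψ (ofMul (ρ x)) = - β (R x) + d x - d (R x)) :
    resE φ ψ S R σ ρ base len =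
      -3 * ∑ x, φ (ofMul (σ x)) * β x + 4 * ∑ x, φ (ofMul (ρ x)) * β x
        + 2 * ∑ x, φ (ofMul (ρ (R x))) * β x := by
  set a : X → A := fun x => φ (ofMul (σ x)) with ha
  set r : X → A := fun x => φ (ofMul (ρ x)) with hr
  have haS : ∀ x, a (S x) = - a x := fun x => map_sigma_S h2 φ S σ hε hσ x
  have hrR : ∀ x, r (R (R x)) + r (R x) + r x = 0 := fun x => map_rho_R h2 φ R ρ hε hρ x
  -- the value of `ψ` on the `T`-Schreier elements is a pure gauge term
  have hψτ : ∀ y, ψ (ofMul (σ (R y) * ρ y)) = d y - d ((S * R) y) := by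
    intro y
    rw [ofMul_mul, map_add, hψσ, hψρ, Equiv.Perm.mul_apply]
    ring
  have hφτ : ∀ y, φ (ofMul (σ (R y) * ρ y)) = a (R y) + r y := by
    intro y
    rw [ofMul_mul, map_add]
  -- the cusp term
  have hcusp : ∑ c, ∑ k ∈ range (len c),
        φ (ofMul (σ (R (((S * R) ^ k) (base c))) * ρ (((S * R) ^ k) (base c))))
          * ∑ j ∈ range k,
            ψ (ofMul (σ (R (((S * R) ^ j) (base c))) * ρ (((S * R) ^ j) (base c))))
      = - ∑ x, (a (R x) + r x) * d x := by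
    rw [hsum (fun x => (a (R x) + r x) * d x), ← Finset.sum_neg_distrib]
    refine Finset.sum_congr rfl (fun c _ => ?_)
    have h0 : ∑ k ∈ range (len c),
        φ (ofMul (σ (R (((S * R) ^ k) (base c))) * ρ (((S * R) ^ k) (base c)))) = 0 := by
      rw [← H95.map_cuspProd φ (fun x => σ (R x) * ρ x) (S * R) (base c) (len c)]
      exact hφc c
    have h1 : ∀ k, ∑ j ∈ range k,
        ψ (ofMul (σ (R (((S * R) ^ j) (base c))) * ρ (((S * R) ^ j) (base c))))
        = d (base c) - d (((S * R) ^ k) (base c)) := by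
      intro k
      rw [← sum_range_gauge (S * R) d (base c) k]
      exact Finset.sum_congr rfl (fun j _ => hψτ _)
    calc ∑ k ∈ range (len c),
          φ (ofMul (σ (R (((S * R) ^ k) (base c))) * ρ (((S * R) ^ k) (base c))))
            * ∑ j ∈ range k,
              ψ (ofMul (σ (R (((S * R) ^ j) (base c))) * ρ (((S * R) ^ j) (base c))))
        = ∑ k ∈ range (len c),
            (φ (ofMul (σ (R (((S * R) ^ k) (base c))) * ρ (((S * R) ^ k) (base c)))) * d (base c)
              - (a (R (((S * R) ^ k) (base c))) + r (((S * R) ^ k) (base c)))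
                * d (((S * R) ^ k) (base c))) := by
          refine Finset.sum_congr rfl (fun k _ => ?_)
          rw [h1 k, mul_sub, hφτ]
      _ = (∑ k ∈ range (len c),
            φ (ofMul (σ (R (((S * R) ^ k) (base c))) * ρ (((S * R) ^ k) (base c))))) * d (base c)
          - ∑ k ∈ range (len c), (a (R (((S * R) ^ k) (base c))) + r (((S * R) ^ k) (base c)))
                * d (((S * R) ^ k) (base c)) := by
          rw [Finset.sum_sub_distrib, Finset.sum_mul]
      _ = _ := by rw [h0, zero_mul, zero_sub]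
  -- reindexing identities
  have e1 : ∑ x, a x * d (S x) = - ∑ x, a x * d x := by
    rw [← Equiv.sum_comp S (fun x => a x * d (S x)), ← Finset.sum_neg_distrib]
    refine Finset.sum_congr rfl (fun x _ => ?_)
    rw [haS, hS]
    ring
  have e2 : ∑ x, a (R x) * β (R x) = ∑ x, a x * β x :=
    Equiv.sum_comp R (fun x => a x * β x)
  have e3 : ∑ x, a (R x) * d (R x) = ∑ x, a x * d x :=
    Equiv.sum_comp R (fun x => a x * d x)
  have e4 : ∑ x, r (R x) * β (R x) = ∑ x, r x * β x :=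
    Equiv.sum_comp R (fun x => r x * β x)
  have e5 : ∑ x, r (R (R x)) * β (R (R x)) = ∑ x, r x * β x := by
    rw [← e4]
    exact Equiv.sum_comp R (fun x => r (R x) * β (R x))
  have e6 : ∑ x, r (R (R x)) * β (R x) = ∑ x, r (R x) * β x :=
    Equiv.sum_comp R (fun x => r (R x) * β x)
  have e7 : ∑ x, r (R x) * d (R x) = ∑ x, r x * d x :=
    Equiv.sum_comp R (fun x => r x * d x)
  have e8 : ∑ x, r (R (R x)) * d (R (R x)) = ∑ x, r x * d x := by
    rw [← e7]
    exact Equiv.sum_comp R (fun x => r (R x) * d (R x))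
  have e9 : ∑ x, (r (R (R x)) + r (R x) + r x) * d x = 0 := by
    refine Finset.sum_eq_zero (fun x _ => ?_)
    rw [hrR, zero_mul]
  -- the four terms of `resE`
  have t1 : ∑ x, φ (ofMul (σ x)) * ψ (ofMul (σ x))
      = ∑ x, a x * β x + ∑ x, a x * d x - ∑ x, a x * d (S x) := by
    rw [← Finset.sum_add_distrib, ← Finset.sum_sub_distrib]
    refine Finset.sum_congr rfl (fun x _ => ?_)
    rw [hψσ]
    ring
  have t2 : ∑ x, (φ (ofMul (ρ (R x))) * ψ (ofMul (ρ x))
        + φ (ofMul (ρ (R (R x)))) * ψ (ofMul (ρ (R x)))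
        + φ (ofMul (ρ (R (R x)))) * ψ (ofMul (ρ x)))
      = - ∑ x, r (R x) * β (R x) - ∑ x, r (R (R x)) * β (R (R x)) - ∑ x, r (R (R x)) * β (R x)
        + ∑ x, (r (R (R x)) + r (R x) + r x) * d x - ∑ x, r x * d x
        - ∑ x, r (R x) * d (R x) - ∑ x, r (R (R x)) * d (R (R x)) := by
    simp only [← Finset.sum_add_distrib, ← Finset.sum_sub_distrib, ← Finset.sum_neg_distrib]
    refine Finset.sum_congr rfl (fun x _ => ?_)
    rw [hψρ x, hψρ (R x)]
    ring
  have t3 : ∑ x, φ (ofMul (σ (R x))) * ψ (ofMul (ρ x))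
      = - ∑ x, a (R x) * β (R x) + ∑ x, a (R x) * d x - ∑ x, a (R x) * d (R x) := by
    simp only [← Finset.sum_add_distrib, ← Finset.sum_sub_distrib, ← Finset.sum_neg_distrib]
    refine Finset.sum_congr rfl (fun x _ => ?_)
    rw [hψρ x]
    ring
  have t4 : ∑ x, (a (R x) + r x) * d x = ∑ x, a (R x) * d x + ∑ x, r x * d x := by
    rw [← Finset.sum_add_distrib]
    exact Finset.sum_congr rfl (fun x _ => by ring)
  rw [resE, hcusp, t1, t2, t3, t4]
  linear_combination (-3 : A) * e1 - 6 * e2 - 6 * e3 + 2 * e4 + 2 * e5 + 2 * e6 + 2 * e7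
    + 2 * e8 - 2 * e9

/-- **(d)** If the potential `β` is the `S`-coboundary of `m`, and `(m, n)` satisfies the
closed-walk relation `m (S y) - m y + n (R² y) - n y = 0`, the residue expression is
`6 * (Σ φ(σ x) m x + Σ φ(ρ x) n x)`. -/
theorem resE_eq_six_mul (h2 : ∀ a : A, a + a = 0 → a = 0) (φ ψ : Additive Γ →+ A)
    (S R : Equiv.Perm X) (σ ρ : X → Γ) {ε : Γ} (hε : ε * ε = 1)
    (hσ : ∀ x, σ (S x) * σ x = ε) (hρ : ∀ x, ρ (R (R x)) * ρ (R x) * ρ x = ε)
    (hS : ∀ x, S (S x) = x) (hR : ∀ x, R (R (R x)) = x)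
    (base : C → X) (len : C → ℕ)
    (hsum : ∀ f : X → A, ∑ x, f x = ∑ c, ∑ k ∈ range (len c), f (((S * R) ^ k) (base c)))
    (hφc : ∀ c, φ (ofMul (cuspProd (fun x => σ (R x) * ρ x) (S * R) (base c) (len c))) = 0)
    (β d : X → A)
    (hψσ : ∀ x, ψ (ofMul (σ x)) = β x + d x - d (S x))
    (hψρ : ∀ x, ψ (ofMul (ρ x)) = - β (R x) + d x - d (R x))
    (m n : X → A) (hβ : ∀ x, β x = m (S x) - m x)
    (hmn : ∀ y, m (S y) - m y + n (R (R y)) - n y = 0) :
    resE φ ψ S R σ ρ base len =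
      6 * (∑ x, φ (ofMul (σ x)) * m x + ∑ x, φ (ofMul (ρ x)) * n x) := by
  rw [resE_eq_of_potential h2 φ ψ S R σ ρ hε hσ hρ hS base len hsum hφc β d hψσ hψρ]
  set a : X → A := fun x => φ (ofMul (σ x)) with ha
  set r : X → A := fun x => φ (ofMul (ρ x)) with hr
  have haS : ∀ x, a (S x) = - a x := fun x => map_sigma_S h2 φ S σ hε hσ x
  have hrR : ∀ x, r (R (R x)) + r (R x) + r x = 0 := fun x => map_rho_R h2 φ R ρ hε hρ x
  have hβ' : ∀ x, β x = n x - n (R (R x)) := by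
    intro x
    rw [hβ]
    linear_combination hmn x
  have e1 : ∑ x, a x * m (S x) = - ∑ x, a x * m x := by
    rw [← Equiv.sum_comp S (fun x => a x * m (S x)), ← Finset.sum_neg_distrib]
    refine Finset.sum_congr rfl (fun x _ => ?_)
    rw [haS, hS]
    ring
  have e2 : ∑ x, r x * n (R (R x)) = ∑ x, r (R x) * n x := by
    rw [← Equiv.sum_comp R (fun x => r x * n (R (R x)))]
    exact Finset.sum_congr rfl (fun x _ => by rw [hR])
  have e3 : ∑ x, r (R x) * n (R (R x)) = ∑ x, r (R (R x)) * n x := by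
    rw [← Equiv.sum_comp R (fun x => r (R x) * n (R (R x)))]
    exact Finset.sum_congr rfl (fun x _ => by rw [hR])
  have e4 : ∑ x, (r (R (R x)) + r (R x) + r x) * n x = 0 := by
    refine Finset.sum_eq_zero (fun x _ => ?_)
    rw [hrR, zero_mul]
  have t1 : ∑ x, a x * β x = ∑ x, a x * m (S x) - ∑ x, a x * m x := by
    rw [← Finset.sum_sub_distrib]
    refine Finset.sum_congr rfl (fun x _ => ?_)
    rw [hβ]
    ring
  have t2 : ∑ x, r x * β x = ∑ x, r x * n x - ∑ x, r x * n (R (R x)) := by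
    rw [← Finset.sum_sub_distrib]
    refine Finset.sum_congr rfl (fun x _ => ?_)
    rw [hβ']
    ring
  have t3 : ∑ x, r (R x) * β x = ∑ x, r (R x) * n x - ∑ x, r (R x) * n (R (R x)) := by
    rw [← Finset.sum_sub_distrib]
    refine Finset.sum_congr rfl (fun x _ => ?_)
    rw [hβ']
    ring
  have t4 : ∑ x, (r (R (R x)) + r (R x) + r x) * n x
      = ∑ x, r (R (R x)) * n x + ∑ x, r (R x) * n x + ∑ x, r x * n x := by
    rw [← Finset.sum_add_distrib, ← Finset.sum_add_distrib]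
    exact Finset.sum_congr rfl (fun x _ => by ring)
  rw [t1, t2, t3]
  rw [t4] at e4
  linear_combination (-3 : A) * e1 - 4 * e2 - 2 * e3 - 2 * e4

/-- Variant of `resE_eq_six_mul` with the closed-walk relation written with the inverse
permutations: `m (S⁻¹ y) - m y + n (R⁻¹ y) - n y = 0`. -/
theorem resE_eq_six_mul' (h2 : ∀ a : A, a + a = 0 → a = 0) (φ ψ : Additive Γ →+ A)
    (S R : Equiv.Perm X) (σ ρ : X → Γ) {ε : Γ} (hε : ε * ε = 1)
    (hσ : ∀ x, σ (S x) * σ x = ε) (hρ : ∀ x, ρ (R (R x)) * ρ (R x) * ρ x = ε)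
    (hS : ∀ x, S (S x) = x) (hR : ∀ x, R (R (R x)) = x)
    (base : C → X) (len : C → ℕ)
    (hsum : ∀ f : X → A, ∑ x, f x = ∑ c, ∑ k ∈ range (len c), f (((S * R) ^ k) (base c)))
    (hφc : ∀ c, φ (ofMul (cuspProd (fun x => σ (R x) * ρ x) (S * R) (base c) (len c))) = 0)
    (β d : X → A)
    (hψσ : ∀ x, ψ (ofMul (σ x)) = β x + d x - d (S x))
    (hψρ : ∀ x, ψ (ofMul (ρ x)) = - β (R x) + d x - d (R x))
    (m n : X → A) (hβ : ∀ x, β x = m (S x) - m x)
    (hmn : ∀ y, m (S⁻¹ y) - m y + n (R⁻¹ y) - n y = 0) :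
    resE φ ψ S R σ ρ base len =
      6 * (∑ x, φ (ofMul (σ x)) * m x + ∑ x, φ (ofMul (ρ x)) * n x) := by
  have hSinv : ∀ y, S⁻¹ y = S y := by
    intro y
    rw [Equiv.Perm.inv_eq_iff_eq, hS]
  have hRinv : ∀ y, R⁻¹ y = R (R y) := by
    intro y
    rw [Equiv.Perm.inv_eq_iff_eq, hR]
  refine resE_eq_six_mul h2 φ ψ S R σ ρ hε hσ hρ hS hR base len hsum hφc β d hψσ hψρ m n hβ
    (fun y => ?_)
  have h := hmn y
  rwa [hSinv, hRinv] at h

end residue

section lift

variable {Γ : Type*} [Group Γ] {X : Type*} [Fintype X] {C : Type*} [Fintype C]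

/-- **(b)+(d) for a Heisenberg lift, over `ℤ`**: the cusp sum of any lift `F` of `(φ, ψ)` is
`Σ φ(σ x) m x + Σ φ(ρ x) n x`. -/
theorem sum_cusp_eq_of_potential (φ ψ : Additive Γ →+ ℤ) {F : Γ → ℤ} (hF : IsHLift φ ψ F)
    (S R : Equiv.Perm X) (σ ρ : X → Γ) {ε : Γ} (hε : ε * ε = 1)
    (hσ : ∀ x, σ (S x) * σ x = ε) (hρ : ∀ x, ρ (R (R x)) * ρ (R x) * ρ x = ε)
    (hS : ∀ x, S (S x) = x) (hR : ∀ x, R (R (R x)) = x)
    (base : C → X) (len : C → ℕ)
    (hsum : ∀ f : X → ℤ, ∑ x, f x = ∑ c, ∑ k ∈ range (len c), f (((S * R) ^ k) (base c)))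
    (hφc : ∀ c, φ (ofMul (cuspProd (fun x => σ (R x) * ρ x) (S * R) (base c) (len c))) = 0)
    (β d : X → ℤ)
    (hψσ : ∀ x, ψ (ofMul (σ x)) = β x + d x - d (S x))
    (hψρ : ∀ x, ψ (ofMul (ρ x)) = - β (R x) + d x - d (R x))
    (m n : X → ℤ) (hβ : ∀ x, β x = m (S x) - m x)
    (hmn : ∀ y, m (S y) - m y + n (R (R y)) - n y = 0) :
    ∑ c, F (cuspProd (fun x => σ (R x) * ρ x) (S * R) (base c) (len c))
      = ∑ x, φ (ofMul (σ x)) * m x + ∑ x, φ (ofMul (ρ x)) * n x := by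
  have h2 : ∀ a : ℤ, a + a = 0 → a = 0 := fun a h => by omega
  have e1 := hF.six_mul_sum_cusp h2 S R σ ρ hε hσ hρ base len hsum
  have e2 := resE_eq_six_mul h2 φ ψ S R σ ρ hε hσ hρ hS hR base len hsum hφc β d hψσ hψρ m n
    hβ hmn
  rw [e2] at e1
  exact mul_left_cancel₀ (by norm_num : (6 : ℤ) ≠ 0) e1

end lift

end Fermat.Agent.S41.H64
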