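import Mathlib
import Fermat.Agent.S41.PDPerf_helper51
import Fermat.Agent.S41.PDPair_helper18

/-!
# S41, node (C-PRIM), part 4 (helper51): perfectness mod odd `p` of helper18's pairing `pd`

`H18.pd Γ hneg φ ψ` is the residue pairing of `PDPair_helper18` (sum over the cusps of a
Heisenberg lift).  This file closes node (P4) of Route C-H, hypothesis-free, for every
finite-index `Γ ≤ SL(2, ℤ)` containing `-1` and every odd prime `p` (including `p = 3`):

* `pd_perfect_left`  : `x` parabolic, `p ∣ pd x y` for all parabolic `y` ⟹ `x = p • w`,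
  `w` parabolic;
* `pd_perfect_right` : the same in the right slot (`p ∣ pd y x` for all parabolic `y`);
* `two_mul_pd` : `2 * pd φ ψ = ∑_{G/Γ} (Q (S x) - Q x) * (P x - P (S x))` for any cusp potential
  `P` of `φ` and any triangle potential `Q` of a parabolic `ψ`.
-/

set_option autoImplicit false

namespace Fermat.Agent.S41.H51

open Matrix MatrixGroups ModularGroup Finset

variable (Γ : Subgroup SL(2, ℤ)) [Γ.FiniteIndex]

/-- helper18's orbit decomposition (instance-free cusp data), in the `horb` shape of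
`PDPrim_helper51`. -/
theorem horb_cuspIdx (hneg : (-1 : SL(2, ℤ)) ∈ Γ) (D : SL(2, ℤ) → ℤ)
    (hD : ∀ (g : SL(2, ℤ)) (γ : Γ), D (g * γ) = D g) :
    cosetSum Γ D = ∑ c : H18.CuspIdx Γ, ∑ k ∈ Finset.range (H18.cuspWd Γ c),
      D (T ^ k * H18.cuspTm Γ c) := by
  unfold cosetSum
  exact @H18.cuspIdx_sum_out Γ _ hneg (Fintype.ofFinite _) ℤ _ D hD

omit [Γ.FiniteIndex] in
/-- A parabolic character kills the positive parabolic elements. -/
theorem kills_posPar {φ : Additive Γ →+ ℤ} (hφ : ModularCurve.Period.IsParabolicHom Γ φ)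
    (t : Γ) (ht : H18.PosPar (t : SL(2, ℤ))) : φ (Additive.ofMul t) = 0 :=
  hφ t (H18.posPar_trace ht)

/-- **`2 * pd φ ψ` is the elementary pairing of potentials**: for any cusp potential `P` of `φ`
and any triangle potential `Q` of a parabolic `ψ`. -/
theorem two_mul_pd (hneg : (-1 : SL(2, ℤ)) ∈ Γ) {φ ψ : Additive Γ →+ ℤ}
    (hψ : ModularCurve.Period.IsParabolicHom Γ ψ)
    {P Q : SL(2, ℤ) → ℤ} (hP : IsPrim Γ φ T P) (hQ : IsPrim Γ ψ Rm Q) :
    2 * H18.pd Γ hneg φ ψ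
      = cosetSum Γ (fun g => (Q (S * g) - Q g) * (P g - P (S * g))) := by
  obtain ⟨F, hF, e⟩ := H18.exists_isHLift_pd Γ hneg φ ψ
  obtain ⟨FF, hFF⟩ := exists_heisPrim Γ hF hP.eqv
  have b1 := two_mul_cosetSum_eq_pair hneg hF hP hQ hFF
  have b2 := cosetSum_eq_sum_cusp hP hFF (H18.cuspTm Γ) (H18.cuspWd Γ) (H18.cuspElt_mem Γ hneg)
    (horb_cuspIdx Γ hneg) (fun c => hψ _ (trace_conj_T_pow (H18.cuspTm Γ c) (H18.cuspWd Γ c)))
  rw [← b1, b2, e]
  rfl

/-- **(P4), left slot: perfectness mod an odd prime of the residue pairing `pd`.** -/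
theorem pd_perfect_left (hneg : (-1 : SL(2, ℤ)) ∈ Γ) {p : ℕ} (hp : p.Prime) (hp2 : p ≠ 2)
    (x : Additive Γ →+ ℤ) (hx : ModularCurve.Period.IsParabolicHom Γ x)
    (H : ∀ y : Additive Γ →+ ℤ, ModularCurve.Period.IsParabolicHom Γ y →
      (p : ℤ) ∣ H18.pd Γ hneg x y) :
    ∃ w : Additive Γ →+ ℤ, ModularCurve.Period.IsParabolicHom Γ w ∧ x = p • w := by
  refine perfect_of_lifts Γ hneg hp hp2 (H18.cuspTm Γ) (H18.cuspWd Γ) (H18.cuspElt_mem Γ hneg)
    (horb_cuspIdx Γ hneg) x hx ?_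
  intro y hy
  obtain ⟨F, hF, e⟩ := H18.exists_isHLift_pd Γ hneg x y
  refine ⟨F, hF, ?_⟩
  have h1 := H y hy
  rw [e] at h1
  exact h1

/-- **(P4), right slot.** -/
theorem pd_perfect_right (hneg : (-1 : SL(2, ℤ)) ∈ Γ) {p : ℕ} (hp : p.Prime) (hp2 : p ≠ 2)
    (x : Additive Γ →+ ℤ) (hx : ModularCurve.Period.IsParabolicHom Γ x)
    (H : ∀ y : Additive Γ →+ ℤ, ModularCurve.Period.IsParabolicHom Γ y →
      (p : ℤ) ∣ H18.pd Γ hneg y x) :
    ∃ w : Additive Γ →+ ℤ, ModularCurve.Period.IsParabolicHom Γ w ∧ x = p • w := by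
  refine pd_perfect_left Γ hneg hp hp2 x hx (fun y hy => ?_)
  have h1 := H y hy
  rw [H18.pd_swap Γ hneg x y (kills_posPar Γ hx)] at h1
  exact (Int.dvd_neg).mp h1

/-- `ℤ`-scalar forms of the conclusions (`x = (p : ℤ) • w`). -/
theorem pd_perfect_left_int (hneg : (-1 : SL(2, ℤ)) ∈ Γ) {p : ℕ} (hp : p.Prime) (hp2 : p ≠ 2)
    (x : Additive Γ →+ ℤ) (hx : ModularCurve.Period.IsParabolicHom Γ x)
    (H : ∀ y : Additive Γ →+ ℤ, ModularCurve.Period.IsParabolicHom Γ y →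
      (p : ℤ) ∣ H18.pd Γ hneg x y) :
    ∃ w : Additive Γ →+ ℤ, ModularCurve.Period.IsParabolicHom Γ w ∧ x = (p : ℤ) • w := by
  obtain ⟨w, hw, e⟩ := pd_perfect_left Γ hneg hp hp2 x hx H
  exact ⟨w, hw, by rw [e, natCast_zsmul]⟩

theorem pd_perfect_right_int (hneg : (-1 : SL(2, ℤ)) ∈ Γ) {p : ℕ} (hp : p.Prime) (hp2 : p ≠ 2)
    (x : Additive Γ →+ ℤ) (hx : ModularCurve.Period.IsParabolicHom Γ x)
    (H : ∀ y : Additive Γ →+ ℤ, ModularCurve.Period.IsParabolicHom Γ y →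
      (p : ℤ) ∣ H18.pd Γ hneg y x) :
    ∃ w : Additive Γ →+ ℤ, ModularCurve.Period.IsParabolicHom Γ w ∧ x = (p : ℤ) • w := by
  obtain ⟨w, hw, e⟩ := pd_perfect_right Γ hneg hp hp2 x hx H
  exact ⟨w, hw, by rw [e, natCast_zsmul]⟩

end Fermat.Agent.S41.H51
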