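import Mathlib
import Fermat.Agent.S41.PDRes_helper95
import Fermat.Agent.S41.SL2Pres_helper44
import Fermat.Agent.S21.Parabolic_helper23

set_option autoImplicit false

namespace Fermat.Agent.S41.H95

open Additive Finset Matrix MatrixGroups ModularGroup

section cycles

variable {X : Type*} [Finite X] (P : Equiv.Perm X)

/-- the cycles of a permutation. -/
def CycIdx : Type _ := Quotient (Equiv.Perm.SameCycle.setoid P)

noncomputable instance : Fintype (CycIdx P) := by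
  classical
  have : Finite (CycIdx P) := by
    unfold CycIdx
    infer_instance
  exact Fintype.ofFinite _

noncomputable def cycBase (c : CycIdx P) : X := Quotient.out c

noncomputable def cycLen (c : CycIdx P) : ℕ := Function.minimalPeriod P (cycBase P c)

theorem cycLen_pos (c : CycIdx P) : 0 < cycLen P c :=
  Function.minimalPeriod_pos_of_mem_periodicPts (P.injective.mem_periodicPts _)

omit [Finite X] in
theorem pow_cycLen (c : CycIdx P) : (P ^ cycLen P c) (cycBase P c) = cycBase P c := by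
  rw [Equiv.Perm.coe_pow]
  exact Function.iterate_minimalPeriod

theorem cyc_bijective :
    Function.Bijective (fun z : (Σ c : CycIdx P, Fin (cycLen P c)) => (P ^ (z.2 : ℕ)) (cycBase P z.1)) := by
  constructor
  · rintro ⟨c, k⟩ ⟨c', k'⟩ h
    simp only at h
    have hc : c = c' := by
      have h1 : Equiv.Perm.SameCycle P (cycBase P c) (cycBase P c') := by
        refine ⟨-(k' : ℤ) + (k : ℤ), ?_⟩
        rw [_root_.zpow_add, Equiv.Perm.mul_apply, zpow_natCast, h, _root_.zpow_neg, zpow_natCast,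
          Equiv.Perm.coe_inv, Equiv.symm_apply_apply]
      have h2 : (Quotient.mk (Equiv.Perm.SameCycle.setoid P) (cycBase P c))
          = Quotient.mk (Equiv.Perm.SameCycle.setoid P) (cycBase P c') := Quotient.sound h1
      have e1 : Quotient.mk (Equiv.Perm.SameCycle.setoid P) (cycBase P c) = c := Quotient.out_eq c
      have e2 : Quotient.mk (Equiv.Perm.SameCycle.setoid P) (cycBase P c') = c' := Quotient.out_eq c'
      rw [e1, e2] at h2
      exact h2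
    subst hc
    have hk : (k : ℕ) = (k' : ℕ) := by
      rw [Equiv.Perm.coe_pow, Equiv.Perm.coe_pow] at h
      exact Function.iterate_injOn_Iio_minimalPeriod (Set.mem_Iio.mpr k.2) (Set.mem_Iio.mpr k'.2) h
    rw [Fin.ext hk]
  · intro x
    let c : CycIdx P := Quotient.mk (Equiv.Perm.SameCycle.setoid P) x
    have h1 : Equiv.Perm.SameCycle P (cycBase P c) x := Quotient.mk_out (s := Equiv.Perm.SameCycle.setoid P) x
    obtain ⟨i, hi⟩ := h1.exists_nat_pow_eq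
    refine ⟨⟨c, ⟨i % cycLen P c, Nat.mod_lt _ (cycLen_pos P c)⟩⟩, ?_⟩
    simp only
    rw [Equiv.Perm.coe_pow, cycLen, Function.iterate_mod_minimalPeriod_eq, ← Equiv.Perm.coe_pow]
    exact hi

theorem sum_eq_sum_cyc [Fintype X] {A : Type*} [AddCommMonoid A] (f : X → A) :
    ∑ x, f x = ∑ c, ∑ k ∈ range (cycLen P c), f ((P ^ k) (cycBase P c)) := by
  rw [← (cyc_bijective P).sum_comp f, Fintype.sum_sigma]
  refine Finset.sum_congr rfl (fun c _ => ?_)
  rw [← Fin.sum_univ_eq_sum_range (fun k => f ((P ^ k) (cycBase P c)))]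

end cycles

/-- **The residue computation** (pure algebra).  -/
theorem resE_alg {X C : Type*} [Fintype X] [Fintype C] (Sp Rp : Equiv.Perm X)
    (hS2 : ∀ x, Sp (Sp x) = x)
    (base : C → X) (len : C → ℕ)
    (hsum : ∀ f : X → ℤ, ∑ x, f x = ∑ c, ∑ k ∈ range (len c), f (((Sp * Rp) ^ k) (base c)))
    (a r a2 r2 β d : X → ℤ)
    (ha : ∀ x, a (Sp x) = - a x) (hr : ∀ x, r x + r (Rp x) + r (Rp (Rp x)) = 0)
    (hcusp : ∀ c, ∑ k ∈ range (len c),
      (a (Rp (((Sp * Rp) ^ k) (base c))) + r (((Sp * Rp) ^ k) (base c))) = 0)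
    (ha2 : ∀ x, a2 x = β x + d x - d (Sp x)) (hr2 : ∀ x, r2 x = - β (Rp x) + d x - d (Rp x)) :
    3 * ∑ x, a x * a2 x
      - 2 * ∑ x, (r (Rp x) * r2 x + r (Rp (Rp x)) * r2 (Rp x) + r (Rp (Rp x)) * r2 x)
      + 6 * ∑ x, a (Rp x) * r2 x
      + 6 * ∑ c, ∑ k ∈ range (len c),
          (a (Rp (((Sp * Rp) ^ k) (base c))) + r (((Sp * Rp) ^ k) (base c)))
          * ∑ j ∈ range k, (a2 (Rp (((Sp * Rp) ^ j) (base c))) + r2 (((Sp * Rp) ^ j) (base c)))
      = -3 * ∑ x, a x * β x + 4 * ∑ x, r x * β x + 2 * ∑ x, r (Rp x) * β x := by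
  -- the cusp part
  have hstep : ∀ x, a2 (Rp x) + r2 x = d x - d ((Sp * Rp) x) := by
    intro x
    rw [ha2, hr2, Equiv.Perm.mul_apply]
    ring
  have htel : ∀ (c : C) (k : ℕ),
      ∑ j ∈ range k, (a2 (Rp (((Sp * Rp) ^ j) (base c))) + r2 (((Sp * Rp) ^ j) (base c)))
        = d (base c) - d (((Sp * Rp) ^ k) (base c)) := by
    intro c k
    have e : ∀ j ∈ range k,
        a2 (Rp (((Sp * Rp) ^ j) (base c))) + r2 (((Sp * Rp) ^ j) (base c))
          = d (((Sp * Rp) ^ j) (base c)) - d (((Sp * Rp) ^ (j + 1)) (base c)) := by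
      intro j _
      rw [hstep, pow_succ']
      rfl
    rw [Finset.sum_congr rfl e,
      Finset.sum_range_sub' (fun j => d (((Sp * Rp) ^ j) (base c))) k, pow_zero,
      Equiv.Perm.one_apply]
  have hE4 : ∑ c, ∑ k ∈ range (len c),
          (a (Rp (((Sp * Rp) ^ k) (base c))) + r (((Sp * Rp) ^ k) (base c)))
          * ∑ j ∈ range k, (a2 (Rp (((Sp * Rp) ^ j) (base c))) + r2 (((Sp * Rp) ^ j) (base c)))
      = - ∑ x, a (Rp x) * d x - ∑ x, r x * d x := by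
    have e1 : ∀ c, ∑ k ∈ range (len c),
          (a (Rp (((Sp * Rp) ^ k) (base c))) + r (((Sp * Rp) ^ k) (base c)))
          * ∑ j ∈ range k, (a2 (Rp (((Sp * Rp) ^ j) (base c))) + r2 (((Sp * Rp) ^ j) (base c)))
        = - ∑ k ∈ range (len c), (a (Rp (((Sp * Rp) ^ k) (base c))) + r (((Sp * Rp) ^ k) (base c)))
            * d (((Sp * Rp) ^ k) (base c)) := by
      intro c
      have e2 : ∀ k ∈ range (len c),
          (a (Rp (((Sp * Rp) ^ k) (base c))) + r (((Sp * Rp) ^ k) (base c)))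
          * ∑ j ∈ range k, (a2 (Rp (((Sp * Rp) ^ j) (base c))) + r2 (((Sp * Rp) ^ j) (base c)))
          = (a (Rp (((Sp * Rp) ^ k) (base c))) + r (((Sp * Rp) ^ k) (base c))) * d (base c)
            - (a (Rp (((Sp * Rp) ^ k) (base c))) + r (((Sp * Rp) ^ k) (base c)))
              * d (((Sp * Rp) ^ k) (base c)) := by
        intro k _
        rw [htel]
        ring
      rw [Finset.sum_congr rfl e2, Finset.sum_sub_distrib, ← Finset.sum_mul, hcusp c]
      ring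
    rw [Finset.sum_congr rfl (fun c _ => e1 c), Finset.sum_neg_distrib,
      ← hsum (fun x => (a (Rp x) + r x) * d x)]
    simp only [add_mul, Finset.sum_add_distrib]
    ring
  -- reindexing
  have i1 : ∑ x, a x * d (Sp x) = - ∑ x, a x * d x := by
    rw [← Equiv.sum_comp Sp (fun x => a x * d (Sp x)), ← Finset.sum_neg_distrib]
    refine Finset.sum_congr rfl (fun x _ => ?_)
    rw [ha, hS2]
    ring
  have i2 : ∑ x, r (Rp x) * β (Rp x) = ∑ x, r x * β x := Equiv.sum_comp Rp (fun x => r x * β x)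
  have i3 : ∑ x, r (Rp x) * d (Rp x) = ∑ x, r x * d x := Equiv.sum_comp Rp (fun x => r x * d x)
  have i4 : ∑ x, r (Rp (Rp x)) * r2 (Rp x) = ∑ x, r (Rp x) * r2 x :=
    Equiv.sum_comp Rp (fun x => r (Rp x) * r2 x)
  have i5 : ∑ x, r (Rp (Rp x)) * β (Rp x) = ∑ x, r (Rp x) * β x :=
    Equiv.sum_comp Rp (fun x => r (Rp x) * β x)
  have i6 : ∑ x, r (Rp (Rp x)) * d (Rp x) = ∑ x, r (Rp x) * d x :=
    Equiv.sum_comp Rp (fun x => r (Rp x) * d x)
  have i7 : ∑ x, a (Rp x) * β (Rp x) = ∑ x, a x * β x := Equiv.sum_comp Rp (fun x => a x * β x)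
  have i8 : ∑ x, a (Rp x) * d (Rp x) = ∑ x, a x * d x := Equiv.sum_comp Rp (fun x => a x * d x)
  have i9 : ∑ x, r (Rp x) * d x + ∑ x, r (Rp (Rp x)) * d x = - ∑ x, r x * d x := by
    rw [← Finset.sum_add_distrib, ← Finset.sum_neg_distrib]
    refine Finset.sum_congr rfl (fun x _ => ?_)
    have := hr x
    linear_combination d x * this
  -- the four blocks
  have hE1 : ∑ x, a x * a2 x = ∑ x, a x * β x + 2 * ∑ x, a x * d x := by
    have : ∑ x, a x * a2 x = ∑ x, a x * β x + ∑ x, a x * d x - ∑ x, a x * d (Sp x) := by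
      rw [← Finset.sum_add_distrib, ← Finset.sum_sub_distrib]
      refine Finset.sum_congr rfl (fun x _ => ?_)
      rw [ha2]
      ring
    rw [this, i1]
    ring
  have hT1 : ∑ x, r (Rp x) * r2 x
      = - ∑ x, r x * β x + ∑ x, r (Rp x) * d x - ∑ x, r x * d x := by
    rw [← i2, ← i3, ← Finset.sum_neg_distrib, ← Finset.sum_add_distrib, ← Finset.sum_sub_distrib]
    refine Finset.sum_congr rfl (fun x _ => ?_)
    rw [hr2]
    ring
  have hT3 : ∑ x, r (Rp (Rp x)) * r2 x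
      = - ∑ x, r (Rp x) * β x + ∑ x, r (Rp (Rp x)) * d x - ∑ x, r (Rp x) * d x := by
    rw [← i5, ← i6, ← Finset.sum_neg_distrib, ← Finset.sum_add_distrib, ← Finset.sum_sub_distrib]
    refine Finset.sum_congr rfl (fun x _ => ?_)
    rw [hr2]
    ring
  have hE2 : ∑ x, (r (Rp x) * r2 x + r (Rp (Rp x)) * r2 (Rp x) + r (Rp (Rp x)) * r2 x)
      = -2 * ∑ x, r x * β x - ∑ x, r (Rp x) * β x - 3 * ∑ x, r x * d x := by
    rw [Finset.sum_add_distrib, Finset.sum_add_distrib, i4, hT1, hT3]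
    linear_combination i9
  have hE3 : ∑ x, a (Rp x) * r2 x
      = - ∑ x, a x * β x + ∑ x, a (Rp x) * d x - ∑ x, a x * d x := by
    rw [← i7, ← i8, ← Finset.sum_neg_distrib, ← Finset.sum_add_distrib, ← Finset.sum_sub_distrib]
    refine Finset.sum_congr rfl (fun x _ => ?_)
    rw [hr2]
    ring
  rw [hE1, hE2, hE3, hE4]
  ring

section schreier

variable (Γ : Subgroup SL(2, ℤ))

/-- coset representatives of `SL(2,ℤ) ⧸ Γ`. -/
noncomputable def crep (x : SL(2, ℤ) ⧸ Γ) : SL(2, ℤ) := Quotient.out x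

theorem mk_crep (x : SL(2, ℤ) ⧸ Γ) : (QuotientGroup.mk (crep Γ x) : SL(2, ℤ) ⧸ Γ) = x :=
  QuotientGroup.out_eq' x

/-- the base point of `SL(2,ℤ) ⧸ Γ`. -/
def x0 : SL(2, ℤ) ⧸ Γ := QuotientGroup.mk 1

theorem crep_smul_x0 (x : SL(2, ℤ) ⧸ Γ) : crep Γ x • x0 Γ = x := by
  rw [x0, MulAction.Quotient.smul_mk, smul_eq_mul, mul_one, mk_crep]

theorem crep_inv_smul (x : SL(2, ℤ) ⧸ Γ) : (crep Γ x)⁻¹ • x = x0 Γ := by
  rw [inv_smul_eq_iff, crep_smul_x0]

theorem smul_x0 (γ : Γ) : (γ : SL(2, ℤ)) • x0 Γ = x0 Γ := by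
  rw [x0, MulAction.Quotient.smul_mk, smul_eq_mul, mul_one, QuotientGroup.eq, mul_one]
  exact Γ.inv_mem γ.2

theorem kap_mem (g : SL(2, ℤ)) (x : SL(2, ℤ) ⧸ Γ) :
    (crep Γ (g • x))⁻¹ * g * crep Γ x ∈ Γ := by
  have h : (QuotientGroup.mk (crep Γ (g • x)) : SL(2, ℤ) ⧸ Γ)
      = QuotientGroup.mk (g * crep Γ x) := by
    rw [mk_crep, ← smul_eq_mul, ← MulAction.Quotient.smul_mk, mk_crep]
  rw [mul_assoc]
  exact QuotientGroup.eq.mp h

/-- the Schreier element `κ(g, x) = t_{g x}⁻¹ g t_x ∈ Γ`. -/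
noncomputable def kap (g : SL(2, ℤ)) (x : SL(2, ℤ) ⧸ Γ) : Γ :=
  ⟨(crep Γ (g • x))⁻¹ * g * crep Γ x, kap_mem Γ g x⟩

theorem coe_kap (g : SL(2, ℤ)) (x : SL(2, ℤ) ⧸ Γ) :
    (kap Γ g x : SL(2, ℤ)) = (crep Γ (g • x))⁻¹ * g * crep Γ x := rfl

theorem kap_mul (g h : SL(2, ℤ)) (x : SL(2, ℤ) ⧸ Γ) :
    kap Γ (g * h) x = kap Γ g (h • x) * kap Γ h x := by
  apply Subtype.ext
  rw [Subgroup.coe_mul, coe_kap, coe_kap, coe_kap, mul_smul]
  group

theorem neg_one_smul' (hneg : (-1 : SL(2, ℤ)) ∈ Γ) (x : SL(2, ℤ) ⧸ Γ) :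
    (-1 : SL(2, ℤ)) • x = x := by
  induction x using QuotientGroup.induction_on with
  | H g =>
    rw [MulAction.Quotient.smul_mk, smul_eq_mul, QuotientGroup.eq]
    have : (-1 * g)⁻¹ * g = -1 := by
      rw [neg_mul, one_mul, eq_comm, ← mul_inv_eq_iff_eq_mul]
      simp
    rw [this]
    exact hneg

theorem S_mul_S : (S : SL(2, ℤ)) * S = -1 := by
  have h := H44.coe_S_sq
  apply Subtype.ext
  rw [pow_two] at h
  rw [h]
  ext i j
  fin_cases i <;> fin_cases j <;> simp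

theorem R_cube : ((S * T : SL(2, ℤ))) ^ 3 = -1 := by
  rw [H44.SL2Z_relations.2, pow_two, S_mul_S]

theorem kap_neg_one (hneg : (-1 : SL(2, ℤ)) ∈ Γ) (x : SL(2, ℤ) ⧸ Γ) :
    kap Γ (-1) x = ⟨-1, hneg⟩ := by
  apply Subtype.ext
  rw [coe_kap, neg_one_smul' Γ hneg]
  simp

end schreier


section dual

variable {Γ : Subgroup SL(2, ℤ)}

/-- the permutation `(x, n) ↦ (g • x, n + b x)` of `X × ℤ`. -/
def shearPerm (g : SL(2, ℤ)) (b : SL(2, ℤ) ⧸ Γ → ℤ) : Equiv.Perm ((SL(2, ℤ) ⧸ Γ) × ℤ) :=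
  Equiv.prodShear (MulAction.toPerm g) (fun x => Equiv.addRight (b x))

theorem shearPerm_apply (g : SL(2, ℤ)) (b : SL(2, ℤ) ⧸ Γ → ℤ) (x : SL(2, ℤ) ⧸ Γ) (n : ℤ) :
    shearPerm g b (x, n) = (g • x, n + b x) := rfl

/-- **The dual cocycle.**  For a function `β` on `X = SL(2,ℤ) ⧸ Γ` with `β ∘ S = -β` and zero
sums over the orbits of `R = S * T` there is a cocycle `c` of `SL(2,ℤ)` with values in `ℤ ^ X`
with `c S = β` and `c R = -β ∘ R` (presentation of `SL(2,ℤ)`). -/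
theorem exists_cocycle (hneg : (-1 : SL(2, ℤ)) ∈ Γ) (β : SL(2, ℤ) ⧸ Γ → ℤ)
    (hβS : ∀ x, β (S • x) = - β x)
    (hβR : ∀ x, β x + β ((S * T) • x) + β ((S * T) • (S * T) • x) = 0) :
    ∃ c : SL(2, ℤ) → SL(2, ℤ) ⧸ Γ → ℤ,
      (∀ g h x, c (g * h) x = c h x + c g (h • x)) ∧ (∀ x, c S x = β x) ∧
      (∀ x, c (S * T) x = - β ((S * T) • x)) := by
  set s : Equiv.Perm ((SL(2, ℤ) ⧸ Γ) × ℤ) := shearPerm S β with hs_def
  set r : Equiv.Perm ((SL(2, ℤ) ⧸ Γ) × ℤ) :=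
    shearPerm (S * T) (fun x => - β ((S * T) • x)) with hr_def
  have hSS : ∀ x : SL(2, ℤ) ⧸ Γ, S • S • x = x := fun x => by
    rw [smul_smul, S_mul_S, neg_one_smul' Γ hneg]
  have hRRR : ∀ x : SL(2, ℤ) ⧸ Γ, (S * T) • (S * T) • (S * T) • x = x := fun x => by
    rw [smul_smul, smul_smul, ← pow_two, ← pow_succ, R_cube, neg_one_smul' Γ hneg]
  have hs2 : s * s = 1 := by
    apply Equiv.ext
    rintro ⟨x, n⟩
    rw [Equiv.Perm.mul_apply, Equiv.Perm.one_apply, hs_def, shearPerm_apply, shearPerm_apply,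
      hSS, hβS]
    exact Prod.ext rfl (by simp)
  have hr3 : r * r * r = 1 := by
    apply Equiv.ext
    rintro ⟨x, n⟩
    rw [Equiv.Perm.mul_apply, Equiv.Perm.mul_apply, Equiv.Perm.one_apply, hr_def, shearPerm_apply,
      shearPerm_apply, shearPerm_apply, hRRR]
    refine Prod.ext rfl ?_
    have := hβR x
    simp only
    linarith
  have hs : s ^ 4 = 1 := by
    have : s ^ 4 = (s * s) * (s * s) := by
      rw [← pow_two, ← pow_two, ← pow_mul]
    rw [this, hs2, one_mul]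
  have hr : r ^ 3 = s ^ 2 := by
    rw [pow_two, hs2, pow_succ, pow_two, hr3]
  obtain ⟨Φ, ⟨hΦS, hΦR⟩, -⟩ := H44.exists_unique_monoidHom_SL2Z_SR s r hs hr
  -- `Φ g` covers `g` and commutes with the translations
  have key : ∀ g : SL(2, ℤ), ∀ (x : SL(2, ℤ) ⧸ Γ) (n : ℤ),
      Φ g (x, n) = (g • x, n + (Φ g (x, 0)).2) := by
    have hmul : ∀ g h : SL(2, ℤ),
        (∀ (x : SL(2, ℤ) ⧸ Γ) (n : ℤ), Φ g (x, n) = (g • x, n + (Φ g (x, 0)).2)) →
        (∀ (x : SL(2, ℤ) ⧸ Γ) (n : ℤ), Φ h (x, n) = (h • x, n + (Φ h (x, 0)).2)) →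
        ∀ (x : SL(2, ℤ) ⧸ Γ) (n : ℤ), Φ (g * h) (x, n) = ((g * h) • x, n + (Φ (g * h) (x, 0)).2) := by
      intro g h hg hh x n
      rw [map_mul, Equiv.Perm.mul_apply, Equiv.Perm.mul_apply, hh x n, hh x 0, hg (h • x) _,
        hg (h • x) (0 + _), mul_smul]
      exact Prod.ext rfl (by simp only; ring)
    have hinv : ∀ g : SL(2, ℤ),
        (∀ (x : SL(2, ℤ) ⧸ Γ) (n : ℤ), Φ g (x, n) = (g • x, n + (Φ g (x, 0)).2)) →
        ∀ (x : SL(2, ℤ) ⧸ Γ) (n : ℤ), Φ g⁻¹ (x, n) = (g⁻¹ • x, n + (Φ g⁻¹ (x, 0)).2) := by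
      intro g hg
      have e : ∀ (x : SL(2, ℤ) ⧸ Γ) (n : ℤ),
          Φ g⁻¹ (x, n) = (g⁻¹ • x, n - (Φ g (g⁻¹ • x, 0)).2) := by
        intro x n
        rw [map_inv, Equiv.Perm.inv_eq_iff_eq, hg, smul_inv_smul]
        exact Prod.ext rfl (by simp)
      intro x n
      rw [e x n, e x 0]
      exact Prod.ext rfl (by simp only; ring)
    have hS : ∀ (x : SL(2, ℤ) ⧸ Γ) (n : ℤ), Φ S (x, n) = (S • x, n + (Φ S (x, 0)).2) := by
      intro x n
      rw [hΦS, hs_def, shearPerm_apply, shearPerm_apply]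
      exact Prod.ext rfl (by simp)
    have hR : ∀ (x : SL(2, ℤ) ⧸ Γ) (n : ℤ),
        Φ (S * T) (x, n) = ((S * T) • x, n + (Φ (S * T) (x, 0)).2) := by
      intro x n
      rw [hΦR, hr_def, shearPerm_apply, shearPerm_apply]
      exact Prod.ext rfl (by simp)
    have hT : ∀ (x : SL(2, ℤ) ⧸ Γ) (n : ℤ), Φ T (x, n) = (T • x, n + (Φ T (x, 0)).2) := by
      have e : (T : SL(2, ℤ)) = S⁻¹ * (S * T) := by group
      rw [e]
      exact hmul _ _ (hinv _ hS) hR
    intro g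
    have hg : g ∈ Subgroup.closure ({S, T} : Set SL(2, ℤ)) := by
      rw [SpecialLinearGroup.SL2Z_generators]; exact Subgroup.mem_top g
    induction hg using Subgroup.closure_induction with
    | mem y hy =>
      rcases hy with rfl | rfl
      · exact hS
      · exact hT
    | one =>
      intro x n
      rw [map_one, Equiv.Perm.one_apply, one_smul]
      exact Prod.ext rfl (by simp)
    | mul y z _ _ hy hz => exact hmul y z hy hz
    | inv y _ hy => exact hinv y hy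
  refine ⟨fun g x => (Φ g (x, 0)).2, ?_, ?_, ?_⟩
  · intro g h x
    show (Φ (g * h) (x, 0)).2 = (Φ h (x, 0)).2 + (Φ g (h • x, 0)).2
    rw [map_mul, Equiv.Perm.mul_apply, key h x 0, key g (h • x) (0 + _)]
  · intro x
    show (Φ S (x, 0)).2 = β x
    rw [hΦS, hs_def, shearPerm_apply]
    simp
  · intro x
    show (Φ (S * T) (x, 0)).2 = - β ((S * T) • x)
    rw [hΦR, hr_def, shearPerm_apply]
    simp

end dual


section cocycle

variable {Γ : Subgroup SL(2, ℤ)} {c : SL(2, ℤ) → SL(2, ℤ) ⧸ Γ → ℤ}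

theorem coc_one (hc : ∀ g h x, c (g * h) x = c h x + c g (h • x)) (x : SL(2, ℤ) ⧸ Γ) :
    c 1 x = 0 := by
  have := hc 1 1 x
  rw [mul_one, one_smul] at this
  linarith

theorem coc_inv (hc : ∀ g h x, c (g * h) x = c h x + c g (h • x)) (g : SL(2, ℤ))
    (x : SL(2, ℤ) ⧸ Γ) : c g⁻¹ x = - c g (g⁻¹ • x) := by
  have := hc g g⁻¹ x
  rw [mul_inv_cancel, coc_one hc] at this
  linarith

theorem coc_zpow_T (hc : ∀ g h x, c (g * h) x = c h x + c g (h • x)) (hT : ∀ x, c T x = 0)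
    (m : ℤ) (x : SL(2, ℤ) ⧸ Γ) : c (T ^ m) x = 0 := by
  have hnat : ∀ (n : ℕ) (x : SL(2, ℤ) ⧸ Γ), c (T ^ n) x = 0 := by
    intro n
    induction n with
    | zero => intro x; rw [pow_zero]; exact coc_one hc x
    | succ n ih => intro x; rw [pow_succ, hc, hT, ih, add_zero]
  rcases Int.eq_nat_or_neg m with ⟨n, rfl | rfl⟩
  · rw [zpow_natCast]; exact hnat n x
  · rw [_root_.zpow_neg, zpow_natCast, coc_inv hc, hnat, neg_zero]

/-- the additive character of `Γ` attached to a cocycle: `γ ↦ c γ x₀`. -/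
def cocHom (Γ : Subgroup SL(2, ℤ)) (c : SL(2, ℤ) → SL(2, ℤ) ⧸ Γ → ℤ)
    (hc : ∀ g h x, c (g * h) x = c h x + c g (h • x)) : Additive Γ →+ ℤ :=
  AddMonoidHom.mk' (fun γ => c ((Additive.toMul γ : Γ) : SL(2, ℤ)) (x0 Γ)) (by
    intro a b
    show c (((Additive.toMul a * Additive.toMul b : Γ)) : SL(2, ℤ)) (x0 Γ) = _
    rw [Subgroup.coe_mul, hc, smul_x0, add_comm])

theorem cocHom_apply (hc : ∀ g h x, c (g * h) x = c h x + c g (h • x)) (γ : Γ) :
    cocHom Γ c hc (ofMul γ) = c (γ : SL(2, ℤ)) (x0 Γ) := rfl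

theorem cocHom_kap (hc : ∀ g h x, c (g * h) x = c h x + c g (h • x)) (g : SL(2, ℤ))
    (x : SL(2, ℤ) ⧸ Γ) :
    cocHom Γ c hc (ofMul (kap Γ g x))
      = c g x + c (crep Γ x) (x0 Γ) - c (crep Γ (g • x)) (x0 Γ) := by
  rw [cocHom_apply, coe_kap, hc, hc, crep_smul_x0, coc_inv hc, crep_inv_smul]
  ring

theorem coc_conj_T (hc : ∀ g h x, c (g * h) x = c h x + c g (h • x)) (hT : ∀ x, c T x = 0)
    (δ : SL(2, ℤ)) (m : ℤ) (h : (δ * T ^ m * δ⁻¹) • x0 Γ = x0 Γ) :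
    c (δ * T ^ m * δ⁻¹) (x0 Γ) = 0 := by
  have h' : T ^ m • δ⁻¹ • x0 Γ = δ⁻¹ • x0 Γ := by
    rw [eq_inv_smul_iff, smul_smul, smul_smul]
    exact h
  rw [hc, hc, coc_zpow_T hc hT, h', coc_inv hc]
  ring

theorem cocHom_parabolic (hc : ∀ g h x, c (g * h) x = c h x + c g (h • x))
    (hneg : (-1 : SL(2, ℤ)) ∈ Γ) (hT : ∀ x, c T x = 0) (hm : ∀ x, c (-1) x = 0) :
    ModularCurve.Period.IsParabolicHom Γ (cocHom Γ c hc) := by
  intro γ hγ
  rw [cocHom_apply]
  obtain ⟨δ, m, h | h⟩ := Fermat.Agent.S21.H23.exists_conj_T_zpow (γ : SL(2, ℤ)) hγ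
  · rw [h]
    apply coc_conj_T hc hT
    rw [← h]
    exact smul_x0 Γ γ
  · have e : (γ : SL(2, ℤ)) = -1 * (δ * T ^ m * δ⁻¹) := by rw [h]; simp
    have e' : δ * T ^ m * δ⁻¹ = -1 * (γ : SL(2, ℤ)) := by rw [h]; simp
    have h0 : (δ * T ^ m * δ⁻¹) • x0 Γ = x0 Γ := by
      rw [e', mul_smul, smul_x0, neg_one_smul' Γ hneg]
    rw [e, hc, hm, add_zero]
    exact coc_conj_T hc hT δ m h0

end cocycle


section word

variable (Γ : Subgroup SL(2, ℤ))

/-- the permutation of `X` given by `S⁻¹` (an involution when `-1 ∈ Γ`). -/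
def permS : Equiv.Perm (SL(2, ℤ) ⧸ Γ) := MulAction.toPerm (S⁻¹ : SL(2, ℤ))

/-- the permutation of `X` given by `R = S * T` (of order three when `-1 ∈ Γ`). -/
def permR : Equiv.Perm (SL(2, ℤ) ⧸ Γ) := MulAction.toPerm (S * T : SL(2, ℤ))

theorem permS_apply (x : SL(2, ℤ) ⧸ Γ) : permS Γ x = (S⁻¹ : SL(2, ℤ)) • x := rfl

theorem permR_apply (x : SL(2, ℤ) ⧸ Γ) : permR Γ x = (S * T : SL(2, ℤ)) • x := rfl

/-- Schreier generators `σ x = κ(S⁻¹, x)`. -/
noncomputable def sig (x : SL(2, ℤ) ⧸ Γ) : Γ := kap Γ S⁻¹ x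

/-- Schreier generators `ρ x = κ(R, x)`. -/
noncomputable def rho (x : SL(2, ℤ) ⧸ Γ) : Γ := kap Γ (S * T) x

theorem kap_one (x : SL(2, ℤ) ⧸ Γ) : kap Γ 1 x = 1 := by
  apply Subtype.ext
  rw [coe_kap, one_smul]
  simp

theorem kap_inv (g : SL(2, ℤ)) (x : SL(2, ℤ) ⧸ Γ) : kap Γ g⁻¹ x = (kap Γ g (g⁻¹ • x))⁻¹ := by
  have h := kap_mul Γ g g⁻¹ x
  rw [mul_inv_cancel, kap_one] at h
  exact eq_inv_of_mul_eq_one_right h.symm

open scoped Classical in
/-- **Word induction.**  Every Schreier element `κ(g, x)` is a word in the `σ y`, `ρ y`; the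
exponent sums `mS`, `mR` satisfy the boundary relation. -/
theorem exists_word [Fintype (SL(2, ℤ) ⧸ Γ)] (g : SL(2, ℤ)) (x : SL(2, ℤ) ⧸ Γ) :
    ∃ mS mR : SL(2, ℤ) ⧸ Γ → ℤ,
      (∀ χ : Additive Γ →+ ℤ, χ (ofMul (kap Γ g x))
        = ∑ y, χ (ofMul (sig Γ y)) * mS y + ∑ y, χ (ofMul (rho Γ y)) * mR y) ∧
      (∀ y, mS ((permS Γ).symm y) - mS y + (mR ((permR Γ).symm y) - mR y)
        = (if y = g • x then 1 else 0) - (if y = x then 1 else 0)) := by
  have hmul : ∀ g h : SL(2, ℤ),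
      (∀ x, ∃ mS mR : SL(2, ℤ) ⧸ Γ → ℤ,
        (∀ χ : Additive Γ →+ ℤ, χ (ofMul (kap Γ g x))
          = ∑ y, χ (ofMul (sig Γ y)) * mS y + ∑ y, χ (ofMul (rho Γ y)) * mR y) ∧
        (∀ y, mS ((permS Γ).symm y) - mS y + (mR ((permR Γ).symm y) - mR y)
          = (if y = g • x then 1 else 0) - (if y = x then 1 else 0))) →
      (∀ x, ∃ mS mR : SL(2, ℤ) ⧸ Γ → ℤ,
        (∀ χ : Additive Γ →+ ℤ, χ (ofMul (kap Γ h x))
          = ∑ y, χ (ofMul (sig Γ y)) * mS y + ∑ y, χ (ofMul (rho Γ y)) * mR y) ∧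
        (∀ y, mS ((permS Γ).symm y) - mS y + (mR ((permR Γ).symm y) - mR y)
          = (if y = h • x then 1 else 0) - (if y = x then 1 else 0))) →
      ∀ x, ∃ mS mR : SL(2, ℤ) ⧸ Γ → ℤ,
        (∀ χ : Additive Γ →+ ℤ, χ (ofMul (kap Γ (g * h) x))
          = ∑ y, χ (ofMul (sig Γ y)) * mS y + ∑ y, χ (ofMul (rho Γ y)) * mR y) ∧
        (∀ y, mS ((permS Γ).symm y) - mS y + (mR ((permR Γ).symm y) - mR y)
          = (if y = (g * h) • x then 1 else 0) - (if y = x then 1 else 0)) := by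
    intro g h hg hh x
    obtain ⟨mS₁, mR₁, h1, h1'⟩ := hh x
    obtain ⟨mS₂, mR₂, h2, h2'⟩ := hg (h • x)
    refine ⟨fun y => mS₂ y + mS₁ y, fun y => mR₂ y + mR₁ y, ?_, ?_⟩
    · intro χ
      rw [kap_mul, ofMul_mul, map_add, h1 χ, h2 χ]
      simp only [mul_add, Finset.sum_add_distrib]
      ring
    · intro y
      have e1 := h1' y
      have e2 := h2' y
      rw [mul_smul]
      simp only
      linarith
  have hinv : ∀ g : SL(2, ℤ),
      (∀ x, ∃ mS mR : SL(2, ℤ) ⧸ Γ → ℤ,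
        (∀ χ : Additive Γ →+ ℤ, χ (ofMul (kap Γ g x))
          = ∑ y, χ (ofMul (sig Γ y)) * mS y + ∑ y, χ (ofMul (rho Γ y)) * mR y) ∧
        (∀ y, mS ((permS Γ).symm y) - mS y + (mR ((permR Γ).symm y) - mR y)
          = (if y = g • x then 1 else 0) - (if y = x then 1 else 0))) →
      ∀ x, ∃ mS mR : SL(2, ℤ) ⧸ Γ → ℤ,
        (∀ χ : Additive Γ →+ ℤ, χ (ofMul (kap Γ g⁻¹ x))
          = ∑ y, χ (ofMul (sig Γ y)) * mS y + ∑ y, χ (ofMul (rho Γ y)) * mR y) ∧
        (∀ y, mS ((permS Γ).symm y) - mS y + (mR ((permR Γ).symm y) - mR y)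
          = (if y = g⁻¹ • x then 1 else 0) - (if y = x then 1 else 0)) := by
    intro g hg x
    obtain ⟨mS₁, mR₁, h1, h1'⟩ := hg (g⁻¹ • x)
    refine ⟨fun y => - mS₁ y, fun y => - mR₁ y, ?_, ?_⟩
    · intro χ
      rw [kap_inv, ofMul_inv, map_neg, h1 χ]
      simp only [mul_neg, Finset.sum_neg_distrib]
      ring
    · intro y
      have e1 := h1' y
      rw [smul_inv_smul] at e1
      simp only
      linarith
  have hS' : ∀ x, ∃ mS mR : SL(2, ℤ) ⧸ Γ → ℤ,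
        (∀ χ : Additive Γ →+ ℤ, χ (ofMul (kap Γ S⁻¹ x))
          = ∑ y, χ (ofMul (sig Γ y)) * mS y + ∑ y, χ (ofMul (rho Γ y)) * mR y) ∧
        (∀ y, mS ((permS Γ).symm y) - mS y + (mR ((permR Γ).symm y) - mR y)
          = (if y = (S⁻¹ : SL(2, ℤ)) • x then 1 else 0) - (if y = x then 1 else 0)) := by
    intro x
    refine ⟨fun y => if y = x then 1 else 0, fun _ => 0, ?_, ?_⟩
    · intro χ
      simp [sig]
    · intro y
      simp only [Equiv.symm_apply_eq, permS_apply, sub_self, add_zero]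
  have hR : ∀ x, ∃ mS mR : SL(2, ℤ) ⧸ Γ → ℤ,
        (∀ χ : Additive Γ →+ ℤ, χ (ofMul (kap Γ (S * T) x))
          = ∑ y, χ (ofMul (sig Γ y)) * mS y + ∑ y, χ (ofMul (rho Γ y)) * mR y) ∧
        (∀ y, mS ((permS Γ).symm y) - mS y + (mR ((permR Γ).symm y) - mR y)
          = (if y = (S * T : SL(2, ℤ)) • x then 1 else 0) - (if y = x then 1 else 0)) := by
    intro x
    refine ⟨fun _ => 0, fun y => if y = x then 1 else 0, ?_, ?_⟩
    · intro χ
      simp [rho]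
    · intro y
      simp only [Equiv.symm_apply_eq, permR_apply, sub_self, zero_add]
  have hS := hinv _ hS'
  rw [inv_inv] at hS
  have hT := hmul _ _ hS' hR
  rw [inv_mul_cancel_left] at hT
  have hg : g ∈ Subgroup.closure ({S, T} : Set SL(2, ℤ)) := by
    rw [SpecialLinearGroup.SL2Z_generators]; exact Subgroup.mem_top g
  revert x
  induction hg using Subgroup.closure_induction with
  | mem y hy =>
    rcases hy with rfl | rfl
    · exact hS
    · exact hT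
  | one =>
    intro x
    refine ⟨fun _ => 0, fun _ => 0, ?_, ?_⟩
    · intro χ
      simp [kap_one]
    · intro y
      simp
  | mul y z _ _ hy hz => exact hmul y z hy hz
  | inv y _ hy => exact hinv y hy

end word


section main

variable (Γ : Subgroup SL(2, ℤ))

theorem crep_x0_mem : crep Γ (x0 Γ) ∈ Γ := by
  have h : (QuotientGroup.mk (crep Γ (x0 Γ)) : SL(2, ℤ) ⧸ Γ) = QuotientGroup.mk 1 := mk_crep Γ _
  have h2 := QuotientGroup.eq.mp h
  rw [mul_one] at h2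
  simpa using Γ.inv_mem h2

/-- the cusps of `Γ`: the cycles of `T` on `SL(2,ℤ) ⧸ Γ`. -/
def CuspIdx : Type := CycIdx (permS Γ * permR Γ)

noncomputable instance [Γ.FiniteIndex] : Fintype (CuspIdx Γ) :=
  inferInstanceAs (Fintype (CycIdx (permS Γ * permR Γ)))

/-- a base point of the cusp `c`. -/
noncomputable def cuspBase [Γ.FiniteIndex] (c : CuspIdx Γ) : SL(2, ℤ) ⧸ Γ :=
  cycBase (permS Γ * permR Γ) c

/-- the width of the cusp `c`. -/
noncomputable def cuspLen [Γ.FiniteIndex] (c : CuspIdx Γ) : ℕ := cycLen (permS Γ * permR Γ) c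

/-- the cusp element `κ(T ^ h, b) = t_b⁻¹ T ^ h t_b` of the cusp `c` (`b` its base point, `h` its
width). -/
noncomputable def cuspElt [Γ.FiniteIndex] (c : CuspIdx Γ) : Γ :=
  cuspProd (fun x => sig Γ (permR Γ x) * rho Γ x) (permS Γ * permR Γ) (cuspBase Γ c)
    (cuspLen Γ c)

/-- **Evaluations are representable.**  For every `γ₀ ∈ Γ` there is an integral parabolic
character `ψ` of `Γ` such that the cusp sum of any Heisenberg lift of `(φ, ψ)` is `φ γ₀`, for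
all characters `φ` killing the cusp elements. -/
theorem exists_dual_hom [Γ.FiniteIndex] (hneg : (-1 : SL(2, ℤ)) ∈ Γ) (γ₀ : Γ) :
    ∃ ψ : Additive Γ →+ ℤ, ModularCurve.Period.IsParabolicHom Γ ψ ∧
      ∀ φ : Additive Γ →+ ℤ, (∀ c, φ (ofMul (cuspElt Γ c)) = 0) →
        ∀ F : Γ → ℤ, IsHLift φ ψ F → ∑ c, F (cuspElt Γ c) = φ (ofMul γ₀) := by
  classical
  let _ : Fintype (SL(2, ℤ) ⧸ Γ) := Fintype.ofFinite _
  have hSS : ∀ x : SL(2, ℤ) ⧸ Γ, S • S • x = x := fun x => by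
    rw [smul_smul, S_mul_S, neg_one_smul' Γ hneg]
  have hSinv : ∀ x : SL(2, ℤ) ⧸ Γ, (S⁻¹ : SL(2, ℤ)) • x = S • x := fun x => by
    rw [inv_smul_eq_iff, hSS]
  have hS2 : ∀ x, permS Γ (permS Γ x) = x := fun x => by
    rw [permS_apply, permS_apply, hSinv, hSinv, hSS]
  have hR3 : ∀ x, permR Γ (permR Γ (permR Γ x)) = x := fun x => by
    rw [permR_apply, permR_apply, permR_apply, smul_smul, smul_smul, ← pow_two, ← pow_succ,
      R_cube, neg_one_smul' Γ hneg]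
  -- the word of `γ₀`
  obtain ⟨mS, mR, hw, hb⟩ := exists_word Γ (γ₀ : SL(2, ℤ)) (x0 Γ)
  have hb0 : ∀ y, mS (permS Γ y) - mS y + (mR (permR Γ (permR Γ y)) - mR y) = 0 := by
    intro y
    have h := hb y
    rw [smul_x0, sub_self] at h
    have e1 : (permS Γ).symm y = permS Γ y := by rw [Equiv.symm_apply_eq, hS2]
    have e2 : (permR Γ).symm y = permR Γ (permR Γ y) := by rw [Equiv.symm_apply_eq, hR3]
    rwa [e1, e2] at h
  -- the dual function
  set β : SL(2, ℤ) ⧸ Γ → ℤ := fun x => mS (permS Γ x) - mS x with hβ_def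
  have hβSp : ∀ x, β (permS Γ x) = - β x := by
    intro x
    simp only [hβ_def, hS2]
    ring
  have hβS : ∀ x, β (S • x) = - β x := by
    intro x
    rw [← hSinv]
    exact hβSp x
  have hβ' : ∀ x, β x = mR x - mR (permR Γ (permR Γ x)) := by
    intro x
    have := hb0 x
    simp only [hβ_def]
    linarith
  have hβR : ∀ x, β x + β ((S * T) • x) + β ((S * T) • (S * T) • x) = 0 := by
    intro x
    have h1 : permR Γ (permR Γ ((S * T) • x)) = x := hR3 x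
    have h2 : permR Γ (permR Γ ((S * T) • (S * T) • x)) = (S * T) • x := hR3 (permR Γ x)
    rw [hβ' x, hβ' ((S * T) • x), hβ' ((S * T) • (S * T) • x), h1, h2]
    simp only [permR_apply]
    ring
  obtain ⟨c, hc, hcS, hcR⟩ := exists_cocycle hneg β hβS hβR
  have hcSinv : ∀ x, c S⁻¹ x = β x := by
    intro x
    have := hβSp x
    rw [permS_apply] at this
    rw [coc_inv hc, hcS, this]
    ring
  have hcT : ∀ x, c T x = 0 := by
    intro x
    have e : (T : SL(2, ℤ)) = S⁻¹ * (S * T) := by group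
    rw [e, hc, hcR, hcSinv]
    ring
  have hcm : ∀ x, c (-1) x = 0 := by
    intro x
    rw [← S_mul_S, hc, hcS, hcS, hβS]
    ring
  refine ⟨cocHom Γ c hc, cocHom_parabolic hc hneg hcT hcm, ?_⟩
  intro φ hφ F hF
  -- the Schreier relations
  set ε : Γ := ⟨-1, hneg⟩ with hε_def
  have hε : ε * ε = 1 := by
    apply Subtype.ext
    simp [hε_def]
  have hσ : ∀ x, sig Γ (permS Γ x) * sig Γ x = ε := by
    intro x
    have e : (S⁻¹ : SL(2, ℤ)) * S⁻¹ = -1 := by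
      rw [← _root_.mul_inv_rev, S_mul_S]
      simp
    rw [sig, sig, permS_apply, ← kap_mul, e]
    exact kap_neg_one Γ hneg x
  have hρ : ∀ x, rho Γ (permR Γ (permR Γ x)) * rho Γ (permR Γ x) * rho Γ x = ε := by
    intro x
    have e : (S * T : SL(2, ℤ)) * (S * T) * (S * T) = -1 := by
      rw [← pow_two, ← pow_succ]
      exact R_cube
    simp only [rho, permR_apply]
    rw [← kap_mul, ← kap_mul, e]
    exact kap_neg_one Γ hneg x
  have h2 : ∀ a : ℤ, a + a = 0 → a = 0 := by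
    intro a h
    omega
  have hsum : ∀ f : SL(2, ℤ) ⧸ Γ → ℤ, ∑ x, f x
      = ∑ c, ∑ k ∈ range (cuspLen Γ c), f (((permS Γ * permR Γ) ^ k) (cuspBase Γ c)) :=
    fun f => sum_eq_sum_cyc (permS Γ * permR Γ) f
  have h6 := hF.six_mul_sum_cusp h2 (permS Γ) (permR Γ) (sig Γ) (rho Γ) hε hσ hρ (cuspBase Γ)
    (cuspLen Γ) hsum
  -- the data of `φ`
  have hφε : φ (ofMul ε) = 0 := (hF.map_invol h2 hε).1
  have ha : ∀ x, φ (ofMul (sig Γ (permS Γ x))) = - φ (ofMul (sig Γ x)) := by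
    intro x
    have := congrArg (fun g => φ (ofMul g)) (hσ x)
    simp only [ofMul_mul, map_add, hφε] at this
    linarith
  have hr : ∀ x, φ (ofMul (rho Γ x)) + φ (ofMul (rho Γ (permR Γ x)))
      + φ (ofMul (rho Γ (permR Γ (permR Γ x)))) = 0 := by
    intro x
    have := congrArg (fun g => φ (ofMul g)) (hρ x)
    simp only [ofMul_mul, map_add, hφε] at this
    linarith
  have hcusp : ∀ c, ∑ k ∈ range (cuspLen Γ c),
      (φ (ofMul (sig Γ (permR Γ (((permS Γ * permR Γ) ^ k) (cuspBase Γ c)))))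
        + φ (ofMul (rho Γ (((permS Γ * permR Γ) ^ k) (cuspBase Γ c))))) = 0 := by
    intro c
    have := hφ c
    rw [cuspElt, map_cuspProd] at this
    simpa only [ofMul_mul, map_add] using this
  -- the data of `ψ`
  set d : SL(2, ℤ) ⧸ Γ → ℤ := fun x => c (crep Γ x) (x0 Γ) with hd_def
  have ha2 : ∀ x, cocHom Γ c hc (ofMul (sig Γ x)) = β x + d x - d (permS Γ x) := by
    intro x
    rw [sig, cocHom_kap, hcSinv]
    rfl
  have hr2 : ∀ x, cocHom Γ c hc (ofMul (rho Γ x))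
      = - β (permR Γ x) + d x - d (permR Γ x) := by
    intro x
    rw [rho, cocHom_kap, hcR]
    rfl
  have hD := resE_alg (permS Γ) (permR Γ) hS2 (cuspBase Γ) (cuspLen Γ) hsum
    (fun x => φ (ofMul (sig Γ x))) (fun x => φ (ofMul (rho Γ x)))
    (fun x => cocHom Γ c hc (ofMul (sig Γ x))) (fun x => cocHom Γ c hc (ofMul (rho Γ x))) β d
    ha hr hcusp ha2 hr2
  have hres : resE φ (cocHom Γ c hc) (permS Γ) (permR Γ) (sig Γ) (rho Γ) (cuspBase Γ) (cuspLen Γ)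
      = -3 * ∑ x, φ (ofMul (sig Γ x)) * β x + 4 * ∑ x, φ (ofMul (rho Γ x)) * β x
        + 2 * ∑ x, φ (ofMul (rho Γ (permR Γ x))) * β x := by
    rw [← hD]
    unfold resE
    simp only [ofMul_mul, map_add]
  -- the final algebra
  have hA : ∑ x, φ (ofMul (sig Γ x)) * β x = -2 * ∑ x, φ (ofMul (sig Γ x)) * mS x := by
    have e1 : ∑ x, φ (ofMul (sig Γ x)) * mS (permS Γ x)
        = - ∑ x, φ (ofMul (sig Γ x)) * mS x := by
      rw [← Equiv.sum_comp (permS Γ) (fun x => φ (ofMul (sig Γ x)) * mS (permS Γ x)),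
        ← Finset.sum_neg_distrib]
      refine Finset.sum_congr rfl (fun x _ => ?_)
      rw [ha, hS2]
      ring
    have e2 : ∑ x, φ (ofMul (sig Γ x)) * β x
        = ∑ x, φ (ofMul (sig Γ x)) * mS (permS Γ x) - ∑ x, φ (ofMul (sig Γ x)) * mS x := by
      rw [← Finset.sum_sub_distrib]
      refine Finset.sum_congr rfl (fun x _ => ?_)
      simp only [hβ_def]
      ring
    rw [e2, e1]
    ring
  have hB : 4 * ∑ x, φ (ofMul (rho Γ x)) * β x + 2 * ∑ x, φ (ofMul (rho Γ (permR Γ x))) * β x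
      = 6 * ∑ x, φ (ofMul (rho Γ x)) * mR x := by
    have e1 : ∑ x, (4 * φ (ofMul (rho Γ x)) + 2 * φ (ofMul (rho Γ (permR Γ x))))
          * mR (permR Γ (permR Γ x))
        = ∑ x, (4 * φ (ofMul (rho Γ (permR Γ x)))
          + 2 * φ (ofMul (rho Γ (permR Γ (permR Γ x))))) * mR x := by
      rw [← Equiv.sum_comp (permR Γ) (fun x => (4 * φ (ofMul (rho Γ x))
        + 2 * φ (ofMul (rho Γ (permR Γ x)))) * mR (permR Γ (permR Γ x)))]
      refine Finset.sum_congr rfl (fun x _ => ?_)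
      rw [hR3]
    have e2 : 4 * ∑ x, φ (ofMul (rho Γ x)) * β x
          + 2 * ∑ x, φ (ofMul (rho Γ (permR Γ x))) * β x
        = ∑ x, (4 * φ (ofMul (rho Γ x)) + 2 * φ (ofMul (rho Γ (permR Γ x)))) * mR x
          - ∑ x, (4 * φ (ofMul (rho Γ x)) + 2 * φ (ofMul (rho Γ (permR Γ x))))
            * mR (permR Γ (permR Γ x)) := by
      rw [Finset.mul_sum, Finset.mul_sum, ← Finset.sum_add_distrib, ← Finset.sum_sub_distrib]
      refine Finset.sum_congr rfl (fun x _ => ?_)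
      rw [hβ' x]
      ring
    rw [e2, e1, Finset.mul_sum, ← Finset.sum_sub_distrib]
    refine Finset.sum_congr rfl (fun x _ => ?_)
    have := hr x
    linear_combination (-2 * mR x) * this
  have hγ : φ (ofMul γ₀) = ∑ y, φ (ofMul (sig Γ y)) * mS y + ∑ y, φ (ofMul (rho Γ y)) * mR y := by
    rw [← hw φ]
    have e : kap Γ (γ₀ : SL(2, ℤ)) (x0 Γ)
        = (⟨crep Γ (x0 Γ), crep_x0_mem Γ⟩ : Γ)⁻¹ * γ₀ * ⟨crep Γ (x0 Γ), crep_x0_mem Γ⟩ := by
      apply Subtype.ext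
      rw [coe_kap, smul_x0]
      rfl
    rw [e, ofMul_mul, ofMul_mul, ofMul_inv, map_add, map_add, map_neg]
    ring
  have h7 : (6 : ℤ) * ∑ c, F (cuspElt Γ c) = 6 * φ (ofMul γ₀) := by
    have h6' : (6 : ℤ) * ∑ c, F (cuspElt Γ c)
        = resE φ (cocHom Γ c hc) (permS Γ) (permR Γ) (sig Γ) (rho Γ) (cuspBase Γ) (cuspLen Γ) := h6
    rw [h6', hres, hγ]
    linear_combination (-3 : ℤ) * hA + hB
  linarith

end main

end Fermat.Agent.S41.H95
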