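import Mathlib
import Fermat.Agent.S41.PDRes_helper95
import Fermat.Agent.S41.PDAlg_helper64
import Fermat.Agent.S41.PDLift_helper37

/-!
# The Shapiro dictionary for the residue pairing, abstract part  (helper90, node (C-SHAP) of S41)

In the abstract Schreier setting of `PDRes_helper95` (a finite set `X` with permutations `S`, `R`,
`S² = R³ = 1`, Schreier elements `σ x`, `ρ x` of a group `Γ`):

* every `ℤ`-valued character `φ` of `Γ` has *potentials* `e`, `u`:
  `φ (σ x) = e (S x) - e x`, `φ (ρ x) = u (R x) - u x` (`exists_potS`, `exists_potR`);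
* a function with vanishing sums over the cycles of a permutation `T` is a `T`-coboundary
  (`exists_tpot`);
* **bridge** (`resE_eq_pairing`): for `φ` with potentials `(e, u)` and vanishing cusp sums and `ψ`
  with potentials `(a' + w', c' + w')`, `(a', c')` a W-datum in the sense of `PDAlg_helper64`,
  `resE φ ψ = 6 * ∑ x, (a' x - a' (S x)) * (e x - u x)`;
* **perfectness** (`perfect_abstract`): if every pair of potentials is realised by a character up
  to a gauge (`hSurj`) and characters with coboundary data vanish (`hInj`), then the pairing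
  `resE / 6` is left non-degenerate modulo `p` on the characters that have a `T`-potential.
-/

set_option autoImplicit false

namespace Fermat.Agent.S41.H90

open Additive Finset

section potentials

variable {X : Type*}

/-- An `S`-antisymmetric integral function is an `S`-coboundary. -/
theorem exists_potS (S : Equiv.Perm X) (hS : ∀ x, S (S x) = x) (a : X → ℤ)
    (ha : ∀ x, a (S x) + a x = 0) : ∃ e : X → ℤ, ∀ x, a x = e (S x) - e x := by
  classical
  obtain ⟨ξ, hξ⟩ := H37.exists_pair_sum S hS (fun x => if S x = x then (0 : ℤ) else 1)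
    (fun x => by simp only [S.injective.eq_iff])
    (fun x hx => by simp [hx])
  refine ⟨fun x => - ξ x * a x, fun x => ?_⟩
  have h1 := hξ x
  have h2 := ha x
  show a x = - ξ (S x) * a (S x) - - ξ x * a x
  by_cases hx : S x = x
  · have h0 : a x = 0 := by rw [hx] at h2; omega
    rw [hx, h0]; ring
  · simp only [if_neg hx] at h1
    have h3 : a (S x) = - a x := by linarith
    rw [h3]
    linear_combination (- a x) * h1

/-- An integral function with vanishing sums over the orbits of `R` (`R³ = 1`) is an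
`R`-coboundary. -/
theorem exists_potR (R : Equiv.Perm X) (hR : ∀ x, R (R (R x)) = x) (r : X → ℤ)
    (hr : ∀ x, r (R (R x)) + r (R x) + r x = 0) : ∃ u : X → ℤ, ∀ x, r x = u (R x) - u x := by
  classical
  obtain ⟨ζ, hζ⟩ := H37.exists_triple_sum R hR (fun x => if R x = x then (0 : ℤ) else 1)
    (fun x => by simp only [R.injective.eq_iff])
    (fun x hx => by simp [hx])
  refine ⟨fun x => - (ζ x + ζ (R (R x))) * r x - ζ x * r (R x), fun x => ?_⟩
  have h1 := hζ x
  have h2 := hr x
  show r x = (- (ζ (R x) + ζ (R (R (R x)))) * r (R x) - ζ (R x) * r (R (R x)))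
    - (- (ζ x + ζ (R (R x))) * r x - ζ x * r (R x))
  rw [hR]
  by_cases hx : R x = x
  · have h0 : r x = 0 := by rw [hx, hx] at h2; omega
    rw [hx, hx, h0]; ring
  · simp only [if_neg hx] at h1
    linear_combination (ζ (R x)) * h2 - (r x) * h1

/-- A function whose sums over all closed `T`-paths vanish is a `T`-coboundary. -/
theorem exists_tpot [Finite X] (T : Equiv.Perm X) (f : X → ℤ)
    (hf : ∀ (x : X) (n : ℕ), (T ^ n) x = x → ∑ k ∈ range n, f ((T ^ k) x) = 0) :
    ∃ D : X → ℤ, ∀ x, f x = D (T x) - D x := by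
  classical
  have key : ∀ (r : X) (k d : ℕ), (T ^ k) r = (T ^ (k + d)) r →
      ∑ j ∈ range (k + d), f ((T ^ j) r) = ∑ j ∈ range k, f ((T ^ j) r) := by
    intro r k d h
    rw [Finset.sum_range_add]
    have h0 : ∑ j ∈ range d, f ((T ^ (k + j)) r) = 0 := by
      have h1 := hf ((T ^ k) r) d (by
        rw [← Equiv.Perm.mul_apply, ← pow_add, add_comm]; exact h.symm)
      rw [← h1]
      refine Finset.sum_congr rfl (fun j _ => ?_)
      rw [← Equiv.Perm.mul_apply, ← pow_add, add_comm]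
    rw [h0, add_zero]
  have hindep : ∀ (r : X) (k k' : ℕ), (T ^ k) r = (T ^ k') r →
      ∑ j ∈ range k, f ((T ^ j) r) = ∑ j ∈ range k', f ((T ^ j) r) := by
    intro r k k' h
    rcases le_total k k' with hk | hk
    · obtain ⟨d, rfl⟩ := Nat.exists_eq_add_of_le hk
      exact (key r k d h).symm
    · obtain ⟨d, rfl⟩ := Nat.exists_eq_add_of_le hk
      exact key r k' d h.symm
  let s : Setoid X := Equiv.Perm.SameCycle.setoid T
  let rep : X → X := fun x => (Quotient.mk s x).out
  have hrep : ∀ x, Equiv.Perm.SameCycle T (rep x) x := fun x =>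
    Quotient.exact (Quotient.out_eq (Quotient.mk s x))
  have hrepT : ∀ x, rep (T x) = rep x := by
    intro x
    have h1 : Quotient.mk s (T x) = Quotient.mk s x :=
      Quotient.sound (show Equiv.Perm.SameCycle T (T x) x from
        Equiv.Perm.sameCycle_apply_left.mpr (Equiv.Perm.SameCycle.refl T x))
    show (Quotient.mk s (T x)).out = (Quotient.mk s x).out
    rw [h1]
  have hex : ∀ x, ∃ k : ℕ, (T ^ k) (rep x) = x := fun x => (hrep x).exists_nat_pow_eq
  choose kk hkk using hex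
  refine ⟨fun x => ∑ j ∈ range (kk x), f ((T ^ j) (rep x)), fun x => ?_⟩
  show f x = ∑ j ∈ range (kk (T x)), f ((T ^ j) (rep (T x)))
    - ∑ j ∈ range (kk x), f ((T ^ j) (rep x))
  rw [hrepT]
  have h1 : ∑ j ∈ range (kk (T x)), f ((T ^ j) (rep x))
      = ∑ j ∈ range (kk x + 1), f ((T ^ j) (rep x)) := by
    apply hindep
    have h2 := hkk (T x)
    rw [hrepT] at h2
    rw [h2, pow_succ', Equiv.Perm.mul_apply, hkk x]
  rw [h1, Finset.sum_range_succ, hkk x]
  ring

end potentials

section bridge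

variable {X : Type*} [Fintype X]

/-- reindexing certificate: an integrand which is a sum of an `S`-shift and an `R`-shift
contributes nothing. -/
theorem sum_eq_of_shift (S R : Equiv.Perm X) (L Rhs G₁ G₂ : X → ℤ)
    (h : ∀ x, L x = Rhs x + (G₁ (S x) - G₁ x) + (G₂ (R x) - G₂ x)) :
    ∑ x, L x = ∑ x, Rhs x := by
  rw [Finset.sum_congr rfl (fun x _ => h x), Finset.sum_add_distrib, Finset.sum_add_distrib,
    Finset.sum_sub_distrib, Finset.sum_sub_distrib, Equiv.sum_comp S G₁, Equiv.sum_comp R G₂]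
  ring

/-- The local part of the bridge, first half: elimination of the gauge `w'`. -/
theorem local_bridge₁ (S R : Equiv.Perm X) (a r b' w' : X → ℤ) (ha : ∀ x, a (S x) = - a x)
    (hr : ∀ x, r (R (R x)) = - r x - r (R x)) :
    3 * ∑ x, a x * (- b' x + w' (S x) - w' x)
      - 2 * ∑ x, (r (R x) * (- b' x + w' (R x) - w' x)
          + r (R (R x)) * (- b' (R x) + w' (R (R x)) - w' (R x))
          + r (R (R x)) * (- b' x + w' (R x) - w' x))
      + 6 * ∑ x, a (R x) * (- b' x + w' (R x) - w' x)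
      + 6 * ∑ x, (a (R x) + r x) * (b' x + w' x)
    = ∑ x, (- 3 * (a x * b' x) + 2 * (r (R x) * b' x) + 4 * (r x * b' x)) := by
  rw [Finset.mul_sum, Finset.mul_sum, Finset.mul_sum, Finset.mul_sum, ← Finset.sum_sub_distrib,
    ← Finset.sum_add_distrib, ← Finset.sum_add_distrib]
  refine sum_eq_of_shift S R _ _ (fun x => - 3 * (a x * w' x))
    (fun x => 6 * (a x * w' x) + 2 * (r (R x) * b' x) - 4 * (r x * w' x)
      - 2 * (r (R x) * w' (R x))) (fun x => ?_)
  have h1 := ha x
  have h2 := hr x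
  rw [h1, h2]
  ring

/-- The local part of the bridge, second half: potentials in the left slot. -/
theorem local_bridge₂ (S R : Equiv.Perm X) (hR : ∀ x, R (R (R x)) = x) (e u b' : X → ℤ)
    (hbS : ∀ x, b' (S x) = - b' x) (hbR : ∀ x, b' x + b' (R x) + b' (R (R x)) = 0) :
    ∑ x, (- 3 * ((e (S x) - e x) * b' x) + 2 * ((u (R (R x)) - u (R x)) * b' x)
        + 4 * ((u (R x) - u x) * b' x))
      = ∑ x, 6 * (b' x * (e x - u x)) := by
  refine sum_eq_of_shift S R _ _ (fun x => 3 * (e x * b' x))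
    (fun x => 2 * (u x * b' (R (R x)) + u (R x) * b' (R (R x)) + u x * b' (R x))) (fun x => ?_)
  have h1 := hbS x
  have h2 := hbR x
  rw [hR, h1]
  linear_combination (2 * u x) * h2

variable {Γ : Type*} [Group Γ] {C : Type*} [Fintype C]

omit [Fintype X] in
/-- telescoping a `T`-potential along a `T`-path. -/
theorem sum_tpot_path (χ : Additive Γ →+ ℤ) (S R : Equiv.Perm X) (σ ρ : X → Γ) (D : X → ℤ)
    (hD : ∀ x, χ (ofMul (σ (R x) * ρ x)) = D (S (R x)) - D x) (b : X) (k : ℕ) :
    ∑ j ∈ range k, χ (ofMul (σ (R (((S * R) ^ j) b)) * ρ (((S * R) ^ j) b)))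
      = D (((S * R) ^ k) b) - D b := by
  induction k with
  | zero => simp
  | succ k ih =>
    rw [Finset.sum_range_succ, ih, hD, pow_succ', Equiv.Perm.mul_apply, Equiv.Perm.mul_apply]
    ring

/-- The cusp term of `resE` when the right character has a `T`-potential and the left character
has vanishing cusp sums. -/
theorem cusp_term (φ ψ : Additive Γ →+ ℤ) (S R : Equiv.Perm X) (σ ρ : X → Γ) (base : C → X)
    (len : C → ℕ)
    (hsum : ∀ f : X → ℤ, ∑ x, f x = ∑ c, ∑ k ∈ range (len c), f (((S * R) ^ k) (base c)))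
    (hcusp : ∀ c, ∑ k ∈ range (len c),
      φ (ofMul (σ (R (((S * R) ^ k) (base c))) * ρ (((S * R) ^ k) (base c)))) = 0)
    (D' : X → ℤ) (hD' : ∀ x, ψ (ofMul (σ (R x) * ρ x)) = D' (S (R x)) - D' x) :
    ∑ c, ∑ k ∈ range (len c),
        φ (ofMul (σ (R (((S * R) ^ k) (base c))) * ρ (((S * R) ^ k) (base c))))
          * ∑ j ∈ range k,
            ψ (ofMul (σ (R (((S * R) ^ j) (base c))) * ρ (((S * R) ^ j) (base c))))
      = ∑ x, φ (ofMul (σ (R x) * ρ x)) * D' x := by
  rw [hsum (fun x => φ (ofMul (σ (R x) * ρ x)) * D' x)]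
  refine Finset.sum_congr rfl (fun c _ => ?_)
  have h1 : ∀ k ∈ range (len c),
      φ (ofMul (σ (R (((S * R) ^ k) (base c))) * ρ (((S * R) ^ k) (base c))))
          * ∑ j ∈ range k,
            ψ (ofMul (σ (R (((S * R) ^ j) (base c))) * ρ (((S * R) ^ j) (base c))))
      = φ (ofMul (σ (R (((S * R) ^ k) (base c))) * ρ (((S * R) ^ k) (base c))))
          * D' (((S * R) ^ k) (base c))
        - D' (base c)
          * φ (ofMul (σ (R (((S * R) ^ k) (base c))) * ρ (((S * R) ^ k) (base c)))) := by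
    intro k _
    rw [sum_tpot_path ψ S R σ ρ D' hD']
    ring
  rw [Finset.sum_congr rfl h1, Finset.sum_sub_distrib, ← Finset.mul_sum, hcusp c, mul_zero,
    sub_zero]

/-- **The bridge.**  `φ` has potentials `(e, u)` and vanishing cusp sums; `ψ` has potentials
`(a' + w', c' + w')` for a W-datum `(a', c')`.  Then `resE φ ψ` is `6` times the pairing of
`PDAlg_helper64` of the W-element `b' = (1 - S) a'` with `e - u`. -/
theorem resE_eq_pairing (φ ψ : Additive Γ →+ ℤ) (S R : Equiv.Perm X) (hS : ∀ x, S (S x) = x)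
    (hR : ∀ x, R (R (R x)) = x) (σ ρ : X → Γ) (base : C → X) (len : C → ℕ)
    (hsum : ∀ f : X → ℤ, ∑ x, f x = ∑ c, ∑ k ∈ range (len c), f (((S * R) ^ k) (base c)))
    (e u : X → ℤ) (he : ∀ x, φ (ofMul (σ x)) = e (S x) - e x)
    (hu : ∀ x, φ (ofMul (ρ x)) = u (R x) - u x)
    (hcusp : ∀ c, ∑ k ∈ range (len c),
      φ (ofMul (σ (R (((S * R) ^ k) (base c))) * ρ (((S * R) ^ k) (base c)))) = 0)
    (a' c' w' : X → ℤ) (hW : H64.IsWDatum S R a' c')
    (he' : ∀ x, ψ (ofMul (σ x)) = (a' (S x) + w' (S x)) - (a' x + w' x))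
    (hu' : ∀ x, ψ (ofMul (ρ x)) = (c' (R x) + w' (R x)) - (c' x + w' x)) :
    H95.resE φ ψ S R σ ρ base len = 6 * ∑ x, (a' x - a' (S x)) * (e x - u x) := by
  -- the data of `ψ` in W-form
  have hψσ : ∀ x, ψ (ofMul (σ x)) = - (a' x - a' (S x)) + w' (S x) - w' x := by
    intro x; rw [he']; ring
  have hψρ : ∀ x, ψ (ofMul (ρ x)) = - (a' x - a' (S x)) + w' (R x) - w' x := by
    intro x; rw [hu']; linear_combination hW x
  have hD' : ∀ x, ψ (ofMul (σ (R x) * ρ x))
      = (a' (S (R x)) - a' (S (S (R x))) + w' (S (R x))) - (a' x - a' (S x) + w' x) := by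
    intro x
    rw [ofMul_mul, map_add, he', hu', hS]
    linear_combination hW x
  have hφτ : ∀ x, φ (ofMul (σ (R x) * ρ x)) = (e (S (R x)) - e (R x)) + (u (R x) - u x) := by
    intro x
    rw [ofMul_mul, map_add, he, hu]
  have h4 := cusp_term φ ψ S R σ ρ base len hsum hcusp (fun x => a' x - a' (S x) + w' x) hD'
  have hbS : ∀ x, (fun y => a' y - a' (S y)) (S x) = - (fun y => a' y - a' (S y)) x := by
    intro x
    show a' (S x) - a' (S (S x)) = - (a' x - a' (S x))
    rw [hS]; ring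
  have hbR : ∀ x, (fun y => a' y - a' (S y)) x + (fun y => a' y - a' (S y)) (R x)
      + (fun y => a' y - a' (S y)) (R (R x)) = 0 := by
    intro x
    show (a' x - a' (S x)) + (a' (R x) - a' (S (R x))) + (a' (R (R x)) - a' (S (R (R x)))) = 0
    have h1 := hW x
    have h2 := hW (R x)
    have h3 := hW (R (R x))
    rw [hR] at h3
    linear_combination h1 + h2 + h3
  have hl1 := local_bridge₁ S R (fun x => e (S x) - e x) (fun x => u (R x) - u x)
    (fun y => a' y - a' (S y)) w'
    (fun x => by show e (S (S x)) - e (S x) = - (e (S x) - e x); rw [hS]; ring)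
    (fun x => by
      show u (R (R (R x))) - u (R (R x)) = - (u (R x) - u x) - (u (R (R x)) - u (R x))
      rw [hR]; ring)
  have hl2 := local_bridge₂ S R hR e u (fun y => a' y - a' (S y)) hbS hbR
  rw [H95.resE, h4]
  simp only [he, hu, hψσ, hψρ, hφτ]
  rw [← Finset.mul_sum] at hl2
  rw [← hl2, ← hl1]

end bridge

section perfect

variable {Γ : Type*} [Group Γ] {X : Type*} [Fintype X] {C : Type*} [Fintype C]

/-- integral characters vanish on involutions. -/
theorem map_invol_int (χ : Additive Γ →+ ℤ) {ε : Γ} (hε : ε * ε = 1) : χ (ofMul ε) = 0 := by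
  have h : χ (ofMul ε) + χ (ofMul ε) = 0 := by
    rw [← map_add, ← ofMul_mul, hε, ofMul_one, map_zero]
  omega

omit [Fintype X] in
/-- Every integral character has potentials. -/
theorem exists_pot (χ : Additive Γ →+ ℤ) (S R : Equiv.Perm X) (hS : ∀ x, S (S x) = x)
    (hR : ∀ x, R (R (R x)) = x) (σ ρ : X → Γ) {ε : Γ} (hε : ε * ε = 1)
    (hσ : ∀ x, σ (S x) * σ x = ε) (hρ : ∀ x, ρ (R (R x)) * ρ (R x) * ρ x = ε) :
    ∃ e u : X → ℤ, (∀ x, χ (ofMul (σ x)) = e (S x) - e x) ∧
      (∀ x, χ (ofMul (ρ x)) = u (R x) - u x) := by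
  obtain ⟨e, he⟩ := exists_potS S hS (fun x => χ (ofMul (σ x))) (fun x => by
    show χ (ofMul (σ (S x))) + χ (ofMul (σ x)) = 0
    rw [← map_add, ← ofMul_mul, hσ, map_invol_int χ hε])
  obtain ⟨u, hu⟩ := exists_potR R hR (fun x => χ (ofMul (ρ x))) (fun x => by
    show χ (ofMul (ρ (R (R x)))) + χ (ofMul (ρ (R x))) + χ (ofMul (ρ x)) = 0
    rw [← map_add, ← map_add, ← ofMul_mul, ← ofMul_mul, hρ, map_invol_int χ hε])
  exact ⟨e, u, he, hu⟩

omit [Fintype X] in
/-- The `T`-potential of a character realising a W-datum up to a gauge. -/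
theorem tpot_of_wDatum (ψ : Additive Γ →+ ℤ) (S R : Equiv.Perm X) (hS : ∀ x, S (S x) = x)
    (σ ρ : X → Γ) (a' c' w' : X → ℤ) (hW : H64.IsWDatum S R a' c')
    (he' : ∀ x, ψ (ofMul (σ x)) = (a' (S x) + w' (S x)) - (a' x + w' x))
    (hu' : ∀ x, ψ (ofMul (ρ x)) = (c' (R x) + w' (R x)) - (c' x + w' x)) (x : X) :
    ψ (ofMul (σ (R x) * ρ x)) = (fun y => a' y - a' (S y) + w' y) (S (R x))
      - (fun y => a' y - a' (S y) + w' y) x := by
  show _ = (a' (S (R x)) - a' (S (S (R x))) + w' (S (R x))) - (a' x - a' (S x) + w' x)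
  rw [ofMul_mul, map_add, he', hu', hS]
  linear_combination hW x

omit [Fintype X] in
/-- The W-datum of a character with potentials `(e, u)` and `T`-potential `D`. -/
theorem wDatum_of_tpot (φ : Additive Γ →+ ℤ) (S R : Equiv.Perm X) (hS : ∀ x, S (S x) = x)
    (σ ρ : X → Γ) (e u D : X → ℤ) (he : ∀ x, φ (ofMul (σ x)) = e (S x) - e x)
    (hu : ∀ x, φ (ofMul (ρ x)) = u (R x) - u x)
    (hD : ∀ x, φ (ofMul (σ (R x) * ρ x)) = D (S (R x)) - D x) :
    H64.IsWDatum S R (fun x => e (S x) - D (S x)) (fun x => e (S x) - D (S x) - (e x - u x)) := by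
  intro x
  have hφτ : D (S (R x)) - D x = (e (S (R x)) - e (R x)) + (u (R x) - u x) := by
    rw [← hD, ofMul_mul, map_add, he, hu]
  show (e (S x) - D (S x)) - (e (S (S x)) - D (S (S x)))
    = (e (S x) - D (S x) - (e x - u x)) - (e (S (R x)) - D (S (R x)) - (e (R x) - u (R x)))
  rw [hS]
  linear_combination (-1 : ℤ) * hφτ

/-- **Left non-degeneracy modulo `p` of the residue pairing, abstract form.**  `hSurj`: every
pair of potentials is realised by a character up to a gauge; `hInj`: a character with coboundary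
data vanishes.  If `φ` has a `T`-potential and `resE φ ψ / 6` is divisible by `p` for every `ψ`
with a `T`-potential, then `φ = p • φ'` with a `T`-potential for `φ'`. -/
theorem perfect_abstract (p : ℕ) [Fact p.Prime] (S R : Equiv.Perm X) (hS : ∀ x, S (S x) = x)
    (hR : ∀ x, R (R (R x)) = x) (σ ρ : X → Γ) {ε : Γ} (hε : ε * ε = 1)
    (hσ : ∀ x, σ (S x) * σ x = ε) (hρ : ∀ x, ρ (R (R x)) * ρ (R x) * ρ x = ε)
    (base : C → X) (len : C → ℕ)
    (hsum : ∀ f : X → ℤ, ∑ x, f x = ∑ c, ∑ k ∈ range (len c), f (((S * R) ^ k) (base c)))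
    (hper : ∀ c, ((S * R) ^ len c) (base c) = base c)
    (hSurj : ∀ e u : X → ℤ, ∃ (ψ : Additive Γ →+ ℤ) (w : X → ℤ),
      (∀ x, ψ (ofMul (σ x)) = (e (S x) + w (S x)) - (e x + w x)) ∧
      (∀ x, ψ (ofMul (ρ x)) = (u (R x) + w (R x)) - (u x + w x)))
    (hInj : ∀ (χ : Additive Γ →+ ℤ) (w : X → ℤ), (∀ x, χ (ofMul (σ x)) = w (S x) - w x) →
      (∀ x, χ (ofMul (ρ x)) = w (R x) - w x) → χ = 0)
    (φ : Additive Γ →+ ℤ) (D : X → ℤ)
    (hD : ∀ x, φ (ofMul (σ (R x) * ρ x)) = D (S (R x)) - D x)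
    (H : ∀ (ψ : Additive Γ →+ ℤ) (D' : X → ℤ),
      (∀ x, ψ (ofMul (σ (R x) * ρ x)) = D' (S (R x)) - D' x) →
      ∃ z : ℤ, (p : ℤ) ∣ z ∧ 6 * z = H95.resE φ ψ S R σ ρ base len) :
    ∃ (φ' : Additive Γ →+ ℤ) (D' : X → ℤ),
      (∀ x, φ' (ofMul (σ (R x) * ρ x)) = D' (S (R x)) - D' x) ∧ φ = (p : ℤ) • φ' := by
  obtain ⟨e, u, he, hu⟩ := exists_pot φ S R hS hR σ ρ hε hσ hρ
  have hcusp : ∀ c, ∑ k ∈ range (len c),
      φ (ofMul (σ (R (((S * R) ^ k) (base c))) * ρ (((S * R) ^ k) (base c)))) = 0 := by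
    intro c
    rw [sum_tpot_path φ S R σ ρ D hD, hper, sub_self]
  have hWφ := wDatum_of_tpot φ S R hS σ ρ e u D he hu hD
  obtain ⟨a'', c'', α, β, hW'', hα, hβ, hdec⟩ := H64.wDatum_nondeg p S R hWφ (by
    intro a' c' hW'
    obtain ⟨ψ, w', he', hu'⟩ := hSurj a' c'
    obtain ⟨z, hz, h6⟩ := H ψ (fun y => a' y - a' (S y) + w' y)
      (tpot_of_wDatum ψ S R hS σ ρ a' c' w' hW' he' hu')
    have hb := resE_eq_pairing φ ψ S R hS hR σ ρ base len hsum e u he hu hcusp a' c' w' hW'
      he' hu'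
    have hz' : z = ∑ x, (a' x - a' (S x)) * (e x - u x) := by
      have h66 : (6 : ℤ) * z = 6 * ∑ x, (a' x - a' (S x)) * (e x - u x) := by rw [h6, hb]
      exact mul_left_cancel₀ (by norm_num) h66
    have hsame : ∑ x, (a' x - a' (S x)) * ((fun x => e (S x) - D (S x)) x
        - (fun x => e (S x) - D (S x) - (e x - u x)) x)
        = ∑ x, (a' x - a' (S x)) * (e x - u x) := by
      refine Finset.sum_congr rfl (fun x _ => ?_)
      ring
    rw [hsame, ← hz']
    exact hz)
  obtain ⟨φ'', w'', he'', hu''⟩ := hSurj a'' c''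
  refine ⟨φ'', fun y => a'' y - a'' (S y) + w'' y,
    tpot_of_wDatum φ'' S R hS σ ρ a'' c'' w'' hW'' he'' hu'', ?_⟩
  have hχ : φ - (p : ℤ) • φ'' = 0 := by
    apply hInj _ (fun x => e x - p * (a'' x + w'' x) - α x)
    · intro x
      show φ (ofMul (σ x)) - (p : ℤ) • φ'' (ofMul (σ x))
        = (e (S x) - p * (a'' (S x) + w'' (S x)) - α (S x)) - (e x - p * (a'' x + w'' x) - α x)
      rw [he, he'', smul_eq_mul]
      linear_combination hα x
    · intro x
      show φ (ofMul (ρ x)) - (p : ℤ) • φ'' (ofMul (ρ x))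
        = (e (R x) - p * (a'' (R x) + w'' (R x)) - α (R x)) - (e x - p * (a'' x + w'' x) - α x)
      rw [hu, hu'', smul_eq_mul]
      have h1 := hdec x
      have h2 := hdec (R x)
      linear_combination h1 - h2 - hβ x
  exact sub_eq_zero.mp hχ

end perfect

end Fermat.Agent.S41.H90
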