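import Mathlib
import Fermat.Prelude.Def_ModularCurve_PeriodMap
import Fermat.Agent.S41.PDShap_helper90
import Fermat.Agent.S21.Parabolic_helper23

/-!
# The Shapiro dictionary for the residue pairing, `SL(2,ℤ)` part  (helper90, node (C-SHAP) of S41)

`Γ ≤ SL(2,ℤ)` with `-1 ∈ Γ`, `X = SL(2,ℤ) ⧸ Γ`, forward Schreier elements
`kp Γ g x = rep (g • x)⁻¹ * g * rep x ∈ Γ`.

* `kinj`: a character whose Schreier data is a coboundary vanishes;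
* `ksurj`: every pair of potentials is realised by a character up to a gauge (via the
  presentation of `SL(2,ℤ)` of `SL2Pres_helper44`);
* `isParabolicHom_iff_tpot`: parabolic characters are those with a `T`-potential;
* `perfect_h90`: left non-degeneracy modulo `p` of the residue pairing on parabolic characters.
-/

set_option autoImplicit false

open scoped MatrixGroups

namespace Fermat.Agent.S41.H90

open Additive Finset ModularGroup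

section kp

variable (Γ : Subgroup SL(2, ℤ))

theorem kp_mem (g : SL(2, ℤ)) (x : SL(2, ℤ) ⧸ Γ) :
    (H37.rep Γ (g • x))⁻¹ * g * H37.rep Γ x ∈ Γ := by
  rw [mul_assoc, ← QuotientGroup.eq, H37.rep_spec]
  have h : ((g * H37.rep Γ x : SL(2, ℤ)) : SL(2, ℤ) ⧸ Γ)
      = g • ((H37.rep Γ x : SL(2, ℤ)) : SL(2, ℤ) ⧸ Γ) := rfl
  rw [h, H37.rep_spec]

/-- the forward Schreier element `κ(g, x) = rep (g • x)⁻¹ * g * rep x ∈ Γ`. -/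
noncomputable def kp (g : SL(2, ℤ)) (x : SL(2, ℤ) ⧸ Γ) : Γ :=
  ⟨(H37.rep Γ (g • x))⁻¹ * g * H37.rep Γ x, kp_mem Γ g x⟩

theorem kp_mul (g h : SL(2, ℤ)) (x : SL(2, ℤ) ⧸ Γ) :
    kp Γ (g * h) x = kp Γ g (h • x) * kp Γ h x := by
  apply Subtype.ext
  simp only [kp, Subgroup.coe_mul, mul_smul]
  group

theorem kp_one (x : SL(2, ℤ) ⧸ Γ) : kp Γ 1 x = 1 := by
  apply Subtype.ext
  simp [kp]

theorem neg_one_comm (g : SL(2, ℤ)) : (-1 : SL(2, ℤ)) * g = g * (-1) := by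
  rw [neg_mul, mul_neg, one_mul, mul_one]

theorem kp_neg_one (hneg : (-1 : SL(2, ℤ)) ∈ Γ) (x : SL(2, ℤ) ⧸ Γ) :
    kp Γ (-1) x = ⟨-1, hneg⟩ := by
  apply Subtype.ext
  show (H37.rep Γ ((-1 : SL(2, ℤ)) • x))⁻¹ * (-1) * H37.rep Γ x = -1
  rw [H37.neg_one_smul_quot Γ hneg, mul_assoc, neg_one_comm, ← mul_assoc, inv_mul_cancel, one_mul]

variable {A : Type*} [AddCommGroup A]

/-- the elements `g` on which the Shapiro cocycle of `χ` is the coboundary of `w`. -/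
def cobSub (χ : Additive Γ →+ A) (w : SL(2, ℤ) ⧸ Γ → A) : Subgroup SL(2, ℤ) where
  carrier := {g | ∀ x, χ (ofMul (kp Γ g x)) = w (g • x) - w x}
  one_mem' := by
    intro x
    rw [kp_one, one_smul, sub_self, ofMul_one, map_zero]
  mul_mem' := by
    intro g h hg hh x
    rw [kp_mul, ofMul_mul, map_add, hg (h • x), hh x, mul_smul]
    abel
  inv_mem' := by
    intro g hg x
    have h1 := kp_mul Γ g g⁻¹ x
    rw [mul_inv_cancel, kp_one] at h1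
    have h2 : χ (ofMul (kp Γ g (g⁻¹ • x))) + χ (ofMul (kp Γ g⁻¹ x)) = 0 := by
      rw [← map_add, ← ofMul_mul, ← h1, ofMul_one, map_zero]
    have h3 := hg (g⁻¹ • x)
    rw [smul_inv_smul] at h3
    rw [h3] at h2
    rw [← sub_eq_zero]
    rw [← h2]
    abel

theorem mem_cobSub {χ : Additive Γ →+ A} {w : SL(2, ℤ) ⧸ Γ → A} {g : SL(2, ℤ)} :
    g ∈ cobSub Γ χ w ↔ ∀ x, χ (ofMul (kp Γ g x)) = w (g • x) - w x := Iff.rfl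

theorem cobSub_eq_top {χ : Additive Γ →+ A} {w : SL(2, ℤ) ⧸ Γ → A}
    (hS : S ∈ cobSub Γ χ w) (hR : S * T ∈ cobSub Γ χ w) : cobSub Γ χ w = ⊤ := by
  rw [eq_top_iff, ← SpecialLinearGroup.SL2Z_generators, Subgroup.closure_le]
  rintro g (rfl | rfl)
  · exact hS
  · have h : (T : SL(2, ℤ)) = S⁻¹ * (S * T) := by group
    rw [SetLike.mem_coe, h]
    exact (cobSub Γ χ w).mul_mem ((cobSub Γ χ w).inv_mem hS) hR

/-- If `γ = δ g δ⁻¹ ∈ Γ` then `g` fixes the coset of `δ⁻¹` and `χ γ` is the value of the Shapiro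
cocycle of `χ` at `(g, δ⁻¹ Γ)`. -/
theorem conj_base (χ : Additive Γ →+ A) (γ : Γ) (δ g : SL(2, ℤ))
    (h : (γ : SL(2, ℤ)) = δ * g * δ⁻¹) :
    g • ((δ⁻¹ : SL(2, ℤ)) : SL(2, ℤ) ⧸ Γ) = ((δ⁻¹ : SL(2, ℤ)) : SL(2, ℤ) ⧸ Γ) ∧
      χ (ofMul (kp Γ g ((δ⁻¹ : SL(2, ℤ)) : SL(2, ℤ) ⧸ Γ))) = χ (ofMul γ) := by
  have hfix : g • ((δ⁻¹ : SL(2, ℤ)) : SL(2, ℤ) ⧸ Γ) = ((δ⁻¹ : SL(2, ℤ)) : SL(2, ℤ) ⧸ Γ) := by
    show ((g * δ⁻¹ : SL(2, ℤ)) : SL(2, ℤ) ⧸ Γ) = ((δ⁻¹ : SL(2, ℤ)) : SL(2, ℤ) ⧸ Γ)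
    rw [QuotientGroup.eq]
    have h1 : (g * δ⁻¹)⁻¹ * δ⁻¹ = ((γ : SL(2, ℤ)))⁻¹ := by rw [h]; group
    rw [h1]
    exact Γ.inv_mem γ.2
  refine ⟨hfix, ?_⟩
  have hmem : δ * H37.rep Γ ((δ⁻¹ : SL(2, ℤ)) : SL(2, ℤ) ⧸ Γ) ∈ Γ := by
    have h1 := H37.rep_spec Γ ((δ⁻¹ : SL(2, ℤ)) : SL(2, ℤ) ⧸ Γ)
    rw [eq_comm, QuotientGroup.eq, inv_inv] at h1
    exact h1
  have hk : kp Γ g ((δ⁻¹ : SL(2, ℤ)) : SL(2, ℤ) ⧸ Γ)
      = (⟨_, hmem⟩ : Γ)⁻¹ * γ * ⟨_, hmem⟩ := by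
    apply Subtype.ext
    show (H37.rep Γ (g • ((δ⁻¹ : SL(2, ℤ)) : SL(2, ℤ) ⧸ Γ)))⁻¹ * g
        * H37.rep Γ ((δ⁻¹ : SL(2, ℤ)) : SL(2, ℤ) ⧸ Γ)
      = (δ * H37.rep Γ ((δ⁻¹ : SL(2, ℤ)) : SL(2, ℤ) ⧸ Γ))⁻¹ * (γ : SL(2, ℤ))
        * (δ * H37.rep Γ ((δ⁻¹ : SL(2, ℤ)) : SL(2, ℤ) ⧸ Γ))
    rw [hfix, h]
    group
  rw [hk, ofMul_mul, ofMul_mul, ofMul_inv, map_add, map_add, map_neg]
  abel

/-- **(K-INJ)** a character whose Schreier data is a coboundary vanishes. -/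
theorem kinj (χ : Additive Γ →+ A) (w : SL(2, ℤ) ⧸ Γ → A)
    (h1 : ∀ x, χ (ofMul (kp Γ S x)) = w ((S : SL(2, ℤ)) • x) - w x)
    (h2 : ∀ x, χ (ofMul (kp Γ (S * T) x)) = w ((S * T : SL(2, ℤ)) • x) - w x) : χ = 0 := by
  have htop := cobSub_eq_top Γ (χ := χ) (w := w) h1 h2
  refine AddMonoidHom.ext (fun γ' => ?_)
  have key : ∀ γ : Γ, χ (ofMul γ) = 0 := by
    intro γ
    have hγ : (γ : SL(2, ℤ)) ∈ cobSub Γ χ w := by rw [htop]; exact Subgroup.mem_top _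
    obtain ⟨hfix, hval⟩ := conj_base Γ χ γ 1 (γ : SL(2, ℤ)) (by group)
    rw [← hval, hγ, hfix, sub_self]
  exact key (toMul γ')

end kp

section surj

variable (Γ : Subgroup SL(2, ℤ))

/-- the permutation `(x, n) ↦ (g • x, n + f x)` of `X × ℤ`. -/
def shiftPerm (g : SL(2, ℤ)) (f : SL(2, ℤ) ⧸ Γ → ℤ) : Equiv.Perm ((SL(2, ℤ) ⧸ Γ) × ℤ) where
  toFun q := (g • q.1, q.2 + f q.1)
  invFun q := (g⁻¹ • q.1, q.2 - f (g⁻¹ • q.1))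
  left_inv q := by
    refine Prod.ext ?_ ?_
    · show g⁻¹ • g • q.1 = q.1
      rw [inv_smul_smul]
    · show q.2 + f q.1 - f (g⁻¹ • g • q.1) = q.2
      rw [inv_smul_smul]; ring
  right_inv q := by
    refine Prod.ext ?_ ?_
    · show g • g⁻¹ • q.1 = q.1
      rw [smul_inv_smul]
    · show q.2 - f (g⁻¹ • q.1) + f (g⁻¹ • q.1) = q.2
      ring

theorem shiftPerm_apply (g : SL(2, ℤ)) (f : SL(2, ℤ) ⧸ Γ → ℤ) (x : SL(2, ℤ) ⧸ Γ) (n : ℤ) :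
    shiftPerm Γ g f (x, n) = (g • x, n + f x) := rfl

theorem shiftPerm_mul (g h : SL(2, ℤ)) (f f' : SL(2, ℤ) ⧸ Γ → ℤ) :
    shiftPerm Γ g f * shiftPerm Γ h f' = shiftPerm Γ (g * h) (fun x => f' x + f (h • x)) := by
  refine Equiv.ext (fun q => ?_)
  obtain ⟨x, n⟩ := q
  rw [Equiv.Perm.mul_apply, shiftPerm_apply, shiftPerm_apply, shiftPerm_apply, mul_smul, add_assoc]

theorem shiftPerm_eq_one (g : SL(2, ℤ)) (f : SL(2, ℤ) ⧸ Γ → ℤ) (hg : ∀ x : SL(2, ℤ) ⧸ Γ, g • x = x)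
    (hf : ∀ x, f x = 0) : shiftPerm Γ g f = 1 := by
  refine Equiv.ext (fun q => ?_)
  obtain ⟨x, n⟩ := q
  rw [shiftPerm_apply, hg, hf, add_zero]
  rfl

/-- **Cocycles from admissible data** (presentation of `SL(2,ℤ)`). -/
theorem exists_coc (hneg : (-1 : SL(2, ℤ)) ∈ Γ) (a r : SL(2, ℤ) ⧸ Γ → ℤ)
    (ha : ∀ x, a ((S : SL(2, ℤ)) • x) + a x = 0)
    (hr : ∀ x, r ((S * T : SL(2, ℤ)) • (S * T : SL(2, ℤ)) • x) + r ((S * T : SL(2, ℤ)) • x)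
      + r x = 0) :
    ∃ c : SL(2, ℤ) → SL(2, ℤ) ⧸ Γ → ℤ, (∀ g h x, c (g * h) x = c g (h • x) + c h x) ∧
      (∀ x, c S x = a x) ∧ (∀ x, c (S * T) x = r x) := by
  have hs2 : shiftPerm Γ S a ^ 2 = 1 := by
    rw [pow_two, shiftPerm_mul]
    refine shiftPerm_eq_one Γ _ _ (fun x => ?_) (fun x => ?_)
    · rw [H37.S_mul_S_eq, H37.neg_one_smul_quot Γ hneg]
    · have := ha x
      show a x + a ((S : SL(2, ℤ)) • x) = 0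
      omega
  have hs4 : shiftPerm Γ S a ^ 4 = 1 := by
    have h : shiftPerm Γ S a ^ 4 = (shiftPerm Γ S a ^ 2) ^ 2 := by rw [← pow_mul]
    rw [h, hs2, one_pow]
  have hr3 : shiftPerm Γ (S * T) r ^ 3 = shiftPerm Γ S a ^ 2 := by
    rw [hs2, pow_succ, pow_two, shiftPerm_mul, shiftPerm_mul]
    refine shiftPerm_eq_one Γ _ _ (fun x => ?_) (fun x => ?_)
    · rw [H37.R_cube_eq, H37.neg_one_smul_quot Γ hneg]
    · have := hr x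
      show r x + (r ((S * T : SL(2, ℤ)) • x)
        + r ((S * T : SL(2, ℤ)) • (S * T : SL(2, ℤ)) • x)) = 0
      omega
  obtain ⟨Φ, ⟨hΦS, hΦR⟩, -⟩ := H44.exists_unique_monoidHom_SL2Z_SR (shiftPerm Γ S a)
    (shiftPerm Γ (S * T) r) hs4 hr3
  have hshift : ∀ g : SL(2, ℤ), ∃ f : SL(2, ℤ) ⧸ Γ → ℤ, Φ g = shiftPerm Γ g f := by
    let K : Subgroup SL(2, ℤ) :=
      { carrier := {g | ∃ f : SL(2, ℤ) ⧸ Γ → ℤ, Φ g = shiftPerm Γ g f}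
        one_mem' := ⟨fun _ => 0, by
          rw [map_one]
          exact (shiftPerm_eq_one Γ 1 _ (fun x => one_smul _ x) (fun _ => rfl)).symm⟩
        mul_mem' := by
          rintro g h ⟨f, hf⟩ ⟨f', hf'⟩
          exact ⟨_, by rw [map_mul, hf, hf', shiftPerm_mul]⟩
        inv_mem' := by
          rintro g ⟨f, hf⟩
          refine ⟨fun x => - f (g⁻¹ • x), ?_⟩
          rw [map_inv, hf]
          apply inv_eq_of_mul_eq_one_right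
          rw [shiftPerm_mul]
          refine shiftPerm_eq_one Γ _ _ (fun x => ?_) (fun x => ?_)
          · rw [mul_inv_cancel, one_smul]
          · show - f (g⁻¹ • x) + f (g⁻¹ • x) = 0
            ring }
    have hK : K = ⊤ := by
      rw [eq_top_iff, ← SpecialLinearGroup.SL2Z_generators, Subgroup.closure_le]
      rintro g (rfl | rfl)
      · exact ⟨a, hΦS⟩
      · have h : (T : SL(2, ℤ)) = S⁻¹ * (S * T) := by group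
        rw [SetLike.mem_coe, h]
        exact K.mul_mem (K.inv_mem ⟨a, hΦS⟩) ⟨r, hΦR⟩
    intro g
    have hg : g ∈ K := by rw [hK]; exact Subgroup.mem_top _
    exact hg
  choose F hF using hshift
  have hval : ∀ (g : SL(2, ℤ)) (f : SL(2, ℤ) ⧸ Γ → ℤ), Φ g = shiftPerm Γ g f → ∀ x, F g x = f x := by
    intro g f hf x
    have h1 := hF g
    rw [hf] at h1
    have h2 := congrArg (fun P : Equiv.Perm ((SL(2, ℤ) ⧸ Γ) × ℤ) => (P (x, 0)).2) h1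
    simp only [shiftPerm_apply, zero_add] at h2
    exact h2.symm
  refine ⟨F, ?_, hval S a hΦS, hval (S * T) r hΦR⟩
  intro g h x
  have h1 : Φ (g * h) = shiftPerm Γ (g * h) (fun x => F h x + F g (h • x)) := by
    rw [map_mul, hF g, hF h, shiftPerm_mul]
  rw [hval (g * h) _ h1 x]
  ring

/-- **(K-SURJ)** every pair of potentials is realised by a character up to a gauge. -/
theorem ksurj (hneg : (-1 : SL(2, ℤ)) ∈ Γ) (e u : SL(2, ℤ) ⧸ Γ → ℤ) :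
    ∃ (ψ : Additive Γ →+ ℤ) (w : SL(2, ℤ) ⧸ Γ → ℤ),
      (∀ x, ψ (ofMul (kp Γ S x))
        = (e ((S : SL(2, ℤ)) • x) + w ((S : SL(2, ℤ)) • x)) - (e x + w x)) ∧
      (∀ x, ψ (ofMul (kp Γ (S * T) x))
        = (u ((S * T : SL(2, ℤ)) • x) + w ((S * T : SL(2, ℤ)) • x)) - (u x + w x)) := by
  obtain ⟨c, hc, hcS, hcR⟩ := exists_coc Γ hneg (fun x => e ((S : SL(2, ℤ)) • x) - e x)
    (fun x => u ((S * T : SL(2, ℤ)) • x) - u x)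
    (fun x => by
      show e ((S : SL(2, ℤ)) • (S : SL(2, ℤ)) • x) - e ((S : SL(2, ℤ)) • x)
        + (e ((S : SL(2, ℤ)) • x) - e x) = 0
      rw [← mul_smul, H37.S_mul_S_eq, H37.neg_one_smul_quot Γ hneg]; ring)
    (fun x => by
      show u ((S * T : SL(2, ℤ)) • (S * T : SL(2, ℤ)) • (S * T : SL(2, ℤ)) • x)
          - u ((S * T : SL(2, ℤ)) • (S * T : SL(2, ℤ)) • x)
        + (u ((S * T : SL(2, ℤ)) • (S * T : SL(2, ℤ)) • x) - u ((S * T : SL(2, ℤ)) • x))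
        + (u ((S * T : SL(2, ℤ)) • x) - u x) = 0
      have h3 : (S * T : SL(2, ℤ)) • (S * T : SL(2, ℤ)) • (S * T : SL(2, ℤ)) • x = x := by
        rw [← mul_smul, ← mul_smul, H37.R_cube_eq, H37.neg_one_smul_quot Γ hneg]
      rw [h3]; ring)
  have hx₀ : ∀ γ : Γ, (γ : SL(2, ℤ)) • ((1 : SL(2, ℤ)) : SL(2, ℤ) ⧸ Γ)
      = ((1 : SL(2, ℤ)) : SL(2, ℤ) ⧸ Γ) := by
    intro γ
    show (((γ : SL(2, ℤ)) * 1 : SL(2, ℤ)) : SL(2, ℤ) ⧸ Γ) = ((1 : SL(2, ℤ)) : SL(2, ℤ) ⧸ Γ)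
    rw [mul_one, QuotientGroup.eq, mul_one]
    exact Γ.inv_mem γ.2
  let ψ : Additive Γ →+ ℤ := AddMonoidHom.mk'
    (fun γ => c ((toMul γ : Γ) : SL(2, ℤ)) ((1 : SL(2, ℤ)) : SL(2, ℤ) ⧸ Γ)) (by
      intro γ δ
      show c (((toMul γ * toMul δ : Γ)) : SL(2, ℤ)) _ = _
      rw [Subgroup.coe_mul, hc, hx₀])
  have hψ : ∀ γ : Γ, ψ (ofMul γ) = c (γ : SL(2, ℤ)) ((1 : SL(2, ℤ)) : SL(2, ℤ) ⧸ Γ) :=
    fun γ => rfl
  have hrep : ∀ x : SL(2, ℤ) ⧸ Γ, H37.rep Γ x • ((1 : SL(2, ℤ)) : SL(2, ℤ) ⧸ Γ) = x := by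
    intro x
    show ((H37.rep Γ x * 1 : SL(2, ℤ)) : SL(2, ℤ) ⧸ Γ) = x
    rw [mul_one, H37.rep_spec]
  have key : ∀ (g : SL(2, ℤ)) (x : SL(2, ℤ) ⧸ Γ), ψ (ofMul (kp Γ g x))
      = c g x + c (H37.rep Γ x) ((1 : SL(2, ℤ)) : SL(2, ℤ) ⧸ Γ)
        - c (H37.rep Γ (g • x)) ((1 : SL(2, ℤ)) : SL(2, ℤ) ⧸ Γ) := by
    intro g x
    have h1 : H37.rep Γ (g • x) * (kp Γ g x : SL(2, ℤ)) = g * H37.rep Γ x := by
      show H37.rep Γ (g • x) * ((H37.rep Γ (g • x))⁻¹ * g * H37.rep Γ x) = _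
      group
    have h2 := hc (H37.rep Γ (g • x)) (kp Γ g x : SL(2, ℤ)) ((1 : SL(2, ℤ)) : SL(2, ℤ) ⧸ Γ)
    rw [h1, hc, hx₀, hrep] at h2
    rw [hψ]
    linarith
  refine ⟨ψ, fun x => - c (H37.rep Γ x) ((1 : SL(2, ℤ)) : SL(2, ℤ) ⧸ Γ), fun x => ?_, fun x => ?_⟩
  · rw [key, hcS]; ring
  · rw [key, hcR]; ring

end surj

section final

open ModularCurve.Period

variable (Γ : Subgroup SL(2, ℤ))

/-- the permutation of the coset space induced by `S`. -/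
def pS : Equiv.Perm (SL(2, ℤ) ⧸ Γ) := MulAction.toPerm (S : SL(2, ℤ))

/-- the permutation of the coset space induced by `R = S * T`. -/
def pR : Equiv.Perm (SL(2, ℤ) ⧸ Γ) := MulAction.toPerm (S * T : SL(2, ℤ))

theorem pS_apply (x : SL(2, ℤ) ⧸ Γ) : pS Γ x = (S : SL(2, ℤ)) • x := rfl

theorem pR_apply (x : SL(2, ℤ) ⧸ Γ) : pR Γ x = (S * T : SL(2, ℤ)) • x := rfl

theorem pS_pS (hneg : (-1 : SL(2, ℤ)) ∈ Γ) (x : SL(2, ℤ) ⧸ Γ) : pS Γ (pS Γ x) = x := by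
  rw [pS_apply, pS_apply, ← mul_smul, H37.S_mul_S_eq, H37.neg_one_smul_quot Γ hneg]

theorem pR_pR_pR (hneg : (-1 : SL(2, ℤ)) ∈ Γ) (x : SL(2, ℤ) ⧸ Γ) :
    pR Γ (pR Γ (pR Γ x)) = x := by
  rw [pR_apply, pR_apply, pR_apply, ← mul_smul, ← mul_smul, H37.R_cube_eq,
    H37.neg_one_smul_quot Γ hneg]

theorem SST_smul (hneg : (-1 : SL(2, ℤ)) ∈ Γ) (x : SL(2, ℤ) ⧸ Γ) :
    (S * (S * T) : SL(2, ℤ)) • x = (T : SL(2, ℤ)) • x := by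
  rw [← mul_assoc, H37.S_mul_S_eq, mul_smul, H37.neg_one_smul_quot Γ hneg]

theorem pT_pow_apply (hneg : (-1 : SL(2, ℤ)) ∈ Γ) (n : ℕ) (x : SL(2, ℤ) ⧸ Γ) :
    ((pS Γ * pR Γ) ^ n) x = (T ^ n : SL(2, ℤ)) • x := by
  induction n with
  | zero => simp
  | succ n ih =>
    rw [pow_succ', Equiv.Perm.mul_apply, ih, Equiv.Perm.mul_apply, pS_apply, pR_apply, ← mul_smul,
      SST_smul Γ hneg, ← mul_smul, ← pow_succ']

theorem pT_pow_apply' (n : ℕ) (x : SL(2, ℤ) ⧸ Γ) :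
    ((pS Γ * pR Γ) ^ n) x = ((S * (S * T)) ^ n : SL(2, ℤ)) • x := by
  induction n with
  | zero => simp
  | succ n ih =>
    rw [pow_succ', Equiv.Perm.mul_apply, ih, Equiv.Perm.mul_apply, pS_apply, pR_apply, ← mul_smul,
      ← mul_smul, ← pow_succ']

theorem eps_mul_eps (hneg : (-1 : SL(2, ℤ)) ∈ Γ) : (⟨-1, hneg⟩ : Γ) * ⟨-1, hneg⟩ = 1 := by
  apply Subtype.ext
  show (-1 : SL(2, ℤ)) * (-1) = 1
  rw [neg_mul_neg, one_mul]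

theorem hσ_kp (hneg : (-1 : SL(2, ℤ)) ∈ Γ) (x : SL(2, ℤ) ⧸ Γ) :
    kp Γ S (pS Γ x) * kp Γ S x = ⟨-1, hneg⟩ := by
  rw [pS_apply, ← kp_mul, H37.S_mul_S_eq, kp_neg_one Γ hneg]

theorem hρ_kp (hneg : (-1 : SL(2, ℤ)) ∈ Γ) (x : SL(2, ℤ) ⧸ Γ) :
    kp Γ (S * T) (pR Γ (pR Γ x)) * kp Γ (S * T) (pR Γ x) * kp Γ (S * T) x = ⟨-1, hneg⟩ := by
  rw [pR_apply, pR_apply, ← kp_mul, ← kp_mul, H37.R_cube_eq, kp_neg_one Γ hneg]

/-- the cusp products of `PDRes_helper95` are Schreier elements of powers of `S R = -T`. -/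
theorem cuspProd_eq (b : SL(2, ℤ) ⧸ Γ) (n : ℕ) :
    H95.cuspProd (fun x => kp Γ S (pR Γ x) * kp Γ (S * T) x) (pS Γ * pR Γ) b n
      = kp Γ ((S * (S * T)) ^ n) b := by
  induction n with
  | zero => rw [H95.cuspProd, pow_zero, kp_one]
  | succ n ih =>
    rw [H95.cuspProd, ih, pow_succ', kp_mul Γ (S * (S * T)) ((S * (S * T)) ^ n) b,
      kp_mul Γ S (S * T) (((S * (S * T)) ^ n : SL(2, ℤ)) • b), pT_pow_apply', pR_apply]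

theorem trace_conj' (g M : SL(2, ℤ)) :
    ((g⁻¹ * M * g : SL(2, ℤ)) : Matrix (Fin 2) (Fin 2) ℤ).trace
      = (M : Matrix (Fin 2) (Fin 2) ℤ).trace := by
  rw [Matrix.SpecialLinearGroup.coe_mul, Matrix.trace_mul_comm,
    ← Matrix.SpecialLinearGroup.coe_mul, mul_inv_cancel_left]

theorem trace_T_pow (n : ℕ) :
    ((T ^ n : SL(2, ℤ)) : Matrix (Fin 2) (Fin 2) ℤ).trace = 2 := by
  rw [← zpow_natCast, ModularGroup.coe_T_zpow, Matrix.trace_fin_two_of]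
  norm_num

theorem SST_pow (n : ℕ) : ((S * (S * T)) ^ n : SL(2, ℤ)) = T ^ n ∨
    ((S * (S * T)) ^ n : SL(2, ℤ)) = - T ^ n := by
  have h : (S * (S * T) : SL(2, ℤ)) = - T := by
    rw [← mul_assoc, H37.S_mul_S_eq, neg_mul, one_mul]
  rw [h, neg_pow]
  rcases neg_one_pow_eq_or (SL(2, ℤ)) n with h1 | h1
  · left; rw [h1, one_mul]
  · right; rw [h1, neg_mul, one_mul]

theorem trace_SST_pow (n : ℕ) :
    (((S * (S * T)) ^ n : SL(2, ℤ)) : Matrix (Fin 2) (Fin 2) ℤ).trace ^ 2 = 4 := by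
  rcases SST_pow n with h | h
  · rw [h, trace_T_pow]; norm_num
  · rw [h, Matrix.SpecialLinearGroup.coe_neg, Matrix.trace_neg, trace_T_pow]; norm_num

/-- **(K-PAR), first half**: a parabolic character has a `T`-potential. -/
theorem tpot_of_isParabolicHom [Finite (SL(2, ℤ) ⧸ Γ)] (φ : Additive Γ →+ ℤ)
    (hφ : IsParabolicHom Γ φ) :
    ∃ D : SL(2, ℤ) ⧸ Γ → ℤ, ∀ x, φ (ofMul (kp Γ S (pR Γ x) * kp Γ (S * T) x))
      = D (pS Γ (pR Γ x)) - D x := by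
  obtain ⟨D, hD⟩ := exists_tpot (pS Γ * pR Γ)
    (fun x => φ (ofMul (kp Γ S (pR Γ x) * kp Γ (S * T) x))) (by
      intro x n hx
      rw [← H95.map_cuspProd φ (fun x => kp Γ S (pR Γ x) * kp Γ (S * T) x) (pS Γ * pR Γ) x n,
        cuspProd_eq Γ]
      apply hφ
      have hfix : ((S * (S * T)) ^ n : SL(2, ℤ)) • x = x := by
        rw [← pT_pow_apply']; exact hx
      show (((H37.rep Γ (((S * (S * T)) ^ n : SL(2, ℤ)) • x))⁻¹ * (S * (S * T)) ^ n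
        * H37.rep Γ x : SL(2, ℤ)) : Matrix (Fin 2) (Fin 2) ℤ).trace ^ 2 = 4
      rw [hfix, trace_conj', trace_SST_pow])
  exact ⟨D, fun x => hD x⟩

/-- **(K-PAR), second half**: a character with a `T`-potential is parabolic. -/
theorem isParabolicHom_of_tpot (hneg : (-1 : SL(2, ℤ)) ∈ Γ) (φ : Additive Γ →+ ℤ)
    (D : SL(2, ℤ) ⧸ Γ → ℤ)
    (hD : ∀ x, φ (ofMul (kp Γ S (pR Γ x) * kp Γ (S * T) x)) = D (pS Γ (pR Γ x)) - D x) :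
    IsParabolicHom Γ φ := by
  have hε : φ (ofMul (⟨-1, hneg⟩ : Γ)) = 0 := map_invol_int φ (eps_mul_eps Γ hneg)
  have hT : (T : SL(2, ℤ)) ∈ cobSub Γ φ D := by
    rw [mem_cobSub]
    intro x
    have h1 : (T : SL(2, ℤ)) = (-1) * (S * (S * T)) := by
      rw [← mul_assoc S S T, H37.S_mul_S_eq, neg_mul, neg_mul, one_mul, one_mul, neg_neg]
    have h2 : (T : SL(2, ℤ)) • x = (S : SL(2, ℤ)) • (S * T : SL(2, ℤ)) • x := by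
      rw [← mul_smul, SST_smul Γ hneg]
    rw [h2]
    conv_lhs => rw [h1]
    rw [kp_mul, ofMul_mul, map_add, kp_neg_one Γ hneg, hε, zero_add, kp_mul]
    exact hD x
  have key : ∀ γ : Γ, ((γ : SL(2, ℤ)) : Matrix (Fin 2) (Fin 2) ℤ).trace = 2 →
      φ (ofMul γ) = 0 := by
    intro γ h2
    obtain ⟨δ, m, hδ⟩ := Fermat.Agent.S21.H23.exists_conj_T_zpow_of_trace_eq_two (γ : SL(2, ℤ)) h2
    obtain ⟨hfix, hval⟩ := conj_base Γ φ γ δ (T ^ m) hδ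
    have hTm : (T ^ m : SL(2, ℤ)) ∈ cobSub Γ φ D := (cobSub Γ φ D).zpow_mem hT m
    rw [← hval, hTm, hfix, sub_self]
  intro γ hγ
  have htr : ((γ : SL(2, ℤ)) : Matrix (Fin 2) (Fin 2) ℤ).trace = 2 ∨
      ((γ : SL(2, ℤ)) : Matrix (Fin 2) (Fin 2) ℤ).trace = -2 := by
    have h0 : (((γ : SL(2, ℤ)) : Matrix (Fin 2) (Fin 2) ℤ).trace - 2)
        * (((γ : SL(2, ℤ)) : Matrix (Fin 2) (Fin 2) ℤ).trace + 2) = 0 := by
      linear_combination hγ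
    rcases mul_eq_zero.mp h0 with h | h
    · left; linarith
    · right; linarith
  rcases htr with h | h
  · exact key γ h
  · have hmem : -(γ : SL(2, ℤ)) ∈ Γ := by
      have h1 : -(γ : SL(2, ℤ)) = (-1) * γ := by rw [neg_mul, one_mul]
      rw [h1]; exact Γ.mul_mem hneg γ.2
    have h2 := key ⟨-(γ : SL(2, ℤ)), hmem⟩ (by
      show ((-(γ : SL(2, ℤ)) : SL(2, ℤ)) : Matrix (Fin 2) (Fin 2) ℤ).trace = 2
      rw [Matrix.SpecialLinearGroup.coe_neg, Matrix.trace_neg, h]; norm_num)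
    have h3 : (⟨-(γ : SL(2, ℤ)), hmem⟩ : Γ) = ⟨-1, hneg⟩ * γ := by
      apply Subtype.ext
      show -(γ : SL(2, ℤ)) = (-1) * γ
      rw [neg_mul, one_mul]
    rw [h3, ofMul_mul, map_add, hε, zero_add] at h2
    exact h2

theorem isParabolicHom_iff_tpot [Finite (SL(2, ℤ) ⧸ Γ)] (hneg : (-1 : SL(2, ℤ)) ∈ Γ)
    (φ : Additive Γ →+ ℤ) :
    IsParabolicHom Γ φ ↔ ∃ D : SL(2, ℤ) ⧸ Γ → ℤ, ∀ x,
      φ (ofMul (kp Γ S (pR Γ x) * kp Γ (S * T) x)) = D (pS Γ (pR Γ x)) - D x :=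
  ⟨tpot_of_isParabolicHom Γ φ, fun ⟨D, hD⟩ => isParabolicHom_of_tpot Γ hneg φ D hD⟩

/-- a Heisenberg lift does not see the sign of a Schreier element. -/
theorem lift_kp_neg (hneg : (-1 : SL(2, ℤ)) ∈ Γ) {φ ψ : Additive Γ →+ ℤ} {F : Γ → ℤ}
    (hF : H95.IsHLift φ ψ F) (g : SL(2, ℤ)) (b : SL(2, ℤ) ⧸ Γ) :
    F (kp Γ (-g) b) = F (kp Γ g b) := by
  have h1 : (-g : SL(2, ℤ)) = (-1) * g := by rw [neg_mul, one_mul]
  obtain ⟨hφε, -, hFε⟩ := hF.map_invol (fun a h => by omega) (eps_mul_eps Γ hneg)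
  rw [h1, kp_mul, kp_neg_one Γ hneg, hF, hFε, hφε]
  ring

/-- the value of a Heisenberg lift at the Schreier element of `g` at a fixed coset `t Γ` is its
value at `t⁻¹ g t`, provided both characters vanish there. -/
theorem lift_kp_conj {φ ψ : Additive Γ →+ ℤ} {F : Γ → ℤ} (hF : H95.IsHLift φ ψ F)
    (g t : SL(2, ℤ)) (hπ : t⁻¹ * g * t ∈ Γ)
    (hφ0 : φ (ofMul (⟨t⁻¹ * g * t, hπ⟩ : Γ)) = 0) (hψ0 : ψ (ofMul (⟨t⁻¹ * g * t, hπ⟩ : Γ)) = 0) :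
    F (kp Γ g ((t : SL(2, ℤ)) : SL(2, ℤ) ⧸ Γ)) = F ⟨t⁻¹ * g * t, hπ⟩ := by
  have hfix : g • ((t : SL(2, ℤ)) : SL(2, ℤ) ⧸ Γ) = ((t : SL(2, ℤ)) : SL(2, ℤ) ⧸ Γ) := by
    show ((g * t : SL(2, ℤ)) : SL(2, ℤ) ⧸ Γ) = ((t : SL(2, ℤ)) : SL(2, ℤ) ⧸ Γ)
    rw [eq_comm, QuotientGroup.eq, ← mul_assoc]
    exact hπ
  have hmem : t⁻¹ * H37.rep Γ ((t : SL(2, ℤ)) : SL(2, ℤ) ⧸ Γ) ∈ Γ := by
    have h1 := H37.rep_spec Γ ((t : SL(2, ℤ)) : SL(2, ℤ) ⧸ Γ)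
    rw [eq_comm, QuotientGroup.eq] at h1
    exact h1
  have hk : kp Γ g ((t : SL(2, ℤ)) : SL(2, ℤ) ⧸ Γ)
      = (⟨_, hmem⟩ : Γ)⁻¹ * ⟨t⁻¹ * g * t, hπ⟩ * ((⟨_, hmem⟩ : Γ)⁻¹)⁻¹ := by
    apply Subtype.ext
    show (H37.rep Γ (g • ((t : SL(2, ℤ)) : SL(2, ℤ) ⧸ Γ)))⁻¹ * g
        * H37.rep Γ ((t : SL(2, ℤ)) : SL(2, ℤ) ⧸ Γ)
      = (t⁻¹ * H37.rep Γ ((t : SL(2, ℤ)) : SL(2, ℤ) ⧸ Γ))⁻¹ * (t⁻¹ * g * t)
        * ((t⁻¹ * H37.rep Γ ((t : SL(2, ℤ)) : SL(2, ℤ) ⧸ Γ))⁻¹)⁻¹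
    rw [hfix]
    group
  rw [hk]
  exact hF.map_conj _ _ hφ0 hψ0

/-- **Left non-degeneracy modulo `p` of the residue pairing on parabolic characters**
(the hypothesis `hP` of the dual Ihara lemma).  `(t, h)` is a system of representatives of the
`T`-orbits on `SL(2,ℤ) ⧸ Γ` with their lengths; the pairing of `φ` and `ψ` is the sum of a
Heisenberg lift of `(φ, ψ)` over the cusp elements `t i⁻¹ T ^ h i t i`. -/
theorem perfect_h90 [Fintype (SL(2, ℤ) ⧸ Γ)] (hneg : (-1 : SL(2, ℤ)) ∈ Γ) (p : ℕ)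
    [Fact p.Prime] {ι : Type*} [Fintype ι] (t : ι → SL(2, ℤ)) (h : ι → ℕ)
    (hmem : ∀ i, (t i)⁻¹ * T ^ h i * t i ∈ Γ)
    (hsum : ∀ f : SL(2, ℤ) ⧸ Γ → ℤ, ∑ q, f q
      = ∑ i, ∑ j ∈ Finset.range (h i), f ((T ^ j * t i : SL(2, ℤ)) : SL(2, ℤ) ⧸ Γ))
    (φ : Additive Γ →+ ℤ) (hφ : IsParabolicHom Γ φ)
    (H : ∀ ψ : Additive Γ →+ ℤ, IsParabolicHom Γ ψ → ∃ F : Γ → ℤ, H95.IsHLift φ ψ F ∧
      (p : ℤ) ∣ ∑ i, F ⟨(t i)⁻¹ * T ^ h i * t i, hmem i⟩) :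
    ∃ φ' : Additive Γ →+ ℤ, IsParabolicHom Γ φ' ∧ φ = (p : ℤ) • φ' := by
  obtain ⟨D, hD⟩ := tpot_of_isParabolicHom Γ φ hφ
  have hsum' : ∀ f : SL(2, ℤ) ⧸ Γ → ℤ, ∑ x, f x = ∑ i, ∑ k ∈ range (h i),
      f (((pS Γ * pR Γ) ^ k) ((t i : SL(2, ℤ)) : SL(2, ℤ) ⧸ Γ)) := by
    intro f
    rw [hsum f]
    refine Finset.sum_congr rfl (fun i _ => Finset.sum_congr rfl (fun k _ => ?_))
    rw [pT_pow_apply Γ hneg]
    rfl
  have hper : ∀ i, ((pS Γ * pR Γ) ^ h i) ((t i : SL(2, ℤ)) : SL(2, ℤ) ⧸ Γ)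
      = ((t i : SL(2, ℤ)) : SL(2, ℤ) ⧸ Γ) := by
    intro i
    rw [pT_pow_apply Γ hneg]
    show ((T ^ h i * t i : SL(2, ℤ)) : SL(2, ℤ) ⧸ Γ) = _
    rw [eq_comm, QuotientGroup.eq, ← mul_assoc]
    exact hmem i
  have htr : ∀ i, (((⟨(t i)⁻¹ * T ^ h i * t i, hmem i⟩ : Γ) : SL(2, ℤ)) :
      Matrix (Fin 2) (Fin 2) ℤ).trace ^ 2 = 4 := by
    intro i
    show (((t i)⁻¹ * T ^ h i * t i : SL(2, ℤ)) : Matrix (Fin 2) (Fin 2) ℤ).trace ^ 2 = 4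
    rw [trace_conj', trace_T_pow]; norm_num
  obtain ⟨φ', D', hD', hφ'⟩ := perfect_abstract p (pS Γ) (pR Γ) (pS_pS Γ hneg) (pR_pR_pR Γ hneg)
    (kp Γ S) (kp Γ (S * T)) (eps_mul_eps Γ hneg) (hσ_kp Γ hneg) (hρ_kp Γ hneg)
    (fun i => ((t i : SL(2, ℤ)) : SL(2, ℤ) ⧸ Γ)) h hsum' hper (ksurj Γ hneg)
    (fun χ w h1 h2 => kinj Γ χ w h1 h2) φ D hD (by
      intro ψ D' hD'
      have hψ := isParabolicHom_of_tpot Γ hneg ψ D' hD'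
      obtain ⟨F, hF, hdvd⟩ := H ψ hψ
      refine ⟨_, hdvd, ?_⟩
      rw [← hF.six_mul_sum_cusp (fun a h => by omega) (pS Γ) (pR Γ) (kp Γ S) (kp Γ (S * T))
        (eps_mul_eps Γ hneg) (hσ_kp Γ hneg) (hρ_kp Γ hneg)
        (fun i => ((t i : SL(2, ℤ)) : SL(2, ℤ) ⧸ Γ)) h hsum']
      congr 1
      refine Finset.sum_congr rfl (fun i _ => ?_)
      rw [cuspProd_eq Γ]
      have h0 : F (kp Γ ((S * (S * T)) ^ h i) ((t i : SL(2, ℤ)) : SL(2, ℤ) ⧸ Γ))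
          = F (kp Γ (T ^ h i) ((t i : SL(2, ℤ)) : SL(2, ℤ) ⧸ Γ)) := by
        rcases SST_pow (h i) with h1 | h1
        · rw [h1]
        · rw [h1, lift_kp_neg Γ hneg hF]
      rw [h0]
      exact (lift_kp_conj Γ hF (T ^ h i) (t i) (hmem i) (hφ _ (htr i)) (hψ _ (htr i))).symm)
  exact ⟨φ', isParabolicHom_of_tpot Γ hneg φ' D' hD', hφ'⟩

end final

end Fermat.Agent.S41.H90
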