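import Mathlib

/-!
# Walk coefficients of a Schreier cocycle  (helper64, S41 node (C-PERF), step (c))

Let a group `G` act on a finite set `X` and let `kap : G → X → Γ` be a cocycle,
`kap (g * h) x = kap g (h • x) * kap h x` (Schreier data: `kap g x = (t (g • x))⁻¹ * g * t x`).
If `s, r` generate `G`, then for every `g : G` and `x : X` there are integer weights
`mS mR : X → ℤ` such that for **every** additive character `χ` of `Γ`

`χ (kap g x) = Σ_y mS y • χ (kap s y) + Σ_y mR y • χ (kap r y)`,

and the weights satisfy the boundary relation of a walk from `x` to `g • x`: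

`mS (s⁻¹ • y) - mS y + mR (r⁻¹ • y) - mR y = [y = g • x] - [y = x]`.
-/

set_option autoImplicit false

namespace Fermat.Agent.S41.H64

open Finset

section walk

variable {G Γ X A : Type*} [Group G] [Group Γ] [MulAction G X] [Fintype X] [DecidableEq X]
  [AddCommGroup A]

/-- The statement carried through the word induction. -/
def WalkProp (A : Type*) [AddCommGroup A] (kap : G → X → Γ) (s r : G) (g : G) : Prop :=
  ∀ x : X, ∃ mS mR : X → ℤ,
    (∀ χ : Additive Γ →+ A, χ (Additive.ofMul (kap g x)) =
      ∑ y, mS y • χ (Additive.ofMul (kap s y)) + ∑ y, mR y • χ (Additive.ofMul (kap r y))) ∧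
    ∀ y : X, mS (s⁻¹ • y) - mS y + mR (r⁻¹ • y) - mR y =
      (if y = g • x then 1 else 0) - (if y = x then 1 else 0)

omit [Fintype X] [DecidableEq X] in
/-- A cocycle is trivial at `1`. -/
theorem kap_one (kap : G → X → Γ) (hkap : ∀ (g h : G) (x : X), kap (g * h) x = kap g (h • x) * kap h x)
    (x : X) : kap 1 x = 1 := by
  have h := hkap 1 1 x
  rw [mul_one, one_smul] at h
  exact (mul_eq_left.mp h.symm)

omit [Fintype X] [DecidableEq X] in
/-- A cocycle at an inverse. -/
theorem kap_inv (kap : G → X → Γ) (hkap : ∀ (g h : G) (x : X), kap (g * h) x = kap g (h • x) * kap h x)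
    (g : G) (x : X) : kap g⁻¹ x = (kap g (g⁻¹ • x))⁻¹ := by
  have h := hkap g g⁻¹ x
  rw [mul_inv_cancel, kap_one kap hkap] at h
  exact eq_inv_of_mul_eq_one_right h.symm

theorem walkProp_one (kap : G → X → Γ)
    (hkap : ∀ (g h : G) (x : X), kap (g * h) x = kap g (h • x) * kap h x) (s r : G) :
    WalkProp A kap s r 1 := by
  intro x
  refine ⟨fun _ => 0, fun _ => 0, fun χ => ?_, fun y => ?_⟩
  · rw [kap_one kap hkap, ofMul_one, map_zero]
    simp
  · rw [one_smul]
    simp

theorem walkProp_mul (kap : G → X → Γ)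
    (hkap : ∀ (g h : G) (x : X), kap (g * h) x = kap g (h • x) * kap h x) (s r : G) {g h : G}
    (hg : WalkProp A kap s r g) (hh : WalkProp A kap s r h) : WalkProp A kap s r (g * h) := by
  intro x
  obtain ⟨mS₁, mR₁, h1, b1⟩ := hg (h • x)
  obtain ⟨mS₂, mR₂, h2, b2⟩ := hh x
  refine ⟨fun y => mS₁ y + mS₂ y, fun y => mR₁ y + mR₂ y, fun χ => ?_, fun y => ?_⟩
  · rw [hkap, ofMul_mul, map_add, h1 χ, h2 χ]
    simp only [add_smul, Finset.sum_add_distrib]
    abel
  · have e1 := b1 y
    have e2 := b2 y
    rw [mul_smul]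
    linarith

theorem walkProp_inv (kap : G → X → Γ)
    (hkap : ∀ (g h : G) (x : X), kap (g * h) x = kap g (h • x) * kap h x) (s r : G) {g : G}
    (hg : WalkProp A kap s r g) : WalkProp A kap s r g⁻¹ := by
  intro x
  obtain ⟨mS, mR, h1, b1⟩ := hg (g⁻¹ • x)
  refine ⟨fun y => - mS y, fun y => - mR y, fun χ => ?_, fun y => ?_⟩
  · rw [kap_inv kap hkap, ofMul_inv, map_neg, h1 χ]
    simp only [neg_smul, Finset.sum_neg_distrib]
    abel
  · have e1 := b1 y
    rw [smul_inv_smul] at e1
    linarith

theorem walkProp_left (kap : G → X → Γ) (s r : G) : WalkProp A kap s r s := by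
  intro x
  refine ⟨fun y => if y = x then 1 else 0, fun _ => 0, fun χ => ?_, fun y => ?_⟩
  · simp
  · have e : (s⁻¹ • y = x) ↔ (y = s • x) := inv_smul_eq_iff
    simp only [e]
    ring

theorem walkProp_right (kap : G → X → Γ) (s r : G) : WalkProp A kap s r r := by
  intro x
  refine ⟨fun _ => 0, fun y => if y = x then 1 else 0, fun χ => ?_, fun y => ?_⟩
  · simp
  · have e : (r⁻¹ • y = x) ↔ (y = r • x) := inv_smul_eq_iff
    simp only [e]
    ring

/-- **(c) Walk coefficients.**  If `s, r` generate `G`, the value of any additive character on a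
Schreier element `kap g x` is an integer combination, with weights independent of the character,
of its values on the Schreier elements of `s` and `r`; the weights have boundary
`[g • x] - [x]`. -/
theorem exists_walk_coeffs (kap : G → X → Γ)
    (hkap : ∀ (g h : G) (x : X), kap (g * h) x = kap g (h • x) * kap h x)
    (s r : G) (hgen : Subgroup.closure ({s, r} : Set G) = ⊤) (g : G) (x : X) :
    ∃ mS mR : X → ℤ,
      (∀ χ : Additive Γ →+ A, χ (Additive.ofMul (kap g x)) =
        ∑ y, mS y • χ (Additive.ofMul (kap s y)) + ∑ y, mR y • χ (Additive.ofMul (kap r y))) ∧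
      ∀ y : X, mS (s⁻¹ • y) - mS y + mR (r⁻¹ • y) - mR y =
        (if y = g • x then 1 else 0) - (if y = x then 1 else 0) := by
  have hmem : g ∈ Subgroup.closure ({s, r} : Set G) := by rw [hgen]; exact Subgroup.mem_top g
  have key : WalkProp A kap s r g := by
    induction hmem using Subgroup.closure_induction with
    | mem z hz =>
      rcases hz with rfl | hz
      · exact walkProp_left kap z r
      · rw [Set.mem_singleton_iff] at hz
        subst hz
        exact walkProp_right kap s z
    | one => exact walkProp_one kap hkap s r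
    | mul a b _ _ ha hb => exact walkProp_mul kap hkap s r ha hb
    | inv a _ ha => exact walkProp_inv kap hkap s r ha
  exact key x

/-- Ring-valued form (`mS y * χ (kap s y)` instead of `mS y • χ (kap s y)`), for `A = ℤ`. -/
theorem exists_walk_coeffs_int (kap : G → X → Γ)
    (hkap : ∀ (g h : G) (x : X), kap (g * h) x = kap g (h • x) * kap h x)
    (s r : G) (hgen : Subgroup.closure ({s, r} : Set G) = ⊤) (g : G) (x : X) :
    ∃ mS mR : X → ℤ,
      (∀ χ : Additive Γ →+ ℤ, χ (Additive.ofMul (kap g x)) =
        ∑ y, χ (Additive.ofMul (kap s y)) * mS y + ∑ y, χ (Additive.ofMul (kap r y)) * mR y) ∧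
      ∀ y : X, mS (s⁻¹ • y) - mS y + mR (r⁻¹ • y) - mR y =
        (if y = g • x then 1 else 0) - (if y = x then 1 else 0) := by
  obtain ⟨mS, mR, h1, h2⟩ := exists_walk_coeffs (A := ℤ) kap hkap s r hgen g x
  refine ⟨mS, mR, fun χ => ?_, h2⟩
  rw [h1 χ]
  simp only [smul_eq_mul, mul_comm]

end walk

end Fermat.Agent.S41.H64
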