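import Fermat.Agent.S41.ParClass_helper79
import Fermat.Agent.S41.PDFib_helper17

/-!
# Rigidity of parabolic class systems (node (C-RIGID))

Every parabolic class system (`H79.IsParSystem`) of a subgroup `Γ ∋ -1` of `SL(2, ℤ)` is an
abstract cusp system in the sense of `H17.IsCuspSys`, with `P` = positive parabolic and
`Z = {1, -1}`.
-/

open Matrix MatrixGroups ModularGroup

namespace Fermat.Agent.S41.H79

/-- Positive powers of positive parabolic elements are positive parabolic. -/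
theorem IsPosPar.pow {g : SL(2, ℤ)} (hg : IsPosPar g) {n : ℕ} (hn : 0 < n) :
    IsPosPar (g ^ n) := by
  obtain ⟨σ, m, hm, rfl⟩ := isPosPar_iff.mp hg
  refine isPosPar_iff.mpr ⟨σ, m * n, Nat.mul_pos hm hn, ?_⟩
  rw [conj_pow, ← pow_mul]

/-- If `τ T^n τ⁻¹` (`0 < n`) has no proper positive parabolic root in `Γ` and
`τ T^m τ⁻¹ ∈ Γ`, then `n ∣ m`. -/
theorem dvd_of_prim (Γ : Subgroup SL(2, ℤ)) (τ : SL(2, ℤ)) (n : ℕ) (hn : 0 < n)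
    (hmem : τ * T ^ n * τ⁻¹ ∈ Γ)
    (hprim : ∀ (ρ : Γ) (k : ℕ), IsPosPar (ρ : SL(2, ℤ)) →
      (ρ : SL(2, ℤ)) ^ k = τ * T ^ n * τ⁻¹ → k = 1)
    (m : ℤ) (hm : τ * T ^ m * τ⁻¹ ∈ Γ) : (n : ℤ) ∣ m := by
  have hd0 : 0 < Int.gcd (n : ℤ) m :=
    Int.gcd_pos_of_ne_zero_left _ (by exact_mod_cast hn.ne')
  have hbez : ((Int.gcd (n : ℤ) m : ℕ) : ℤ) = (n : ℤ) * Int.gcdA n m + m * Int.gcdB n m :=
    Int.gcd_eq_gcd_ab _ _
  have hdn : Int.gcd (n : ℤ) m ∣ n := Int.natCast_dvd_natCast.mp (Int.gcd_dvd_left _ _)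
  have hdm : ((Int.gcd (n : ℤ) m : ℕ) : ℤ) ∣ m := Int.gcd_dvd_right _ _
  generalize Int.gcd (n : ℤ) m = d at hd0 hbez hdn hdm
  have hmemd : τ * T ^ (d : ℤ) * τ⁻¹ ∈ Γ := by
    have e : τ * T ^ (d : ℤ) * τ⁻¹ =
        (τ * T ^ n * τ⁻¹) ^ (Int.gcdA n m) * (τ * T ^ m * τ⁻¹) ^ (Int.gcdB n m) := by
      rw [conj_zpow, conj_zpow, hbez, _root_.zpow_add, _root_.zpow_mul, _root_.zpow_mul, zpow_natCast]
      group
    rw [e]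
    exact Γ.mul_mem (Γ.zpow_mem hmem _) (Γ.zpow_mem hm _)
  obtain ⟨e, he⟩ := hdn
  have h1 : e = 1 := by
    refine hprim ⟨τ * T ^ (d : ℤ) * τ⁻¹, hmemd⟩ e ?_ ?_
    · exact isPosPar_conj_T_zpow τ (by exact_mod_cast hd0)
    · show (τ * T ^ (d : ℤ) * τ⁻¹) ^ e = _
      rw [conj_pow, zpow_natCast, ← pow_mul, ← he]
  rw [h1, mul_one] at he
  rw [he]
  exact hdm

/-- (C-RIGID) If `γ π_c^k γ⁻¹ = π_c'^k'` (`γ ∈ Γ`, `0 < k, k'`) for a parabolic class system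
`π` of `Γ ∋ -1`, then `c = c'`, `k = k'` and `γ = ± π_c^j`. -/
theorem IsParSystem.rigid {Γ : Subgroup SL(2, ℤ)} (hneg : (-1 : SL(2, ℤ)) ∈ Γ) {ι : Type*}
    {π : ι → Γ} (hπ : IsParSystem Γ π) (c c' : ι) (k k' : ℕ) (γ : Γ) (hk : 0 < k)
    (hk' : 0 < k') (h : γ * π c ^ k * γ⁻¹ = π c' ^ k') :
    c = c' ∧ k = k' ∧
      ∃ (j : ℤ) (z : Γ), z ∈ Subgroup.zpowers (⟨-1, hneg⟩ : Γ) ∧ γ = z * π c ^ j := by
  have hcc : c = c' := by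
    have hρ : IsPosPar ((π c' ^ k' : Γ) : SL(2, ℤ)) := by
      rw [SubgroupClass.coe_pow]
      exact (hπ.pos c').pow hk'
    exact (hπ.cover _ hρ).unique ⟨γ, k, hk, h.symm⟩ ⟨1, k', hk', by simp⟩
  subst hcc
  obtain ⟨τ, n, hn, hτ⟩ := isPosPar_iff.mp (hπ.pos c)
  have hS : (γ : SL(2, ℤ)) * (π c : SL(2, ℤ)) ^ k * (γ : SL(2, ℤ))⁻¹ =
      (π c : SL(2, ℤ)) ^ k' := by
    have := congrArg Subtype.val h
    simpa using this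
  rw [hτ, conj_pow, conj_pow, ← pow_mul, ← pow_mul] at hS
  have e' : ((γ : SL(2, ℤ)) * τ) * T ^ ((n * k : ℕ) : ℤ) * ((γ : SL(2, ℤ)) * τ)⁻¹ =
      τ * T ^ ((n * k' : ℕ) : ℤ) * τ⁻¹ := by
    rw [zpow_natCast, zpow_natCast, ← hS]
    group
  have hcomm := comm_of_conj_eq _ _ _ _ e'
  have hne : ((n * k' : ℕ) : ℤ) ≠ 0 := by exact_mod_cast (Nat.mul_pos hn hk').ne'
  have h0 := lower_left_eq_zero _ _ _ hne hcomm
  have hc1 := comm_T_zpow _ h0 ((n * k : ℕ) : ℤ)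
  rw [hc1] at hcomm
  have hnk : ((n * k : ℕ) : ℤ) = ((n * k' : ℕ) : ℤ) := T_zpow_injective (mul_right_cancel hcomm)
  have hkk : k = k' := by
    have h' : n * k = n * k' := by exact_mod_cast hnk
    exact Nat.eq_of_mul_eq_mul_left hn h'
  refine ⟨rfl, hkk, ?_⟩
  have hmemπ : τ * T ^ n * τ⁻¹ ∈ Γ := hτ ▸ (π c).2
  have hprim : ∀ (ρ : Γ) (k : ℕ), IsPosPar (ρ : SL(2, ℤ)) →
      (ρ : SL(2, ℤ)) ^ k = τ * T ^ n * τ⁻¹ → k = 1 := by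
    intro ρ k hρ hk
    refine hπ.prim c ρ k hρ ?_
    apply Subtype.ext
    rw [SubgroupClass.coe_pow, hk, hτ]
  have hγ0 : (γ : SL(2, ℤ)) = τ * (τ⁻¹ * ((γ : SL(2, ℤ)) * τ)) * τ⁻¹ := by group
  obtain ⟨m, hm | hm⟩ := eq_T_zpow_or_neg _ h0
  · rw [hm] at hγ0
    have hmem : τ * T ^ m * τ⁻¹ ∈ Γ := hγ0 ▸ γ.2
    obtain ⟨j, hj⟩ := dvd_of_prim Γ τ n hn hmemπ hprim m hmem
    refine ⟨j, 1, one_mem _, ?_⟩
    apply Subtype.ext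
    rw [one_mul, SubgroupClass.coe_zpow, hγ0, hτ, conj_zpow, hj, _root_.zpow_mul, zpow_natCast]
  · rw [hm, mul_neg, neg_mul] at hγ0
    have hmem : τ * T ^ m * τ⁻¹ ∈ Γ := by
      have e : τ * T ^ m * τ⁻¹ = (-1 : SL(2, ℤ)) * γ := by
        rw [hγ0, neg_one_mul, neg_neg]
      rw [e]
      exact Γ.mul_mem hneg γ.2
    obtain ⟨j, hj⟩ := dvd_of_prim Γ τ n hn hmemπ hprim m hmem
    refine ⟨j, ⟨-1, hneg⟩, Subgroup.mem_zpowers _, ?_⟩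
    apply Subtype.ext
    rw [Subgroup.coe_mul, SubgroupClass.coe_zpow, hγ0, hτ, conj_zpow, hj, _root_.zpow_mul, zpow_natCast,
      neg_one_mul]

/-- (C-RIGID) A parabolic class system of `Γ ∋ -1` is a cusp system in the sense of
`H17.IsCuspSys` (`P` = positive parabolic, `Z = {1, -1}`). -/
theorem IsParSystem.isCuspSys {Γ : Subgroup SL(2, ℤ)} (hneg : (-1 : SL(2, ℤ)) ∈ Γ) {ι : Type*}
    {π : ι → Γ} (hπ : IsParSystem Γ π) :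
    H17.IsCuspSys (fun γ : Γ => IsPosPar (γ : SL(2, ℤ)))
      (Subgroup.zpowers (⟨-1, hneg⟩ : Γ)) π where
  pos := hπ.pos
  cover := fun t ht => by
    obtain ⟨c, ⟨γ, k, hk, e⟩, -⟩ := hπ.cover t ht
    exact ⟨c, γ, k, hk, e⟩
  rigid := fun c c' k k' γ hk hk' h => hπ.rigid hneg c c' k k' γ hk hk' h

/-- The same for a subgroup `Γ' ≤ Γ`, in the form used with `i' := Subgroup.inclusion`. -/
theorem IsParSystem.isCuspSys_inclusion {Γ Γ' : Subgroup SL(2, ℤ)} (hle : Γ' ≤ Γ)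
    (hneg' : (-1 : SL(2, ℤ)) ∈ Γ') {ι' : Type*} {π' : ι' → Γ'} (hπ' : IsParSystem Γ' π') :
    H17.IsCuspSys
      (fun t' : Γ' => (fun γ : Γ => IsPosPar (γ : SL(2, ℤ))) (Subgroup.inclusion hle t'))
      (Subgroup.zpowers (⟨-1, hneg'⟩ : Γ')) π' :=
  hπ'.isCuspSys hneg'

/-- `hPconj` for `P` = positive parabolic. -/
theorem isPosPar_conj_mem {Γ : Subgroup SL(2, ℤ)} (g t : Γ)
    (ht : IsPosPar (t : SL(2, ℤ))) : IsPosPar ((g * t * g⁻¹ : Γ) : SL(2, ℤ)) := by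
  have := (isPosPar_conj (g : SL(2, ℤ)) (t : SL(2, ℤ))).mpr ht
  simpa using this

/-- `hPpow` for `P` = positive parabolic. -/
theorem isPosPar_pow_mem {Γ : Subgroup SL(2, ℤ)} (t : Γ) (n : ℕ)
    (ht : IsPosPar (t : SL(2, ℤ))) (hn : 0 < n) : IsPosPar ((t ^ n : Γ) : SL(2, ℤ)) := by
  rw [SubgroupClass.coe_pow]
  exact ht.pow hn

/-- `hZc`: `{1, -1}` is central. -/
theorem zpowers_neg_one_central {Γ : Subgroup SL(2, ℤ)} (hneg : (-1 : SL(2, ℤ)) ∈ Γ) :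
    ∀ z ∈ Subgroup.zpowers (⟨-1, hneg⟩ : Γ), ∀ g : Γ, z * g = g * z := by
  intro z hz g
  obtain ⟨j, rfl⟩ := Subgroup.mem_zpowers_iff.mp hz
  have hc : Commute (⟨-1, hneg⟩ : Γ) g := by
    apply Subtype.ext
    simp
  exact (hc.zpow_left j).eq

/-- `hZ'`: `{1, -1}` lifts along `Subgroup.inclusion`. -/
theorem zpowers_neg_one_lift {Γ Γ' : Subgroup SL(2, ℤ)} (hle : Γ' ≤ Γ)
    (hneg' : (-1 : SL(2, ℤ)) ∈ Γ') :
    ∀ z ∈ Subgroup.zpowers (⟨-1, hle hneg'⟩ : Γ), ∃ z' : Γ', Subgroup.inclusion hle z' = z := by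
  intro z hz
  obtain ⟨j, rfl⟩ := Subgroup.mem_zpowers_iff.mp hz
  refine ⟨(⟨-1, hneg'⟩ : Γ') ^ j, ?_⟩
  rw [map_zpow]
  rfl

end Fermat.Agent.S41.H79
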