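import Fermat.Agent.S41.ParRigid_helper79
import Fermat.Agent.S41.PDSchreier_helper18
import Fermat.Prelude.Def_ModularCurve_PeriodMap

/-!
# The concrete cusp system `H18.cuspPi` is a parabolic class system

Bridge between helper18's concrete Schreier cusp system (`PDSchreier_helper18`) and the
intrinsic notions of `ParClass_helper79` / `ParRigid_helper79`:

* `isParSystem_cuspPi` : `H18.cuspPi Γ hneg` is an `IsParSystem`;
* `isCuspSys_cuspPi` : it is an `H17.IsCuspSys` (cover + rigidity);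
* `sum_cuspPi_eq_of_isParSystem`, `sum_cuspPi_conj`, `hLift_sum_cuspPi_conj` : the cusp sum of
  a class function (e.g. a Heisenberg lift of a pair of parabolic characters) is intrinsic, and
  invariant under conjugation by a real matrix of positive determinant.
-/

open Matrix MatrixGroups ModularGroup

namespace Fermat.Agent.S41.H79

section

variable (Γ : Subgroup SL(2, ℤ)) [Fintype (SL(2, ℤ) ⧸ Γ)] [DecidableEq (SL(2, ℤ) ⧸ Γ)]

/-- helper18's concrete cusp system `c ↦ t_c⁻¹ T ^ h_c t_c` is a parabolic class system. -/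
theorem isParSystem_cuspPi (hneg : (-1 : SL(2, ℤ)) ∈ Γ) :
    IsParSystem Γ (H18.cuspPi Γ hneg) := by
  refine isParSystem_of_orbits Γ hneg (H18.cuspT Γ) (H18.cuspH Γ) (H18.cuspH_pos Γ)
    (H18.cusp_mem Γ hneg) (fun c k h => (H18.cusp_mem_iff Γ hneg c k).mp h) ?_ ?_
  · intro g
    obtain ⟨c, ⟨k, γ, hγ, h | h⟩, -⟩ := H18.cusp_cov Γ hneg g
    · exact ⟨c, k, ⟨γ, hγ⟩, h⟩
    · refine ⟨c, k, ⟨-γ, ?_⟩, ?_⟩
      · have e : -γ = (-1) * γ := by simp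
        rw [e]
        exact Γ.mul_mem hneg hγ
      · rw [h]
        simp [mul_neg]
  · intro c c' j γ e
    exact (H18.cusp_cov Γ hneg (H18.cuspT Γ c')).unique ⟨0, 1, Γ.one_mem, Or.inl (by simp)⟩
      ⟨j, γ, γ.2, Or.inl e⟩

/-- helper18's concrete cusp system is a cusp system in the sense of `H17.IsCuspSys`. -/
theorem isCuspSys_cuspPi (hneg : (-1 : SL(2, ℤ)) ∈ Γ) :
    H17.IsCuspSys (fun γ : Γ => IsPosPar (γ : SL(2, ℤ)))
      (Subgroup.zpowers (⟨-1, hneg⟩ : Γ)) (H18.cuspPi Γ hneg) :=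
  (isParSystem_cuspPi Γ hneg).isCuspSys hneg

/-- The cusp sum of a class function over any parabolic class system equals the sum over the
concrete system. -/
theorem sum_cuspPi_eq_of_isParSystem (hneg : (-1 : SL(2, ℤ)) ∈ Γ) {ι : Type*} [Fintype ι]
    {π : ι → Γ} (hπ : IsParSystem Γ π) {A : Type*} [AddCommMonoid A] (f : Γ → A)
    (hf : ∀ γ ρ : Γ, IsPosPar (ρ : SL(2, ℤ)) → f (γ * ρ * γ⁻¹) = f ρ) :
    ∑ i, f (π i) = ∑ c, f (H18.cuspPi Γ hneg c) :=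
  sum_eq_of_isParSystem hπ (isParSystem_cuspPi Γ hneg) f hf

end

/-- A parabolic character vanishes on positive parabolic elements. -/
theorem map_eq_zero_of_isPosPar {Γ : Subgroup SL(2, ℤ)} {A : Type*} [AddCommGroup A]
    {φ : Additive Γ →+ A} (hφ : ModularCurve.Period.IsParabolicHom Γ φ) (ρ : Γ)
    (hρ : IsPosPar (ρ : SL(2, ℤ))) : φ (Additive.ofMul ρ) = 0 := by
  apply hφ ρ
  rw [Matrix.trace_fin_two, hρ.1]
  norm_num

/-- A Heisenberg lift of a pair of parabolic characters is a class function on positive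
parabolic elements. -/
theorem hLift_map_conj_of_isPosPar {Γ : Subgroup SL(2, ℤ)} {A : Type*} [CommRing A]
    {φ ψ : Additive Γ →+ A} {F : Γ → A} (hF : H95.IsHLift φ ψ F)
    (hφ : ModularCurve.Period.IsParabolicHom Γ φ) (hψ : ModularCurve.Period.IsParabolicHom Γ ψ)
    (γ ρ : Γ) (hρ : IsPosPar (ρ : SL(2, ℤ))) : F (γ * ρ * γ⁻¹) = F ρ :=
  hF.map_conj γ ρ (map_eq_zero_of_isPosPar hφ ρ hρ) (map_eq_zero_of_isPosPar hψ ρ hρ)

section conj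

variable (Γ₁ Γ₂ : Subgroup SL(2, ℤ)) [Fintype (SL(2, ℤ) ⧸ Γ₁)] [DecidableEq (SL(2, ℤ) ⧸ Γ₁)]
  [Fintype (SL(2, ℤ) ⧸ Γ₂)] [DecidableEq (SL(2, ℤ) ⧸ Γ₂)]

/-- (T2) Conjugation invariance of the cusp sum: if `θ : Γ₁ ≃* Γ₂` is conjugation by a real
matrix `α` of positive determinant (`α γ = θ(γ) α`), then the sum of a class function `f` of
`Γ₂` over the cusps of `Γ₂` equals the sum of `f ∘ θ` over the cusps of `Γ₁`. -/
theorem sum_cuspPi_conj (hneg₁ : (-1 : SL(2, ℤ)) ∈ Γ₁) (hneg₂ : (-1 : SL(2, ℤ)) ∈ Γ₂)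
    (θ : Γ₁ ≃* Γ₂) (α : GL (Fin 2) ℝ) (hα : 0 < (α : Matrix (Fin 2) (Fin 2) ℝ).det)
    (hθ : ∀ γ : Γ₁, α * ((γ : SL(2, ℤ)) : GL (Fin 2) ℝ) =
      (((θ γ : Γ₂) : SL(2, ℤ)) : GL (Fin 2) ℝ) * α)
    {A : Type*} [AddCommMonoid A] (f : Γ₂ → A)
    (hf : ∀ γ ρ : Γ₂, IsPosPar (ρ : SL(2, ℤ)) → f (γ * ρ * γ⁻¹) = f ρ) :
    ∑ c, f (θ (H18.cuspPi Γ₁ hneg₁ c)) = ∑ c, f (H18.cuspPi Γ₂ hneg₂ c) :=
  sum_comp_eq_of_isParSystem (isParSystem_cuspPi Γ₁ hneg₁) (isParSystem_cuspPi Γ₂ hneg₂) θ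
    (fun ρ => isPosPar_conj_iff_GL α hα _ _ (hθ ρ)) f hf

/-- (T2) for Heisenberg lifts of parabolic characters. -/
theorem hLift_sum_cuspPi_conj (hneg₁ : (-1 : SL(2, ℤ)) ∈ Γ₁) (hneg₂ : (-1 : SL(2, ℤ)) ∈ Γ₂)
    (θ : Γ₁ ≃* Γ₂) (α : GL (Fin 2) ℝ) (hα : 0 < (α : Matrix (Fin 2) (Fin 2) ℝ).det)
    (hθ : ∀ γ : Γ₁, α * ((γ : SL(2, ℤ)) : GL (Fin 2) ℝ) =
      (((θ γ : Γ₂) : SL(2, ℤ)) : GL (Fin 2) ℝ) * α)
    {A : Type*} [CommRing A] {φ ψ : Additive Γ₂ →+ A} {F : Γ₂ → A} (hF : H95.IsHLift φ ψ F)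
    (hφ : ModularCurve.Period.IsParabolicHom Γ₂ φ)
    (hψ : ModularCurve.Period.IsParabolicHom Γ₂ ψ) :
    ∑ c, F (θ (H18.cuspPi Γ₁ hneg₁ c)) = ∑ c, F (H18.cuspPi Γ₂ hneg₂ c) :=
  H79.sum_cuspPi_conj Γ₁ Γ₂ hneg₁ hneg₂ θ α hα hθ F
    (fun γ ρ hρ => hLift_map_conj_of_isPosPar hF hφ hψ γ ρ hρ)

end conj

end Fermat.Agent.S41.H79
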