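import Mathlib
import Fermat.Agent.S41.CITop_helper39
import Fermat.Agent.S41.IsectParRInst_helper76

/-!
# S41, node (C), route C-I: the leaves (a) of `CITop_helper39` (helper76)

`H39.ParRStmt M` for `1 < M` (in particular at level `N * q`, `q` prime, `0 < N`) and
`H39.ParLStmt M` for every `M`, in the literal shapes of `CITop_helper39`.
-/

set_option autoImplicit false

namespace Fermat.Agent.S41.H76

open CongruenceSubgroup Matrix
open scoped MatrixGroups
open Fermat.Agent

/-- (PAR-R), leaf (a) of `H39.hkey_concrete`, at every level `M > 1`. -/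
theorem parRStmt_of_one_lt {M : ℕ} (hM : 1 < M) : H39.ParRStmt M :=
  fun g π htr => ipair_parabolic_right_Gamma0' hM g.2 π.2 htr

/-- (PAR-R) at level `N * q`, `q` prime: the shape consumed by `H39.hkey_concrete`. -/
theorem parRStmt_mul {N q : ℕ} (hN : 0 < N) (hq : q.Prime) : H39.ParRStmt (N * q) :=
  parRStmt_of_one_lt (by nlinarith [hq.two_le])

/-- (PAR-L), the trivial slot, at every level. -/
theorem parLStmt (M : ℕ) : H39.ParLStmt M :=
  fun π γ htr => S41.H17.ipair_parabolic_left (Gamma0 M) π.2 γ.2 htr

end Fermat.Agent.S41.H76
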