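import Mathlib

/-!
# S41 (POLY): the `MvPolynomial ι ℤ`-module structure of a commuting family of additive
endomorphisms, and linearity of maps commuting with the family.

Mathlib only.  `polyModule T hT` is NOT a global instance: use `letI := polyModule T hT`.
-/

set_option autoImplicit false
set_option linter.deprecated false
set_option linter.style.haveILetI false

namespace Fermat.Agent.S41.H30

open MvPolynomial

section Hom

variable {ι : Type*} {L : Type*} [AddCommGroup L]

theorem comm_range (T : ι → AddMonoid.End L) (hT : ∀ i j, T i * T j = T j * T i) :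
    ∀ a ∈ Set.range T, ∀ b ∈ Set.range T, a * b = b * a := by
  rintro _ ⟨i, rfl⟩ _ ⟨j, rfl⟩
  exact hT i j

/-- The ring homomorphism `MvPolynomial ι ℤ →+* AddMonoid.End L` with `X i ↦ T i`, for a
commuting family `T`. -/
noncomputable def polyHom (T : ι → AddMonoid.End L) (hT : ∀ i j, T i * T j = T j * T i) :
    MvPolynomial ι ℤ →+* AddMonoid.End L :=
  letI : CommRing (Algebra.adjoin ℤ (Set.range T)) :=
    Algebra.adjoinCommRingOfComm ℤ (comm_range T hT)
  ((Algebra.adjoin ℤ (Set.range T)).val.toRingHom).comp
    (MvPolynomial.aeval (R := ℤ) (fun i =>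
      (⟨T i, Algebra.subset_adjoin ⟨i, rfl⟩⟩ : Algebra.adjoin ℤ (Set.range T)))).toRingHom

theorem polyHom_X (T : ι → AddMonoid.End L) (hT : ∀ i j, T i * T j = T j * T i) (i : ι) :
    polyHom T hT (X i) = T i := by
  unfold polyHom
  simp

theorem polyHom_C (T : ι → AddMonoid.End L) (hT : ∀ i j, T i * T j = T j * T i) (n : ℤ)
    (x : L) : polyHom T hT (C n) x = n • x := by
  have h : (C n : MvPolynomial ι ℤ) = ((n : ℤ) : MvPolynomial ι ℤ) := by
    simp
  rw [h, map_intCast]
  simp

/-- The `MvPolynomial ι ℤ`-module structure on `L` in which `X i` acts as `T i`. -/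
@[reducible] noncomputable def polyModule (T : ι → AddMonoid.End L)
    (hT : ∀ i j, T i * T j = T j * T i) : Module (MvPolynomial ι ℤ) L :=
  Module.compHom L (polyHom T hT)

theorem polyModule_smul (T : ι → AddMonoid.End L) (hT : ∀ i j, T i * T j = T j * T i)
    (r : MvPolynomial ι ℤ) (x : L) :
    letI := polyModule T hT
    r • x = polyHom T hT r x := rfl

theorem polyModule_X_smul (T : ι → AddMonoid.End L) (hT : ∀ i j, T i * T j = T j * T i)
    (i : ι) (x : L) :
    letI := polyModule T hT
    (X i : MvPolynomial ι ℤ) • x = T i x := by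
  letI := polyModule T hT
  rw [polyModule_smul, polyHom_X]

end Hom

section Linear

variable {ι : Type*} {M M' : Type*} [AddCommGroup M] [AddCommGroup M']
  [Module (MvPolynomial ι ℤ) M] [Module (MvPolynomial ι ℤ) M']

theorem C_smul_eq_zsmul (n : ℤ) (x : M) : (C n : MvPolynomial ι ℤ) • x = n • x := by
  have h : (C n : MvPolynomial ι ℤ) = ((n : ℤ) : MvPolynomial ι ℤ) := by
    simp
  rw [h, Int.cast_smul_eq_zsmul]

/-- An additive map commuting with the action of every variable is `MvPolynomial ι ℤ`-linear. -/
theorem map_smul_of_X (f : M →+ M')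
    (hf : ∀ (i : ι) (x : M), f ((X i : MvPolynomial ι ℤ) • x) = (X i : MvPolynomial ι ℤ) • f x) :
    ∀ (r : MvPolynomial ι ℤ) (x : M), f (r • x) = r • f x := by
  intro r
  induction r using MvPolynomial.induction_on with
  | C n =>
    intro x
    rw [C_smul_eq_zsmul, C_smul_eq_zsmul, map_zsmul]
  | add p q hp hq =>
    intro x
    rw [add_smul, add_smul, map_add, hp, hq]
  | mul_X p i hp =>
    intro x
    rw [mul_smul, mul_smul, hp, hf]

/-- The linear map attached to an additive map commuting with the action of every variable. -/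
def linearMapOfX (f : M →+ M')
    (hf : ∀ (i : ι) (x : M), f ((X i : MvPolynomial ι ℤ) • x) = (X i : MvPolynomial ι ℤ) • f x) :
    M →ₗ[MvPolynomial ι ℤ] M' where
  toFun := f
  map_add' := f.map_add
  map_smul' := map_smul_of_X f hf

@[simp] theorem linearMapOfX_apply (f : M →+ M')
    (hf : ∀ (i : ι) (x : M), f ((X i : MvPolynomial ι ℤ) • x) = (X i : MvPolynomial ι ℤ) • f x)
    (x : M) : linearMapOfX f hf x = f x := rfl

end Linear

section Eigen

variable {ι : Type*} {B H : Type*} [CommRing B] [AddCommGroup H] [Module B H]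

/-- On a simultaneous eigenvector of all variables, a polynomial acts through its value at the
eigenvalues. -/
theorem smul_eq_eval₂_smul [Module (MvPolynomial ι ℤ) H] [SMulCommClass (MvPolynomial ι ℤ) B H]
    (θ : ι → B) (v : H) (hv : ∀ i, (X i : MvPolynomial ι ℤ) • v = θ i • v)
    (r : MvPolynomial ι ℤ) :
    r • v = (MvPolynomial.eval₂ (Int.castRingHom B) θ r) • v := by
  induction r using MvPolynomial.induction_on with
  | C n =>
    rw [C_smul_eq_zsmul, eval₂_C, eq_intCast, Int.cast_smul_eq_zsmul]
  | add p q hp hq =>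
    rw [add_smul, eval₂_add, add_smul, hp, hq]
  | mul_X p i hp =>
    rw [mul_smul, hv, smul_comm, hp, eval₂_mul, eval₂_X, mul_comm, mul_smul]

/-- If every `T i` commutes with the `B`-scalars then so does the polynomial action. -/
theorem polyModule_smulCommClass (T : ι → AddMonoid.End H)
    (hT : ∀ i j, T i * T j = T j * T i) (hB : ∀ (i : ι) (b : B) (x : H), T i (b • x) = b • T i x) :
    letI := polyModule T hT
    SMulCommClass (MvPolynomial ι ℤ) B H := by
  letI := polyModule T hT
  refine ⟨fun r b x => ?_⟩
  have h := map_smul_of_X (ι := ι) (M := H) (M' := H)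
    (DistribSMul.toAddMonoidHom H b) (fun i x => by
      show b • ((X i : MvPolynomial ι ℤ) • x) = (X i : MvPolynomial ι ℤ) • (b • x)
      rw [polyModule_X_smul, polyModule_X_smul, hB]) r x
  exact h.symm

end Eigen

end Fermat.Agent.S41.H30
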