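import Mathlib

/-!
# S41, node (POLY) (helper97): polynomial-ring module structures from commuting endomorphisms

The level-raising core `lr_core` (helper71) is stated for modules over a commutative ring `R`.
The intended `R` is the polynomial ring `MvPolynomial ι ℤ` on the good primes, acting on the
Betti lattices through the Hecke operators.  This file provides, for an arbitrary index type `ι`:

* `polyHom T hT : MvPolynomial ι ℤ →+* Module.End ℤ L`, `X i ↦ T i`, for a commuting family
  `T : ι → L →+ L` of additive endomorphisms of an additive commutative group `L`;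
* `polyModule T hT : Module (MvPolynomial ι ℤ) L` (use as `letI := polyModule T hT`), with
  `X_smul`, `C_smul`;
* `linear_of_X`, `linearOfX` : an additive map between two `MvPolynomial ι ℤ`-modules commuting
  with all `X i` is linear; `submoduleOfX` : an additive subgroup stable under all `X i` is a
  submodule;
* `evalHom p a`, `evalIdeal p a` : the kernel of `X i ↦ a i`, `MvPolynomial ι ℤ → ZMod p`; it is
  maximal, contains `p`, `X i - C n ∈ evalIdeal p a ↔ a i = n`, and `map_mem_of_evalIdeal`:
  a ring hom `θ` with `θ (X i) ≡ a i` modulo an ideal `𝔪 ∋ p` maps `evalIdeal p a` into `𝔪`.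
-/

set_option autoImplicit false

namespace Fermat.Agent.S41.H97

open MvPolynomial

universe u v w

variable {ι : Type u} {L : Type v} [AddCommGroup L]

/-- The members of the family as `ℤ`-linear endomorphisms. -/
def toEnd (T : ι → L →+ L) (i : ι) : Module.End ℤ L := (T i).toIntLinearMap

@[simp] theorem toEnd_apply (T : ι → L →+ L) (i : ι) (x : L) : toEnd T i x = T i x := rfl

theorem toEnd_comm (T : ι → L →+ L) (hT : ∀ i j x, T i (T j x) = T j (T i x)) :
    ∀ a ∈ Set.range (toEnd T), ∀ b ∈ Set.range (toEnd T), a * b = b * a := by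
  rintro _ ⟨i, rfl⟩ _ ⟨j, rfl⟩
  refine LinearMap.ext fun x => ?_
  exact hT i j x

/-- The commutative subalgebra of `End L` generated by the family. -/
abbrev polyAlg (T : ι → L →+ L) : Subalgebra ℤ (Module.End ℤ L) :=
  Algebra.adjoin ℤ (Set.range (toEnd T))

theorem polyAlg_comm (T : ι → L →+ L) (hT : ∀ i j x, T i (T j x) = T j (T i x)) :
    IsMulCommutative (polyAlg T) :=
  Algebra.isMulCommutative_adjoin ℤ (toEnd_comm T hT)

/-- The generators inside `polyAlg T`. -/
def polyGen (T : ι → L →+ L) (i : ι) : polyAlg T :=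
  ⟨toEnd T i, Algebra.subset_adjoin ⟨i, rfl⟩⟩

open scoped IsMulCommutative in
/-- The ring homomorphism `MvPolynomial ι ℤ → End L`, `X i ↦ T i`, of a commuting family. -/
noncomputable def polyHom (T : ι → L →+ L) (hT : ∀ i j x, T i (T j x) = T j (T i x)) :
    MvPolynomial ι ℤ →+* Module.End ℤ L :=
  haveI : IsMulCommutative (polyAlg T) := polyAlg_comm T hT
  (polyAlg T).val.toRingHom.comp (MvPolynomial.aeval (polyGen T)).toRingHom

open scoped IsMulCommutative in
theorem polyHom_X (T : ι → L →+ L) (hT : ∀ i j x, T i (T j x) = T j (T i x)) (i : ι) :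
    polyHom T hT (X i) = toEnd T i := by
  have : IsMulCommutative (polyAlg T) := polyAlg_comm T hT
  show (polyAlg T).val (MvPolynomial.aeval (polyGen T) (X i)) = toEnd T i
  rw [MvPolynomial.aeval_X]
  rfl

theorem polyHom_C (T : ι → L →+ L) (hT : ∀ i j x, T i (T j x) = T j (T i x)) (n : ℤ) :
    polyHom T hT (C n) = (n : Module.End ℤ L) := by
  have h : (C n : MvPolynomial ι ℤ) = ((n : ℤ) : MvPolynomial ι ℤ) := by
    simp
  rw [h, map_intCast]

/-- The `MvPolynomial ι ℤ`-module structure on `L` defined by a commuting family of additive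
endomorphisms: `X i • x = T i x`.  Use as `letI := polyModule T hT`. -/
@[reducible] noncomputable def polyModule (T : ι → L →+ L)
    (hT : ∀ i j x, T i (T j x) = T j (T i x)) : Module (MvPolynomial ι ℤ) L :=
  Module.compHom L (polyHom T hT)

theorem smul_def (T : ι → L →+ L) (hT : ∀ i j x, T i (T j x) = T j (T i x))
    (r : MvPolynomial ι ℤ) (x : L) :
    (letI := polyModule T hT; r • x) = polyHom T hT r x := rfl

theorem X_smul (T : ι → L →+ L) (hT : ∀ i j x, T i (T j x) = T j (T i x)) (i : ι) (x : L) :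
    (letI := polyModule T hT; (X i : MvPolynomial ι ℤ) • x) = T i x := by
  rw [smul_def, polyHom_X]
  rfl

theorem C_smul (T : ι → L →+ L) (hT : ∀ i j x, T i (T j x) = T j (T i x)) (n : ℤ) (x : L) :
    (letI := polyModule T hT; (C n : MvPolynomial ι ℤ) • x) = n • x := by
  rw [smul_def, polyHom_C]
  simp

/-- The action of the variables on the product module `L × L`. -/
theorem X_smul_prod (T : ι → L →+ L) (hT : ∀ i j x, T i (T j x) = T j (T i x)) (i : ι)
    (u : L × L) :
    (letI := polyModule T hT; (X i : MvPolynomial ι ℤ) • u) = (T i u.1, T i u.2) := by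
  let _inst := polyModule T hT
  show ((X i : MvPolynomial ι ℤ) • u.1, (X i : MvPolynomial ι ℤ) • u.2) = (T i u.1, T i u.2)
  rw [X_smul T hT, X_smul T hT]

/-- The action of an arbitrary polynomial commutes with every additive endomorphism commuting
with the family. -/
theorem polyHom_comm (T : ι → L →+ L) (hT : ∀ i j x, T i (T j x) = T j (T i x)) (S : L →+ L)
    (hS : ∀ i x, S (T i x) = T i (S x)) (r : MvPolynomial ι ℤ) (x : L) :
    S (polyHom T hT r x) = polyHom T hT r (S x) := by
  induction r using MvPolynomial.induction_on generalizing x with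
  | C n =>
    rw [polyHom_C]
    simp
  | add f g hf hg =>
    rw [map_add, LinearMap.add_apply, LinearMap.add_apply, map_add, hf, hg]
  | mul_X f i hf =>
    rw [map_mul, polyHom_X, Module.End.mul_apply, Module.End.mul_apply, hf, toEnd_apply,
      toEnd_apply, hS]

/-! ### Linearity from commutation with the variables -/

section Linear

variable {M : Type v} {M' : Type w} [AddCommGroup M] [AddCommGroup M']
  [Module (MvPolynomial ι ℤ) M] [Module (MvPolynomial ι ℤ) M']

theorem C_smul_eq_zsmul (n : ℤ) (x : M) : (C n : MvPolynomial ι ℤ) • x = n • x := by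
  have h : (C n : MvPolynomial ι ℤ) = ((n : ℤ) : MvPolynomial ι ℤ) := by
    simp
  rw [h, Int.cast_smul_eq_zsmul]

/-- An additive map between `MvPolynomial ι ℤ`-modules which commutes with all the variables is
linear. -/
theorem linear_of_X (f : M →+ M')
    (hf : ∀ (i : ι) (x : M), f ((X i : MvPolynomial ι ℤ) • x) = (X i : MvPolynomial ι ℤ) • f x) :
    ∀ (r : MvPolynomial ι ℤ) (x : M), f (r • x) = r • f x := by
  intro r
  induction r using MvPolynomial.induction_on with
  | C n =>
    intro x
    rw [C_smul_eq_zsmul, C_smul_eq_zsmul, map_zsmul]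
  | add p q hp hq =>
    intro x
    rw [add_smul, add_smul, map_add, hp, hq]
  | mul_X p i hp =>
    intro x
    rw [mul_smul, mul_smul, hp, hf]

/-- The linear map attached to an additive map commuting with the variables. -/
def linearOfX (f : M →+ M')
    (hf : ∀ (i : ι) (x : M), f ((X i : MvPolynomial ι ℤ) • x) = (X i : MvPolynomial ι ℤ) • f x) :
    M →ₗ[MvPolynomial ι ℤ] M' where
  toFun := f
  map_add' := map_add f
  map_smul' r x := linear_of_X f hf r x

@[simp] theorem linearOfX_apply (f : M →+ M')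
    (hf : ∀ (i : ι) (x : M), f ((X i : MvPolynomial ι ℤ) • x) = (X i : MvPolynomial ι ℤ) • f x)
    (x : M) : linearOfX f hf x = f x := rfl

/-- An additive subgroup stable under all the variables is stable under all polynomials. -/
theorem smul_mem_of_X (S : AddSubgroup M)
    (hS : ∀ (i : ι) (x : M), x ∈ S → (X i : MvPolynomial ι ℤ) • x ∈ S) :
    ∀ (r : MvPolynomial ι ℤ) (x : M), x ∈ S → r • x ∈ S := by
  intro r
  induction r using MvPolynomial.induction_on with
  | C n =>
    intro x hx
    rw [C_smul_eq_zsmul]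
    exact S.zsmul_mem hx n
  | add p q hp hq =>
    intro x hx
    rw [add_smul]
    exact S.add_mem (hp x hx) (hq x hx)
  | mul_X p i hp =>
    intro x hx
    rw [mul_smul]
    exact hp _ (hS i x hx)

/-- The submodule with the same carrier as an additive subgroup stable under the variables. -/
def submoduleOfX (S : AddSubgroup M)
    (hS : ∀ (i : ι) (x : M), x ∈ S → (X i : MvPolynomial ι ℤ) • x ∈ S) :
    Submodule (MvPolynomial ι ℤ) M where
  carrier := S
  add_mem' := S.add_mem
  zero_mem' := S.zero_mem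
  smul_mem' r x hx := smul_mem_of_X S hS r x hx

@[simp] theorem mem_submoduleOfX (S : AddSubgroup M)
    (hS : ∀ (i : ι) (x : M), x ∈ S → (X i : MvPolynomial ι ℤ) • x ∈ S) (x : M) :
    x ∈ submoduleOfX S hS ↔ x ∈ S := Iff.rfl

end Linear

/-- For the structures `polyModule`: an additive map intertwining the two families is linear. -/
theorem polyModule_linear {L' : Type w} [AddCommGroup L'] (T : ι → L →+ L)
    (hT : ∀ i j x, T i (T j x) = T j (T i x)) (T' : ι → L' →+ L')
    (hT' : ∀ i j x, T' i (T' j x) = T' j (T' i x)) (f : L →+ L')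
    (hf : ∀ i x, f (T i x) = T' i (f x)) (r : MvPolynomial ι ℤ) (x : L) :
    f (polyHom T hT r x) = polyHom T' hT' r (f x) := by
  let _i1 := polyModule T hT
  let _i2 := polyModule T' hT'
  refine linear_of_X (M := L) (M' := L') f (fun i y => ?_) r x
  rw [X_smul T hT, X_smul T' hT', hf]

/-! ### The ideal of a system of eigenvalues mod `p` -/

section Eval

variable (p : ℕ) (a : ι → ZMod p)

/-- The ring homomorphism `MvPolynomial ι ℤ → ZMod p`, `X i ↦ a i`. -/
noncomputable def evalHom : MvPolynomial ι ℤ →+* ZMod p :=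
  MvPolynomial.eval₂Hom (Int.castRingHom (ZMod p)) a

/-- The kernel of `evalHom p a`: the ideal `𝔫` of a system of eigenvalues modulo `p`. -/
noncomputable def evalIdeal : Ideal (MvPolynomial ι ℤ) := RingHom.ker (evalHom p a)

variable {p a}

theorem mem_evalIdeal_iff (r : MvPolynomial ι ℤ) : r ∈ evalIdeal p a ↔ evalHom p a r = 0 :=
  RingHom.mem_ker

@[simp] theorem evalHom_X (i : ι) : evalHom p a (X i) = a i := by
  simp [evalHom]

@[simp] theorem evalHom_C (n : ℤ) : evalHom p a (C n) = (n : ZMod p) := by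
  simp [evalHom]

theorem evalHom_surjective : Function.Surjective (evalHom p a) := by
  intro z
  obtain ⟨n, rfl⟩ := ZMod.intCast_surjective z
  exact ⟨C n, evalHom_C n⟩

theorem evalIdeal_isMaximal [Fact p.Prime] : (evalIdeal p a).IsMaximal :=
  RingHom.ker_isMaximal_of_surjective (evalHom p a) evalHom_surjective

theorem natCast_mem_evalIdeal : ((p : ℕ) : MvPolynomial ι ℤ) ∈ evalIdeal p a := by
  rw [mem_evalIdeal_iff, map_natCast, ZMod.natCast_self]

theorem X_sub_C_mem_evalIdeal_iff (i : ι) (n : ℤ) :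
    (X i - C n : MvPolynomial ι ℤ) ∈ evalIdeal p a ↔ a i = (n : ZMod p) := by
  rw [mem_evalIdeal_iff, map_sub, evalHom_X, evalHom_C, sub_eq_zero]

/-- A ring homomorphism `θ` with `θ (X i) ≡ a i` modulo an ideal `𝔪` containing `p` is congruent
to `evalHom p a` modulo `𝔪`. -/
theorem exists_int_evalHom {S : Type w} [CommRing S] (θ : MvPolynomial ι ℤ →+* S) (𝔪 : Ideal S)
    (hθ : ∀ i, ∃ n : ℤ, (n : ZMod p) = a i ∧ θ (X i) - (n : S) ∈ 𝔪) (r : MvPolynomial ι ℤ) :
    ∃ n : ℤ, (n : ZMod p) = evalHom p a r ∧ θ r - (n : S) ∈ 𝔪 := by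
  induction r using MvPolynomial.induction_on with
  | C m =>
    refine ⟨m, (evalHom_C m).symm, ?_⟩
    have h : (C m : MvPolynomial ι ℤ) = ((m : ℤ) : MvPolynomial ι ℤ) := by
      simp
    rw [h, map_intCast, sub_self]
    exact 𝔪.zero_mem
  | add f g hf hg =>
    obtain ⟨n₁, h₁, h₁'⟩ := hf
    obtain ⟨n₂, h₂, h₂'⟩ := hg
    refine ⟨n₁ + n₂, by rw [map_add, ← h₁, ← h₂]; push_cast; rfl, ?_⟩
    have e : θ (f + g) - ((n₁ + n₂ : ℤ) : S) = (θ f - (n₁ : S)) + (θ g - (n₂ : S)) := by
      rw [map_add]; push_cast; ring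
    rw [e]
    exact 𝔪.add_mem h₁' h₂'
  | mul_X f i hf =>
    obtain ⟨n₁, h₁, h₁'⟩ := hf
    obtain ⟨n₂, h₂, h₂'⟩ := hθ i
    refine ⟨n₁ * n₂, by rw [map_mul, evalHom_X, ← h₁, ← h₂]; push_cast; rfl, ?_⟩
    have e : θ (f * X i) - ((n₁ * n₂ : ℤ) : S) =
        θ f * (θ (X i) - (n₂ : S)) + (n₂ : S) * (θ f - (n₁ : S)) := by
      rw [map_mul]; push_cast; ring
    rw [e]
    exact 𝔪.add_mem (𝔪.mul_mem_left _ h₂') (𝔪.mul_mem_left _ h₁')

/-- A ring homomorphism `θ` with `θ (X i) ≡ a i` modulo an ideal `𝔪` containing `p` maps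
`evalIdeal p a` into `𝔪`. -/
theorem map_mem_of_evalIdeal {S : Type w} [CommRing S] (θ : MvPolynomial ι ℤ →+* S) (𝔪 : Ideal S)
    (hp : ((p : ℕ) : S) ∈ 𝔪)
    (hθ : ∀ i, ∃ n : ℤ, (n : ZMod p) = a i ∧ θ (X i) - (n : S) ∈ 𝔪) :
    ∀ r ∈ evalIdeal p a, θ r ∈ 𝔪 := by
  intro r hr
  obtain ⟨n, hn, hn'⟩ := exists_int_evalHom θ 𝔪 hθ r
  rw [(mem_evalIdeal_iff r).mp hr] at hn
  obtain ⟨k, rfl⟩ := (ZMod.intCast_zmod_eq_zero_iff_dvd n p).mp hn
  have e : θ r = (θ r - (((p : ℤ) * k : ℤ) : S)) + ((p : ℕ) : S) * (k : S) := by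
    push_cast; ring
  rw [e]
  exact 𝔪.add_mem hn' (𝔪.mul_mem_right _ hp)

/-- Conversely, an element of `evalIdeal p a` is congruent to a multiple of `p`... in the form
used to recognise the ideal: `r ∈ evalIdeal p a` as soon as `evalHom p a r = 0`. -/
theorem X_sub_intCast_mem_evalIdeal_iff (i : ι) (n : ℤ) :
    (X i - (n : MvPolynomial ι ℤ)) ∈ evalIdeal p a ↔ a i = (n : ZMod p) := by
  rw [mem_evalIdeal_iff, map_sub, evalHom_X, map_intCast, sub_eq_zero]

end Eval

end Fermat.Agent.S41.H97
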