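/-
S41 node (POLY) (helper21): the `MvPolynomial ι ℤ`-module structure defined by a commuting family
of additive endomorphisms, equivariant additive maps are linear, eigen-compatibility.
Mathlib only.
-/
import Mathlib

set_option autoImplicit false

namespace Fermat.Agent.S41.H21

open MvPolynomial

section Hom

variable {ι L : Type*} [AddCommGroup L]

open scoped IsMulCommutative in
/-- The ring homomorphism `MvPolynomial ι ℤ →+* AddMonoid.End L`, `X i ↦ T i`, attached to a
commuting family `T` of additive endomorphisms. -/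
noncomputable def polyHom (T : ι → AddMonoid.End L) (hT : ∀ i j, Commute (T i) (T j)) :
    MvPolynomial ι ℤ →+* AddMonoid.End L :=
  haveI : IsMulCommutative (Subring.closure (Set.range T)) :=
    Subring.isMulCommutative_closure (by
      rintro _ ⟨i, rfl⟩ _ ⟨j, rfl⟩
      exact (hT i j).eq)
  (Subring.closure (Set.range T)).subtype.comp
    (MvPolynomial.eval₂Hom (Int.castRingHom (Subring.closure (Set.range T)))
      (fun i => ⟨T i, Subring.subset_closure ⟨i, rfl⟩⟩))

variable (T : ι → AddMonoid.End L) (hT : ∀ i j, Commute (T i) (T j))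

@[simp] theorem polyHom_X (i : ι) : polyHom T hT (MvPolynomial.X i) = T i := by
  unfold polyHom
  simp

@[simp] theorem polyHom_X_apply (i : ι) (x : L) : polyHom T hT (MvPolynomial.X i) x = T i x := by
  rw [polyHom_X]

theorem polyHom_C (n : ℤ) : polyHom T hT (MvPolynomial.C n) = (n : AddMonoid.End L) := by
  have h : (MvPolynomial.C n : MvPolynomial ι ℤ) = ((n : ℤ) : MvPolynomial ι ℤ) := by
    simp
  rw [h, map_intCast]

theorem intCast_end_apply (n : ℤ) (x : L) : ((n : AddMonoid.End L)) x = n • x := rfl

theorem polyHom_C_apply (n : ℤ) (x : L) : polyHom T hT (MvPolynomial.C n) x = n • x := by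
  rw [polyHom_C, intCast_end_apply]

theorem polyHom_intCast_apply (n : ℤ) (x : L) :
    polyHom T hT ((n : ℤ) : MvPolynomial ι ℤ) x = n • x := by
  rw [map_intCast, intCast_end_apply]

theorem polyHom_natCast_apply (n : ℕ) (x : L) :
    polyHom T hT ((n : ℕ) : MvPolynomial ι ℤ) x = n • x := by
  rw [map_natCast]; rfl

theorem polyHom_add_apply (r s : MvPolynomial ι ℤ) (x : L) :
    polyHom T hT (r + s) x = polyHom T hT r x + polyHom T hT s x := by
  rw [map_add]; rfl

theorem polyHom_mul_apply (r s : MvPolynomial ι ℤ) (x : L) :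
    polyHom T hT (r * s) x = polyHom T hT r (polyHom T hT s x) := by
  rw [map_mul]; rfl

theorem polyHom_sub_apply (r s : MvPolynomial ι ℤ) (x : L) :
    polyHom T hT (r - s) x = polyHom T hT r x - polyHom T hT s x := by
  rw [map_sub]; rfl

theorem polyHom_one_apply (x : L) : polyHom T hT 1 x = x := by
  rw [map_one]; rfl

/-- The module structure; install it with `letI := polyModule T hT`. -/
@[reducible] noncomputable def polyModule : Module (MvPolynomial ι ℤ) L :=
  Module.compHom L (polyHom T hT)

theorem smul_def (r : MvPolynomial ι ℤ) (x : L) :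
    (letI := polyModule T hT; r • x) = polyHom T hT r x := rfl

theorem X_smul (i : ι) (x : L) :
    (letI := polyModule T hT; (MvPolynomial.X i : MvPolynomial ι ℤ) • x) = T i x := by
  rw [smul_def, polyHom_X]

theorem C_smul (n : ℤ) (x : L) :
    (letI := polyModule T hT; (MvPolynomial.C n : MvPolynomial ι ℤ) • x) = n • x := by
  rw [smul_def, polyHom_C_apply]

theorem intCast_smul (n : ℤ) (x : L) :
    (letI := polyModule T hT; ((n : ℤ) : MvPolynomial ι ℤ) • x) = n • x := by
  rw [smul_def, polyHom_intCast_apply]

theorem natCast_smul (n : ℕ) (x : L) :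
    (letI := polyModule T hT; ((n : ℕ) : MvPolynomial ι ℤ) • x) = n • x := by
  rw [smul_def, polyHom_natCast_apply]

/-- `X i - C n` acts as `T i - n`. -/
theorem X_sub_C_smul (i : ι) (n : ℤ) (x : L) :
    (letI := polyModule T hT; ((MvPolynomial.X i : MvPolynomial ι ℤ) - MvPolynomial.C n) • x)
      = T i x - n • x := by
  rw [smul_def, polyHom_sub_apply, polyHom_X, polyHom_C_apply]

/-- Subgroups stable under all `T i` are stable under the polynomial action. -/
theorem polyHom_mem_of_stable (K : AddSubgroup L) (hK : ∀ i, ∀ x ∈ K, T i x ∈ K)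
    (r : MvPolynomial ι ℤ) {x : L} (hx : x ∈ K) : polyHom T hT r x ∈ K := by
  induction r using MvPolynomial.induction_on generalizing x with
  | C n =>
      rw [polyHom_C_apply]
      exact K.zsmul_mem hx n
  | add r s hr hs =>
      rw [polyHom_add_apply]
      exact K.add_mem (hr hx) (hs hx)
  | mul_X r i hr =>
      rw [polyHom_mul_apply, polyHom_X]
      exact hr (hK i x hx)

/-- The submodule attached to a `T`-stable subgroup. -/
noncomputable def stableSubmodule (K : AddSubgroup L) (hK : ∀ i, ∀ x ∈ K, T i x ∈ K) :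
    (letI := polyModule T hT; Submodule (MvPolynomial ι ℤ) L) :=
  letI := polyModule T hT
  { carrier := K
    add_mem' := fun ha hb => K.add_mem ha hb
    zero_mem' := K.zero_mem
    smul_mem' := fun r _ hx => polyHom_mem_of_stable T hT K hK r hx }

theorem mem_stableSubmodule (K : AddSubgroup L) (hK : ∀ i, ∀ x ∈ K, T i x ∈ K) (x : L) :
    x ∈ stableSubmodule T hT K hK ↔ x ∈ K := Iff.rfl

end Hom

section Equivariant

variable {ι L L' : Type*} [AddCommGroup L] [AddCommGroup L']
variable (T : ι → AddMonoid.End L) (hT : ∀ i j, Commute (T i) (T j))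
variable (T' : ι → AddMonoid.End L') (hT' : ∀ i j, Commute (T' i) (T' j))

/-- An additive map intertwining the two families intertwines the polynomial actions. -/
theorem map_polyHom (f : L →+ L') (hf : ∀ i x, f (T i x) = T' i (f x))
    (r : MvPolynomial ι ℤ) (x : L) : f (polyHom T hT r x) = polyHom T' hT' r (f x) := by
  induction r using MvPolynomial.induction_on generalizing x with
  | C n =>
      rw [polyHom_C_apply, polyHom_C_apply, map_zsmul]
  | add r s hr hs =>
      rw [polyHom_add_apply, polyHom_add_apply, map_add, hr, hs]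
  | mul_X r i hr =>
      rw [polyHom_mul_apply, polyHom_mul_apply, polyHom_X, polyHom_X, hr, hf]

/-- Equivariant additive maps are linear for the polynomial module structures. -/
noncomputable def linearOfEquivariant (f : L →+ L') (hf : ∀ i x, f (T i x) = T' i (f x)) :
    (letI := polyModule T hT; letI := polyModule T' hT'; L →ₗ[MvPolynomial ι ℤ] L') :=
  letI := polyModule T hT
  letI := polyModule T' hT'
  { toFun := f
    map_add' := f.map_add
    map_smul' := fun r x => map_polyHom T hT T' hT' f hf r x }

theorem linearOfEquivariant_apply (f : L →+ L') (hf : ∀ i x, f (T i x) = T' i (f x)) (x : L) :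
    (linearOfEquivariant T hT T' hT' f hf) x = f x := rfl

end Equivariant

section Eigen

variable {ι L : Type*} [AddCommGroup L]
variable (T : ι → AddMonoid.End L) (hT : ∀ i j, Commute (T i) (T j))

/-- Eigen-compatibility: if `e (T i x) = a i • e x` for scalars `a i` of a commutative ring `A`
acting on `M`, then `e (r • x) = (eval of r at a) • e x`. -/
theorem map_smul_of_eigen {A M : Type*} [CommRing A] [AddCommGroup M] [Module A M]
    (a : ι → A) (e : L →+ M) (he : ∀ i x, e (T i x) = a i • e x)
    (r : MvPolynomial ι ℤ) (x : L) :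
    e (polyHom T hT r x) = (MvPolynomial.eval₂Hom (Int.castRingHom A) a r) • e x := by
  induction r using MvPolynomial.induction_on generalizing x with
  | C n =>
      rw [polyHom_C_apply, map_zsmul, MvPolynomial.eval₂Hom_C, eq_intCast,
        Int.cast_smul_eq_zsmul]
  | add r s hr hs =>
      rw [polyHom_add_apply, map_add, hr, hs, map_add, add_smul]
  | mul_X r i hr =>
      rw [polyHom_mul_apply, polyHom_X, hr, he, map_mul, MvPolynomial.eval₂Hom_X', mul_smul]

/-- The polynomial action commutes with every scalar multiplication commuting with the `T i`. -/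
theorem polyHom_smul_comm {A : Type*} [Semiring A] [Module A L]
    (hlin : ∀ i (c : A) (x : L), T i (c • x) = c • T i x)
    (r : MvPolynomial ι ℤ) (c : A) (x : L) :
    polyHom T hT r (c • x) = c • polyHom T hT r x :=
  (map_polyHom T hT T hT (smulAddHom A L c) (fun i y => (hlin i c y).symm) r x).symm

/-- Version for a single `T`-eigenvector `v` (`T i v = a i • v`) in an `A`-module `L` on which
the `T i` are `A`-homogeneous. -/
theorem polyHom_apply_of_eigen {A : Type*} [CommRing A] [Module A L]
    (a : ι → A) (v : L) (hv : ∀ i, T i v = a i • v)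
    (hlin : ∀ i (c : A) (x : L), T i (c • x) = c • T i x)
    (r : MvPolynomial ι ℤ) :
    polyHom T hT r v = (MvPolynomial.eval₂Hom (Int.castRingHom A) a r) • v := by
  induction r using MvPolynomial.induction_on with
  | C n =>
      rw [polyHom_C_apply, MvPolynomial.eval₂Hom_C, eq_intCast, Int.cast_smul_eq_zsmul]
  | add r s hr hs =>
      rw [polyHom_add_apply, hr, hs, map_add, add_smul]
  | mul_X r i hr =>
      rw [polyHom_mul_apply, polyHom_X, hv, polyHom_smul_comm T hT hlin, hr, map_mul,
        MvPolynomial.eval₂Hom_X', smul_smul, mul_comm]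

end Eigen

section Prod

variable {ι L L' : Type*} [AddCommGroup L] [AddCommGroup L']
variable (T : ι → AddMonoid.End L) (hT : ∀ i j, Commute (T i) (T j))
variable (T' : ι → AddMonoid.End L') (hT' : ∀ i j, Commute (T' i) (T' j))

/-- `(x, y) ↦ f₁ x + f₂ y` as a linear map out of the product module (componentwise action). -/
noncomputable def coprodOfEquivariant (f₁ f₂ : L →+ L')
    (hf₁ : ∀ i x, f₁ (T i x) = T' i (f₁ x)) (hf₂ : ∀ i x, f₂ (T i x) = T' i (f₂ x)) :
    (letI := polyModule T hT; letI := polyModule T' hT'; (L × L) →ₗ[MvPolynomial ι ℤ] L') :=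
  letI := polyModule T hT
  letI := polyModule T' hT'
  (linearOfEquivariant T hT T' hT' f₁ hf₁).coprod (linearOfEquivariant T hT T' hT' f₂ hf₂)

theorem coprodOfEquivariant_apply (f₁ f₂ : L →+ L')
    (hf₁ : ∀ i x, f₁ (T i x) = T' i (f₁ x)) (hf₂ : ∀ i x, f₂ (T i x) = T' i (f₂ x)) (u : L × L) :
    (coprodOfEquivariant T hT T' hT' f₁ f₂ hf₁ hf₂) u = f₁ u.1 + f₂ u.2 := rfl

/-- `z ↦ (g₁ z, g₂ z)` as a linear map into the product module (componentwise action). -/
noncomputable def prodOfEquivariant (g₁ g₂ : L' →+ L)
    (hg₁ : ∀ i x, g₁ (T' i x) = T i (g₁ x)) (hg₂ : ∀ i x, g₂ (T' i x) = T i (g₂ x)) :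
    (letI := polyModule T hT; letI := polyModule T' hT'; L' →ₗ[MvPolynomial ι ℤ] (L × L)) :=
  letI := polyModule T hT
  letI := polyModule T' hT'
  (linearOfEquivariant T' hT' T hT g₁ hg₁).prod (linearOfEquivariant T' hT' T hT g₂ hg₂)

theorem prodOfEquivariant_apply (g₁ g₂ : L' →+ L)
    (hg₁ : ∀ i x, g₁ (T' i x) = T i (g₁ x)) (hg₂ : ∀ i x, g₂ (T' i x) = T i (g₂ x)) (z : L') :
    (prodOfEquivariant T hT T' hT' g₁ g₂ hg₁ hg₂) z = (g₁ z, g₂ z) := rfl

/-- The action on the product module is componentwise. -/
theorem smul_prod_def (r : MvPolynomial ι ℤ) (u : L × L) :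
    (letI := polyModule T hT; r • u) = (polyHom T hT r u.1, polyHom T hT r u.2) := rfl

end Prod

end Fermat.Agent.S41.H21
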