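import Mathlib
import Fermat.Statements.S41
import Fermat.Agent.S41.LRInst_helper71
import Fermat.Agent.S41.IhOps_helper19
import Fermat.Agent.S41.CIClosed_helper39
import Fermat.Agent.S41.NonEisClosed_helper86
import Fermat.Agent.S41.BettiFrozen_helper50
import Fermat.Agent.S41.UBridge_helper72

/-!
# S41, spare top assembly (helper71)

`s41_spare`: the frozen statement S41 (level raising), assembled from
`H71.lr_inst` (instance of the abstract level raising core), `H19.ih_ops` (Ihara's lemma),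
`H39.gDual` (its dual), `H86.exists_good_prime_not_dvd` (non-Eisenstein prime),
`H19.uOp_uOp_of_ker` + `H72.exists_isUTr_sq_of_uOp_uOp` (`U_q² = 1` on the new part) and
`H50.exists_newAt_frozen` (Deligne-Serre lifting back to cusp forms).

This is an insurance copy of the top assembly; it does not define `Fermat.Agent.S41.result`.
-/

set_option autoImplicit false

open WeierstrassCurve WeierstrassCurve.Affine WeierstrassCurve.Affine.Point
open scoped CongruenceSubgroup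
open WeierstrassCurve

namespace Fermat.Agent.S41.H71

open CongruenceSubgroup ModularCurve ModularCurve.Period

theorem s41_spare
    (E : WeierstrassCurve ℚ) [E.IsElliptic] {W : WeierstrassCurve ℤ} (hW : W.IsIntegralModelOf E)
    {p N q' : ℕ} (hp : p.Prime) (hp2 : p ≠ 2) (hN : 0 < N) (hq' : q'.Prime) (hq'N : ¬ q' ∣ N)
    (hq'p : q' ≠ p)
    (hirr : GaloisRepIsIrreducible (K := AlgebraicClosure ℚ) ℚ E p)
    (f : CuspForm (CongruenceSubgroup.Gamma0 N) 2) (𝔪 : Ideal (integralClosure ℤ ℂ))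
    (hf : f.IsNormalizedEigenform) (hmax : 𝔪.IsMaximal) (hpm : (p : integralClosure ℤ ℂ) ∈ 𝔪)
    (hcong : ∀ ℓ : ℕ, ℓ.Prime → W.IsGoodPrimeFor ℓ → ¬ ℓ ∣ N → ℓ ≠ p →
      ∃ a : integralClosure ℤ ℂ, (a : ℂ) = ModularFormClass.qCoeff f ℓ ∧
        a - ((W.apOfModel ℓ : ℤ) : integralClosure ℤ ℂ) ∈ 𝔪)
    (hLR : ∃ a : integralClosure ℤ ℂ, (a : ℂ) = ModularFormClass.qCoeff f q' ∧
      a ^ 2 - ((q' : integralClosure ℤ ℂ) + 1) ^ 2 ∈ 𝔪) :
    ∃ (g : CuspForm (CongruenceSubgroup.Gamma0 (N * q')) 2) (𝔪' : Ideal (integralClosure ℤ ℂ)),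
      g.IsNormalizedEigenform ∧ 𝔪'.IsMaximal ∧ (p : integralClosure ℤ ℂ) ∈ 𝔪' ∧
      (∀ ℓ : ℕ, ℓ.Prime → W.IsGoodPrimeFor ℓ → ¬ ℓ ∣ N * q' → ℓ ≠ p →
        ∃ a : integralClosure ℤ ℂ, (a : ℂ) = ModularFormClass.qCoeff g ℓ ∧
          a - ((W.apOfModel ℓ : ℤ) : integralClosure ℤ ℂ) ∈ 𝔪') ∧
      g.IsNewAt q' := by
  classical
  have hNne : NeZero N := ⟨hN.ne'⟩
  have hNqne : NeZero (N * q') := ⟨Nat.mul_ne_zero hN.ne' hq'.ne_zero⟩
  have hpF : Fact p.Prime := ⟨hp⟩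
  -- the non-Eisenstein prime
  obtain ⟨r, hr, hrM, hrgood, hrne⟩ := H86.exists_good_prime_not_dvd E hW hp hp2 hirr
    (M := N * q' * p) (Nat.mul_ne_zero (Nat.mul_ne_zero hN.ne' hq'.ne_zero) hp.ne_zero)
  have hrNq : ¬ r ∣ N * q' := fun h => hrM (Dvd.dvd.mul_right h p)
  have hrp : r ≠ p := fun h => hrM (h ▸ Dvd.intro_left (N * q') rfl)
  -- the index type and its data
  let pr : {ℓ : ℕ // ℓ.Prime ∧ W.IsGoodPrimeFor ℓ ∧ ¬ ℓ ∣ N * q' ∧ ℓ ≠ p} → ℕ := fun i => i.1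
  have hpr : ∀ i, (pr i).Prime := fun i => i.2.1
  have hprNq : ∀ i, ¬ pr i ∣ N * q' := fun i => i.2.2.2.1
  have hgood : ∀ i, W.IsGoodPrimeFor (pr i) := fun i => i.2.2.1
  have hprp : ∀ i, pr i ≠ p := fun i => i.2.2.2.2
  let i₀ : {ℓ : ℕ // ℓ.Prime ∧ W.IsGoodPrimeFor ℓ ∧ ¬ ℓ ∣ N * q' ∧ ℓ ≠ p} :=
    ⟨r, hr, hrgood, hrNq, hrp⟩
  obtain ⟨K, hK, hKker⟩ := lr_inst hq' hq'N f 𝔪 hf hmax hpm hcong hLR pr hpr hprNq hgood hprp i₀
    hrne
    (fun x y hx hy z h => H19.ih_ops hN hq' hq'N hp hp2 (hpr i₀)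
      (H19.not_dvd_left (hprNq i₀)) x y hx hy z h)
    (fun x y hx hy => H39.gDual hN hq' hq'N hp hp2 (hpr i₀)
      (H19.not_dvd_left (hprNq i₀)) x y hx hy)
  letI : Module (MvPolynomial {ℓ : ℕ // ℓ.Prime ∧ W.IsGoodPrimeFor ℓ ∧ ¬ ℓ ∣ N * q' ∧ ℓ ≠ p} ℤ)
      (parabolicHoms ℤ (Gamma0 (N * q')) ℤ) := H50.latModule (N * q') pr hpr hprNq
  refine H50.exists_newAt_frozen (W := W) (p := p) hN hq'
    (fun i x => H50.latModule_X_smul (N * q') pr hpr hprNq i x)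
    (H59.evalIdeal p (fun i => W.apOfModel (pr i))) (H59.natCast_mem_evalIdeal p _)
    (fun i => (H59.X_sub_C_mem_evalIdeal_iff p _ i _).mpr rfl) K hK ?_
  intro x hx
  obtain ⟨h1, h2⟩ := hKker x hx
  exact H72.exists_isUTr_sq_of_uOp_uOp N hq'.ne_zero _
    (H19.uOp_uOp_of_ker hq' hq'N _ h1 h2)

end Fermat.Agent.S41.H71
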