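import Mathlib

/-!
# S41, node (E0), part 1 (helper65): the point group under a change of variables

`Shift W₁ W₂ r s t` says that `W₂` is obtained from `W₁` by the substitution
`x = x' + r`, `y = y' + s x' + t`.  Then `(x', y') ↦ (x' + r, y' + s x' + t)` is an additive
equivalence `W₂.Point ≃+ W₁.Point` (`Shift.equiv`).
-/

set_option autoImplicit false

open WeierstrassCurve WeierstrassCurve.Affine

namespace Fermat.Agent.S41.H65

variable {K : Type*} [Field K]

/-- `W₂` is `W₁` after the substitution `x = x' + r`, `y = y' + s x' + t`. -/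
structure Shift (W₁ W₂ : WeierstrassCurve K) (r s t : K) : Prop where
  e₁ : W₂.a₁ = W₁.a₁ + 2 * s
  e₂ : W₂.a₂ = W₁.a₂ - s * W₁.a₁ + 3 * r - s ^ 2
  e₃ : W₂.a₃ = W₁.a₃ + r * W₁.a₁ + 2 * t
  e₄ : W₂.a₄ = W₁.a₄ - s * W₁.a₃ + 2 * r * W₁.a₂ - (t + r * s) * W₁.a₁ + 3 * r ^ 2 - 2 * s * t
  e₆ : W₂.a₆ = W₁.a₆ + r * W₁.a₄ + r ^ 2 * W₁.a₂ + r ^ 3 - t * W₁.a₃ - t ^ 2 - r * t * W₁.a₁

namespace Shift

variable {W₁ W₂ : WeierstrassCurve K} {r s t : K} (H : Shift W₁ W₂ r s t)

include H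

lemma Δ_eq : W₂.Δ = W₁.Δ := by
  simp only [WeierstrassCurve.Δ, WeierstrassCurve.b₂, WeierstrassCurve.b₄, WeierstrassCurve.b₆,
    WeierstrassCurve.b₈, H.e₁, H.e₂, H.e₃, H.e₄, H.e₆]
  ring

lemma equation_iff' (x y : K) :
    W₂.toAffine.Equation x y ↔ W₁.toAffine.Equation (x + r) (y + s * x + t) := by
  rw [equation_iff, equation_iff, H.e₁, H.e₂, H.e₃, H.e₄, H.e₆]
  constructor <;> intro h <;> linear_combination h

lemma nonsingular_iff' (x y : K) :
    W₂.toAffine.Nonsingular x y ↔ W₁.toAffine.Nonsingular (x + r) (y + s * x + t) := by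
  rw [WeierstrassCurve.Affine.nonsingular_iff', WeierstrassCurve.Affine.nonsingular_iff',
    H.equation_iff' x y]
  refine and_congr Iff.rfl ?_
  rw [H.e₁, H.e₂, H.e₃, H.e₄]
  constructor
  · rintro (h | h)
    · by_cases h2 : 2 * (y + s * x + t) + W₁.a₁ * (x + r) + W₁.a₃ = 0
      · left
        intro hc
        apply h
        linear_combination hc + s * h2
      · right
        exact h2
    · right
      intro hc
      apply h
      linear_combination hc
  · rintro (h | h)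
    · by_cases h2 : 2 * y + (W₁.a₁ + 2 * s) * x + (W₁.a₃ + r * W₁.a₁ + 2 * t) = 0
      · left
        intro hc
        apply h
        linear_combination hc - s * h2
      · right
        exact h2
    · right
      intro hc
      apply h
      linear_combination hc

lemma negY_eq (x y : K) :
    W₁.toAffine.negY (x + r) (y + s * x + t) = W₂.toAffine.negY x y + s * x + t := by
  simp only [negY, H.e₁, H.e₃]
  ring

lemma addX_eq (x₁ x₂ ℓ : K) :
    W₁.toAffine.addX (x₁ + r) (x₂ + r) (ℓ + s) = W₂.toAffine.addX x₁ x₂ ℓ + r := by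
  simp only [addX, H.e₁, H.e₂]
  ring

lemma addY_eq (x₁ x₂ y₁ ℓ : K) :
    W₁.toAffine.addY (x₁ + r) (x₂ + r) (y₁ + s * x₁ + t) (ℓ + s) =
      W₂.toAffine.addY x₁ x₂ y₁ ℓ + s * W₂.toAffine.addX x₁ x₂ ℓ + t := by
  simp only [addY, negAddY, negY, addX, H.e₁, H.e₂, H.e₃]
  ring

variable [DecidableEq K]

lemma slope_eq {x₁ x₂ y₁ y₂ : K} (h₁ : W₂.toAffine.Equation x₁ y₁)
    (h₂ : W₂.toAffine.Equation x₂ y₂)
    (hxy : ¬(x₁ = x₂ ∧ y₁ = W₂.toAffine.negY x₂ y₂)) :
    W₁.toAffine.slope (x₁ + r) (x₂ + r) (y₁ + s * x₁ + t) (y₂ + s * x₂ + t) =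
      W₂.toAffine.slope x₁ x₂ y₁ y₂ + s := by
  by_cases hx : x₁ = x₂
  · have hy : y₁ ≠ W₂.toAffine.negY x₂ y₂ := fun hy => hxy ⟨hx, hy⟩
    have hyy : y₁ = y₂ := Y_eq_of_Y_ne h₁ h₂ hx hy
    subst hx
    subst hyy
    have hy' : y₁ + s * x₁ + t ≠ W₁.toAffine.negY (x₁ + r) (y₁ + s * x₁ + t) := by
      rw [H.negY_eq]
      intro hc
      apply hy
      linear_combination hc
    rw [slope_of_Y_ne rfl hy, slope_of_Y_ne rfl hy']
    have hd2 : y₁ - W₂.toAffine.negY x₁ y₁ ≠ 0 := sub_ne_zero.mpr hy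
    have hd1 : y₁ + s * x₁ + t - W₁.toAffine.negY (x₁ + r) (y₁ + s * x₁ + t) ≠ 0 :=
      sub_ne_zero.mpr hy'
    rw [div_add' _ _ _ hd2, div_eq_div_iff hd1 hd2]
    rw [H.negY_eq] at hd1 ⊢
    simp only [negY, H.e₁, H.e₂, H.e₃, H.e₄] at hd1 hd2 ⊢
    ring
  · have hx' : x₁ + r ≠ x₂ + r := fun hc => hx (add_right_cancel hc)
    rw [slope_of_X_ne hx, slope_of_X_ne hx']
    have hd1 : x₁ - x₂ ≠ 0 := sub_ne_zero.mpr hx
    have hd2 : x₁ + r - (x₂ + r) ≠ 0 := sub_ne_zero.mpr hx'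
    field_simp
    ring

end Shift

lemma some_congr' {W : WeierstrassCurve K} {x x' y y' : K} (hx : x = x') (hy : y = y')
    (h : W.toAffine.Nonsingular x y) (h' : W.toAffine.Nonsingular x' y') :
    (Point.some x y h : W.toAffine.Point) = Point.some x' y' h' := by
  subst hx; subst hy; rfl

/-- The map on points. -/
noncomputable def shiftFun {W₁ W₂ : WeierstrassCurve K} {r s t : K} (H : Shift W₁ W₂ r s t) :
    W₂.toAffine.Point → W₁.toAffine.Point
  | .zero => .zero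
  | .some x y h => .some (x + r) (y + s * x + t) ((H.nonsingular_iff' x y).mp h)

lemma shiftFun_zero {W₁ W₂ : WeierstrassCurve K} {r s t : K} (H : Shift W₁ W₂ r s t) :
    shiftFun H 0 = 0 := rfl

lemma shiftFun_some {W₁ W₂ : WeierstrassCurve K} {r s t : K} (H : Shift W₁ W₂ r s t)
    {x y : K} (h : W₂.toAffine.Nonsingular x y) :
    shiftFun H (Point.some x y h) =
      Point.some (x + r) (y + s * x + t) ((H.nonsingular_iff' x y).mp h) := rfl

lemma shiftFun_add [DecidableEq K] {W₁ W₂ : WeierstrassCurve K} {r s t : K}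
    (H : Shift W₁ W₂ r s t) (P Q : W₂.toAffine.Point) :
    shiftFun H (P + Q) = shiftFun H P + shiftFun H Q := by
  rcases P with _ | ⟨x₁, y₁, h₁⟩
  · show shiftFun H (0 + Q) = 0 + shiftFun H Q
    rw [zero_add, zero_add]
  rcases Q with _ | ⟨x₂, y₂, h₂⟩
  · show shiftFun H (Point.some x₁ y₁ h₁ + 0) = shiftFun H (Point.some x₁ y₁ h₁) + 0
    rw [add_zero, add_zero]
  by_cases hxy : x₁ = x₂ ∧ y₁ = W₂.toAffine.negY x₂ y₂
  · rw [Point.add_of_Y_eq hxy.1 hxy.2, shiftFun_zero, shiftFun_some, shiftFun_some,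
      Point.add_of_Y_eq (by rw [hxy.1]) (by rw [H.negY_eq, hxy.2, hxy.1])]
  · have hxy' : ¬(x₁ + r = x₂ + r ∧
        y₁ + s * x₁ + t = W₁.toAffine.negY (x₂ + r) (y₂ + s * x₂ + t)) := by
      rintro ⟨hx, hy⟩
      have hx' : x₁ = x₂ := add_right_cancel hx
      refine hxy ⟨hx', ?_⟩
      rw [H.negY_eq] at hy
      rw [hx'] at hy
      linear_combination hy
    rw [Point.add_some hxy, shiftFun_some, shiftFun_some, shiftFun_some,
      Point.add_some hxy']
    apply some_congr'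
    · rw [H.slope_eq h₁.1 h₂.1 hxy, H.addX_eq]
    · rw [H.slope_eq h₁.1 h₂.1 hxy, H.addY_eq]

lemma shiftFun_injective {W₁ W₂ : WeierstrassCurve K} {r s t : K} (H : Shift W₁ W₂ r s t) :
    Function.Injective (shiftFun H) := by
  rintro (_ | ⟨x₁, y₁, h₁⟩) (_ | ⟨x₂, y₂, h₂⟩) h
  · rfl
  · exact absurd h (by simp [shiftFun])
  · exact absurd h (by simp [shiftFun])
  · simp only [shiftFun, Point.some.injEq] at h
    obtain ⟨hx, hy⟩ := h
    have hx' : x₁ = x₂ := add_right_cancel hx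
    subst hx'
    have hy' : y₁ = y₂ := by linear_combination hy
    subst hy'; rfl

lemma shiftFun_surjective {W₁ W₂ : WeierstrassCurve K} {r s t : K} (H : Shift W₁ W₂ r s t) :
    Function.Surjective (shiftFun H) := by
  rintro (_ | ⟨X, Y, h⟩)
  · exact ⟨0, rfl⟩
  · have h' : W₂.toAffine.Nonsingular (X - r) (Y - s * (X - r) - t) := by
      rw [H.nonsingular_iff']
      have e1 : X - r + r = X := by ring
      have e2 : Y - s * (X - r) - t + s * (X - r) + t = Y := by ring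
      rw [e1, e2]
      exact h
    refine ⟨Point.some _ _ h', ?_⟩
    rw [shiftFun_some]
    exact some_congr' (by ring) (by ring) _ _

/-- The additive equivalence of point groups attached to a change of variables. -/
noncomputable def Shift.equiv [DecidableEq K] {W₁ W₂ : WeierstrassCurve K} {r s t : K}
    (H : Shift W₁ W₂ r s t) : W₂.toAffine.Point ≃+ W₁.toAffine.Point :=
  AddEquiv.ofBijective
    (⟨⟨shiftFun H, shiftFun_zero H⟩, shiftFun_add H⟩ : W₂.toAffine.Point →+ W₁.toAffine.Point)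
    ⟨shiftFun_injective H, shiftFun_surjective H⟩

lemma Shift.equiv_some [DecidableEq K] {W₁ W₂ : WeierstrassCurve K} {r s t : K}
    (H : Shift W₁ W₂ r s t) {x y : K} (h : W₂.toAffine.Nonsingular x y) :
    H.equiv (Point.some x y h) =
      Point.some (x + r) (y + s * x + t) ((H.nonsingular_iff' x y).mp h) := rfl

end Fermat.Agent.S41.H65
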