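import Mathlib
import Fermat.Agent.S41.GTop_helper54
import Fermat.Agent.S41.BettiLift_helper50
import Fermat.Agent.S41.GDualClosed_helper69

/-!
# S41: the top assembly, closed

`s41_closed` is the frozen statement S41 (level raising), with no remaining hypothesis:
`H54.top` (helper54's top assembly) with its two contracts discharged,

* (G-DUAL) by `H69.gdual` (node (C), route C-I, closed in `GDualClosed_helper69`);
* (G-BACK) by `gBackStmt` below, i.e. helper50's `H50.exists_newAt_of_not_le_smul`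
  (Deligne-Serre lifting + Eichler-Shimura on the Betti lattice) for the concrete Hecke ring
  of `GSetup_helper54`.
-/

set_option autoImplicit false

namespace Fermat.Agent.S41.H69

open CongruenceSubgroup ModularCurve.Period
open WeierstrassCurve WeierstrassCurve.Affine WeierstrassCurve.Affine.Point
open scoped MatrixGroups

/-- (G-BACK) for the concrete Hecke ring of `GSetup_helper54`. -/
theorem gBackStmt (W : WeierstrassCurve ℤ) (N q p : ℕ) [NeZero (N * q)] (hq : q.Prime) :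
    H54.GBackStmt W N q p := by
  intro K hK hU
  exact H50.exists_newAt_of_not_le_smul (M := N * q) hq (Dvd.intro_left N rfl)
    (fun i : H54.Idx W N q p => (i.1 : ℕ)) (fun i => i.prime) (fun i => i.not_dvd_mul)
    (fun i x => H54.X_smul_high W N q p i x) (fun i => W.apOfModel i.1) (H54.nIdeal W N q p)
    (H54.natCast_mem_nIdeal W N q p)
    (fun i => (H59.X_sub_C_mem_evalIdeal_iff p _ i _).2 rfl) K hK hU

/-- (G-DUAL) in the shape `H54.GDualStmt`. -/
theorem gDualStmt {N q p r : ℕ} (hN : 0 < N) (hq : q.Prime) (hqN : ¬ q ∣ N) (hp : p.Prime)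
    (hp2 : p ≠ 2) (hr : r.Prime) (hrN : ¬ r ∣ N) : H54.GDualStmt N q p r hq hqN hr hrN :=
  gdual hN hq hqN hp hp2 hr hrN

/-- **Level raising (the frozen statement S41), closed.** -/
theorem s41_closed
    (E : WeierstrassCurve ℚ) [E.IsElliptic] {W : WeierstrassCurve ℤ} (hW : W.IsIntegralModelOf E)
    {p N q' : ℕ} (hp : p.Prime) (hp2 : p ≠ 2) (hN : 0 < N) (hq' : q'.Prime) (hq'N : ¬ q' ∣ N)
    (hirr : GaloisRepIsIrreducible (K := AlgebraicClosure ℚ) ℚ E p)
    (f : CuspForm (CongruenceSubgroup.Gamma0 N) 2) (𝔪 : Ideal (integralClosure ℤ ℂ))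
    (hf : f.IsNormalizedEigenform) (hmax : 𝔪.IsMaximal) (hpm : (p : integralClosure ℤ ℂ) ∈ 𝔪)
    (hcong : ∀ ℓ : ℕ, ℓ.Prime → W.IsGoodPrimeFor ℓ → ¬ ℓ ∣ N → ℓ ≠ p →
      ∃ a : integralClosure ℤ ℂ, (a : ℂ) = ModularFormClass.qCoeff f ℓ ∧
        a - ((W.apOfModel ℓ : ℤ) : integralClosure ℤ ℂ) ∈ 𝔪)
    (hLR : ∃ a : integralClosure ℤ ℂ, (a : ℂ) = ModularFormClass.qCoeff f q' ∧
      a ^ 2 - ((q' : integralClosure ℤ ℂ) + 1) ^ 2 ∈ 𝔪) :
    ∃ (g : CuspForm (CongruenceSubgroup.Gamma0 (N * q')) 2) (𝔪' : Ideal (integralClosure ℤ ℂ)),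
      g.IsNormalizedEigenform ∧ 𝔪'.IsMaximal ∧ (p : integralClosure ℤ ℂ) ∈ 𝔪' ∧
      (∀ ℓ : ℕ, ℓ.Prime → W.IsGoodPrimeFor ℓ → ¬ ℓ ∣ N * q' → ℓ ≠ p →
        ∃ a : integralClosure ℤ ℂ, (a : ℂ) = ModularFormClass.qCoeff g ℓ ∧
          a - ((W.apOfModel ℓ : ℤ) : integralClosure ℤ ℂ) ∈ 𝔪') ∧
      g.IsNewAt q' :=
  H54.top E hW hp hp2 hN hq' hq'N hirr f 𝔪 hf hmax hpm hcong hLR
    (fun _ hr hrN _ _ _ => gDualStmt hN hq' hq'N hp hp2 hr hrN)
    (gBackStmt W N q' p hq')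

end Fermat.Agent.S41.H69
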