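import Mathlib
import Fermat.Prelude.Def_FLTPrelim_Ramification

set_option autoImplicit false

/-!
# S41 (E1), node (U): algebraic numbers are units of almost all valuation subrings

For a field `L` algebraic over `ℚ` and a finite set `s` of nonzero elements of `L` there is
`n ≥ 1` such that every element of `s` is a unit (valuation `1`) in every valuation subring of
`L` lying over a prime `r ∤ n`.
-/

namespace Fermat.Agent.S41.H45

variable {L : Type*} [Field L]

/-- An element integral over `ℤ` lies in every valuation subring. -/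
theorem mem_of_isIntegral_int (A : ValuationSubring L) {x : L} (hx : IsIntegral ℤ x) : x ∈ A := by
  have h1 : IsIntegral A x := hx.tower_top
  obtain ⟨y, hy⟩ := (IsIntegrallyClosed.isIntegral_iff (R := A) (K := L)).1 h1
  rw [← hy]
  exact y.2

/-- An integer prime to `r` has valuation one in a valuation subring lying over `r`. -/
theorem valuation_intCast_eq_one' {A : ValuationSubring L} {r : ℕ} (hA : A.LiesOverPrime r)
    (hr : r.Prime) {n : ℤ} (h : ¬ (r : ℤ) ∣ n) : A.valuation (n : L) = 1 := by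
  have hle : ∀ m : ℤ, A.valuation (m : L) ≤ 1 := fun m =>
    (A.valuation_le_one_iff _).2 (intCast_mem A m)
  have hlt : A.valuation (r : L) < 1 := (ValuationSubring.mem_nonunits_iff A).1 hA
  have hcop : IsCoprime (r : ℤ) n :=
    (Int.isCoprime_iff_gcd_eq_one).2 ((Nat.Prime.coprime_iff_not_dvd hr).2 (by
      intro h'
      exact h (Int.natCast_dvd.2 h')))
  obtain ⟨a, b, hab⟩ := hcop
  have hab' : (a : L) * (r : L) + (b : L) * (n : L) = 1 := by
    exact_mod_cast congrArg (Int.cast : ℤ → L) hab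
  have h1 : A.valuation ((a : L) * (r : L)) < 1 := by
    rw [map_mul]
    calc A.valuation (a : L) * A.valuation (r : L) ≤ 1 * A.valuation (r : L) := by
          gcongr
          exact hle a
      _ < 1 := by rw [one_mul]; exact hlt
  have h2 : A.valuation ((b : L) * (n : L)) = 1 := by
    have h3 : (b : L) * (n : L) = 1 - (a : L) * (r : L) := by rw [← hab']; ring
    rw [h3]
    exact Valuation.map_one_sub_of_lt (v := A.valuation) h1
  rw [map_mul] at h2
  refine le_antisymm (hle n) ?_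
  calc (1 : A.ValueGroup) = A.valuation (b : L) * A.valuation (n : L) := h2.symm
    _ ≤ 1 * A.valuation (n : L) := by
        gcongr
        exact hle b
    _ = A.valuation (n : L) := one_mul _

variable [Algebra ℚ L] [Algebra.IsAlgebraic ℚ L]

theorem isAlgebraic_int (x : L) : IsAlgebraic ℤ x :=
  (IsFractionRing.isAlgebraic_iff ℤ ℚ L).2 (Algebra.IsAlgebraic.isAlgebraic x)

/-- Integrality outside finitely many primes, one element. -/
theorem exists_bound_mem (x : L) :
    ∃ n : ℕ, 0 < n ∧ ∀ r : ℕ, r.Prime → ¬ r ∣ n →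
      ∀ A : ValuationSubring L, A.LiesOverPrime r → x ∈ A := by
  obtain ⟨y, hy0, hy⟩ := (isAlgebraic_int x).exists_integral_multiple
  refine ⟨y.natAbs, Int.natAbs_pos.2 hy0, fun r hr hrn A hA => ?_⟩
  have hmem : (y : L) * x ∈ A := by
    have := mem_of_isIntegral_int A hy
    rwa [zsmul_eq_mul] at this
  have hyu : A.valuation (y : L) = 1 := by
    apply valuation_intCast_eq_one' hA hr
    intro hdvd
    exact hrn (Int.natCast_dvd.1 hdvd)
  rw [← A.valuation_le_one_iff] at hmem ⊢
  rwa [map_mul, hyu, one_mul] at hmem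

/-- Integrality outside finitely many primes, finite-set form. -/
theorem exists_bound_mem_finset (s : Finset L) :
    ∃ n : ℕ, 0 < n ∧ ∀ r : ℕ, r.Prime → ¬ r ∣ n →
      ∀ A : ValuationSubring L, A.LiesOverPrime r → ∀ x ∈ s, x ∈ A := by
  classical
  induction s using Finset.induction_on with
  | empty => exact ⟨1, one_pos, fun _ _ _ _ _ x hx => absurd hx (Finset.notMem_empty x)⟩
  | insert a s ha ih =>
    obtain ⟨n₁, hn₁, h₁⟩ := ih
    obtain ⟨n₂, hn₂, h₂⟩ := exists_bound_mem a
    refine ⟨n₁ * n₂, Nat.mul_pos hn₁ hn₂, fun r hr hrn A hA x hx => ?_⟩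
    have hr₁ : ¬ r ∣ n₁ := fun h => hrn (Dvd.dvd.mul_right h n₂)
    have hr₂ : ¬ r ∣ n₂ := fun h => hrn (Dvd.dvd.mul_left h n₁)
    rcases Finset.mem_insert.1 hx with rfl | hx
    · exact h₂ r hr hr₂ A hA
    · exact h₁ r hr hr₁ A hA x hx

/-- Integrality outside a finite exceptional set of primes, finite-set form. -/
theorem exists_finset_primes_mem (s : Finset L) :
    ∃ S : Finset ℕ, ∀ r : ℕ, r.Prime → r ∉ S →
      ∀ A : ValuationSubring L, A.LiesOverPrime r → ∀ x ∈ s, x ∈ A := by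
  obtain ⟨n, hn, h⟩ := exists_bound_mem_finset s
  refine ⟨n.primeFactors, fun r hr hrS A hA x hx => h r hr (fun hdvd => hrS ?_) A hA x hx⟩
  exact Nat.mem_primeFactors.2 ⟨hr, hdvd, hn.ne'⟩

/-- **(U)**: a nonzero algebraic number is a unit of every valuation subring lying over a prime
outside a finite set. -/
theorem exists_bound_valuation_eq_one {x : L} (hx : x ≠ 0) :
    ∃ n : ℕ, 0 < n ∧ ∀ r : ℕ, r.Prime → ¬ r ∣ n →
      ∀ A : ValuationSubring L, A.LiesOverPrime r → A.valuation x = 1 := by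
  obtain ⟨n₁, hn₁, h₁⟩ := exists_bound_mem x
  obtain ⟨n₂, hn₂, h₂⟩ := exists_bound_mem x⁻¹
  refine ⟨n₁ * n₂, Nat.mul_pos hn₁ hn₂, fun r hr hrn A hA => ?_⟩
  have hr₁ : ¬ r ∣ n₁ := fun h => hrn (Dvd.dvd.mul_right h n₂)
  have hr₂ : ¬ r ∣ n₂ := fun h => hrn (Dvd.dvd.mul_left h n₁)
  have e₁ : A.valuation x ≤ 1 := (A.valuation_le_one_iff _).2 (h₁ r hr hr₁ A hA)
  have e₂ : A.valuation x⁻¹ ≤ 1 := (A.valuation_le_one_iff _).2 (h₂ r hr hr₂ A hA)
  rw [map_inv₀] at e₂
  have hv0 : A.valuation x ≠ 0 := (Valuation.ne_zero_iff _).2 hx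
  have e₃ : 1 ≤ A.valuation x := by
    by_contra hlt
    rw [not_le] at hlt
    have : 1 < (A.valuation x)⁻¹ := (one_lt_inv₀ (zero_lt_iff.2 hv0)).2 hlt
    exact absurd e₂ (not_le.2 this)
  exact le_antisymm e₁ e₃

/-- **(U), finite-set form.** -/
theorem exists_bound_valuation_eq_one_finset (s : Finset L) (hs : ∀ x ∈ s, x ≠ 0) :
    ∃ n : ℕ, 0 < n ∧ ∀ r : ℕ, r.Prime → ¬ r ∣ n →
      ∀ A : ValuationSubring L, A.LiesOverPrime r → ∀ x ∈ s, A.valuation x = 1 := by
  classical
  induction s using Finset.induction_on with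
  | empty => exact ⟨1, one_pos, fun _ _ _ _ _ x hx => absurd hx (Finset.notMem_empty x)⟩
  | insert a s ha ih =>
    obtain ⟨n₁, hn₁, h₁⟩ := ih (fun x hx => hs x (Finset.mem_insert_of_mem hx))
    obtain ⟨n₂, hn₂, h₂⟩ := exists_bound_valuation_eq_one (hs a (Finset.mem_insert_self a s))
    refine ⟨n₁ * n₂, Nat.mul_pos hn₁ hn₂, fun r hr hrn A hA x hx => ?_⟩
    have hr₁ : ¬ r ∣ n₁ := fun h => hrn (Dvd.dvd.mul_right h n₂)
    have hr₂ : ¬ r ∣ n₂ := fun h => hrn (Dvd.dvd.mul_left h n₁)
    rcases Finset.mem_insert.1 hx with rfl | hx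
    · exact h₂ r hr hr₂ A hA
    · exact h₁ r hr hr₁ A hA x hx

/-- **(U), finite-set form, as a finite exceptional set of primes.** -/
theorem exists_finset_primes_valuation_eq_one (s : Finset L) (hs : ∀ x ∈ s, x ≠ 0) :
    ∃ S : Finset ℕ, ∀ r : ℕ, r.Prime → r ∉ S →
      ∀ A : ValuationSubring L, A.LiesOverPrime r → ∀ x ∈ s, A.valuation x = 1 := by
  obtain ⟨n, hn, h⟩ := exists_bound_valuation_eq_one_finset s hs
  refine ⟨n.primeFactors, fun r hr hrS A hA x hx => h r hr (fun hdvd => hrS ?_) A hA x hx⟩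
  exact Nat.mem_primeFactors.2 ⟨hr, hdvd, hn.ne'⟩

end Fermat.Agent.S41.H45
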