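import Mathlib
import Fermat.Prelude.Def_FLTPrelim_Ramification
import Fermat.Agent.S41.UnitFin_helper45
import Fermat.Agent.S41.TorsCard_helper65

set_option autoImplicit false

/-!
# S41 (E1), node (K): `p`-torsion points are integral outside a finite set of primes

`E[p](ℚ̄)` is finite (landed `H65.lt_card_torsion`), so the finitely many coordinates of its
points lie in every valuation subring of `ℚ̄` over a prime outside a finite set.
-/

namespace Fermat.Agent.S41.H45

open WeierstrassCurve WeierstrassCurve.Affine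

/-- The `x`-coordinate of a point (junk value `0` at the origin). -/
def xCoord {F : Type*} [Field F] {W : WeierstrassCurve.Affine F} : W.Point → F
  | .zero => 0
  | .some x _ _ => x

/-- The `y`-coordinate of a point (junk value `0` at the origin). -/
def yCoord {F : Type*} [Field F] {W : WeierstrassCurve.Affine F} : W.Point → F
  | .zero => 0
  | .some _ y _ => y

/-- **(K)**, both coordinates: outside a finite set of primes `S`, the affine `p`-torsion points
of `E` over `ℚ̄` have coordinates in every valuation subring lying over a prime `r ∉ S`. -/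
theorem exists_finset_torsion_integral' [DecidableEq (AlgebraicClosure ℚ)]
    (E : WeierstrassCurve ℚ) (hΔ : E.Δ ≠ 0) {p : ℕ} (hp : p.Prime) (hp2 : p ≠ 2) :
    ∃ S : Finset ℕ, ∀ r : ℕ, r.Prime → r ∉ S →
      ∀ A : ValuationSubring (AlgebraicClosure ℚ), A.LiesOverPrime r →
      ∀ (x y : AlgebraicClosure ℚ) (h : (E⁄(AlgebraicClosure ℚ)).Nonsingular x y),
        (p : ℤ) • (Point.some x y h : (E⁄(AlgebraicClosure ℚ)).Point) = 0 → x ∈ A ∧ y ∈ A := by
  classical
  have : Finite (Submodule.torsionBy ℤ (E⁄(AlgebraicClosure ℚ)).Point p) :=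
    (H65.lt_card_torsion E hΔ hp hp2).1
  have := Fintype.ofFinite (Submodule.torsionBy ℤ (E⁄(AlgebraicClosure ℚ)).Point p)
  let s : Finset (AlgebraicClosure ℚ) :=
    (Finset.univ.image fun P : Submodule.torsionBy ℤ (E⁄(AlgebraicClosure ℚ)).Point p =>
      xCoord P.1) ∪
    (Finset.univ.image fun P : Submodule.torsionBy ℤ (E⁄(AlgebraicClosure ℚ)).Point p =>
      yCoord P.1)
  obtain ⟨S, hS⟩ :=
    @exists_finset_primes_mem (AlgebraicClosure ℚ) _ _ (AlgebraicClosure.isAlgebraic ℚ) s
  refine ⟨S, fun r hr hrS A hA x y h hP => ?_⟩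
  have hmem : (Point.some x y h : (E⁄(AlgebraicClosure ℚ)).Point)
      ∈ Submodule.torsionBy ℤ (E⁄(AlgebraicClosure ℚ)).Point p :=
    (Submodule.mem_torsionBy_iff _ _).2 hP
  constructor
  · apply hS r hr hrS A hA
    apply Finset.mem_union_left
    exact Finset.mem_image.2 ⟨⟨_, hmem⟩, Finset.mem_univ _, rfl⟩
  · apply hS r hr hrS A hA
    apply Finset.mem_union_right
    exact Finset.mem_image.2 ⟨⟨_, hmem⟩, Finset.mem_univ _, rfl⟩

/-- **(K)**: outside a finite set of primes `S`, the affine `p`-torsion points of `E` over `ℚ̄`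
have `x`-coordinate in every valuation subring lying over a prime `r ∉ S`. -/
theorem exists_finset_torsion_integral [DecidableEq (AlgebraicClosure ℚ)]
    (E : WeierstrassCurve ℚ) (hΔ : E.Δ ≠ 0) {p : ℕ} (hp : p.Prime) (hp2 : p ≠ 2) :
    ∃ S : Finset ℕ, ∀ r : ℕ, r.Prime → r ∉ S →
      ∀ A : ValuationSubring (AlgebraicClosure ℚ), A.LiesOverPrime r →
      ∀ (x y : AlgebraicClosure ℚ) (h : (E⁄(AlgebraicClosure ℚ)).Nonsingular x y),
        (p : ℤ) • (Point.some x y h : (E⁄(AlgebraicClosure ℚ)).Point) = 0 → x ∈ A := by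
  obtain ⟨S, hS⟩ := exists_finset_torsion_integral' E hΔ hp hp2
  exact ⟨S, fun r hr hrS A hA x y h hP => (hS r hr hrS A hA x y h hP).1⟩

end Fermat.Agent.S41.H45
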