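import Mathlib
import Fermat.Prelude.Def_FLTPrelim_GaloisRep

/-!
# S41, node (E0): statement (helper86)

`TorsionNotCyclicStmt E p` : the `p`-torsion of `E` over `Qbar` is not generated by one point
(true because it has `p ^ 2` elements).  This is the only place where node (E) uses that `E[p]`
is two-dimensional.
-/

set_option autoImplicit false

open WeierstrassCurve WeierstrassCurve.Affine WeierstrassCurve.Affine.Point

namespace Fermat.Agent.S41.H86

/-- **(E0)**, interface: `E[p]` over `Qbar` is not cyclic. -/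
def TorsionNotCyclicStmt (E : WeierstrassCurve ℚ) (p : ℕ) : Prop :=
  ∀ P : (E⁄(AlgebraicClosure ℚ)).Point, (p : ℤ) • P = 0 →
    ∃ Q : (E⁄(AlgebraicClosure ℚ)).Point, (p : ℤ) • Q = 0 ∧ ∀ k : ℤ, Q ≠ k • P

end Fermat.Agent.S41.H86
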