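import Fermat.Agent.S41.TorsCard_helper65
import Fermat.Agent.S41.TorsStmt_helper86

/-!
# S41, node (E0) (helper65): `E[p]` over `ℚ̄` is not cyclic

`torsionNotCyclic` proves helper86's interface `H86.TorsionNotCyclicStmt E p` from
`card_torsion` (`#E[p] = p²`): the multiples of one `p`-torsion point are at most `p` points.
-/

set_option autoImplicit false

open WeierstrassCurve WeierstrassCurve.Affine WeierstrassCurve.Affine.Point

namespace Fermat.Agent.S41.H65

/-- In an additive group, if every element killed by `p` is a multiple of one such element `P`,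
then there are at most `p` of them. -/
theorem card_torsionBy_le_of_cyclic {G : Type*} [AddCommGroup G] {p : ℕ} (hp : p ≠ 0) (P : G)
    (hP : (p : ℤ) • P = 0)
    (h : ∀ Q : G, (p : ℤ) • Q = 0 → ∃ k : ℤ, Q = k • P) :
    Nat.card (Submodule.torsionBy ℤ G (p : ℤ)) ≤ p := by
  have : NeZero p := ⟨hp⟩
  have hQ : ∀ Q : Submodule.torsionBy ℤ G (p : ℤ), ∃ k : ℤ, (Q : G) = k • P := fun Q =>
    h Q.1 ((Submodule.mem_torsionBy_iff _ _).mp Q.2)
  choose k hk using hQ
  let f : Submodule.torsionBy ℤ G (p : ℤ) → ZMod p := fun Q => (k Q : ZMod p)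
  have hf : Function.Injective f := by
    intro Q Q' hQQ'
    have h1 : ((k Q - k Q' : ℤ) : ZMod p) = 0 := by
      have : (k Q : ZMod p) = (k Q' : ZMod p) := hQQ'
      rw [Int.cast_sub, this, sub_self]
    obtain ⟨m, hm⟩ := (ZMod.intCast_zmod_eq_zero_iff_dvd _ _).mp h1
    apply Subtype.ext
    have h2 : (Q : G) - (Q' : G) = 0 := by
      rw [hk Q, hk Q', ← sub_smul, hm, mul_comm, mul_smul, hP, smul_zero]
    exact sub_eq_zero.mp h2
  calc Nat.card (Submodule.torsionBy ℤ G (p : ℤ)) ≤ Nat.card (ZMod p) :=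
        Nat.card_le_card_of_injective f hf
    _ = p := Nat.card_zmod p

/-- **(E0)**: the `p`-torsion of an elliptic curve over `ℚ̄` is not cyclic (`p` an odd prime). -/
theorem torsionNotCyclic_of_Δ [DecidableEq (AlgebraicClosure ℚ)] (E : WeierstrassCurve ℚ)
    (hΔ : E.Δ ≠ 0) {p : ℕ} (hp : p.Prime) (hp2 : p ≠ 2)
    (P : (E⁄(AlgebraicClosure ℚ)).Point) (hP : (p : ℤ) • P = 0) :
    ∃ Q : (E⁄(AlgebraicClosure ℚ)).Point, (p : ℤ) • Q = 0 ∧ ∀ k : ℤ, Q ≠ k • P := by
  by_contra hcon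
  have h : ∀ Q : (E⁄(AlgebraicClosure ℚ)).Point, (p : ℤ) • Q = 0 → ∃ k : ℤ, Q = k • P := by
    intro Q hQ
    by_contra hk
    exact hcon ⟨Q, hQ, fun k hk' => hk ⟨k, hk'⟩⟩
  have hle := card_torsionBy_le_of_cyclic hp.ne_zero P hP h
  rw [card_torsion E hΔ hp hp2] at hle
  nlinarith [hp.two_le]

/-- **(E0)** in helper86's literal interface. -/
theorem torsionNotCyclic (E : WeierstrassCurve ℚ) [E.IsElliptic] {p : ℕ} (hp : p.Prime)
    (hp2 : p ≠ 2) : Fermat.Agent.S41.H86.TorsionNotCyclicStmt E p :=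
  fun P hP => torsionNotCyclic_of_Δ E E.isUnit_Δ.ne_zero hp hp2 P hP

end Fermat.Agent.S41.H65
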