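import Mathlib

/-!
S41, node E0-T (helper52): transfer of a general Weierstrass curve to the shape
`Y² = X³ + a X² + b X` through `(x, y) ↦ (x - r, y + s x + t)`, where `2 s = a₁`, `2 t = a₃`
and `r` is a root of the 2-division cubic; the induced additive equivalence of point groups,
and the resulting equality of torsion counts.
-/

set_option autoImplicit false

namespace Fermat.Agent.S41.H52

open WeierstrassCurve WeierstrassCurve.Affine

variable {K : Type*} [Field K]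

/-- The hypotheses relating a general model `W₁` and the model `W₂ : Y² = X³ + a X² + b X`. -/
structure LegHyp (W₁ W₂ : WeierstrassCurve K) (r s t : K) : Prop where
  hs : W₁.a₁ = 2 * s
  ht : W₁.a₃ = 2 * t
  g₁ : W₂.a₁ = 0
  g₃ : W₂.a₃ = 0
  g₆ : W₂.a₆ = 0
  hc₂ : W₂.a₂ = W₁.a₂ + s ^ 2 + 3 * r
  hc₄ : W₂.a₄ = 3 * r ^ 2 + 2 * (W₁.a₂ + s ^ 2) * r + (W₁.a₄ + 2 * s * t)
  hc₆ : r ^ 3 + (W₁.a₂ + s ^ 2) * r ^ 2 + (W₁.a₄ + 2 * s * t) * r + (W₁.a₆ + t ^ 2) = 0

namespace LegHyp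

variable {W₁ W₂ : WeierstrassCurve K} {r s t : K} (H : LegHyp W₁ W₂ r s t)

include H

lemma equation_iff_leg (x y : K) :
    W₂.toAffine.Equation (x - r) (y + s * x + t) ↔ W₁.toAffine.Equation x y := by
  rw [equation_iff, equation_iff, H.g₁, H.g₃, H.g₆, H.hc₂, H.hc₄, H.hs, H.ht]
  constructor
  · intro h
    linear_combination h - H.hc₆
  · intro h
    linear_combination h + H.hc₆

lemma nonsingular_iff_leg (x y : K) :
    W₂.toAffine.Nonsingular (x - r) (y + s * x + t) ↔ W₁.toAffine.Nonsingular x y := by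
  rw [nonsingular_iff', nonsingular_iff', H.equation_iff_leg x y]
  refine and_congr_right fun _ => ?_
  rw [H.g₁, H.g₃, H.hc₂, H.hc₄, H.hs, H.ht]
  have e1 : 0 * (y + s * x + t) - (3 * (x - r) ^ 2 + 2 * (W₁.a₂ + s ^ 2 + 3 * r) * (x - r)
        + (3 * r ^ 2 + 2 * (W₁.a₂ + s ^ 2) * r + (W₁.a₄ + 2 * s * t)))
      = (2 * s * y - (3 * x ^ 2 + 2 * W₁.a₂ * x + W₁.a₄))
        - s * (2 * y + 2 * s * x + 2 * t) := by ring
  have e2 : 2 * (y + s * x + t) + 0 * (x - r) + 0 = 2 * y + 2 * s * x + 2 * t := by ring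
  rw [e1, e2]
  by_cases hy : 2 * y + 2 * s * x + 2 * t = 0
  · rw [hy, mul_zero, sub_zero]
  · simp only [ne_eq, hy, not_false_eq_true, or_true]

lemma negY_eq (x y : K) :
    W₂.toAffine.negY (x - r) (y + s * x + t) = W₁.toAffine.negY x y + s * x + t := by
  simp only [negY, H.hs, H.ht, H.g₁, H.g₃]
  ring

lemma addX_eq (x₁ x₂ ℓ : K) :
    W₂.toAffine.addX (x₁ - r) (x₂ - r) (ℓ + s) = W₁.toAffine.addX x₁ x₂ ℓ - r := by
  simp only [addX, H.hs, H.g₁, H.hc₂]
  ring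

lemma addY_eq (x₁ x₂ y₁ ℓ : K) :
    W₂.toAffine.addY (x₁ - r) (x₂ - r) (y₁ + s * x₁ + t) (ℓ + s) =
      W₁.toAffine.addY x₁ x₂ y₁ ℓ + s * W₁.toAffine.addX x₁ x₂ ℓ + t := by
  simp only [addY, negAddY, negY, addX, H.hs, H.ht, H.g₁, H.g₃, H.hc₂]
  ring

lemma Δ_eq : W₂.Δ = W₁.Δ := by
  have h6 : W₁.a₆ = -(t ^ 2) - r ^ 3 - (W₁.a₂ + s ^ 2) * r ^ 2 - (W₁.a₄ + 2 * s * t) * r := by
    linear_combination H.hc₆
  simp only [WeierstrassCurve.Δ, WeierstrassCurve.b₂, WeierstrassCurve.b₄, WeierstrassCurve.b₆,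
    WeierstrassCurve.b₈, H.g₁, H.g₃, H.g₆, H.hc₂, H.hc₄, H.hs, H.ht, h6]
  ring

variable [DecidableEq K]

lemma slope_eq {x₁ x₂ y₁ y₂ : K} (h₁ : W₁.toAffine.Equation x₁ y₁)
    (h₂ : W₁.toAffine.Equation x₂ y₂)
    (hxy : ¬(x₁ = x₂ ∧ y₁ = W₁.toAffine.negY x₂ y₂)) :
    W₂.toAffine.slope (x₁ - r) (x₂ - r) (y₁ + s * x₁ + t) (y₂ + s * x₂ + t) =
      W₁.toAffine.slope x₁ x₂ y₁ y₂ + s := by
  by_cases hx : x₁ = x₂
  · have hy : y₁ ≠ W₁.toAffine.negY x₂ y₂ := fun hy => hxy ⟨hx, hy⟩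
    have hyy : y₁ = y₂ := Y_eq_of_Y_ne h₁ h₂ hx hy
    subst hx
    subst hyy
    have hy' : y₁ + s * x₁ + t ≠ W₂.toAffine.negY (x₁ - r) (y₁ + s * x₁ + t) := by
      rw [H.negY_eq]
      intro hc
      apply hy
      linear_combination hc
    rw [slope_of_Y_ne rfl hy, slope_of_Y_ne rfl hy']
    have hd1 : y₁ - W₁.toAffine.negY x₁ y₁ ≠ 0 := sub_ne_zero.mpr hy
    have hd2 : y₁ + s * x₁ + t - W₂.toAffine.negY (x₁ - r) (y₁ + s * x₁ + t) ≠ 0 :=
      sub_ne_zero.mpr hy'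
    rw [div_eq_iff hd2]
    have key : (3 * x₁ ^ 2 + 2 * W₁.a₂ * x₁ + W₁.a₄ - W₁.a₁ * y₁) /
        (y₁ - W₁.toAffine.negY x₁ y₁) * (y₁ - W₁.toAffine.negY x₁ y₁) =
        3 * x₁ ^ 2 + 2 * W₁.a₂ * x₁ + W₁.a₄ - W₁.a₁ * y₁ := by
      field_simp
    rw [H.negY_eq] at hd2 ⊢
    simp only [negY, H.hs, H.ht] at key ⊢
    rw [H.g₁, H.hc₂, H.hc₄]
    linear_combination (-1 : K) * key
  · have hx' : x₁ - r ≠ x₂ - r := fun hc => hx (by linear_combination hc)
    rw [slope_of_X_ne hx, slope_of_X_ne hx']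
    have hd1 : x₁ - x₂ ≠ 0 := sub_ne_zero.mpr hx
    have hd2 : x₁ - r - (x₂ - r) ≠ 0 := sub_ne_zero.mpr hx'
    field_simp
    ring

end LegHyp

lemma some_congr {W : WeierstrassCurve K} {x x' y y' : K} (hx : x = x') (hy : y = y')
    (h : W.toAffine.Nonsingular x y) (h' : W.toAffine.Nonsingular x' y') :
    (Point.some x y h : W.toAffine.Point) = Point.some x' y' h' := by
  subst hx; subst hy; rfl

/-- The transfer map on points. -/
def legFun {W₁ W₂ : WeierstrassCurve K} {r s t : K} (H : LegHyp W₁ W₂ r s t) :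
    W₁.toAffine.Point → W₂.toAffine.Point
  | .zero => .zero
  | .some x y h => .some (x - r) (y + s * x + t) ((H.nonsingular_iff_leg x y).mpr h)

lemma legFun_zero {W₁ W₂ : WeierstrassCurve K} {r s t : K} (H : LegHyp W₁ W₂ r s t) :
    legFun H 0 = 0 := rfl

lemma legFun_some {W₁ W₂ : WeierstrassCurve K} {r s t : K} (H : LegHyp W₁ W₂ r s t)
    {x y : K} (h : W₁.toAffine.Nonsingular x y) :
    legFun H (Point.some x y h)
      = Point.some (x - r) (y + s * x + t) ((H.nonsingular_iff_leg x y).mpr h) :=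
  rfl

lemma legFun_add [DecidableEq K] {W₁ W₂ : WeierstrassCurve K} {r s t : K}
    (H : LegHyp W₁ W₂ r s t) (P Q : W₁.toAffine.Point) :
    legFun H (P + Q) = legFun H P + legFun H Q := by
  rcases P with _ | ⟨x₁, y₁, h₁⟩
  · show legFun H (0 + Q) = 0 + legFun H Q
    rw [zero_add, zero_add]
  rcases Q with _ | ⟨x₂, y₂, h₂⟩
  · show legFun H (Point.some x₁ y₁ h₁ + 0) = legFun H (Point.some x₁ y₁ h₁) + 0
    rw [add_zero, add_zero]
  by_cases hxy : x₁ = x₂ ∧ y₁ = W₁.toAffine.negY x₂ y₂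
  · rw [Point.add_of_Y_eq hxy.1 hxy.2, legFun_zero, legFun_some, legFun_some,
      Point.add_of_Y_eq (by rw [hxy.1]) (by rw [H.negY_eq, hxy.2, hxy.1])]
  · have hxy' : ¬(x₁ - r = x₂ - r ∧
        y₁ + s * x₁ + t = W₂.toAffine.negY (x₂ - r) (y₂ + s * x₂ + t)) := by
      rintro ⟨hx, hy⟩
      have hx' : x₁ = x₂ := by linear_combination hx
      refine hxy ⟨hx', ?_⟩
      rw [H.negY_eq] at hy
      rw [hx'] at hy
      linear_combination hy
    rw [Point.add_some hxy, legFun_some, legFun_some, legFun_some, Point.add_some hxy']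
    apply some_congr
    · rw [H.slope_eq h₁.1 h₂.1 hxy, H.addX_eq]
    · rw [H.slope_eq h₁.1 h₂.1 hxy, H.addY_eq]

lemma legFun_injective {W₁ W₂ : WeierstrassCurve K} {r s t : K} (H : LegHyp W₁ W₂ r s t) :
    Function.Injective (legFun H) := by
  rintro (_ | ⟨x₁, y₁, h₁⟩) (_ | ⟨x₂, y₂, h₂⟩) h
  · rfl
  · exact absurd h (by simp [legFun])
  · exact absurd h (by simp [legFun])
  · simp only [legFun, Point.some.injEq] at h
    obtain ⟨hx, hy⟩ := h
    have hx' : x₁ = x₂ := by linear_combination hx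
    have hy' : y₁ = y₂ := by
      rw [hx'] at hy
      linear_combination hy
    subst hx'; subst hy'; rfl

lemma legFun_surjective {W₁ W₂ : WeierstrassCurve K} {r s t : K} (H : LegHyp W₁ W₂ r s t) :
    Function.Surjective (legFun H) := by
  rintro (_ | ⟨X, Y, h⟩)
  · exact ⟨0, rfl⟩
  · have hX : X = (X + r) - r := by ring
    have hY : Y = (Y - s * (X + r) - t) + s * (X + r) + t := by ring
    have h' : W₂.toAffine.Nonsingular ((X + r) - r) ((Y - s * (X + r) - t) + s * (X + r) + t) := by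
      rw [← hX, ← hY]; exact h
    refine ⟨Point.some (X + r) (Y - s * (X + r) - t) ((H.nonsingular_iff_leg _ _).mp h'), ?_⟩
    rw [legFun_some]
    exact some_congr hX.symm hY.symm _ _

/-- The transfer map as an additive equivalence. -/
noncomputable def legEquivH [DecidableEq K] {W₁ W₂ : WeierstrassCurve K} {r s t : K}
    (H : LegHyp W₁ W₂ r s t) : W₁.toAffine.Point ≃+ W₂.toAffine.Point :=
  AddEquiv.ofBijective
    (⟨⟨legFun H, legFun_zero H⟩, legFun_add H⟩ : W₁.toAffine.Point →+ W₂.toAffine.Point)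
    ⟨legFun_injective H, legFun_surjective H⟩

lemma legEquivH_some [DecidableEq K] {W₁ W₂ : WeierstrassCurve K} {r s t : K}
    (H : LegHyp W₁ W₂ r s t) {x y : K} (h : W₁.toAffine.Nonsingular x y) :
    legEquivH H (Point.some x y h)
      = Point.some (x - r) (y + s * x + t) ((H.nonsingular_iff_leg x y).mpr h) := rfl

/-! ### The concrete target model -/

/-- the curve `Y² = X³ + a X² + b X` obtained from `W` by `x = X + r`, `y = Y - (a₁ x + a₃)/2` -/
def legOf (W : WeierstrassCurve K) (r : K) : WeierstrassCurve K :=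
  { a₁ := 0, a₂ := W.a₂ + W.a₁ ^ 2 / 4 + 3 * r, a₃ := 0,
    a₄ := 3 * r ^ 2 + 2 * (W.a₂ + W.a₁ ^ 2 / 4) * r + (W.a₄ + W.a₁ * W.a₃ / 2), a₆ := 0 }

@[simp] lemma legOf_a₁ (W : WeierstrassCurve K) (r : K) : (legOf W r).a₁ = 0 := rfl
@[simp] lemma legOf_a₃ (W : WeierstrassCurve K) (r : K) : (legOf W r).a₃ = 0 := rfl
@[simp] lemma legOf_a₆ (W : WeierstrassCurve K) (r : K) : (legOf W r).a₆ = 0 := rfl

/-- `r` is a root of the 2-division cubic of `W` -/
def IsTwoRoot (W : WeierstrassCurve K) (r : K) : Prop :=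
  r ^ 3 + (W.a₂ + W.a₁ ^ 2 / 4) * r ^ 2 + (W.a₄ + W.a₁ * W.a₃ / 2) * r
    + (W.a₆ + W.a₃ ^ 2 / 4) = 0

theorem exists_isTwoRoot [IsAlgClosed K] (W : WeierstrassCurve K) : ∃ r, IsTwoRoot W r := by
  open Polynomial in
  obtain ⟨x, hx⟩ := IsAlgClosed.exists_root
    (C (1 : K) * X ^ 3 + C (W.a₂ + W.a₁ ^ 2 / 4) * X ^ 2 + C (W.a₄ + W.a₁ * W.a₃ / 2) * X
      + C (W.a₆ + W.a₃ ^ 2 / 4))
    (by rw [Polynomial.degree_cubic one_ne_zero]; norm_num)
  refine ⟨x, ?_⟩
  simpa [IsTwoRoot, Polynomial.IsRoot] using hx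

theorem legHyp_legOf (h2 : (2 : K) ≠ 0) {W : WeierstrassCurve K} {r : K} (hr : IsTwoRoot W r) :
    LegHyp W (legOf W r) r (W.a₁ / 2) (W.a₃ / 2) := by
  have e1 : (W.a₁ / 2) ^ 2 = W.a₁ ^ 2 / 4 := by rw [div_pow]; norm_num
  have e2 : 2 * (W.a₁ / 2) * (W.a₃ / 2) = W.a₁ * W.a₃ / 2 := by field_simp
  have e3 : (W.a₃ / 2) ^ 2 = W.a₃ ^ 2 / 4 := by rw [div_pow]; norm_num
  refine ⟨by field_simp, by field_simp, rfl, rfl, rfl, ?_, ?_, ?_⟩
  · rw [e1]; rfl
  · rw [e1, e2]; rfl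
  · rw [e1, e2, e3]; exact hr

theorem legOf_Δ (h2 : (2 : K) ≠ 0) {W : WeierstrassCurve K} {r : K} (hr : IsTwoRoot W r) :
    (legOf W r).Δ = W.Δ :=
  (legHyp_legOf h2 hr).Δ_eq

/-- the additive equivalence of point groups `W ≃ legOf W r` -/
noncomputable def legEquiv [DecidableEq K] (h2 : (2 : K) ≠ 0) {W : WeierstrassCurve K} {r : K}
    (hr : IsTwoRoot W r) : W.toAffine.Point ≃+ (legOf W r).toAffine.Point :=
  legEquivH (legHyp_legOf h2 hr)

theorem legEquiv_some [DecidableEq K] (h2 : (2 : K) ≠ 0) {W : WeierstrassCurve K} {r : K}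
    (hr : IsTwoRoot W r) {x y : K} (h : W.toAffine.Nonsingular x y) :
    legEquiv h2 hr (Point.some x y h)
      = Point.some (x - r) (y + W.a₁ / 2 * x + W.a₃ / 2)
          (((legHyp_legOf h2 hr).nonsingular_iff_leg x y).mpr h) := rfl

/-! ### Torsion counts -/

/-- an additive equivalence restricts to the `n`-torsion -/
def torsionByEquiv {A B : Type*} [AddCommGroup A] [AddCommGroup B] (φ : A ≃+ B) (n : ℤ) :
    Submodule.torsionBy ℤ A n ≃ Submodule.torsionBy ℤ B n :=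
  Equiv.subtypeEquiv φ.toEquiv fun P => by
    rw [Submodule.mem_torsionBy_iff, Submodule.mem_torsionBy_iff]
    show n • P = 0 ↔ n • φ P = 0
    constructor
    · intro h
      rw [← map_zsmul, h, map_zero]
    · intro h
      apply φ.injective
      rw [map_zsmul, h, map_zero]

/-- an additive equivalence preserves the number of `n`-torsion elements -/
theorem card_torsionBy_congr {A B : Type*} [AddCommGroup A] [AddCommGroup B] (φ : A ≃+ B)
    (n : ℤ) :
    Nat.card (Submodule.torsionBy ℤ A n) = Nat.card (Submodule.torsionBy ℤ B n) :=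
  Nat.card_congr (torsionByEquiv φ n)

/-- an additive equivalence preserves finiteness of the `n`-torsion -/
theorem finite_torsionBy_congr {A B : Type*} [AddCommGroup A] [AddCommGroup B] (φ : A ≃+ B)
    (n : ℤ) (h : Finite (Submodule.torsionBy ℤ B n)) : Finite (Submodule.torsionBy ℤ A n) :=
  Finite.of_equiv (Submodule.torsionBy ℤ B n) (torsionByEquiv φ n).symm

theorem card_torsionBy_legOf [DecidableEq K] (h2 : (2 : K) ≠ 0) {W : WeierstrassCurve K} {r : K}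
    (hr : IsTwoRoot W r) (n : ℤ) :
    Nat.card (Submodule.torsionBy ℤ W.toAffine.Point n)
      = Nat.card (Submodule.torsionBy ℤ (legOf W r).toAffine.Point n) :=
  card_torsionBy_congr (legEquiv h2 hr) n

/-- **Glue (general curve over an algebraically closed field).**  If every curve
`Y² = X³ + a X² + b X` with `Δ ≠ 0` over `K` has exactly `m` points of `n`-torsion,
so does every Weierstrass curve with `Δ ≠ 0`. -/
theorem card_torsion_of_leg' [DecidableEq K] [IsAlgClosed K] (h2 : (2 : K) ≠ 0) {n : ℤ} {m : ℕ}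
    (hLeg : ∀ W' : WeierstrassCurve K, W'.a₁ = 0 → W'.a₃ = 0 → W'.a₆ = 0 → W'.Δ ≠ 0 →
      Nat.card (Submodule.torsionBy ℤ W'.toAffine.Point n) = m)
    (W : WeierstrassCurve K) (hΔ : W.Δ ≠ 0) :
    Nat.card (Submodule.torsionBy ℤ W.toAffine.Point n) = m := by
  obtain ⟨r, hr⟩ := exists_isTwoRoot W
  rw [card_torsionBy_legOf h2 hr n]
  exact hLeg (legOf W r) rfl rfl rfl (by rw [legOf_Δ h2 hr]; exact hΔ)

/-- **Glue, literal Prelude shape.**  `E` an elliptic curve over `ℚ`, `K` an algebraically closed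
field containing `ℚ` (any `DecidableEq` instance). -/
theorem card_torsion_of_leg [DecidableEq K] [IsAlgClosed K] [Algebra ℚ K] {p : ℕ}
    (hLeg : ∀ W' : WeierstrassCurve K, W'.a₁ = 0 → W'.a₃ = 0 → W'.a₆ = 0 → W'.Δ ≠ 0 →
      Nat.card (Submodule.torsionBy ℤ W'.toAffine.Point (p : ℤ)) = p ^ 2)
    (E : WeierstrassCurve ℚ) [E.IsElliptic] :
    Nat.card (Submodule.torsionBy ℤ (E⁄K).Point p) = p ^ 2 := by
  have : CharZero K := charZero_of_injective_algebraMap (algebraMap ℚ K).injective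
  have h2 : (2 : K) ≠ 0 := two_ne_zero
  have hΔ : (E.map (algebraMap ℚ K)).Δ ≠ 0 := by
    rw [WeierstrassCurve.map_Δ]
    intro h
    exact E.isUnit_Δ.ne_zero ((map_eq_zero (algebraMap ℚ K)).mp h)
  exact card_torsion_of_leg' h2 hLeg (E.map (algebraMap ℚ K)) hΔ

end Fermat.Agent.S41.H52
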