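/-
S41, input (2) of `H53.top_of` (helper72): the literal `H53.UBridge`.
-/
import Mathlib
import Fermat.Agent.S41.UBridge_helper72
import Fermat.Agent.S41.Top_helper53

set_option autoImplicit false

namespace Fermat.Agent.S41.H72

/-- The literal input `hUb` of `H53.top_of`. -/
theorem uBridge (N q : ℕ) (hq : q ≠ 0) : H53.UBridge N q hq :=
  fun ψ => isUTr_uOp N hq ψ

end Fermat.Agent.S41.H72
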